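/-
NP33 (S33, ordinarity at `p ‖ N`) — helper2 (architect) — **the two geometric KEY statements**:
the contract between the algebraic top ([ALG33], [TOP33]) and the geometry ([NORMP], [KUMP], [OLDP],
[HOSTP], [BASEP]).  Style of S35 `KeyI3` / `KeyFrob`: pure statements about the groups `JZero _`,
the Galois action, the degeneracy pushforwards and the Hecke operator `T_p`; no models, no charts.

Notation: `A` a place of `Ω = ℚ̄` over `p`, `I = A.inertiaSubgroupIn ℚ`; for `σ ∈ I` and `a : ℕ`,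
`CycAct p σ a` says that `σ` acts on `μ_p` by `ζ ↦ ζ ^ a` (`a ≡ ε̄(σ)`).

* `KeyNew M p` (`p ∤ M`, level `M p`): there is a subgroup `S ≤ J₀(M p)` ("classes split at both
  sheets": kernel of the residue maps `R_∞`, `R_0` at all `p`-power levels) such that
  (a) `(τ - 1) y ∈ S` for every `p`-power torsion `y` and `τ ∈ I` (the residue maps are
      `I`-invariant homomorphisms);
  (c) for `x ∈ S` with `p x = 0`, `α_* x = 0`, `β_* x = 0`:  `σ x = a x` for every `σ ∈ I`
      (Theorem A: new + split ⇒ toric; Theorem B: toric ⇒ `I` acts through `ε̄`).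
* `KeyOld M p` (`p ∤ M`, level `M`, good reduction): a subgroup `S ≤ J₀(M)` (kernel of reduction on
  `p`-power torsion), an integer `e` (the top depth `e'`) and a decreasing filtration `D i` of
  `S ∩ J[p]` (depth `≥ i`) such that
  (a) `(τ - 1) y ∈ S`;  (d1) `S ∩ J[p] ⊆ D 1`;  (d2) `T_p (D i) ⊆ D (i + 1)` for `1 ≤ i < e`
  (Theorem C1, C2);  (d3) `σ x = a x` on `D e` (C3);  (d4) a class `x ∈ S ∩ J[p]` with
  `σ x = a x` for all `σ ∈ I` and `T_p x = 0` vanishes (Theorem C (b')).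
  (v2, 2026-11-29: `1 ≤ e` added; `x ∈ S` added to the hypotheses of (d4) — the top derives it
  from (a): `(a - 1) x = (σ - 1) x ∈ S` with `a ≢ 1 mod p`.)
-/
import Mathlib
import Fermat.Agent.S35.KEY_lead_Iface
import Fermat.Prelude.Def_ModularCurve_HeckeModule

set_option autoImplicit false
set_option linter.unusedSectionVars false
set_option linter.unusedVariables false

open AlgebraicCurve ModularCurve

namespace Fermat.Agent.NP

open Fermat.Agent.S35

/-- `Ω = AlgebraicClosure ℚ`. -/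
local notation "Ω" => AlgebraicClosure ℚ

/-- the absolute Galois group. -/
local notation "GQ" => (AlgebraicClosure ℚ ≃ₐ[ℚ] AlgebraicClosure ℚ)

/-- `σ` acts on the `p`-th roots of unity by `ζ ↦ ζ ^ a`. -/
def CycAct (p : ℕ) (σ : GQ) (a : ℕ) : Prop := ∀ ζ : Ω, ζ ^ p = 1 → σ ζ = ζ ^ a

/-- **(KEY-NEW)** at one place `A ∣ p`. -/
def KeyNewAt (M p : ℕ) [NeZero M] [NeZero p] [NeZero (M * p)] (A : ValuationSubring Ω) : Prop :=
  ∃ S : AddSubgroup (JZero (M * p)),
    (∀ (y : JZero (M * p)) (n : ℕ), p ^ n • y = 0 →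
      ∀ τ ∈ A.inertiaSubgroupIn ℚ, τ • y - y ∈ S) ∧
    (∀ x ∈ S, p • x = 0 → degPushAlpha M p x = 0 → degPushBeta M p x = 0 →
      ∀ σ ∈ A.inertiaSubgroupIn ℚ, ∀ a : ℕ, CycAct p σ a → σ • x = a • x)

/-- **(KEY-NEW)**: the `p`-new, residually split `p`-torsion of `J₀(M p)` is of multiplicative
type for the inertia groups at `p`. -/
def KeyNew (M p : ℕ) [NeZero M] [NeZero p] [NeZero (M * p)] : Prop :=
  ∀ A : ValuationSubring Ω, A.LiesOverPrime p → KeyNewAt M p A

/-- **the geometric input of the new case, all levels.** -/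
def KeyNewStatement : Prop :=
  ∀ (M p : ℕ) [NeZero M] [NeZero p] [NeZero (M * p)], p.Prime → p ≠ 2 → ¬ p ∣ M → KeyNew M p

/-- **(KEY-OLD)** at one place `A ∣ p`. -/
def KeyOldAt (M p : ℕ) [NeZero M] (hp : p.Prime) (A : ValuationSubring Ω) : Prop :=
  ∃ (S : AddSubgroup (JZero M)) (e : ℕ) (D : ℕ → AddSubgroup (JZero M)),
    1 ≤ e ∧
    (∀ (y : JZero M) (n : ℕ), p ^ n • y = 0 →
      ∀ τ ∈ A.inertiaSubgroupIn ℚ, τ • y - y ∈ S) ∧
    (∀ x ∈ S, p • x = 0 → x ∈ D 1) ∧
    (∀ i : ℕ, 1 ≤ i → i < e → ∀ x ∈ D i, heckeOperatorBar M ⟨p, hp⟩ x ∈ D (i + 1)) ∧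
    (∀ x ∈ D e, ∀ σ ∈ A.inertiaSubgroupIn ℚ, ∀ a : ℕ, CycAct p σ a → σ • x = a • x) ∧
    (∀ x ∈ S, p • x = 0 →
      (∀ σ ∈ A.inertiaSubgroupIn ℚ, ∀ a : ℕ, CycAct p σ a → σ • x = a • x) →
      heckeOperatorBar M ⟨p, hp⟩ x = 0 → x = 0)

/-- **(KEY-OLD)**: the depth filtration on the `p`-torsion of the kernel of reduction of `J₀(M)`,
`p ∤ M`, and its behaviour under `T_p` and the inertia groups at `p`. -/
def KeyOld (M p : ℕ) [NeZero M] (hp : p.Prime) : Prop :=
  ∀ A : ValuationSubring Ω, A.LiesOverPrime p → KeyOldAt M p hp A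

/-- **the geometric input of the old case, all levels.** -/
def KeyOldStatement : Prop :=
  ∀ (M p : ℕ) [NeZero M] (hp : p.Prime), p ≠ 2 → ¬ p ∣ M → KeyOld M p hp

end Fermat.Agent.NP
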