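/-
NP33 (S33) — helper2 (architect) — **[BASEP], interface: the three BASE statements** — what the
host side ([HOSTP] = models + Thm A/B/C) must deliver at ONE base, in the currency of
`SS/TOPB_lead_Iface` and `S35/FROBBASE_helper8_Iface` (`IsGalBase`/`IsBase`, `resGal`, `legGalois`,
`legE`, `keyFq`, `keyFqA/B`, `legHostA/B`, places): no charts, no models, no sheets.
[BASEP] (helper2) derives `KeyNewStatement` / `KeyOldStatement` from them.

Notation: `K₁` a base at `p` (`K^♭ ⊔ F`, residue field `𝔽̄_p`), `E_N = legE K₁ N` the Legendre host of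
level `N`, `σ̄ = legGalois K₁ N (resGal K₁ σ)` the coefficientwise action.
* `legInertiaCob A K₁ N` : the subgroup of `E_Nˣ` generated by the `τ̄ g / g`, `τ ∈ I_A`;
* `IsInertiaSplit A K₁ N p f` : `f ^ (p ^ k) = c · u`, `c ∈ K₁ˣ`, `u` an inertia coboundary
  (⇒ `f` has depth `≥ 1` at every sheet: the inertia group acts trivially on the residue fields of
  the sheets, which are perfect-over-`k` function fields; "saturation lemma");
* `IsConstMulPow p f` : `f = c · u ^ p`, `c ∈ K₁ˣ`;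
* `legHeckeP K M p` : `T_p = N_A ∘ B` on `E_M`.

* **`LegNewBaseP`** (level `M p`, Galois base `∋ ζ_p`): `f₀ ∈ F_{Mp}(K₁)` monic, divisor `∈ p·Div`
  with rational support on the host, both degeneracy norms `p`-th powers, inertia-split
  ⇒ `σ̄ f / f ^ a ∈ K₁ˣ · E^{×p}` for `σ ∈ I_A` acting on `μ_p` by `ζ ↦ ζ ^ a`.  [Thm A + Thm B]
* **`LegOldBaseP`** (level `M`, Galois base `∋ ζ_p`): there is `k` (`= e'(K₁) - 1`) such that for
  `f ∈ E_Mˣ` inertia-split with `div (T_p^j f) ∈ p·Div` (`j ≤ k`; ALL places, no rationality):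
  `σ̄ (T_p^k f) / (T_p^k f) ^ a ∈ K₁ˣ · E^{×p}`.  [(C1), (C2), (Δ3), (Δ6)]
* **`LegOldTopBaseP`** (level `M`, a base `K'` with uniformizer `ζ_p - 1`, an automorphism `s` of
  `K'` of inertia type with `s ζ = ζ ^ a₁`, `a₁ ≢ 1`): `div f ∈ p·Div`, `s̄ f / f ^ a₁` and `T_p f`
  in `K'ˣ · E^{×p}` ⇒ `f ∈ K'ˣ · E^{×p}`.  [(C1), (C3), (Δ6) at `e₁ = p - 1`]
-/
import Mathlib
import Fermat.Agent.NP.KEY_helper2_Iface
import Fermat.Agent.SS.TOPB_lead_Iface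
import Fermat.Agent.S35.FROBBASE_helper8_Iface
import Fermat.Agent.SS.HOSTB_helper8_HostB
import Fermat.Agent.SS.MODEL_helper7_Defs

set_option autoImplicit false
set_option linter.unusedSectionVars false
set_option linter.unusedVariables false
set_option linter.style.haveILetI false

open HahnSeries IntermediateField AlgebraicCurve ModularCurve IsLocalRing

namespace Fermat.Agent.NP

open Fermat.Agent.JA Fermat.Agent.FF Fermat.Agent.SS Fermat.Agent.S35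

/-- `Ω = AlgebraicClosure ℚ`. -/
local notation "Ω" => AlgebraicClosure ℚ

/-- the absolute Galois group. -/
local notation "GQ" => (AlgebraicClosure ℚ ≃ₐ[ℚ] AlgebraicClosure ℚ)

section Defs

/-- `f` is a non-zero constant times a `p`-th power. -/
def IsConstMulPow {K E : Type*} [Field K] [Field E] [Algebra K E] (p : ℕ) (f : E) : Prop :=
  ∃ (c : K) (u : E), c ≠ 0 ∧ f = algebraMap K E c * u ^ p

/-- the divisor condition with rational support (as in `SS.LegKummerBase`). -/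
def LegOrdCond (K₁ : IntermediateField ℚ Ω) (N : ℕ) [NeZero N] (m : ℕ) (f : ↥(legE ↥K₁ N)) : Prop :=
  ∀ P : Place ↥K₁ ↥(legE ↥K₁ N), P.ord f = 0 ∨ (IsRationalPlace P ∧ (m : ℤ) ∣ P.ord f)

/-- **the inertia coboundaries** of the host: the subgroup of `Eˣ` generated by the `τ̄ g / g`,
`τ` in the inertia group of `A`. -/
noncomputable def legInertiaCob (A : ValuationSubring Ω) (K₁ : IntermediateField ℚ Ω) [Normal ℚ ↥K₁] (N : ℕ)
    [NeZero N] : Subgroup (↥(legE ↥K₁ N))ˣ :=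
  Subgroup.closure {u | ∃ (g : (↥(legE ↥K₁ N))ˣ) (τ : GQ), τ ∈ A.inertiaSubgroupIn ℚ ∧
    (u : ↥(legE ↥K₁ N)) = legGalois ↥K₁ N (resGal K₁ τ) • (g : ↥(legE ↥K₁ N)) / g}

/-- **`f` is inertia-split**: a `p`-power power of `f` is a constant times an inertia coboundary. -/
def IsInertiaSplit (A : ValuationSubring Ω) (K₁ : IntermediateField ℚ Ω) [Normal ℚ ↥K₁] (N : ℕ)
    [NeZero N] (p : ℕ) (f : ↥(legE ↥K₁ N)) : Prop :=
  ∃ (k : ℕ) (c : ↥K₁) (u : (↥(legE ↥K₁ N))ˣ), c ≠ 0 ∧ u ∈ legInertiaCob A K₁ N ∧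
    f ^ p ^ k = algebraMap ↥K₁ ↥(legE ↥K₁ N) c * u

/-- **`T_p = N_A ∘ B`** on the Legendre host of level `M`. -/
noncomputable def legHeckeP (K : Type*) [Field K] [Algebra ℚ K] (M p : ℕ) [NeZero M] [NeZero p]
    [NeZero (M * p)] (hp : p.Prime) (hp2 : p ≠ 2) : ↥(legE K M) → ↥(legE K M) := fun f =>
  letI := (legHostA K M p).toRingHom.toAlgebra
  Algebra.norm ↥(legE K M) (legHostB K M p hp hp2 f)

end Defs

/-- **the base statement of the new case** (level `M p`, Galois base containing `ζ_p`). -/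
def LegNewBaseP : Prop :=
  ∀ (M : ℕ) [NeZero M] (p : ℕ) [NeZero p] [NeZero (M * p)], p.Prime → p ≠ 2 → ¬ p ∣ M →
  ∀ (A : ValuationSubring Ω), A.LiesOverPrime p →
  ∀ (K₁ : IntermediateField ℚ Ω) [Normal ℚ ↥K₁], IsGalBase p K₁ →
  (∃ ζ : ↥K₁, IsPrimitiveRoot ζ p) →
  ∀ σ ∈ A.inertiaSubgroupIn ℚ, ∀ a : ℕ, CycAct p σ a →
  ∀ f₀ : ↥(keyFq ↥K₁ (M * p)), f₀ ≠ 0 →
    ((f₀ : ↥(keyFq ↥K₁ (M * p))) : LaurentSeries ↥K₁).leadingCoeff = 1 →
    LegOrdCond K₁ (M * p) p (fullToLegE ↥K₁ (M * p) f₀) →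
    (∃ hA : ↥(keyFq ↥K₁ M),
      (letI := (keyFqA ↥K₁ M p).toRingHom.toAlgebra; Algebra.norm ↥(keyFq ↥K₁ M) f₀) = hA ^ p) →
    (∃ hB : ↥(keyFq ↥K₁ M),
      (letI := (keyFqB ↥K₁ M p).toRingHom.toAlgebra; Algebra.norm ↥(keyFq ↥K₁ M) f₀) = hB ^ p) →
    IsInertiaSplit A K₁ (M * p) p (fullToLegE ↥K₁ (M * p) f₀) →
    IsConstMulPow (K := ↥K₁) p
      (legGalois ↥K₁ (M * p) (resGal K₁ σ) • fullToLegE ↥K₁ (M * p) f₀ /
        fullToLegE ↥K₁ (M * p) f₀ ^ a)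

/-- **the base statement of the old case, depth filtration** (level `M`, Galois base containing
`ζ_p`). -/
def LegOldBaseP : Prop :=
  ∀ (M : ℕ) [NeZero M] (p : ℕ) [NeZero p] [NeZero (M * p)] (hp : p.Prime) (hp2 : p ≠ 2), ¬ p ∣ M →
  ∀ (A : ValuationSubring Ω), A.LiesOverPrime p →
  ∀ (K₁ : IntermediateField ℚ Ω) [Normal ℚ ↥K₁], IsGalBase p K₁ →
  (∃ ζ : ↥K₁, IsPrimitiveRoot ζ p) →
  ∃ k : ℕ, ∀ f : ↥(legE ↥K₁ M), f ≠ 0 →
    (∀ j : ℕ, j ≤ k → ∀ P : Place ↥K₁ ↥(legE ↥K₁ M),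
      (p : ℤ) ∣ P.ord ((legHeckeP ↥K₁ M p hp hp2)^[j] f)) →
    IsInertiaSplit A K₁ M p f →
    ∀ σ ∈ A.inertiaSubgroupIn ℚ, ∀ a : ℕ, CycAct p σ a →
      IsConstMulPow (K := ↥K₁) p
        (legGalois ↥K₁ M (resGal K₁ σ) • ((legHeckeP ↥K₁ M p hp hp2)^[k] f) /
          ((legHeckeP ↥K₁ M p hp hp2)^[k] f) ^ a)

/-- **the base statement of the old case, top depth** (level `M`, a base `K'` with uniformizer
`ζ_p - 1`, not necessarily normal over `ℚ`; `s` an automorphism of `K'` of inertia type). -/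
def LegOldTopBaseP : Prop :=
  ∀ (M : ℕ) [NeZero M] (p : ℕ) [NeZero p] [NeZero (M * p)] (hp : p.Prime) (hp2 : p ≠ 2), ¬ p ∣ M →
  ∀ (A : ValuationSubring Ω), A.LiesOverPrime p →
  ∀ (K' : IntermediateField ℚ Ω), IsBase p K' →
  ∀ (ζ : ↥(baseRing A K')), IsPrimitiveRoot ζ p → Irreducible (ζ - 1) →
  ∀ (s : ↥K' ≃ₐ[ℚ] ↥K') (a₁ : ℕ),
    (∀ r : ↥(baseRing A K'), ∃ r' : ↥(baseRing A K'), s (r : ↥K') = (r' : ↥K') ∧
      r' - r ∈ maximalIdeal ↥(baseRing A K')) →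
    s ((ζ : ↥(baseRing A K')) : ↥K') = ((ζ : ↥(baseRing A K')) : ↥K') ^ a₁ →
    ¬ (a₁ ≡ 1 [MOD p]) →
  ∀ f : ↥(legE ↥K' M), f ≠ 0 →
    (∀ P : Place ↥K' ↥(legE ↥K' M), (p : ℤ) ∣ P.ord f) →
    IsConstMulPow (K := ↥K') p (legGalois ↥K' M s • f / f ^ a₁) →
    IsConstMulPow (K := ↥K') p (legHeckeP ↥K' M p hp hp2 f) →
    IsConstMulPow (K := ↥K') p f

end Fermat.Agent.NP
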