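/-
NP33 (S33) — helper2 — **[BASEP], part 5: the Hecke operator `T_p = N_A ∘ B` on the Legendre host
and on the level field are compatible** (given that the host degree `[E_{Mp} : E_M]` is `p + 1`):
`legHeckeP K M p (π^* f) = π^* (N_{keyFqA} (keyFqB f))`.

* `legE_span_range_fullToLegE` : `E_{Mp}` is spanned over `E_M` by the image of `F_{Mp}`;
* `legHostNorm_fullToLegE` : `N_{E_{Mp}/E_M} (π^* z) = π^* (N_{F_{Mp}/F_M} z)`;
* `legHeckeP_fullToLegE`.
-/
import Mathlib
import Fermat.Agent.NP.BASEP_helper2_Iface
import Fermat.Agent.S35.XPORT_helper7_Main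
import Fermat.Agent.S35.NORMBC_helper8
import Fermat.Agent.S36.MODEL36_helper6_Tower
import Fermat.Agent.JA.GEOBASE_helper8_Compat

set_option autoImplicit false
set_option linter.unusedSectionVars false
set_option linter.unusedVariables false
set_option linter.style.haveILetI false
set_option synthInstance.maxHeartbeats 400000

open HahnSeries IntermediateField AlgebraicCurve ModularCurve

namespace Fermat.Agent.NP

open Fermat.Agent.JA Fermat.Agent.FF Fermat.Agent.SS Fermat.Agent.S35 Fermat.Agent.S36

section Abs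

variable {E E' : Type*} [Field E] [Field E'] [Algebra E E'] [Algebra.IsAlgebraic E E']

/-- a multiplicative subset generating the field `E'` over `E` spans it (`E' / E` algebraic). -/
theorem span_eq_top_of_field_generation (s : Submonoid E')
    (hgen : ∀ P : E' → Prop, (∀ e : E, P (algebraMap E E' e)) → (∀ x ∈ s, P x) →
      (∀ x y, P x → P y → P (x + y)) → (∀ x y, P x → P y → P (x * y)) →
      (∀ x, P x → P x⁻¹) → ∀ x, P x) :
    Submodule.span E (s : Set E') = ⊤ := by
  set B : Subalgebra E E' := Algebra.adjoin E (s : Set E') with hB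
  have hall : ∀ x : E', x ∈ B := by
    refine hgen (fun x => x ∈ B) (fun e => Subalgebra.algebraMap_mem B e)
      (fun x hx => Algebra.subset_adjoin hx) (fun x y hx hy => B.add_mem hx hy)
      (fun x y hx hy => B.mul_mem hx hy) (fun x hx => ?_)
    exact Subalgebra.inv_mem_of_algebraic B (x := ⟨x, hx⟩) (Algebra.IsAlgebraic.isAlgebraic x)
  rw [eq_top_iff]
  intro y _
  have hy := hall y
  rw [hB, ← Subalgebra.mem_toSubmodule, Algebra.adjoin_eq_span, Submonoid.closure_eq] at hy
  exact hy

end Abs

section Span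

variable (K : Type*) [Field K] [Algebra ℚ K] [Algebra K ℂ] (M p : ℕ) [NeZero M] [NeZero p]
  [NeZero (M * p)]

/-- the generation principle for the host of level `M p` over the host of level `M`. -/
theorem legE_generation (P : ↥(legE K (M * p)) → Prop)
    (h1 : ∀ e : ↥(legE K M), P (legHostA K M p e))
    (h2 : ∀ z : ↥(keyFq K (M * p)), P (fullToLegE K (M * p) z))
    (h3 : ∀ x y, P x → P y → P (x + y)) (h4 : ∀ x y, P x → P y → P (x * y))
    (h5 : ∀ x, P x → P x⁻¹) : ∀ x, P x := by
  have key : ∀ x : LaurentSeries K, x ∈ legE K (M * p) →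
      ∃ y : ↥(legE K (M * p)), (y : LaurentSeries K) = x ∧ P y := by
    intro x hx
    have hE : legE K (M * p) =
        IntermediateField.adjoin K ({legT K} ∪ (keyFw K (M * p) 2 : Set (LaurentSeries K))) := by
      rw [legE_eq_sup, IntermediateField.adjoin_union, IntermediateField.adjoin_self]
    rw [hE] at hx
    induction hx using IntermediateField.adjoin_induction with
    | mem x hx =>
      rcases hx with hx | hx
      · rw [Set.mem_singleton_iff] at hx
        subst hx
        have ht : legT K ∈ legE K M := Host.mem_Etu_t _ _ _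
        exact ⟨legHostA K M p ⟨legT K, ht⟩, coe_legHostA K M p _, h1 _⟩
      · obtain ⟨g, hg, rfl⟩ := hx
        exact ⟨fullToLegE K (M * p) ⟨g, hg⟩, rfl, h2 _⟩
    | algebraMap c =>
      refine ⟨legHostA K M p (algebraMap K ↥(legE K M) c), ?_, h1 _⟩
      rw [coe_legHostA]
      rfl
    | add x y _ _ hx hy =>
      obtain ⟨x', rfl, hx'⟩ := hx
      obtain ⟨y', rfl, hy'⟩ := hy
      exact ⟨x' + y', rfl, h3 _ _ hx' hy'⟩
    | inv x _ hx =>
      obtain ⟨x', rfl, hx'⟩ := hx
      exact ⟨x'⁻¹, rfl, h5 _ hx'⟩
    | mul x y _ _ hx hy =>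
      obtain ⟨x', rfl, hx'⟩ := hx
      obtain ⟨y', rfl, hy'⟩ := hy
      exact ⟨x' * y', rfl, h4 _ _ hx' hy'⟩
  intro x
  obtain ⟨y, hy, hPy⟩ := key (x : LaurentSeries K) x.2
  have : y = x := Subtype.ext hy
  rwa [this] at hPy

/-- **`E_{Mp} = E_M · π^*(F_{Mp})`**: the host of level `M p` is spanned over the host of level `M`
by the image of the level-`M p` function field (when `E_{Mp} / E_M` is algebraic). -/
theorem legE_span_range_fullToLegE
    (halg : letI := (legHostA K M p).toRingHom.toAlgebra
      Algebra.IsAlgebraic ↥(legE K M) ↥(legE K (M * p))) :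
    letI := (legHostA K M p).toRingHom.toAlgebra
    Submodule.span ↥(legE K M) (Set.range (fullToLegE K (M * p))) = ⊤ := by
  letI := (legHostA K M p).toRingHom.toAlgebra
  haveI := halg
  have h := span_eq_top_of_field_generation (E := ↥(legE K M)) (E' := ↥(legE K (M * p)))
    (MonoidHom.mrange ((fullToLegE K (M * p) : ↥(keyFq K (M * p)) →+* ↥(legE K (M * p))) :
        ↥(keyFq K (M * p)) →* ↥(legE K (M * p))))
    (fun P h1 h2 h3 h4 h5 => legE_generation K M p P h1 (fun z => h2 _ ⟨z, rfl⟩) h3 h4 h5)
  rw [← h]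
  congr 1

end Span

section Norm

variable (K : Type*) [Field K] [Algebra ℚ K] [Algebra K ℂ] (M p : ℕ) [NeZero M] [NeZero p]
  [NeZero (M * p)]

/-- **the norms of the hosts and of the level fields are compatible**, given that the host degree
is `p + 1`. -/
theorem legHostNorm_fullToLegE (hp : p.Prime) (hpM : ¬ p ∣ M)
    (hdeg : letI := (legHostA K M p).toRingHom.toAlgebra
      Module.finrank ↥(legE K M) ↥(legE K (M * p)) = p + 1)
    (z : ↥(keyFq K (M * p))) :
    (letI := (legHostA K M p).toRingHom.toAlgebra;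
      Algebra.norm ↥(legE K M) (fullToLegE K (M * p) z)) =
      fullToLegE K M (letI := (keyFqA K M p).toRingHom.toAlgebra;
        Algebra.norm ↥(keyFq K M) z) := by
  letI a1 := (legHostA K M p).toRingHom.toAlgebra
  letI a2 := (keyFqA K M p).toRingHom.toAlgebra
  have hdF : Module.finrank ↥(keyFq K M) ↥(keyFq K (M * p)) = p + 1 :=
    finrank_keyFqA_of_not_dvd K M p hp hpM
  haveI : FiniteDimensional ↥(keyFq K M) ↥(keyFq K (M * p)) :=
    Module.finite_of_finrank_pos (by rw [hdF]; omega)
  haveI : FiniteDimensional ↥(legE K M) ↥(legE K (M * p)) :=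
    Module.finite_of_finrank_pos (by rw [hdeg]; omega)
  have halg : Algebra.IsAlgebraic ↥(legE K M) ↥(legE K (M * p)) := Algebra.IsAlgebraic.of_finite _ _
  have hspan := legE_span_range_fullToLegE K M p halg
  exact (norm_map_of_finrank_eq (fullToLegE K M).toRingHom (fullToLegE K (M * p)).toRingHom
    (fun a => xport_fullToLegE_keyFqA K (q := p) a) (hdF.trans hdeg.symm) hspan z).symm

/-- **the Hecke operator `T_p` on the host and on the level field are compatible.** -/
theorem legHeckeP_fullToLegE (hp : p.Prime) (hp2 : p ≠ 2) (hpM : ¬ p ∣ M)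
    (hdeg : letI := (legHostA K M p).toRingHom.toAlgebra
      Module.finrank ↥(legE K M) ↥(legE K (M * p)) = p + 1)
    (f : ↥(keyFq K M)) :
    legHeckeP K M p hp hp2 (fullToLegE K M f) =
      fullToLegE K M (letI := (keyFqA K M p).toRingHom.toAlgebra;
        Algebra.norm ↥(keyFq K M) (keyFqB K M p f)) := by
  rw [← legHostNorm_fullToLegE K M p hp hpM hdeg, xport_fullToLegE_keyFqB K hp hp2 f]
  rfl

end Norm

end Fermat.Agent.NP
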