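import Mathlib
import Fermat.Agent.S35.NORMRED_helper9_Host
import Fermat.Agent.SS.VAL2_helper7_HostTwo

/-!
# NP33 — helper7 — [HOSTP-TL], part 2c: degrees, independence, inseparability on a generic host
-/

set_option autoImplicit false
set_option linter.unusedSectionVars false
set_option linter.style.haveILetI false

open Polynomial ModularCurve IsLocalRing

namespace Fermat.Agent.NP

open Fermat.Agent.JA Fermat.Agent.Igusa Fermat.Agent.SS Fermat.Agent.S35

section Host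

variable {R : Type*} [CommRing R] [IsDomain R] [IsDiscreteValuationRing R]
  {L : Type*} [Field L] [Algebra R L] [IsFractionRing R L]
  (EM EN : IntermediateField L (LaurentSeries L))
  (hle : EM ≤ EN) (q : ℕ) [NeZero q] (hB : ∀ f ∈ EM, qExpand L q f ∈ EN)
  (hEM : EM ≤ gaussField R L) (hEN : EN ≤ gaussField R L) [CharZero L]

/-- **the inseparability data of a generic host of level `M q`** (the inputs of
`SSNormData.of_insep`): both degrees are `q + 1`; `1, B J, …, (B J)^{q-1}` are independent at `W_0`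
over `A V_M` and `κ(W_0)^q ⊆ A κ(V_M)`; `1, A J, …, (A J)^{q-1}` are independent at `W_∞` over
`B V_M` and `κ(W_∞)^q ⊆ B κ(V_M)`. -/
theorem host_insep_data (hq : q.Prime) (hchar : (q : ResidueField R) = 0)
    (w : ℕ) (hcop : Nat.Coprime w q) (J : ↥EM) (hJ : (J : LaurentSeries L) ∈ gaussInt R L)
    (hJo : (gaussRed R L ⟨(J : LaurentSeries L), hJ⟩).order = -(w : ℤ))
    (hJ0 : gaussRed R L ⟨(J : LaurentSeries L), hJ⟩ ≠ 0)
    (hfinA : letI := (hostA EM EN hle : ↥EM →+* ↥EN).toAlgebra; FiniteDimensional ↥EM ↥EN)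
    (hdegA : letI := (hostA EM EN hle : ↥EM →+* ↥EN).toAlgebra;
      Module.finrank ↥EM ↥EN ≤ q + 1)
    (hfinB : letI := (hostB EM EN q hB : ↥EM →+* ↥EN).toAlgebra; FiniteDimensional ↥EM ↥EN)
    (hdegB : letI := (hostB EM EN q hB : ↥EM →+* ↥EN).toAlgebra;
      Module.finrank ↥EM ↥EN ≤ q + 1)
    (W0 : ValuationSubring ↥EN)
    (hW0A : W0.comap (hostA EM EN hle : ↥EM →+* ↥EN) = gaussValSub R L EM hEM)
    (hW0B : W0.comap (hostB EM EN q hB : ↥EM →+* ↥EN) = gaussValSub R L EM hEM)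
    (hkron : W0.valuation (hostA EM EN hle J - hostB EM EN q hB J ^ q) < 1)
    (hkinf : (gaussValSub R L EN hEN).valuation
      (hostB EM EN q hB J - hostA EM EN hle J ^ q) < 1) :
    (letI := (hostA EM EN hle : ↥EM →+* ↥EN).toAlgebra; Module.finrank ↥EM ↥EN = q + 1) ∧
    (∃ b : Fin q → ↥EN, (∀ i, b i ∈ W0) ∧ ∀ a : Fin q → ↥(gaussValSub R L EM hEM),
      W0.valuation (∑ i, hostA EM EN hle (a i : ↥EM) * b i) < 1 →
        ∀ i, a i ∈ maximalIdeal ↥(gaussValSub R L EM hEM)) ∧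
    (∀ y ∈ W0, ∃ a : ↥(gaussValSub R L EM hEM),
      W0.valuation (y ^ q - hostA EM EN hle (a : ↥EM)) < 1) ∧
    (letI := (hostB EM EN q hB : ↥EM →+* ↥EN).toAlgebra; Module.finrank ↥EM ↥EN = q + 1) ∧
    (∃ b : Fin q → ↥EN, (∀ i, b i ∈ gaussValSub R L EN hEN) ∧
      ∀ a : Fin q → ↥(gaussValSub R L EM hEM),
      (gaussValSub R L EN hEN).valuation (∑ i, hostB EM EN q hB (a i : ↥EM) * b i) < 1 →
        ∀ i, a i ∈ maximalIdeal ↥(gaussValSub R L EM hEM)) ∧
    (∀ y ∈ gaussValSub R L EN hEN, ∃ a : ↥(gaussValSub R L EM hEM),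
      (gaussValSub R L EN hEN).valuation (y ^ q - hostB EM EN q hB (a : ↥EM)) < 1) := by
  have hJM : J ∈ gaussValSub R L EM hEM := hJ
  have hAinf := comap_hostA_gaussValSub (R := R) EM EN hle hEM hEN
  have hBinf := comap_hostB_gaussValSub (R := R) EM EN q hB hEM hEN
  have hne := host_sheets_ne EM EN hle q hB hEN hq w (host_pos_of_coprime q hq hcop) J hJ hJo W0
    hkron
  haveI : CharZero ↥EM := charZero_of_injective_algebraMap (algebraMap L ↥EM).injective
  have hsepA : letI := (hostA EM EN hle : ↥EM →+* ↥EN).toAlgebra;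
      Algebra.IsSeparable ↥EM ↥EN := by
    letI := (hostA EM EN hle : ↥EM →+* ↥EN).toAlgebra
    haveI := hfinA
    exact Algebra.IsAlgebraic.isSeparable_of_perfectField
  have hsepB : letI := (hostB EM EN q hB : ↥EM →+* ↥EN).toAlgebra;
      Algebra.IsSeparable ↥EM ↥EN := by
    letI := (hostB EM EN q hB : ↥EM →+* ↥EN).toAlgebra
    haveI := hfinB
    exact Algebra.IsAlgebraic.isSeparable_of_perfectField
  have hBJ0 : hostB EM EN q hB J ∈ W0 :=
    (comap_mem_iff (hostB EM EN q hB : ↥EM →+* ↥EN) hW0B J).mpr hJM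
  have hAJinf : hostA EM EN hle J ∈ gaussValSub R L EN hEN :=
    (comap_mem_iff (hostA EM EN hle : ↥EM →+* ↥EN) hAinf J).mpr hJM
  have hindA : ∀ a : Fin q → ↥(gaussValSub R L EM hEM),
      W0.valuation (∑ i, hostA EM EN hle (a i : ↥EM) * hostB EM EN q hB J ^ (i : ℕ)) < 1 →
        ∀ i, a i ∈ maximalIdeal ↥(gaussValSub R L EM hEM) :=
    fun a ha => hind_A EM EN hle q hB hEM w hcop J hJ hJo hJ0 hq hchar W0 hW0A hW0B hkron a ha
  have hindB : ∀ a : Fin q → ↥(gaussValSub R L EM hEM),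
      (gaussValSub R L EN hEN).valuation
        (∑ i, hostB EM EN q hB (a i : ↥EM) * hostA EM EN hle J ^ (i : ℕ)) < 1 →
        ∀ i, a i ∈ maximalIdeal ↥(gaussValSub R L EM hEM) :=
    fun a ha => hind_B EM EN hle q hB hEM hEN w hcop J hJ hJo hJ0 a ha
  obtain ⟨dA, -, -, -, -, -⟩ := two_ext_hom (hostA EM EN hle : ↥EM →+* ↥EN)
    (gaussValSub R L EM hEM) hfinA hsepA hAinf hW0A hne hq.pos hdegA
    (fun i : Fin q => hostB EM EN q hB J ^ (i : ℕ)) (fun i => pow_mem hBJ0 _) hindA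
  obtain ⟨dB, -, -, -, -, b6⟩ := two_ext_hom (hostB EM EN q hB : ↥EM →+* ↥EN)
    (gaussValSub R L EM hEM) hfinB hsepB hW0B hBinf hne.symm hq.pos hdegB
    (fun i : Fin q => hostA EM EN hle J ^ (i : ℕ)) (fun i => pow_mem hAJinf _) hindB
  refine ⟨dA, ⟨fun i : Fin q => hostB EM EN q hB J ^ (i : ℕ), fun i => pow_mem hBJ0 _, hindA⟩,
    fun y hy => host_exists_pow_A EM EN hle q hB hEM hEN hq hchar w hcop J hJ hJo hJ0 hfinA hdegA
      W0 hW0A hW0B hkron hy,
    dB, ⟨fun i : Fin q => hostA EM EN hle J ^ (i : ℕ), fun i => pow_mem hAJinf _, hindB⟩, ?_⟩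
  intro y hy
  obtain ⟨a, ha⟩ := b6 y hy
  have hcharinf : (gaussValSub R L EN hEN).valuation ((q : ℕ) : ↥EN) < 1 :=
    natCast_val_lt_one EN q hEN hchar
  have hk' : (gaussValSub R L EN hEN).valuation (hostA EM EN hle J ^ q -
      (hostB EM EN q hB : ↥EM →+* ↥EN) ((⟨J, hJM⟩ : ↥(gaussValSub R L EM hEM)) : ↥EM)) < 1 := by
    rw [Valuation.map_sub_swap]
    exact hkinf
  exact ⟨_, normred_pow_sub_val_lt_one (hostB EM EN q hB : ↥EM →+* ↥EN) hBinf hq hcharinf hAJinf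
    ⟨J, hJM⟩ hk' a ha⟩

end Host

end Fermat.Agent.NP
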