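import Mathlib

/-!
# NP33 — helper7 — [HOSTP-TL], part 2a: `p`-bases in characteristic `p`

`IsPSum p τ y` : `y = ∑_{i<p} c_i^p τ^i` (`y ∈ κ^p[τ]`); these elements form a subfield
(`pSumSubfield`); a `p`-basis `τ` of `F` (every element of `F` is such a sum) stays a `p`-basis in
every separable algebraic extension (`isPSum_of_isSeparable`).
-/

set_option autoImplicit false
set_option linter.unusedSectionVars false
set_option linter.style.haveILetI false

namespace Fermat.Agent.NP

section PBasis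

variable {κ : Type*} [Field κ] (p : ℕ) [hp : Fact p.Prime] [CharP κ p] (τ : κ)

/-- `y ∈ κ^p[τ]`: `y = ∑_{i<p} c_i^p τ^i`. -/
def IsPSum (y : κ) : Prop := ∃ c : Fin p → κ, y = ∑ i, c i ^ p * τ ^ (i : ℕ)

theorem isPSum_zero : IsPSum p τ (0 : κ) :=
  ⟨fun _ => 0, by simp [zero_pow hp.out.ne_zero]⟩

theorem IsPSum.add {y z : κ} (hy : IsPSum p τ y) (hz : IsPSum p τ z) : IsPSum p τ (y + z) := by
  obtain ⟨c, rfl⟩ := hy
  obtain ⟨d, rfl⟩ := hz
  refine ⟨fun i => c i + d i, ?_⟩
  rw [← Finset.sum_add_distrib]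
  refine Finset.sum_congr rfl fun i _ => ?_
  rw [add_pow_char]
  ring

theorem isPSum_sum {ι : Type*} (s : Finset ι) (f : ι → κ) (h : ∀ i ∈ s, IsPSum p τ (f i)) :
    IsPSum p τ (∑ i ∈ s, f i) := by
  classical
  induction s using Finset.induction_on with
  | empty => simpa using isPSum_zero p τ
  | insert a s ha ih =>
    rw [Finset.sum_insert ha]
    exact (h a (Finset.mem_insert_self a s)).add p τ
      (ih fun i hi => h i (Finset.mem_insert_of_mem hi))

theorem isPSum_pow_mul_pow (a : κ) (n : ℕ) : IsPSum p τ (a ^ p * τ ^ n) := by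
  classical
  have hp0 : 0 < p := hp.out.pos
  refine ⟨Pi.single ⟨n % p, Nat.mod_lt n hp0⟩ (a * τ ^ (n / p)), ?_⟩
  rw [Finset.sum_eq_single (⟨n % p, Nat.mod_lt n hp0⟩ : Fin p)]
  · rw [Pi.single_eq_same, mul_pow, ← pow_mul, mul_assoc, ← pow_add]
    congr 2
    show n = n / p * p + n % p
    rw [mul_comm]
    exact (Nat.div_add_mod n p).symm
  · intro b _ hb
    rw [Pi.single_eq_of_ne hb, zero_pow hp.out.ne_zero, zero_mul]
  · intro h
    exact absurd (Finset.mem_univ _) h

theorem IsPSum.pow_mul {y : κ} (hy : IsPSum p τ y) (a : κ) : IsPSum p τ (a ^ p * y) := by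
  obtain ⟨c, rfl⟩ := hy
  refine ⟨fun i => a * c i, ?_⟩
  rw [Finset.mul_sum]
  refine Finset.sum_congr rfl fun i _ => ?_
  rw [mul_pow]
  ring

theorem IsPSum.mul {y z : κ} (hy : IsPSum p τ y) (hz : IsPSum p τ z) : IsPSum p τ (y * z) := by
  obtain ⟨c, rfl⟩ := hy
  obtain ⟨d, rfl⟩ := hz
  rw [Finset.sum_mul_sum]
  refine isPSum_sum p τ _ _ fun i _ => isPSum_sum p τ _ _ fun j _ => ?_
  have e : c i ^ p * τ ^ (i : ℕ) * (d j ^ p * τ ^ (j : ℕ))
      = (c i * d j) ^ p * τ ^ ((i : ℕ) + (j : ℕ)) := by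
    rw [mul_pow, pow_add]
    ring
  rw [e]
  exact isPSum_pow_mul_pow p τ _ _

theorem isPSum_one : IsPSum p τ (1 : κ) := by
  have := isPSum_pow_mul_pow p τ (1 : κ) 0
  simpa using this

theorem isPSum_self : IsPSum p τ τ := by
  have := isPSum_pow_mul_pow p τ (1 : κ) 1
  simpa using this

theorem IsPSum.pow {y : κ} (hy : IsPSum p τ y) (n : ℕ) : IsPSum p τ (y ^ n) := by
  induction n with
  | zero => simpa using isPSum_one p τ
  | succ n ih => rw [pow_succ]; exact ih.mul p τ hy

theorem IsPSum.inv {y : κ} (hy : IsPSum p τ y) : IsPSum p τ y⁻¹ := by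
  by_cases h0 : y = 0
  · rw [h0, inv_zero]; exact isPSum_zero p τ
  have e : y⁻¹ = (y⁻¹) ^ p * y ^ (p - 1) := by
    have hp1 : p = (p - 1) + 1 := (Nat.sub_add_cancel hp.out.one_le).symm
    have h2 : (y⁻¹) ^ p = (y⁻¹) ^ (p - 1) * y⁻¹ := by
      conv_lhs => rw [hp1, pow_succ]
    rw [h2, mul_assoc, mul_comm y⁻¹, ← mul_assoc, ← mul_pow, inv_mul_cancel₀ h0, one_pow, one_mul]
  rw [e]
  exact (hy.pow p τ (p - 1)).pow_mul p τ _

/-- the subfield `κ^p(τ)`. -/
def pSumSubfield : Subfield κ where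
  carrier := {y | IsPSum p τ y}
  mul_mem' := fun hy hz => hy.mul p τ hz
  one_mem' := isPSum_one p τ
  add_mem' := fun hy hz => hy.add p τ hz
  zero_mem' := isPSum_zero p τ
  neg_mem' := fun {y} hy => by
    have e : -y = (-1 : κ) ^ p * y := by
      rcases hp.out.eq_two_or_odd' with h2 | hodd
      · have : (2 : κ) = 0 := by
          have := CharP.cast_eq_zero κ p
          rw [h2] at this
          exact_mod_cast this
        have h1 : (-1 : κ) = 1 := by linear_combination -this
        rw [h1, one_pow, one_mul]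
        linear_combination (-y) * this
      · rw [hodd.neg_one_pow]; ring
    rw [e]
    exact IsPSum.pow_mul p τ hy _
  inv_mem' := fun _ hy => hy.inv p τ

theorem mem_pSumSubfield {y : κ} : y ∈ pSumSubfield p τ ↔ IsPSum p τ y := Iff.rfl

end PBasis

section Sep

variable {F E : Type*} [Field F] [Field E] [Algebra F E] [Algebra.IsSeparable F E]
  (p : ℕ) [hp : Fact p.Prime] [CharP F p]

/-- **a `p`-basis of `F` stays a `p`-basis in a separable algebraic extension.** -/
theorem isPSum_of_isSeparable (τ : F) (hF : ∀ f : F, IsPSum p τ f) (z : E) :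
    IsPSum p (algebraMap F E τ) z := by
  haveI : CharP E p := charP_of_injective_algebraMap (algebraMap F E).injective p
  haveI : ExpChar F p := ExpChar.prime hp.out
  have hspan := Field.span_map_pow_expChar_pow_eq_top_of_isSeparable (F := F) (E := E) p 1
    (v := fun x : E => x) (by rw [Set.range_id']; exact Submodule.span_univ)
  have hz : z ∈ Submodule.span F (Set.range fun x : E => x ^ p ^ 1) := by
    rw [hspan]; exact Submodule.mem_top
  rw [Finsupp.mem_span_range_iff_exists_finsupp] at hz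
  obtain ⟨c, rfl⟩ := hz
  rw [Finsupp.sum]
  refine isPSum_sum p _ _ _ fun y _ => ?_
  rw [pow_one, Algebra.smul_def]
  obtain ⟨g, hg⟩ := hF (c y)
  rw [hg, map_sum, Finset.sum_mul]
  refine isPSum_sum p _ _ _ fun i _ => ?_
  have e : algebraMap F E (g i ^ p * τ ^ (i : ℕ)) * y ^ p
      = (algebraMap F E (g i) * y) ^ p * algebraMap F E τ ^ (i : ℕ) := by
    rw [map_mul, map_pow, map_pow, mul_pow]
    ring
  rw [e]
  exact isPSum_pow_mul_pow p _ _ _

end Sep

end Fermat.Agent.NP
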