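/-
NP33 (S33) — helper5 — package **[BRIDGE]**, part 5: **the `LocalPt` of a closed point of the
special fibre of a chart**: `chartLocalPtSmooth` (one component through the point, `ι = Unit`) and
`chartLocalPtNode` (two components, `ι = Bool`).  `R' = locSub B 𝔪`.

(K1) from `𝔭∞ ∩ 𝔭0 ⊆ (π)`; (NORM) from the branch uniformizers (`norm_locSub`); (GLUE) from
`𝔪 B_𝔪 = 𝔭∞ B_𝔪 + 𝔭0 B_𝔪` at a node; (RES) from `B / 𝔪 = R / π`.
-/
import Fermat.Agent.NP.BRIDGE_helper5_Max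

set_option autoImplicit false
set_option linter.unusedSectionVars false

namespace Fermat.Agent.NP

open Polynomial Fermat.Agent.SS

section Local

variable {R : Type*} [CommRing R] {F : Type*} [Field F] [Algebra R F]
  {B : Subalgebra R F} {𝔪 : Ideal ↥B} [h𝔪 : 𝔪.IsPrime]

theorem nonunit_add_locSub {x y : F} (hx : x ∈ locSub B 𝔪) (hy : y ∈ locSub B 𝔪)
    (hx' : x⁻¹ ∉ locSub B 𝔪) (hy' : y⁻¹ ∉ locSub B 𝔪) (_hxy : x + y ≠ 0) :
    (x + y)⁻¹ ∉ locSub B 𝔪 := by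
  have h1 : x ∈ locM B 𝔪 := mem_locM_iff.2 ⟨hx, Or.inr hx'⟩
  have h2 : y ∈ locM B 𝔪 := mem_locM_iff.2 ⟨hy, Or.inr hy'⟩
  rcases (mem_locM_iff.1 (add_mem_locM h1 h2)).2 with h | h
  · exact absurd h _hxy
  · exact h

end Local

section Res

variable {R : Type*} [CommRing R] [IsDomain R] [IsDiscreteValuationRing R]
  {F : Type*} [Field F] [Algebra R F]
  {B : Subalgebra R F} {𝔪 : Ideal ↥B} [h𝔪 : 𝔪.IsPrime] {π : R}

/-- **(RES)**: the residue field of `B_𝔪` is `R / π`. -/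
theorem res_locSub (hπ : Irreducible π) (hπ𝔪 : algebraMap R ↥B π ∈ 𝔪)
    (hres : ∀ b : ↥B, ∃ a : R, b - algebraMap R ↥B a ∈ 𝔪) {s : F} (hs : s ∈ locSub B 𝔪) :
    ∃ a : R, s - algebraMap R F a ∈ locM B 𝔪 := by
  obtain ⟨b, σ, hσ, hsσ⟩ := hs
  obtain ⟨ab, hab⟩ := hres b
  obtain ⟨aσ, haσ⟩ := hres σ
  have hu : IsUnit aσ := by
    by_contra hnu
    have h1 : aσ ∈ IsLocalRing.maximalIdeal R := (IsLocalRing.mem_maximalIdeal _).2 hnu
    rw [hπ.maximalIdeal_eq, Ideal.mem_span_singleton] at h1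
    obtain ⟨c, rfl⟩ := h1
    apply hσ
    have : σ = (σ - algebraMap R ↥B (π * c)) + algebraMap R ↥B π * algebraMap R ↥B c := by
      rw [map_mul]; ring
    rw [this]
    exact 𝔪.add_mem haσ (𝔪.mul_mem_right _ hπ𝔪)
  obtain ⟨v, rfl⟩ := hu
  refine ⟨ab * ((v⁻¹ : Rˣ) : R), (b - algebraMap R ↥B ab) +
    algebraMap R ↥B (ab * ((v⁻¹ : Rˣ) : R)) * (algebraMap R ↥B (v : R) - σ), σ, ?_, hσ, ?_⟩
  · refine 𝔪.add_mem hab (𝔪.mul_mem_left _ ?_)
    have := 𝔪.neg_mem haσ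
    rwa [neg_sub] at this
  · have e0 : ∀ x : R, ((algebraMap R ↥B x : ↥B) : F) = algebraMap R F x := fun _ => rfl
    simp only [Subalgebra.coe_add, Subalgebra.coe_sub, Subalgebra.coe_mul, e0]
    rw [sub_mul, hsσ]
    have h1 : algebraMap R F (ab * ((v⁻¹ : Rˣ) : R)) * algebraMap R F (v : R) = algebraMap R F ab := by
      rw [← map_mul, mul_assoc, Units.inv_mul, mul_one]
    linear_combination (-1 : F) * h1

end Res

section Pt

variable {R : Type*} [CommRing R] [IsDomain R] [IsDiscreteValuationRing R]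
  {K₁ : Type*} [Field K₁] [Algebra R K₁] [IsFractionRing R K₁]
  {F : Type*} [Field F] [Algebra K₁ F] [Algebra R F] [IsScalarTower R K₁ F]
  {B : Subalgebra R F} [IsNoetherianRing ↥B] [IsFractionRing ↥B F]
  {π : R} (hπ : Irreducible π) {p : ℕ} (hp : p.Prime) {e₁ : ℕ} (he₁ : 0 < e₁) {ε : Rˣ}
  (hpe : (p : R) = ε * π ^ e₁) (hAC : ResAlgClosed π)

theorem hloc_of_hk1 {𝔭 𝔪 : Ideal ↥B} (hle : 𝔭 ≤ 𝔪)
    (hk1 : ∀ a ∈ 𝔭, ∃ b : ↥B, b ∉ 𝔪 ∧ algebraMap R ↥B π ∣ b * a) :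
    ∀ z ∈ 𝔭, ∃ s : ↥B, s ∉ 𝔭 ∧ algebraMap R ↥B π ∣ s * z := by
  intro z hz
  obtain ⟨b, hb, hdvd⟩ := hk1 z hz
  exact ⟨b, fun h => hb (hle h), hdvd⟩

/-- **the `LocalPt` of a closed point on exactly one component.** -/
noncomputable def chartLocalPtSmooth (𝔭 𝔪 : Ideal ↥B) [h𝔭 : 𝔭.IsPrime] [h𝔪 : 𝔪.IsPrime]
    (hle : 𝔭 ≤ 𝔪) (hπ𝔭 : algebraMap R ↥B π ∈ 𝔭)
    (hk1 : ∀ a ∈ 𝔭, ∃ b : ↥B, b ∉ 𝔪 ∧ algebraMap R ↥B π ∣ b * a)
    {z : ↥B} (hz : IsBranchUniformizer 𝔭 𝔪 z)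
    (hres : ∀ b : ↥B, ∃ a : R, b - algebraMap R ↥B a ∈ 𝔪) :
    LocalPt (chartDepthBase (K₁ := K₁) (F := F) hπ hp he₁ hpe hAC) Unit where
  sheet := fun _ => chartSheet (K₁ := K₁) hπ hp he₁ hpe hAC 𝔭 hπ𝔭 (hloc_of_hk1 hle hk1)
  R' := locSub B 𝔪
  le_sheet := fun _ => locSub_mono hle
  R₁_le := by
    rintro _ ⟨r, rfl⟩
    exact algebraMap_mem_locSub r
  nonunit_add := fun x hx y hy hx' hy' hxy => nonunit_add_locSub hx hy hx' hy' hxy
  k1 := by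
    intro x hx hdv
    have h1 := hdv ()
    obtain ⟨a, s, hs, hxs⟩ := hx
    have ha : a ∈ 𝔭 := (piDvd_one_locSub_iff hπ𝔭 (hloc_of_hk1 hle hk1)
      (fun h' => hs (hle h')) hxs).1 h1
    obtain ⟨b, hb, c, hc⟩ := hk1 a ha
    refine (piDvd_locSub_iff π 1).2 ⟨c, s * b, fun h => (h𝔪.mem_or_mem h).elim hs hb, ?_⟩
    have hc' : (b : F) * (a : F) = algebraMap R F π * (c : F) := by
      have := congrArg (fun w : ↥B => (w : F)) hc
      simpa using this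
    push_cast
    rw [pow_one, ← hc', ← hxs]
    ring
  norm := by
    intro _ h hh s hs t ht heq
    exact norm_locSub hle hz hπ𝔭 (hloc_of_hk1 hle hk1) hp hh hs ht heq
  glue := by
    intro h hh _
    exact ⟨h (), hh (), fun _ => by rw [sub_self]; exact piDvd_zero⟩
  res := by
    intro s hs
    obtain ⟨a, ha⟩ := res_locSub hπ (hle hπ𝔭) hres hs
    refine ⟨algebraMap R F a, ⟨a, rfl⟩, fun h0 => ?_⟩
    rcases (mem_locM_iff.1 ha).2 with h | h
    · exact absurd h h0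
    · exact h

theorem hloc_of_inf_le {𝔭 𝔭' : Ideal ↥B} (hinf : 𝔭 ⊓ 𝔭' ≤ Ideal.span {algebraMap R ↥B π})
    {x : ↥B} (hx : x ∉ 𝔭) (hx' : x ∈ 𝔭') :
    ∀ z ∈ 𝔭, ∃ s : ↥B, s ∉ 𝔭 ∧ algebraMap R ↥B π ∣ s * z := by
  intro z hz
  refine ⟨x, hx, ?_⟩
  have : x * z ∈ 𝔭 ⊓ 𝔭' := ⟨𝔭.mul_mem_left _ hz, 𝔭'.mul_mem_right _ hx'⟩
  exact Ideal.mem_span_singleton.1 (hinf this)

/-- **the `LocalPt` of a node** (both components through the point; `true ↦ 𝔭∞`, `false ↦ 𝔭0`). -/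
noncomputable def chartLocalPtNode (𝔭inf 𝔭0 𝔪 : Ideal ↥B) [h𝔭inf : 𝔭inf.IsPrime]
    [h𝔭0 : 𝔭0.IsPrime] [h𝔪 : 𝔪.IsPrime] (hleinf : 𝔭inf ≤ 𝔪) (hle0 : 𝔭0 ≤ 𝔪)
    (hπinf : algebraMap R ↥B π ∈ 𝔭inf) (hπ0 : algebraMap R ↥B π ∈ 𝔭0)
    (hinf : 𝔭inf ⊓ 𝔭0 ≤ Ideal.span {algebraMap R ↥B π})
    {x y : ↥B} (hx : IsBranchUniformizer 𝔭inf 𝔪 x) (hx0 : x ∈ 𝔭0)
    (hy : IsBranchUniformizer 𝔭0 𝔪 y) (hyinf : y ∈ 𝔭inf)
    (hres : ∀ b : ↥B, ∃ a : R, b - algebraMap R ↥B a ∈ 𝔪) :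
    LocalPt (chartDepthBase (K₁ := K₁) (F := F) hπ hp he₁ hpe hAC) Bool where
  sheet := fun b => cond b
    (chartSheet (K₁ := K₁) hπ hp he₁ hpe hAC 𝔭inf hπinf (hloc_of_inf_le hinf hx.notMem hx0))
    (chartSheet (K₁ := K₁) hπ hp he₁ hpe hAC 𝔭0 hπ0
      (hloc_of_inf_le (by rw [inf_comm]; exact hinf) hy.notMem hyinf))
  R' := locSub B 𝔪
  le_sheet := by
    rintro (_ | _)
    · exact locSub_mono hle0
    · exact locSub_mono hleinf
  R₁_le := by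
    rintro _ ⟨r, rfl⟩
    exact algebraMap_mem_locSub r
  nonunit_add := fun x hx y hy hx' hy' hxy => nonunit_add_locSub hx hy hx' hy' hxy
  k1 := by
    intro w hw hdv
    have h1 := hdv true
    have h0 := hdv false
    obtain ⟨a, s, hs, hws⟩ := hw
    have hainf : a ∈ 𝔭inf := (piDvd_one_locSub_iff hπinf (hloc_of_inf_le hinf hx.notMem hx0)
      (fun h' => hs (hleinf h')) hws).1 h1
    have ha0 : a ∈ 𝔭0 := (piDvd_one_locSub_iff hπ0
      (hloc_of_inf_le (by rw [inf_comm]; exact hinf) hy.notMem hyinf)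
      (fun h' => hs (hle0 h')) hws).1 h0
    obtain ⟨c, hc⟩ := Ideal.mem_span_singleton.1 (hinf ⟨hainf, ha0⟩)
    refine (piDvd_locSub_iff π 1).2 ⟨c, s, hs, ?_⟩
    have hc' : (a : F) = algebraMap R F π * (c : F) := by
      have := congrArg (fun w : ↥B => (w : F)) hc
      simpa using this
    rw [pow_one, ← hc', hws]
  norm := by
    rintro (_ | _) h hh s hs t ht heq
    · exact norm_locSub hle0 hy hπ0
        (hloc_of_inf_le (by rw [inf_comm]; exact hinf) hy.notMem hyinf) hp hh hs ht heq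
    · exact norm_locSub hleinf hx hπinf (hloc_of_inf_le hinf hx.notMem hx0) hp hh hs ht heq
  glue := by
    intro h hh hcompat
    -- `d = h true - h false` is a non-unit
    have hd : h true - h false ∈ locM B 𝔪 := by
      rw [mem_locM_iff]
      refine ⟨(locSub B 𝔪).sub_mem (hh true) (hh false), ?_⟩
      by_cases h0 : h true - h false = 0
      · exact Or.inl h0
      · exact Or.inr (hcompat true false h0)
    obtain ⟨w, σ, hw, hσ, hdσ⟩ := hd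
    obtain ⟨a, s, hs, hrel⟩ := hx.gen w hw
    have hsσ : s * σ ∉ 𝔪 := fun h' => (h𝔪.mem_or_mem h').elim hs hσ
    have hU := isUnitIn_coe_of_notMem (F := F) hsσ
    have hU0 : ((s * σ : ↥B) : F) ≠ 0 := hU.2.2
    refine ⟨h false + ((a * x : ↥B) : F) * (((s * σ : ↥B) : F))⁻¹,
      (locSub B 𝔪).add_mem (hh false) ((locSub B 𝔪).mul_mem (coe_mem_locSub _) hU.2.1), ?_⟩
    rintro (_ | _)
    · -- the sheet `𝔭0`
      have e : h false + ((a * x : ↥B) : F) * (((s * σ : ↥B) : F))⁻¹ - h false =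
          ((a * x : ↥B) : F) * (((s * σ : ↥B) : F))⁻¹ := by ring
      change PiDvd (algebraMap R F π) (locSub B 𝔭0) 1 _
      rw [e]
      exact (piDvd_of_mem_prime hπ0
        (hloc_of_inf_le (by rw [inf_comm]; exact hinf) hy.notMem hyinf)
        (𝔭0.mul_mem_left a hx0)).mul_right (locSub_mono hle0 hU.2.1)
    · -- the sheet `𝔭∞`
      have e : h false + ((a * x : ↥B) : F) * (((s * σ : ↥B) : F))⁻¹ - h true =
          -((s * w - a * x : ↥B) : F) * (((s * σ : ↥B) : F))⁻¹ := by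
        have hdσ' : (h true - h false) * (σ : F) = (w : F) := hdσ
        have hs0 : (s : F) ≠ 0 := by
          intro h0
          apply hU0
          push_cast
          rw [h0, zero_mul]
        have hσ0 : (σ : F) ≠ 0 := by
          intro h0
          apply hU0
          push_cast
          rw [h0, mul_zero]
        push_cast
        field_simp
        linear_combination (-(s : F)) * hdσ'
      change PiDvd (algebraMap R F π) (locSub B 𝔭inf) 1 _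
      rw [e]
      exact ((piDvd_of_mem_prime hπinf (hloc_of_inf_le hinf hx.notMem hx0) hrel).neg).mul_right
        (locSub_mono hleinf hU.2.1)
  res := by
    intro s hs
    obtain ⟨a, ha⟩ := res_locSub hπ (hleinf hπinf) hres hs
    refine ⟨algebraMap R F a, ⟨a, rfl⟩, fun h0 => ?_⟩
    rcases (mem_locM_iff.1 ha).2 with h | h
    · exact absurd h h0
    · exact h

end Pt

end Fermat.Agent.NP
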