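/-
NP33 (S33, ordinarity at `p ‖ N`) — helper5 — **interface for the packages [DEPTH], [EXT], [IDEM]**
(finding 399 §3, with the corrections (R1), (R2), (R5) of finding 400).  Mathlib only.

Everything lives inside one field `F` (the function field of the host over the base `K₁`).

* `DepthBase F p` : the base: the subfield `K₁ ⊂ F` of constants, its discrete valuation ring `R₁`
  with uniformizer `π`, the absolute ramification index `e₁` and the unit `ε` with `p = ε · π ^ e₁`;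
  the residue field `k` of `R₁` is Artin–Schreier closed (`b ^ p + θ b = a` solvable; `θ = 0`: perfect).
* `Sheet B` : a "sheet" = a discrete valuation ring `W ⊂ F` with uniformizer `π` and `K₁ ∩ W = R₁`;
  `k` is algebraically closed in the residue field `κ` of `W` (for the equations `T ^ p + θ T = a`).
* `LocalPt B ι` : the local ring `R' ⊂ F` of the normal model at a closed point of the special fibre
  through which the sheets `sheet i` (`i : ι`; one sheet = smooth point, two sheets = node) pass: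
  `(K1)` `π W ∩ R' = π R'`, `(NORM)` the image of `R'` in each `κ_i` is integrally closed (for the
  equations `T ^ p + t T = s`), `(GLUE)` `R'/π` is the fibre product of its images over `k`,
  `(RES)` the residue field of `R'` is `k`.
* `PiDvd π S n x` : `x ∈ π ^ n S` for a subring `S ⊂ F`.
* `Sheet.DepthGE` : `depth_W(f) ≥ i`.
-/
import Mathlib

set_option autoImplicit false

namespace Fermat.Agent.NP

/-- `x ∈ π ^ n · S`. -/
def PiDvd {F : Type*} [Field F] (π : F) (S : Subring F) (n : ℕ) (x : F) : Prop :=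
  ∃ t ∈ S, x = π ^ n * t

/-- The base of the depth calculus. -/
structure DepthBase (F : Type*) [Field F] (p : ℕ) where
  /-- the constants -/
  K₁ : Subfield F
  /-- the valuation ring of the constants -/
  R₁ : Subring F
  R₁_le : ∀ a ∈ R₁, a ∈ K₁
  /-- the uniformizer of the base -/
  π : F
  π_mem : π ∈ R₁
  π_ne_zero : π ≠ 0
  π_inv_notMem : π⁻¹ ∉ R₁
  /-- `R₁` is a discrete valuation ring of `K₁` with uniformizer `π` -/
  unif_const : ∀ a ∈ K₁, a ≠ 0 → ∃ (n : ℤ) (u : F), u ∈ R₁ ∧ u⁻¹ ∈ R₁ ∧ a = π ^ n * u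
  /-- the absolute ramification index `v_π(p)` -/
  e₁ : ℕ
  e₁_pos : 0 < e₁
  /-- `p = ε · π ^ e₁` -/
  ε : F
  ε_mem : ε ∈ R₁
  ε_inv_mem : ε⁻¹ ∈ R₁
  ε_ne_zero : ε ≠ 0
  p_eq : (p : F) = ε * π ^ e₁
  /-- the residue field `k` of `R₁` is Artin–Schreier closed (and perfect: `θ = 0`) -/
  asclosed : ∀ a ∈ R₁, ∀ θ ∈ R₁, ∃ b ∈ R₁, PiDvd π R₁ 1 (b ^ p + θ * b - a)

/-- A sheet: a discrete valuation ring of `F` with uniformizer `π`, over the base. -/
structure Sheet {F : Type*} [Field F] {p : ℕ} (B : DepthBase F p) where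
  /-- the valuation ring of the sheet -/
  W : Subring F
  R₁_le : B.R₁ ≤ W
  /-- `K₁ ∩ W = R₁` -/
  const_mem : ∀ a ∈ B.K₁, a ∈ W → a ∈ B.R₁
  π_inv_notMem : B.π⁻¹ ∉ W
  /-- `W` is a discrete valuation ring of `F` with uniformizer `π` -/
  unif : ∀ x : F, x ≠ 0 → ∃ (n : ℤ) (u : F), u ∈ W ∧ u⁻¹ ∈ W ∧ x = B.π ^ n * u
  /-- `k` is algebraically closed in `κ` (for the equations `T ^ p + θ T = a`) -/
  algclosed : ∀ y ∈ W, ∀ a ∈ B.R₁, ∀ θ ∈ B.R₁, PiDvd B.π W 1 (y ^ p + θ * y - a) →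
    ∃ a' ∈ B.R₁, PiDvd B.π W 1 (y - a')

namespace Sheet

variable {F : Type*} [Field F] {p : ℕ} {B : DepthBase F p} (S : Sheet B)

/-- `depth_W(f) ≥ i`: `f ≡ c γ ^ p mod π ^ i` multiplicatively, `c` a constant. -/
def DepthGE (f : F) (i : ℕ) : Prop :=
  ∃ c ∈ B.K₁, ∃ γ : F, c ≠ 0 ∧ γ ≠ 0 ∧ PiDvd B.π S.W i (f / (c * γ ^ p) - 1)

end Sheet

/-- The local ring of the normal model at a closed point of the special fibre, with the sheets
through it (`ι` has one element at a smooth point, two at a node). -/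
structure LocalPt {F : Type*} [Field F] {p : ℕ} (B : DepthBase F p) (ι : Type*) where
  /-- the sheets through the point -/
  sheet : ι → Sheet B
  /-- the local ring -/
  R' : Subring F
  le_sheet : ∀ i, R' ≤ (sheet i).W
  R₁_le : B.R₁ ≤ R'
  /-- `R'` is local: a sum of two non-units is a non-unit -/
  nonunit_add : ∀ x ∈ R', ∀ y ∈ R', x⁻¹ ∉ R' → y⁻¹ ∉ R' → x + y ≠ 0 → (x + y)⁻¹ ∉ R'
  /-- **(K1)** `π W ∩ R' = π R'` (normality) -/
  k1 : ∀ x ∈ R', (∀ i, PiDvd B.π (sheet i).W 1 x) → PiDvd B.π R' 1 x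
  /-- **(NORM)** the image of `R'` in `κ_i` is integrally closed (for `T ^ p + t T = s`) -/
  norm : ∀ (i : ι), ∀ h ∈ (sheet i).W, ∀ s ∈ R', ∀ t ∈ R',
    PiDvd B.π (sheet i).W 1 (h ^ p + t * h - s) → ∃ h' ∈ R', PiDvd B.π (sheet i).W 1 (h - h')
  /-- **(GLUE)** elements of `R'` with the same value at the point glue sheetwise modulo `π` -/
  glue : ∀ h : ι → F, (∀ i, h i ∈ R') → (∀ i j, h i - h j ≠ 0 → (h i - h j)⁻¹ ∉ R') →
    ∃ g ∈ R', ∀ i, PiDvd B.π (sheet i).W 1 (g - h i)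
  /-- **(RES)** the residue field of `R'` is `k` -/
  res : ∀ s ∈ R', ∃ a ∈ B.R₁, s - a ≠ 0 → (s - a)⁻¹ ∉ R'

end Fermat.Agent.NP
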