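/-
NP33 — helper5 — [EXT], part 0: basic API for the interface `IFACE_helper5_Defs`
(`PiDvd`, sheets, local points) and the refined binomial congruence.
-/
import Mathlib
import Fermat.Agent.NP.IFACE_helper5_Defs

set_option autoImplicit false

namespace Fermat.Agent.NP

open Finset

/-- `(1 + Y) ^ p = 1 + Y ^ p + p Y + p Y² r`. -/
theorem one_add_pow_prime_eq {R : Type*} [CommRing R] {p : ℕ} (hp : p.Prime) (Y : R) :
    ∃ r : R, (1 + Y) ^ p = 1 + Y ^ p + p * Y + p * Y ^ 2 * r := by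
  have h := add_pow_prime_eq' hp Y (1 : R)
  have hIoo : Ioo 0 p = insert 1 (Ioo 1 p) := by
    ext k
    simp only [mem_Ioo, mem_insert]
    have := hp.two_le
    omega
  rw [hIoo, sum_insert (by simp)] at h
  refine ⟨∑ k ∈ Ioo 1 p, Y ^ (k - 2) * ((p.choose k / p : ℕ) : R), ?_⟩
  have h1 : ((p.choose 1 / p : ℕ) : R) = 1 := by
    rw [Nat.choose_one_right, Nat.div_self hp.pos, Nat.cast_one]
  have h2 : ∑ k ∈ Ioo 1 p, Y ^ k * (1 : R) ^ (p - k) * ((p.choose k / p : ℕ) : R) =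
      Y ^ 2 * ∑ k ∈ Ioo 1 p, Y ^ (k - 2) * ((p.choose k / p : ℕ) : R) := by
    rw [mul_sum]
    apply sum_congr rfl
    intro k hk
    have hk2 : 2 ≤ k := by
      have := (mem_Ioo.mp hk).1
      omega
    rw [one_pow, mul_one, ← mul_assoc, ← pow_add, Nat.add_sub_cancel' hk2]
  rw [add_comm 1 Y, h, h1, h2]
  ring

/-- the same inside a subring of a field. -/
theorem one_add_pow_prime_eq_subring {F : Type*} [Field F] (S : Subring F) {p : ℕ} (hp : p.Prime)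
    {Y : F} (hY : Y ∈ S) :
    ∃ r ∈ S, (1 + Y) ^ p = 1 + Y ^ p + p * Y + p * Y ^ 2 * r := by
  obtain ⟨r, hr⟩ := one_add_pow_prime_eq hp (⟨Y, hY⟩ : S)
  refine ⟨r, r.2, ?_⟩
  have := congrArg (Subtype.val) hr
  simpa using this

section PiDvd

variable {F : Type*} [Field F] {π : F} {S S' : Subring F} {n m : ℕ} {x y : F}

theorem piDvd_zero_iff : PiDvd π S 0 x ↔ x ∈ S := by
  simp [PiDvd]

theorem piDvd_zero : PiDvd π S n 0 := ⟨0, S.zero_mem, by simp⟩

theorem PiDvd.add (hx : PiDvd π S n x) (hy : PiDvd π S n y) : PiDvd π S n (x + y) := by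
  obtain ⟨t, ht, rfl⟩ := hx
  obtain ⟨t', ht', rfl⟩ := hy
  exact ⟨t + t', S.add_mem ht ht', by ring⟩

theorem PiDvd.neg (hx : PiDvd π S n x) : PiDvd π S n (-x) := by
  obtain ⟨t, ht, rfl⟩ := hx
  exact ⟨-t, S.neg_mem ht, by ring⟩

theorem PiDvd.sub (hx : PiDvd π S n x) (hy : PiDvd π S n y) : PiDvd π S n (x - y) := by
  rw [sub_eq_add_neg]
  exact hx.add hy.neg

theorem PiDvd.mul_left (hs : y ∈ S) (hx : PiDvd π S n x) : PiDvd π S n (y * x) := by
  obtain ⟨t, ht, rfl⟩ := hx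
  exact ⟨y * t, S.mul_mem hs ht, by ring⟩

theorem PiDvd.mul_right (hs : y ∈ S) (hx : PiDvd π S n x) : PiDvd π S n (x * y) := by
  rw [mul_comm]
  exact hx.mul_left hs

theorem PiDvd.mul (hx : PiDvd π S n x) (hy : PiDvd π S m y) : PiDvd π S (n + m) (x * y) := by
  obtain ⟨t, ht, rfl⟩ := hx
  obtain ⟨t', ht', rfl⟩ := hy
  exact ⟨t * t', S.mul_mem ht ht', by ring⟩

theorem PiDvd.mono (hπ : π ∈ S) (h : m ≤ n) (hx : PiDvd π S n x) : PiDvd π S m x := by
  obtain ⟨t, ht, rfl⟩ := hx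
  obtain ⟨k, rfl⟩ := Nat.exists_eq_add_of_le h
  exact ⟨π ^ k * t, S.mul_mem (S.pow_mem hπ k) ht, by ring⟩

theorem PiDvd.mem (hπ : π ∈ S) (hx : PiDvd π S n x) : x ∈ S := by
  obtain ⟨t, ht, rfl⟩ := hx
  exact S.mul_mem (S.pow_mem hπ n) ht

theorem PiDvd.of_le (h : S ≤ S') (hx : PiDvd π S n x) : PiDvd π S' n x := by
  obtain ⟨t, ht, rfl⟩ := hx
  exact ⟨t, h ht, rfl⟩

theorem piDvd_pow_mul (hs : y ∈ S) : PiDvd π S n (π ^ n * y) := ⟨y, hs, rfl⟩

theorem PiDvd.pow_mul (hx : PiDvd π S n x) : PiDvd π S (m + n) (π ^ m * x) := by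
  obtain ⟨t, ht, rfl⟩ := hx
  exact ⟨t, ht, by ring⟩

theorem piDvd_pow_mul_iff (hπ : π ≠ 0) : PiDvd π S (m + n) (π ^ m * x) ↔ PiDvd π S n x := by
  constructor
  · rintro ⟨t, ht, h⟩
    refine ⟨t, ht, ?_⟩
    have h0 : π ^ m ≠ 0 := pow_ne_zero _ hπ
    apply mul_left_cancel₀ h0
    rw [h]
    ring
  · exact fun h => h.pow_mul

theorem piDvd_pow_mul_iff' (hπ : π ≠ 0) : PiDvd π S n (π ^ n * x) ↔ x ∈ S := by
  have := piDvd_pow_mul_iff (S := S) (m := n) (n := 0) (x := x) hπ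
  rw [add_zero] at this
  rw [this, piDvd_zero_iff]

theorem PiDvd.pow (hx : PiDvd π S n x) (k : ℕ) : PiDvd π S (n * k) (x ^ k) := by
  obtain ⟨t, ht, rfl⟩ := hx
  exact ⟨t ^ k, S.pow_mem ht k, by ring⟩

end PiDvd

section Base

variable {F : Type*} [Field F] {p : ℕ} (B : DepthBase F p)

theorem DepthBase.one_mem_K₁ : (1 : F) ∈ B.K₁ := B.K₁.one_mem

theorem DepthBase.π_mem_K₁ : B.π ∈ B.K₁ := B.R₁_le _ B.π_mem

theorem DepthBase.zpow_π_mem {n : ℤ} (hn : 0 ≤ n) : B.π ^ n ∈ B.R₁ := by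
  obtain ⟨k, rfl⟩ := Int.eq_ofNat_of_zero_le hn
  rw [zpow_natCast]
  exact B.R₁.pow_mem B.π_mem k

/-- a nonzero element of `R₁` is a unit or divisible by `π`. -/
theorem DepthBase.inv_mem_or_piDvd {a : F} (ha : a ∈ B.R₁) (ha0 : a ≠ 0) :
    a⁻¹ ∈ B.R₁ ∨ PiDvd B.π B.R₁ 1 a := by
  obtain ⟨n, u, hu, hu', rfl⟩ := B.unif_const a (B.R₁_le a ha) ha0
  rcases lt_trichotomy n 0 with hn | rfl | hn
  · exfalso
    apply B.π_inv_notMem
    have h1 : B.π ^ n ∈ B.R₁ := by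
      have : B.π ^ n = B.π ^ n * u * u⁻¹ := by
        have hu0 : u ≠ 0 := by
          rintro rfl
          simp at ha0
        field_simp
      rw [this]
      exact B.R₁.mul_mem ha hu'
    have h2 : B.π⁻¹ = B.π ^ n * B.π ^ (-n - 1) := by
      rw [← zpow_add₀ B.π_ne_zero]
      have : n + (-n - 1) = -1 := by ring
      rw [this, zpow_neg_one]
    rw [h2]
    exact B.R₁.mul_mem h1 (B.zpow_π_mem (by omega))
  · left
    rw [zpow_zero, one_mul]
    exact hu'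
  · right
    refine ⟨B.π ^ (n - 1) * u, B.R₁.mul_mem (B.zpow_π_mem (by omega)) hu, ?_⟩
    rw [pow_one, ← mul_assoc, ← zpow_one_add₀ B.π_ne_zero]
    congr 2
    ring

end Base

section SheetAPI

variable {F : Type*} [Field F] {p : ℕ} {B : DepthBase F p} (S : Sheet B)

theorem Sheet.π_mem : B.π ∈ S.W := S.R₁_le B.π_mem

theorem Sheet.zpow_π_mem {n : ℤ} (hn : 0 ≤ n) : B.π ^ n ∈ S.W := S.R₁_le (B.zpow_π_mem hn)

theorem Sheet.not_piDvd_one : ¬ PiDvd B.π S.W 1 1 := by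
  rintro ⟨t, ht, h⟩
  apply S.π_inv_notMem
  have : B.π⁻¹ = t := by
    rw [pow_one] at h
    exact inv_eq_of_mul_eq_one_right h.symm
  rw [this]
  exact ht

/-- a nonzero element of `W` is a unit or divisible by `π`. -/
theorem Sheet.inv_mem_or_piDvd {x : F} (hx : x ∈ S.W) (hx0 : x ≠ 0) :
    x⁻¹ ∈ S.W ∨ PiDvd B.π S.W 1 x := by
  obtain ⟨n, u, hu, hu', rfl⟩ := S.unif x hx0
  rcases lt_trichotomy n 0 with hn | rfl | hn
  · exfalso
    apply S.π_inv_notMem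
    have h1 : B.π ^ n ∈ S.W := by
      have : B.π ^ n = B.π ^ n * u * u⁻¹ := by
        have hu0 : u ≠ 0 := by
          rintro rfl
          simp at hx0
        field_simp
      rw [this]
      exact S.W.mul_mem hx hu'
    have h2 : B.π⁻¹ = B.π ^ n * B.π ^ (-n - 1) := by
      rw [← zpow_add₀ B.π_ne_zero]
      have : n + (-n - 1) = -1 := by ring
      rw [this, zpow_neg_one]
    rw [h2]
    exact S.W.mul_mem h1 (S.zpow_π_mem (by omega))
  · left
    rw [zpow_zero, one_mul]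
    exact hu'
  · right
    refine ⟨B.π ^ (n - 1) * u, S.W.mul_mem (S.zpow_π_mem (by omega)) hu, ?_⟩
    rw [pow_one, ← mul_assoc, ← zpow_one_add₀ B.π_ne_zero]
    congr 2
    ring

/-- a nonzero element divisible by `π` is not a unit. -/
theorem Sheet.inv_notMem_of_piDvd {x : F} (hx0 : x ≠ 0) (h : PiDvd B.π S.W 1 x) : x⁻¹ ∉ S.W := by
  intro hx'
  apply S.not_piDvd_one
  have : (1 : F) = x * x⁻¹ := by field_simp
  rw [this]
  exact h.mul_right hx'

/-- `κ` is a domain. -/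
theorem Sheet.piDvd_or_of_mul {x y : F} (hx : x ∈ S.W) (_hy : y ∈ S.W)
    (h : PiDvd B.π S.W 1 (x * y)) : PiDvd B.π S.W 1 x ∨ PiDvd B.π S.W 1 y := by
  by_cases hx0 : x = 0
  · left
    rw [hx0]
    exact piDvd_zero
  rcases S.inv_mem_or_piDvd hx hx0 with hx' | hx'
  · right
    have : y = x⁻¹ * (x * y) := by field_simp
    rw [this]
    exact h.mul_left hx'
  · exact Or.inl hx'

/-- `1 + π W ⊂ Wˣ`. -/
theorem Sheet.one_add_ne_zero {t : F} (h : PiDvd B.π S.W 1 t) : 1 + t ≠ 0 := by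
  intro h0
  apply S.not_piDvd_one
  have : (1 : F) = -t := by linear_combination h0
  rw [this]
  exact h.neg

theorem Sheet.one_add_inv_mem {t : F} (h : PiDvd B.π S.W 1 t) : (1 + t)⁻¹ ∈ S.W := by
  have h0 := S.one_add_ne_zero h
  rcases S.inv_mem_or_piDvd (S.W.add_mem S.W.one_mem (h.mem S.π_mem)) h0 with h1 | h1
  · exact h1
  · exfalso
    apply S.not_piDvd_one
    have : (1 : F) = (1 + t) - t := by ring
    rw [this]
    exact h1.sub h

/-- a constant divisible by `π ^ n` in `W` is divisible by `π ^ n` in `R₁`. -/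
theorem Sheet.const_piDvd {a : F} {n : ℕ} (ha : a ∈ B.K₁) (h : PiDvd B.π S.W n a) :
    PiDvd B.π B.R₁ n a := by
  obtain ⟨t, ht, rfl⟩ := h
  refine ⟨t, S.const_mem t ?_ ht, rfl⟩
  have : t = (B.π ^ n)⁻¹ * (B.π ^ n * t) := by
    have := pow_ne_zero n B.π_ne_zero
    field_simp
  rw [this]
  exact B.K₁.mul_mem (B.K₁.inv_mem (B.K₁.pow_mem B.π_mem_K₁ n)) ha

/-- `k` is `p`-closed in `κ`. -/
theorem Sheet.pclosed {y a : F} (hy : y ∈ S.W) (ha : a ∈ B.R₁) (h : PiDvd B.π S.W 1 (y ^ p - a)) :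
    ∃ a' ∈ B.R₁, PiDvd B.π S.W 1 (y - a') := by
  apply S.algclosed y hy a ha 0 B.R₁.zero_mem
  rw [zero_mul, add_zero]
  exact h

end SheetAPI

section LocalAPI

variable {F : Type*} [Field F] {p : ℕ} {B : DepthBase F p} {ι : Type*} (L : LocalPt B ι)

/-- `x` is a unit of the subring `S`. -/
def IsUnitIn (S : Subring F) (x : F) : Prop := x ∈ S ∧ x⁻¹ ∈ S ∧ x ≠ 0

theorem IsUnitIn.mul {S : Subring F} {x y : F} (hx : IsUnitIn S x) (hy : IsUnitIn S y) :
    IsUnitIn S (x * y) :=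
  ⟨S.mul_mem hx.1 hy.1, by rw [mul_inv]; exact S.mul_mem hx.2.1 hy.2.1, mul_ne_zero hx.2.2 hy.2.2⟩

theorem IsUnitIn.inv {S : Subring F} {x : F} (hx : IsUnitIn S x) : IsUnitIn S x⁻¹ :=
  ⟨hx.2.1, by rw [inv_inv]; exact hx.1, inv_ne_zero hx.2.2⟩

theorem IsUnitIn.pow {S : Subring F} {x : F} (hx : IsUnitIn S x) (n : ℕ) : IsUnitIn S (x ^ n) :=
  ⟨S.pow_mem hx.1 n, by rw [← inv_pow]; exact S.pow_mem hx.2.1 n, pow_ne_zero n hx.2.2⟩

theorem isUnitIn_one {S : Subring F} : IsUnitIn S (1 : F) :=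
  ⟨S.one_mem, by rw [inv_one]; exact S.one_mem, one_ne_zero⟩

theorem IsUnitIn.of_le {S S' : Subring F} (h : S ≤ S') {x : F} (hx : IsUnitIn S x) :
    IsUnitIn S' x := ⟨h hx.1, h hx.2.1, hx.2.2⟩

/-- `x` is a non-unit of `R'`. -/
def LocalPt.NonUnit (x : F) : Prop := x ∈ L.R' ∧ (x = 0 ∨ x⁻¹ ∉ L.R')

theorem LocalPt.nonUnit_zero : L.NonUnit 0 := ⟨L.R'.zero_mem, Or.inl rfl⟩

variable {L}

theorem LocalPt.NonUnit.mem {x : F} (h : L.NonUnit x) : x ∈ L.R' := h.1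

theorem LocalPt.NonUnit.add {x y : F} (hx : L.NonUnit x) (hy : L.NonUnit y) :
    L.NonUnit (x + y) := by
  refine ⟨L.R'.add_mem hx.1 hy.1, ?_⟩
  rcases hx.2 with rfl | hx'
  · rw [zero_add]
    exact hy.2
  rcases hy.2 with rfl | hy'
  · rw [add_zero]
    exact Or.inr hx'
  by_cases h0 : x + y = 0
  · exact Or.inl h0
  · exact Or.inr (L.nonunit_add x hx.1 y hy.1 hx' hy' h0)

theorem LocalPt.NonUnit.mul_left {x y : F} (hy : y ∈ L.R') (hx : L.NonUnit x) :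
    L.NonUnit (y * x) := by
  refine ⟨L.R'.mul_mem hy hx.1, ?_⟩
  rcases hx.2 with rfl | hx'
  · left
    rw [mul_zero]
  by_cases hy0 : y = 0
  · left
    rw [hy0, zero_mul]
  right
  intro h
  apply hx'
  have : x⁻¹ = y * (y * x)⁻¹ := by
    rw [mul_inv]
    field_simp
  rw [this]
  exact L.R'.mul_mem hy h

theorem LocalPt.NonUnit.neg {x : F} (hx : L.NonUnit x) : L.NonUnit (-x) := by
  have := hx.mul_left (L.R'.neg_mem L.R'.one_mem)
  simpa using this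

theorem LocalPt.NonUnit.sub {x y : F} (hx : L.NonUnit x) (hy : L.NonUnit y) :
    L.NonUnit (x - y) := by
  rw [sub_eq_add_neg]
  exact hx.add hy.neg

/-- an element of `R'` divisible by `π` on some sheet is a non-unit. -/
theorem LocalPt.nonUnit_of_piDvd {x : F} (hx : x ∈ L.R') (i : ι)
    (h : PiDvd B.π (L.sheet i).W 1 x) : L.NonUnit x := by
  refine ⟨hx, ?_⟩
  by_cases hx0 : x = 0
  · exact Or.inl hx0
  · right
    intro hx'
    exact (L.sheet i).inv_notMem_of_piDvd hx0 h (L.le_sheet i hx')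

/-- unit + non-unit = unit. -/
theorem LocalPt.isUnitIn_add_nonUnit {u x : F} (hu : IsUnitIn L.R' u) (hx : L.NonUnit x) :
    IsUnitIn L.R' (u + x) := by
  have hmem : u + x ∈ L.R' := L.R'.add_mem hu.1 hx.1
  by_contra hcon
  have hnu : L.NonUnit (u + x) := by
    refine ⟨hmem, ?_⟩
    by_cases h0 : u + x = 0
    · exact Or.inl h0
    · right
      intro h
      exact hcon ⟨hmem, h, h0⟩
  have h1 : L.NonUnit u := by
    have := hnu.sub hx
    simpa using this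
  rcases h1.2 with h | h
  · exact hu.2.2 h
  · exact h hu.2.1

theorem LocalPt.NonUnit.of_pow {x : F} (hx : x ∈ L.R') {n : ℕ} (h : L.NonUnit (x ^ n)) :
    L.NonUnit x := by
  refine ⟨hx, ?_⟩
  by_cases hx0 : x = 0
  · exact Or.inl hx0
  right
  intro hx'
  rcases h.2 with h | h
  · exact hx0 (pow_eq_zero_iff (by
      rintro rfl
      simp at h) |>.mp h)
  · apply h
    rw [← inv_pow]
    exact L.R'.pow_mem hx' n

/-- a constant which is a non-unit of `R'` is divisible by `π`. -/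
theorem LocalPt.const_piDvd_of_nonUnit {a : F} (ha : a ∈ B.R₁) (h : L.NonUnit a) :
    PiDvd B.π B.R₁ 1 a := by
  by_cases ha0 : a = 0
  · rw [ha0]
    exact piDvd_zero
  rcases B.inv_mem_or_piDvd ha ha0 with h1 | h1
  · exfalso
    rcases h.2 with h2 | h2
    · exact ha0 h2
    · exact h2 (L.R₁_le h1)
  · exact h1

theorem LocalPt.π_mem : B.π ∈ L.R' := L.R₁_le B.π_mem

end LocalAPI

end Fermat.Agent.NP
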