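/-
NP33 — helper5 — [EXT]/[DEPTH]: **the leading-term lemma (LT)**.

If a constant times a `p`-th power is `≡ 1 mod π ^ j` on a sheet, `c g ^ p = 1 + π ^ j s`, and the level
`j` is not in the Hensel range (`j (p − 1) ≤ e₁ p`), then the leading term `s̄ ∈ κ` has the shape
`ā + h̄ ^ p + τ_j h̄` with `ā ∈ k`, where `τ_j = ε` at the top level `j (p − 1) = e₁ p` and `τ_j = 0`
below, and `h̄ = 0` unless `p ∣ j`.
-/
import Mathlib
import Fermat.Agent.NP.IFACE_helper5_Defs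
import Fermat.Agent.NP.EXT_helper5_Basic

set_option autoImplicit false

namespace Fermat.Agent.NP

variable {F : Type*} [Field F] {p : ℕ} {B : DepthBase F p}

/-- the coefficient of the linear term at level `j`: `ε` at the top level, `0` below. -/
noncomputable def DepthBase.τ (B : DepthBase F p) (j : ℕ) : F :=
  if j * (p - 1) = B.e₁ * p then B.ε else 0

theorem DepthBase.τ_mem (B : DepthBase F p) (j : ℕ) : B.τ j ∈ B.R₁ := by
  unfold DepthBase.τ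
  split_ifs
  · exact B.ε_mem
  · exact B.R₁.zero_mem

theorem DepthBase.isUnitIn_one_add {t : F} (h : PiDvd B.π B.R₁ 1 t) : IsUnitIn B.R₁ (1 + t) := by
  have hmem : 1 + t ∈ B.R₁ := B.R₁.add_mem B.R₁.one_mem (h.mem B.π_mem)
  have hnot : ¬ PiDvd B.π B.R₁ 1 (1 : F) := by
    rintro ⟨u, hu, h1⟩
    apply B.π_inv_notMem
    rw [pow_one] at h1
    have : B.π⁻¹ = u := inv_eq_of_mul_eq_one_right h1.symm
    rw [this]
    exact hu
  have h0 : 1 + t ≠ 0 := by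
    intro h0
    apply hnot
    have : (1 : F) = -t := by linear_combination h0
    rw [this]
    exact h.neg
  refine ⟨hmem, ?_, h0⟩
  rcases B.inv_mem_or_piDvd hmem h0 with h1 | h1
  · exact h1
  · exfalso
    apply hnot
    have : (1 : F) = (1 + t) - t := by ring
    rw [this]
    exact h1.sub h

variable (S : Sheet B)

theorem Sheet.isUnitIn_one_add {t : F} (h : PiDvd B.π S.W 1 t) : IsUnitIn S.W (1 + t) :=
  ⟨S.W.add_mem S.W.one_mem (h.mem S.π_mem), S.one_add_inv_mem h, S.one_add_ne_zero h⟩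

/-- `π ^ k` is a unit of `W` only for `k = 0`. -/
theorem Sheet.zpow_eq_zero_of_isUnitIn {k : ℤ} (h : IsUnitIn S.W (B.π ^ k)) : k = 0 := by
  by_contra hk
  apply S.π_inv_notMem
  rcases lt_or_gt_of_ne hk with hk | hk
  · have h2 : B.π⁻¹ = B.π ^ k * B.π ^ (-k - 1) := by
      rw [← zpow_add₀ B.π_ne_zero]
      have : k + (-k - 1) = -1 := by ring
      rw [this, zpow_neg_one]
    rw [h2]
    exact S.W.mul_mem h.1 (S.zpow_π_mem (by omega))
  · have h2 : B.π⁻¹ = (B.π ^ k)⁻¹ * B.π ^ (k - 1) := by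
      rw [← zpow_neg, ← zpow_add₀ B.π_ne_zero]
      have : -k + (k - 1) = -1 := by ring
      rw [this, zpow_neg_one]
    rw [h2]
    exact S.W.mul_mem h.2.1 (S.zpow_π_mem (by omega))

/-- normalisation: in `c g ^ p = 1 + π ^ j s` one may assume `c ∈ R₁ˣ`, `g ∈ Wˣ`. -/
theorem Sheet.exists_unit_rep {c g s : F} {j : ℕ} (hc : c ∈ B.K₁) (hc0 : c ≠ 0)
    (hg0 : g ≠ 0) (hs : s ∈ S.W) (hj : 1 ≤ j) (h : c * g ^ p = 1 + B.π ^ j * s) :
    ∃ c' g', IsUnitIn B.R₁ c' ∧ IsUnitIn S.W g' ∧ c' * g' ^ p = 1 + B.π ^ j * s := by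
  obtain ⟨m, uc, huc, huc', rfl⟩ := B.unif_const c hc hc0
  obtain ⟨n, u, hu, hu', rfl⟩ := S.unif g hg0
  have huc0 : uc ≠ 0 := by
    rintro rfl
    simp at hc0
  have hu0 : u ≠ 0 := by
    rintro rfl
    simp at hg0
  have hU : IsUnitIn S.W (1 + B.π ^ j * s) := by
    apply S.isUnitIn_one_add
    obtain ⟨k, rfl⟩ := Nat.exists_eq_add_of_le hj
    exact ⟨B.π ^ k * s, S.W.mul_mem (S.W.pow_mem S.π_mem k) hs, by ring⟩
  have hucU : IsUnitIn S.W uc := ⟨S.R₁_le huc, S.R₁_le huc', huc0⟩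
  have huU : IsUnitIn S.W u := ⟨hu, hu', hu0⟩
  have hpow : B.π ^ (m + n * p) = (1 + B.π ^ j * s) * (uc * u ^ p)⁻¹ := by
    rw [← h]
    rw [zpow_add₀ B.π_ne_zero, zpow_mul, zpow_natCast, mul_pow]
    have : uc * u ^ p ≠ 0 := mul_ne_zero huc0 (pow_ne_zero _ hu0)
    field_simp
  have hk : m + n * p = 0 := by
    apply S.zpow_eq_zero_of_isUnitIn
    rw [hpow]
    exact hU.mul (hucU.mul (huU.pow p)).inv
  refine ⟨uc, u, ⟨huc, huc', huc0⟩, huU, ?_⟩
  rw [← h]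
  have h1 : (B.π ^ m * uc) * (B.π ^ n * u) ^ p = B.π ^ (m + n * p) * (uc * u ^ p) := by
    rw [zpow_add₀ B.π_ne_zero, zpow_mul, zpow_natCast, mul_pow]
    ring
  rw [h1, hk, zpow_zero, one_mul]

/-- the core computation: `c₃ (1 + π ^ D (T + π z)) = 1 + π ^ j s`. -/
theorem Sheet.lt_core {c₃ T z s : F} {D j : ℕ} (hc₃ : IsUnitIn B.R₁ c₃) (hT : T ∈ S.W)
    (hz : z ∈ S.W) (hs : s ∈ S.W) (hD : 1 ≤ D) (hj : 1 ≤ j)
    (h : c₃ * (1 + B.π ^ D * (T + B.π * z)) = 1 + B.π ^ j * s) :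
    (D < j → ∃ a ∈ B.R₁, PiDvd B.π S.W 1 (T - a)) ∧
    (D = j → ∃ a ∈ B.R₁, PiDvd B.π S.W 1 (s - a - T)) ∧
    (j < D → ∃ a ∈ B.R₁, PiDvd B.π S.W 1 (s - a)) := by
  have hπ := B.π_ne_zero
  have hπW := S.π_mem
  have hc₃W : c₃ ∈ S.W := S.R₁_le hc₃.1
  have hc₃K : c₃ - 1 ∈ B.K₁ := B.K₁.sub_mem (B.R₁_le _ hc₃.1) B.K₁.one_mem
  refine ⟨?_, ?_, ?_⟩
  · intro hDj
    obtain ⟨k, rfl⟩ := Nat.exists_eq_add_of_lt hDj
    -- c₃ - 1 = π^D (π^(k+1) s - c₃ (T + π z))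
    have h1 : c₃ - 1 = B.π ^ D * (B.π ^ (k + 1) * s - c₃ * (T + B.π * z)) := by
      have : B.π ^ (D + k + 1) = B.π ^ D * B.π ^ (k + 1) := by ring
      rw [this] at h
      linear_combination h
    obtain ⟨a₀, ha₀, h2⟩ := S.const_piDvd hc₃K
      ⟨_, S.W.sub_mem (S.W.mul_mem (S.W.pow_mem hπW _) hs)
        (S.W.mul_mem hc₃W (S.W.add_mem hT (S.W.mul_mem hπW hz))), h1⟩
    have h3 : a₀ = B.π ^ (k + 1) * s - c₃ * (T + B.π * z) := by
      have h0 : B.π ^ D ≠ 0 := pow_ne_zero _ hπ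
      apply mul_left_cancel₀ h0
      rw [← h2, h1]
    refine ⟨-a₀ * c₃⁻¹, B.R₁.mul_mem (B.R₁.neg_mem ha₀) hc₃.2.1, ?_⟩
    refine ⟨c₃⁻¹ * (B.π ^ k * s - c₃ * z), S.W.mul_mem (S.R₁_le hc₃.2.1)
      (S.W.sub_mem (S.W.mul_mem (S.W.pow_mem hπW _) hs) (S.W.mul_mem hc₃W hz)), ?_⟩
    have hc0 := hc₃.2.2
    rw [h3]
    field_simp
    ring
  · rintro rfl
    have h1 : c₃ - 1 = B.π ^ D * (s - c₃ * (T + B.π * z)) := by
      linear_combination h
    obtain ⟨a₀, ha₀, h2⟩ := S.const_piDvd hc₃K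
      ⟨_, S.W.sub_mem hs (S.W.mul_mem hc₃W (S.W.add_mem hT (S.W.mul_mem hπW hz))), h1⟩
    have h3 : a₀ = s - c₃ * (T + B.π * z) := by
      have h0 : B.π ^ D ≠ 0 := pow_ne_zero _ hπ
      apply mul_left_cancel₀ h0
      rw [← h2, h1]
    refine ⟨a₀, ha₀, ?_⟩
    obtain ⟨D', rfl⟩ := Nat.exists_eq_add_of_le hD
    refine ⟨B.π ^ D' * a₀ * T + c₃ * z, S.W.add_mem (S.W.mul_mem (S.W.mul_mem
      (S.W.pow_mem hπW _) (S.R₁_le ha₀)) hT) (S.W.mul_mem hc₃W hz), ?_⟩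
    linear_combination (-1 : F) * h3 + T * h2
  · intro hjD
    obtain ⟨k, rfl⟩ := Nat.exists_eq_add_of_lt hjD
    have h1 : c₃ - 1 = B.π ^ j * (s - c₃ * B.π ^ (k + 1) * (T + B.π * z)) := by
      have : B.π ^ (j + k + 1) = B.π ^ j * B.π ^ (k + 1) := by ring
      rw [this] at h
      linear_combination h
    obtain ⟨a₀, ha₀, h2⟩ := S.const_piDvd hc₃K
      ⟨_, S.W.sub_mem hs (S.W.mul_mem (S.W.mul_mem hc₃W (S.W.pow_mem hπW _))
        (S.W.add_mem hT (S.W.mul_mem hπW hz))), h1⟩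
    have h3 : a₀ = s - c₃ * B.π ^ (k + 1) * (T + B.π * z) := by
      have h0 : B.π ^ j ≠ 0 := pow_ne_zero _ hπ
      apply mul_left_cancel₀ h0
      rw [← h2, h1]
    refine ⟨a₀, ha₀, c₃ * B.π ^ k * (T + B.π * z), S.W.mul_mem (S.W.mul_mem hc₃W
      (S.W.pow_mem hπW _)) (S.W.add_mem hT (S.W.mul_mem hπW hz)), ?_⟩
    rw [h3]
    ring

/-- first reduction: `g = g₀ (1 + π y)` with `g₀ ∈ R₁ˣ`. -/
theorem Sheet.exists_peel_one {c g s : F} {j : ℕ} (hc : IsUnitIn B.R₁ c) (hg : IsUnitIn S.W g)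
    (hs : s ∈ S.W) (hj : 1 ≤ j) (h : c * g ^ p = 1 + B.π ^ j * s) :
    ∃ g₀, IsUnitIn B.R₁ g₀ ∧ ∃ y ∈ S.W, g = g₀ * (1 + B.π ^ 1 * y) := by
  have hc0 := hc.2.2
  have h1 : PiDvd B.π S.W 1 (g ^ p - c⁻¹) := by
    obtain ⟨k, rfl⟩ := Nat.exists_eq_add_of_le hj
    refine ⟨c⁻¹ * (B.π ^ k * s), S.W.mul_mem (S.R₁_le hc.2.1)
      (S.W.mul_mem (S.W.pow_mem S.π_mem k) hs), ?_⟩
    have : g ^ p = c⁻¹ * (1 + B.π ^ (1 + k) * s) := by
      rw [← h]
      field_simp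
    rw [this]
    ring
  obtain ⟨a', ha', t, ht, h2⟩ := S.pclosed hg.1 hc.2.1 h1
  have ha'0 : a' ≠ 0 := by
    rintro rfl
    rw [sub_zero] at h2
    exact S.inv_notMem_of_piDvd hg.2.2 ⟨t, ht, h2⟩ hg.2.1
  have ha'u : a'⁻¹ ∈ B.R₁ := by
    rcases B.inv_mem_or_piDvd ha' ha'0 with h3 | h3
    · exact h3
    · exfalso
      apply S.inv_notMem_of_piDvd hg.2.2 _ hg.2.1
      have : g = (g - a') + a' := by ring
      rw [this]
      have h4 : PiDvd B.π S.W 1 (g - a') := ⟨t, ht, h2⟩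
      exact h4.add (h3.of_le S.R₁_le)
  refine ⟨a', ⟨ha', ha'u, ha'0⟩, a'⁻¹ * t, S.W.mul_mem (S.R₁_le ha'u) ht, ?_⟩
  have : g = a' + B.π ^ 1 * t := by linear_combination h2
  rw [this]
  field_simp

/-- peeling off constants: either `g` is constant modulo `π ^ M`, or it has a first
non-constant level `m < M`. -/
theorem Sheet.exists_peel {M : ℕ} (hM : 1 ≤ M) {g : F}
    (h1 : ∃ g₀, IsUnitIn B.R₁ g₀ ∧ ∃ y ∈ S.W, g = g₀ * (1 + B.π ^ 1 * y)) :
    (∃ g₀, IsUnitIn B.R₁ g₀ ∧ ∃ y ∈ S.W, g = g₀ * (1 + B.π ^ M * y)) ∨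
    (∃ m, 1 ≤ m ∧ m < M ∧ ∃ g₀, IsUnitIn B.R₁ g₀ ∧ ∃ y ∈ S.W, g = g₀ * (1 + B.π ^ m * y) ∧
      ¬ ∃ a ∈ B.R₁, PiDvd B.π S.W 1 (y - a)) := by
  induction M, hM using Nat.le_induction with
  | base => exact Or.inl h1
  | succ M hM ih =>
    rcases ih with ⟨g₀, hg₀, y, hy, hg⟩ | ⟨m, hm1, hmM, rest⟩
    · by_cases hk : ∃ a ∈ B.R₁, PiDvd B.π S.W 1 (y - a)
      · left
        obtain ⟨a, ha, y', hy', hya⟩ := hk
        have hu : IsUnitIn B.R₁ (1 + B.π ^ M * a) := by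
          apply B.isUnitIn_one_add
          obtain ⟨k, rfl⟩ := Nat.exists_eq_add_of_le hM
          exact ⟨B.π ^ k * a, B.R₁.mul_mem (B.R₁.pow_mem B.π_mem k) ha, by ring⟩
        refine ⟨g₀ * (1 + B.π ^ M * a), hg₀.mul hu, (1 + B.π ^ M * a)⁻¹ * y',
          S.W.mul_mem (S.R₁_le hu.2.1) hy', ?_⟩
        have hy2 : y = a + B.π ^ 1 * y' := by linear_combination hya
        have hu0 := hu.2.2
        rw [hg, hy2]
        field_simp
        ring
      · right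
        exact ⟨M, hM, Nat.lt_succ_self M, g₀, hg₀, y, hy, hg, hk⟩
    · right
      exact ⟨m, hm1, Nat.lt_succ_of_lt hmM, rest⟩

/-- **(LT)** the leading-term lemma. -/
theorem Sheet.leading_term (hp : p.Prime) {c g s : F} {j : ℕ} (hc : c ∈ B.K₁) (hc0 : c ≠ 0)
    (hg0 : g ≠ 0) (hs : s ∈ S.W) (hj : 1 ≤ j) (hje : j * (p - 1) ≤ B.e₁ * p)
    (h : c * g ^ p = 1 + B.π ^ j * s) :
    ∃ a ∈ B.R₁, ∃ h' ∈ S.W, PiDvd B.π S.W 1 (s - a - (h' ^ p + B.τ j * h')) ∧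
      (h' = 0 ∨ p ∣ j) := by
  obtain ⟨c, g, hc, hg, h⟩ := S.exists_unit_rep hc hc0 hg0 hs hj h
  have hπW := S.π_mem
  have hεW : B.ε ∈ S.W := S.R₁_le B.ε_mem
  have hp1 := S.exists_peel_one hc hg hs hj h
  have hzero : ∀ a ∈ B.R₁, PiDvd B.π S.W 1 (s - a) →
      ∃ a ∈ B.R₁, ∃ h' ∈ S.W, PiDvd B.π S.W 1 (s - a - (h' ^ p + B.τ j * h')) ∧
        (h' = 0 ∨ p ∣ j) := by
    intro a ha hsa
    refine ⟨a, ha, 0, S.W.zero_mem, ?_, Or.inl rfl⟩
    rw [zero_pow hp.ne_zero, mul_zero, add_zero, sub_zero]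
    exact hsa
  rcases S.exists_peel (M := j + 1) (by omega) hp1 with
    ⟨g₀, hg₀, y, hy, hgy⟩ | ⟨m, hm1, hmj, g₀, hg₀, y, hy, hgy, hnk⟩
  · -- `g` is constant modulo `π ^ (j+1)`
    have hY : B.π ^ (j + 1) * y ∈ S.W := S.W.mul_mem (S.W.pow_mem hπW _) hy
    obtain ⟨r, hr, hexp⟩ := one_add_pow_prime_eq_subring S.W hp hY
    have hc₃ : IsUnitIn B.R₁ (c * g₀ ^ p) := hc.mul (hg₀.pow p)
    set q : F := (B.π ^ (j + 1) * y) ^ (p - 1) + p + p * (B.π ^ (j + 1) * y) * r with hq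
    have hpW : (p : F) ∈ S.W := by
      rw [B.p_eq]
      exact S.W.mul_mem hεW (S.W.pow_mem hπW _)
    have hqW : q ∈ S.W := S.W.add_mem (S.W.add_mem (S.W.pow_mem hY _) hpW)
      (S.W.mul_mem (S.W.mul_mem hpW hY) hr)
    have hpp : (B.π ^ (j + 1) * y) ^ p = (B.π ^ (j + 1) * y) * (B.π ^ (j + 1) * y) ^ (p - 1) := by
      rw [← pow_succ', Nat.sub_add_cancel hp.one_le]
    have heq : c * g₀ ^ p * (1 + B.π ^ (j + 1) * (y * q + B.π * 0)) = 1 + B.π ^ j * s := by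
      rw [← h, hgy, mul_pow, hexp, hpp, hq]
      ring
    obtain ⟨a, ha, hsa⟩ := (S.lt_core hc₃ (S.W.mul_mem hy hqW) S.W.zero_mem hs (by omega) hj
      heq).2.2 (Nat.lt_succ_self j)
    exact hzero a ha hsa
  · -- first non-constant level `m ≤ j`
    have hY : B.π ^ m * y ∈ S.W := S.W.mul_mem (S.W.pow_mem hπW _) hy
    obtain ⟨r, hr, hexp⟩ := one_add_pow_prime_eq_subring S.W hp hY
    have hc₃ : IsUnitIn B.R₁ (c * g₀ ^ p) := hc.mul (hg₀.pow p)
    have hmp : m * p = m * (p - 1) + m := by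
      rw [Nat.mul_sub_one, Nat.sub_add_cancel]
      exact Nat.le_mul_of_pos_right m hp.pos
    obtain ⟨m', rfl⟩ := Nat.exists_eq_add_of_le hm1
    have hcg : c * g ^ p = c * g₀ ^ p * (1 + B.π ^ (1 + m') * y) ^ p := by
      rw [hgy, mul_pow]
      ring
    rcases lt_trichotomy ((1 + m') * p) (B.e₁ + (1 + m')) with hlt | heq | hgt
    · -- Frobenius level
      obtain ⟨k, hk⟩ := Nat.exists_eq_add_of_lt hlt
      have heq : c * g₀ ^ p * (1 + B.π ^ ((1 + m') * p) * (y ^ p + B.π *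
          (B.ε * B.π ^ k * y * (1 + B.π ^ (1 + m') * y * r)))) = 1 + B.π ^ j * s := by
        rw [← h, hcg, hexp, B.p_eq]
        have e1 : B.π ^ B.e₁ * B.π ^ (1 + m') = B.π ^ ((1 + m') * p) * B.π * B.π ^ k := by
          rw [← pow_add, hk]
          ring
        linear_combination (-(c * g₀ ^ p * B.ε * y * (1 + B.π ^ (1 + m') * y * r))) * e1
      have hzW : B.ε * B.π ^ k * y * (1 + B.π ^ (1 + m') * y * r) ∈ S.W :=
        S.W.mul_mem (S.W.mul_mem (S.W.mul_mem hεW (S.W.pow_mem hπW _)) hy)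
          (S.W.add_mem S.W.one_mem (S.W.mul_mem hY hr))
      have hD1 : 1 ≤ (1 + m') * p := Nat.mul_pos (by omega) hp.pos
      obtain ⟨c1, c2, c3⟩ := S.lt_core hc₃ (S.W.pow_mem hy p) hzW hs hD1 hj heq
      rcases lt_trichotomy ((1 + m') * p) j with hDj | hDj | hDj
      · exfalso
        obtain ⟨a, ha, hya⟩ := c1 hDj
        exact hnk (S.pclosed hy ha hya)
      · obtain ⟨a, ha, hsa⟩ := c2 hDj
        refine ⟨a, ha, y, hy, ?_, Or.inr ⟨1 + m', by rw [← hDj]; ring⟩⟩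
        have hτ : B.τ j = 0 := by
          unfold DepthBase.τ
          rw [if_neg]
          intro hcon
          rw [← hDj, hmp] at hcon
          have h1 : (1 + m') * (p - 1) < B.e₁ := by
            rw [hmp] at hlt
            omega
          have h2 : ((1 + m') * (p - 1) + (1 + m')) * (p - 1) =
              (1 + m') * (p - 1) * p := by
            have : p = (p - 1) + 1 := (Nat.sub_add_cancel hp.one_le).symm
            rw [this]
            simp only [Nat.add_sub_cancel]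
            ring
          rw [h2] at hcon
          have := Nat.eq_of_mul_eq_mul_right hp.pos hcon
          omega
        rw [hτ, zero_mul, add_zero]
        exact hsa
      · obtain ⟨a, ha, hsa⟩ := c3 hDj
        exact hzero a ha hsa
    · -- top level
      have heq' : c * g₀ ^ p * (1 + B.π ^ ((1 + m') * p) * ((y ^ p + B.ε * y) + B.π *
          (B.π ^ m' * B.ε * y ^ 2 * r))) = 1 + B.π ^ j * s := by
        rw [← h, hcg, hexp, B.p_eq]
        have e1 : B.π ^ B.e₁ * B.π ^ (1 + m') = B.π ^ ((1 + m') * p) := by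
          rw [← pow_add, heq]
        have e2 : B.π ^ (1 + m') = B.π * B.π ^ m' := by ring
        linear_combination (-(c * g₀ ^ p * B.ε * y * (1 + B.π ^ (1 + m') * y * r))) * e1 -
          (c * g₀ ^ p * B.π ^ ((1 + m') * p) * B.ε * y ^ 2 * r) * e2
      have hzW : B.π ^ m' * B.ε * y ^ 2 * r ∈ S.W :=
        S.W.mul_mem (S.W.mul_mem (S.W.mul_mem (S.W.pow_mem hπW _) hεW) (S.W.pow_mem hy 2)) hr
      have hD1 : 1 ≤ (1 + m') * p := Nat.mul_pos (by omega) hp.pos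
      obtain ⟨c1, c2, c3⟩ := S.lt_core hc₃ (S.W.add_mem (S.W.pow_mem hy p) (S.W.mul_mem hεW hy))
        hzW hs hD1 hj heq'
      rcases lt_trichotomy ((1 + m') * p) j with hDj | hDj | hDj
      · exfalso
        obtain ⟨a, ha, hya⟩ := c1 hDj
        exact hnk (S.algclosed y hy a ha B.ε B.ε_mem hya)
      · obtain ⟨a, ha, hsa⟩ := c2 hDj
        refine ⟨a, ha, y, hy, ?_, Or.inr ⟨1 + m', by rw [← hDj]; ring⟩⟩
        have hτ : B.τ j = B.ε := by
          unfold DepthBase.τ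
          rw [if_pos]
          rw [← hDj, hmp]
          have h1 : (1 + m') * (p - 1) = B.e₁ := by
            rw [hmp] at heq
            omega
          have h2 : ((1 + m') * (p - 1) + (1 + m')) * (p - 1) =
              (1 + m') * (p - 1) * p := by
            have : p = (p - 1) + 1 := (Nat.sub_add_cancel hp.one_le).symm
            rw [this]
            simp only [Nat.add_sub_cancel]
            ring
          rw [h2, h1]
        rw [hτ]
        exact hsa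
      · obtain ⟨a, ha, hsa⟩ := c3 hDj
        exact hzero a ha hsa
    · -- Hensel range for `m`
      obtain ⟨k, hk⟩ := Nat.exists_eq_add_of_lt hgt
      have heq' : c * g₀ ^ p * (1 + B.π ^ (B.e₁ + (1 + m')) * (B.ε * y + B.π *
          (B.π ^ k * y ^ p + B.π ^ m' * B.ε * y ^ 2 * r))) = 1 + B.π ^ j * s := by
        rw [← h, hcg, hexp, B.p_eq]
        have e1 : (B.π ^ (1 + m') * y) ^ p = B.π ^ (B.e₁ + (1 + m')) * B.π * B.π ^ k * y ^ p := by
          rw [mul_pow, ← pow_mul, hk]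
          ring
        have e2 : B.π ^ (1 + m') = B.π * B.π ^ m' := by ring
        rw [e1]
        linear_combination
          (-(c * g₀ ^ p * B.π ^ B.e₁ * B.π ^ (1 + m') * B.ε * y ^ 2 * r)) * e2
      have hzW : B.π ^ k * y ^ p + B.π ^ m' * B.ε * y ^ 2 * r ∈ S.W :=
        S.W.add_mem (S.W.mul_mem (S.W.pow_mem hπW _) (S.W.pow_mem hy p))
          (S.W.mul_mem (S.W.mul_mem (S.W.mul_mem (S.W.pow_mem hπW _) hεW) (S.W.pow_mem hy 2)) hr)
      have hD1 : 1 ≤ B.e₁ + (1 + m') := by omega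
      obtain ⟨c1, c2, c3⟩ := S.lt_core hc₃ (S.W.mul_mem hεW hy) hzW hs hD1 hj heq'
      rcases lt_trichotomy (B.e₁ + (1 + m')) j with hDj | hDj | hDj
      · exfalso
        obtain ⟨a, ha, t, ht, hya⟩ := c1 hDj
        apply hnk
        refine ⟨B.ε⁻¹ * a, B.R₁.mul_mem B.ε_inv_mem ha, B.ε⁻¹ * t,
          S.W.mul_mem (S.R₁_le B.ε_inv_mem) ht, ?_⟩
        have hε0 : B.ε ≠ 0 := B.ε_ne_zero
        field_simp
        linear_combination hya
      · exfalso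
        have h1 : B.e₁ < (1 + m') * (p - 1) := by
          rw [hmp] at hgt
          omega
        rw [← hDj] at hje
        have h2 : (B.e₁ + (1 + m')) * (p - 1) = B.e₁ * (p - 1) + (1 + m') * (p - 1) := by ring
        have h3 : B.e₁ * p = B.e₁ * (p - 1) + B.e₁ := by
          rw [Nat.mul_sub_one, Nat.sub_add_cancel]
          exact Nat.le_mul_of_pos_right _ hp.pos
        omega
      · obtain ⟨a, ha, hsa⟩ := c3 hDj
        exact hzero a ha hsa

end Fermat.Agent.NP
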