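/-
NP33 (S33) — helper5 — package **[CONSTP]**: **the depth of a constant on a sheet is its depth in the
base** (lossless).

`DepthBase`/`Sheet` language (`IFACE_helper5_Defs`).  If a constant `c ∈ K₁ˣ` satisfies
`c g ^ p = 1 + π ^ N s` on a sheet `W` (`g ∈ Fˣ`, `s ∈ W`, `N ≥ 1`), then there is a constant
`b ∈ K₁ˣ` with `c b ^ p ∈ 1 + π ^ N R₁` (`Sheet.const_depth`).

Proof: normalise `c`, `g` to units; peel off constants from `g` (`Sheet.exists_peel`): either `g` is a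
constant modulo `π ^ N`, or `g = g₀ (1 + π ^ m y)` with `ȳ ∉ k`, `m < N`; in the second case the
leading term `T ∈ {y ^ p, y ^ p + ε y, ε y}` of `(1 + π ^ m y) ^ p` (at level `D`) is not a constant
modulo `π` (`k` is algebraically closed in `κ`), so `D ≥ N` by `Sheet.lt_core`.
-/
import Fermat.Agent.NP.EXT_helper5_LT

set_option autoImplicit false

namespace Fermat.Agent.NP

variable {F : Type*} [Field F] {p : ℕ} {B : DepthBase F p} (S : Sheet B)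

/-- the expansion of `(1 + π ^ m y) ^ p` with its leading term `T` at level `D`;
`T̄ ∈ k ⇒ ȳ ∈ k`. -/
theorem Sheet.exists_pow_level (hp : p.Prime) {m : ℕ} (hm : 1 ≤ m) {y : F} (hy : y ∈ S.W) :
    ∃ D : ℕ, 1 ≤ D ∧ ∃ T ∈ S.W, ∃ z ∈ S.W,
      (1 + B.π ^ m * y) ^ p = 1 + B.π ^ D * (T + B.π * z) ∧
      ((∃ a ∈ B.R₁, PiDvd B.π S.W 1 (T - a)) → ∃ a ∈ B.R₁, PiDvd B.π S.W 1 (y - a)) := by
  have hπW := S.π_mem
  have hεW : B.ε ∈ S.W := S.R₁_le B.ε_mem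
  have hY : B.π ^ m * y ∈ S.W := S.W.mul_mem (S.W.pow_mem hπW _) hy
  obtain ⟨r, hr, hexp⟩ := one_add_pow_prime_eq_subring S.W hp hY
  obtain ⟨m', rfl⟩ := Nat.exists_eq_add_of_le hm
  rcases lt_trichotomy ((1 + m') * p) (B.e₁ + (1 + m')) with hlt | heq | hgt
  · -- Frobenius level
    obtain ⟨k, hk⟩ := Nat.exists_eq_add_of_lt hlt
    refine ⟨(1 + m') * p, Nat.mul_pos (by omega) hp.pos, y ^ p, S.W.pow_mem hy p,
      B.ε * B.π ^ k * y * (1 + B.π ^ (1 + m') * y * r),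
      S.W.mul_mem (S.W.mul_mem (S.W.mul_mem hεW (S.W.pow_mem hπW _)) hy)
        (S.W.add_mem S.W.one_mem (S.W.mul_mem hY hr)), ?_, ?_⟩
    · rw [hexp, B.p_eq]
      have e1 : B.π ^ B.e₁ * B.π ^ (1 + m') = B.π ^ ((1 + m') * p) * B.π * B.π ^ k := by
        rw [← pow_add, hk]
        ring
      have e2 : (B.π ^ (1 + m') * y) ^ p = B.π ^ ((1 + m') * p) * y ^ p := by
        rw [mul_pow, ← pow_mul]
      rw [e2]
      linear_combination (B.ε * y * (1 + B.π ^ (1 + m') * y * r)) * e1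
    · rintro ⟨a, ha, hya⟩
      exact S.pclosed hy ha hya
  · -- top level
    refine ⟨(1 + m') * p, Nat.mul_pos (by omega) hp.pos, y ^ p + B.ε * y,
      S.W.add_mem (S.W.pow_mem hy p) (S.W.mul_mem hεW hy),
      B.π ^ m' * B.ε * y ^ 2 * r,
      S.W.mul_mem (S.W.mul_mem (S.W.mul_mem (S.W.pow_mem hπW _) hεW) (S.W.pow_mem hy 2)) hr,
      ?_, ?_⟩
    · rw [hexp, B.p_eq]
      have e1 : B.π ^ B.e₁ * B.π ^ (1 + m') = B.π ^ ((1 + m') * p) := by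
        rw [← pow_add, heq]
      have e2 : B.π ^ (1 + m') = B.π * B.π ^ m' := by ring
      have e3 : (B.π ^ (1 + m') * y) ^ p = B.π ^ ((1 + m') * p) * y ^ p := by
        rw [mul_pow, ← pow_mul]
      rw [e3]
      linear_combination (B.ε * y * (1 + B.π ^ (1 + m') * y * r)) * e1 +
        (B.π ^ ((1 + m') * p) * B.ε * y ^ 2 * r) * e2
    · rintro ⟨a, ha, hya⟩
      exact S.algclosed y hy a ha B.ε B.ε_mem hya
  · -- Hensel range
    obtain ⟨k, hk⟩ := Nat.exists_eq_add_of_lt hgt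
    refine ⟨B.e₁ + (1 + m'), by omega, B.ε * y, S.W.mul_mem hεW hy,
      B.π ^ k * y ^ p + B.π ^ m' * B.ε * y ^ 2 * r,
      S.W.add_mem (S.W.mul_mem (S.W.pow_mem hπW _) (S.W.pow_mem hy p))
        (S.W.mul_mem (S.W.mul_mem (S.W.mul_mem (S.W.pow_mem hπW _) hεW) (S.W.pow_mem hy 2)) hr),
      ?_, ?_⟩
    · rw [hexp, B.p_eq]
      have e1 : (B.π ^ (1 + m') * y) ^ p = B.π ^ (B.e₁ + (1 + m')) * B.π * B.π ^ k * y ^ p := by
        rw [mul_pow, ← pow_mul, hk]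
        ring
      have e2 : B.π ^ (1 + m') = B.π * B.π ^ m' := by ring
      rw [e1]
      linear_combination
        (B.π ^ B.e₁ * B.π ^ (1 + m') * B.ε * y ^ 2 * r) * e2
    · rintro ⟨a, ha, t, ht, hya⟩
      refine ⟨B.ε⁻¹ * a, B.R₁.mul_mem B.ε_inv_mem ha, B.ε⁻¹ * t,
        S.W.mul_mem (S.R₁_le B.ε_inv_mem) ht, ?_⟩
      have hε0 : B.ε ≠ 0 := B.ε_ne_zero
      field_simp
      linear_combination hya

/-- a unit constant which is `≡ 1` modulo `π ^ N` up to a factor `1 + π ^ D X`, `D ≥ N`. -/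
theorem Sheet.const_piDvd_of_mul_eq {c₃ X s : F} {D N : ℕ} (hc₃ : IsUnitIn B.R₁ c₃) (hX : X ∈ S.W)
    (hs : s ∈ S.W) (hND : N ≤ D) (h : c₃ * (1 + B.π ^ D * X) = 1 + B.π ^ N * s) :
    PiDvd B.π B.R₁ N (c₃ - 1) := by
  have hc₃K : c₃ - 1 ∈ B.K₁ := B.K₁.sub_mem (B.R₁_le _ hc₃.1) B.K₁.one_mem
  obtain ⟨k, rfl⟩ := Nat.exists_eq_add_of_le hND
  apply S.const_piDvd hc₃K
  refine ⟨s - c₃ * B.π ^ k * X, S.W.sub_mem hs (S.W.mul_mem (S.W.mul_mem (S.R₁_le hc₃.1)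
    (S.W.pow_mem S.π_mem _)) hX), ?_⟩
  have : B.π ^ (N + k) = B.π ^ N * B.π ^ k := pow_add _ _ _
  rw [this] at h
  linear_combination h

/-- **[CONSTP] for units.** -/
theorem Sheet.unit_const_depth (hp : p.Prime) {c g s : F} {N : ℕ} (hc : IsUnitIn B.R₁ c)
    (hg : IsUnitIn S.W g) (hs : s ∈ S.W) (hN : 1 ≤ N) (h : c * g ^ p = 1 + B.π ^ N * s) :
    ∃ g₀, IsUnitIn B.R₁ g₀ ∧ PiDvd B.π B.R₁ N (c * g₀ ^ p - 1) := by
  have hp1 := S.exists_peel_one hc hg hs hN h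
  rcases S.exists_peel (M := N) hN hp1 with
    ⟨g₀, hg₀, y, hy, hgy⟩ | ⟨m, hm1, hmN, g₀, hg₀, y, hy, hgy, hnk⟩
  · -- `g` is constant modulo `π ^ N`
    refine ⟨g₀, hg₀, ?_⟩
    have hY : B.π ^ N * y ∈ S.W := S.W.mul_mem (S.W.pow_mem S.π_mem _) hy
    obtain ⟨r, hr, hexp⟩ := one_add_pow_prime_eq_subring S.W hp hY
    have hpW : (p : F) ∈ S.W := by
      rw [B.p_eq]
      exact S.W.mul_mem (S.R₁_le B.ε_mem) (S.W.pow_mem S.π_mem _)
    have hpp : (B.π ^ N * y) ^ p = (B.π ^ N * y) * (B.π ^ N * y) ^ (p - 1) := by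
      rw [← pow_succ', Nat.sub_add_cancel hp.one_le]
    refine S.const_piDvd_of_mul_eq (hc.mul (hg₀.pow p))
      (X := y * ((B.π ^ N * y) ^ (p - 1) + p + p * (B.π ^ N * y) * r)) ?_ hs le_rfl ?_
    · exact S.W.mul_mem hy (S.W.add_mem (S.W.add_mem (S.W.pow_mem hY _) hpW)
        (S.W.mul_mem (S.W.mul_mem hpW hY) hr))
    · have hmp : (g₀ * (1 + B.π ^ N * y)) ^ p = g₀ ^ p * (1 + B.π ^ N * y) ^ p := mul_pow _ _ _
      rw [← h, hgy, hmp, hexp, hpp]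
      ring
  · -- first non-constant level `m < N`
    refine ⟨g₀, hg₀, ?_⟩
    obtain ⟨D, hD1, T, hT, z, hz, hexp, hTk⟩ := S.exists_pow_level hp hm1 hy
    have hc₃ : IsUnitIn B.R₁ (c * g₀ ^ p) := hc.mul (hg₀.pow p)
    have heq : c * g₀ ^ p * (1 + B.π ^ D * (T + B.π * z)) = 1 + B.π ^ N * s := by
      have hmp : (g₀ * (1 + B.π ^ m * y)) ^ p = g₀ ^ p * (1 + B.π ^ m * y) ^ p := mul_pow _ _ _
      rw [← h, hgy, hmp, hexp]
      ring
    rcases Nat.lt_or_ge D N with hDN | hND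
    · exfalso
      exact hnk (hTk ((S.lt_core hc₃ hT hz hs hD1 hN heq).1 hDN))
    · exact S.const_piDvd_of_mul_eq hc₃ (S.W.add_mem hT (S.W.mul_mem S.π_mem hz)) hs hND heq

/-- **[CONSTP]**: a constant which is a `p`-th power modulo `π ^ N` on a sheet is a `p`-th power
of a constant modulo `π ^ N`. -/
theorem Sheet.const_depth (hp : p.Prime) {c g s : F} {N : ℕ} (hc : c ∈ B.K₁) (hc0 : c ≠ 0)
    (hg0 : g ≠ 0) (hs : s ∈ S.W) (hN : 1 ≤ N) (h : c * g ^ p = 1 + B.π ^ N * s) :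
    ∃ b ∈ B.K₁, b ≠ 0 ∧ PiDvd B.π B.R₁ N (c * b ^ p - 1) := by
  obtain ⟨m, uc, huc, huc', rfl⟩ := B.unif_const c hc hc0
  obtain ⟨n, u, hu, hu', rfl⟩ := S.unif g hg0
  have huc0 : uc ≠ 0 := by
    rintro rfl
    simp at hc0
  have hu0 : u ≠ 0 := by
    rintro rfl
    simp at hg0
  have hU : IsUnitIn S.W (1 + B.π ^ N * s) := by
    apply S.isUnitIn_one_add
    obtain ⟨k, rfl⟩ := Nat.exists_eq_add_of_le hN
    exact ⟨B.π ^ k * s, S.W.mul_mem (S.W.pow_mem S.π_mem k) hs, by ring⟩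
  have hucU : IsUnitIn S.W uc := ⟨S.R₁_le huc, S.R₁_le huc', huc0⟩
  have huU : IsUnitIn S.W u := ⟨hu, hu', hu0⟩
  have hpow : B.π ^ (m + n * p) = (1 + B.π ^ N * s) * (uc * u ^ p)⁻¹ := by
    rw [← h]
    rw [zpow_add₀ B.π_ne_zero, zpow_mul, zpow_natCast, mul_pow]
    have : uc * u ^ p ≠ 0 := mul_ne_zero huc0 (pow_ne_zero _ hu0)
    field_simp
  have hk : m + n * p = 0 := by
    apply S.zpow_eq_zero_of_isUnitIn
    rw [hpow]
    exact hU.mul (hucU.mul (huU.pow p)).inv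
  have h1 : (B.π ^ m * uc) * (B.π ^ n * u) ^ p = B.π ^ (m + n * p) * (uc * u ^ p) := by
    rw [zpow_add₀ B.π_ne_zero, zpow_mul, zpow_natCast, mul_pow]
    ring
  have h2 : uc * u ^ p = 1 + B.π ^ N * s := by
    rw [← h, h1, hk, zpow_zero, one_mul]
  obtain ⟨g₀, hg₀, hdvd⟩ := S.unit_const_depth hp ⟨huc, huc', huc0⟩ huU hs hN h2
  refine ⟨B.π ^ n * g₀, B.K₁.mul_mem (B.K₁.zpow_mem B.π_mem_K₁ n) (B.R₁_le _ hg₀.1),
    mul_ne_zero (zpow_ne_zero _ B.π_ne_zero) hg₀.2.2, ?_⟩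
  have h3 : B.π ^ m * uc * (B.π ^ n * g₀) ^ p = uc * g₀ ^ p := by
    have : B.π ^ m * uc * (B.π ^ n * g₀) ^ p = B.π ^ (m + n * p) * (uc * g₀ ^ p) := by
      rw [zpow_add₀ B.π_ne_zero, zpow_mul, zpow_natCast, mul_pow]
      ring
    rw [this, hk, zpow_zero, one_mul]
  rw [h3]
  exact hdvd

end Fermat.Agent.NP
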