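/-
NP33 — helper5 — [EXT], part 2: auxiliary lemmas for the successive approximation (Δ4):
Frobenius congruences in a subring, the normalisation of sheet roots, and the approximation predicate.
-/
import Mathlib
import Fermat.Agent.NP.IFACE_helper5_Defs
import Fermat.Agent.NP.EXT_helper5_Basic
import Fermat.Agent.NP.EXT_helper5_LT

set_option autoImplicit false

namespace Fermat.Agent.NP

variable {F : Type*} [Field F] {p : ℕ} {B : DepthBase F p}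

/-- `(x + y) ^ p = x ^ p + y ^ p + p r` in a subring. -/
theorem add_pow_prime_eq_subring (S : Subring F) (hp : p.Prime) {x y : F} (hx : x ∈ S)
    (hy : y ∈ S) : ∃ r ∈ S, (x + y) ^ p = x ^ p + y ^ p + p * r := by
  obtain ⟨r, hr⟩ := exists_add_pow_prime_eq hp (⟨x, hx⟩ : S) ⟨y, hy⟩
  refine ⟨x * y * r, S.mul_mem (S.mul_mem hx hy) r.2, ?_⟩
  have := congrArg (Subtype.val) hr
  simp only [Subring.coe_add, Subring.coe_mul, Subring.coe_pow, Subring.coe_natCast] at this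
  rw [this]
  ring

/-- `(x - y) ^ p = x ^ p - y ^ p + p r` in a subring. -/
theorem sub_pow_prime_eq_subring (S : Subring F) (hp : p.Prime) {x y : F} (hx : x ∈ S)
    (hy : y ∈ S) : ∃ r ∈ S, (x - y) ^ p = x ^ p - y ^ p + p * r := by
  obtain ⟨r, hr, h⟩ := add_pow_prime_eq_subring S hp (S.sub_mem hx hy) hy
  rw [sub_add_cancel] at h
  exact ⟨-r, S.neg_mem hr, by rw [h]; ring⟩

/-- `x ^ p - y ^ p = (x - y) q` in a subring. -/
theorem pow_sub_pow_eq_subring (S : Subring F) (n : ℕ) {x y : F} (hx : x ∈ S) (hy : y ∈ S) :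
    ∃ q ∈ S, x ^ n - y ^ n = (x - y) * q := by
  obtain ⟨q, hq⟩ := sub_dvd_pow_sub_pow (⟨x, hx⟩ : S) ⟨y, hy⟩ n
  refine ⟨q, q.2, ?_⟩
  have := congrArg (Subtype.val) hq
  simpa using this

variable (S : Sheet B)

/-- `p ∈ π W`. -/
theorem Sheet.piDvd_p : PiDvd B.π S.W 1 (p : F) := by
  rw [B.p_eq]
  obtain ⟨k, hk⟩ := Nat.exists_eq_add_of_le B.e₁_pos
  refine ⟨B.ε * B.π ^ k, S.W.mul_mem (S.R₁_le B.ε_mem) (S.W.pow_mem S.π_mem k), ?_⟩
  rw [hk]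
  ring

theorem DepthBase.piDvd_p (B : DepthBase F p) : PiDvd B.π B.R₁ 1 (p : F) := by
  rw [B.p_eq]
  obtain ⟨k, hk⟩ := Nat.exists_eq_add_of_le B.e₁_pos
  refine ⟨B.ε * B.π ^ k, B.R₁.mul_mem B.ε_mem (B.R₁.pow_mem B.π_mem k), ?_⟩
  rw [hk]
  ring

/-- congruent elements have congruent `p`-th powers. -/
theorem Sheet.pow_congr {x y : F} (hx : x ∈ S.W) (hy : y ∈ S.W) (h : PiDvd B.π S.W 1 (x - y))
    (n : ℕ) : PiDvd B.π S.W 1 (x ^ n - y ^ n) := by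
  obtain ⟨q, hq, e⟩ := pow_sub_pow_eq_subring S.W n hx hy
  rw [e]
  exact h.mul_right hq

/-- normalisation: `c g ^ p = U` with `U ∈ Wˣ` can be rewritten with `c ∈ R₁ˣ`, `g ∈ Wˣ`. -/
theorem Sheet.exists_unit_rep' {c g U : F} (hc : c ∈ B.K₁) (hc0 : c ≠ 0)
    (hg0 : g ≠ 0) (hU : IsUnitIn S.W U) (h : c * g ^ p = U) :
    ∃ c' g', IsUnitIn B.R₁ c' ∧ IsUnitIn S.W g' ∧ c' * g' ^ p = U := by
  obtain ⟨m, uc, huc, huc', rfl⟩ := B.unif_const c hc hc0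
  obtain ⟨n, u, hu, hu', rfl⟩ := S.unif g hg0
  have huc0 : uc ≠ 0 := by
    rintro rfl
    simp at hc0
  have hu0 : u ≠ 0 := by
    rintro rfl
    simp at hg0
  have hucU : IsUnitIn S.W uc := ⟨S.R₁_le huc, S.R₁_le huc', huc0⟩
  have huU : IsUnitIn S.W u := ⟨hu, hu', hu0⟩
  have hpow : B.π ^ (m + n * p) = U * (uc * u ^ p)⁻¹ := by
    rw [← h]
    rw [zpow_add₀ B.π_ne_zero, zpow_mul, zpow_natCast, mul_pow]
    have : uc * u ^ p ≠ 0 := mul_ne_zero huc0 (pow_ne_zero _ hu0)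
    field_simp
  have hk : m + n * p = 0 := by
    apply S.zpow_eq_zero_of_isUnitIn
    rw [hpow]
    exact hU.mul (hucU.mul (huU.pow p)).inv
  refine ⟨uc, u, ⟨huc, huc', huc0⟩, huU, ?_⟩
  rw [← h]
  have h1 : (B.π ^ m * uc) * (B.π ^ n * u) ^ p = B.π ^ (m + n * p) * (uc * u ^ p) := by
    rw [zpow_add₀ B.π_ne_zero, zpow_mul, zpow_natCast, mul_pow]
    ring
  rw [h1, hk, zpow_zero, one_mul]

variable {ι : Type*} (L : LocalPt B ι)

/-- the approximation predicate: `v = c δ ^ p (1 + π ^ j r)` with `c ∈ R₁ˣ`, `δ ∈ R'ˣ`, `r ∈ R'`. -/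
def LocalPt.Approx (v : F) (j : ℕ) : Prop :=
  ∃ c δ r, IsUnitIn B.R₁ c ∧ IsUnitIn L.R' δ ∧ r ∈ L.R' ∧ v = c * δ ^ p * (1 + B.π ^ j * r)

/-- the sheetwise hypothesis of (Δ4). -/
def LocalPt.SheetRoots (v : F) (n : ℕ) : Prop :=
  ∀ i, ∃ c ∈ B.K₁, ∃ γ : F, c ≠ 0 ∧ γ ≠ 0 ∧ PiDvd B.π (L.sheet i).W n (v - c * γ ^ p)

variable {L}

theorem LocalPt.approx_zero {v : F} (hv : v ∈ L.R') : L.Approx v 0 :=
  ⟨1, 1, v - 1, isUnitIn_one, isUnitIn_one, L.R'.sub_mem hv L.R'.one_mem, by ring⟩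

theorem LocalPt.nonUnit_p [Nonempty ι] : L.NonUnit (p : F) :=
  L.nonUnit_of_piDvd (L.R₁_le (B.piDvd_p.mem B.π_mem)) (Classical.arbitrary ι)
    ((L.sheet _).piDvd_p)

end Fermat.Agent.NP
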