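/-
NP33 — helper5 — [EXT], part 3: the first step of the successive approximation (Δ4):
`v ≡ δ ^ p mod π R'`.
-/
import Mathlib
import Fermat.Agent.NP.IFACE_helper5_Defs
import Fermat.Agent.NP.EXT_helper5_Basic
import Fermat.Agent.NP.EXT_helper5_LT
import Fermat.Agent.NP.EXT_helper5_Step

set_option autoImplicit false

namespace Fermat.Agent.NP

variable {F : Type*} [Field F] {p : ℕ} {B : DepthBase F p} {ι : Type*} {L : LocalPt B ι}

/-- an element of `R'` whose `p`-th power is a unit is a unit. -/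
theorem LocalPt.isUnitIn_of_pow (hp : p.Prime) {δ : F} (hδ : δ ∈ L.R')
    (h : IsUnitIn L.R' (δ ^ p)) : IsUnitIn L.R' δ := by
  have hδ0 : δ ≠ 0 := by
    rintro rfl
    exact h.2.2 (zero_pow hp.ne_zero)
  refine ⟨hδ, ?_, hδ0⟩
  have : δ⁻¹ = δ ^ (p - 1) * (δ ^ p)⁻¹ := by
    have h1 : δ ^ p = δ ^ (p - 1) * δ := by
      rw [← pow_succ, Nat.sub_add_cancel hp.one_le]
    rw [h1]
    have := pow_ne_zero (p - 1) hδ0
    field_simp
  rw [this]
  exact L.R'.mul_mem (L.R'.pow_mem hδ _) h.2.1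

/-- gluing sheetwise `p`-th roots modulo `π`: if `h' i ∈ R'` and `u - (h' i) ^ p - t (h' i) ∈ π W_i` ... -/
theorem LocalPt.approx_one [Nonempty ι] (hp : p.Prime) {v : F} (hv : IsUnitIn L.R' v) {n : ℕ}
    (hn : 1 ≤ n) (hs : L.SheetRoots v n) : L.Approx v 1 := by
  have key : ∀ i, ∃ h' ∈ L.R', PiDvd B.π (L.sheet i).W 1 (v - h' ^ p) := by
    intro i
    obtain ⟨c, hc, γ, hc0, hγ0, hd⟩ := hs i
    have hd1 : PiDvd B.π (L.sheet i).W 1 (v - c * γ ^ p) := hd.mono (L.sheet i).π_mem hn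
    have hvW : IsUnitIn (L.sheet i).W v := hv.of_le (L.le_sheet i)
    have hU : IsUnitIn (L.sheet i).W (c * γ ^ p) := by
      have hv0 := hvW.2.2
      have : c * γ ^ p = v * (1 + (-(v⁻¹ * (v - c * γ ^ p)))) := by
        field_simp
        ring
      rw [this]
      exact hvW.mul ((L.sheet i).isUnitIn_one_add ((hd1.mul_left hvW.2.1).neg))
    obtain ⟨c', g', hc', hg', hcg⟩ := (L.sheet i).exists_unit_rep' hc hc0 hγ0 hU rfl
    obtain ⟨b, hb, hbc⟩ := B.asclosed c' hc'.1 0 B.R₁.zero_mem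
    have hbg : b * g' ∈ (L.sheet i).W := (L.sheet i).W.mul_mem ((L.sheet i).R₁_le hb) hg'.1
    have h1 : PiDvd B.π (L.sheet i).W 1 ((b * g') ^ p + 0 * (b * g') - v) := by
      have : (b * g') ^ p + 0 * (b * g') - v =
          (b ^ p + 0 * b - c') * g' ^ p - (v - c * γ ^ p) := by
        rw [← hcg]
        ring
      rw [this]
      exact ((hbc.of_le (L.sheet i).R₁_le).mul_right ((L.sheet i).W.pow_mem hg'.1 p)).sub hd1
    obtain ⟨h', hh', hh'd⟩ := L.norm i (b * g') hbg v hv.1 0 L.R'.zero_mem h1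
    refine ⟨h', hh', ?_⟩
    have : v - h' ^ p = -((b * g') ^ p + 0 * (b * g') - v) + ((b * g') ^ p - h' ^ p) := by ring
    rw [this]
    exact h1.neg.add ((L.sheet i).pow_congr hbg (L.le_sheet i hh') hh'd p)
  choose h' hh' hh'v using key
  have hdiff : ∀ i j, h' i - h' j ≠ 0 → (h' i - h' j)⁻¹ ∉ L.R' := by
    intro i j hne
    have hnu : L.NonUnit (h' i - h' j) := by
      apply LocalPt.NonUnit.of_pow (L.R'.sub_mem (hh' i) (hh' j)) (n := p)
      obtain ⟨r, hr, e⟩ := sub_pow_prime_eq_subring L.R' hp (hh' i) (hh' j)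
      rw [e]
      have h1 : L.NonUnit (v - h' i ^ p) :=
        L.nonUnit_of_piDvd (L.R'.sub_mem hv.1 (L.R'.pow_mem (hh' i) p)) i (hh'v i)
      have h2 : L.NonUnit (v - h' j ^ p) :=
        L.nonUnit_of_piDvd (L.R'.sub_mem hv.1 (L.R'.pow_mem (hh' j) p)) j (hh'v j)
      have : h' i ^ p - h' j ^ p + p * r = (v - h' j ^ p) - (v - h' i ^ p) + r * p := by ring
      rw [this]
      exact (h2.sub h1).add (L.nonUnit_p.mul_left hr)
    rcases hnu.2 with h | h
    · exact absurd h hne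
    · exact h
  obtain ⟨δ, hδ, hδi⟩ := L.glue h' hh' hdiff
  have h3 : ∀ i, PiDvd B.π (L.sheet i).W 1 (v - δ ^ p) := by
    intro i
    have : v - δ ^ p = (v - h' i ^ p) - (δ ^ p - h' i ^ p) := by ring
    rw [this]
    exact (hh'v i).sub ((L.sheet i).pow_congr (L.le_sheet i hδ) (L.le_sheet i (hh' i)) (hδi i) p)
  obtain ⟨r₀, hr₀, e⟩ := L.k1 (v - δ ^ p) (L.R'.sub_mem hv.1 (L.R'.pow_mem hδ p)) h3
  have hδp : IsUnitIn L.R' (δ ^ p) := by
    have : δ ^ p = v + (-(v - δ ^ p)) := by ring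
    rw [this]
    exact L.isUnitIn_add_nonUnit hv (L.nonUnit_of_piDvd (L.R'.sub_mem hv.1 (L.R'.pow_mem hδ p))
      (Classical.arbitrary ι) (h3 _)).neg
  have hδu : IsUnitIn L.R' δ := L.isUnitIn_of_pow hp hδ hδp
  refine ⟨1, δ, (δ ^ p)⁻¹ * r₀, isUnitIn_one, hδu, L.R'.mul_mem hδp.2.1 hr₀, ?_⟩
  have h0 := hδp.2.2
  field_simp
  linear_combination e

end Fermat.Agent.NP
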