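/-
NP33 — helper5 — [EXT], part 4: the sheetwise shape of the remainder at level `j` and its gluing
to an element of `R'`.
-/
import Mathlib
import Fermat.Agent.NP.IFACE_helper5_Defs
import Fermat.Agent.NP.EXT_helper5_Basic
import Fermat.Agent.NP.EXT_helper5_LT
import Fermat.Agent.NP.EXT_helper5_Step
import Fermat.Agent.NP.EXT_helper5_One

set_option autoImplicit false

namespace Fermat.Agent.NP

variable {F : Type*} [Field F] {p : ℕ} {B : DepthBase F p} {ι : Type*} {L : LocalPt B ι}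

/-- the sheetwise shape of the remainder `r` of an approximation of level `j`. -/
theorem LocalPt.sheet_shape (hp : p.Prime) {v c δ r : F} {n j : ℕ} (hc : IsUnitIn B.R₁ c)
    (hδ : IsUnitIn L.R' δ) (hr : r ∈ L.R') (e : v = c * δ ^ p * (1 + B.π ^ j * r))
    (hj : 1 ≤ j) (hje : j * (p - 1) ≤ B.e₁ * p) (hjn : j < n) (hs : L.SheetRoots v n) (i : ι) :
    ∃ a ∈ B.R₁, ∃ h ∈ (L.sheet i).W, PiDvd B.π (L.sheet i).W 1 (r - a - (h ^ p + B.τ j * h)) ∧
      (h = 0 ∨ p ∣ j) := by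
  obtain ⟨ci, hci, γ, hci0, hγ0, t, ht, hd⟩ := hs i
  obtain ⟨k, rfl⟩ := Nat.exists_eq_add_of_lt hjn
  have hcW : IsUnitIn (L.sheet i).W c := hc.of_le (L.sheet i).R₁_le
  have hδW : IsUnitIn (L.sheet i).W δ := hδ.of_le (L.le_sheet i)
  have hcδ : IsUnitIn (L.sheet i).W (c * δ ^ p) := hcW.mul (hδW.pow p)
  have hπW := (L.sheet i).π_mem
  have hsW : r - B.π ^ (1 + k) * t * (c * δ ^ p)⁻¹ ∈ (L.sheet i).W :=
    (L.sheet i).W.sub_mem (L.le_sheet i hr)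
      ((L.sheet i).W.mul_mem ((L.sheet i).W.mul_mem ((L.sheet i).W.pow_mem hπW _) ht) hcδ.2.1)
  have hc0 := hc.2.2
  have hδ0 := hδ.2.2
  have heq : (ci * c⁻¹) * (γ * δ⁻¹) ^ p =
      1 + B.π ^ j * (r - B.π ^ (1 + k) * t * (c * δ ^ p)⁻¹) := by
    have h1 : ci * γ ^ p = c * δ ^ p * (1 + B.π ^ j * r) - B.π ^ (j + k + 1) * t := by
      rw [← e]
      linear_combination (-1 : F) * hd
    rw [mul_pow, inv_pow]
    have h2 : ci * c⁻¹ * (γ ^ p * (δ ^ p)⁻¹) = (ci * γ ^ p) * (c * δ ^ p)⁻¹ := by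
      rw [mul_inv]
      ring
    rw [h2, h1]
    have h3 : c * δ ^ p ≠ 0 := hcδ.2.2
    field_simp
    ring
  obtain ⟨a, ha, h, hh, hsh, hor⟩ := (L.sheet i).leading_term hp
    (B.K₁.mul_mem hci (B.R₁_le _ hc.2.1)) (mul_ne_zero hci0 (inv_ne_zero hc0))
    (mul_ne_zero hγ0 (inv_ne_zero hδ0)) hsW hj hje heq
  refine ⟨a, ha, h, hh, ?_, hor⟩
  have : r - a - (h ^ p + B.τ j * h) =
      (r - B.π ^ (1 + k) * t * (c * δ ^ p)⁻¹ - a - (h ^ p + B.τ j * h)) +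
        B.π ^ 1 * (B.π ^ k * t * (c * δ ^ p)⁻¹) := by ring
  rw [this]
  exact hsh.add ⟨_, (L.sheet i).W.mul_mem ((L.sheet i).W.mul_mem ((L.sheet i).W.pow_mem hπW _) ht)
    hcδ.2.1, rfl⟩

/-- gluing constants: if `r ≡ a_i mod π W_i` on every sheet, then `r ≡ a mod π R'`. -/
theorem LocalPt.glue_const [Nonempty ι] {r : F} (hr : r ∈ L.R')
    (h : ∀ i, ∃ a ∈ B.R₁, PiDvd B.π (L.sheet i).W 1 (r - a)) :
    ∃ a ∈ B.R₁, PiDvd B.π L.R' 1 (r - a) := by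
  choose a ha hra using h
  let i₀ : ι := Classical.arbitrary ι
  refine ⟨a i₀, ha i₀, ?_⟩
  apply L.k1 _ (L.R'.sub_mem hr (L.R₁_le (ha i₀)))
  intro i
  have h1 : L.NonUnit (r - a i) :=
    L.nonUnit_of_piDvd (L.R'.sub_mem hr (L.R₁_le (ha i))) i (hra i)
  have h2 : L.NonUnit (r - a i₀) :=
    L.nonUnit_of_piDvd (L.R'.sub_mem hr (L.R₁_le (ha i₀))) i₀ (hra i₀)
  have h3 : L.NonUnit (a i - a i₀) := by
    have : a i - a i₀ = (r - a i₀) - (r - a i) := by ring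
    rw [this]
    exact h2.sub h1
  have h4 := L.const_piDvd_of_nonUnit (B.R₁.sub_mem (ha i) (ha i₀)) h3
  have : r - a i₀ = (r - a i) + (a i - a i₀) := by ring
  rw [this]
  exact (hra i).add (h4.of_le (L.sheet i).R₁_le)

/-- `℘_τ(x) = x ^ p + τ x` respects congruences modulo `π W`. -/
theorem Sheet.wp_congr (S : Sheet B) {x y τ : F} (hx : x ∈ S.W) (hy : y ∈ S.W) (hτ : τ ∈ S.W)
    (h : PiDvd B.π S.W 1 (x - y)) :
    PiDvd B.π S.W 1 ((x ^ p + τ * x) - (y ^ p + τ * y)) := by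
  have : (x ^ p + τ * x) - (y ^ p + τ * y) = (x ^ p - y ^ p) + τ * (x - y) := by ring
  rw [this]
  exact (S.pow_congr hx hy h p).add (h.mul_left hτ)

/-- gluing the general shape: if `r ≡ a_i + ℘_τ(h_i) mod π W_i` on every sheet, then
`r ≡ a + ℘_τ(gT) mod π R'` with `gT ∈ R'`. -/
theorem LocalPt.glue_shape [Nonempty ι] (hp : p.Prime) {r τ : F} (hr : r ∈ L.R') (hτ : τ ∈ B.R₁)
    (h : ∀ i, ∃ a ∈ B.R₁, ∃ h ∈ (L.sheet i).W,
      PiDvd B.π (L.sheet i).W 1 (r - a - (h ^ p + τ * h))) :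
    ∃ a ∈ B.R₁, ∃ gT ∈ L.R', PiDvd B.π L.R' 1 (r - a - (gT ^ p + τ * gT)) := by
  choose a ha h hh hsh using h
  let i₀ : ι := Classical.arbitrary ι
  have hτR : τ ∈ L.R' := L.R₁_le hτ
  have hτW : ∀ i, τ ∈ (L.sheet i).W := fun i => (L.sheet i).R₁_le hτ
  -- step 1: replace `h i` by elements of `R'`
  have k1 : ∀ i, ∃ h' ∈ L.R', PiDvd B.π (L.sheet i).W 1 (r - a i - (h' ^ p + τ * h')) := by
    intro i
    have h1 : PiDvd B.π (L.sheet i).W 1 ((h i) ^ p + τ * (h i) - (r - a i)) := by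
      have : (h i) ^ p + τ * (h i) - (r - a i) = -(r - a i - ((h i) ^ p + τ * h i)) := by ring
      rw [this]
      exact (hsh i).neg
    obtain ⟨h', hh', hd⟩ := L.norm i (h i) (hh i) (r - a i) (L.R'.sub_mem hr (L.R₁_le (ha i)))
      τ hτR h1
    refine ⟨h', hh', ?_⟩
    have : r - a i - (h' ^ p + τ * h') = (r - a i - ((h i) ^ p + τ * h i)) +
        (((h i) ^ p + τ * h i) - (h' ^ p + τ * h')) := by ring
    rw [this]
    exact (hsh i).add ((L.sheet i).wp_congr (hh i) (L.le_sheet i hh') (hτW i) hd)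
  choose h' hh' hsh' using k1
  -- step 2: make the constants equal to `a i₀`
  have k2 : ∀ i, ∃ h'' ∈ L.R', PiDvd B.π (L.sheet i).W 1 (r - a i₀ - (h'' ^ p + τ * h'')) := by
    intro i
    obtain ⟨b, hb, hbd⟩ := B.asclosed (a i - a i₀) (B.R₁.sub_mem (ha i) (ha i₀)) τ hτ
    obtain ⟨ρ, hρ, e⟩ := add_pow_prime_eq_subring L.R' hp (hh' i) (L.R₁_le hb)
    refine ⟨h' i + b, L.R'.add_mem (hh' i) (L.R₁_le hb), ?_⟩
    have : r - a i₀ - ((h' i + b) ^ p + τ * (h' i + b)) =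
        (r - a i - ((h' i) ^ p + τ * h' i)) - (b ^ p + τ * b - (a i - a i₀)) - ρ * p := by
      rw [e]
      ring
    rw [this]
    exact ((hsh' i).sub (hbd.of_le (L.sheet i).R₁_le)).sub
      ((L.sheet i).piDvd_p.mul_left (L.le_sheet i hρ))
  choose h'' hh'' hsh'' using k2
  -- the values `r - a i₀ - ℘(h'' i)` are non-units of `R'`
  have hwpR : ∀ i, (h'' i) ^ p + τ * h'' i ∈ L.R' := fun i =>
    L.R'.add_mem (L.R'.pow_mem (hh'' i) p) (L.R'.mul_mem hτR (hh'' i))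
  have hnu : ∀ i, L.NonUnit (r - a i₀ - ((h'' i) ^ p + τ * h'' i)) := fun i =>
    L.nonUnit_of_piDvd (L.R'.sub_mem (L.R'.sub_mem hr (L.R₁_le (ha i₀))) (hwpR i)) i (hsh'' i)
  -- step 3: adjust by roots of `℘_τ` in `k` so that the values at the point agree
  have k3 : ∀ i, ∃ ω ∈ B.R₁, L.NonUnit (h'' i - h'' i₀ - ω) ∧
      PiDvd B.π B.R₁ 1 (ω ^ p + τ * ω) := by
    intro i
    have hd : h'' i - h'' i₀ ∈ L.R' := L.R'.sub_mem (hh'' i) (hh'' i₀)
    obtain ⟨ω, hω, hres⟩ := L.res (h'' i - h'' i₀) hd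
    have hωR : ω ∈ L.R' := L.R₁_le hω
    have hnu1 : L.NonUnit (h'' i - h'' i₀ - ω) := by
      refine ⟨L.R'.sub_mem hd hωR, ?_⟩
      by_cases h0 : h'' i - h'' i₀ - ω = 0
      · exact Or.inl h0
      · exact Or.inr (hres h0)
    refine ⟨ω, hω, hnu1, ?_⟩
    apply L.const_piDvd_of_nonUnit (B.R₁.add_mem (B.R₁.pow_mem hω p) (B.R₁.mul_mem hτ hω))
    -- ℘(d) is a non-unit
    obtain ⟨ρ, hρ, e1⟩ := sub_pow_prime_eq_subring L.R' hp (hh'' i) (hh'' i₀)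
    have h1 : L.NonUnit ((h'' i - h'' i₀) ^ p + τ * (h'' i - h'' i₀)) := by
      have : (h'' i - h'' i₀) ^ p + τ * (h'' i - h'' i₀) =
          (r - a i₀ - ((h'' i₀) ^ p + τ * h'' i₀)) - (r - a i₀ - ((h'' i) ^ p + τ * h'' i)) +
            ρ * p := by
        rw [e1]
        ring
      rw [this]
      exact ((hnu i₀).sub (hnu i)).add (L.nonUnit_p.mul_left hρ)
    -- ℘(d) - ℘(ω) = (d - ω) (q + τ)
    obtain ⟨q, hq, e2⟩ := pow_sub_pow_eq_subring L.R' p hd hωR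
    have h2 : L.NonUnit (((h'' i - h'' i₀) ^ p + τ * (h'' i - h'' i₀)) - (ω ^ p + τ * ω)) := by
      have : ((h'' i - h'' i₀) ^ p + τ * (h'' i - h'' i₀)) - (ω ^ p + τ * ω) =
          (q + τ) * (h'' i - h'' i₀ - ω) := by
        have : (h'' i - h'' i₀) ^ p = ω ^ p + (h'' i - h'' i₀ - ω) * q := by
          linear_combination e2
        rw [this]
        ring
      rw [this]
      exact hnu1.mul_left (L.R'.add_mem hq hτR)
    have : ω ^ p + τ * ω = ((h'' i - h'' i₀) ^ p + τ * (h'' i - h'' i₀)) -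
        (((h'' i - h'' i₀) ^ p + τ * (h'' i - h'' i₀)) - (ω ^ p + τ * ω)) := by ring
    rw [this]
    exact h1.sub h2
  choose ω hω hωnu hωd using k3
  -- step 4: glue
  have hh3 : ∀ i, h'' i - ω i ∈ L.R' := fun i => L.R'.sub_mem (hh'' i) (L.R₁_le (hω i))
  have hsh3 : ∀ i, PiDvd B.π (L.sheet i).W 1
      (r - a i₀ - ((h'' i - ω i) ^ p + τ * (h'' i - ω i))) := by
    intro i
    obtain ⟨ρ, hρ, e⟩ := sub_pow_prime_eq_subring L.R' hp (hh'' i) (L.R₁_le (hω i))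
    have : r - a i₀ - ((h'' i - ω i) ^ p + τ * (h'' i - ω i)) =
        (r - a i₀ - ((h'' i) ^ p + τ * h'' i)) + ((ω i) ^ p + τ * ω i) - ρ * p := by
      rw [e]
      ring
    rw [this]
    exact ((hsh'' i).add ((hωd i).of_le (L.sheet i).R₁_le)).sub
      ((L.sheet i).piDvd_p.mul_left (L.le_sheet i hρ))
  have hdiff : ∀ i j, (h'' i - ω i) - (h'' j - ω j) ≠ 0 →
      ((h'' i - ω i) - (h'' j - ω j))⁻¹ ∉ L.R' := by
    intro i j hne
    have hnu : L.NonUnit ((h'' i - ω i) - (h'' j - ω j)) := by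
      have : (h'' i - ω i) - (h'' j - ω j) =
          (h'' i - h'' i₀ - ω i) - (h'' j - h'' i₀ - ω j) := by ring
      rw [this]
      exact (hωnu i).sub (hωnu j)
    rcases hnu.2 with h | h
    · exact absurd h hne
    · exact h
  obtain ⟨gT, hgT, hgl⟩ := L.glue (fun i => h'' i - ω i) hh3 hdiff
  refine ⟨a i₀, ha i₀, gT, hgT, ?_⟩
  apply L.k1 _ (L.R'.sub_mem (L.R'.sub_mem hr (L.R₁_le (ha i₀)))
    (L.R'.add_mem (L.R'.pow_mem hgT p) (L.R'.mul_mem hτR hgT)))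
  intro i
  have : r - a i₀ - (gT ^ p + τ * gT) =
      (r - a i₀ - ((h'' i - ω i) ^ p + τ * (h'' i - ω i))) -
        ((gT ^ p + τ * gT) - ((h'' i - ω i) ^ p + τ * (h'' i - ω i))) := by ring
  rw [this]
  exact (hsh3 i).sub ((L.sheet i).wp_congr (L.le_sheet i hgT) (L.le_sheet i (hh3 i)) (hτW i)
    (hgl i))

end Fermat.Agent.NP
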