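/-
NP33 — helper5 — **[EXT] = (Δ4), lossless**: extension of sheetwise `p`-th roots of a unit to the local
ring of a closed point (smooth point or node) of the special fibre.

`LocalPt.ext` : if `v ∈ R'ˣ` is, on every sheet `W_i` through the point, congruent to a constant times a
`p`-th power modulo `π ^ n W_i`, then `v ≡ c δ ^ p mod π ^ n R'` with `c ∈ R₁ˣ`, `δ ∈ R'ˣ`.
`LocalPt.ext_hensel` : if moreover `n` is in the Hensel range `e₁ p < n (p − 1)`, the same holds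
modulo `π ^ N R'` for every `N`.
-/
import Mathlib
import Fermat.Agent.NP.IFACE_helper5_Defs
import Fermat.Agent.NP.EXT_helper5_Basic
import Fermat.Agent.NP.EXT_helper5_LT
import Fermat.Agent.NP.EXT_helper5_Step
import Fermat.Agent.NP.EXT_helper5_One
import Fermat.Agent.NP.EXT_helper5_Shape

set_option autoImplicit false

namespace Fermat.Agent.NP

variable {F : Type*} [Field F] {p : ℕ} {B : DepthBase F p}

theorem mul_prime_eq (hp : p.Prime) (m : ℕ) : m * p = m * (p - 1) + m := by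
  rw [Nat.mul_sub_one, Nat.sub_add_cancel]
  exact Nat.le_mul_of_pos_right m hp.pos

theorem mul_prime_mul_pred (_hp : p.Prime) (m : ℕ) : m * p * (p - 1) = m * (p - 1) * p := by
  ring

/-- the binomial expansion at a level `j = m p` below or at the top level. -/
theorem DepthBase.exists_pow_expand (B : DepthBase F p) (hp : p.Prime) (S : Subring F)
    (hS : B.R₁ ≤ S) {m : ℕ} (hm : 1 ≤ m) (hje : m * p * (p - 1) ≤ B.e₁ * p) {g : F} (hg : g ∈ S) :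
    ∃ ρ ∈ S, (1 + B.π ^ m * g) ^ p = 1 + B.π ^ (m * p) * (g ^ p + B.τ (m * p) * g + B.π * ρ) := by
  have hπS : B.π ∈ S := hS B.π_mem
  have hεS : B.ε ∈ S := hS B.ε_mem
  obtain ⟨r₂, hr₂, hexp⟩ := one_add_pow_prime_eq_subring S hp
    (S.mul_mem (S.pow_mem hπS m) hg)
  have hle : m * (p - 1) ≤ B.e₁ := by
    rw [mul_prime_mul_pred hp] at hje
    exact Nat.le_of_mul_le_mul_right hje hp.pos
  obtain ⟨m', rfl⟩ := Nat.exists_eq_add_of_le hm
  rcases Nat.lt_or_ge ((1 + m') * (p - 1)) B.e₁ with hlt | hge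
  · -- below the top level
    have hτ : B.τ ((1 + m') * p) = 0 := by
      unfold DepthBase.τ
      rw [if_neg]
      rw [mul_prime_mul_pred hp]
      intro hcon
      have := Nat.eq_of_mul_eq_mul_right hp.pos hcon
      omega
    obtain ⟨k, hk⟩ := Nat.exists_eq_add_of_lt hlt
    have hk' : B.e₁ + (1 + m') = (1 + m') * p + 1 + k := by
      rw [mul_prime_eq hp (1 + m')]
      omega
    refine ⟨B.ε * B.π ^ k * g * (1 + B.π ^ (1 + m') * g * r₂),
      S.mul_mem (S.mul_mem (S.mul_mem hεS (S.pow_mem hπS k)) hg)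
        (S.add_mem S.one_mem (S.mul_mem (S.mul_mem (S.pow_mem hπS _) hg) hr₂)), ?_⟩
    rw [hexp, hτ, B.p_eq]
    have e1 : B.π ^ B.e₁ * B.π ^ (1 + m') = B.π ^ ((1 + m') * p) * B.π * B.π ^ k := by
      rw [← pow_add, hk']
      ring
    rw [mul_pow, ← pow_mul]
    linear_combination (B.ε * g * (1 + B.π ^ (1 + m') * g * r₂)) * e1
  · -- the top level
    have heq : (1 + m') * (p - 1) = B.e₁ := le_antisymm hle hge
    have hτ : B.τ ((1 + m') * p) = B.ε := by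
      unfold DepthBase.τ
      rw [if_pos]
      rw [mul_prime_mul_pred hp, heq]
    have hk' : B.e₁ + (1 + m') = (1 + m') * p := by
      rw [mul_prime_eq hp (1 + m')]
      omega
    refine ⟨B.π ^ m' * B.ε * g ^ 2 * r₂,
      S.mul_mem (S.mul_mem (S.mul_mem (S.pow_mem hπS _) hεS) (S.pow_mem hg 2)) hr₂, ?_⟩
    rw [hexp, hτ, B.p_eq]
    have e1 : B.π ^ B.e₁ * B.π ^ (1 + m') = B.π ^ ((1 + m') * p) := by
      rw [← pow_add, hk']
    have e2 : B.π ^ (1 + m') = B.π * B.π ^ m' := by ring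
    rw [mul_pow, ← pow_mul]
    linear_combination (B.ε * g * (1 + B.π ^ (1 + m') * g * r₂)) * e1 +
      (B.π ^ ((1 + m') * p) * B.ε * g ^ 2 * r₂) * e2

variable {ι : Type*} {L : LocalPt B ι}

/-- `1 + π ^ m g` is a unit of `R'` (`m ≥ 1`). -/
theorem LocalPt.isUnitIn_one_add_pow_mul [Nonempty ι] {m : ℕ} (hm : 1 ≤ m) {g : F}
    (hg : g ∈ L.R') : IsUnitIn L.R' (1 + B.π ^ m * g) := by
  apply L.isUnitIn_add_nonUnit isUnitIn_one
  apply L.nonUnit_of_piDvd (L.R'.mul_mem (L.R'.pow_mem L.π_mem m) hg) (Classical.arbitrary ι)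
  obtain ⟨k, rfl⟩ := Nat.exists_eq_add_of_le hm
  exact ⟨B.π ^ k * g, (L.sheet _).W.mul_mem ((L.sheet _).W.pow_mem (L.sheet _).π_mem k)
    (L.le_sheet _ hg), by ring⟩

/-- the step `j → j + 1` below or at the top level. -/
theorem LocalPt.approx_succ [Nonempty ι] (hp : p.Prime) {v : F} {n j : ℕ}
    (hj : 1 ≤ j) (hje : j * (p - 1) ≤ B.e₁ * p) (hjn : j < n) (hs : L.SheetRoots v n)
    (ha : L.Approx v j) : L.Approx v (j + 1) := by
  obtain ⟨c, δ, r, hc, hδ, hr, e⟩ := ha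
  have hshape := fun i => L.sheet_shape hp hc hδ hr e hj hje hjn hs i
  by_cases hpj : p ∣ j
  · -- Frobenius / top level
    obtain ⟨m, rfl⟩ := hpj
    have hm : 1 ≤ m := by
      rcases Nat.eq_zero_or_pos m with rfl | h
      · simp at hj
      · exact h
    rw [mul_comm p m] at hj hje hjn e hshape ⊢
    obtain ⟨a, ha, gT, hgT, r', hr', er⟩ := L.glue_shape hp hr (B.τ_mem (m * p))
      (fun i => by
        obtain ⟨a, ha, h, hh, hsh, -⟩ := hshape i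
        exact ⟨a, ha, h, hh, hsh⟩)
    obtain ⟨ρ, hρ, hexp⟩ := B.exists_pow_expand hp L.R' L.R₁_le hm hje hgT
    have hA : IsUnitIn B.R₁ (1 + B.π ^ (m * p) * a) := by
      apply B.isUnitIn_one_add
      have : 1 ≤ m * p := Nat.mul_pos hm hp.pos
      obtain ⟨k, hk⟩ := Nat.exists_eq_add_of_le this
      rw [hk]
      exact ⟨B.π ^ k * a, B.R₁.mul_mem (B.R₁.pow_mem B.π_mem k) ha, by ring⟩
    have hY : IsUnitIn L.R' (1 + B.π ^ m * gT) := L.isUnitIn_one_add_pow_mul hm hgT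
    have hP : IsUnitIn L.R' ((1 + B.π ^ m * gT) ^ p) := hY.pow p
    have hAP : IsUnitIn L.R' ((1 + B.π ^ (m * p) * a) * (1 + B.π ^ m * gT) ^ p) :=
      (hA.of_le L.R₁_le).mul hP
    have hmp1 : 1 ≤ m * p := Nat.mul_pos hm hp.pos
    obtain ⟨j', hj'⟩ := Nat.exists_eq_add_of_le hmp1
    refine ⟨c * (1 + B.π ^ (m * p) * a), δ * (1 + B.π ^ m * gT),
      ((1 + B.π ^ (m * p) * a) * (1 + B.π ^ m * gT) ^ p)⁻¹ *
        (r' - ρ - B.π ^ j' * a * (gT ^ p + B.τ (m * p) * gT + B.π * ρ)),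
      hc.mul hA, hδ.mul hY, ?_, ?_⟩
    · apply L.R'.mul_mem hAP.2.1
      exact L.R'.sub_mem (L.R'.sub_mem hr' hρ) (L.R'.mul_mem (L.R'.mul_mem
        (L.R'.pow_mem L.π_mem _) (L.R₁_le ha))
        (L.R'.add_mem (L.R'.add_mem (L.R'.pow_mem hgT p)
          (L.R'.mul_mem (L.R₁_le (B.τ_mem _)) hgT)) (L.R'.mul_mem L.π_mem hρ)))
    · have hX : ((1 + B.π ^ (m * p) * a) * (1 + B.π ^ m * gT) ^ p) *
          ((1 + B.π ^ (m * p) * a) * (1 + B.π ^ m * gT) ^ p)⁻¹ = 1 :=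
        mul_inv_cancel₀ hAP.2.2
      rw [e]
      have e3 : B.π ^ (m * p + 1) * B.π ^ j' = B.π ^ (m * p) * B.π ^ (m * p) := by
        rw [← pow_add, ← pow_add]
        congr 1
        omega
      rw [pow_one] at er
      rw [mul_pow]
      rw [hexp] at hX ⊢
      linear_combination (c * δ ^ p * B.π ^ (m * p)) * er +
        (c * δ ^ p * a * (gT ^ p + B.τ (m * p) * gT + B.π * ρ)) * e3 -
        (c * δ ^ p * B.π ^ (m * p + 1) *
          (r' - ρ - B.π ^ j' * a * (gT ^ p + B.τ (m * p) * gT + B.π * ρ))) * hX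
  · -- constant level
    obtain ⟨a, ha, r', hr', er⟩ := L.glue_const hr (fun i => by
      obtain ⟨a, ha, h, hh, hsh, hor⟩ := hshape i
      rcases hor with rfl | hor
      · refine ⟨a, ha, ?_⟩
        rw [zero_pow hp.ne_zero, mul_zero, add_zero, sub_zero] at hsh
        exact hsh
      · exact absurd hor hpj)
    have hA : IsUnitIn B.R₁ (1 + B.π ^ j * a) := by
      apply B.isUnitIn_one_add
      obtain ⟨k, hk⟩ := Nat.exists_eq_add_of_le hj
      rw [hk]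
      exact ⟨B.π ^ k * a, B.R₁.mul_mem (B.R₁.pow_mem B.π_mem k) ha, by ring⟩
    refine ⟨c * (1 + B.π ^ j * a), δ, (1 + B.π ^ j * a)⁻¹ * r', hc.mul hA, hδ,
      L.R'.mul_mem (L.R₁_le hA.2.1) hr', ?_⟩
    have hA0 := hA.2.2
    rw [e]
    rw [pow_one] at er
    field_simp
    linear_combination (c * δ ^ p * B.π ^ j) * er

/-- the step `j → j + 1` in the Hensel range: no hypothesis on the sheets is needed. -/
theorem LocalPt.approx_succ_hensel [Nonempty ι] (hp : p.Prime) {v : F} {j : ℕ}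
    (hje : B.e₁ * p < j * (p - 1)) (ha : L.Approx v j) : L.Approx v (j + 1) := by
  obtain ⟨c, δ, r, hc, hδ, hr, e⟩ := ha
  -- arithmetic: `j = e₁ + m`, `m ≥ 1`, `m p = j + 1 + k`
  have hjgt : B.e₁ < j := by
    by_contra hcon
    push Not at hcon
    have h1 : j * (p - 1) ≤ B.e₁ * (p - 1) := Nat.mul_le_mul_right _ hcon
    have h2 : B.e₁ * (p - 1) ≤ B.e₁ * p := Nat.mul_le_mul_left _ (Nat.sub_le p 1)
    omega
  obtain ⟨m', hm'⟩ := Nat.exists_eq_add_of_lt hjgt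
  have hmp : (1 + m') * p = (1 + m') * (p - 1) + (1 + m') := mul_prime_eq hp _
  have hlt : j < (1 + m') * p := by
    have h3 : B.e₁ * p = B.e₁ * (p - 1) + B.e₁ := mul_prime_eq hp _
    have h4 : j * (p - 1) = B.e₁ * (p - 1) + (1 + m') * (p - 1) := by
      rw [hm']
      ring
    omega
  obtain ⟨k, hk⟩ := Nat.exists_eq_add_of_lt hlt
  have hεR : B.ε ∈ L.R' := L.R₁_le B.ε_mem
  have hgR : B.ε⁻¹ * r ∈ L.R' := L.R'.mul_mem (L.R₁_le B.ε_inv_mem) hr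
  obtain ⟨r₂, hr₂, hexp⟩ := one_add_pow_prime_eq_subring L.R' hp
    (L.R'.mul_mem (L.R'.pow_mem L.π_mem (1 + m')) hgR)
  have hY : IsUnitIn L.R' (1 + B.π ^ (1 + m') * (B.ε⁻¹ * r)) :=
    L.isUnitIn_one_add_pow_mul (by omega) hgR
  have hP : IsUnitIn L.R' ((1 + B.π ^ (1 + m') * (B.ε⁻¹ * r)) ^ p) := hY.pow p
  have hρR : B.π ^ k * (B.ε⁻¹ * r) ^ p + B.π ^ m' * B.ε * (B.ε⁻¹ * r) ^ 2 * r₂ ∈ L.R' :=
    L.R'.add_mem (L.R'.mul_mem (L.R'.pow_mem L.π_mem _) (L.R'.pow_mem hgR p))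
      (L.R'.mul_mem (L.R'.mul_mem (L.R'.mul_mem (L.R'.pow_mem L.π_mem _) hεR)
        (L.R'.pow_mem hgR 2)) hr₂)
  have hε0 := B.ε_ne_zero
  -- `P = 1 + π ^ j (r + π ρ)`
  have hPeq : (1 + B.π ^ (1 + m') * (B.ε⁻¹ * r)) ^ p = 1 + B.π ^ j * (r + B.π *
      (B.π ^ k * (B.ε⁻¹ * r) ^ p + B.π ^ m' * B.ε * (B.ε⁻¹ * r) ^ 2 * r₂)) := by
    rw [hexp, B.p_eq, mul_pow, ← pow_mul, hk]
    have e1 : B.π ^ B.e₁ * B.π ^ (1 + m') = B.π ^ j := by
      rw [← pow_add, hm']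
      congr 1
      omega
    have e2 : B.π ^ (1 + m') = B.π * B.π ^ m' := by ring
    have e5 : B.ε * B.ε⁻¹ = 1 := mul_inv_cancel₀ hε0
    have e6 : B.π ^ (j + k + 1) = B.π ^ j * B.π * B.π ^ k := by ring
    rw [e6]
    linear_combination (B.ε * B.ε⁻¹ * r + B.ε * B.π ^ (1 + m') * (B.ε⁻¹ * r) ^ 2 * r₂) * e1 +
      (B.π ^ j * r) * e5 + (B.π ^ j * B.ε * (B.ε⁻¹ * r) ^ 2 * r₂) * e2
  refine ⟨c, δ * (1 + B.π ^ (1 + m') * (B.ε⁻¹ * r)),
    -((1 + B.π ^ (1 + m') * (B.ε⁻¹ * r)) ^ p)⁻¹ *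
      (B.π ^ k * (B.ε⁻¹ * r) ^ p + B.π ^ m' * B.ε * (B.ε⁻¹ * r) ^ 2 * r₂),
    hc, hδ.mul hY, L.R'.mul_mem (L.R'.neg_mem hP.2.1) hρR, ?_⟩
  have hX : ((1 + B.π ^ (1 + m') * (B.ε⁻¹ * r)) ^ p) *
      ((1 + B.π ^ (1 + m') * (B.ε⁻¹ * r)) ^ p)⁻¹ = 1 := mul_inv_cancel₀ hP.2.2
  rw [e, mul_pow]
  have e7 : B.π ^ (j + 1) = B.π ^ j * B.π := by ring
  rw [e7]
  linear_combination (-(c * δ ^ p)) * hPeq +
    (c * δ ^ p * B.π ^ j * B.π *
      (B.π ^ k * (B.ε⁻¹ * r) ^ p + B.π ^ m' * B.ε * (B.ε⁻¹ * r) ^ 2 * r₂)) * hX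

/-- all levels of the successive approximation. -/
theorem LocalPt.approx_all [Nonempty ι] (hp : p.Prime) {v : F} (hv : IsUnitIn L.R' v) {n : ℕ}
    (hs : L.SheetRoots v n) (j : ℕ) (hj : j ≤ n ∨ B.e₁ * p < n * (p - 1)) : L.Approx v j := by
  induction j with
  | zero => exact L.approx_zero hv.1
  | succ j ih =>
    have hn1 : 1 ≤ n := by
      rcases hj with h | h
      · omega
      · rcases Nat.eq_zero_or_pos n with rfl | h'
        · simp at h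
        · exact h'
    have ih' : L.Approx v j := by
      apply ih
      rcases hj with h | h
      · left
        omega
      · exact Or.inr h
    rcases Nat.eq_zero_or_pos j with rfl | hj1
    · exact L.approx_one hp hv hn1 hs
    · rcases Nat.lt_or_ge (B.e₁ * p) (j * (p - 1)) with hH | hH
      · exact L.approx_succ_hensel hp hH ih'
      · have hjn : j < n := by
          rcases hj with h | h
          · omega
          · have h1 : j * (p - 1) < n * (p - 1) := lt_of_le_of_lt hH h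
            exact lt_of_mul_lt_mul_right h1 (Nat.zero_le _)
        exact L.approx_succ hp hj1 hH hjn hs ih'

/-- **(Δ4), lossless.** -/
theorem LocalPt.ext [Nonempty ι] (hp : p.Prime) {v : F} (hv : IsUnitIn L.R' v) {n : ℕ}
    (hs : ∀ i, ∃ c ∈ B.K₁, ∃ γ : F, c ≠ 0 ∧ γ ≠ 0 ∧ PiDvd B.π (L.sheet i).W n (v - c * γ ^ p)) :
    ∃ c δ, IsUnitIn B.R₁ c ∧ IsUnitIn L.R' δ ∧ PiDvd B.π L.R' n (v - c * δ ^ p) := by
  obtain ⟨c, δ, r, hc, hδ, hr, e⟩ := L.approx_all hp hv hs n (Or.inl le_rfl)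
  refine ⟨c, δ, hc, hδ, c * δ ^ p * r, L.R'.mul_mem (L.R'.mul_mem (L.R₁_le hc.1)
    (L.R'.pow_mem hδ.1 p)) hr, ?_⟩
  rw [e]
  ring

/-- **(Δ4) in the Hensel range**: arbitrary precision. -/
theorem LocalPt.ext_hensel [Nonempty ι] (hp : p.Prime) {v : F} (hv : IsUnitIn L.R' v) {n : ℕ}
    (hn : B.e₁ * p < n * (p - 1))
    (hs : ∀ i, ∃ c ∈ B.K₁, ∃ γ : F, c ≠ 0 ∧ γ ≠ 0 ∧ PiDvd B.π (L.sheet i).W n (v - c * γ ^ p))
    (N : ℕ) :
    ∃ c δ, IsUnitIn B.R₁ c ∧ IsUnitIn L.R' δ ∧ PiDvd B.π L.R' N (v - c * δ ^ p) := by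
  obtain ⟨c, δ, r, hc, hδ, hr, e⟩ := L.approx_all hp hv hs N (Or.inr hn)
  refine ⟨c, δ, hc, hδ, c * δ ^ p * r, L.R'.mul_mem (L.R'.mul_mem (L.R₁_le hc.1)
    (L.R'.pow_mem hδ.1 p)) hr, ?_⟩
  rw [e]
  ring

end Fermat.Agent.NP
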