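/-
NP33 — helper5 — [EXT]/[DEPTH]: **the converse of the leading-term lemma (LT)** on a sheet.

If `f = c γ ^ p (1 + π ^ j s)` and the leading term has the admissible shape
`s = a + (h ^ p + τ_j h) + π w` (`a ∈ R₁`, `h, w ∈ W`, and `h = 0` unless `p ∣ j`), at a level
`j (p − 1) ≤ e₁ p` below or at the top level, then `depth_W(f) ≥ j + 1`
(`Sheet.depthGE_succ_of_shape`); in the Hensel range `j (p − 1) > e₁ p` every `f` of depth `≥ j` has
depth `≥ j + 1` (`Sheet.depthGE_succ_of_hensel`).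
-/
import Fermat.Agent.NP.EXT_helper5_Main

set_option autoImplicit false

namespace Fermat.Agent.NP

variable {F : Type*} [Field F] {p : ℕ} {B : DepthBase F p} (S : Sheet B)

/-- `1 + π ^ m h` is a unit of `W` (`m ≥ 1`). -/
theorem Sheet.isUnitIn_one_add_pow_mul {m : ℕ} (hm : 1 ≤ m) {h : F} (hh : h ∈ S.W) :
    IsUnitIn S.W (1 + B.π ^ m * h) := by
  apply S.isUnitIn_one_add
  obtain ⟨k, rfl⟩ := Nat.exists_eq_add_of_le hm
  exact ⟨B.π ^ k * h, S.W.mul_mem (S.W.pow_mem S.π_mem k) hh, by ring⟩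

/-- **converse of (LT), constant part**: `f = c γ ^ p (1 + π ^ j (a + π w))` ⇒ depth `≥ j + 1`. -/
theorem Sheet.depthGE_succ_of_const {f c γ a w : F} {j : ℕ} (hc : c ∈ B.K₁) (hc0 : c ≠ 0)
    (hγ0 : γ ≠ 0) (hj : 1 ≤ j) (ha : a ∈ B.R₁) (hw : w ∈ S.W)
    (hf : f = c * γ ^ p * (1 + B.π ^ j * (a + B.π * w))) : S.DepthGE f (j + 1) := by
  have hA : IsUnitIn B.R₁ (1 + B.π ^ j * a) := by
    apply B.isUnitIn_one_add
    obtain ⟨k, rfl⟩ := Nat.exists_eq_add_of_le hj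
    exact ⟨B.π ^ k * a, B.R₁.mul_mem (B.R₁.pow_mem B.π_mem k) ha, by ring⟩
  have hA0 := hA.2.2
  refine ⟨c * (1 + B.π ^ j * a), B.K₁.mul_mem hc (B.R₁_le _ hA.1), γ, mul_ne_zero hc0 hA0, hγ0,
    (1 + B.π ^ j * a)⁻¹ * w, S.W.mul_mem (S.R₁_le hA.2.1) hw, ?_⟩
  rw [hf]
  have hγp : γ ^ p ≠ 0 := pow_ne_zero p hγ0
  field_simp
  ring

/-- **converse of (LT)**: a leading term of the admissible shape ⇒ depth `≥ j + 1`. -/
theorem Sheet.depthGE_succ_of_shape (hp : p.Prime) {f c γ s a h w : F} {j : ℕ} (hc : c ∈ B.K₁)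
    (hc0 : c ≠ 0) (hγ0 : γ ≠ 0) (hj : 1 ≤ j) (hje : j * (p - 1) ≤ B.e₁ * p)
    (hf : f = c * γ ^ p * (1 + B.π ^ j * s)) (ha : a ∈ B.R₁) (hh : h ∈ S.W) (hw : w ∈ S.W)
    (hshape : s = a + (h ^ p + B.τ j * h) + B.π * w) (hhj : h = 0 ∨ p ∣ j) :
    S.DepthGE f (j + 1) := by
  by_cases hh0 : h = 0
  · subst hh0
    refine S.depthGE_succ_of_const hc hc0 hγ0 hj ha hw ?_
    rw [hf, hshape, zero_pow hp.ne_zero, mul_zero, add_zero, add_zero]
  · obtain ⟨m, rfl⟩ := hhj.resolve_left hh0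
    have hm : 1 ≤ m := by
      rcases Nat.eq_zero_or_pos m with rfl | h
      · simp at hj
      · exact h
    rw [mul_comm p m] at hj hje hf hshape ⊢
    obtain ⟨ρ, hρ, hexp⟩ := B.exists_pow_expand hp S.W S.R₁_le hm hje hh
    have hA : IsUnitIn B.R₁ (1 + B.π ^ (m * p) * a) := by
      apply B.isUnitIn_one_add
      obtain ⟨k, hk⟩ := Nat.exists_eq_add_of_le hj
      rw [hk]
      exact ⟨B.π ^ k * a, B.R₁.mul_mem (B.R₁.pow_mem B.π_mem k) ha, by ring⟩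
    have hY : IsUnitIn S.W (1 + B.π ^ m * h) := S.isUnitIn_one_add_pow_mul hm hh
    have hAP : IsUnitIn S.W ((1 + B.π ^ (m * p) * a) * (1 + B.π ^ m * h) ^ p) :=
      (hA.of_le S.R₁_le).mul (hY.pow p)
    obtain ⟨j', hj'⟩ := Nat.exists_eq_add_of_le hj
    have hτW : B.τ (m * p) ∈ S.W := S.R₁_le (B.τ_mem _)
    refine ⟨c * (1 + B.π ^ (m * p) * a), B.K₁.mul_mem hc (B.R₁_le _ hA.1),
      γ * (1 + B.π ^ m * h), mul_ne_zero hc0 hA.2.2, mul_ne_zero hγ0 hY.2.2,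
      ((1 + B.π ^ (m * p) * a) * (1 + B.π ^ m * h) ^ p)⁻¹ *
        (w - ρ - B.π ^ j' * a * (h ^ p + B.τ (m * p) * h + B.π * ρ)), ?_, ?_⟩
    · apply S.W.mul_mem hAP.2.1
      exact S.W.sub_mem (S.W.sub_mem hw hρ) (S.W.mul_mem (S.W.mul_mem
        (S.W.pow_mem S.π_mem _) (S.R₁_le ha))
        (S.W.add_mem (S.W.add_mem (S.W.pow_mem hh p) (S.W.mul_mem hτW hh))
          (S.W.mul_mem S.π_mem hρ)))
    · have hAP0 := hAP.2.2
      have hγp : γ ^ p ≠ 0 := pow_ne_zero p hγ0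
      have hdiv : f / (c * (1 + B.π ^ (m * p) * a) * (γ * (1 + B.π ^ m * h)) ^ p) =
          (1 + B.π ^ (m * p) * s) / ((1 + B.π ^ (m * p) * a) * (1 + B.π ^ m * h) ^ p) := by
        rw [hf, mul_pow]
        field_simp
      rw [hdiv, div_sub_one hAP0, div_eq_inv_mul, mul_comm (B.π ^ (m * p + 1)), mul_assoc]
      congr 1
      rw [hexp, hshape]
      have e1 : B.π ^ (m * p + 1) = B.π ^ (m * p) * B.π := pow_succ _ _
      have e2 : B.π ^ (m * p) = B.π * B.π ^ j' := by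
        rw [hj', pow_add, pow_one]
      rw [e1]
      linear_combination (-(B.π ^ (m * p) * a * (h ^ p + B.τ (m * p) * h + B.π * ρ))) * e2

/-- **Hensel range**: for `j (p − 1) > e₁ p`, depth `≥ j` implies depth `≥ j + 1`. -/
theorem Sheet.depthGE_succ_of_hensel (hp : p.Prime) {f : F} {j : ℕ}
    (hje : B.e₁ * p < j * (p - 1)) (hf : S.DepthGE f j) : S.DepthGE f (j + 1) := by
  obtain ⟨c, hc, γ, hc0, hγ0, s, hs, hfs⟩ := hf
  have hp1 : 1 ≤ p - 1 := by have := hp.two_le; omega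
  have hpp : p = (p - 1) + 1 := (Nat.sub_add_cancel hp.one_le).symm
  -- `j = e₁ + 1 + k`
  have hjlt : B.e₁ < j := by
    by_contra hcon
    push Not at hcon
    have h1 : j * (p - 1) ≤ B.e₁ * (p - 1) := Nat.mul_le_mul_right _ hcon
    have h2 : B.e₁ * (p - 1) ≤ B.e₁ * p := Nat.mul_le_mul_left _ (Nat.sub_le p 1)
    omega
  obtain ⟨k, hk⟩ := Nat.exists_eq_add_of_lt hjlt
  -- `p (j - e₁) ≥ j + 1`
  have hbig : j + 1 ≤ (1 + k) * p := by
    have h1 : B.e₁ * p < (B.e₁ + k + 1) * (p - 1) := by rw [← hk]; exact hje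
    have hgen : ∀ n : ℕ, n * p = n * (p - 1) + n := by
      intro n
      rw [Nat.mul_sub_one, Nat.sub_add_cancel]
      exact Nat.le_mul_of_pos_right n hp.pos
    have h2 : (1 + k) * p = (1 + k) * (p - 1) + (1 + k) := hgen _
    have h3 : B.e₁ * p = B.e₁ * (p - 1) + B.e₁ := hgen _
    have h4 : (B.e₁ + k + 1) * (p - 1) = B.e₁ * (p - 1) + (1 + k) * (p - 1) := by ring
    omega
  obtain ⟨k', hk'⟩ := Nat.exists_eq_add_of_le hbig
  set y : F := B.ε⁻¹ * s with hy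
  have hyW : y ∈ S.W := S.W.mul_mem (S.R₁_le B.ε_inv_mem) hs
  have hY : B.π ^ (1 + k) * y ∈ S.W := S.W.mul_mem (S.W.pow_mem S.π_mem _) hyW
  obtain ⟨r, hr, hexp⟩ := one_add_pow_prime_eq_subring S.W hp hY
  have hU : IsUnitIn S.W (1 + B.π ^ (1 + k) * y) := S.isUnitIn_one_add_pow_mul (by omega) hyW
  have hUp : IsUnitIn S.W ((1 + B.π ^ (1 + k) * y) ^ p) := hU.pow p
  have hε0 := B.ε_ne_zero
  have hfs' : f = c * γ ^ p * (1 + B.π ^ j * s) := by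
    have hcg : c * γ ^ p ≠ 0 := mul_ne_zero hc0 (pow_ne_zero p hγ0)
    field_simp at hfs
    linear_combination hfs
  refine ⟨c, hc, γ * (1 + B.π ^ (1 + k) * y), hc0, mul_ne_zero hγ0 hU.2.2,
    -((1 + B.π ^ (1 + k) * y) ^ p)⁻¹ * (B.π ^ k' * y ^ p + B.π ^ k * s * y * r),
    S.W.mul_mem (S.W.neg_mem hUp.2.1) (S.W.add_mem (S.W.mul_mem (S.W.pow_mem S.π_mem _)
      (S.W.pow_mem hyW p)) (S.W.mul_mem (S.W.mul_mem (S.W.mul_mem (S.W.pow_mem S.π_mem _) hs)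
        hyW) hr)), ?_⟩
  have hUp0 := hUp.2.2
  have hγp : γ ^ p ≠ 0 := pow_ne_zero p hγ0
  have hdiv : f / (c * (γ * (1 + B.π ^ (1 + k) * y)) ^ p) =
      (1 + B.π ^ j * s) / (1 + B.π ^ (1 + k) * y) ^ p := by
    rw [hfs', mul_pow]
    field_simp
  rw [hdiv, div_sub_one hUp0, div_eq_inv_mul]
  have e1 : (B.π ^ (1 + k) * y) ^ p = B.π ^ (j + 1) * (B.π ^ k' * y ^ p) := by
    rw [mul_pow, ← pow_mul, hk', pow_add]
    ring
  have e2 : (p : F) * (B.π ^ (1 + k) * y) = B.π ^ j * s := by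
    rw [B.p_eq, hy, hk]
    have : B.π ^ (B.e₁ + k + 1) = B.π ^ B.e₁ * B.π ^ (1 + k) := by
      rw [← pow_add]; ring_nf
    rw [this]
    field_simp
  have e3 : (p : F) * (B.π ^ (1 + k) * y) ^ 2 * r = B.π ^ (j + 1) * (B.π ^ k * s * y * r) := by
    have : (p : F) * (B.π ^ (1 + k) * y) ^ 2 * r =
        ((p : F) * (B.π ^ (1 + k) * y)) * (B.π ^ (1 + k) * y) * r := by ring
    rw [this, e2]
    ring
  rw [hexp, e1, e2, e3]
  ring

end Fermat.Agent.NP
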