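/-
NP33 (S33) — helper5 — package **[IDEM]** (finding 399 (Δ5), in the "Artin–Schreier normalised" form).
Mathlib only.

Let `ζ` be a primitive `p`-th root of unity, `lam = ζ - 1`, `qInt ζ i = 1 + ζ + ⋯ + ζ ^ (i - 1)`.
If `ξ = 1 + lam η` then `ξ - ζ ^ i = lam (η - qInt ζ i)`, hence

  `ξ ^ p - 1 = lam ^ p · ∏ i < p, (η - qInt ζ i)`      (`prod_sub_qInt`, homogeneous form).

So if `ξ ^ p = 1 + lam ^ p ρ` then `η` is a root of the MONIC polynomial `∏ (X - qInt ζ i) - ρ`: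
* `η` is integral over every ring containing `ζ` and `ρ` (`isIntegral_of_prod_sub_eq`);
* for every prime `𝔮 ∋ ρ` there is a unique `j < p` with `η ≡ qInt ζ j mod 𝔮` (`exists_label`,
  `label_unique`): the **label** of `𝔮`; the differences `qInt ζ j - qInt ζ i` are units
  (`isUnit_qInt_sub_qInt`);
* an automorphism `τ` with `τ ξ = ζ ^ m ξ` shifts labels by `m` (`label_shift`).
-/
import Mathlib

set_option autoImplicit false
set_option linter.unusedSectionVars false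
set_option linter.style.haveILetI false

namespace Fermat.Agent.NP

open Finset Polynomial

section QInt

variable {A : Type*} [CommRing A]

/-- the `q`-integer `[i]_ζ = 1 + ζ + ⋯ + ζ ^ (i - 1)`. -/
def qInt (ζ : A) (i : ℕ) : A := ∑ k ∈ range i, ζ ^ k

@[simp] theorem qInt_zero (ζ : A) : qInt ζ 0 = 0 := by simp [qInt]

@[simp] theorem qInt_one (ζ : A) : qInt ζ 1 = 1 := by simp [qInt]

theorem qInt_succ (ζ : A) (i : ℕ) : qInt ζ (i + 1) = qInt ζ i + ζ ^ i := by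
  simp [qInt, sum_range_succ]

theorem qInt_mul_sub_one (ζ : A) (i : ℕ) : qInt ζ i * (ζ - 1) = ζ ^ i - 1 := geom_sum_mul ζ i

theorem qInt_add (ζ : A) (i j : ℕ) : qInt ζ (i + j) = qInt ζ i + ζ ^ i * qInt ζ j := by
  induction j with
  | zero => simp
  | succ j ih => rw [← add_assoc, qInt_succ, ih, qInt_succ, pow_add]; ring

theorem qInt_add' (ζ : A) (i j : ℕ) : qInt ζ (i + j) = qInt ζ j + ζ ^ j * qInt ζ i := by
  rw [add_comm, qInt_add]

theorem map_qInt {B : Type*} [CommRing B] (f : A →+* B) (ζ : A) (i : ℕ) :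
    f (qInt ζ i) = qInt (f ζ) i := by
  simp [qInt, map_sum, map_pow]

/-- `qInt ζ p = 0` for a non-trivial `p`-th root of unity in a domain. -/
theorem qInt_prime_eq_zero [IsDomain A] {ζ : A} {p : ℕ} (hζ : IsPrimitiveRoot ζ p) (hp : 1 < p) :
    qInt ζ p = 0 := hζ.geom_sum_eq_zero hp

theorem qInt_add_prime [IsDomain A] {ζ : A} {p : ℕ} (hζ : IsPrimitiveRoot ζ p) (hp : 1 < p)
    (i : ℕ) : qInt ζ (i + p) = qInt ζ i := by
  rw [qInt_add', qInt_prime_eq_zero hζ hp, hζ.pow_eq_one, one_mul, zero_add]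

theorem qInt_mod [IsDomain A] {ζ : A} {p : ℕ} (hζ : IsPrimitiveRoot ζ p) (hp : 1 < p)
    (i : ℕ) : qInt ζ (i % p) = qInt ζ i := by
  induction i using Nat.strong_induction_on with
  | _ i ih =>
    by_cases h : i < p
    · rw [Nat.mod_eq_of_lt h]
    · push Not at h
      obtain ⟨k, rfl⟩ := Nat.exists_eq_add_of_le' h
      rw [Nat.add_mod_right, ih k (by omega), qInt_add_prime hζ hp]

/-- `ξ - ζ ^ i = (ζ - 1) (η - [i])` for `ξ = 1 + (ζ - 1) η`, homogeneous form. -/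
theorem add_sub_pow_mul (ζ a e : A) (i : ℕ) :
    (e + (ζ - 1) * a) - ζ ^ i * e = (ζ - 1) * (a - qInt ζ i * e) := by
  have h := qInt_mul_sub_one ζ i
  linear_combination e * h

end QInt

section Domain

variable {A : Type*} [CommRing A] [IsDomain A] {ζ : A} {p : ℕ}

/-- product over the `p`-th roots of unity as a product over `range p`. -/
theorem prod_nthRootsFinset_eq_prod_range (hζ : IsPrimitiveRoot ζ p) (hp : 0 < p) (f : A → A) :
    ∏ μ ∈ nthRootsFinset p (1 : A), f μ = ∏ i ∈ range p, f (ζ ^ i) := by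
  haveI : NeZero p := ⟨hp.ne'⟩
  symm
  refine prod_nbij (fun i => ζ ^ i) ?_ ?_ ?_ (fun _ _ => rfl)
  · intro i _
    rw [mem_nthRootsFinset hp, ← pow_mul, mul_comm, pow_mul, hζ.pow_eq_one, one_pow]
  · intro i hi j hj hij
    exact hζ.pow_inj (mem_range.1 (mem_coe.1 hi)) (mem_range.1 (mem_coe.1 hj)) hij
  · intro μ hμ
    have hμ1 : μ ^ p = 1 := (mem_nthRootsFinset hp 1).1 (mem_coe.1 hμ)
    obtain ⟨i, hi, rfl⟩ := hζ.eq_pow_of_pow_eq_one hμ1
    exact ⟨i, mem_coe.2 (mem_range.2 hi), rfl⟩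

/-- **the Artin–Schreier normalisation**: `(e + lam a) ^ p - e ^ p = lam ^ p ∏ (a - [i] e)`. -/
theorem prod_sub_qInt (hζ : IsPrimitiveRoot ζ p) (hp : 0 < p) (a e : A) :
    (e + (ζ - 1) * a) ^ p - e ^ p = (ζ - 1) ^ p * ∏ i ∈ range p, (a - qInt ζ i * e) := by
  rw [hζ.pow_sub_pow_eq_prod_sub_mul _ _ hp,
    prod_nthRootsFinset_eq_prod_range hζ hp (fun μ => (e + (ζ - 1) * a) - μ * e)]
  simp_rw [add_sub_pow_mul]
  rw [prod_mul_distrib, prod_const, card_range]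

/-- inhomogeneous form: `(1 + lam η) ^ p - 1 = lam ^ p ∏ (η - [i])`. -/
theorem prod_sub_qInt_one (hζ : IsPrimitiveRoot ζ p) (hp : 0 < p) (η : A) :
    (1 + (ζ - 1) * η) ^ p - 1 = (ζ - 1) ^ p * ∏ i ∈ range p, (η - qInt ζ i) := by
  have := prod_sub_qInt hζ hp η 1
  simpa using this

theorem isUnit_qInt (hζ : IsPrimitiveRoot ζ p) (hp : p.Prime) {m : ℕ} (hm : ¬ p ∣ m) :
    IsUnit (qInt ζ m) :=
  hζ.geom_sum_isUnit hp.two_le ((Nat.Prime.coprime_iff_not_dvd hp).2 hm).symm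

/-- the nodes `[i]`, `i < p`, differ by units. -/
theorem isUnit_qInt_sub_qInt (hζ : IsPrimitiveRoot ζ p) (hp : p.Prime) {i j : ℕ} (hi : i < p)
    (hj : j < p) (hij : i ≠ j) : IsUnit (qInt ζ j - qInt ζ i) := by
  wlog h : i < j generalizing i j
  · have h' : j < i := lt_of_le_of_ne (not_lt.1 h) (Ne.symm hij)
    have := this hj hi (Ne.symm hij) h'
    rw [← neg_sub]
    exact this.neg
  obtain ⟨k, rfl⟩ := Nat.exists_eq_add_of_lt h
  have hk : qInt ζ (i + k + 1) - qInt ζ i = ζ ^ i * qInt ζ (k + 1) := by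
    rw [add_assoc, qInt_add]; ring
  rw [hk]
  refine IsUnit.mul ((hζ.isUnit hp.pos.ne').pow i) (isUnit_qInt hζ hp ?_)
  intro hdvd
  have := Nat.le_of_dvd (Nat.succ_pos k) hdvd
  omega

/-- **existence of the label** of a prime containing `∏ (a - [i] e)`. -/
theorem exists_label (𝔮 : Ideal A) [𝔮.IsPrime] (a e : A)
    (h : ∏ i ∈ range p, (a - qInt ζ i * e) ∈ 𝔮) : ∃ i < p, a - qInt ζ i * e ∈ 𝔮 := by
  obtain ⟨i, hi, hmem⟩ := (Ideal.IsPrime.prod_mem_iff).1 h
  exact ⟨i, mem_range.1 hi, hmem⟩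

/-- **uniqueness of the label.** -/
theorem label_unique (hζ : IsPrimitiveRoot ζ p) (hp : p.Prime) (𝔮 : Ideal A) [h𝔮 : 𝔮.IsPrime]
    (a e : A) (he : e ∉ 𝔮) {i j : ℕ} (hi : i < p) (hj : j < p) (hai : a - qInt ζ i * e ∈ 𝔮)
    (haj : a - qInt ζ j * e ∈ 𝔮) : i = j := by
  by_contra hij
  have h1 : (qInt ζ j - qInt ζ i) * e ∈ 𝔮 := by
    have : (qInt ζ j - qInt ζ i) * e = (a - qInt ζ i * e) - (a - qInt ζ j * e) := by ring
    rw [this]
    exact 𝔮.sub_mem hai haj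
  rcases h𝔮.mem_or_mem h1 with h2 | h2
  · exact h𝔮.ne_top (Ideal.eq_top_of_isUnit_mem _ h2 (isUnit_qInt_sub_qInt hζ hp hi hj hij))
  · exact he h2

/-- **labels are shifted by automorphisms**: if `τ e = e`, `τ ζ = ζ` and
`τ (e + lam a) = ζ ^ m (e + lam a)` then `τ a - [j + m] e = ζ ^ m (a - [j] e)`. -/
theorem label_shift (hζ : IsPrimitiveRoot ζ p) (hp : 1 < p) (τ : A →+* A) (hτζ : τ ζ = ζ) (a e : A)
    (hτe : τ e = e) (m : ℕ) (hτ : τ (e + (ζ - 1) * a) = ζ ^ m * (e + (ζ - 1) * a)) (j : ℕ) :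
    τ a - qInt ζ (j + m) * e = ζ ^ m * (a - qInt ζ j * e) := by
  have hlam : ζ - 1 ≠ 0 := sub_ne_zero.2 (hζ.ne_one hp)
  apply mul_left_cancel₀ hlam
  have h1 : (ζ - 1) * τ a = ζ ^ m * (e + (ζ - 1) * a) - e := by
    rw [← hτ, map_add, map_mul, map_sub, map_one, hτζ, hτe]; ring
  have h2 := qInt_mul_sub_one ζ m
  rw [qInt_add' ζ j m, mul_sub, h1]
  linear_combination (-e) * h2

end Domain

section Integral

variable {S A : Type*} [CommRing S] [CommRing A] [Algebra S A]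

/-- a root of `∏ i < n, (X - v i) - ρ` (`0 < n`) is integral. -/
theorem isIntegral_of_prod_sub_eq {n : ℕ} (hn : 0 < n) (a : A) (v : ℕ → S) (ρ : S)
    (h : ∏ i ∈ range n, (a - algebraMap S A (v i)) = algebraMap S A ρ) : IsIntegral S a := by
  nontriviality S
  set P : S[X] := ∏ i ∈ range n, (X - C (v i)) with hP
  have hPm : P.Monic := monic_prod_of_monic _ _ (fun i _ => monic_X_sub_C (v i))
  have hPd : P.natDegree = n := by
    rw [hP, natDegree_prod_of_monic _ _ (fun i _ => monic_X_sub_C (v i))]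
    simp
  have hdeg : (C ρ).degree < P.degree := by
    rw [degree_eq_natDegree hPm.ne_zero, hPd]
    exact lt_of_le_of_lt degree_C_le (by exact_mod_cast hn)
  refine ⟨P - C ρ, hPm.sub_of_left hdeg, ?_⟩
  rw [← aeval_def, map_sub, aeval_C, hP, map_prod]
  simp only [map_sub, aeval_X, aeval_C]
  rw [h, sub_self]

end Integral

end Fermat.Agent.NP
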