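/-
NP33 (S33) — helper5 — package **[KUMP]**, part 2: **the local computation** for a Kummer extension
`L = F(α)`, `α ^ p = h`, of degree `p` = residue characteristic, at a prime of a chart where `h` has
a **deep `p`-th root** `s`: `h = s ^ p (1 + lam ^ p π r / d)` (`lam = ζ_p - 1`, `d` a local unit).

With `η := (α / s - 1) / lam` (Artin–Schreier normalisation, `IDEM_helper5_Core`) the element
`a := η d` lies in the chart of `L` and `∏ i < p, (a - [i] d) = π r d ^ (p - 1)` (`deep_local`).
-/
import Fermat.Agent.SS.KUM_helper3_Main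
import Fermat.Agent.NP.IDEM_helper5_Core

set_option autoImplicit false
set_option linter.unusedSectionVars false
set_option linter.style.haveILetI false

namespace Fermat.Agent.NP

open Fermat.Agent.JA Fermat.Agent.SS Polynomial Finset

section Defs

variable {R : Type*} [CommRing R] {F : Type*} [Field F] [Algebra R F]

/-- `s` is a **deep `p`-th root** of `h` at the prime `𝔮` of `B`:
`h = s ^ p (1 + lam ^ p π r / d)` with `d ∉ 𝔮`. -/
def DeepRootAt (B : Subalgebra R F) (p : ℕ) (ζ π : R) (h : F) (𝔮 : Ideal ↥B) (s : F) : Prop :=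
  s ≠ 0 ∧ ∃ d r : ↥B, d ∉ 𝔮 ∧
    h * (d : F) = s ^ p * ((d : F) + algebraMap R F ((ζ - 1) ^ p * π) * (r : F))

/-- `s / s' ∈ 1 + lam π B_𝔮`. -/
def NearAt (B : Subalgebra R F) (ζ π : R) (𝔮 : Ideal ↥B) (s s' : F) : Prop :=
  ∃ q w : ↥B, q ∉ 𝔮 ∧ s * (q : F) = s' * ((q : F) + algebraMap R F ((ζ - 1) * π) * (w : F))

end Defs

section Int

variable {R : Type*} [CommRing R] [IsDomain R] {K : Type*} [Field K] [Algebra R K]
  {F : Type*} [Field F] [Algebra K F] [Algebra R F] [IsScalarTower R K F]
  {L : Type*} [Field L] [Algebra K L] [Algebra R L] [IsScalarTower R K L] [Algebra F L]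
  [IsScalarTower K F L]

/-- an element of `L` which is integral over the chart of `F` lies in the chart of `L`. -/
theorem mem_chartOne_of_isIntegral (t : K) (x : L) (h : IsIntegral ↥(chartOne R F t) x) :
    x ∈ chartOne R L t := by
  rw [mem_chartOne_iff]
  let j : ↥(Algebra.adjoin R {t}) →+* ↥(chartOne R F t) :=
    { toFun := fun a => ⟨algebraMap ↥(Algebra.adjoin R {t}) F a, isIntegral_algebraMap⟩
      map_one' := Subtype.ext (by simp)
      map_mul' := fun x y => Subtype.ext (by simp)
      map_zero' := Subtype.ext (by simp)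
      map_add' := fun x y => Subtype.ext (by simp) }
  letI : Algebra ↥(Algebra.adjoin R {t}) ↥(chartOne R F t) := j.toAlgebra
  haveI : IsScalarTower ↥(Algebra.adjoin R {t}) ↥(chartOne R F t) L :=
    IsScalarTower.of_algebraMap_eq (R := ↥(Algebra.adjoin R {t})) (S := ↥(chartOne R F t))
      (A := L) (fun a => by
      change algebraMap ↥(Algebra.adjoin R {t}) L a =
        algebraMap F L (algebraMap ↥(Algebra.adjoin R {t}) F a)
      rw [← IsScalarTower.algebraMap_apply])
  haveI : Algebra.IsIntegral ↥(Algebra.adjoin R {t}) ↥(chartOne R F t) := ⟨fun y => by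
    have hy : IsIntegral ↥(Algebra.adjoin R {t}) (y : F) := (mem_chartOne_iff t (y : F)).1 y.2
    obtain ⟨P, hP, hPy⟩ := hy
    refine ⟨P, hP, Subtype.ext ?_⟩
    have := Polynomial.hom_eval₂ P j (chartOne R F t).val.toRingHom y
    change ((eval₂ j y P : ↥(chartOne R F t)) : F) = _ at this
    change ((eval₂ j y P : ↥(chartOne R F t)) : F) = 0
    rw [this]
    exact hPy⟩
  exact isIntegral_trans (A := ↥(chartOne R F t)) x h

/-- the field identity of the local computation. -/
theorem deep_field_identity {p : ℕ} (hp : 0 < p) {ζ : L} (hζ : IsPrimitiveRoot ζ p)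
    (hζ1 : ζ - 1 ≠ 0) (α s h d r ϖ : L) (hs : s ≠ 0) (hα : α ^ p = h)
    (hd : h * d = s ^ p * (d + (ζ - 1) ^ p * ϖ * r)) :
    ∏ i ∈ range p, ((α / s - 1) / (ζ - 1) * d - qInt ζ i * d) = ϖ * (r * d ^ (p - 1)) := by
  have h1 := prod_sub_qInt hζ hp ((α / s - 1) / (ζ - 1) * d) d
  have h2 : d + (ζ - 1) * ((α / s - 1) / (ζ - 1) * d) = α / s * d := by
    field_simp
    ring
  rw [h2] at h1
  have hdp : d ^ p = d ^ (p - 1) * d := by
    rw [← pow_succ, Nat.sub_add_cancel hp]
  have h3 : (α / s * d) ^ p - d ^ p = (ζ - 1) ^ p * (ϖ * (r * d ^ (p - 1))) := by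
    rw [mul_pow, div_pow, hα, hdp]
    have : h / s ^ p * (d ^ (p - 1) * d) = d ^ (p - 1) * (h * d) / s ^ p := by ring
    rw [this, hd]
    have hsp : s ^ p ≠ 0 := pow_ne_zero p hs
    field_simp
    ring
  rw [h3] at h1
  exact (mul_left_cancel₀ (pow_ne_zero p hζ1) h1).symm

end Int

section Local

variable {R : Type*} [CommRing R] [IsDomain R] {K : Type*} [Field K] [Algebra R K]
  {F : Type*} [Field F] [Algebra K F] [Algebra R F] [IsScalarTower R K F]
  {L : Type*} [Field L] [Algebra K L] [Algebra R L] [IsScalarTower R K L] [Algebra F L]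
  [IsScalarTower K F L]

/-- the Artin–Schreier normalised element `η_s = (α / s - 1) / lam`. -/
def asElt (ζ : R) (α : L) (s : F) : L :=
  (α / algebraMap F L s - 1) / algebraMap R L (ζ - 1)

theorem algebraMap_chartOne_apply (t : K) (y : ↥(chartOne R F t)) :
    algebraMap ↥(chartOne R F t) L y = algebraMap F L (y : F) := rfl

/-- **the local computation at a deep root.** -/
theorem deep_local (t : K) {p : ℕ} (hp : 1 < p) {ζ : R} (hζ : IsPrimitiveRoot ζ p)
    (hinj : Function.Injective (algebraMap R L)) (π : R)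
    (h : F) (α : L) (hα : α ^ p = algebraMap F L h) (s : F) (hs : s ≠ 0)
    (d r : ↥(chartOne R F t))
    (hd : h * (d : F) = s ^ p * ((d : F) + algebraMap R F ((ζ - 1) ^ p * π) * (r : F))) :
    ∃ a : ↥(chartOne R L t), asElt ζ α s * algebraMap F L (d : F) = (a : L) ∧
      ∏ i ∈ range p, (a - algebraMap R ↥(chartOne R L t) (qInt ζ i) * chartMap t d) =
        algebraMap R ↥(chartOne R L t) π * chartMap t (r * d ^ (p - 1)) := by
  have hp0 : 0 < p := by omega
  have hζL : IsPrimitiveRoot (algebraMap R L ζ) p := hζ.map_of_injective hinj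
  have hζ1 : algebraMap R L ζ - 1 ≠ 0 := sub_ne_zero.2 (hζL.ne_one hp)
  have hsL : algebraMap F L s ≠ 0 := by
    rw [Ne, map_eq_zero_iff _ (algebraMap F L).injective]; exact hs
  have hdL : algebraMap F L h * algebraMap F L (d : F) = algebraMap F L s ^ p *
      (algebraMap F L (d : F) + (algebraMap R L ζ - 1) ^ p * algebraMap R L π *
        algebraMap F L (r : F)) := by
    have := congrArg (algebraMap F L) hd
    rw [map_mul, map_mul, map_pow, map_add, map_mul, algebraMap_algebraMap_eq (K := K)] at this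
    rw [this, map_mul, map_pow, map_sub, map_one]
  have hprod := deep_field_identity hp0 hζL hζ1 α (algebraMap F L s) (algebraMap F L h)
    (algebraMap F L (d : F)) (algebraMap F L (r : F)) (algebraMap R L π) hsL hα hdL
  set aL : L := asElt ζ α s * algebraMap F L (d : F) with haL
  have haL' : aL = (α / algebraMap F L s - 1) / (algebraMap R L ζ - 1) * algebraMap F L (d : F) := by
    rw [haL, asElt, map_sub, map_one]
  rw [← haL'] at hprod
  have e1 : algebraMap ↥(chartOne R F t) L (algebraMap R ↥(chartOne R F t) π * (r * d ^ (p - 1))) =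
      algebraMap R L π * (algebraMap F L (r : F) * algebraMap F L (d : F) ^ (p - 1)) := by
    rw [algebraMap_chartOne_apply]
    change algebraMap F L (algebraMap R F π * ((r : F) * (d : F) ^ (p - 1))) = _
    rw [map_mul, map_mul, map_pow, algebraMap_algebraMap_eq (K := K)]
  have e2 : ∀ i, algebraMap ↥(chartOne R F t) L (algebraMap R ↥(chartOne R F t) (qInt ζ i) * d) =
      qInt (algebraMap R L ζ) i * algebraMap F L (d : F) := by
    intro i
    rw [algebraMap_chartOne_apply]
    change algebraMap F L (algebraMap R F (qInt ζ i) * (d : F)) = _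
    rw [map_mul, algebraMap_algebraMap_eq (K := K), map_qInt]
  have hint : IsIntegral ↥(chartOne R F t) aL := by
    refine isIntegral_of_prod_sub_eq hp0 aL
      (fun i => algebraMap R ↥(chartOne R F t) (qInt ζ i) * d)
      (algebraMap R ↥(chartOne R F t) π * (r * d ^ (p - 1))) ?_
    rw [e1, ← hprod]
    exact prod_congr rfl fun i _ => by rw [e2]
  refine ⟨⟨aL, mem_chartOne_of_isIntegral t aL hint⟩, rfl, Subtype.ext ?_⟩
  have e3 : ((algebraMap R ↥(chartOne R L t) π * chartMap t (r * d ^ (p - 1)) :
      ↥(chartOne R L t)) : L) =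
      algebraMap R L π * (algebraMap F L (r : F) * algebraMap F L (d : F) ^ (p - 1)) := by
    change algebraMap R L π * algebraMap F L ((r : F) * (d : F) ^ (p - 1)) = _
    rw [map_mul, map_pow]
  rw [e3, ← hprod]
  have e4 : ∀ (s : Finset ℕ) (f : ℕ → ↥(chartOne R L t)),
      ((∏ i ∈ s, f i : ↥(chartOne R L t)) : L) = ∏ i ∈ s, (f i : L) := by
    intro s f
    exact map_prod (chartOne R L t).val f s
  rw [e4]
  refine prod_congr rfl fun i _ => ?_
  change aL - algebraMap R L (qInt ζ i) * algebraMap F L (d : F) = _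
  rw [map_qInt]

end Local

end Fermat.Agent.NP
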