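/-
NP33 (S33) — helper5 — package **[BRIDGE]**, part 6: **from sheet depths to a deep root at a closed
point** (`LocalPt.ext_hensel` + `Sheet.const_depth`).

Chart `B`, closed point `𝔪` of its special fibre, `L` the `LocalPt` at `𝔪` (sheets `B_{𝔭 i}`,
`𝔭 i ≤ 𝔪`).  If `g = γ ^ p v` with `v` a unit at `𝔪` (`IsModelChart.closed_datum` with `m = p`) and
`g` has depth `≥ N` on every sheet through `𝔪` with constants `cst i` (`ChartDepth`), `N` in the
Hensel range, then `g / cst i` has a deep `p`-th root at `𝔪` (`DeepRootAt`), for every `i`.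
-/
import Fermat.Agent.NP.BRIDGE_helper5_Pt
import Fermat.Agent.NP.CONSTP_helper5
import Fermat.Agent.NP.EXT_helper5_Conv
import Fermat.Agent.NP.KUMP_helper5_Local

set_option autoImplicit false
set_option linter.unusedSectionVars false

namespace Fermat.Agent.NP

open Polynomial Fermat.Agent.SS

section Defs

variable {R : Type*} [CommRing R] {F : Type*} [Field F] [Algebra R F]

/-- **depth `≥ N` of `g` along the component `𝔭` of the chart `B`, with constant `c`**, in chart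
form: `g = c γ ^ p (1 + π ^ N a / b)`, `b ∉ 𝔭`. -/
def ChartDepth (B : Subalgebra R F) (π : R) (p : ℕ) (𝔭 : Ideal ↥B) (N : ℕ) (g c : F) : Prop :=
  ∃ γ : F, γ ≠ 0 ∧ ∃ a b : ↥B, b ∉ 𝔭 ∧
    g * (b : F) = c * γ ^ p * ((b : F) + algebraMap R F π ^ N * (a : F))

end Defs

section Core

variable {R : Type*} [CommRing R] [IsDomain R] [IsDiscreteValuationRing R]
  {K₁ : Type*} [Field K₁] [Algebra R K₁] [IsFractionRing R K₁]
  {F : Type*} [Field F] [Algebra K₁ F] [Algebra R F] [IsScalarTower R K₁ F]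
  {B : Subalgebra R F} {π : R} {p : ℕ}

/-- **the assembly at a closed point**, for an abstract `DepthBase` `D` (with `π`, `R₁`, `K₁` those
of the chart model) and an abstract `LocalPt` with `R' = B_𝔪` and sheets `B_{𝔭 i}`. -/
theorem deepRoot_of_localPt (hπ : Irreducible π) (hp : p.Prime) (D : DepthBase F p) (hDπ : D.π = algebraMap R F π)
    (hDR : D.R₁ = (algebraMap R F).range) (hDK : D.K₁ = (algebraMap K₁ F).fieldRange)
    {ι : Type*} [Nonempty ι] (L : LocalPt D ι)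
    {𝔪 : Ideal ↥B} [h𝔪 : 𝔪.IsPrime] (hR' : L.R' = locSub B 𝔪)
    (𝔭 : ι → Ideal ↥B) [h𝔭 : ∀ i, (𝔭 i).IsPrime] (hW : ∀ i, (L.sheet i).W = locSub B (𝔭 i))
    (hle : ∀ i, 𝔭 i ≤ 𝔪) (hπ𝔭 : ∀ i, algebraMap R ↥B π ∈ 𝔭 i)
    {N : ℕ} (hN : D.e₁ * p < N * (p - 1)) (ζ : R) (hlamN : (ζ - 1) ^ p * π ∣ π ^ N)
    {g : F} (hcl : ∃ γ : F, γ ≠ 0 ∧ ∃ c d : ↥B, c ∉ 𝔪 ∧ d ∉ 𝔪 ∧ g * (d : F) = γ ^ p * (c : F))
    (cst : ι → K₁) (hcst : ∀ i, cst i ≠ 0)
    (hdep : ∀ i, ChartDepth B π p (𝔭 i) N g (algebraMap K₁ F (cst i))) :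
    ∀ i, ∃ γ' : F, DeepRootAt B p ζ π (g / algebraMap K₁ F (cst i)) 𝔪 γ' := by
  have hinjF : Function.Injective (algebraMap R F) := algebraMap_injective_base K₁ F
  have hπF : algebraMap R F π ≠ 0 := (map_ne_zero_iff _ hinjF).2 hπ.ne_zero
  have hN1 : 1 ≤ N := by
    rcases Nat.eq_zero_or_pos N with h0 | h0
    · rw [h0, zero_mul] at hN
      exact absurd hN (Nat.not_lt_zero _)
    · exact h0
  obtain ⟨γ, hγ, c, d, hc, hd, hgd⟩ := hcl
  have hd0 : (d : F) ≠ 0 := ne_zero_of_notMem hd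
  have hc0 : (c : F) ≠ 0 := ne_zero_of_notMem hc
  set v : F := (c : F) / (d : F) with hvdef
  have hvd : v * (d : F) = (c : F) := by rw [hvdef]; field_simp
  have hvU : IsUnitIn (locSub B 𝔪) v := isUnitIn_locSub_iff.2 ⟨c, d, hc, hd, hvd⟩
  have hv : IsUnitIn L.R' v := by rw [hR']; exact hvU
  have hγp : γ ^ p ≠ 0 := pow_ne_zero p hγ
  have hgv : g = γ ^ p * v := by
    rw [hvdef]
    field_simp
    exact hgd
  have hcstF : ∀ i, algebraMap K₁ F (cst i) ≠ 0 := fun i =>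
    (map_ne_zero_iff _ (algebraMap K₁ F).injective).2 (hcst i)
  -- the sheet approximations of `v`
  have hs : ∀ i, ∃ c' ∈ D.K₁, ∃ γ' : F, c' ≠ 0 ∧ γ' ≠ 0 ∧
      PiDvd D.π (L.sheet i).W N (v - c' * γ' ^ p) := by
    intro i
    obtain ⟨γi, hγi, a, b, hb, hrel⟩ := hdep i
    refine ⟨algebraMap K₁ F (cst i), by rw [hDK]; exact ⟨cst i, rfl⟩, γi / γ, hcstF i,
      div_ne_zero hγi hγ, ?_⟩
    rw [hW i, hDπ, piDvd_locSub_iff]
    have hbN : b + algebraMap R ↥B π ^ N * a ∉ 𝔭 i := by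
      intro hmem
      apply hb
      have : b = (b + algebraMap R ↥B π ^ N * a) - algebraMap R ↥B π ^ N * a := by ring
      rw [this]
      refine (𝔭 i).sub_mem hmem ((𝔭 i).mul_mem_right _ ?_)
      obtain ⟨k, rfl⟩ := Nat.exists_eq_add_of_le hN1
      rw [pow_add, pow_one]
      exact (𝔭 i).mul_mem_right _ (hπ𝔭 i)
    refine ⟨c * a, d * (b + algebraMap R ↥B π ^ N * a),
      fun hmem => ((h𝔭 i).mem_or_mem hmem).elim (fun h' => hd (hle i h')) hbN, ?_⟩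
    have e0 : ((algebraMap R ↥B π : ↥B) : F) = algebraMap R F π := rfl
    simp only [Subalgebra.coe_mul, Subalgebra.coe_add, Subalgebra.coe_pow, e0]
    have hbN0 : (b : F) + algebraMap R F π ^ N * (a : F) ≠ 0 := by
      have := ne_zero_of_notMem (F := F) hbN
      simpa only [Subalgebra.coe_mul, Subalgebra.coe_add, Subalgebra.coe_pow, e0] using this
    -- `c_i (γi / γ) ^ p = v b / (b + π ^ N a)`
    have h1 : algebraMap K₁ F (cst i) * (γi / γ) ^ p * ((b : F) + algebraMap R F π ^ N * (a : F)) =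
        v * (b : F) := by
      rw [div_pow, hgv] at *
      field_simp
      linear_combination (-1 : F) * hrel
    have h2 : algebraMap K₁ F (cst i) * (γi / γ) ^ p =
        v * (b : F) / ((b : F) + algebraMap R F π ^ N * (a : F)) := by
      rw [eq_div_iff hbN0, h1]
    rw [h2, ← hvd]
    field_simp
    ring
  obtain ⟨c₁, δ, hc₁, hδ, hdvd⟩ := L.ext_hensel hp hv hN hs N
  rw [hR'] at hδ hdvd
  rw [hDπ] at hdvd
  obtain ⟨a₁, s₁, hs₁, hrel₁⟩ := (piDvd_locSub_iff π N).1 hdvd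
  have hs₁0 : (s₁ : F) ≠ 0 := ne_zero_of_notMem hs₁
  have hc₁K : c₁ ∈ D.K₁ := D.R₁_le _ hc₁.1
  have hc₁K' : c₁ ∈ (algebraMap K₁ F).fieldRange := by rw [← hDK]; exact hc₁K
  have hc₁0 : c₁ ≠ 0 := hc₁.2.2
  have hδ0 : δ ≠ 0 := hδ.2.2
  have hc₁U : IsUnitIn (locSub B 𝔪) c₁ := by
    have h1 : IsUnitIn D.R₁ c₁ := hc₁
    refine h1.of_le ?_
    rw [hDR]
    rintro _ ⟨r, rfl⟩
    exact algebraMap_mem_locSub r
  -- `X = a₁ / (s₁ c₁ δ ^ p) ∈ B_𝔪`
  set X : F := (a₁ : F) * ((s₁ : F))⁻¹ * (c₁ * δ ^ p)⁻¹ with hX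
  have hXR : X ∈ locSub B 𝔪 :=
    (locSub B 𝔪).mul_mem ((locSub B 𝔪).mul_mem (coe_mem_locSub a₁) (inv_coe_mem_locSub hs₁))
      (hc₁U.mul (hδ.pow p)).2.1
  have hvX : v = c₁ * δ ^ p * (1 + algebraMap R F π ^ N * X) := by
    have hδp : δ ^ p ≠ 0 := pow_ne_zero p hδ0
    rw [hX]
    field_simp
    linear_combination hrel₁
  clear_value X
  intro i
  obtain ⟨γi, hγi, a, b, hb, hrel⟩ := hdep i
  have hb0 : (b : F) ≠ 0 := ne_zero_of_notMem hb
  have hRW : locSub B 𝔪 ≤ locSub B (𝔭 i) := locSub_mono (hle i)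
  -- `1 + π ^ N a / b` and `1 + π ^ N X` are units of `W_i`
  have hU1 : IsUnitIn (L.sheet i).W (1 + D.π ^ N * ((a : F) * ((b : F))⁻¹)) := by
    refine (L.sheet i).isUnitIn_one_add_pow_mul hN1 ?_
    rw [hW i]
    exact (locSub B (𝔭 i)).mul_mem (coe_mem_locSub a) (inv_coe_mem_locSub hb)
  have hU2 : IsUnitIn (L.sheet i).W (1 + D.π ^ N * X) := by
    refine (L.sheet i).isUnitIn_one_add_pow_mul hN1 ?_
    rw [hW i]
    exact hRW hXR
  -- the constant comparison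
  have hgi : g = algebraMap K₁ F (cst i) * γi ^ p * (1 + algebraMap R F π ^ N * ((a : F) * ((b : F))⁻¹)) := by
    have : g * (b : F) = (algebraMap K₁ F (cst i) * γi ^ p *
        (1 + algebraMap R F π ^ N * ((a : F) * ((b : F))⁻¹))) * (b : F) := by
      rw [hrel]
      field_simp
    exact mul_right_cancel₀ hb0 this
  have hγip : γi ^ p ≠ 0 := pow_ne_zero p hγi
  have hδp : δ ^ p ≠ 0 := pow_ne_zero p hδ0
  set s : F := ((1 + D.π ^ N * X))⁻¹ * ((a : F) * ((b : F))⁻¹ - X) with hs_def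
  have hsW : s ∈ (L.sheet i).W := by
    refine (L.sheet i).W.mul_mem hU2.2.1 ((L.sheet i).W.sub_mem ?_ ?_)
    · rw [hW i]
      exact (locSub B (𝔭 i)).mul_mem (coe_mem_locSub a) (inv_coe_mem_locSub hb)
    · rw [hW i]
      exact hRW hXR
  have hconst : (c₁ * (algebraMap K₁ F (cst i))⁻¹) * (γ * δ / γi) ^ p = 1 + D.π ^ N * s := by
    have hU20 := hU2.2.2
    have hU10 := hU1.2.2
    have hci := hcstF i
    have e1 : algebraMap K₁ F (cst i) * γi ^ p *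
        (1 + algebraMap R F π ^ N * ((a : F) * ((b : F))⁻¹)) =
        γ ^ p * (c₁ * δ ^ p * (1 + algebraMap R F π ^ N * X)) := by
      rw [← hgi, hgv, hvX]
    rw [hs_def, hDπ]
    rw [hDπ] at hU20 hU10
    rw [div_pow, mul_pow]
    have e2 : c₁ * (algebraMap K₁ F (cst i))⁻¹ * (γ ^ p * δ ^ p / γi ^ p) =
        (1 + algebraMap R F π ^ N * ((a : F) * ((b : F))⁻¹)) /
          (1 + algebraMap R F π ^ N * X) := by
      rw [eq_div_iff hU20]
      have h5 : c₁ * (algebraMap K₁ F (cst i))⁻¹ * (γ ^ p * δ ^ p / γi ^ p) *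
          (1 + algebraMap R F π ^ N * X) =
          (γ ^ p * (c₁ * δ ^ p * (1 + algebraMap R F π ^ N * X))) *
            (algebraMap K₁ F (cst i) * γi ^ p)⁻¹ := by
        rw [mul_inv]; ring
      rw [h5, ← e1, mul_comm, ← mul_assoc, inv_mul_cancel₀ (mul_ne_zero hci hγip), one_mul]
    rw [e2, div_eq_iff hU20]
    have h6 : (1 + algebraMap R F π ^ N * X)⁻¹ * (1 + algebraMap R F π ^ N * X) = 1 :=
      inv_mul_cancel₀ hU20
    linear_combination (-(algebraMap R F π ^ N * ((a : F) * ((b : F))⁻¹ - X))) * h6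
  clear_value s
  have hcK : c₁ * (algebraMap K₁ F (cst i))⁻¹ ∈ D.K₁ :=
    D.K₁.mul_mem hc₁K (D.K₁.inv_mem (by rw [hDK]; exact ⟨cst i, rfl⟩))
  obtain ⟨b₀, hb₀K, hb₀, ρ₁, hρ₁, hρ₁eq⟩ := (L.sheet i).const_depth hp hcK
    (mul_ne_zero hc₁0 (inv_ne_zero (hcstF i))) (div_ne_zero (mul_ne_zero hγ hδ0) hγi) hsW hN1 hconst
  -- `c₁ b₀ ^ p = c_i (1 + π ^ N ρ₁)`
  rw [hDR] at hρ₁
  obtain ⟨ρ₁', rfl⟩ := hρ₁
  rw [hDπ] at hρ₁eq
  -- the element `Y`
  set Y : F := algebraMap R F ρ₁' + X + algebraMap R F π ^ N * (algebraMap R F ρ₁' * X) with hY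
  have hYR : Y ∈ locSub B 𝔪 :=
    (locSub B 𝔪).add_mem ((locSub B 𝔪).add_mem (algebraMap_mem_locSub ρ₁') hXR)
      ((locSub B 𝔪).mul_mem ((locSub B 𝔪).pow_mem (algebraMap_mem_locSub π) N)
        ((locSub B 𝔪).mul_mem (algebraMap_mem_locSub ρ₁') hXR))
  obtain ⟨r₀, d₀, hd₀, hYd⟩ := hYR
  obtain ⟨u₀, hu₀⟩ := hlamN
  clear_value Y
  refine ⟨γ * δ * b₀⁻¹, mul_ne_zero (mul_ne_zero hγ hδ0) (inv_ne_zero hb₀), d₀,
    algebraMap R ↥B u₀ * r₀, hd₀, ?_⟩
  have e0 : ∀ x : R, ((algebraMap R ↥B x : ↥B) : F) = algebraMap R F x := fun _ => rfl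
  simp only [Subalgebra.coe_mul, e0]
  have hu₀F : algebraMap R F π ^ N = algebraMap R F ((ζ - 1) ^ p * π) * algebraMap R F u₀ := by
    rw [← map_pow, hu₀, map_mul]
  -- `g / c_i = (γ δ / b₀) ^ p (1 + π ^ N Y)`
  have hfin : g / algebraMap K₁ F (cst i) =
      (γ * δ * b₀⁻¹) ^ p * (1 + algebraMap R F π ^ N * Y) := by
    have hci := hcstF i
    have hb₀p : b₀ ^ p ≠ 0 := pow_ne_zero p hb₀
    rw [hgv, hvX, hY]
    rw [div_eq_iff hci]
    have h4 : c₁ * b₀ ^ p =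
        algebraMap K₁ F (cst i) * (1 + algebraMap R F π ^ N * algebraMap R F ρ₁') := by
      have h3 : c₁ * (algebraMap K₁ F (cst i))⁻¹ * b₀ ^ p =
          1 + algebraMap R F π ^ N * algebraMap R F ρ₁' := by
        linear_combination hρ₁eq
      rw [← h3]
      field_simp
    rw [mul_pow, mul_pow, inv_pow]
    have h6 : (b₀ ^ p)⁻¹ * b₀ ^ p = 1 := inv_mul_cancel₀ hb₀p
    linear_combination (γ ^ p * δ ^ p * (1 + algebraMap R F π ^ N * X)) *
      ((b₀ ^ p)⁻¹ * h4 - c₁ * h6)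
  rw [hfin, mul_assoc]
  have : (1 + algebraMap R F π ^ N * Y) * (d₀ : F) =
      (d₀ : F) + algebraMap R F π ^ N * (Y * (d₀ : F)) := by ring
  rw [this, hYd, hu₀F]
  ring

end Core

end Fermat.Agent.NP
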