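/-
NP33 (S33) — helper5 — package **[BRIDGE]**, part 7: **deep roots at the closed points of a model
chart** (`IsModelChart`, SS/GLUE_helper3_A).

`B` a chart with the model data `IsModelChart F π 𝔭∞ 𝔭0`; `g = γ ^ p · unit` at the closed point `𝔪`
(`IsModelChart.closed_datum` with `m = p`); `g` of depth `≥ N` (Hensel range) along the components
through `𝔪`, with constants `c∞`, `c0`: then `g / c∞` (resp. `g / c0`) has a deep `p`-th root at `𝔪`
if `𝔭∞` (resp. `𝔭0`) passes through `𝔪` (`IsModelChart.deepRoot_of_depth`).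
-/
import Fermat.Agent.NP.BRIDGE_helper5_Main
import Fermat.Agent.SS.GLUE_helper3_A

set_option autoImplicit false
set_option linter.unusedSectionVars false

namespace Fermat.Agent.NP

open Polynomial Fermat.Agent.SS

section Model

variable {R : Type*} [CommRing R] [IsDomain R] [IsDiscreteValuationRing R]
  {K₁ : Type*} [Field K₁] [Algebra R K₁] [IsFractionRing R K₁]
  {F : Type*} [Field F] [Algebra K₁ F] [Algebra R F] [IsScalarTower R K₁ F]
  {B : Subalgebra R F} [IsNoetherianRing ↥B] [IsFractionRing ↥B F]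
  {π : R} {p : ℕ} {e₁ : ℕ} {ε : Rˣ}

/-- **deep roots at a closed point of a model chart from the depths along the components.** -/
theorem IsModelChart.deepRoot_of_depth {𝔭inf 𝔭0 : Ideal ↥B} (hmod : IsModelChart F π 𝔭inf 𝔭0)
    (hπ : Irreducible π) (hp : p.Prime) (he₁ : 0 < e₁) (hpe : (p : R) = ε * π ^ e₁)
    (hAC : ResAlgClosed π)
    (𝔪 : Ideal ↥B) (h𝔪 : 𝔪.IsMaximal) (hπ𝔪 : algebraMap R ↥B π ∈ 𝔪)
    (hres : ∀ b : ↥B, ∃ a : R, b - algebraMap R ↥B a ∈ 𝔪)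
    {N : ℕ} (hN : e₁ * p < N * (p - 1)) (ζ : R) (hlamN : (ζ - 1) ^ p * π ∣ π ^ N)
    {g : F} (hcl : ∃ γ : F, γ ≠ 0 ∧ ∃ c d : ↥B, c ∉ 𝔪 ∧ d ∉ 𝔪 ∧ g * (d : F) = γ ^ p * (c : F))
    (cinf c0 : K₁) (hcinf : cinf ≠ 0) (hc0 : c0 ≠ 0)
    (hdinf : 𝔭inf ≤ 𝔪 → ChartDepth B π p 𝔭inf N g (algebraMap K₁ F cinf))
    (hd0 : 𝔭0 ≤ 𝔪 → ChartDepth B π p 𝔭0 N g (algebraMap K₁ F c0)) :
    (𝔭inf ≤ 𝔪 → ∃ γ' : F, DeepRootAt B p ζ π (g / algebraMap K₁ F cinf) 𝔪 γ') ∧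
    (𝔭0 ≤ 𝔪 → ∃ γ' : F, DeepRootAt B p ζ π (g / algebraMap K₁ F c0) 𝔪 γ') := by
  haveI := hmod.isPrime_inf
  haveI := hmod.isPrime_zero
  haveI h𝔪p : 𝔪.IsPrime := h𝔪.isPrime
  have hinf0 : 𝔭0 ⊓ 𝔭inf ≤ Ideal.span {algebraMap R ↥B π} := by
    rw [inf_comm]; exact hmod.inf_le
  by_cases hleinf : 𝔭inf ≤ 𝔪
  · by_cases hle0 : 𝔭0 ≤ 𝔪
    · -- a node
      obtain ⟨x, y, hx, hx0, hy, hyinf, -⟩ := hmod.node 𝔪 h𝔪 hleinf hle0
      set L := chartLocalPtNode (K₁ := K₁) (F := F) hπ hp he₁ hpe hAC 𝔭inf 𝔭0 𝔪 hleinf hle0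
        hmod.mem_inf hmod.mem_zero hmod.inf_le hx hx0 hy hyinf hres with hL
      haveI : ∀ b : Bool, (cond b 𝔭inf 𝔭0).IsPrime := by
        rintro (_ | _)
        · exact hmod.isPrime_zero
        · exact hmod.isPrime_inf
      have key := deepRoot_of_localPt (K₁ := K₁) hπ hp
        (chartDepthBase (K₁ := K₁) (F := F) hπ hp he₁ hpe hAC) rfl rfl rfl L rfl
        (fun b => cond b 𝔭inf 𝔭0)
        (by rintro (_ | _) <;> rfl)
        (by
          rintro (_ | _)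
          · exact hle0
          · exact hleinf)
        (by
          rintro (_ | _)
          · exact hmod.mem_zero
          · exact hmod.mem_inf)
        hN ζ hlamN hcl (fun b => cond b cinf c0)
        (by
          rintro (_ | _)
          · exact hc0
          · exact hcinf)
        (by
          rintro (_ | _)
          · exact hd0 hle0
          · exact hdinf hleinf)
      exact ⟨fun _ => key true, fun _ => key false⟩
    · -- a smooth point of `𝔭∞`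
      obtain ⟨z, hz⟩ := hmod.branch_inf 𝔪 h𝔪 hπ𝔪 hleinf hle0
      obtain ⟨b', hb'0, hb'𝔪⟩ := Set.not_subset.mp hle0
      have hk1 : ∀ a ∈ 𝔭inf, ∃ b : ↥B, b ∉ 𝔪 ∧ algebraMap R ↥B π ∣ b * a := by
        intro a ha
        refine ⟨b', hb'𝔪, Ideal.mem_span_singleton.1 (hmod.inf_le ⟨?_, ?_⟩)⟩
        · exact 𝔭inf.mul_mem_left _ ha
        · exact 𝔭0.mul_mem_right _ hb'0
      set L := chartLocalPtSmooth (K₁ := K₁) (F := F) hπ hp he₁ hpe hAC 𝔭inf 𝔪 hleinf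
        hmod.mem_inf hk1 hz hres with hL
      have key := deepRoot_of_localPt (K₁ := K₁) hπ hp
        (chartDepthBase (K₁ := K₁) (F := F) hπ hp he₁ hpe hAC) rfl rfl rfl L rfl
        (fun _ : Unit => 𝔭inf) (fun _ => rfl) (fun _ => hleinf) (fun _ => hmod.mem_inf)
        hN ζ hlamN hcl (fun _ => cinf) (fun _ => hcinf) (fun _ => hdinf hleinf)
      exact ⟨fun _ => key (), fun h => absurd h hle0⟩
  · -- a smooth point of `𝔭0`
    have hle0 : 𝔭0 ≤ 𝔪 :=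
      (le_or_le_of_mem hmod.mem_inf hmod.mem_zero hmod.inf_le 𝔪 hπ𝔪).resolve_left hleinf
    obtain ⟨z, hz⟩ := hmod.branch_zero 𝔪 h𝔪 hπ𝔪 hle0 hleinf
    obtain ⟨b', hb'inf, hb'𝔪⟩ := Set.not_subset.mp hleinf
    have hk1 : ∀ a ∈ 𝔭0, ∃ b : ↥B, b ∉ 𝔪 ∧ algebraMap R ↥B π ∣ b * a := by
      intro a ha
      refine ⟨b', hb'𝔪, Ideal.mem_span_singleton.1 (hmod.inf_le ⟨?_, ?_⟩)⟩
      · exact 𝔭inf.mul_mem_right _ hb'inf
      · exact 𝔭0.mul_mem_left _ ha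
    set L := chartLocalPtSmooth (K₁ := K₁) (F := F) hπ hp he₁ hpe hAC 𝔭0 𝔪 hle0
      hmod.mem_zero hk1 hz hres with hL
    have key := deepRoot_of_localPt (K₁ := K₁) hπ hp
      (chartDepthBase (K₁ := K₁) (F := F) hπ hp he₁ hpe hAC) rfl rfl rfl L rfl
      (fun _ : Unit => 𝔭0) (fun _ => rfl) (fun _ => hle0) (fun _ => hmod.mem_zero)
      hN ζ hlamN hcl (fun _ => c0) (fun _ => hc0) (fun _ => hd0 hle0)
    exact ⟨fun h => absurd h hleinf, fun _ => key ()⟩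

end Model

end Fermat.Agent.NP
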