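/-
NP33 (S33) — helper5 — package **[BRIDGE]**, part 8: **uniqueness of the constant of a deep root**.

`ConstRel p Λ c c'` : `c' ∈ c · K₁ˣ ^ p · (1 + Λ R)`  (`Λ = lam ^ p π`).

* `DeepRootAt.of_constRel` : a deep root of `g / c'` gives a deep root of `g / c` if `c' ~ c`;
* `constRel_of_deepRoots` : if `g / c` and `g / c'` both have a deep root at a prime `𝔭 ∋ π` of the
  chart which is locally generated by `π` (a component of the special fibre), then `c ~ c'`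
  (`Sheet.const_depth` on the sheet `B_𝔭`);
* `IsModelChart.hloc_inf`, `IsModelChart.hloc_zero` : the components of a model chart are locally
  generated by `π`;
* `IsModelChart.constRel_of_deepRoots` : the same at any prime `𝔮 ∋ π` of a model chart.
-/
import Fermat.Agent.NP.BRIDGE_helper5_Model

set_option autoImplicit false
set_option linter.unusedSectionVars false
set_option linter.style.haveILetI false

namespace Fermat.Agent.NP

open Polynomial Fermat.Agent.SS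

section Defs

/-- `c' ∈ c · K₁ˣ ^ p · (1 + Λ R)`. -/
def ConstRel {R : Type*} [CommRing R] {K₁ : Type*} [Field K₁] [Algebra R K₁] (p : ℕ) (Λ : R)
    (c c' : K₁) : Prop :=
  ∃ b : K₁, b ≠ 0 ∧ ∃ ρ : R, c' = c * b ^ p * algebraMap R K₁ (1 + Λ * ρ)

variable {R : Type*} [CommRing R] {F : Type*} [Field F] [Algebra R F]

/-- a deep root at a prime is a deep root at every smaller prime. -/
theorem DeepRootAt.of_le {B : Subalgebra R F} {p : ℕ} {ζ π : R} {h : F} {𝔭 𝔮 : Ideal ↥B}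
    (hle : 𝔭 ≤ 𝔮) {s : F} (hs : DeepRootAt B p ζ π h 𝔮 s) : DeepRootAt B p ζ π h 𝔭 s := by
  obtain ⟨hs0, d, r, hd, hdr⟩ := hs
  exact ⟨hs0, d, r, fun hmem => hd (hle hmem), hdr⟩

end Defs

section Rel

variable {R : Type*} [CommRing R]
  {K₁ : Type*} [Field K₁] [Algebra R K₁]
  {F : Type*} [Field F] [Algebra K₁ F] [Algebra R F] [IsScalarTower R K₁ F]
  {B : Subalgebra R F} {π : R} {p : ℕ}

/-- **change of the constant inside its class.** -/
theorem DeepRootAt.of_constRel {g : F} {c c' : K₁} (hc : c ≠ 0) (hc' : c' ≠ 0) {ζ : R}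
    {𝔮 : Ideal ↥B} {s : F} (h : DeepRootAt B p ζ π (g / algebraMap K₁ F c') 𝔮 s)
    (hrel : ConstRel p ((ζ - 1) ^ p * π) c c') :
    ∃ s' : F, DeepRootAt B p ζ π (g / algebraMap K₁ F c) 𝔮 s' := by
  obtain ⟨hs0, d, r, hd, hdr⟩ := h
  obtain ⟨b, hb, ρ, rfl⟩ := hrel
  have hbF : algebraMap K₁ F b ≠ 0 := by rwa [Ne, map_eq_zero]
  have hcF : algebraMap K₁ F c ≠ 0 := by rwa [Ne, map_eq_zero]
  have hc'F := hc'
  rw [Ne, ← map_eq_zero (algebraMap K₁ F)] at hc'F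
  refine ⟨s * algebraMap K₁ F b, mul_ne_zero hs0 hbF, d,
    r + algebraMap R ↥B ρ * d + algebraMap R ↥B ((ζ - 1) ^ p * π * ρ) * r, hd, ?_⟩
  have e0 : ∀ x : R, ((algebraMap R ↥B x : ↥B) : F) = algebraMap R F x := fun _ => rfl
  have e1 : algebraMap K₁ F (c * b ^ p * algebraMap R K₁ (1 + (ζ - 1) ^ p * π * ρ)) =
      algebraMap K₁ F c * algebraMap K₁ F b ^ p *
        (1 + algebraMap R F ((ζ - 1) ^ p * π) * algebraMap R F ρ) := by
    rw [map_mul, map_mul, map_pow, ← IsScalarTower.algebraMap_apply R K₁ F, map_add, map_one,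
      map_mul]
  rw [e1] at hdr hc'F
  simp only [Subalgebra.coe_mul, Subalgebra.coe_add, e0]
  rw [map_mul _ _ ρ]
  set Λ := algebraMap R F ((ζ - 1) ^ p * π) with hΛ
  set ρF := algebraMap R F ρ with hρF
  set C := algebraMap K₁ F c with hC
  set bF := algebraMap K₁ F b with hbFdef
  have hU : (1 + Λ * ρF) ≠ 0 := by
    intro h0
    rw [h0, mul_zero] at hc'F
    exact hc'F rfl
  have hbp : bF ^ p ≠ 0 := pow_ne_zero _ hbF
  have hdr2 : g * (d : F) = C * bF ^ p * (1 + Λ * ρF) * (s ^ p * ((d : F) + Λ * (r : F))) := by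
    rw [← hdr]
    field_simp
  rw [div_mul_eq_mul_div, hdr2]
  field_simp
  ring

end Rel

section Unique

variable {R : Type*} [CommRing R] [IsDomain R] [IsDiscreteValuationRing R]
  {K₁ : Type*} [Field K₁] [Algebra R K₁] [IsFractionRing R K₁]
  {F : Type*} [Field F] [Algebra K₁ F] [Algebra R F] [IsScalarTower R K₁ F]
  {B : Subalgebra R F} [IsNoetherianRing ↥B] [IsFractionRing ↥B F]
  {π : R} {p : ℕ} {e₁ : ℕ} {ε : Rˣ}

/-- **uniqueness of the constant of a deep root along a component**: if `g / c` and `g / c'` both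
have a deep `p`-th root at the component `𝔭`, then `c' ∈ c · K₁ˣ ^ p · (1 + lam ^ p π R)`. -/
theorem constRel_of_deepRoots (hπ : Irreducible π) (hp : p.Prime) (he₁ : 0 < e₁)
    (hpe : (p : R) = ε * π ^ e₁) (hAC : ResAlgClosed π)
    (𝔭 : Ideal ↥B) [h𝔭 : 𝔭.IsPrime] (hπ𝔭 : algebraMap R ↥B π ∈ 𝔭)
    (hloc : ∀ z ∈ 𝔭, ∃ s : ↥B, s ∉ 𝔭 ∧ algebraMap R ↥B π ∣ s * z)
    {ζ : R} (hζ1 : ζ ≠ 1) {g : F} (hg : g ≠ 0) {c c' : K₁} (hc : c ≠ 0) (hc' : c' ≠ 0)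
    {γ γ' : F} (h : DeepRootAt B p ζ π (g / algebraMap K₁ F c) 𝔭 γ)
    (h' : DeepRootAt B p ζ π (g / algebraMap K₁ F c') 𝔭 γ') :
    ConstRel p ((ζ - 1) ^ p * π) c c' := by
  obtain ⟨hγ0, d, r, hd, hdr⟩ := h
  obtain ⟨hγ0', d', r', hd', hdr'⟩ := h'
  have hΛ0 : (ζ - 1) ^ p * π ≠ 0 :=
    mul_ne_zero (pow_ne_zero _ (sub_ne_zero.2 hζ1)) hπ.ne_zero
  obtain ⟨M, υ, hυ⟩ := IsDiscreteValuationRing.eq_unit_mul_pow_irreducible hΛ0 hπ
  have hM : 1 ≤ M := by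
    rcases Nat.eq_zero_or_pos M with rfl | hpos
    · exfalso
      rw [pow_zero, mul_one] at hυ
      have hu : IsUnit ((ζ - 1) ^ p * π) := hυ ▸ υ.isUnit
      exact hπ.not_isUnit (isUnit_of_mul_isUnit_right hu)
    · exact hpos
  have hinjK : Function.Injective (algebraMap K₁ F) := (algebraMap K₁ F).injective
  have hcF : algebraMap K₁ F c ≠ 0 := by rwa [Ne, map_eq_zero]
  have hc'F : algebraMap K₁ F c' ≠ 0 := by rwa [Ne, map_eq_zero]
  have e0 : ∀ x : R, ((algebraMap R ↥B x : ↥B) : F) = algebraMap R F x := fun _ => rfl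
  have hΛ𝔭 : algebraMap R ↥B ((ζ - 1) ^ p * π) ∈ 𝔭 := by
    rw [map_mul]
    exact 𝔭.mul_mem_left _ hπ𝔭
  -- the denominator
  have hden : d' + algebraMap R ↥B ((ζ - 1) ^ p * π) * r' ∉ 𝔭 := by
    intro hmem
    apply hd'
    have := 𝔭.sub_mem hmem (𝔭.mul_mem_right r' hΛ𝔭)
    simpa using this
  have hD : (d' + algebraMap R ↥B ((ζ - 1) ^ p * π) * r') * d ∉ 𝔭 := by
    intro hmem
    rcases h𝔭.mem_or_mem hmem with h1 | h1
    · exact hden h1
    · exact hd h1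
  set S := chartSheet (K₁ := K₁) (F := F) hπ hp he₁ hpe hAC 𝔭 hπ𝔭 hloc with hS
  have hdF : (d : F) ≠ 0 := ne_zero_of_notMem hd
  have hd'F : (d' : F) ≠ 0 := ne_zero_of_notMem hd'
  have hDF := ne_zero_of_notMem hD
  have hs : (algebraMap R F υ * ((r : F) * (d' : F) - (r' : F) * (d : F))) *
      ((((d' + algebraMap R ↥B ((ζ - 1) ^ p * π) * r') * d : ↥B) : F))⁻¹ ∈ S.W := by
    change _ ∈ locSub B 𝔭
    refine (locSub B 𝔭).mul_mem ((locSub B 𝔭).mul_mem (algebraMap_mem_locSub _)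
      ((locSub B 𝔭).sub_mem ((locSub B 𝔭).mul_mem (coe_mem_locSub _) (coe_mem_locSub _))
        ((locSub B 𝔭).mul_mem (coe_mem_locSub _) (coe_mem_locSub _)))) (inv_coe_mem_locSub hD)
  have hEq : algebraMap K₁ F (c' / c) * (γ' / γ) ^ p =
      1 + (chartDepthBase (K₁ := K₁) (F := F) hπ hp he₁ hpe hAC).π ^ M *
        ((algebraMap R F υ * ((r : F) * (d' : F) - (r' : F) * (d : F))) *
      ((((d' + algebraMap R ↥B ((ζ - 1) ^ p * π) * r') * d : ↥B) : F))⁻¹) := by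
    rw [chartDepthBase_π]
    simp only [Subalgebra.coe_mul, Subalgebra.coe_add, e0] at hDF ⊢
    have hΛF : algebraMap R F ((ζ - 1) ^ p * π) = algebraMap R F υ * algebraMap R F π ^ M := by
      rw [hυ, map_mul, map_pow]
    rw [map_div₀]
    set Λ := algebraMap R F ((ζ - 1) ^ p * π) with hΛ
    set C := algebraMap K₁ F c with hC
    set C' := algebraMap K₁ F c' with hC'
    have h1 : g * (d : F) = C * (γ ^ p * ((d : F) + Λ * (r : F))) := by
      rw [← hdr]; field_simp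
    have h2 : g * (d' : F) = C' * (γ' ^ p * ((d' : F) + Λ * (r' : F))) := by
      rw [← hdr']; field_simp
    have hγp : γ ^ p ≠ 0 := pow_ne_zero _ hγ0
    have hγp' : γ' ^ p ≠ 0 := pow_ne_zero _ hγ0'
    have hne1 : (d' : F) + Λ * (r' : F) ≠ 0 := left_ne_zero_of_mul hDF
    have key : C' * γ' ^ p * (((d' : F) + Λ * (r' : F)) * (d : F)) =
        C * γ ^ p * (((d' : F) + Λ * (r' : F)) * (d : F) +
          Λ * ((r : F) * (d' : F) - (r' : F) * (d : F))) := by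
      linear_combination (d' : F) * h1 - (d : F) * h2
    rw [div_pow, div_mul_div_comm, div_eq_iff (mul_ne_zero hcF hγp)]
    obtain ⟨D, hDdef⟩ : ∃ D : F, D = ((d' : F) + Λ * (r' : F)) * (d : F) := ⟨_, rfl⟩
    obtain ⟨X, hXdef⟩ : ∃ X : F, X = (r : F) * (d' : F) - (r' : F) * (d : F) := ⟨_, rfl⟩
    rw [← hDdef] at key hDF ⊢
    rw [← hXdef] at key ⊢
    have : (1 + algebraMap R F π ^ M * (algebraMap R F υ * X * D⁻¹)) = (D + Λ * X) / D := by
      rw [hΛF]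
      field_simp
    rw [this, div_mul_eq_mul_div, eq_div_iff hDF]
    linear_combination key
  obtain ⟨b, ⟨b₀, rfl⟩, hb0, y, ⟨y₀, rfl⟩, hy⟩ := S.const_depth hp (c := algebraMap K₁ F (c' / c))
    (g := γ' / γ) ⟨c' / c, rfl⟩ (by rw [Ne, map_eq_zero]; exact div_ne_zero hc' hc)
    (div_ne_zero hγ0' hγ0) hs hM hEq
  rw [chartDepthBase_π] at hy
  have hb₀ : b₀ ≠ 0 := by
    rintro rfl
    exact hb0 (map_zero _)
  have hy' : c' / c * b₀ ^ p - 1 = algebraMap R K₁ (π ^ M * y₀) := by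
    apply hinjK
    rw [map_sub, map_mul, map_pow, map_one, ← IsScalarTower.algebraMap_apply R K₁ F, map_mul,
      map_pow]
    exact hy
  refine ⟨b₀⁻¹, inv_ne_zero hb₀, ((υ⁻¹ : Rˣ) : R) * y₀, ?_⟩
  have h3 : (1 : R) + (ζ - 1) ^ p * π * (((υ⁻¹ : Rˣ) : R) * y₀) = 1 + π ^ M * y₀ := by
    rw [hυ]
    have : ((υ : R)) * ((υ⁻¹ : Rˣ) : R) = 1 := by simp
    linear_combination (π ^ M * y₀) * this
  rw [h3, map_add, map_one, ← hy', inv_pow]
  have hbp : b₀ ^ p ≠ 0 := pow_ne_zero _ hb₀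
  field_simp
  ring

end Unique

section Model

variable {R : Type*} [CommRing R] [IsDomain R] [IsDiscreteValuationRing R]
  {K₁ : Type*} [Field K₁] [Algebra R K₁] [IsFractionRing R K₁]
  {F : Type*} [Field F] [Algebra K₁ F] [Algebra R F] [IsScalarTower R K₁ F]
  {B : Subalgebra R F} [IsNoetherianRing ↥B] [IsFractionRing ↥B F]
  {π : R} {p : ℕ} {e₁ : ℕ} {ε : Rˣ}

/-- the component `𝔭∞` of a model chart is locally generated by `π`. -/
theorem IsModelChart.hloc_inf {𝔭inf 𝔭0 : Ideal ↥B} (hmod : IsModelChart F π 𝔭inf 𝔭0) :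
    ∀ z ∈ 𝔭inf, ∃ s : ↥B, s ∉ 𝔭inf ∧ algebraMap R ↥B π ∣ s * z := by
  haveI := hmod.isPrime_inf
  obtain ⟨𝔪, h𝔪, hle⟩ := Ideal.exists_le_maximal 𝔭inf hmod.isPrime_inf.ne_top
  by_cases hle0 : 𝔭0 ≤ 𝔪
  · obtain ⟨x, y, hx, hx0, -⟩ := hmod.node 𝔪 h𝔪 hle hle0
    exact hloc_of_inf_le hmod.inf_le hx.notMem hx0
  · obtain ⟨b', hb'0, hb'𝔪⟩ := Set.not_subset.mp hle0
    exact hloc_of_inf_le hmod.inf_le (fun h => hb'𝔪 (hle h)) hb'0

/-- the component `𝔭0` of a model chart is locally generated by `π`. -/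
theorem IsModelChart.hloc_zero {𝔭inf 𝔭0 : Ideal ↥B} (hmod : IsModelChart F π 𝔭inf 𝔭0) :
    ∀ z ∈ 𝔭0, ∃ s : ↥B, s ∉ 𝔭0 ∧ algebraMap R ↥B π ∣ s * z := by
  haveI := hmod.isPrime_zero
  have hinf0 : 𝔭0 ⊓ 𝔭inf ≤ Ideal.span {algebraMap R ↥B π} := by
    rw [inf_comm]; exact hmod.inf_le
  obtain ⟨𝔪, h𝔪, hle⟩ := Ideal.exists_le_maximal 𝔭0 hmod.isPrime_zero.ne_top
  by_cases hleinf : 𝔭inf ≤ 𝔪
  · obtain ⟨x, y, -, -, hy, hyinf, -⟩ := hmod.node 𝔪 h𝔪 hleinf hle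
    exact hloc_of_inf_le hinf0 hy.notMem hyinf
  · obtain ⟨b', hb'inf, hb'𝔪⟩ := Set.not_subset.mp hleinf
    exact hloc_of_inf_le hinf0 (fun h => hb'𝔪 (hle h)) hb'inf

/-- **uniqueness of the constant of a deep root at a prime of the special fibre of a model
chart.** -/
theorem IsModelChart.constRel_of_deepRoots {𝔭inf 𝔭0 : Ideal ↥B}
    (hmod : IsModelChart F π 𝔭inf 𝔭0) (hπ : Irreducible π) (hp : p.Prime) (he₁ : 0 < e₁)
    (hpe : (p : R) = ε * π ^ e₁) (hAC : ResAlgClosed π)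
    (𝔮 : Ideal ↥B) [h𝔮 : 𝔮.IsPrime] (hπ𝔮 : algebraMap R ↥B π ∈ 𝔮)
    {ζ : R} (hζ1 : ζ ≠ 1) {g : F} (hg : g ≠ 0) {c c' : K₁} (hc : c ≠ 0) (hc' : c' ≠ 0)
    {γ γ' : F} (h : DeepRootAt B p ζ π (g / algebraMap K₁ F c) 𝔮 γ)
    (h' : DeepRootAt B p ζ π (g / algebraMap K₁ F c') 𝔮 γ') :
    ConstRel p ((ζ - 1) ^ p * π) c c' := by
  haveI := hmod.isPrime_inf
  haveI := hmod.isPrime_zero
  rcases le_or_le_of_mem hmod.mem_inf hmod.mem_zero hmod.inf_le 𝔮 hπ𝔮 with hle | hle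
  · exact NP.constRel_of_deepRoots hπ hp he₁ hpe hAC 𝔭inf hmod.mem_inf (IsModelChart.hloc_inf hmod) hζ1 hg hc hc'
      (h.of_le hle) (h'.of_le hle)
  · exact NP.constRel_of_deepRoots hπ hp he₁ hpe hAC 𝔭0 hmod.mem_zero (IsModelChart.hloc_zero hmod) hζ1 hg hc hc'
      (h.of_le hle) (h'.of_le hle)

end Model

end Fermat.Agent.NP
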