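/-
NP33 (S33) — helper5 — package **[KUMP]**, part 5: **extraction of roots of unity at a prime of a
chart** (chart language version of `Sheet.exists_zeta_pow_of_pow_eq`).

`A` an integrally closed domain with fraction field `F`, `𝔮` a prime of `A`, `ζ` a primitive `p`-th
root of unity, `lam = ζ - 1`, `ϖ ∈ 𝔮`.  If `μ ^ p = 1 + lam ^ p ϖ ρ / d` (`d ∉ 𝔮`) then
`μ = ζ ^ j (1 + lam ϖ w / q)` with `q ∉ 𝔮` (`exists_zeta_pow_of_deep`); consequently two deep `p`-th
roots of the same function at `𝔮` differ by a root of unity modulo `1 + lam ϖ A_𝔮`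
(`exists_zeta_pow_of_deepRoots`).
-/
import Fermat.Agent.NP.IDEM_helper5_Core

set_option autoImplicit false
set_option linter.unusedSectionVars false
set_option linter.style.haveILetI false

namespace Fermat.Agent.NP

open Finset

section Extract

variable {A : Type*} [CommRing A] [IsDomain A] [IsIntegrallyClosed A]
  {F : Type*} [Field F] [Algebra A F] [IsFractionRing A F]

/-- **root of unity extraction at a prime.** -/
theorem exists_zeta_pow_of_deep {p : ℕ} (hp : p.Prime) {ζ : A} (hζ : IsPrimitiveRoot ζ p)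
    (𝔮 : Ideal A) [h𝔮 : 𝔮.IsPrime] {ϖ : A} (hϖ : ϖ ∈ 𝔮) (μ : F) (d ρ : A) (hd : d ∉ 𝔮)
    (h : μ ^ p * algebraMap A F d =
      algebraMap A F d + algebraMap A F ((ζ - 1) ^ p * ϖ) * algebraMap A F ρ) :
    ∃ j < p, ∃ q w : A, q ∉ 𝔮 ∧
      μ * algebraMap A F q =
        algebraMap A F (ζ ^ j) * (algebraMap A F q + algebraMap A F ((ζ - 1) * ϖ) * algebraMap A F w) := by
  classical
  have hinj : Function.Injective (algebraMap A F) := IsFractionRing.injective A F
  have hζF : IsPrimitiveRoot (algebraMap A F ζ) p := hζ.map_of_injective hinj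
  have hlam : algebraMap A F ζ - 1 ≠ 0 := sub_ne_zero.2 (hζF.ne_one hp.one_lt)
  have hd0 : d ≠ 0 := fun h0 => hd (h0 ▸ 𝔮.zero_mem)
  have hdF : algebraMap A F d ≠ 0 := (map_ne_zero_iff _ hinj).2 hd0
  set aF : F := (μ - 1) / (algebraMap A F ζ - 1) * algebraMap A F d with haF
  -- the Artin–Schreier equation
  have hprodF : ∏ i ∈ range p, (aF - qInt (algebraMap A F ζ) i * algebraMap A F d) =
      algebraMap A F (ϖ * (ρ * d ^ (p - 1))) := by
    have h1 := prod_sub_qInt hζF hp.pos aF (algebraMap A F d)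
    have h2 : algebraMap A F d + (algebraMap A F ζ - 1) * aF = μ * algebraMap A F d := by
      rw [haF]; field_simp; ring
    rw [h2] at h1
    have hdp : algebraMap A F d ^ p = algebraMap A F d ^ (p - 1) * algebraMap A F d := by
      rw [← pow_succ, Nat.sub_add_cancel hp.pos]
    have h3 : (μ * algebraMap A F d) ^ p - algebraMap A F d ^ p =
        (algebraMap A F ζ - 1) ^ p * algebraMap A F (ϖ * (ρ * d ^ (p - 1))) := by
      rw [mul_pow, hdp, map_mul, map_mul, map_pow]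
      have h4 : μ ^ p * (algebraMap A F d ^ (p - 1) * algebraMap A F d) =
          algebraMap A F d ^ (p - 1) * (μ ^ p * algebraMap A F d) := by ring
      rw [h4, h, map_mul, map_pow, map_sub, map_one]
      ring
    rw [h3] at h1
    exact (mul_left_cancel₀ (pow_ne_zero p hlam) h1).symm
  -- integrality
  have hint : IsIntegral A aF := by
    refine isIntegral_of_prod_sub_eq hp.pos aF (fun i => qInt ζ i * d) (ϖ * (ρ * d ^ (p - 1))) ?_
    rw [← hprodF]
    refine prod_congr rfl fun i _ => ?_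
    rw [map_mul, map_qInt]
  obtain ⟨a, ha⟩ := IsIntegrallyClosed.algebraMap_eq_of_integral hint
  have hprod : ∏ i ∈ range p, (a - qInt ζ i * d) = ϖ * (ρ * d ^ (p - 1)) := by
    apply hinj
    rw [← hprodF, map_prod]
    refine prod_congr rfl fun i _ => ?_
    rw [map_sub, map_mul, map_qInt, ha]
  have hmem : ∏ i ∈ range p, (a - qInt ζ i * d) ∈ 𝔮 := by
    rw [hprod]; exact 𝔮.mul_mem_right _ hϖ
  obtain ⟨j, hj, hjmem⟩ := exists_label 𝔮 a d hmem
  set P : A := ∏ i ∈ (range p).erase j, (a - qInt ζ i * d) with hP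
  have hPq : P ∉ 𝔮 := by
    intro hmemP
    obtain ⟨i, hi, himem⟩ := (Ideal.IsPrime.prod_mem_iff).1 hmemP
    obtain ⟨hij, hi'⟩ := mem_erase.1 hi
    exact hij (label_unique hζ hp 𝔮 a d hd (mem_range.1 hi') hj himem hjmem)
  have hjP : (a - qInt ζ j * d) * P = ϖ * (ρ * d ^ (p - 1)) := by
    rw [hP, mul_prod_erase (range p) (fun i => a - qInt ζ i * d) (mem_range.2 hj), hprod]
  have hζj : ζ ^ j * ζ ^ (p - j) = 1 := by
    rw [← pow_add, Nat.add_sub_cancel' hj.le, hζ.pow_eq_one]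
  refine ⟨j, hj, d * P, ζ ^ (p - j) * (ρ * d ^ (p - 1)), ?_, ?_⟩
  · intro hmem'
    rcases h𝔮.mem_or_mem hmem' with h1 | h1
    · exact hd h1
    · exact hPq h1
  · -- `μ d = d + lam a`
    have hμd : μ * algebraMap A F d = algebraMap A F d + (algebraMap A F ζ - 1) * algebraMap A F a := by
      rw [ha, haF]; field_simp; ring
    have hq := qInt_mul_sub_one ζ j
    have key : (d + (ζ - 1) * a) * P =
        ζ ^ j * (d * P + (ζ - 1) * ϖ * (ζ ^ (p - j) * (ρ * d ^ (p - 1)))) := by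
      have e1 : (d + (ζ - 1) * a) * P = (d + (ζ - 1) * (qInt ζ j * d)) * P +
          (ζ - 1) * ((a - qInt ζ j * d) * P) := by ring
      rw [e1, hjP]
      linear_combination (d * P) * hq - ((ζ - 1) * ϖ * (ρ * d ^ (p - 1))) * hζj
    have keyF := congrArg (algebraMap A F) key
    simp only [map_mul, map_add, map_sub, map_one, map_pow] at keyF ⊢
    rw [← keyF]
    linear_combination (algebraMap A F P) * hμd

/-- **two deep roots differ by a root of unity.** -/
theorem exists_zeta_pow_of_deepRoots {p : ℕ} (hp : p.Prime) {ζ : A} (hζ : IsPrimitiveRoot ζ p)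
    (𝔮 : Ideal A) [h𝔮 : 𝔮.IsPrime] {ϖ : A} (hϖ : ϖ ∈ 𝔮) (g γ γ' : F) (hγ : γ ≠ 0) (hγ' : γ' ≠ 0)
    (d r d' r' : A) (hd : d ∉ 𝔮) (hd' : d' ∉ 𝔮)
    (h : g * algebraMap A F d =
      γ ^ p * (algebraMap A F d + algebraMap A F ((ζ - 1) ^ p * ϖ) * algebraMap A F r))
    (h' : g * algebraMap A F d' =
      γ' ^ p * (algebraMap A F d' + algebraMap A F ((ζ - 1) ^ p * ϖ) * algebraMap A F r')) :
    ∃ j < p, ∃ q w : A, q ∉ 𝔮 ∧
      γ * algebraMap A F q = algebraMap A F (ζ ^ j) * γ' *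
        (algebraMap A F q + algebraMap A F ((ζ - 1) * ϖ) * algebraMap A F w) := by
  have hinj : Function.Injective (algebraMap A F) := IsFractionRing.injective A F
  -- `(γ / γ') ^ p D = D + lam ^ p ϖ ρ` with `D = d' (d + lam ^ p ϖ r)`, `ρ = r' d - d' r`
  have hD : d' * (d + (ζ - 1) ^ p * ϖ * r) ∉ 𝔮 := by
    intro hmem
    rcases h𝔮.mem_or_mem hmem with h1 | h1
    · exact hd' h1
    · apply hd
      have : d = (d + (ζ - 1) ^ p * ϖ * r) - ϖ * ((ζ - 1) ^ p * r) := by ring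
      rw [this]
      exact 𝔮.sub_mem h1 (𝔮.mul_mem_right _ hϖ)
  have hd0 : algebraMap A F d ≠ 0 :=
    (map_ne_zero_iff _ hinj).2 (fun h0 => hd (h0 ▸ 𝔮.zero_mem))
  have hd0' : algebraMap A F d' ≠ 0 :=
    (map_ne_zero_iff _ hinj).2 (fun h0 => hd' (h0 ▸ 𝔮.zero_mem))
  have key : (γ / γ') ^ p * algebraMap A F (d' * (d + (ζ - 1) ^ p * ϖ * r)) =
      algebraMap A F (d' * (d + (ζ - 1) ^ p * ϖ * r)) +
        algebraMap A F ((ζ - 1) ^ p * ϖ) * algebraMap A F (r' * d - d' * r) := by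
    have hγp : γ ^ p ≠ 0 := pow_ne_zero p hγ
    have hγp' : γ' ^ p ≠ 0 := pow_ne_zero p hγ'
    rw [div_pow, div_mul_eq_mul_div, div_eq_iff hγp']
    simp only [map_mul, map_add, map_sub] at h h' ⊢
    -- eliminate `g`
    have e1 : γ ^ p * (algebraMap A F d +
        (algebraMap A F ((ζ - 1) ^ p)) * algebraMap A F ϖ * algebraMap A F r) * algebraMap A F d' =
        γ' ^ p * (algebraMap A F d' +
          (algebraMap A F ((ζ - 1) ^ p)) * algebraMap A F ϖ * algebraMap A F r') * algebraMap A F d := by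
      rw [← h, ← h']; ring
    linear_combination e1
  obtain ⟨j, hj, q, w, hq, hqw⟩ := exists_zeta_pow_of_deep hp hζ 𝔮 hϖ (γ / γ') _ _ hD key
  refine ⟨j, hj, q, w, hq, ?_⟩
  rw [div_mul_eq_mul_div, div_eq_iff hγ'] at hqw
  rw [hqw]; ring

end Extract

end Fermat.Agent.NP
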