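/-
NP33 (S33) — helper5 — **SS-CONN2 without reducedness**: connectedness of the incidence graph of
sheets and closed points of a two-chart curve whose special fibre need NOT be reduced.

`sheet_const_of_incident_rad` is `SS.sheet_const_of_incident` with the hypotheses
"`x` in all sheets ⇒ `π ∣ x`" replaced by "`x` in all sheets ⇒ `π ∣ x ^ N` for some `N`" (i.e. the
sheets are all the primes minimal over `π`).  Proof: the separating elements of the two charts are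
idempotent modulo the nilradical of the special fibre; they are refined to idempotents modulo `π`
(`exists_refine_idempotent`), and two idempotents which differ by a nilpotent element are equal.

(For the Kummer extensions of degree `p` = residue characteristic of NP33 this avoids the proof that
the special fibre of the normalisation in the extension is reduced.)
-/
import Fermat.Agent.SS.CONN2_helper3

set_option autoImplicit false
set_option linter.unusedSectionVars false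
set_option linter.style.haveILetI false

namespace Fermat.Agent.NP

open Fermat.Agent.JA Fermat.Agent.SS

/-- refinement of an idempotent modulo the radical of `I` to an idempotent modulo `I`. -/
theorem exists_refine_idempotent {A : Type*} [CommRing A] (I : Ideal A) (e : A) (n : ℕ)
    (h : (e * (1 - e)) ^ n ∈ I) :
    ∃ e' a b : A, e' = a * e ^ n ∧ 1 - e' = b * (1 - e) ^ n ∧ e' * e' - e' ∈ I := by
  have hcop : IsCoprime e (1 - e) := ⟨1, 1, by ring⟩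
  obtain ⟨a, b, hab⟩ := (hcop.pow (m := n) (n := n))
  refine ⟨a * e ^ n, a, b, rfl, by linear_combination (-1 : A) * hab, ?_⟩
  have : a * e ^ n * (a * e ^ n) - a * e ^ n = -(a * b) * (e * (1 - e)) ^ n := by
    rw [mul_pow]
    linear_combination (a * e ^ n) * hab
  rw [this]
  exact I.mul_mem_left _ h

section Sheets

variable {R : Type*} [CommRing R] [IsDomain R] [IsNoetherianRing R] {π : R}
  {E : Type*} [CommRing E] [Algebra R E]

theorem mem_span_pi_iff (B : Subalgebra R E) (x : B) :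
    x ∈ Ideal.span {algebraMap R B π} ↔ ∃ y ∈ B, (x : E) = π • y := by
  rw [Ideal.mem_span_singleton']
  constructor
  · rintro ⟨a, rfl⟩
    refine ⟨a, a.2, ?_⟩
    rw [Algebra.smul_def]
    push_cast
    rw [mul_comm]
  · rintro ⟨y, hy, hxy⟩
    refine ⟨⟨y, hy⟩, Subtype.ext ?_⟩
    rw [hxy, Algebra.smul_def]
    push_cast
    rw [mul_comm]

/-- **SS-CONN2, non-reduced version.** -/
theorem sheet_const_of_incident_rad (hπ : Prime π) (hE : ∀ x : E, π • x = 0 → x = 0)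
    (hinj : Function.Injective (algebraMap R E))
    (t : Eˣ) (B₁ B₂ B₁₂ : Subalgebra R E)
    (ht₁ : (t : E) ∈ B₁) (ht₂ : ((t⁻¹ : Eˣ) : E) ∈ B₂) (h₁₂ : B₁ ≤ B₁₂) (h₂₁ : B₂ ≤ B₁₂)
    (hloc₁ : ∀ x ∈ B₁₂, ∃ m : ℕ, (t : E) ^ m * x ∈ B₁)
    (hglob : ∀ x ∈ B₁, x ∈ B₂ → ∃ r : R, algebraMap R E r = x)
    (hfin : ∃ s : Finset E, (∀ b ∈ s, b ∈ B₁) ∧ ∀ x ∈ B₁, ∃ c : E → Polynomial R,
      x = ∑ b ∈ s, Polynomial.aeval (t : E) (c b) * b)
    (hpole : ∀ b ∈ B₁, ∃ N : ℕ, ((t⁻¹ : Eˣ) : E) ^ N * b ∈ B₂)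
    {Sh : Type*} [Finite Sh] (P : Sh → Ideal B₁₂) (hP : ∀ s, (P s).IsPrime)
    (hπP : ∀ s, algebraMap R B₁₂ π ∈ P s)
    (hrad₁ : ∀ x : B₁, (∀ s, Subalgebra.inclusion h₁₂ x ∈ P s) →
      ∃ N : ℕ, x ^ N ∈ Ideal.span {algebraMap R B₁ π})
    (hrad₂ : ∀ x : B₂, (∀ s, Subalgebra.inclusion h₂₁ x ∈ P s) →
      ∃ N : ℕ, x ^ N ∈ Ideal.span {algebraMap R B₂ π})
    (hrad₁₂ : ∀ x : B₁₂, (∀ s, x ∈ P s) → ∃ N : ℕ, x ^ N ∈ Ideal.span {algebraMap R B₁₂ π})
    {X : Type*} (Φ : Sh → X)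
    (hΦ₁ : ∀ 𝔫 : Ideal B₁, 𝔫.IsMaximal → ∀ s s' : Sh,
      (P s).comap (Subalgebra.inclusion h₁₂) ≤ 𝔫 → (P s').comap (Subalgebra.inclusion h₁₂) ≤ 𝔫 →
        Φ s = Φ s')
    (hΦ₂ : ∀ 𝔫 : Ideal B₂, 𝔫.IsMaximal → ∀ s s' : Sh,
      (P s).comap (Subalgebra.inclusion h₂₁) ≤ 𝔫 → (P s').comap (Subalgebra.inclusion h₂₁) ≤ 𝔫 →
        Φ s = Φ s') :
    ∀ s s' : Sh, Φ s = Φ s' := by
  classical
  haveI : Fintype Sh := Fintype.ofFinite Sh
  intro s₀ s₁
  by_contra hne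
  set S : Finset Sh := Finset.univ.filter (fun s => Φ s = Φ s₀) with hS
  set T : Finset Sh := Finset.univ.filter (fun s => Φ s ≠ Φ s₀) with hT
  have hs₀ : s₀ ∈ S := by simp [hS]
  have hs₁ : s₁ ∈ T := by
    simp only [hT, Finset.mem_filter, Finset.mem_univ, true_and]
    exact fun h => hne h.symm
  have hST : ∀ s, s ∈ S ∨ s ∈ T := by
    intro s
    by_cases h : Φ s = Φ s₀
    · left; simp [hS, h]
    · right; simp [hT, h]
  set P₁ : Sh → Ideal B₁ := fun s => (P s).comap (Subalgebra.inclusion h₁₂) with hP₁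
  set P₂ : Sh → Ideal B₂ := fun s => (P s).comap (Subalgebra.inclusion h₂₁) with hP₂
  have hP₁' : ∀ s, (P₁ s).IsPrime := fun s => Ideal.comap_isPrime _ _
  have hP₂' : ∀ s, (P₂ s).IsPrime := fun s => Ideal.comap_isPrime _ _
  obtain ⟨e₁, he₁S, he₁T⟩ := exists_sep_of_no_common_maximal S T P₁ (by
    intro 𝔫 hmax i hi j hj hi' hj'
    have h1 := hΦ₁ 𝔫 hmax i j hi' hj'
    simp only [hS, hT, Finset.mem_filter, Finset.mem_univ, true_and] at hi hj
    exact hj (h1 ▸ hi))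
  obtain ⟨e₂, he₂S, he₂T⟩ := exists_sep_of_no_common_maximal S T P₂ (by
    intro 𝔫 hmax i hi j hj hi' hj'
    have h1 := hΦ₂ 𝔫 hmax i j hi' hj'
    simp only [hS, hT, Finset.mem_filter, Finset.mem_univ, true_and] at hi hj
    exact hj (h1 ▸ hi))
  -- nilpotency of `e (1 - e)` modulo `π`
  obtain ⟨N₁, hN₁⟩ := hrad₁ (e₁ * (1 - e₁)) (by
    intro s
    change e₁ * (1 - e₁) ∈ P₁ s
    rcases hST s with h | h
    · exact (P₁ s).mul_mem_right _ (he₁S s h)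
    · exact (P₁ s).mul_mem_left _ (he₁T s h))
  obtain ⟨N₂, hN₂⟩ := hrad₂ (e₂ * (1 - e₂)) (by
    intro s
    change e₂ * (1 - e₂) ∈ P₂ s
    rcases hST s with h | h
    · exact (P₂ s).mul_mem_right _ (he₂S s h)
    · exact (P₂ s).mul_mem_left _ (he₂T s h))
  -- a positive exponent
  have hN₁' : (e₁ * (1 - e₁)) ^ (N₁ + 1) ∈ Ideal.span {algebraMap R B₁ π} := by
    rw [pow_succ]; exact Ideal.mul_mem_right _ _ hN₁
  have hN₂' : (e₂ * (1 - e₂)) ^ (N₂ + 1) ∈ Ideal.span {algebraMap R B₂ π} := by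
    rw [pow_succ]; exact Ideal.mul_mem_right _ _ hN₂
  obtain ⟨f₁, a₁, b₁, hf₁a, hf₁b, hf₁id⟩ := exists_refine_idempotent _ e₁ (N₁ + 1) hN₁'
  obtain ⟨f₂, a₂, b₂, hf₂a, hf₂b, hf₂id⟩ := exists_refine_idempotent _ e₂ (N₂ + 1) hN₂'
  have hf₁S : ∀ s ∈ S, f₁ ∈ P₁ s := by
    intro s hs
    rw [hf₁a, pow_succ]
    exact (P₁ s).mul_mem_left _ ((P₁ s).mul_mem_left _ (he₁S s hs))
  have hf₁T : ∀ s ∈ T, 1 - f₁ ∈ P₁ s := by
    intro s hs
    rw [hf₁b, pow_succ]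
    exact (P₁ s).mul_mem_left _ ((P₁ s).mul_mem_left _ (he₁T s hs))
  have hf₂S : ∀ s ∈ S, f₂ ∈ P₂ s := by
    intro s hs
    rw [hf₂a, pow_succ]
    exact (P₂ s).mul_mem_left _ ((P₂ s).mul_mem_left _ (he₂S s hs))
  have hf₂T : ∀ s ∈ T, 1 - f₂ ∈ P₂ s := by
    intro s hs
    rw [hf₂b, pow_succ]
    exact (P₂ s).mul_mem_left _ ((P₂ s).mul_mem_left _ (he₂T s hs))
  -- idempotency modulo `π`
  have hid₁ : ∃ y ∈ B₁, (f₁ : E) * f₁ - f₁ = π • y := by
    have := (mem_span_pi_iff B₁ _).1 hf₁id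
    simpa using this
  have hid₂ : ∃ y ∈ B₂, (f₂ : E) * f₂ - f₂ = π • y := by
    have := (mem_span_pi_iff B₂ _).1 hf₂id
    simpa using this
  -- the glueing
  set g₁ : B₁₂ := Subalgebra.inclusion h₁₂ f₁ with hg₁
  set g₂ : B₁₂ := Subalgebra.inclusion h₂₁ f₂ with hg₂
  have hg₁id : g₁ * g₁ - g₁ ∈ Ideal.span {algebraMap R B₁₂ π} := by
    rw [mem_span_pi_iff]
    obtain ⟨y, hy, hxy⟩ := hid₁
    exact ⟨y, h₁₂ hy, by simpa [hg₁] using hxy⟩
  have hg₂id : g₂ * g₂ - g₂ ∈ Ideal.span {algebraMap R B₁₂ π} := by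
    rw [mem_span_pi_iff]
    obtain ⟨y, hy, hxy⟩ := hid₂
    exact ⟨y, h₂₁ hy, by simpa [hg₂] using hxy⟩
  obtain ⟨M, hM⟩ := hrad₁₂ (g₁ - g₂) (by
    intro s
    rcases hST s with h | h
    · exact (P s).sub_mem (hf₁S s h) (hf₂S s h)
    · have : g₁ - g₂ = (1 - g₂) - (1 - g₁) := by ring
      rw [this]
      refine (P s).sub_mem ?_ ?_
      · have := hf₂T s h
        change Subalgebra.inclusion h₂₁ (1 - f₂) ∈ P s at this
        rwa [map_sub, map_one] at this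
      · have := hf₁T s h
        change Subalgebra.inclusion h₁₂ (1 - f₁) ∈ P s at this
        rwa [map_sub, map_one] at this)
  have hglue' : g₁ - g₂ ∈ Ideal.span {algebraMap R B₁₂ π} := by
    set J : Ideal B₁₂ := Ideal.span {algebraMap R B₁₂ π} with hJ
    have h1 : IsIdempotentElem (Ideal.Quotient.mk J g₁) := by
      change Ideal.Quotient.mk J g₁ * Ideal.Quotient.mk J g₁ = Ideal.Quotient.mk J g₁
      rw [← map_mul, ← sub_eq_zero, ← map_sub, Ideal.Quotient.eq_zero_iff_mem]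
      exact hg₁id
    have h2 : IsIdempotentElem (Ideal.Quotient.mk J g₂) := by
      change Ideal.Quotient.mk J g₂ * Ideal.Quotient.mk J g₂ = Ideal.Quotient.mk J g₂
      rw [← map_mul, ← sub_eq_zero, ← map_sub, Ideal.Quotient.eq_zero_iff_mem]
      exact hg₂id
    have h3 : IsNilpotent (Ideal.Quotient.mk J g₁ - Ideal.Quotient.mk J g₂) := by
      refine ⟨M, ?_⟩
      rw [← map_sub, ← map_pow, Ideal.Quotient.eq_zero_iff_mem]
      exact hM
    have h4 := eq_of_isNilpotent_sub_of_isIdempotentElem h1 h2 h3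
    rw [← sub_eq_zero, ← map_sub, Ideal.Quotient.eq_zero_iff_mem] at h4
    exact h4
  have hglue : ∃ y ∈ B₁₂, (f₁ : E) - f₂ = π • y := by
    have := (mem_span_pi_iff B₁₂ _).1 hglue'
    simpa [hg₁, hg₂] using this
  have hπ₁ : ∀ s, ∀ y ∈ B₁, ∀ x : B₁, (x : E) = π • y → x ∈ P₁ s := by
    intro s y hy x hx
    change Subalgebra.inclusion h₁₂ x ∈ P s
    have : Subalgebra.inclusion h₁₂ x = algebraMap R B₁₂ π * ⟨y, h₁₂ hy⟩ := by
      apply Subtype.ext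
      rw [Subalgebra.coe_inclusion, hx, Algebra.smul_def]
      rfl
    rw [this]
    exact (P s).mul_mem_right _ (hπP s)
  rcases conn_idempotent hπ hE hinj t B₁ B₂ B₁₂ ht₁ ht₂ h₁₂ h₂₁ hloc₁ hglob hfin hpole
    (f₁ : E) (f₂ : E) f₁.2 f₂.2 hid₁ hid₂ hglue with ⟨⟨y, hy, hye⟩, _⟩ | ⟨⟨y, hy, hye⟩, _⟩
  · have h1 : f₁ ∈ P₁ s₁ := hπ₁ s₁ y hy f₁ hye
    have h2 : 1 - f₁ ∈ P₁ s₁ := hf₁T s₁ hs₁
    have h3 : (1 : B₁) ∈ P₁ s₁ := by
      have : (1 : B₁) = (1 - f₁) + f₁ := by ring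
      rw [this]
      exact (P₁ s₁).add_mem h2 h1
    exact (hP₁' s₁).ne_top ((Ideal.eq_top_iff_one _).2 h3)
  · have h1 : 1 - f₁ ∈ P₁ s₀ := hπ₁ s₀ y hy (1 - f₁) (by simpa using hye)
    have h2 : f₁ ∈ P₁ s₀ := hf₁S s₀ hs₀
    have h3 : (1 : B₁) ∈ P₁ s₀ := by
      have : (1 : B₁) = (1 - f₁) + f₁ := by ring
      rw [this]
      exact (P₁ s₀).add_mem h1 h2
    exact (hP₁' s₀).ne_top ((Ideal.eq_top_iff_one _).2 h3)

end Sheets

end Fermat.Agent.NP
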