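/-
NP33 (S33) — helper5 — package **[KUMP]**, part 1: **connectedness of the sheets of the charts of a
finite extension `E / K₁(t)`, without any reducedness hypothesis** (`SS.chart_sheet_const` minus
`hRED₁`, `hRED₂`), via `sheet_const_of_incident_rad`.
-/
import Fermat.Agent.SS.KUM_helper3_Sheet
import Fermat.Agent.NP.CONN3_helper5

set_option autoImplicit false
set_option linter.unusedSectionVars false
set_option linter.style.haveILetI false

namespace Fermat.Agent.NP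

open Fermat.Agent.JA Fermat.Agent.SS Polynomial

section Abstract

variable {A : Type*} [CommRing A] (S : Submonoid A) (A' : Type*) [CommRing A'] [Algebra A A']
  [IsLocalization S A']

/-- an element of `A` lying in all primes of the localisation minimal over `J A'` lies in the
radical of `J`, if no prime minimal over `J` meets the multiplicative set. -/
theorem mem_radical_of_forall_mem_minimalPrimes_map (J : Ideal A)
    (hS : ∀ 𝔮 ∈ J.minimalPrimes, Disjoint (S : Set A) (𝔮 : Set A)) (x : A)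
    (hx : ∀ 𝔓 ∈ (J.map (algebraMap A A')).minimalPrimes, algebraMap A A' x ∈ 𝔓) :
    x ∈ J.radical := by
  rw [← Ideal.sInf_minimalPrimes, Ideal.mem_sInf]
  intro 𝔮 h𝔮
  have hprime : 𝔮.IsPrime := h𝔮.1.1
  have hdis := hS 𝔮 h𝔮
  have hunder : (𝔮.map (algebraMap A A')).under A = 𝔮 :=
    IsLocalization.under_map_of_isPrime_disjoint S A' hprime hdis
  have hmem : 𝔮.map (algebraMap A A') ∈ (J.map (algebraMap A A')).minimalPrimes := by
    rw [IsLocalization.minimalPrimes_map S A' J, Set.mem_preimage, hunder]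
    exact h𝔮
  have := hx _ hmem
  rw [← hunder]
  exact this

end Abstract

section Pair

variable {R : Type*} [CommRing R] {E : Type*} [Field E] [Algebra R E]

/-- **sheets see the chart, up to nilpotents.** -/
theorem pair_rad_of_forall_mem_minimalPrimes {B B' : Subalgebra R E} (h : B ≤ B') (τ : E)
    (hτ : τ ∈ B) (hτ0 : τ ≠ 0) (hinv : τ⁻¹ ∈ B') (hloc : ∀ x ∈ B', ∃ n : ℕ, τ ^ n * x ∈ B) (π : R)
    (hT : ∀ 𝔮 ∈ (Ideal.span {algebraMap R ↥B π}).minimalPrimes, (⟨τ, hτ⟩ : ↥B) ∉ 𝔮)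
    (x : ↥B)
    (hx : ∀ 𝔓 ∈ (Ideal.span {algebraMap R ↥B' π}).minimalPrimes, Subalgebra.inclusion h x ∈ 𝔓) :
    ∃ N : ℕ, x ^ N ∈ Ideal.span {algebraMap R ↥B π} := by
  letI := inclusionAlgebra h
  haveI : IsLocalization.Away (⟨τ, hτ⟩ : ↥B) ↥B' :=
    isLocalization_away_of_le h τ hτ hτ0 hinv hloc
  exact mem_radical_of_forall_mem_minimalPrimes_map (Submonoid.powers (⟨τ, hτ⟩ : ↥B)) ↥B'
    (Ideal.span {algebraMap R ↥B π}) (by
      intro 𝔮 h𝔮
      have hprime : 𝔮.IsPrime := h𝔮.1.1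
      rw [Set.disjoint_left]
      rintro y ⟨n, rfl⟩ hy
      exact hT 𝔮 h𝔮 (hprime.mem_of_pow_mem n hy)) x (by
      intro 𝔓 h𝔓
      rw [map_span_inclusion h π] at h𝔓
      exact hx 𝔓 h𝔓)

/-- an element lying in all primes minimal over `π` is nilpotent modulo `π`. -/
theorem rad_of_forall_mem_minimalPrimes {B' : Subalgebra R E} (π : R) (x : ↥B')
    (hx : ∀ 𝔓 ∈ (Ideal.span {algebraMap R ↥B' π}).minimalPrimes, x ∈ 𝔓) :
    ∃ N : ℕ, x ^ N ∈ Ideal.span {algebraMap R ↥B' π} := by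
  have : x ∈ (Ideal.span {algebraMap R ↥B' π}).radical := by
    rw [← Ideal.sInf_minimalPrimes, Ideal.mem_sInf]
    exact fun {𝔓} h𝔓 => hx 𝔓 h𝔓
  exact this

end Pair

section Sheets

variable {R : Type*} [CommRing R] [IsDomain R] [IsIntegrallyClosed R] [IsNoetherianRing R]
  [CharZero R] {K₁ : Type*} [Field K₁] [Algebra R K₁]
  [IsFractionRing R K₁] {K : Type*} [Field K] [Algebra K₁ K] [Algebra R K] [IsScalarTower R K₁ K]
  {E : Type*} [Field E] [Algebra K E] [Algebra K₁ E] [IsScalarTower K₁ K E] [Algebra R E]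
  [IsScalarTower R K E] [FiniteDimensional K E]

omit [IsIntegrallyClosed R] [IsNoetherianRing R] [CharZero R] [FiniteDimensional K E] in
/-- the sheets see the first chart, up to nilpotents. -/
theorem chartOne_rad_of_forall_mem_sheet (t : K) (ht0 : t ≠ 0) (π : R)
    (hT₁ : ∀ 𝔮 ∈ (Ideal.span {algebraMap R ↥(chartOne R E t) π}).minimalPrimes,
      (⟨algebraMap K E t, algebraMap_coord_mem_chartOne t⟩ : ↥(chartOne R E t)) ∉ 𝔮)
    (x : ↥(chartOne R E t))
    (hx : ∀ s : SheetOf R E t π, Subalgebra.inclusion (chartOne_le_chartMid t) x ∈ s.1) :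
    ∃ N : ℕ, x ^ N ∈ Ideal.span {algebraMap R ↥(chartOne R E t) π} := by
  have htE : algebraMap K E t ≠ 0 := by rw [Ne, map_eq_zero]; exact ht0
  exact pair_rad_of_forall_mem_minimalPrimes (chartOne_le_chartMid t)
    (algebraMap K E t) (algebraMap_coord_mem_chartOne t) htE (inv_coord_mem_chartMid t ht0)
    (fun x hx => hx) π hT₁ x (fun 𝔓 h𝔓 => hx ⟨𝔓, h𝔓⟩)

omit [IsIntegrallyClosed R] [IsNoetherianRing R] [CharZero R] [FiniteDimensional K E] in
/-- the sheets see the second chart, up to nilpotents. -/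
theorem chartOne_inv_rad_of_forall_mem_sheet (t : K) (ht0 : t ≠ 0) (π : R)
    (hT₂ : ∀ 𝔮 ∈ (Ideal.span {algebraMap R ↥(chartOne R E t⁻¹) π}).minimalPrimes,
      (⟨algebraMap K E t⁻¹, algebraMap_coord_mem_chartOne t⁻¹⟩ : ↥(chartOne R E t⁻¹)) ∉ 𝔮)
    (x : ↥(chartOne R E t⁻¹))
    (hx : ∀ s : SheetOf R E t π,
      Subalgebra.inclusion (chartOne_inv_le_chartMid t ht0) x ∈ s.1) :
    ∃ N : ℕ, x ^ N ∈ Ideal.span {algebraMap R ↥(chartOne R E t⁻¹) π} := by
  have htE : algebraMap K E t ≠ 0 := by rw [Ne, map_eq_zero]; exact ht0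
  have hinv2 : (algebraMap K E t)⁻¹ ∈ chartOne R E t⁻¹ := by
    rw [← map_inv₀]; exact algebraMap_coord_mem_chartOne t⁻¹
  exact pair_rad_of_forall_mem_minimalPrimes (chartOne_inv_le_chartMid t ht0)
    (algebraMap K E t)⁻¹ hinv2 (inv_ne_zero htE)
    (by rw [inv_inv]; exact chartOne_le_chartMid t (algebraMap_coord_mem_chartOne t))
    (fun x hx => exists_inv_pow_mul_mem_of_mem_chartMid t ht0 hx) π
    (by
      intro 𝔮 h𝔮
      have := hT₂ 𝔮 h𝔮
      convert this using 2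
      exact Subtype.ext (map_inv₀ _ _).symm) x (fun 𝔓 h𝔓 => hx ⟨𝔓, h𝔓⟩)

/-- there is at least one sheet (no reducedness hypothesis). -/
theorem nonempty_sheetOf_rad (t : K) (ht : Transcendental K₁ t)
    (hK : IntermediateField.adjoin K₁ {t} = ⊤) (π : R) (hπ : Prime π)
    (hM4 : ∀ x : E, IsAlgebraic K₁ x → x ∈ Set.range (algebraMap K₁ E))
    (hT₁ : ∀ 𝔮 ∈ (Ideal.span {algebraMap R ↥(chartOne R E t) π}).minimalPrimes,
      (⟨algebraMap K E t, algebraMap_coord_mem_chartOne t⟩ : ↥(chartOne R E t)) ∉ 𝔮)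
    (hT₂ : ∀ 𝔮 ∈ (Ideal.span {algebraMap R ↥(chartOne R E t⁻¹) π}).minimalPrimes,
      (⟨algebraMap K E t⁻¹, algebraMap_coord_mem_chartOne t⁻¹⟩ : ↥(chartOne R E t⁻¹)) ∉ 𝔮) :
    Nonempty (SheetOf R E t π) := by
  have ht0 : t ≠ 0 := fun h => ht (h ▸ isAlgebraic_zero)
  have hinj : Function.Injective (algebraMap R E) := algebraMap_injective_of_tower (K₁ := K₁) (K := K)
  have hπE : algebraMap R E π ≠ 0 := by
    rw [Ne, map_eq_zero_iff _ hinj]; exact hπ.ne_zero
  by_contra hempty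
  obtain ⟨N₁, hN₁⟩ := chartOne_rad_of_forall_mem_sheet t ht0 π hT₁ 1
    (fun s => (hempty ⟨s⟩).elim)
  obtain ⟨N₂, hN₂⟩ := chartOne_inv_rad_of_forall_mem_sheet t ht0 π hT₂ 1
    (fun s => (hempty ⟨s⟩).elim)
  rw [one_pow, Ideal.mem_span_singleton'] at hN₁ hN₂
  obtain ⟨z₁, hz₁⟩ := hN₁
  obtain ⟨z₂, hz₂⟩ := hN₂
  have h1 : (z₁ : E) * algebraMap R E π = 1 := by
    have := congrArg (fun w : ↥(chartOne R E t) => (w : E)) hz₁
    simpa using this
  have h2 : (z₂ : E) * algebraMap R E π = 1 := by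
    have := congrArg (fun w : ↥(chartOne R E t⁻¹) => (w : E)) hz₂
    simpa using this
  have h12 : (z₁ : E) = z₂ := mul_right_cancel₀ hπE (h1.trans h2.symm)
  obtain ⟨r, hr⟩ := exists_algebraMap_eq_of_isIntegral_both (R := R) t ht hK hM4 (z₁ : E) z₁.2
    (h12 ▸ z₂.2)
  apply hπ.not_isUnit
  refine IsUnit.of_mul_eq_one r (hinj ?_)
  rw [map_mul, hr, mul_comm, h1, map_one]

/-- **connectedness of the sheets of the charts, without reducedness.** -/
theorem chart_sheet_const_rad (t : K) (ht : Transcendental K₁ t)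
    (hK : IntermediateField.adjoin K₁ {t} = ⊤) (π : R) (hπ : Prime π)
    (hM4 : ∀ x : E, IsAlgebraic K₁ x → x ∈ Set.range (algebraMap K₁ E))
    (hT₁ : ∀ 𝔮 ∈ (Ideal.span {algebraMap R ↥(chartOne R E t) π}).minimalPrimes,
      (⟨algebraMap K E t, algebraMap_coord_mem_chartOne t⟩ : ↥(chartOne R E t)) ∉ 𝔮)
    (hT₂ : ∀ 𝔮 ∈ (Ideal.span {algebraMap R ↥(chartOne R E t⁻¹) π}).minimalPrimes,
      (⟨algebraMap K E t⁻¹, algebraMap_coord_mem_chartOne t⁻¹⟩ : ↥(chartOne R E t⁻¹)) ∉ 𝔮)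
    {X : Type*} (Φ : SheetOf R E t π → X)
    (hΦ₁ : ∀ 𝔑 : Ideal ↥(chartOne R E t), 𝔑.IsMaximal → ∀ s s' : SheetOf R E t π,
      (s.1).comap (Subalgebra.inclusion (chartOne_le_chartMid t)) ≤ 𝔑 →
      (s'.1).comap (Subalgebra.inclusion (chartOne_le_chartMid t)) ≤ 𝔑 → Φ s = Φ s')
    (hΦ₂ : ∀ 𝔑 : Ideal ↥(chartOne R E t⁻¹), 𝔑.IsMaximal → ∀ s s' : SheetOf R E t π,
      (s.1).comap (Subalgebra.inclusion (chartOne_inv_le_chartMid t
        (fun h => ht (h ▸ isAlgebraic_zero)))) ≤ 𝔑 →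
      (s'.1).comap (Subalgebra.inclusion (chartOne_inv_le_chartMid t
        (fun h => ht (h ▸ isAlgebraic_zero)))) ≤ 𝔑 → Φ s = Φ s') :
    ∀ s s' : SheetOf R E t π, Φ s = Φ s' := by
  have ht0 : t ≠ 0 := fun h => ht (h ▸ isAlgebraic_zero)
  have htE : algebraMap K E t ≠ 0 := by rw [Ne, map_eq_zero]; exact ht0
  have hinj : Function.Injective (algebraMap R E) := algebraMap_injective_of_tower (K₁ := K₁) (K := K)
  have hπE : algebraMap R E π ≠ 0 := by
    rw [Ne, map_eq_zero_iff _ hinj]; exact hπ.ne_zero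
  haveI := finite_sheetOf (R := R) (K₁ := K₁) (E := E) t ht hK π
  have hinvE : ((Units.mk0 (algebraMap K E t) htE)⁻¹ : Eˣ).1 = (algebraMap K E t)⁻¹ := by
    rw [Units.val_inv_eq_inv_val, Units.val_mk0]
  have h₂₁ := chartOne_inv_le_chartMid (R := R) (E := E) t ht0
  have hinv2 : (algebraMap K E t)⁻¹ ∈ chartOne R E t⁻¹ := by
    rw [← map_inv₀]; exact algebraMap_coord_mem_chartOne t⁻¹
  refine sheet_const_of_incident_rad hπ (fun x hx => ?_) hinj (Units.mk0 (algebraMap K E t) htE)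
    (chartOne R E t) (chartOne R E t⁻¹) (chartMid R E t)
    (algebraMap_coord_mem_chartOne t) (by rw [hinvE]; exact hinv2)
    (chartOne_le_chartMid t) h₂₁ (fun x hx => hx) ?_ ?_ ?_
    (fun s : SheetOf R E t π => s.1) (fun s => s.2.1.1)
    (fun s => s.2.1.2 (Ideal.subset_span (Set.mem_singleton _))) ?_ ?_ ?_ Φ hΦ₁ hΦ₂
  · rw [Algebra.smul_def] at hx
    rcases mul_eq_zero.1 hx with h | h
    · exact absurd h hπE
    · exact h
  · intro x hx₁ hx₂
    exact exists_algebraMap_eq_of_isIntegral_both (R := R) t ht hK hM4 x hx₁ hx₂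
  · exact exists_finset_span_integralClosure (R := R) (K₁ := K₁) (E := E) t ht hK
  · intro b hb
    rw [hinvE]
    exact exists_inv_pow_mul_mem_chartOne_inv t ht0 hb
  · intro x hx
    exact chartOne_rad_of_forall_mem_sheet t ht0 π hT₁ x hx
  · intro x hx
    exact chartOne_inv_rad_of_forall_mem_sheet t ht0 π hT₂ x hx
  · intro x hx
    exact rad_of_forall_mem_minimalPrimes π x (fun 𝔓 h𝔓 => hx ⟨𝔓, h𝔓⟩)

end Sheets

end Fermat.Agent.NP
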