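/-
NP33 (S33) — helper5 — package **[KUMP]**, part 3: **the σ-free core**.

Two-chart model of a finite extension `F / K₁(t)` over `R` (`K₁ = Frac R`), `π ∈ R` prime, `p` a
prime (the residue characteristic is allowed to be `p`), `ζ ∈ R` a primitive `p`-th root of unity,
`lam = ζ - 1`.  Let `h ∈ Fˣ` have, at every closed point `𝔫` of the special fibre of either chart, a
**deep `p`-th root** `s_𝔫` (`h = s_𝔫 ^ p (1 + lam ^ p π r / d)`), chosen **coherently**: a predicate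
`G 𝔮 s` on the primes `𝔮 ∋ π` of the middle ring such that `G 𝔮 s_𝔫` whenever `𝔮` passes through
`𝔫`, and any two `s, s'` with `G 𝔮` satisfy `s / s' ∈ 1 + lam π O_𝔮` ("trivial node cocycle").
Then every `F`-automorphism of `L ⊇ F(α)`, `α ^ p = h`, fixes `α` (`KumPData.fixed`).

Proof (SS-KUM with the Artin–Schreier normalisation): on every sheet `𝔓` of `L` the element
`η_s = (α / s - 1) / lam` (`G (𝔓 ∩ F) s`) is congruent to a constant `[j]`, `j = Φ(𝔓) ∈ ℤ/p`; `Φ`
agrees on sheets through a common closed point, hence is constant (`chart_sheet_const_rad`); an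
automorphism `τ` with `τ α = ζ ^ m α` shifts `Φ` by `m`.
-/
import Fermat.Agent.NP.KUMP_helper5_Local
import Fermat.Agent.NP.KUMP_helper5_Sheet
import Fermat.Agent.SS.KUM_helper3_Lift

set_option autoImplicit false
set_option linter.unusedSectionVars false
set_option linter.style.haveILetI false

namespace Fermat.Agent.NP

open Fermat.Agent.JA Fermat.Agent.SS Polynomial Finset

section Through

variable {R : Type*} [CommRing R] {F : Type*} [Field F] [Algebra R F]

/-- the prime `𝔮` of `B'` passes through the point `𝔫` of `B`. -/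
def Through (B B' : Subalgebra R F) (𝔫 : Ideal ↥B) (𝔮 : Ideal ↥B') : Prop :=
  ∀ x : ↥B, ∀ hx : (x : F) ∈ B', (⟨(x : F), hx⟩ : ↥B') ∈ 𝔮 → x ∈ 𝔫

theorem through_of_comap_le {B B' : Subalgebra R F} (hle : B ≤ B') {𝔫 : Ideal ↥B}
    {𝔮 : Ideal ↥B'} (h : 𝔮.comap (Subalgebra.inclusion hle) ≤ 𝔫) : Through B B' 𝔫 𝔮 :=
  fun x _ hmem => h hmem

end Through

section Main

variable {R : Type*} [CommRing R] [IsDomain R] [IsIntegrallyClosed R] [IsNoetherianRing R]
  [CharZero R] {K₁ : Type*} [Field K₁] [Algebra R K₁]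
  [IsFractionRing R K₁] {K : Type*} [Field K] [Algebra K₁ K] [Algebra R K] [IsScalarTower R K₁ K]
  {F : Type*} [Field F] [Algebra K F] [Algebra R F] [IsScalarTower R K F] [FiniteDimensional K F]
  {L : Type*} [Field L] [Algebra K L] [Algebra K₁ L] [IsScalarTower K₁ K L] [Algebra R L]
  [IsScalarTower R K L] [Algebra F L] [IsScalarTower K F L] [FiniteDimensional K L]

/-- the data of the core argument. -/
structure KumPData (K₁ : Type*) [Field K₁] [Algebra R K₁] [IsFractionRing R K₁] [Algebra K₁ K]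
    [IsScalarTower R K₁ K] [Algebra K₁ L] [IsScalarTower K₁ K L]
    (t : K) (π : R) (p : ℕ) (ζ : R) (h : F) (α : L)
    (G : Ideal ↥(chartMid R F t) → F → Prop) : Prop where
  ht : Transcendental K₁ t
  hK : IntermediateField.adjoin K₁ {t} = ⊤
  hπ : Prime π
  hp : p.Prime
  hζ : IsPrimitiveRoot ζ p
  hh : h ≠ 0
  hGdeep : ∀ (𝔮 : Ideal ↥(chartMid R F t)) (s : F), 𝔮.IsPrime →
    algebraMap R ↥(chartMid R F t) π ∈ 𝔮 → G 𝔮 s → DeepRootAt (chartMid R F t) p ζ π h 𝔮 s
  hGnear : ∀ (𝔮 : Ideal ↥(chartMid R F t)) (s s' : F), 𝔮.IsPrime →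
    algebraMap R ↥(chartMid R F t) π ∈ 𝔮 → G 𝔮 s → G 𝔮 s' → NearAt (chartMid R F t) ζ π 𝔮 s s'
  hb₁ : ∀ 𝔫 : Ideal ↥(chartOne R F t), 𝔫.IsMaximal → algebraMap R ↥(chartOne R F t) π ∈ 𝔫 →
    ∃ s : F, DeepRootAt (chartOne R F t) p ζ π h 𝔫 s ∧
      ∀ 𝔮 : Ideal ↥(chartMid R F t), 𝔮.IsPrime → algebraMap R ↥(chartMid R F t) π ∈ 𝔮 →
        Through (chartOne R F t) (chartMid R F t) 𝔫 𝔮 → G 𝔮 s
  hb₂ : ∀ 𝔫 : Ideal ↥(chartOne R F t⁻¹), 𝔫.IsMaximal →
    algebraMap R ↥(chartOne R F t⁻¹) π ∈ 𝔫 →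
    ∃ s : F, DeepRootAt (chartOne R F t⁻¹) p ζ π h 𝔫 s ∧
      ∀ 𝔮 : Ideal ↥(chartMid R F t), 𝔮.IsPrime → algebraMap R ↥(chartMid R F t) π ∈ 𝔮 →
        Through (chartOne R F t⁻¹) (chartMid R F t) 𝔫 𝔮 → G 𝔮 s
  hα : α ^ p = algebraMap F L h
  hM4 : ∀ x : L, IsAlgebraic K₁ x → x ∈ Set.range (algebraMap K₁ L)
  hT₁ : ∀ 𝔮 ∈ (Ideal.span {algebraMap R ↥(chartOne R L t) π}).minimalPrimes,
    (⟨algebraMap K L t, algebraMap_coord_mem_chartOne t⟩ : ↥(chartOne R L t)) ∉ 𝔮
  hT₂ : ∀ 𝔮 ∈ (Ideal.span {algebraMap R ↥(chartOne R L t⁻¹) π}).minimalPrimes,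
    (⟨algebraMap K L t⁻¹, algebraMap_coord_mem_chartOne t⁻¹⟩ : ↥(chartOne R L t⁻¹)) ∉ 𝔮

end Main

section Maps

variable {R : Type*} [CommRing R] [IsDomain R] {K : Type*} [Field K] [Algebra R K]
  {F : Type*} [Field F] [Algebra K F] [Algebra R F] [IsScalarTower R K F]
  {L : Type*} [Field L] [Algebra K L] [Algebra R L] [IsScalarTower R K L] [Algebra F L]
  [IsScalarTower K F L]

theorem algebraMap_mem_chartMid (t : K) {x : F} (hx : x ∈ chartMid R F t) :
    algebraMap F L x ∈ chartMid R L t := by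
  obtain ⟨n, hn⟩ := hx
  refine ⟨n, ?_⟩
  have : algebraMap K L t ^ n * algebraMap F L x = algebraMap F L (algebraMap K F t ^ n * x) := by
    rw [map_mul, map_pow, ← IsScalarTower.algebraMap_apply K F L]
  rw [this]
  exact (algebraMap_mem_chartOne_iff t _).2 hn

/-- the middle ring of `F` into the middle ring of `L`. -/
def midMid (t : K) : ↥(chartMid R F t) →+* ↥(chartMid R L t) where
  toFun x := ⟨algebraMap F L x, algebraMap_mem_chartMid t x.2⟩
  map_one' := Subtype.ext (by simp)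
  map_mul' x y := Subtype.ext (by simp)
  map_zero' := Subtype.ext (by simp)
  map_add' x y := Subtype.ext (by simp)

theorem coe_midMid (t : K) (x : ↥(chartMid R F t)) :
    ((midMid (L := L) t x : ↥(chartMid R L t)) : L) = algebraMap F L (x : F) := rfl

theorem midMid_algebraMap (t : K) (r : R) :
    midMid (L := L) t (algebraMap R ↥(chartMid R F t) r) = algebraMap R ↥(chartMid R L t) r := by
  apply Subtype.ext
  change algebraMap F L (algebraMap R F r) = algebraMap R L r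
  exact algebraMap_algebraMap_eq (K := K) r

theorem midMid_inclusion (t : K) (x : ↥(chartOne R F t)) :
    midMid (L := L) t (Subalgebra.inclusion (chartOne_le_chartMid t) x) = midMap (L := L) t x :=
  rfl

theorem midAut_midMid (t : K) (τ : L ≃ₐ[F] L) (x : ↥(chartMid R F t)) :
    midAut (R := R) t τ (midMid (L := L) t x) = midMid (L := L) t x := by
  apply Subtype.ext
  change τ (algebraMap F L (x : F)) = algebraMap F L (x : F)
  exact τ.commutes _

/-- the coordinate, as a unit of the middle ring. -/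
theorem coord_pow_mul_notMem (t : K) (ht0 : t ≠ 0) (𝔮 : Ideal ↥(chartMid R F t)) [h𝔮 : 𝔮.IsPrime]
    (k : ℕ) (x : ↥(chartMid R F t)) (hx : x ∉ 𝔮) (y : ↥(chartMid R F t))
    (hy : (y : F) = algebraMap K F t ^ k * (x : F)) : y ∉ 𝔮 := by
  have htF : algebraMap K F t ≠ 0 := by rw [Ne, map_eq_zero]; exact ht0
  set tm : ↥(chartMid R F t) :=
    ⟨algebraMap K F t, chartOne_le_chartMid t (algebraMap_coord_mem_chartOne t)⟩ with htm
  have hy' : y = tm ^ k * x := Subtype.ext (by rw [hy]; rfl)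
  intro hmem
  rw [hy'] at hmem
  rcases h𝔮.mem_or_mem hmem with h1 | h1
  · have h2 := h𝔮.mem_of_pow_mem _ h1
    apply h𝔮.ne_top
    rw [Ideal.eq_top_iff_one]
    have h3 : (1 : ↥(chartMid R F t)) =
        tm * ⟨(algebraMap K F t)⁻¹, inv_coord_mem_chartMid t ht0⟩ := by
      apply Subtype.ext
      change (1 : F) = algebraMap K F t * (algebraMap K F t)⁻¹
      rw [mul_inv_cancel₀ htF]
    rw [h3]
    exact 𝔮.mul_mem_right _ h2
  · exact hx h1

/-- a deep root at a prime of the middle ring, with data in the first chart. -/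
theorem deepRoot_normalise (t : K) (ht0 : t ≠ 0) {p : ℕ} {ζ π : R} {h : F}
    (𝔮 : Ideal ↥(chartMid R F t)) [h𝔮 : 𝔮.IsPrime] {s : F}
    (hs : DeepRootAt (chartMid R F t) p ζ π h 𝔮 s) :
    s ≠ 0 ∧ ∃ d r : ↥(chartOne R F t), Subalgebra.inclusion (chartOne_le_chartMid t) d ∉ 𝔮 ∧
      h * (d : F) = s ^ p * ((d : F) + algebraMap R F ((ζ - 1) ^ p * π) * (r : F)) := by
  obtain ⟨hs0, d, r, hd, hdr⟩ := hs
  obtain ⟨n, hn⟩ := d.2
  obtain ⟨n', hn'⟩ := r.2
  have hdn := pow_mul_mem_chartOne_of_le t (le_max_left n n') hn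
  have hrn := pow_mul_mem_chartOne_of_le t (le_max_right n n') hn'
  set k := max n n' with hk
  refine ⟨hs0, ⟨_, hdn⟩, ⟨_, hrn⟩, ?_, ?_⟩
  · exact coord_pow_mul_notMem t ht0 𝔮 k d hd _ rfl
  · change h * (algebraMap K F t ^ k * (d : F)) = s ^ p * (algebraMap K F t ^ k * (d : F) +
      algebraMap R F ((ζ - 1) ^ p * π) * (algebraMap K F t ^ k * (r : F)))
    linear_combination (algebraMap K F t ^ k) * hdr

/-- nearness at a prime of the middle ring, with data in the first chart. -/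
theorem nearAt_normalise (t : K) (ht0 : t ≠ 0) {ζ π : R}
    (𝔮 : Ideal ↥(chartMid R F t)) [h𝔮 : 𝔮.IsPrime] {s s' : F}
    (hs : NearAt (chartMid R F t) ζ π 𝔮 s s') :
    ∃ q w : ↥(chartOne R F t), Subalgebra.inclusion (chartOne_le_chartMid t) q ∉ 𝔮 ∧
      s * (q : F) = s' * ((q : F) + algebraMap R F ((ζ - 1) * π) * (w : F)) := by
  obtain ⟨q, w, hq, hqw⟩ := hs
  obtain ⟨n, hn⟩ := q.2
  obtain ⟨n', hn'⟩ := w.2
  have hqn := pow_mul_mem_chartOne_of_le t (le_max_left n n') hn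
  have hwn := pow_mul_mem_chartOne_of_le t (le_max_right n n') hn'
  set k := max n n' with hk
  refine ⟨⟨_, hqn⟩, ⟨_, hwn⟩, ?_, ?_⟩
  · exact coord_pow_mul_notMem t ht0 𝔮 k q hq _ rfl
  · change s * (algebraMap K F t ^ k * (q : F)) = s' * (algebraMap K F t ^ k * (q : F) +
      algebraMap R F ((ζ - 1) * π) * (algebraMap K F t ^ k * (w : F)))
    linear_combination (algebraMap K F t ^ k) * hqw

end Maps

section Cong

variable {R : Type*} [CommRing R] {L : Type*} [CommRing L] [Algebra R L]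
  {B : Subalgebra R L} {𝔔 : Ideal ↥B}

/-- addition of a constant. -/
theorem congAt_add_const {z : L} {ξ : R} (h : CongAt B 𝔔 z ξ) (c : R) :
    CongAt B 𝔔 (z + algebraMap R L c) (ξ + c) := by
  obtain ⟨a, b, hb, hz, hab⟩ := h
  refine ⟨a + algebraMap R ↥B c * b, b, hb, ?_, ?_⟩
  · push_cast
    rw [← hz]
    ring
  · have : a + algebraMap R ↥B c * b - algebraMap R ↥B (ξ + c) * b =
        a - algebraMap R ↥B ξ * b := by
      rw [map_add]; ring
    rw [this]
    exact hab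

end Cong

section Labels

variable {R : Type*} [CommRing R] [IsDomain R] {K : Type*} [Field K] [Algebra R K]
  {F : Type*} [Field F] [Algebra K F] [Algebra R F] [IsScalarTower R K F]
  {L : Type*} [Field L] [Algebra K L] [Algebra R L] [IsScalarTower R K L] [Algebra F L]
  [IsScalarTower K F L]

/-- **existence of the label** at a prime `𝔔 ∋ π` of a subalgebra `B̃ ⊇` chart of `L`. -/
theorem exists_label_of_deep (τ : K) {B' : Subalgebra R L} (hle : chartOne R L τ ≤ B')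
    {p : ℕ} (hp : 1 < p) {ζ : R} (hζ : IsPrimitiveRoot ζ p)
    (hinj : Function.Injective (algebraMap R L)) (π : R)
    (h : F) (α : L) (hα : α ^ p = algebraMap F L h) (s : F) (hs : s ≠ 0)
    (d r : ↥(chartOne R F τ))
    (hd : h * (d : F) = s ^ p * ((d : F) + algebraMap R F ((ζ - 1) ^ p * π) * (r : F)))
    (𝔔 : Ideal ↥B') [h𝔔 : 𝔔.IsPrime] (hπ𝔔 : algebraMap R ↥B' π ∈ 𝔔)
    (hd𝔔 : Subalgebra.inclusion hle (chartMap (L := L) τ d) ∉ 𝔔) :
    ∃ j < p, CongAt B' 𝔔 (asElt ζ α s) (qInt ζ j) := by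
  obtain ⟨a, ha, hprod⟩ := deep_local τ hp hζ hinj π h α hα s hs d r hd
  set A : ↥B' := Subalgebra.inclusion hle a with hA
  set E : ↥B' := Subalgebra.inclusion hle (chartMap (L := L) τ d) with hE
  have hprod' : ∏ i ∈ range p, (A - qInt (algebraMap R ↥B' ζ) i * E) ∈ 𝔔 := by
    have h1 := congrArg (Subalgebra.inclusion hle) hprod
    rw [map_prod] at h1
    have h2 : ∏ i ∈ range p, (A - qInt (algebraMap R ↥B' ζ) i * E) =
        ∏ i ∈ range p, Subalgebra.inclusion hle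
          (a - algebraMap R ↥(chartOne R L τ) (qInt ζ i) * chartMap τ d) := by
      refine prod_congr rfl fun i _ => ?_
      rw [map_sub, map_mul, ← map_qInt]
      rfl
    rw [h2, h1, map_mul]
    exact 𝔔.mul_mem_right _ hπ𝔔
  obtain ⟨j, hj, hmem⟩ := exists_label 𝔔 A E hprod'
  refine ⟨j, hj, CongAt.of_mem A E hd𝔔 ?_ ?_⟩
  · change asElt ζ α s * algebraMap F L (d : F) = (a : L)
    exact ha
  · rw [map_qInt]
    exact hmem

/-- **uniqueness of the label.** -/
theorem label_eq_of_congAt {B' : Subalgebra R L} {p : ℕ} (hp : p.Prime) {ζ : R}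
    (hζ : IsPrimitiveRoot ζ p) (𝔔 : Ideal ↥B') [h𝔔 : 𝔔.IsPrime] {z : L} {i j : ℕ} (hi : i < p)
    (hj : j < p) (h1 : CongAt B' 𝔔 z (qInt ζ i)) (h2 : CongAt B' 𝔔 z (qInt ζ j)) : i = j := by
  by_contra hij
  have hmem := h2.sub_mem h1
  have hu : IsUnit (algebraMap R ↥B' (qInt ζ j - qInt ζ i)) :=
    (isUnit_qInt_sub_qInt hζ hp hi hj hij).map _
  exact h𝔔.ne_top (Ideal.eq_top_of_isUnit_mem _ hmem hu)

/-- **transfer of the label along nearness.** -/
theorem congAt_of_near (τ : K) {B' : Subalgebra R L} (hle : chartOne R L τ ≤ B')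
    {p : ℕ} (hp : 1 < p) {ζ : R} (hζ : IsPrimitiveRoot ζ p)
    (hinj : Function.Injective (algebraMap R L)) (π : R) (α : L)
    (𝔔 : Ideal ↥B') [h𝔔 : 𝔔.IsPrime] (hπ𝔔 : algebraMap R ↥B' π ∈ 𝔔) {s s' : F} (hs : s ≠ 0)
    (hs' : s' ≠ 0) (q w : ↥(chartOne R F τ))
    (hq : Subalgebra.inclusion hle (chartMap (L := L) τ q) ∉ 𝔔)
    (hqw : s * (q : F) = s' * ((q : F) + algebraMap R F ((ζ - 1) * π) * (w : F))) {ξ : R}
    (h : CongAt B' 𝔔 (asElt ζ α s) ξ) : CongAt B' 𝔔 (asElt ζ α s') ξ := by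
  obtain ⟨a, e, he, hz, hae⟩ := h
  set Q : ↥B' := Subalgebra.inclusion hle (chartMap (L := L) τ q) with hQ
  set W : ↥B' := Subalgebra.inclusion hle (chartMap (L := L) τ w) with hW
  have hζL : IsPrimitiveRoot (algebraMap R L ζ) p := hζ.map_of_injective hinj
  have hlam : algebraMap R L (ζ - 1) ≠ 0 := by
    rw [map_sub, map_one]; exact sub_ne_zero.2 (hζL.ne_one hp)
  have hsL : algebraMap F L s ≠ 0 := by
    rw [Ne, map_eq_zero_iff _ (algebraMap F L).injective]; exact hs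
  have hsL' : algebraMap F L s' ≠ 0 := by
    rw [Ne, map_eq_zero_iff _ (algebraMap F L).injective]; exact hs'
  have hqwL : algebraMap F L s * algebraMap F L (q : F) = algebraMap F L s' *
      (algebraMap F L (q : F) + algebraMap R L (ζ - 1) * algebraMap R L π *
        algebraMap F L (w : F)) := by
    have := congrArg (algebraMap F L) hqw
    rw [map_mul, map_mul, map_add, map_mul, algebraMap_algebraMap_eq (K := K), map_mul] at this
    exact this
  refine ⟨a * Q + (e + algebraMap R ↥B' (ζ - 1) * a) * (algebraMap R ↥B' π * W), Q * e, ?_, ?_, ?_⟩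
  · intro hmem
    rcases h𝔔.mem_or_mem hmem with h1 | h1
    · exact hq h1
    · exact he h1
  · change asElt ζ α s' * (algebraMap F L (q : F) * (e : L)) =
      (a : L) * algebraMap F L (q : F) + ((e : L) + algebraMap R L (ζ - 1) * (a : L)) *
        (algebraMap R L π * algebraMap F L (w : F))
    rw [← hz]
    unfold asElt
    field_simp
    linear_combination ((e : L) * α) * hqwL
  · have : a * Q + (e + algebraMap R ↥B' (ζ - 1) * a) * (algebraMap R ↥B' π * W) -
        algebraMap R ↥B' ξ * (Q * e) = (a - algebraMap R ↥B' ξ * e) * Q +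
          algebraMap R ↥B' π * ((e + algebraMap R ↥B' (ζ - 1) * a) * W) := by ring
    rw [this]
    exact 𝔔.add_mem (𝔔.mul_mem_right _ hae) (𝔔.mul_mem_right _ hπ𝔔)

end Labels

section Fixed

variable {R : Type*} [CommRing R] [IsDomain R] [IsIntegrallyClosed R] [IsNoetherianRing R]
  [CharZero R] {K₁ : Type*} [Field K₁] [Algebra R K₁]
  [IsFractionRing R K₁] {K : Type*} [Field K] [Algebra K₁ K] [Algebra R K] [IsScalarTower R K₁ K]
  {F : Type*} [Field F] [Algebra K F] [Algebra R F] [IsScalarTower R K F] [FiniteDimensional K F]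
  {L : Type*} [Field L] [Algebra K L] [Algebra K₁ L] [IsScalarTower K₁ K L] [Algebra R L]
  [IsScalarTower R K L] [Algebra F L] [IsScalarTower K F L] [FiniteDimensional K L]
  {t : K} {π : R} {p : ℕ} {ζ : R} {h : F} {α : L} {G : Ideal ↥(chartMid R F t) → F → Prop}

theorem KumPData.ht0 (D : KumPData K₁ t π p ζ h α G) : t ≠ 0 :=
  fun h0 => D.ht (h0 ▸ isAlgebraic_zero)

theorem KumPData.injL (_D : KumPData K₁ t π p ζ h α G) : Function.Injective (algebraMap R L) :=
  algebraMap_injective_of_tower (K₁ := K₁) (K := K)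

theorem KumPData.sheet_prime (_D : KumPData K₁ t π p ζ h α G) (s : SheetOf R L t π) :
    (s.1).IsPrime := s.2.1.1

theorem KumPData.pi_mem_sheet (_D : KumPData K₁ t π p ζ h α G) (s : SheetOf R L t π) :
    algebraMap R ↥(chartMid R L t) π ∈ s.1 :=
  s.2.1.2 (Ideal.subset_span (Set.mem_singleton _))

/-- the prime of the middle ring of `F` below a sheet. -/
def sheetBelow (s : SheetOf R L t π) : Ideal ↥(chartMid R F t) := (s.1).comap (midMid (L := L) t)

theorem KumPData.sheetBelow_prime (D : KumPData K₁ t π p ζ h α G) (s : SheetOf R L t π) :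
    (sheetBelow (F := F) s).IsPrime := by
  haveI := D.sheet_prime s
  exact Ideal.comap_isPrime _ _

theorem KumPData.pi_mem_sheetBelow (D : KumPData K₁ t π p ζ h α G) (s : SheetOf R L t π) :
    algebraMap R ↥(chartMid R F t) π ∈ sheetBelow (F := F) s := by
  change midMid (L := L) t (algebraMap R ↥(chartMid R F t) π) ∈ s.1
  rw [midMid_algebraMap]
  exact D.pi_mem_sheet s

/-- every sheet carries a coherent root. -/
theorem KumPData.exists_good (D : KumPData K₁ t π p ζ h α G) (s : SheetOf R L t π) :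
    ∃ s₀ : F, G (sheetBelow (F := F) s) s₀ := by
  haveI := D.sheet_prime s
  have hne : (s.1).comap (Subalgebra.inclusion (chartOne_le_chartMid (R := R) (E := L) t)) ≠ ⊤ :=
    (Ideal.comap_isPrime _ _).ne_top
  obtain ⟨𝔑, h𝔑, hle⟩ := Ideal.exists_le_maximal _ hne
  haveI := h𝔑
  have hπ𝔑 : algebraMap R ↥(chartOne R L t) π ∈ 𝔑 := by
    apply hle
    rw [Ideal.mem_comap]
    exact D.pi_mem_sheet s
  have hmax := comap_chartMap_isMaximal (F := F) t 𝔑
  obtain ⟨s₀, -, hG⟩ := D.hb₁ _ hmax (by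
    rw [Ideal.mem_comap, chartMap_algebraMap]
    exact hπ𝔑)
  refine ⟨s₀, hG _ (D.sheetBelow_prime s) (D.pi_mem_sheetBelow s) ?_⟩
  intro x hx hmem
  rw [Ideal.mem_comap]
  apply hle
  rw [Ideal.mem_comap]
  exact hmem

/-- the label of a coherent root at a sheet. -/
theorem KumPData.exists_label_of_good (D : KumPData K₁ t π p ζ h α G) (s : SheetOf R L t π)
    (s₀ : F) (hs₀ : G (sheetBelow (F := F) s) s₀) :
    ∃ j < p, CongAt (chartMid R L t) s.1 (asElt ζ α s₀) (qInt ζ j) := by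
  haveI := D.sheet_prime s
  haveI := D.sheetBelow_prime s
  obtain ⟨hs0, d, r, hd, hdr⟩ := deepRoot_normalise t D.ht0 _
    (D.hGdeep _ s₀ (D.sheetBelow_prime s) (D.pi_mem_sheetBelow s) hs₀)
  exact exists_label_of_deep t (chartOne_le_chartMid t) D.hp.one_lt D.hζ D.injL π h α D.hα s₀ hs0
    d r hdr s.1 (D.pi_mem_sheet s) hd

/-- **the label of a sheet.** -/
theorem KumPData.exists_const (D : KumPData K₁ t π p ζ h α G) (s : SheetOf R L t π) :
    ∃ j < p, ∀ s₀ : F, G (sheetBelow (F := F) s) s₀ →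
      CongAt (chartMid R L t) s.1 (asElt ζ α s₀) (qInt ζ j) := by
  haveI := D.sheet_prime s
  haveI := D.sheetBelow_prime s
  obtain ⟨s₁, hs₁⟩ := D.exists_good s
  obtain ⟨j, hj, hcong⟩ := D.exists_label_of_good s s₁ hs₁
  refine ⟨j, hj, fun s₀ hs₀ => ?_⟩
  have hnear := D.hGnear _ s₁ s₀ (D.sheetBelow_prime s) (D.pi_mem_sheetBelow s) hs₁ hs₀
  obtain ⟨q, w, hq, hqw⟩ := nearAt_normalise t D.ht0 _ hnear
  have h1 := (D.hGdeep _ s₁ (D.sheetBelow_prime s) (D.pi_mem_sheetBelow s) hs₁).1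
  have h0 := (D.hGdeep _ s₀ (D.sheetBelow_prime s) (D.pi_mem_sheetBelow s) hs₀).1
  exact congAt_of_near t (chartOne_le_chartMid t) D.hp.one_lt D.hζ D.injL π α s.1
    (D.pi_mem_sheet s) h1 h0 q w hq hqw hcong

/-- **incidence**: the labels of two sheets through a common closed point agree. -/
theorem KumPData.incidence (D : KumPData K₁ t π p ζ h α G) (τ : K)
    (hle : chartOne R L τ ≤ chartMid R L t)
    (𝔑 : Ideal ↥(chartOne R L τ)) [h𝔑 : 𝔑.IsPrime]
    (hπ𝔑 : algebraMap R ↥(chartOne R L τ) π ∈ 𝔑)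
    (𝔓 𝔓' : Ideal ↥(chartMid R L t)) [𝔓.IsPrime] [𝔓'.IsPrime]
    (h𝔓 : 𝔓.comap (Subalgebra.inclusion hle) ≤ 𝔑)
    (h𝔓' : 𝔓'.comap (Subalgebra.inclusion hle) ≤ 𝔑)
    (s₀ : F) (hs0 : s₀ ≠ 0) (d r : ↥(chartOne R F τ)) (hd𝔑 : chartMap (L := L) τ d ∉ 𝔑)
    (hdr : h * (d : F) = s₀ ^ p * ((d : F) + algebraMap R F ((ζ - 1) ^ p * π) * (r : F)))
    {j j' : ℕ} (hj : j < p) (hj' : j' < p)
    (hc : CongAt (chartMid R L t) 𝔓 (asElt ζ α s₀) (qInt ζ j))
    (hc' : CongAt (chartMid R L t) 𝔓' (asElt ζ α s₀) (qInt ζ j')) : j = j' := by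
  obtain ⟨a, ha, hprod⟩ := deep_local τ D.hp.one_lt D.hζ D.injL π h α D.hα s₀ hs0 d r hdr
  set E : ↥(chartOne R L τ) := chartMap (L := L) τ d with hE
  have hprod' : ∏ i ∈ range p, (a - qInt (algebraMap R ↥(chartOne R L τ) ζ) i * E) ∈ 𝔑 := by
    have h2 : ∏ i ∈ range p, (a - qInt (algebraMap R ↥(chartOne R L τ) ζ) i * E) =
        ∏ i ∈ range p, (a - algebraMap R ↥(chartOne R L τ) (qInt ζ i) * chartMap τ d) := by
      refine prod_congr rfl fun i _ => ?_
      rw [← map_qInt]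
    rw [h2, hprod]
    exact 𝔑.mul_mem_right _ hπ𝔑
  obtain ⟨j₀, hj₀, hmem₀⟩ := exists_label 𝔑 a E hprod'
  have hζ' : IsPrimitiveRoot (algebraMap R ↥(chartOne R L τ) ζ) p := by
    refine D.hζ.map_of_injective ?_
    intro x y hxy
    apply D.injL
    have := congrArg (fun w : ↥(chartOne R L τ) => (w : L)) hxy
    exact this
  have key : ∀ (𝔔 : Ideal ↥(chartMid R L t)) [𝔔.IsPrime],
      𝔔.comap (Subalgebra.inclusion hle) ≤ 𝔑 → ∀ i < p,
      CongAt (chartMid R L t) 𝔔 (asElt ζ α s₀) (qInt ζ i) → i = j₀ := by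
    intro 𝔔 _ h𝔔 i hi hci
    have hmem := hci.mem_of_mul_eq (Subalgebra.inclusion hle a) (Subalgebra.inclusion hle E) ha
    have hmem' : a - qInt (algebraMap R ↥(chartOne R L τ) ζ) i * E ∈ 𝔑 := by
      apply h𝔔
      rw [Ideal.mem_comap, map_sub, map_mul, ← map_qInt]
      exact hmem
    exact label_unique hζ' D.hp 𝔑 a E hd𝔑 hi hj₀ hmem' hmem₀
  rw [key 𝔓 h𝔓 j hj hc, key 𝔓' h𝔓' j' hj' hc']

/-- **main theorem of [KUMP] (core, abstract `L`)**: every `F`-automorphism of `L` fixes `α`. -/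
theorem KumPData.fixed (D : KumPData K₁ t π p ζ h α G) (τ : L ≃ₐ[F] L) : τ α = α := by
  classical
  have ht0 := D.ht0
  have hinjL := D.injL
  have hp1 := D.hp.one_lt
  choose Φ hΦlt hΦ using D.exists_const
  have hconst : ∀ s s' : SheetOf R L t π, Φ s = Φ s' := by
    refine chart_sheet_const_rad t D.ht D.hK π D.hπ D.hM4 D.hT₁ D.hT₂ Φ ?_ ?_
    · intro 𝔑 h𝔑 s s' hs hs'
      haveI := h𝔑
      haveI := D.sheet_prime s
      haveI := D.sheet_prime s'
      have hπ𝔑 : algebraMap R ↥(chartOne R L t) π ∈ 𝔑 := by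
        apply hs
        rw [Ideal.mem_comap]
        exact D.pi_mem_sheet s
      have hmax := comap_chartMap_isMaximal (F := F) t 𝔑
      obtain ⟨s₀, ⟨hs0, d, r, hd, hdr⟩, hG⟩ := D.hb₁ _ hmax (by
        rw [Ideal.mem_comap, chartMap_algebraMap]
        exact hπ𝔑)
      have hthr : ∀ s'' : SheetOf R L t π,
          (s''.1).comap (Subalgebra.inclusion (chartOne_le_chartMid t)) ≤ 𝔑 →
          Through (chartOne R F t) (chartMid R F t) (𝔑.comap (chartMap (F := F) t))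
            (sheetBelow (F := F) s'') := by
        intro s'' hs'' x hx hmem
        rw [Ideal.mem_comap]
        apply hs''
        rw [Ideal.mem_comap]
        exact hmem
      have hGs := hG _ (D.sheetBelow_prime s) (D.pi_mem_sheetBelow s) (hthr s hs)
      have hGs' := hG _ (D.sheetBelow_prime s') (D.pi_mem_sheetBelow s') (hthr s' hs')
      exact D.incidence t (chartOne_le_chartMid t) 𝔑 hπ𝔑 s.1 s'.1 hs hs' s₀ hs0 d r hd hdr
        (hΦlt s) (hΦlt s') (hΦ s s₀ hGs) (hΦ s' s₀ hGs')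
    · intro 𝔑 h𝔑 s s' hs hs'
      haveI := h𝔑
      haveI := D.sheet_prime s
      haveI := D.sheet_prime s'
      have hπ𝔑 : algebraMap R ↥(chartOne R L t⁻¹) π ∈ 𝔑 := by
        apply hs
        rw [Ideal.mem_comap]
        exact D.pi_mem_sheet s
      have hmax := comap_chartMap_isMaximal (F := F) t⁻¹ 𝔑
      obtain ⟨s₀, ⟨hs0, d, r, hd, hdr⟩, hG⟩ := D.hb₂ _ hmax (by
        rw [Ideal.mem_comap, chartMap_algebraMap]
        exact hπ𝔑)
      have hthr : ∀ s'' : SheetOf R L t π,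
          (s''.1).comap (Subalgebra.inclusion (chartOne_inv_le_chartMid t ht0)) ≤ 𝔑 →
          Through (chartOne R F t⁻¹) (chartMid R F t) (𝔑.comap (chartMap (F := F) t⁻¹))
            (sheetBelow (F := F) s'') := by
        intro s'' hs'' x hx hmem
        rw [Ideal.mem_comap]
        apply hs''
        rw [Ideal.mem_comap]
        exact hmem
      have hGs := hG _ (D.sheetBelow_prime s) (D.pi_mem_sheetBelow s) (hthr s hs)
      have hGs' := hG _ (D.sheetBelow_prime s') (D.pi_mem_sheetBelow s') (hthr s' hs')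
      exact D.incidence t⁻¹ (chartOne_inv_le_chartMid t ht0) 𝔑 hπ𝔑 s.1 s'.1 hs hs' s₀ hs0 d r hd
        hdr (hΦlt s) (hΦlt s') (hΦ s s₀ hGs) (hΦ s' s₀ hGs')
  -- the Galois step
  obtain ⟨s₀⟩ := nonempty_sheetOf_rad t D.ht D.hK π D.hπ D.hM4 D.hT₁ D.hT₂
  haveI := D.sheet_prime s₀
  obtain ⟨r₀, hr₀⟩ := D.exists_good s₀
  have hmin : (s₀.1).comap (midAut (R := R) t τ) ∈
      (Ideal.span {algebraMap R ↥(chartMid R L t) π}).minimalPrimes :=
    comap_mem_minimalPrimes_of_inverse (midAut (R := R) t τ) (midAut (R := R) t τ⁻¹)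
      (midAut_inv t τ) (midAut_inv' t τ) _ (midAut_algebraMap t τ π) (midAut_algebraMap t τ⁻¹ π)
      s₀.1 s₀.2
  set s' : SheetOf R L t π := ⟨_, hmin⟩ with hs'
  have hbelow : sheetBelow (F := F) s' = sheetBelow (F := F) s₀ := by
    ext x
    change midAut (R := R) t τ (midMid (L := L) t x) ∈ s₀.1 ↔ midMid (L := L) t x ∈ s₀.1
    rw [midAut_midMid]
  have h1 := hΦ s' r₀ (by rw [hbelow]; exact hr₀)
  rw [hconst s' s₀] at h1
  have h2 : CongAt (chartMid R L t) s₀.1 ((τ : L →+* L) (asElt ζ α r₀)) (qInt ζ (Φ s₀)) :=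
    CongAt.map (τ : L →+* L) (midAut (R := R) t τ) (coe_midAut t τ) (midAut_algebraMap t τ) h1
  have h3 := hΦ s₀ r₀ hr₀
  have hr0 : r₀ ≠ 0 :=
    (D.hGdeep _ r₀ (D.sheetBelow_prime s₀) (D.pi_mem_sheetBelow s₀) hr₀).1
  have hrL : algebraMap F L r₀ ≠ 0 := by
    rw [Ne, map_eq_zero_iff _ (algebraMap F L).injective]; exact hr0
  have hα0 : α ≠ 0 := by
    intro h0
    have h' := D.hα
    rw [h0, zero_pow D.hp.ne_zero] at h'
    exact D.hh ((map_eq_zero_iff _ (algebraMap F L).injective).1 h'.symm)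
  have hω : (τ α / α) ^ p = 1 := by
    rw [div_pow, ← map_pow, D.hα, τ.commutes, div_self]
    rw [← D.hα]
    exact pow_ne_zero _ hα0
  have hζL : IsPrimitiveRoot (algebraMap R L ζ) p := D.hζ.map_of_injective hinjL
  haveI : NeZero p := ⟨D.hp.ne_zero⟩
  obtain ⟨m, hm, hωm⟩ := hζL.eq_pow_of_pow_eq_one hω
  have hlam : algebraMap R L (ζ - 1) ≠ 0 := by
    rw [map_sub, map_one]; exact sub_ne_zero.2 (hζL.ne_one hp1)
  have hτR : ∀ x : R, τ (algebraMap R L x) = algebraMap R L x := by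
    intro x
    rw [← algebraMap_algebraMap_eq (K := K) (F := F) (L := L) x, τ.commutes]
  have hτα : τ α = algebraMap R L ζ ^ m * α := by
    rw [hωm]; field_simp
  have h4 : (τ : L →+* L) (asElt ζ α r₀) =
      algebraMap R L (ζ ^ m) * asElt ζ α r₀ + algebraMap R L (qInt ζ m) := by
    change τ (asElt ζ α r₀) = _
    unfold asElt
    rw [map_div₀, map_sub, map_div₀, map_one, τ.commutes, hτR, hτα]
    have hq : algebraMap R L (qInt ζ m) * algebraMap R L (ζ - 1) = algebraMap R L ζ ^ m - 1 := by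
      rw [← map_mul, qInt_mul_sub_one, map_sub, map_pow, map_one]
    rw [map_pow]
    field_simp
    linear_combination (-(algebraMap F L r₀)) * hq
  rw [h4] at h2
  have h5 := congAt_add_const (h3.const_mul (ζ ^ m)) (qInt ζ m)
  have h6 := h5.sub_mem h2
  have h7 : ζ ^ m * qInt ζ (Φ s₀) + qInt ζ m - qInt ζ (Φ s₀) = ζ ^ Φ s₀ * qInt ζ m := by
    have e1 := qInt_add ζ (Φ s₀) m
    have e2 := qInt_add' ζ (Φ s₀) m
    linear_combination e1 - e2
  rw [h7] at h6
  have hm0 : m = 0 := by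
    by_contra hm0
    have hu : IsUnit (ζ ^ Φ s₀ * qInt ζ m) := by
      refine IsUnit.mul ((D.hζ.isUnit D.hp.ne_zero).pow _) (isUnit_qInt D.hζ D.hp ?_)
      intro hdvd
      exact hm0 (Nat.eq_zero_of_dvd_of_lt hdvd hm)
    have hsp := D.sheet_prime s₀
    exact hsp.ne_top (Ideal.eq_top_of_isUnit_mem _ h6 (hu.map _))
  rw [hτα, hm0, pow_zero, one_mul]

end Fixed

end Fermat.Agent.NP
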