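/-
NP33 (S33) — helper5 — package **[KUMP]**, part 4: **the core theorem**.

Two-chart model of a finite extension `F / K₁(t)` over `R`, `π ∈ R` prime, `p` prime, `ζ_p ∈ R`;
`K₁` algebraically closed in `F`.  If `h ∈ Fˣ` has coherent deep `p`-th roots at all closed points
of the special fibres of both charts (`KumPData` minus the hypotheses on `L`), then
`h ∈ K₁ˣ · Fˣ ^ p` (`kummer_core`).  No hypothesis on a "leading coefficient": either `K₁` is
algebraically closed in `L = F(h ^ (1/p))` (then `h ∈ Fˣ ^ p` by `KumPData.fixed`) or the trace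
decomposition exhibits `h ^ j ∈ K₁ˣ · Fˣ ^ p` for some `0 < j < p` (`kummer_constants_or_pow`).
-/
import Fermat.Agent.NP.KUMP_helper5_Core
import Fermat.Agent.SS.KUM_helper3_Plug

set_option autoImplicit false
set_option linter.unusedSectionVars false
set_option linter.style.haveILetI false

namespace Fermat.Agent.NP

open Fermat.Agent.JA Fermat.Agent.SS Polynomial Finset

section Constants

variable {K₁ F L : Type*} [Field K₁] [Field F] [Field L] [Algebra K₁ F] [Algebra F L]
  [Algebra K₁ L] [IsScalarTower K₁ F L] [FiniteDimensional F L] [IsGalois F L]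

/-- **constants of a Kummer extension, or a power relation.** -/
theorem kummer_constants_or_pow
    (hM4 : ∀ x : F, IsAlgebraic K₁ x → x ∈ Set.range (algebraMap K₁ F))
    {m : ℕ} (ζ : K₁) (hζ : IsPrimitiveRoot ζ m) (hm : 0 < m)
    (β : L) (u : F) (hu : u ≠ 0) (hβ : β ^ m = algebraMap F L u)
    (hfix : ∀ g : L ≃ₐ[F] L, g β = β → g = 1) :
    (∀ x : L, IsAlgebraic K₁ x → x ∈ Set.range (algebraMap K₁ L)) ∨
      ∃ j, 0 < j ∧ j < m ∧ ∃ (c : K₁) (v : F), c ≠ 0 ∧ v ≠ 0 ∧
        u ^ j = algebraMap K₁ F c * v ^ m := by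
  classical
  have hβ0 : β ≠ 0 := by
    rintro rfl
    rw [zero_pow hm.ne'] at hβ
    exact hu ((map_eq_zero_iff _ (algebraMap F L).injective).1 hβ.symm)
  have hmK : (m : K₁) ≠ 0 := by
    haveI : NeZero m := ⟨hm.ne'⟩
    exact (hζ.neZero' (R := K₁)).out
  by_cases hcase : ∃ x : L, IsAlgebraic K₁ x ∧ ∃ j, 0 < j ∧ j < m ∧
      Algebra.trace F L (x * β⁻¹ ^ j) ≠ 0
  · right
    obtain ⟨x, hx, j, hj0, hjm, hT0⟩ := hcase
    set T : F := Algebra.trace F L (x * β⁻¹ ^ j) with hT
    have hxi : IsIntegral K₁ x := hx.isIntegral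
    have hint : IsIntegral K₁ (algebraMap F L T * β ^ j) := by
      rw [algebraMap_trace_mul_inv_pow]
      refine IsIntegral.sum _ (fun g _ => ?_)
      refine IsIntegral.mul ?_ (IsIntegral.pow ?_ j)
      · exact hxi.map (g.toAlgHom.restrictScalars K₁)
      · have h1 : (β * (g β)⁻¹) ^ m = 1 := by
          rw [mul_pow, inv_pow, ← map_pow, hβ, AlgEquiv.commutes, ← hβ]
          exact mul_inv_cancel₀ (pow_ne_zero _ hβ0)
        exact IsIntegral.of_pow hm (h1 ▸ isIntegral_one)
    have hpow : (algebraMap F L T * β ^ j) ^ m = algebraMap F L (T ^ m * u ^ j) := by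
      rw [mul_pow, ← pow_mul, mul_comm j m, pow_mul, hβ, map_mul, map_pow, map_pow]
    have hint2 : IsIntegral K₁ (T ^ m * u ^ j) := by
      have := hint.pow m
      rw [hpow] at this
      exact (isIntegral_algebraMap_iff (algebraMap F L).injective).1 this
    obtain ⟨r, hr⟩ := hM4 _ hint2.isAlgebraic
    have hr0 : r ≠ 0 := by
      rintro rfl
      rw [map_zero] at hr
      exact mul_ne_zero (pow_ne_zero _ hT0) (pow_ne_zero _ hu) hr.symm
    refine ⟨j, hj0, hjm, r, T⁻¹, hr0, inv_ne_zero hT0, ?_⟩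
    rw [hr, inv_pow]
    have := pow_ne_zero m hT0
    field_simp
  · left
    push Not at hcase
    intro x hx
    have hsum := kummer_trace_decomp (F := F) β hβ0 u hβ hfix x
    have hzero : ∀ j ∈ range m, j ≠ 0 →
        algebraMap F L (Algebra.trace F L (x * β⁻¹ ^ j)) * β ^ j = 0 := by
      intro j hj hj0
      rw [hcase x hx j (Nat.pos_of_ne_zero hj0) (mem_range.1 hj), map_zero, zero_mul]
    rw [Finset.sum_eq_single_of_mem 0 (mem_range.2 hm) hzero, pow_zero, mul_one, pow_zero,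
      mul_one] at hsum
    set T : F := Algebra.trace F L x with hT
    have hmL : (m : L) ≠ 0 := by
      have : (m : L) = algebraMap K₁ L (m : K₁) := by simp
      rw [this, Ne, map_eq_zero_iff _ (algebraMap K₁ L).injective]
      exact hmK
    have hTalg : IsAlgebraic K₁ T := by
      have h1 : IsAlgebraic K₁ ((m : L) * x) := by
        have : (m : L) = algebraMap K₁ L (m : K₁) := by simp
        rw [this]
        exact (isAlgebraic_algebraMap (m : K₁)).mul hx
      rw [hsum] at h1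
      exact (isAlgebraic_algebraMap_iff (algebraMap F L).injective).1 h1
    obtain ⟨c, hc⟩ := hM4 T hTalg
    refine ⟨(m : K₁)⁻¹ * c, ?_⟩
    rw [map_mul, IsScalarTower.algebraMap_apply K₁ F L c, hc, ← hsum, map_inv₀, map_natCast]
    field_simp

end Constants

/-- `u ^ j ∈ c Fˣ ^ p`, `0 < j < p` ⇒ `u ∈ c' Fˣ ^ p`. -/
theorem pow_rel_of_pow_rel {K₁ F : Type*} [Field K₁] [Field F] [Algebra K₁ F] {p : ℕ}
    (hp : p.Prime) {j : ℕ} (hj0 : 0 < j) (hjp : j < p) {u : F} (hu : u ≠ 0) {c : K₁} {v : F}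
    (hc : c ≠ 0) (hv : v ≠ 0) (h : u ^ j = algebraMap K₁ F c * v ^ p) :
    ∃ (c' : K₁) (v' : F), c' ≠ 0 ∧ u = algebraMap K₁ F c' * v' ^ p := by
  have hcop : Nat.Coprime j p :=
    (Nat.Coprime.symm ((Nat.Prime.coprime_iff_not_dvd hp).2
      (fun hd => absurd (Nat.le_of_dvd hj0 hd) (not_le.2 hjp))))
  obtain ⟨a, -, ha⟩ := Nat.exists_mul_mod_eq_one_of_coprime hcop hp.one_lt
  have hja : j * a = 1 + p * (j * a / p) := by
    have := Nat.mod_add_div (j * a) p
    omega
  set b := j * a / p with hb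
  have h1 : u ^ (j * a) = u * (u ^ b) ^ p := by
    rw [hja, pow_add, pow_one, ← pow_mul, mul_comm p b]
  have h2 : u ^ (j * a) = algebraMap K₁ F (c ^ a) * (v ^ a) ^ p := by
    rw [pow_mul, h, mul_pow, map_pow, ← pow_mul, ← pow_mul, mul_comm p a]
  refine ⟨c ^ a, v ^ a / u ^ b, pow_ne_zero a hc, ?_⟩
  have hub : (u ^ b) ^ p ≠ 0 := pow_ne_zero p (pow_ne_zero b hu)
  rw [div_pow, ← mul_div_assoc, ← h2, h1]
  field_simp

section Final

variable {R : Type*} [CommRing R] [IsDomain R] [IsIntegrallyClosed R] [IsNoetherianRing R]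
  [CharZero R] {K₁ : Type*} [Field K₁] [Algebra R K₁]
  [IsFractionRing R K₁] {K : Type*} [Field K] [Algebra K₁ K] [Algebra R K] [IsScalarTower R K₁ K]
  {F : Type*} [Field F] [Algebra K F] [Algebra K₁ F] [IsScalarTower K₁ K F] [Algebra R F]
  [IsScalarTower R K F] [FiniteDimensional K F]

/-- **the hypotheses of the core theorem** (all on `F`). -/
structure KumPHyp (K₁ : Type*) [Field K₁] [Algebra R K₁] [IsFractionRing R K₁] [Algebra K₁ K]
    [IsScalarTower R K₁ K] [Algebra K₁ F] [IsScalarTower K₁ K F]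
    (t : K) (π : R) (p : ℕ) (ζ : R) (h : F)
    (G : Ideal ↥(chartMid R F t) → F → Prop) : Prop where
  ht : Transcendental K₁ t
  hK : IntermediateField.adjoin K₁ {t} = ⊤
  hπ : Prime π
  hp : p.Prime
  hζ : IsPrimitiveRoot ζ p
  hh : h ≠ 0
  hM4 : ∀ x : F, IsAlgebraic K₁ x → x ∈ Set.range (algebraMap K₁ F)
  hGdeep : ∀ (𝔮 : Ideal ↥(chartMid R F t)) (s : F), 𝔮.IsPrime →
    algebraMap R ↥(chartMid R F t) π ∈ 𝔮 → G 𝔮 s → DeepRootAt (chartMid R F t) p ζ π h 𝔮 s
  hGnear : ∀ (𝔮 : Ideal ↥(chartMid R F t)) (s s' : F), 𝔮.IsPrime →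
    algebraMap R ↥(chartMid R F t) π ∈ 𝔮 → G 𝔮 s → G 𝔮 s' → NearAt (chartMid R F t) ζ π 𝔮 s s'
  hb₁ : ∀ 𝔫 : Ideal ↥(chartOne R F t), 𝔫.IsMaximal → algebraMap R ↥(chartOne R F t) π ∈ 𝔫 →
    ∃ s : F, DeepRootAt (chartOne R F t) p ζ π h 𝔫 s ∧
      ∀ 𝔮 : Ideal ↥(chartMid R F t), 𝔮.IsPrime → algebraMap R ↥(chartMid R F t) π ∈ 𝔮 →
        Through (chartOne R F t) (chartMid R F t) 𝔫 𝔮 → G 𝔮 s
  hb₂ : ∀ 𝔫 : Ideal ↥(chartOne R F t⁻¹), 𝔫.IsMaximal →
    algebraMap R ↥(chartOne R F t⁻¹) π ∈ 𝔫 →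
    ∃ s : F, DeepRootAt (chartOne R F t⁻¹) p ζ π h 𝔫 s ∧
      ∀ 𝔮 : Ideal ↥(chartMid R F t), 𝔮.IsPrime → algebraMap R ↥(chartMid R F t) π ∈ 𝔮 →
        Through (chartOne R F t⁻¹) (chartMid R F t) 𝔫 𝔮 → G 𝔮 s

variable {t : K} {π : R} {p : ℕ} {ζ : R} {h : F} {G : Ideal ↥(chartMid R F t) → F → Prop}

/-- the core theorem, for an abstract splitting field `L` of `X ^ p - h`. -/
theorem KumPHyp.exists_pow_aux (H : KumPHyp K₁ t π p ζ h G)
    {L : Type*} [Field L] [Algebra K L] [Algebra K₁ L] [IsScalarTower K₁ K L]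
    [Algebra R L] [IsScalarTower R K L] [Algebra F L] [IsScalarTower K F L] [IsScalarTower K₁ F L]
    [FiniteDimensional K L] [IsSplittingField F L (X ^ p - C h)] :
    ∃ (c : K₁) (u : F), c ≠ 0 ∧ h = algebraMap K₁ F c * u ^ p := by
  have hp0 := H.hp.pos
  have hinjF : Function.Injective (algebraMap R F) :=
    algebraMap_injective_of_tower (K₁ := K₁) (K := K)
  have hζF : IsPrimitiveRoot (algebraMap R F ζ) p := H.hζ.map_of_injective hinjF
  have hζK₁ : IsPrimitiveRoot (algebraMap R K₁ ζ) p :=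
    H.hζ.map_of_injective (IsFractionRing.injective R K₁)
  haveI : FiniteDimensional F L := IsSplittingField.finiteDimensional L (X ^ p - C h)
  have hpF : (p : F) ≠ 0 := by
    haveI : NeZero p := ⟨H.hp.ne_zero⟩
    exact (hζF.neZero' (R := F)).out
  haveI : IsGalois F L := IsGalois.of_separable_splitting_field
    (p := X ^ p - C h) (separable_X_pow_sub_C _ hpF H.hh)
  obtain ⟨α, hα, hfix⟩ := exists_root_fixing (L := L) hp0 (algebraMap R F ζ) hζF h H.hh
  rcases kummer_constants_or_pow H.hM4 (algebraMap R K₁ ζ) hζK₁ hp0 α h H.hh hα hfix with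
    hM4L | ⟨j, hj0, hjp, c, v, hc, hv, hrel⟩
  · have ht' : Transcendental K₁ t⁻¹ := transcendental_inv_of_transcendental H.ht
    have hK' : IntermediateField.adjoin K₁ {t⁻¹} = ⊤ := adjoin_inv_eq_top H.hK
    have D : KumPData K₁ t π p ζ h α G :=
      { ht := H.ht
        hK := H.hK
        hπ := H.hπ
        hp := H.hp
        hζ := H.hζ
        hh := H.hh
        hGdeep := H.hGdeep
        hGnear := H.hGnear
        hb₁ := H.hb₁
        hb₂ := H.hb₂
        hα := hα
        hM4 := hM4L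
        hT₁ := coord_not_mem_of_mem_minimalPrimes (K₁ := K₁) (F := L) t H.ht H.hK π H.hπ
        hT₂ := coord_not_mem_of_mem_minimalPrimes (K₁ := K₁) (F := L) t⁻¹ ht' hK' π H.hπ }
    have hmem : α ∈ (⊥ : IntermediateField F L) :=
      (IsGalois.mem_bot_iff_fixed α).2 (fun τ => D.fixed τ)
    obtain ⟨u, hu⟩ := IntermediateField.mem_bot.1 hmem
    refine ⟨1, u, one_ne_zero, (algebraMap F L).injective ?_⟩
    rw [map_one, one_mul, map_pow, hu, hα]
  · exact pow_rel_of_pow_rel H.hp hj0 hjp H.hh hc hv hrel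

/-- **[KUMP], the core theorem.**  A function with coherent deep `p`-th roots at all closed points
of the special fibres of a two-chart model is a constant times a `p`-th power. -/
theorem KumPHyp.exists_pow (H : KumPHyp K₁ t π p ζ h G) :
    ∃ (c : K₁) (u : F), c ≠ 0 ∧ h = algebraMap K₁ F c * u ^ p := by
  haveI : IsScalarTower R K (X ^ p - C h : F[X]).SplittingField :=
    IsScalarTower.of_algebraMap_eq fun r => by
      rw [IsScalarTower.algebraMap_apply R F (X ^ p - C h : F[X]).SplittingField,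
        IsScalarTower.algebraMap_apply R K F,
        ← IsScalarTower.algebraMap_apply K F (X ^ p - C h : F[X]).SplittingField]
  haveI : IsScalarTower K₁ K (X ^ p - C h : F[X]).SplittingField :=
    IsScalarTower.of_algebraMap_eq fun r => by
      rw [IsScalarTower.algebraMap_apply K₁ F (X ^ p - C h : F[X]).SplittingField,
        IsScalarTower.algebraMap_apply K₁ K F,
        ← IsScalarTower.algebraMap_apply K F (X ^ p - C h : F[X]).SplittingField]
  haveI : FiniteDimensional K (X ^ p - C h : F[X]).SplittingField :=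
    Module.Finite.trans F _
  exact H.exists_pow_aux (L := (X ^ p - C h : F[X]).SplittingField)

end Final

end Fermat.Agent.NP
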