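/-
NP33 (S33) — helper5 — package **[KUMP]**, part 6: **FRONT-END B** (Theorem B of finding 399).

Two-chart model of `F / K₁(t)` over `R`, `π ∈ R` prime, `p` prime, `ζ_p ∈ R`.  Let `σ` be a ring
endomorphism of `F` which is trivial modulo `π` on both charts and satisfies `σ ζ = ζ ^ a` (an element
of inertia acting on the constants), and let `g ∈ Fˣ` have a deep `p`-th root at every closed point
of the special fibres of both charts (`g = γ_𝔫 ^ p (1 + lam ^ p π r / d)`; "`g` is toric").  Then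

  `σ g / g ^ a ∈ K₁ˣ · Fˣ ^ p`        (`kummer_inertia_pow_p`).

The node cocycle of `g` (two deep roots at a prime differ by `ζ ^ j (1 + lam π ⋯)`,
`exists_zeta_pow_of_deepRoots`) cancels in `s = σ γ / γ ^ a` because `σ (ζ ^ j) = (ζ ^ j) ^ a`.
-/
import Fermat.Agent.NP.KUMP_helper5_Final
import Fermat.Agent.NP.KUMP_helper5_Extract

set_option autoImplicit false
set_option linter.unusedSectionVars false
set_option linter.style.haveILetI false

namespace Fermat.Agent.NP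

open Fermat.Agent.JA Fermat.Agent.SS Polynomial Finset

section Algebra

/-- the field identity behind the transformation of roots by `σ`. -/
theorem sigma_ratio_identity {F : Type*} [Field F] (σ : F →+* F) (a : ℕ) (X Y d r c : F)
    (hX : X ≠ 0) (hY : Y ≠ 0) (h : X * d = Y * (d + c * r)) :
    (σ X / X ^ a) * (σ d * (d + c * r) ^ a) = (σ Y / Y ^ a) * ((σ d + σ c * σ r) * d ^ a) := by
  have h1 : σ X * σ d = σ Y * (σ d + σ c * σ r) := by
    rw [← map_mul, h, map_mul, map_add, map_mul]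
  have h2 : X ^ a * d ^ a = Y ^ a * (d + c * r) ^ a := by
    rw [← mul_pow, h, mul_pow]
  have hXa : X ^ a ≠ 0 := pow_ne_zero a hX
  have hYa : Y ^ a ≠ 0 := pow_ne_zero a hY
  rw [div_mul_eq_mul_div, div_mul_eq_mul_div, div_eq_div_iff hXa hYa]
  linear_combination (Y ^ a * (d + c * r) ^ a) * h1 - (σ Y * (σ d + σ c * σ r)) * h2

/-- the smallness identity: `(d₁ + c ω r₁) d ^ a = d₁ (d + c r) ^ a + c r''`. -/
theorem small_identity {A : Type*} [CommRing A] (a : ℕ) (d r d₁ r₁ c ω : A) :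
    ∃ r'' : A, (d₁ + c * ω * r₁) * d ^ a = d₁ * (d + c * r) ^ a + c * r'' := by
  have h := geom_sum₂_mul (d + c * r) d a
  refine ⟨ω * r₁ * d ^ a - d₁ * r * ∑ i ∈ range a, (d + c * r) ^ i * d ^ (a - 1 - i), ?_⟩
  have h' : (∑ i ∈ range a, (d + c * r) ^ i * d ^ (a - 1 - i)) * (c * r) =
      (d + c * r) ^ a - d ^ a := by
    rw [← h]; ring
  linear_combination d₁ * h'

end Algebra

section Sigma

variable {R : Type*} [CommRing R] [IsDomain R] {K : Type*} [Field K] [Algebra R K]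
  {F : Type*} [Field F] [Algebra K F] [Algebra R F] [IsScalarTower R K F]

/-- `σ` multiplies the small constants `lam ^ k π` by an element of the chart. -/
theorem sigma_small (τ : K) (π : R) (ζ : R) (a : ℕ) (σ : F →+* F)
    (hσ : ∀ x ∈ chartOne R F τ, ∃ z ∈ chartOne R F τ, σ x = x + algebraMap R F π * z)
    (hσζ : σ (algebraMap R F ζ) = algebraMap R F ζ ^ a) (k : ℕ) :
    ∃ ω : ↥(chartOne R F τ), σ (algebraMap R F ((ζ - 1) ^ k * π)) =
      algebraMap R F ((ζ - 1) ^ k * π) * (ω : F) := by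
  obtain ⟨zπ, hzπ⟩ := exists_subtype_of_trivial_mod τ π σ hσ (algebraMap R ↥(chartOne R F τ) π)
  refine ⟨algebraMap R ↥(chartOne R F τ) (qInt ζ a) ^ k * (1 + zπ), ?_⟩
  have hq : algebraMap R F (ζ - 1) * algebraMap R F (qInt ζ a) = algebraMap R F ζ ^ a - 1 := by
    rw [← map_mul, mul_comm, qInt_mul_sub_one, map_sub, map_pow, map_one]
  have h1 : σ (algebraMap R F (ζ - 1)) = algebraMap R F (ζ - 1) * algebraMap R F (qInt ζ a) := by
    rw [hq, (algebraMap R F).map_sub, (algebraMap R F).map_one, σ.map_sub, σ.map_one, hσζ]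
  have h2 : σ (algebraMap R F π) = algebraMap R F π * (1 + (zπ : F)) := by
    have : σ ((algebraMap R ↥(chartOne R F τ) π : ↥(chartOne R F τ)) : F) =
        algebraMap R F π + algebraMap R F π * (zπ : F) := hzπ
    rw [mul_add, mul_one]
    exact this
  have h3 : ((algebraMap R ↥(chartOne R F τ) (qInt ζ a) ^ k * (1 + zπ) : ↥(chartOne R F τ)) : F) =
      algebraMap R F (qInt ζ a) ^ k * (1 + (zπ : F)) := rfl
  rw [h3, (algebraMap R F).map_mul, (algebraMap R F).map_pow, σ.map_mul, σ.map_pow, h1, h2]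
  ring

/-- **transformation of a relation `X = Y (1 + lam ^ k π r / d)` by `σ`**:
`σ X / X ^ a = (σ Y / Y ^ a) (1 + lam ^ k π r'' / Q)`. -/
theorem sigma_rel (τ : K) (π : R) (ζ : R) (a : ℕ) (σ : F →+* F)
    (hσ : ∀ x ∈ chartOne R F τ, ∃ z ∈ chartOne R F τ, σ x = x + algebraMap R F π * z)
    (hσζ : σ (algebraMap R F ζ) = algebraMap R F ζ ^ a) (k : ℕ)
    (𝔫 : Ideal ↥(chartOne R F τ)) [h𝔫 : 𝔫.IsPrime]
    (hπ𝔫 : algebraMap R ↥(chartOne R F τ) π ∈ 𝔫) {X Y : F} (hX : X ≠ 0) (hY : Y ≠ 0)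
    (d r : ↥(chartOne R F τ)) (hd : d ∉ 𝔫)
    (hdr : X * (d : F) = Y * ((d : F) + algebraMap R F ((ζ - 1) ^ k * π) * (r : F))) :
    ∃ Q r'' : ↥(chartOne R F τ), Q ∉ 𝔫 ∧
      (σ X / X ^ a) * (Q : F) =
        (σ Y / Y ^ a) * ((Q : F) + algebraMap R F ((ζ - 1) ^ k * π) * (r'' : F)) := by
  obtain ⟨zd, hzd⟩ := exists_subtype_of_trivial_mod τ π σ hσ d
  obtain ⟨zr, hzr⟩ := exists_subtype_of_trivial_mod τ π σ hσ r
  obtain ⟨ω, hω⟩ := sigma_small τ π ζ a σ hσ hσζ k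
  set c : ↥(chartOne R F τ) := algebraMap R ↥(chartOne R F τ) ((ζ - 1) ^ k * π) with hc
  set d₁ : ↥(chartOne R F τ) := d + algebraMap R ↥(chartOne R F τ) π * zd with hd₁
  set r₁ : ↥(chartOne R F τ) := r + algebraMap R ↥(chartOne R F τ) π * zr with hr₁
  obtain ⟨r'', hr''⟩ := small_identity a d r d₁ r₁ c ω
  have hc𝔫 : c ∈ 𝔫 := by
    rw [hc, map_mul]
    exact 𝔫.mul_mem_left _ hπ𝔫
  have hd₁𝔫 : d₁ ∉ 𝔫 := by
    intro hmem
    apply hd
    have : d = d₁ - algebraMap R ↥(chartOne R F τ) π * zd := by rw [hd₁]; ring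
    rw [this]
    exact 𝔫.sub_mem hmem (𝔫.mul_mem_right _ hπ𝔫)
  have hdc𝔫 : d + c * r ∉ 𝔫 := by
    intro hmem
    apply hd
    have : d = (d + c * r) - c * r := by ring
    rw [this]
    exact 𝔫.sub_mem hmem (𝔫.mul_mem_right _ hc𝔫)
  refine ⟨d₁ * (d + c * r) ^ a, r'', ?_, ?_⟩
  · intro hmem
    rcases h𝔫.mem_or_mem hmem with h1 | h1
    · exact hd₁𝔫 h1
    · exact hdc𝔫 (h𝔫.mem_of_pow_mem a h1)
  · have key := sigma_ratio_identity σ a X Y (d : F) (r : F)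
      (algebraMap R F ((ζ - 1) ^ k * π)) hX hY hdr
    have e2 : σ (d : F) = (d₁ : F) := hzd
    have e3 : σ (r : F) = (r₁ : F) := hzr
    have e4 : ((d₁ + c * ω * r₁) * d ^ a : ↥(chartOne R F τ)) = d₁ * (d + c * r) ^ a + c * r'' := hr''
    have e4F := congrArg (fun x : ↥(chartOne R F τ) => (x : F)) e4
    simp only [Subalgebra.coe_mul, Subalgebra.coe_add, Subalgebra.coe_pow] at e4F
    have e5 : ((c : ↥(chartOne R F τ)) : F) = algebraMap R F ((ζ - 1) ^ k * π) := rfl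
    rw [e2, e3, hω] at key
    rw [e5] at e4F
    simp only [Subalgebra.coe_mul, Subalgebra.coe_add, Subalgebra.coe_pow, e5]
    rw [key]
    congr 1

/-- **transformation of a deep root by `σ`**: if `γ` is a deep root of `g` at `𝔫` then `σ γ / γ ^ a`
is a deep root of `σ g / g ^ a` at `𝔫`. -/
theorem deepRoot_sigma (τ : K) (π : R) {p : ℕ} (ζ : R) (a : ℕ) (σ : F →+* F)
    (hσ : ∀ x ∈ chartOne R F τ, ∃ z ∈ chartOne R F τ, σ x = x + algebraMap R F π * z)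
    (hσζ : σ (algebraMap R F ζ) = algebraMap R F ζ ^ a)
    (g : F) (hg : g ≠ 0) (𝔫 : Ideal ↥(chartOne R F τ)) [h𝔫 : 𝔫.IsPrime]
    (hπ𝔫 : algebraMap R ↥(chartOne R F τ) π ∈ 𝔫) {γ : F}
    (h : DeepRootAt (chartOne R F τ) p ζ π g 𝔫 γ) :
    DeepRootAt (chartOne R F τ) p ζ π (σ g / g ^ a) 𝔫 (σ γ / γ ^ a) := by
  obtain ⟨hγ, d, r, hd, hdr⟩ := h
  have hσγ : σ γ ≠ 0 := (map_ne_zero σ).2 hγ
  obtain ⟨Q, r'', hQ, hQr⟩ := sigma_rel τ π ζ a σ hσ hσζ p 𝔫 hπ𝔫 hg (pow_ne_zero p hγ) d r hd hdr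
  refine ⟨div_ne_zero hσγ (pow_ne_zero a hγ), Q, r'', hQ, ?_⟩
  have e1 : σ (γ ^ p) / (γ ^ p) ^ a = (σ γ / γ ^ a) ^ p := by
    rw [map_pow, div_pow, ← pow_mul, ← pow_mul, mul_comm a p]
  rw [← e1]
  exact hQr

end Sigma

section Transfer

variable {R : Type*} [CommRing R] {F : Type*} [Field F] [Algebra R F]

/-- a deep root at a point is a deep root at every prime of a larger ring through that point. -/
theorem DeepRootAt.through {B B' : Subalgebra R F} (hle : B ≤ B') {p : ℕ} {ζ π : R} {h : F}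
    {𝔫 : Ideal ↥B} {𝔮 : Ideal ↥B'} (hthr : Through B B' 𝔫 𝔮) {s : F}
    (hs : DeepRootAt B p ζ π h 𝔫 s) : DeepRootAt B' p ζ π h 𝔮 s := by
  obtain ⟨hs0, d, r, hd, hdr⟩ := hs
  refine ⟨hs0, Subalgebra.inclusion hle d, Subalgebra.inclusion hle r, ?_, hdr⟩
  intro hmem
  exact hd (hthr d (hle d.2) hmem)

end Transfer

section FrontB

variable {R : Type*} [CommRing R] [IsDomain R] [IsIntegrallyClosed R] [IsNoetherianRing R]
  [CharZero R] {K₁ : Type*} [Field K₁] [Algebra R K₁]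
  [IsFractionRing R K₁] {K : Type*} [Field K] [Algebra K₁ K] [Algebra R K] [IsScalarTower R K₁ K]
  {F : Type*} [Field F] [Algebra K F] [Algebra K₁ F] [IsScalarTower K₁ K F] [Algebra R F]
  [IsScalarTower R K F] [FiniteDimensional K F]

/-- two deep roots of `g` at a prime `𝔮 ∋ π` of the middle ring: their `σ`-ratios are near. -/
theorem nearAt_sigma_of_deepRoots (t : K) (hK : IntermediateField.adjoin K₁ {t} = ⊤) (ht0 : t ≠ 0)
    (π : R) {p : ℕ} (hp : p.Prime) {ζ : R} (hζ : IsPrimitiveRoot ζ p) (a : ℕ) (σ : F →+* F)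
    (hσ : ∀ x ∈ chartOne R F t, ∃ z ∈ chartOne R F t, σ x = x + algebraMap R F π * z)
    (hσζ : σ (algebraMap R F ζ) = algebraMap R F ζ ^ a) (g : F)
    (𝔮 : Ideal ↥(chartMid R F t)) [h𝔮 : 𝔮.IsPrime]
    (hπ𝔮 : algebraMap R ↥(chartMid R F t) π ∈ 𝔮) {γ γ' : F}
    (hγ : DeepRootAt (chartMid R F t) p ζ π g 𝔮 γ)
    (hγ' : DeepRootAt (chartMid R F t) p ζ π g 𝔮 γ') :
    NearAt (chartMid R F t) ζ π 𝔮 (σ γ / γ ^ a) (σ γ' / γ' ^ a) := by
  have hinjF : Function.Injective (algebraMap R F) :=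
    algebraMap_injective_of_tower (K₁ := K₁) (K := K)
  obtain ⟨hγ0, d, r, hd, hdr⟩ := deepRoot_normalise t ht0 𝔮 hγ
  obtain ⟨hγ0', d', r', hd', hdr'⟩ := deepRoot_normalise t ht0 𝔮 hγ'
  haveI : IsIntegrallyClosed ↥(chartOne R F t) := isIntegrallyClosed_chartOne (K₁ := K₁) t hK
  haveI : IsFractionRing ↥(chartOne R F t) F := isFractionRing_chartOne (K₁ := K₁) t hK
  set 𝔫 : Ideal ↥(chartOne R F t) := 𝔮.comap (Subalgebra.inclusion (chartOne_le_chartMid t)) with h𝔫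
  haveI h𝔫p : 𝔫.IsPrime := Ideal.comap_isPrime _ 𝔮
  have hπ𝔫 : algebraMap R ↥(chartOne R F t) π ∈ 𝔫 := hπ𝔮
  have hinjA : Function.Injective (algebraMap R ↥(chartOne R F t)) := by
    intro x y hxy
    apply hinjF
    exact congrArg (fun z : ↥(chartOne R F t) => (z : F)) hxy
  have hζA : IsPrimitiveRoot (algebraMap R ↥(chartOne R F t) ζ) p := hζ.map_of_injective hinjA
  have e0 : ∀ x : R, ((algebraMap R ↥(chartOne R F t) x : ↥(chartOne R F t)) : F) =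
      algebraMap R F x := fun _ => rfl
  have he : ∀ k : ℕ, algebraMap ↥(chartOne R F t) F ((algebraMap R ↥(chartOne R F t) ζ - 1) ^ k *
      algebraMap R ↥(chartOne R F t) π) = algebraMap R F ((ζ - 1) ^ k * π) := by
    intro k
    rw [← map_one (algebraMap R ↥(chartOne R F t)), ← map_sub, ← map_pow, ← map_mul]
    rfl
  have hdrA : g * algebraMap ↥(chartOne R F t) F d = γ ^ p * (algebraMap ↥(chartOne R F t) F d +
      algebraMap ↥(chartOne R F t) F ((algebraMap R ↥(chartOne R F t) ζ - 1) ^ p *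
        algebraMap R ↥(chartOne R F t) π) * algebraMap ↥(chartOne R F t) F r) := by
    rw [he]
    exact hdr
  have hdrA' : g * algebraMap ↥(chartOne R F t) F d' = γ' ^ p * (algebraMap ↥(chartOne R F t) F d' +
      algebraMap ↥(chartOne R F t) F ((algebraMap R ↥(chartOne R F t) ζ - 1) ^ p *
        algebraMap R ↥(chartOne R F t) π) * algebraMap ↥(chartOne R F t) F r') := by
    rw [he]
    exact hdr'
  obtain ⟨j, -, q, w, hq, hqw⟩ := exists_zeta_pow_of_deepRoots hp hζA 𝔫 hπ𝔫 g γ γ' hγ0 hγ0'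
    d r d' r' hd hd' hdrA hdrA'
  have he1 := he 1
  simp only [pow_one] at he1
  rw [he1, ← map_pow] at hqw
  have hqw' : γ * (q : F) = (algebraMap R F ζ ^ j * γ') *
      ((q : F) + algebraMap R F ((ζ - 1) ^ 1 * π) * (w : F)) := by
    rw [pow_one, ← map_pow]
    exact hqw
  have hζF0 : algebraMap R F ζ ≠ 0 := by
    have := (hζ.map_of_injective hinjF).ne_zero hp.ne_zero
    exact this
  have hY : algebraMap R F ζ ^ j * γ' ≠ 0 := mul_ne_zero (pow_ne_zero j hζF0) hγ0'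
  obtain ⟨Q, r'', hQ, hQr⟩ := sigma_rel t π ζ a σ hσ hσζ 1 𝔫 hπ𝔫 hγ0 hY q w hq hqw'
  have hcoc : σ (algebraMap R F ζ ^ j * γ') / (algebraMap R F ζ ^ j * γ') ^ a = σ γ' / γ' ^ a := by
    rw [map_mul, map_pow, hσζ, mul_pow, ← pow_mul, ← pow_mul, mul_comm j a]
    have : algebraMap R F ζ ^ (a * j) ≠ 0 := pow_ne_zero _ hζF0
    have h2 : γ' ^ a ≠ 0 := pow_ne_zero a hγ0'
    field_simp
  rw [hcoc, pow_one] at hQr
  exact ⟨Subalgebra.inclusion (chartOne_le_chartMid t) Q,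
    Subalgebra.inclusion (chartOne_le_chartMid t) r'', hQ, hQr⟩

/-- **FRONT-END B** (Theorem B of finding 399): an endomorphism `σ` of `F` which is trivial modulo
`π` on both charts and acts on `ζ` by `ζ ↦ ζ ^ a`, and a function `g` with deep `p`-th roots at all
closed points of the special fibres of both charts: `σ g / g ^ a ∈ K₁ˣ · Fˣ ^ p`. -/
theorem kummer_inertia_pow_p {t : K} {π : R} {p : ℕ} {ζ : R}
    (ht : Transcendental K₁ t) (hK : IntermediateField.adjoin K₁ {t} = ⊤) (hπ : Prime π)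
    (hp : p.Prime) (hζ : IsPrimitiveRoot ζ p)
    (hM4 : ∀ x : F, IsAlgebraic K₁ x → x ∈ Set.range (algebraMap K₁ F))
    (a : ℕ) (σ : F →+* F)
    (hσ₁ : ∀ x ∈ chartOne R F t, ∃ z ∈ chartOne R F t, σ x = x + algebraMap R F π * z)
    (hσ₂ : ∀ x ∈ chartOne R F t⁻¹, ∃ z ∈ chartOne R F t⁻¹, σ x = x + algebraMap R F π * z)
    (hσζ : σ (algebraMap R F ζ) = algebraMap R F ζ ^ a)
    (g : F) (hg : g ≠ 0)
    (hb₁ : ∀ 𝔫 : Ideal ↥(chartOne R F t), 𝔫.IsMaximal → algebraMap R ↥(chartOne R F t) π ∈ 𝔫 →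
      ∃ γ : F, DeepRootAt (chartOne R F t) p ζ π g 𝔫 γ)
    (hb₂ : ∀ 𝔫 : Ideal ↥(chartOne R F t⁻¹), 𝔫.IsMaximal →
      algebraMap R ↥(chartOne R F t⁻¹) π ∈ 𝔫 →
      ∃ γ : F, DeepRootAt (chartOne R F t⁻¹) p ζ π g 𝔫 γ) :
    ∃ (c : K₁) (u : F), c ≠ 0 ∧ σ g / g ^ a = algebraMap K₁ F c * u ^ p := by
  have ht0 : t ≠ 0 := by
    rintro rfl
    exact ht (isAlgebraic_zero)
  have hσg : σ g ≠ 0 := (map_ne_zero σ).2 hg
  set G : Ideal ↥(chartMid R F t) → F → Prop := fun 𝔮 s =>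
    ∃ γ : F, s = σ γ / γ ^ a ∧ DeepRootAt (chartMid R F t) p ζ π g 𝔮 γ with hG
  have H : KumPHyp K₁ t π p ζ (σ g / g ^ a) G :=
    { ht := ht
      hK := hK
      hπ := hπ
      hp := hp
      hζ := hζ
      hh := div_ne_zero hσg (pow_ne_zero a hg)
      hM4 := hM4
      hGdeep := by
        rintro 𝔮 s h𝔮 hπ𝔮 ⟨γ, rfl, hγ⟩
        haveI := h𝔮
        obtain ⟨hγ0, d, r, hd, hdr⟩ := deepRoot_normalise t ht0 𝔮 hγ
        haveI : (𝔮.comap (Subalgebra.inclusion (chartOne_le_chartMid t))).IsPrime :=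
          Ideal.comap_isPrime _ 𝔮
        have h1 : DeepRootAt (chartOne R F t) p ζ π g
            (𝔮.comap (Subalgebra.inclusion (chartOne_le_chartMid t))) γ := ⟨hγ0, d, r, hd, hdr⟩
        have h2 := deepRoot_sigma t π ζ a σ hσ₁ hσζ g hg _ hπ𝔮 h1
        exact h2.through (chartOne_le_chartMid t) (through_of_comap_le _ le_rfl)
      hGnear := by
        rintro 𝔮 s s' h𝔮 hπ𝔮 ⟨γ, rfl, hγ⟩ ⟨γ', rfl, hγ'⟩
        haveI := h𝔮
        exact nearAt_sigma_of_deepRoots (K₁ := K₁) t hK ht0 π hp hζ a σ hσ₁ hσζ g 𝔮 hπ𝔮 hγ hγ'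
      hb₁ := by
        intro 𝔫 h𝔫 hπ𝔫
        obtain ⟨γ, hγ⟩ := hb₁ 𝔫 h𝔫 hπ𝔫
        haveI := h𝔫.isPrime
        refine ⟨σ γ / γ ^ a, deepRoot_sigma t π ζ a σ hσ₁ hσζ g hg 𝔫 hπ𝔫 hγ, ?_⟩
        intro 𝔮 _ _ hthr
        exact ⟨γ, rfl, hγ.through (chartOne_le_chartMid t) hthr⟩
      hb₂ := by
        intro 𝔫 h𝔫 hπ𝔫
        obtain ⟨γ, hγ⟩ := hb₂ 𝔫 h𝔫 hπ𝔫
        haveI := h𝔫.isPrime
        refine ⟨σ γ / γ ^ a, deepRoot_sigma t⁻¹ π ζ a σ hσ₂ hσζ g hg 𝔫 hπ𝔫 hγ, ?_⟩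
        intro 𝔮 _ _ hthr
        exact ⟨γ, rfl, hγ.through (chartOne_inv_le_chartMid t ht0) hthr⟩ }
  exact H.exists_pow

end FrontB

end Fermat.Agent.NP
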