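/-
NP33 (S33) — helper5 — package **[BRIDGE]**, part 9: **one constant for the whole model**.

Two-chart model of `F / K₁(t)` over the discrete valuation ring `R`, the first chart a model chart
(`IsModelChart`).  If at every closed point `𝔫` of the special fibres of both charts `g / c_𝔫` has
a deep `p`-th root for some constant `c_𝔫 ∈ K₁ˣ`, then there is ONE constant `c₀` such that
`g / c₀` has a deep `p`-th root at every closed point (`exists_common_const`): the class of `c_𝔫`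
in `K₁ˣ / K₁ˣ ^ p (1 + lam ^ p π R)` is determined by any sheet through `𝔫`
(`constRel_of_deepRoots`), and the special fibre is connected (`chart_sheet_const_rad`).
-/
import Fermat.Agent.NP.BRIDGE_helper5_Unif
import Fermat.Agent.NP.KUMP_helper5_B

set_option autoImplicit false
set_option linter.unusedSectionVars false
set_option linter.style.haveILetI false

namespace Fermat.Agent.NP

open Fermat.Agent.JA Fermat.Agent.SS Polynomial

section Tower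

/-- the tower `R ⊂ K₁ ⊂ F`. -/
theorem isScalarTower_base_top (R K₁ K F : Type*) [CommRing R] [Field K₁] [Algebra R K₁] [Field K]
    [Algebra K₁ K] [Algebra R K] [IsScalarTower R K₁ K] [Field F] [Algebra K F] [Algebra K₁ F]
    [IsScalarTower K₁ K F] [Algebra R F] [IsScalarTower R K F] : IsScalarTower R K₁ F :=
  IsScalarTower.of_algebraMap_eq (fun x => by
    rw [IsScalarTower.algebraMap_apply R K F, IsScalarTower.algebraMap_apply R K₁ K,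
      ← IsScalarTower.algebraMap_apply K₁ K F])

end Tower

section Glob

variable {R : Type*} [CommRing R] [IsDomain R] [IsDiscreteValuationRing R]
  [CharZero R] {K₁ : Type*} [Field K₁] [Algebra R K₁]
  [IsFractionRing R K₁] {K : Type*} [Field K] [Algebra K₁ K] [Algebra R K] [IsScalarTower R K₁ K]
  {F : Type*} [Field F] [Algebra K F] [Algebra K₁ F] [IsScalarTower K₁ K F] [Algebra R F]
  [IsScalarTower R K F] [FiniteDimensional K F]

/-- every prime `∋ π` of the first chart lies on a sheet. -/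
theorem exists_sheet_through_one (t : K) (ht : Transcendental K₁ t)
    (hK : IntermediateField.adjoin K₁ {t} = ⊤) (π : R) (hπ : Prime π)
    (𝔫 : Ideal ↥(chartOne R F t)) [h𝔫 : 𝔫.IsPrime]
    (hπ𝔫 : algebraMap R ↥(chartOne R F t) π ∈ 𝔫) :
    ∃ s : SheetOf R F t π,
      (s.1).comap (Subalgebra.inclusion (chartOne_le_chartMid (R := R) (E := F) t)) ≤ 𝔫 := by
  have ht0 : t ≠ 0 := fun h => ht (h ▸ isAlgebraic_zero)
  have hT₁ := coord_not_mem_of_mem_minimalPrimes (K₁ := K₁) (F := F) t ht hK π hπ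
  haveI := finite_sheetOf (R := R) (K₁ := K₁) (E := F) t ht hK π
  letI := Fintype.ofFinite (SheetOf R F t π)
  by_contra hcon
  simp only [not_exists] at hcon
  have hx : ∀ s : SheetOf R F t π, ∃ x : ↥(chartOne R F t),
      Subalgebra.inclusion (chartOne_le_chartMid (R := R) (E := F) t) x ∈ s.1 ∧ x ∉ 𝔫 := by
    intro s
    obtain ⟨x, hx, hxn⟩ := Set.not_subset.mp (hcon s)
    exact ⟨x, hx, hxn⟩
  choose x hxs hxn using hx
  obtain ⟨N, hN⟩ := chartOne_rad_of_forall_mem_sheet t ht0 π hT₁ (∏ s, x s) (by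
    intro s
    rw [map_prod]
    exact Ideal.prod_mem _ (Finset.mem_univ s) (hxs s))
  have h1 : (∏ s, x s) ^ N ∈ 𝔫 := (Ideal.span_singleton_le_iff_mem _).2 hπ𝔫 hN
  have h2 : (∏ s, x s) ∈ 𝔫 := h𝔫.mem_of_pow_mem N h1
  obtain ⟨s, -, hs⟩ := Ideal.IsPrime.prod_mem_iff.1 h2
  exact hxn s hs

/-- every prime `∋ π` of the second chart lies on a sheet. -/
theorem exists_sheet_through_inv (t : K) (ht : Transcendental K₁ t)
    (hK : IntermediateField.adjoin K₁ {t} = ⊤) (π : R) (hπ : Prime π)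
    (𝔫 : Ideal ↥(chartOne R F t⁻¹)) [h𝔫 : 𝔫.IsPrime]
    (hπ𝔫 : algebraMap R ↥(chartOne R F t⁻¹) π ∈ 𝔫) :
    ∃ s : SheetOf R F t π,
      (s.1).comap (Subalgebra.inclusion (chartOne_inv_le_chartMid (R := R) (E := F) t
        (fun h => ht (h ▸ isAlgebraic_zero)))) ≤ 𝔫 := by
  have ht0 : t ≠ 0 := fun h => ht (h ▸ isAlgebraic_zero)
  have ht' : Transcendental K₁ t⁻¹ := transcendental_inv_of_transcendental ht
  have hK' : IntermediateField.adjoin K₁ {t⁻¹} = ⊤ := adjoin_inv_eq_top hK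
  have hT₂ := coord_not_mem_of_mem_minimalPrimes (K₁ := K₁) (F := F) t⁻¹ ht' hK' π hπ
  haveI := finite_sheetOf (R := R) (K₁ := K₁) (E := F) t ht hK π
  letI := Fintype.ofFinite (SheetOf R F t π)
  by_contra hcon
  simp only [not_exists] at hcon
  have hx : ∀ s : SheetOf R F t π, ∃ x : ↥(chartOne R F t⁻¹),
      Subalgebra.inclusion (chartOne_inv_le_chartMid (R := R) (E := F) t ht0) x ∈ s.1 ∧ x ∉ 𝔫 := by
    intro s
    obtain ⟨x, hx, hxn⟩ := Set.not_subset.mp (hcon s)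
    exact ⟨x, hx, hxn⟩
  choose x hxs hxn using hx
  obtain ⟨N, hN⟩ := chartOne_inv_rad_of_forall_mem_sheet t ht0 π hT₂ (∏ s, x s) (by
    intro s
    rw [map_prod]
    exact Ideal.prod_mem _ (Finset.mem_univ s) (hxs s))
  have h1 : (∏ s, x s) ^ N ∈ 𝔫 := (Ideal.span_singleton_le_iff_mem _).2 hπ𝔫 hN
  have h2 : (∏ s, x s) ∈ 𝔫 := h𝔫.mem_of_pow_mem N h1
  obtain ⟨s, -, hs⟩ := Ideal.IsPrime.prod_mem_iff.1 h2
  exact hxn s hs

/-- **uniqueness of the constant of a deep root along a sheet of the two-chart model.** -/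
theorem constRel_of_deepRoots_sheet (t : K) (ht : Transcendental K₁ t)
    (hK : IntermediateField.adjoin K₁ {t} = ⊤) (π : R) (hπ : Irreducible π) {p : ℕ}
    (hp : p.Prime) {e₁ : ℕ} (he₁ : 0 < e₁) {ε : Rˣ} (hpe : (p : R) = ε * π ^ e₁)
    (hAC : ResAlgClosed π) {ζ : R} (hζ1 : ζ ≠ 1)
    {𝔭inf₁ 𝔭0₁ : Ideal ↥(chartOne R F t)} (hmod₁ : IsModelChart F π 𝔭inf₁ 𝔭0₁)
    {g : F} (hg : g ≠ 0) (𝔮 : Ideal ↥(chartMid R F t)) [h𝔮 : 𝔮.IsPrime]
    (hπ𝔮 : algebraMap R ↥(chartMid R F t) π ∈ 𝔮) {c c' : K₁} (hc : c ≠ 0) (hc' : c' ≠ 0)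
    {γ γ' : F} (h : DeepRootAt (chartMid R F t) p ζ π (g / algebraMap K₁ F c) 𝔮 γ)
    (h' : DeepRootAt (chartMid R F t) p ζ π (g / algebraMap K₁ F c') 𝔮 γ') :
    ConstRel p ((ζ - 1) ^ p * π) c c' := by
  have ht0 : t ≠ 0 := fun h => ht (h ▸ isAlgebraic_zero)
  haveI : IsScalarTower R K₁ F := isScalarTower_base_top R K₁ K F
  haveI : IsNoetherianRing ↥(chartOne R F t) := isNoetherianRing_chartOne (K₁ := K₁) t ht hK
  haveI : IsFractionRing ↥(chartOne R F t) F := isFractionRing_chartOne (K₁ := K₁) t hK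
  obtain ⟨hγ0, d, r, hd, hdr⟩ := deepRoot_normalise t ht0 𝔮 h
  obtain ⟨hγ0', d', r', hd', hdr'⟩ := deepRoot_normalise t ht0 𝔮 h'
  haveI : (𝔮.comap (Subalgebra.inclusion (chartOne_le_chartMid (R := R) (E := F) t))).IsPrime :=
    Ideal.comap_isPrime _ 𝔮
  have h1 : DeepRootAt (chartOne R F t) p ζ π (g / algebraMap K₁ F c)
      (𝔮.comap (Subalgebra.inclusion (chartOne_le_chartMid t))) γ := ⟨hγ0, d, r, hd, hdr⟩
  have h2 : DeepRootAt (chartOne R F t) p ζ π (g / algebraMap K₁ F c')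
      (𝔮.comap (Subalgebra.inclusion (chartOne_le_chartMid t))) γ' := ⟨hγ0', d', r', hd', hdr'⟩
  exact IsModelChart.constRel_of_deepRoots hmod₁ hπ hp he₁ hpe hAC _ hπ𝔮 hζ1 hg hc hc' h1 h2

/-- **one constant for the whole model.** -/
theorem exists_common_const (t : K) (ht : Transcendental K₁ t)
    (hK : IntermediateField.adjoin K₁ {t} = ⊤) (π : R) (hπ : Irreducible π) {p : ℕ}
    (hp : p.Prime) {e₁ : ℕ} (he₁ : 0 < e₁) {ε : Rˣ} (hpe : (p : R) = ε * π ^ e₁)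
    (hAC : ResAlgClosed π) {ζ : R} (hζ1 : ζ ≠ 1)
    (hM4 : ∀ x : F, IsAlgebraic K₁ x → x ∈ Set.range (algebraMap K₁ F))
    {𝔭inf₁ 𝔭0₁ : Ideal ↥(chartOne R F t)} (hmod₁ : IsModelChart F π 𝔭inf₁ 𝔭0₁)
    {g : F} (hg : g ≠ 0)
    (hb₁ : ∀ 𝔫 : Ideal ↥(chartOne R F t), 𝔫.IsMaximal → algebraMap R ↥(chartOne R F t) π ∈ 𝔫 →
      ∃ c : K₁, c ≠ 0 ∧ ∃ γ : F, DeepRootAt (chartOne R F t) p ζ π (g / algebraMap K₁ F c) 𝔫 γ)
    (hb₂ : ∀ 𝔫 : Ideal ↥(chartOne R F t⁻¹), 𝔫.IsMaximal →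
      algebraMap R ↥(chartOne R F t⁻¹) π ∈ 𝔫 →
      ∃ c : K₁, c ≠ 0 ∧ ∃ γ : F, DeepRootAt (chartOne R F t⁻¹) p ζ π (g / algebraMap K₁ F c) 𝔫 γ) :
    ∃ c₀ : K₁, c₀ ≠ 0 ∧
      (∀ 𝔫 : Ideal ↥(chartOne R F t), 𝔫.IsMaximal → algebraMap R ↥(chartOne R F t) π ∈ 𝔫 →
        ∃ γ : F, DeepRootAt (chartOne R F t) p ζ π (g / algebraMap K₁ F c₀) 𝔫 γ) ∧
      (∀ 𝔫 : Ideal ↥(chartOne R F t⁻¹), 𝔫.IsMaximal →
        algebraMap R ↥(chartOne R F t⁻¹) π ∈ 𝔫 →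
        ∃ γ : F, DeepRootAt (chartOne R F t⁻¹) p ζ π (g / algebraMap K₁ F c₀) 𝔫 γ) := by
  have ht0 : t ≠ 0 := fun h => ht (h ▸ isAlgebraic_zero)
  have hπp : Prime π := hπ.prime
  have ht' : Transcendental K₁ t⁻¹ := transcendental_inv_of_transcendental ht
  have hK' : IntermediateField.adjoin K₁ {t⁻¹} = ⊤ := adjoin_inv_eq_top hK
  haveI : IsScalarTower R K₁ F := isScalarTower_base_top R K₁ K F
  have hT₁ := coord_not_mem_of_mem_minimalPrimes (K₁ := K₁) (F := F) t ht hK π hπp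
  have hT₂ := coord_not_mem_of_mem_minimalPrimes (K₁ := K₁) (F := F) t⁻¹ ht' hK' π hπp
  -- the class attached to a sheet
  set Φ : SheetOf R F t π → Set K₁ := fun s =>
    {c | c ≠ 0 ∧ ∃ γ : F, DeepRootAt (chartMid R F t) p ζ π (g / algebraMap K₁ F c) s.1 γ} with hΦ
  have hsp : ∀ s : SheetOf R F t π, (s.1).IsPrime := fun s => s.2.1.1
  have hsπ : ∀ s : SheetOf R F t π, algebraMap R ↥(chartMid R F t) π ∈ s.1 := fun s =>
    s.2.1.2 (Ideal.subset_span (Set.mem_singleton _))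
  -- two members of a class are related
  have hA : ∀ (s : SheetOf R F t π) (c c' : K₁), c ∈ Φ s → c' ∈ Φ s →
      ConstRel p ((ζ - 1) ^ p * π) c c' := by
    rintro s c c' ⟨hc, γ, hγ⟩ ⟨hc', γ', hγ'⟩
    haveI := hsp s
    exact constRel_of_deepRoots_sheet (K₁ := K₁) t ht hK π hπ hp he₁ hpe hAC hζ1 hmod₁ hg s.1
      (hsπ s) hc hc' hγ hγ'
  -- a class is saturated
  have hB : ∀ (s : SheetOf R F t π) (c c' : K₁), c' ∈ Φ s → c ≠ 0 →
      ConstRel p ((ζ - 1) ^ p * π) c c' → c ∈ Φ s := by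
    rintro s c c' ⟨hc', γ', hγ'⟩ hc hrel
    exact ⟨hc, hγ'.of_constRel hc hc' hrel⟩
  -- two sheets with a common member have the same class
  have hC : ∀ (s s' : SheetOf R F t π) (c₁ : K₁), c₁ ∈ Φ s → c₁ ∈ Φ s' → Φ s = Φ s' := by
    intro s s' c₁ h1 h1'
    ext c
    constructor
    · intro hc
      exact hB s' c c₁ h1' hc.1 (hA s c c₁ hc h1)
    · intro hc
      exact hB s c c₁ h1 hc.1 (hA s' c c₁ hc h1')
  have hconst : ∀ s s' : SheetOf R F t π, Φ s = Φ s' := by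
    refine chart_sheet_const_rad (K₁ := K₁) t ht hK π hπp hM4 hT₁ hT₂ Φ ?_ ?_
    · intro 𝔑 h𝔑 s s' hs hs'
      have hπ𝔑 : algebraMap R ↥(chartOne R F t) π ∈ 𝔑 := hs (hsπ s)
      obtain ⟨c₁, hc₁, γ, hγ⟩ := hb₁ 𝔑 h𝔑 hπ𝔑
      exact hC s s' c₁
        ⟨hc₁, γ, hγ.through (chartOne_le_chartMid t) (through_of_comap_le _ hs)⟩
        ⟨hc₁, γ, hγ.through (chartOne_le_chartMid t) (through_of_comap_le _ hs')⟩
    · intro 𝔑 h𝔑 s s' hs hs'
      have hπ𝔑 : algebraMap R ↥(chartOne R F t⁻¹) π ∈ 𝔑 := hs (hsπ s)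
      obtain ⟨c₁, hc₁, γ, hγ⟩ := hb₂ 𝔑 h𝔑 hπ𝔑
      exact hC s s' c₁
        ⟨hc₁, γ, hγ.through (chartOne_inv_le_chartMid t ht0) (through_of_comap_le _ hs)⟩
        ⟨hc₁, γ, hγ.through (chartOne_inv_le_chartMid t ht0) (through_of_comap_le _ hs')⟩
  -- a base sheet and its constant
  obtain ⟨s₀⟩ := nonempty_sheetOf_rad (K₁ := K₁) (E := F) t ht hK π hπp hM4 hT₁ hT₂
  haveI := hsp s₀
  have hne : (s₀.1).comap (Subalgebra.inclusion (chartOne_le_chartMid (R := R) (E := F) t)) ≠ ⊤ :=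
    (Ideal.comap_isPrime _ s₀.1).ne_top
  obtain ⟨𝔑₀, h𝔑₀, hle₀⟩ := Ideal.exists_le_maximal _ hne
  have hπ𝔑₀ : algebraMap R ↥(chartOne R F t) π ∈ 𝔑₀ := hle₀ (hsπ s₀)
  obtain ⟨c₀, hc₀, γ₀, hγ₀⟩ := hb₁ 𝔑₀ h𝔑₀ hπ𝔑₀
  have hc₀Φ : c₀ ∈ Φ s₀ :=
    ⟨hc₀, γ₀, hγ₀.through (chartOne_le_chartMid t) (through_of_comap_le _ hle₀)⟩
  refine ⟨c₀, hc₀, ?_, ?_⟩
  · intro 𝔫 h𝔫 hπ𝔫
    haveI := h𝔫.isPrime
    obtain ⟨s, hs⟩ := exists_sheet_through_one (K₁ := K₁) t ht hK π hπp 𝔫 hπ𝔫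
    obtain ⟨c₁, hc₁, γ, hγ⟩ := hb₁ 𝔫 h𝔫 hπ𝔫
    have h1 : c₁ ∈ Φ s₀ := by
      rw [hconst s₀ s]
      exact ⟨hc₁, γ, hγ.through (chartOne_le_chartMid t) (through_of_comap_le _ hs)⟩
    exact hγ.of_constRel hc₀ hc₁ (hA s₀ c₀ c₁ hc₀Φ h1)
  · intro 𝔫 h𝔫 hπ𝔫
    haveI := h𝔫.isPrime
    obtain ⟨s, hs⟩ := exists_sheet_through_inv (K₁ := K₁) t ht hK π hπp 𝔫 hπ𝔫
    obtain ⟨c₁, hc₁, γ, hγ⟩ := hb₂ 𝔫 h𝔫 hπ𝔫
    have h1 : c₁ ∈ Φ s₀ := by
      rw [hconst s₀ s]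
      exact ⟨hc₁, γ, hγ.through (chartOne_inv_le_chartMid t ht0) (through_of_comap_le _ hs)⟩
    exact hγ.of_constRel hc₀ hc₁ (hA s₀ c₀ c₁ hc₀Φ h1)

end Glob

end Fermat.Agent.NP
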