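/-
NP33 (S33) — helper5 — package **[BRIDGE]**, part 10: **the consumer form of Theorem B**
(`kummer_inertia_pow_p_of_model`), the `p`-analogue of `SS.kummer_inertia_pow_of_model`.

`R` a discrete valuation ring of characteristic zero with algebraically closed residue field of
characteristic `p`, `π` a uniformizer, `p = ε π ^ e₁`, `ζ_p ∈ R`; `K₁ = Frac R`, `K = K₁(t)`, `F / K`
finite with constant field `K₁`; both charts carry the model data `IsModelChart`; `g` satisfies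
`IsKummerOnChart … p g` on both charts (`div g ∈ p Div` at the closed points) and has depth `≥ N`
(`ChartDepth`, `N` in the Hensel range `e₁ p < N (p - 1)`) along the four components, with
constants; `σ` is a ring endomorphism of `F`, trivial modulo `π` on both charts, `σ ζ = ζ ^ a`,
`σ K₁ ⊂ K₁`.  Then `σ g / g ^ a ∈ K₁ˣ · Fˣ ^ p`.
-/
import Fermat.Agent.NP.BRIDGE_helper5_Glob
import Fermat.Agent.SS.VERT_helper4_Closed

set_option autoImplicit false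
set_option linter.unusedSectionVars false
set_option linter.style.haveILetI false

namespace Fermat.Agent.NP

open Fermat.Agent.JA Fermat.Agent.SS Polynomial

section Base

variable {R : Type*} [CommRing R] [IsDomain R] [IsDiscreteValuationRing R]

/-- an algebraically closed residue field gives `ResAlgClosed`. -/
theorem resAlgClosed_of_isAlgClosed {π : R} (hπ : Irreducible π)
    [IsAlgClosed (IsLocalRing.ResidueField R)] : ResAlgClosed π := by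
  intro P hP hdeg
  have hmonic : (P.map (IsLocalRing.residue R)).Monic := hP.map _
  have hnd : (P.map (IsLocalRing.residue R)).natDegree = P.natDegree := hP.natDegree_map _
  have hd : (P.map (IsLocalRing.residue R)).degree ≠ 0 := by
    rw [Polynomial.degree_eq_natDegree hmonic.ne_zero, hnd]
    exact_mod_cast hdeg.ne'
  obtain ⟨β, hβ⟩ := IsAlgClosed.exists_root _ hd
  obtain ⟨b, rfl⟩ := IsLocalRing.residue_surjective β
  refine ⟨b, ?_⟩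
  have h1 : IsLocalRing.residue R (P.eval b) = 0 := by
    rw [← hβ.eq_zero, Polynomial.eval_map, Polynomial.eval₂_hom]
  have h2 : P.eval b ∈ IsLocalRing.maximalIdeal R := (IsLocalRing.residue_eq_zero_iff _).1 h1
  rw [hπ.maximalIdeal_eq, Ideal.mem_span_singleton] at h2
  exact h2

/-- `lam ^ p π ∣ π ^ N` in the Hensel range. -/
theorem lam_pow_mul_pi_dvd {π : R} (hπ : Irreducible π) {p : ℕ} (hp : p.Prime) {ζ : R}
    (hζ : IsPrimitiveRoot ζ p) {e₁ : ℕ} {ε : Rˣ} (hpe : (p : R) = ε * π ^ e₁) {N : ℕ}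
    (hN : e₁ * p < N * (p - 1)) : (ζ - 1) ^ p * π ∣ π ^ N := by
  have hζ1 : ζ - 1 ≠ 0 := sub_ne_zero.2 (hζ.ne_one hp.one_lt)
  obtain ⟨m, w, hw⟩ := IsDiscreteValuationRing.eq_unit_mul_pow_irreducible hζ1 hπ
  obtain ⟨z, -, hz⟩ := IsPrimitiveRoot.self_sub_one_pow_dvd_order (k := p - 1)
    (Nat.sub_lt hp.pos one_pos) hζ
  have h1 : π ^ (m * (p - 1)) ∣ π ^ e₁ := by
    have h2 : π ^ (m * (p - 1)) ∣ (ε : R) * π ^ e₁ := by
      rw [← hpe, hz, hw, mul_pow, ← pow_mul]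
      exact ⟨z * (w : R) ^ (p - 1), by ring⟩
    exact (IsUnit.dvd_mul_left ε.isUnit).1 h2
  have h3 : m * (p - 1) ≤ e₁ := (pow_dvd_pow_iff hπ.ne_zero hπ.not_isUnit).1 h1
  have h4 : m * p + 1 ≤ N := by
    by_contra hcon
    have h5 : N ≤ m * p := by omega
    have h6 : N * (p - 1) ≤ m * p * (p - 1) := Nat.mul_le_mul_right _ h5
    have h7 : m * p * (p - 1) ≤ e₁ * p := by
      calc m * p * (p - 1) = m * (p - 1) * p := by ring
        _ ≤ e₁ * p := Nat.mul_le_mul_right _ h3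
    omega
  rw [hw, mul_pow, ← pow_mul, mul_assoc, ← pow_succ]
  rw [← Units.val_pow_eq_pow_val]
  exact Units.mul_left_dvd.2 (pow_dvd_pow π h4)

end Base

section Final

variable {R : Type*} [CommRing R] [IsDomain R] [IsDiscreteValuationRing R]
  [CharZero R] {K₁ : Type*} [Field K₁] [Algebra R K₁]
  [IsFractionRing R K₁] {K : Type*} [Field K] [Algebra K₁ K] [Algebra R K] [IsScalarTower R K₁ K]
  {F : Type*} [Field F] [Algebra K F] [Algebra K₁ F] [IsScalarTower K₁ K F] [Algebra R F]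
  [IsScalarTower R K F] [FiniteDimensional K F]

/-- **deep roots at all closed points of a model chart, with the constant of a component through
the point.** -/
theorem IsModelChart.exists_deepRoot_of_chartDepth (t : K) (ht : Transcendental K₁ t)
    (hK : IntermediateField.adjoin K₁ {t} = ⊤) (π : R) (hπ : Irreducible π) {p : ℕ}
    (hp : p.Prime) {e₁ : ℕ} (he₁ : 0 < e₁) {ε : Rˣ} (hpe : (p : R) = ε * π ^ e₁)
    [IsAlgClosed (IsLocalRing.ResidueField R)] (ζ : R) (hζ : IsPrimitiveRoot ζ p)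
    {𝔭inf 𝔭0 : Ideal ↥(chartOne R F t)} (hmod : IsModelChart F π 𝔭inf 𝔭0)
    {g : F} (hg : g ≠ 0) (hk : IsKummerOnChart π 𝔭inf 𝔭0 p g)
    {N : ℕ} (hN : e₁ * p < N * (p - 1)) (cinf c0 : K₁) (hcinf : cinf ≠ 0) (hc0 : c0 ≠ 0)
    (hdinf : ChartDepth (chartOne R F t) π p 𝔭inf N g (algebraMap K₁ F cinf))
    (hd0 : ChartDepth (chartOne R F t) π p 𝔭0 N g (algebraMap K₁ F c0))
    (𝔫 : Ideal ↥(chartOne R F t)) (h𝔫 : 𝔫.IsMaximal)
    (hπ𝔫 : algebraMap R ↥(chartOne R F t) π ∈ 𝔫) :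
    ∃ c : K₁, c ≠ 0 ∧ ∃ γ : F,
      DeepRootAt (chartOne R F t) p ζ π (g / algebraMap K₁ F c) 𝔫 γ := by
  haveI : IsScalarTower R K₁ F := isScalarTower_base_top R K₁ K F
  haveI : IsIntegrallyClosed ↥(chartOne R F t) := isIntegrallyClosed_chartOne (K₁ := K₁) t hK
  haveI : IsNoetherianRing ↥(chartOne R F t) := isNoetherianRing_chartOne (K₁ := K₁) t ht hK
  haveI : IsFractionRing ↥(chartOne R F t) F := isFractionRing_chartOne (K₁ := K₁) t hK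
  haveI := h𝔫
  haveI := h𝔫.isPrime
  have hinjF : Function.Injective (algebraMap R F) :=
    algebraMap_injective_of_tower (K₁ := K₁) (K := K)
  have hπ1 : algebraMap R ↥(chartOne R F t) π ≠ 0 := by
    intro h0
    have := congrArg (fun w : ↥(chartOne R F t) => (w : F)) h0
    exact hπ.ne_zero (hinjF (by rw [map_zero]; exact this))
  have hAC : ResAlgClosed π := resAlgClosed_of_isAlgClosed hπ
  have hlamN := lam_pow_mul_pi_dvd hπ hp hζ hpe hN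
  have hcl := hmod.closed_datum hπ hπ1 hp.ne_zero hg hk 𝔫 h𝔫 hπ𝔫
  have hres : ∀ b : ↥(chartOne R F t), ∃ a : R, b - algebraMap R ↥(chartOne R F t) a ∈ 𝔫 :=
    fun b => exists_sub_mem_of_isMaximal_chartOne (K₁ := K₁) hπ ht hK 𝔫 hπ𝔫 b
  obtain ⟨h1, h2⟩ := IsModelChart.deepRoot_of_depth (K₁ := K₁) hmod hπ hp he₁ hpe hAC 𝔫 h𝔫 hπ𝔫
    hres hN ζ hlamN hcl cinf c0 hcinf hc0 (fun _ => hdinf) (fun _ => hd0)
  rcases le_or_le_of_mem hmod.mem_inf hmod.mem_zero hmod.inf_le 𝔫 hπ𝔫 with hle | hle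
  · exact ⟨cinf, hcinf, h1 hle⟩
  · exact ⟨c0, hc0, h2 hle⟩

/-- **Theorem B for a two-chart model** (consumer form): `σ g / g ^ a ∈ K₁ˣ · Fˣ ^ p`. -/
theorem kummer_inertia_pow_p_of_model
    (t : K) (ht : Transcendental K₁ t) (hK : IntermediateField.adjoin K₁ {t} = ⊤)
    (π : R) (hπ : Irreducible π) {p : ℕ} (hp : p.Prime) {e₁ : ℕ} (he₁ : 0 < e₁) {ε : Rˣ}
    (hpe : (p : R) = ε * π ^ e₁) [IsAlgClosed (IsLocalRing.ResidueField R)]
    (ζ : R) (hζ : IsPrimitiveRoot ζ p)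
    (hM4 : ∀ x : F, IsAlgebraic K₁ x → x ∈ Set.range (algebraMap K₁ F))
    {𝔭inf₁ 𝔭0₁ : Ideal ↥(chartOne R F t)} (hmod₁ : IsModelChart F π 𝔭inf₁ 𝔭0₁)
    {𝔭inf₂ 𝔭0₂ : Ideal ↥(chartOne R F t⁻¹)} (hmod₂ : IsModelChart F π 𝔭inf₂ 𝔭0₂)
    (a : ℕ) (σ : F →+* F)
    (hσ₁ : ∀ x ∈ chartOne R F t, ∃ z ∈ chartOne R F t, σ x = x + algebraMap R F π * z)
    (hσ₂ : ∀ x ∈ chartOne R F t⁻¹, ∃ z ∈ chartOne R F t⁻¹, σ x = x + algebraMap R F π * z)
    (hσζ : σ (algebraMap R F ζ) = algebraMap R F ζ ^ a)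
    (hσK : ∀ c : K₁, ∃ c' : K₁, σ (algebraMap K₁ F c) = algebraMap K₁ F c')
    (g : F) (hg : g ≠ 0)
    (hk₁ : IsKummerOnChart π 𝔭inf₁ 𝔭0₁ p g) (hk₂ : IsKummerOnChart π 𝔭inf₂ 𝔭0₂ p g)
    {N : ℕ} (hN : e₁ * p < N * (p - 1))
    (cinf₁ c0₁ cinf₂ c0₂ : K₁) (hcinf₁ : cinf₁ ≠ 0) (hc0₁ : c0₁ ≠ 0) (hcinf₂ : cinf₂ ≠ 0)
    (hc0₂ : c0₂ ≠ 0)
    (hdinf₁ : ChartDepth (chartOne R F t) π p 𝔭inf₁ N g (algebraMap K₁ F cinf₁))
    (hd0₁ : ChartDepth (chartOne R F t) π p 𝔭0₁ N g (algebraMap K₁ F c0₁))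
    (hdinf₂ : ChartDepth (chartOne R F t⁻¹) π p 𝔭inf₂ N g (algebraMap K₁ F cinf₂))
    (hd0₂ : ChartDepth (chartOne R F t⁻¹) π p 𝔭0₂ N g (algebraMap K₁ F c0₂)) :
    ∃ (c : K₁) (u : F), c ≠ 0 ∧ σ g / g ^ a = algebraMap K₁ F c * u ^ p := by
  have ht' := transcendental_inv_of_transcendental ht
  have hK' := adjoin_inv_eq_top hK
  have hAC : ResAlgClosed π := resAlgClosed_of_isAlgClosed hπ
  have hζ1 : ζ ≠ 1 := hζ.ne_one hp.one_lt
  obtain ⟨c₀, hc₀, hb₁, hb₂⟩ := exists_common_const (K₁ := K₁) t ht hK π hπ hp he₁ hpe hAC hζ1 hM4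
    hmod₁ hg
    (fun 𝔫 h𝔫 hπ𝔫 => IsModelChart.exists_deepRoot_of_chartDepth (K₁ := K₁) t ht hK π hπ hp he₁ hpe
      ζ hζ hmod₁ hg hk₁ hN cinf₁ c0₁ hcinf₁ hc0₁ hdinf₁ hd0₁ 𝔫 h𝔫 hπ𝔫)
    (fun 𝔫 h𝔫 hπ𝔫 => IsModelChart.exists_deepRoot_of_chartDepth (K₁ := K₁) t⁻¹ ht' hK' π hπ hp he₁
      hpe ζ hζ hmod₂ hg hk₂ hN cinf₂ c0₂ hcinf₂ hc0₂ hdinf₂ hd0₂ 𝔫 h𝔫 hπ𝔫)
  have hC₀ : algebraMap K₁ F c₀ ≠ 0 := by rwa [Ne, map_eq_zero]
  have hg' : g / algebraMap K₁ F c₀ ≠ 0 := div_ne_zero hg hC₀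
  obtain ⟨c, u, hc, hcu⟩ := kummer_inertia_pow_p (K₁ := K₁) ht hK hπ.prime hp hζ hM4 a σ hσ₁ hσ₂ hσζ
    (g / algebraMap K₁ F c₀) hg' hb₁ hb₂
  obtain ⟨c₀', hc₀'⟩ := hσK c₀
  have hc₀'0 : c₀' ≠ 0 := by
    rintro rfl
    rw [map_zero] at hc₀'
    exact hC₀ ((map_eq_zero σ).1 hc₀')
  have hC₀' : algebraMap K₁ F c₀' ≠ 0 := by rwa [Ne, map_eq_zero]
  refine ⟨c * c₀' / c₀ ^ a, u, div_ne_zero (mul_ne_zero hc hc₀'0) (pow_ne_zero _ hc₀), ?_⟩
  rw [map_div₀, hc₀', div_pow] at hcu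
  rw [map_div₀, map_mul, map_pow]
  have hga : g ^ a ≠ 0 := pow_ne_zero _ hg
  have hCa : algebraMap K₁ F c₀ ^ a ≠ 0 := pow_ne_zero _ hC₀
  field_simp at hcu ⊢
  linear_combination hcu

end Final

end Fermat.Agent.NP
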