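/-
NP33 (S33) — helper5 — package **[BRIDGE]**, part 11: **`ChartDepth` versus `Sheet.DepthGE`**.

* `chartDepth_iff` : `ChartDepth B π p 𝔭 N g c ↔ ∃ γ ≠ 0, g / (c γ ^ p) - 1 ∈ π ^ N B_𝔭`;
* `chartSheet_depthGE_iff` : `DepthGE g N` on the sheet `B_𝔭` of the chart model
  `↔ ∃ c : K₁, c ≠ 0 ∧ ChartDepth B π p 𝔭 N g c`.
-/
import Fermat.Agent.NP.BRIDGE_helper5_Main

set_option autoImplicit false
set_option linter.unusedSectionVars false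

namespace Fermat.Agent.NP

open Polynomial Fermat.Agent.SS

section Conv

variable {R : Type*} [CommRing R] {F : Type*} [Field F] [Algebra R F]
  {B : Subalgebra R F} {𝔭 : Ideal ↥B} [h𝔭 : 𝔭.IsPrime]

/-- `ChartDepth` in the language of `PiDvd`. -/
theorem chartDepth_iff (π : R) (p N : ℕ) {g c : F} (hc : c ≠ 0) :
    ChartDepth B π p 𝔭 N g c ↔
      ∃ γ : F, γ ≠ 0 ∧ PiDvd (algebraMap R F π) (locSub B 𝔭) N (g / (c * γ ^ p) - 1) := by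
  constructor
  · rintro ⟨γ, hγ, a, b, hb, hab⟩
    refine ⟨γ, hγ, (piDvd_locSub_iff π N).2 ⟨a, b, hb, ?_⟩⟩
    have hb0 : (b : F) ≠ 0 := ne_zero_of_notMem hb
    have hγp : γ ^ p ≠ 0 := pow_ne_zero _ hγ
    rw [sub_mul, div_mul_eq_mul_div, hab]
    field_simp
    ring
  · rintro ⟨γ, hγ, h⟩
    obtain ⟨a, s, hs, hx⟩ := (piDvd_locSub_iff π N).1 h
    refine ⟨γ, hγ, a, s, hs, ?_⟩
    have hγp : γ ^ p ≠ 0 := pow_ne_zero _ hγ
    have hcg : c * γ ^ p ≠ 0 := mul_ne_zero hc hγp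
    have h1 : g * (s : F) = c * γ ^ p * ((g / (c * γ ^ p) - 1) * (s : F) + (s : F)) := by
      field_simp
      ring
    rw [h1, hx]
    ring

end Conv

section SheetConv

variable {R : Type*} [CommRing R] [IsDomain R] [IsDiscreteValuationRing R]
  {K₁ : Type*} [Field K₁] [Algebra R K₁] [IsFractionRing R K₁]
  {F : Type*} [Field F] [Algebra K₁ F] [Algebra R F] [IsScalarTower R K₁ F]
  {B : Subalgebra R F} [IsNoetherianRing ↥B] [IsFractionRing ↥B F]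
  {π : R} (hπ : Irreducible π) {p : ℕ} (hp : p.Prime) {e₁ : ℕ} (he₁ : 0 < e₁) {ε : Rˣ}
  (hpe : (p : R) = ε * π ^ e₁) (hAC : ResAlgClosed π)

/-- `DepthGE` on the sheet of a component of the chart, in chart form. -/
theorem chartSheet_depthGE_iff (𝔭 : Ideal ↥B) [h𝔭 : 𝔭.IsPrime] (hπ𝔭 : algebraMap R ↥B π ∈ 𝔭)
    (hloc : ∀ z ∈ 𝔭, ∃ s : ↥B, s ∉ 𝔭 ∧ algebraMap R ↥B π ∣ s * z) (g : F) (N : ℕ) :
    (chartSheet (K₁ := K₁) hπ hp he₁ hpe hAC 𝔭 hπ𝔭 hloc).DepthGE g N ↔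
      ∃ c : K₁, c ≠ 0 ∧ ChartDepth B π p 𝔭 N g (algebraMap K₁ F c) := by
  constructor
  · rintro ⟨_, ⟨c, rfl⟩, γ, hc, hγ, h⟩
    have hc0 : c ≠ 0 := by
      rintro rfl
      exact hc (map_zero _)
    exact ⟨c, hc0, (chartDepth_iff π p N hc).2 ⟨γ, hγ, h⟩⟩
  · rintro ⟨c, hc, h⟩
    have hcF : algebraMap K₁ F c ≠ 0 := by rwa [Ne, map_eq_zero]
    obtain ⟨γ, hγ, h'⟩ := (chartDepth_iff π p N hcF).1 h
    exact ⟨algebraMap K₁ F c, ⟨c, rfl⟩, γ, hcF, hγ, h'⟩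

end SheetConv

end Fermat.Agent.NP
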