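/-
NP33 (S33) — helper5 — package **[HOSTP]**, part 1: **the localisation of a chart at a component
is the valuation ring of the sheet** (`locSub_eq_toSubring`, `locSub_sheetIdeal_eq`).

So the sheets `B_𝔭` of the two charts `chartOne R E u`, `chartOne R E u⁻¹` are the same subring of
`E`, and depths (`ChartDepth`, `Sheet.DepthGE`) transfer between charts.
-/
import Fermat.Agent.NP.BRIDGE_helper5_Conv
import Fermat.Agent.SS.VERT_helper4

set_option autoImplicit false
set_option linter.unusedSectionVars false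

namespace Fermat.Agent.NP

open Fermat.Agent.SS Fermat.Agent.JA

section Loc

variable {R : Type*} [CommRing R] [IsDomain R] [IsDiscreteValuationRing R]
  {K₁ : Type*} [Field K₁] [Algebra R K₁] [IsFractionRing R K₁]
  {F : Type*} [Field F] [Algebra K₁ F] [Algebra R F] [IsScalarTower R K₁ F]
  {B : Subalgebra R F} [IsNoetherianRing ↥B] [IsFractionRing ↥B F]
  {𝔭 : Ideal ↥B} [h𝔭 : 𝔭.IsPrime] {π : R}

/-- **`B_𝔭 = W`** for a valuation ring `W ⊇ B` of `F` whose maximal ideal contracts to `𝔭`, if `𝔭` is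
locally generated by `π`. -/
theorem locSub_eq_toSubring (W : ValuationSubring F) (hBW : ∀ b : ↥B, (b : F) ∈ W)
    (hW𝔭 : ∀ b : ↥B, b ∈ 𝔭 ↔ W.valuation (b : F) < 1)
    (hπ𝔭 : algebraMap R ↥B π ∈ 𝔭)
    (hloc : ∀ z ∈ 𝔭, ∃ s : ↥B, s ∉ 𝔭 ∧ algebraMap R ↥B π ∣ s * z) :
    locSub B 𝔭 = W.toSubring := by
  have hunit : ∀ s : ↥B, s ∉ 𝔭 → W.valuation (s : F) = 1 := by
    intro s hs
    refine le_antisymm ((ValuationSubring.valuation_le_one_iff W _).2 (hBW s)) ?_
    by_contra hlt
    exact hs ((hW𝔭 s).2 (not_le.1 hlt))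
  have hle : ∀ x ∈ locSub B 𝔭, x ∈ W := by
    rintro x ⟨a, s, hs, hx⟩
    rw [← ValuationSubring.valuation_le_one_iff]
    have h1 : W.valuation x * W.valuation (s : F) = W.valuation (a : F) := by
      rw [← map_mul, hx]
    rw [hunit s hs, mul_one] at h1
    rw [h1]
    exact (ValuationSubring.valuation_le_one_iff W _).2 (hBW a)
  apply le_antisymm
  · exact hle
  · intro x hx
    by_cases hx0 : x = 0
    · subst hx0
      exact (locSub B 𝔭).zero_mem
    obtain ⟨n, u, hu, hu', rfl⟩ := unif_locSub hπ𝔭 hloc hx0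
    have hvu : W.valuation u = 1 := by
      have h1 : W.valuation u ≤ 1 := (ValuationSubring.valuation_le_one_iff W _).2 (hle u hu)
      have h2 : W.valuation u⁻¹ ≤ 1 := (ValuationSubring.valuation_le_one_iff W _).2 (hle _ hu')
      have hu0 : u ≠ 0 := by
        rintro rfl
        simp at hx0
      rw [map_inv₀] at h2
      have h3 : W.valuation u ≠ 0 := (map_ne_zero _).2 hu0
      refine le_antisymm h1 ?_
      have := (inv_le_one₀ (zero_lt_iff.2 h3)).1 h2
      exact this
    have hvπ : W.valuation (algebraMap R F π) < 1 := (hW𝔭 _).1 hπ𝔭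
    rcases le_or_gt 0 n with hn | hn
    · obtain ⟨k, rfl⟩ := Int.eq_ofNat_of_zero_le hn
      rw [zpow_natCast]
      exact (locSub B 𝔭).mul_mem ((locSub B 𝔭).pow_mem (algebraMap_mem_locSub _) k) hu
    · exfalso
      have hπF0 : algebraMap R F π ≠ 0 := by
        intro h0
        rw [h0, zero_zpow n hn.ne, zero_mul] at hx0
        exact hx0 rfl
      have hx' : W.valuation (algebraMap R F π ^ n * u) ≤ 1 :=
        (ValuationSubring.valuation_le_one_iff W _).2 hx
      rw [map_mul, hvu, mul_one, map_zpow₀] at hx'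
      obtain ⟨k, hk⟩ := Int.exists_eq_neg_ofNat hn.le
      have hk1 : 1 ≤ k := by omega
      rw [hk, zpow_neg, zpow_natCast] at hx'
      have hv0 : W.valuation (algebraMap R F π) ≠ 0 := (map_ne_zero _).2 hπF0
      have h4 : W.valuation (algebraMap R F π) ^ k < 1 :=
        pow_lt_one₀ zero_le hvπ (by omega)
      have h5 : 1 ≤ W.valuation (algebraMap R F π) ^ k :=
        (inv_le_one₀ (zero_lt_iff.2 (pow_ne_zero k hv0))).1 hx'
      exact absurd h5 (not_le.2 h4)

end Loc

end Fermat.Agent.NP
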