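import Mathlib
import Fermat.Agent.NP.IFACE_helper5_Defs
import Fermat.Agent.NP.EXT_helper5_Basic
import Fermat.Agent.NP.EXT_helper5_LT
import Fermat.Agent.NP.EXT_helper5_Step
import Fermat.Agent.NP.EXT_helper5_Conv

/-!
# NP33 — helper7 — [NORMP]/[OLDP]: the calculus of `Sheet.DepthGE`

`S.DepthGE f i` (`f ≡ c γ ^ p mod π ^ i` multiplicatively) in product form
`f = c γ ^ p (1 + π ^ i s)`; the classes of depth `≥ i` form a subgroup of `Fˣ` containing the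
constants and the `p`-th powers; unit normal form.
-/

set_option autoImplicit false

namespace Fermat.Agent.NP

variable {F : Type*} [Field F] {p : ℕ} {B : DepthBase F p} (S : Sheet B)

/-- product form of `DepthGE`. -/
theorem Sheet.depthGE_iff {f : F} {i : ℕ} :
    S.DepthGE f i ↔ ∃ c ∈ B.K₁, ∃ γ s : F, c ≠ 0 ∧ γ ≠ 0 ∧ s ∈ S.W ∧
      f = c * γ ^ p * (1 + B.π ^ i * s) := by
  constructor
  · rintro ⟨c, hc, γ, hc0, hγ0, s, hs, h⟩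
    refine ⟨c, hc, γ, s, hc0, hγ0, hs, ?_⟩
    have h0 : c * γ ^ p ≠ 0 := mul_ne_zero hc0 (pow_ne_zero p hγ0)
    have h1 : f / (c * γ ^ p) = 1 + B.π ^ i * s := by linear_combination h
    rw [div_eq_iff h0] at h1
    rw [h1]
    ring
  · rintro ⟨c, hc, γ, s, hc0, hγ0, hs, h⟩
    refine ⟨c, hc, γ, hc0, hγ0, s, hs, ?_⟩
    have h0 : c * γ ^ p ≠ 0 := mul_ne_zero hc0 (pow_ne_zero p hγ0)
    rw [h, mul_comm (c * γ ^ p), mul_div_assoc, div_self h0]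
    ring

variable {S}

theorem Sheet.DepthGE.mono {f : F} {i j : ℕ} (h : S.DepthGE f j) (hij : i ≤ j) :
    S.DepthGE f i := by
  obtain ⟨c, hc, γ, hc0, hγ0, h⟩ := h
  exact ⟨c, hc, γ, hc0, hγ0, h.mono S.π_mem hij⟩

theorem Sheet.DepthGE.ne_zero {f : F} {i : ℕ} (hi : 1 ≤ i) (h : S.DepthGE f i) : f ≠ 0 := by
  obtain ⟨c, hc, γ, s, hc0, hγ0, hs, rfl⟩ := S.depthGE_iff.mp h
  exact mul_ne_zero (mul_ne_zero hc0 (pow_ne_zero p hγ0)) (S.isUnitIn_one_add_pow_mul hi hs).2.2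

theorem Sheet.DepthGE.mul {f g : F} {i : ℕ} (hf : S.DepthGE f i) (hg : S.DepthGE g i) :
    S.DepthGE (f * g) i := by
  obtain ⟨c, hc, γ, s, hc0, hγ0, hs, rfl⟩ := S.depthGE_iff.mp hf
  obtain ⟨c', hc', γ', s', hc0', hγ0', hs', rfl⟩ := S.depthGE_iff.mp hg
  refine S.depthGE_iff.mpr ⟨c * c', B.K₁.mul_mem hc hc', γ * γ', s + s' + B.π ^ i * (s * s'),
    mul_ne_zero hc0 hc0', mul_ne_zero hγ0 hγ0', ?_, ?_⟩
  · exact S.W.add_mem (S.W.add_mem hs hs')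
      (S.W.mul_mem (S.W.pow_mem S.π_mem i) (S.W.mul_mem hs hs'))
  · ring

theorem Sheet.DepthGE.inv {f : F} {i : ℕ} (hi : 1 ≤ i) (hf : S.DepthGE f i) :
    S.DepthGE f⁻¹ i := by
  obtain ⟨c, hc, γ, s, hc0, hγ0, hs, rfl⟩ := S.depthGE_iff.mp hf
  have hu := S.isUnitIn_one_add_pow_mul hi hs
  refine S.depthGE_iff.mpr ⟨c⁻¹, B.K₁.inv_mem hc, γ⁻¹, -(s * (1 + B.π ^ i * s)⁻¹),
    inv_ne_zero hc0, inv_ne_zero hγ0, S.W.neg_mem (S.W.mul_mem hs hu.2.1), ?_⟩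
  have h0 := hu.2.2
  have hγp : γ ^ p ≠ 0 := pow_ne_zero p hγ0
  rw [inv_pow]
  field_simp
  ring

variable (S)

theorem Sheet.depthGE_one_add {s : F} (hs : s ∈ S.W) (i : ℕ) :
    S.DepthGE (1 + B.π ^ i * s) i :=
  S.depthGE_iff.mpr ⟨1, B.K₁.one_mem, 1, s, one_ne_zero, one_ne_zero, hs, by ring⟩

theorem Sheet.depthGE_pow {g : F} (hg : g ≠ 0) (i : ℕ) : S.DepthGE (g ^ p) i :=
  S.depthGE_iff.mpr ⟨1, B.K₁.one_mem, g, 0, one_ne_zero, hg, S.W.zero_mem, by ring⟩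

theorem Sheet.depthGE_const {c : F} (hc : c ∈ B.K₁) (hc0 : c ≠ 0) (i : ℕ) : S.DepthGE c i :=
  S.depthGE_iff.mpr ⟨c, hc, 1, 0, hc0, one_ne_zero, S.W.zero_mem, by ring⟩

variable {S}

theorem Sheet.DepthGE.mul_pow {f : F} {i : ℕ} (hf : S.DepthGE f i) {g : F} (hg : g ≠ 0) :
    S.DepthGE (f * g ^ p) i := hf.mul (S.depthGE_pow hg i)

theorem Sheet.DepthGE.mul_const {f : F} {i : ℕ} (hf : S.DepthGE f i) {c : F} (hc : c ∈ B.K₁)
    (hc0 : c ≠ 0) : S.DepthGE (f * c) i := hf.mul (S.depthGE_const hc hc0 i)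

theorem Sheet.DepthGE.div {f g : F} {i : ℕ} (hi : 1 ≤ i) (hf : S.DepthGE f i)
    (hg : S.DepthGE g i) : S.DepthGE (f / g) i := by
  rw [div_eq_mul_inv]
  exact hf.mul (hg.inv hi)

/-- depth only depends on the class modulo `π ^ i` of a unit. -/
theorem Sheet.DepthGE.of_piDvd_sub {f f' : F} {i : ℕ} (hf : S.DepthGE f i)
    (hu : IsUnitIn S.W f) (h : PiDvd B.π S.W i (f' - f)) : S.DepthGE f' i := by
  obtain ⟨t, ht, e⟩ := h
  have e' : f' = f * (1 + B.π ^ i * (t * f⁻¹)) := by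
    have h0 := hu.2.2
    field_simp
    linear_combination e
  rw [e']
  exact hf.mul (S.depthGE_one_add (S.W.mul_mem ht hu.2.1) i)

/-- unit normal form. -/
theorem Sheet.DepthGE.exists_unit_rep {f : F} {i : ℕ} (hi : 1 ≤ i) (hu : IsUnitIn S.W f)
    (h : S.DepthGE f i) :
    ∃ c γ s, IsUnitIn B.R₁ c ∧ IsUnitIn S.W γ ∧ s ∈ S.W ∧ f = c * γ ^ p * (1 + B.π ^ i * s) := by
  obtain ⟨c, hc, γ, s, hc0, hγ0, hs, e⟩ := S.depthGE_iff.mp h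
  have hu1 := S.isUnitIn_one_add_pow_mul hi hs
  have hU : IsUnitIn S.W (f * (1 + B.π ^ i * s)⁻¹) := hu.mul hu1.inv
  have hcg : c * γ ^ p = f * (1 + B.π ^ i * s)⁻¹ := by
    have h0 := hu1.2.2
    rw [e]
    field_simp
  obtain ⟨c', g', hc', hg', e'⟩ := S.exists_unit_rep' hc hc0 hγ0 hU hcg
  refine ⟨c', g', s, hc', hg', hs, ?_⟩
  rw [e']
  have h0 := hu1.2.2
  field_simp

/-- **(LT), relative form**: `c g ^ p (1 + π ^ j z) = 1 + π ^ j y` ⇒ the leading term of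
`y - z` has the admissible shape. -/
theorem Sheet.leading_term_rel (S : Sheet B)
    (hp : p.Prime) {c g y z : F} {j : ℕ} (hc : c ∈ B.K₁) (hc0 : c ≠ 0) (hg0 : g ≠ 0)
    (hy : y ∈ S.W) (hz : z ∈ S.W) (hj : 1 ≤ j) (hje : j * (p - 1) ≤ B.e₁ * p)
    (h : c * g ^ p * (1 + B.π ^ j * z) = 1 + B.π ^ j * y) :
    ∃ a ∈ B.R₁, ∃ h' ∈ S.W, PiDvd B.π S.W 1 (y - z - a - (h' ^ p + B.τ j * h')) ∧
      (h' = 0 ∨ p ∣ j) := by
  have hu := S.isUnitIn_one_add_pow_mul hj hz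
  have h0 := hu.2.2
  have hs' : (y - z) * (1 + B.π ^ j * z)⁻¹ ∈ S.W := S.W.mul_mem (S.W.sub_mem hy hz) hu.2.1
  have e : c * g ^ p = 1 + B.π ^ j * ((y - z) * (1 + B.π ^ j * z)⁻¹) := by
    field_simp
    linear_combination h
  obtain ⟨a, ha, h', hh', hsh, hor⟩ := S.leading_term hp hc hc0 hg0 hs' hj hje e
  refine ⟨a, ha, h', hh', ?_, hor⟩
  have hd : PiDvd B.π S.W 1 ((y - z) * (1 + B.π ^ j * z)⁻¹ - (y - z)) := by
    obtain ⟨k, rfl⟩ := Nat.exists_eq_add_of_le hj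
    refine ⟨-(B.π ^ k * z * (y - z) * (1 + B.π ^ (1 + k) * z)⁻¹), S.W.neg_mem (S.W.mul_mem
      (S.W.mul_mem (S.W.mul_mem (S.W.pow_mem S.π_mem k) hz) (S.W.sub_mem hy hz)) hu.2.1), ?_⟩
    have hv : (1 + B.π ^ (1 + k) * z)⁻¹ * (1 + B.π ^ (1 + k) * z) = 1 := inv_mul_cancel₀ h0
    linear_combination (y - z) * hv
  have := hsh.sub hd
  have e2 : (y - z) * (1 + B.π ^ j * z)⁻¹ - a - (h' ^ p + B.τ j * h')
      - ((y - z) * (1 + B.π ^ j * z)⁻¹ - (y - z)) = y - z - a - (h' ^ p + B.τ j * h') := by ring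
  rwa [e2] at this

end Fermat.Agent.NP
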