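/-
NP33 (S33) — helper5 — package **[HOSTP]**, part 2: **`IsKummerOnChart … p g` from the places and
the depth** (`isKummerOnChart_of_place_of_depth`).

* `Sheet.exists_unit_pow_of_depthGE_one` : a unit of depth `≥ 1` on a sheet is the `p`-th power of a
  unit modulo `π` (the residue field of the base is perfect);
* `exists_pow_datum_of_chartDepth` : the clause `pow` of `IsKummerOnChart` for `m = p`;
* `isKummerOnChart_of_place_of_depth` : `div` from the orders at the places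
  (`isKummerAtPrime_of_place`), `pow` from the depth along `𝔭∞`, `zero` from `g` being a unit
  along `𝔭0`.
-/
import Fermat.Agent.NP.HOSTP_helper5_Loc
import Fermat.Agent.NP.NORMP_helper7_Depth
import Fermat.Agent.NP.BRIDGE_helper5_Unif
import Fermat.Agent.SS.GLUE_helper3_C

set_option autoImplicit false
set_option linter.unusedSectionVars false
set_option linter.style.haveILetI false

open AlgebraicCurve

namespace Fermat.Agent.NP

open Fermat.Agent.SS Fermat.Agent.JA Fermat.Agent.FF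

section Abstract

variable {F : Type*} [Field F] {p : ℕ} {B : DepthBase F p} (S : Sheet B)

/-- a unit of depth `≥ 1` is a `p`-th power of a unit modulo `π`. -/
theorem Sheet.exists_unit_pow_of_depthGE_one (hp : 0 < p) {g : F} (hg : IsUnitIn S.W g)
    (h : S.DepthGE g 1) :
    ∃ θ : F, IsUnitIn S.W θ ∧ PiDvd B.π S.W 1 (g - θ ^ p) := by
  obtain ⟨c, γ, s, hc, hγ, hs, e⟩ := h.exists_unit_rep le_rfl hg
  obtain ⟨b, hb, y, hy, hby⟩ := B.asclosed c hc.1 0 B.R₁.zero_mem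
  rw [zero_mul, add_zero] at hby
  -- `b` is a unit
  have hb0 : b ≠ 0 := by
    rintro rfl
    rw [zero_pow hp.ne', zero_sub] at hby
    -- `c = - π y` is not a unit
    have h1 : PiDvd B.π S.W 1 c :=
      ⟨-y, S.W.neg_mem (S.R₁_le hy), by rw [pow_one] at hby ⊢; linear_combination -hby⟩
    exact S.inv_notMem_of_piDvd hc.2.2 h1 (S.R₁_le hc.2.1)
  have hbu : IsUnitIn B.R₁ b := by
    refine ⟨hb, ?_, hb0⟩
    rcases B.inv_mem_or_piDvd hb hb0 with h1 | ⟨z, hz, hbz⟩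
    · exact h1
    · exfalso
      have h1 : PiDvd B.π S.W 1 c := by
        refine ⟨z * b ^ (p - 1) - y, S.W.sub_mem (S.W.mul_mem (S.R₁_le hz)
          (S.W.pow_mem (S.R₁_le hb) _)) (S.R₁_le hy), ?_⟩
        have e1 : b ^ p = b * b ^ (p - 1) := by
          rw [← pow_succ', Nat.sub_add_cancel hp]
        rw [e1] at hby
        rw [pow_one] at hby hbz ⊢
        linear_combination -hby + (b ^ (p - 1)) * hbz
      exact S.inv_notMem_of_piDvd hc.2.2 h1 (S.R₁_le hc.2.1)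
  refine ⟨b * γ, ⟨S.W.mul_mem (S.R₁_le hbu.1) hγ.1, by
    rw [mul_inv]; exact S.W.mul_mem (S.R₁_le hbu.2.1) hγ.2.1, mul_ne_zero hb0 hγ.2.2⟩, ?_⟩
  refine ⟨c * γ ^ p * s - y * γ ^ p, S.W.sub_mem (S.W.mul_mem (S.W.mul_mem (S.R₁_le hc.1)
    (S.W.pow_mem hγ.1 _)) hs) (S.W.mul_mem (S.R₁_le hy) (S.W.pow_mem hγ.1 _)), ?_⟩
  rw [e, mul_pow]
  rw [pow_one] at hby ⊢
  linear_combination (-(γ ^ p)) * hby

end Abstract

section Chart

variable {R : Type*} [CommRing R] [IsDomain R] [IsDiscreteValuationRing R]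
  {K₁ : Type*} [Field K₁] [Algebra R K₁] [IsFractionRing R K₁]
  {F : Type*} [Field F] [Algebra K₁ F] [Algebra R F] [IsScalarTower R K₁ F]
  {B : Subalgebra R F} [IsNoetherianRing ↥B] [IsFractionRing ↥B F]
  {π : R} {p : ℕ} {e₁ : ℕ} {ε : Rˣ}

/-- **the clause `pow` of `IsKummerOnChart` for `m = p`** from the depth along the component. -/
theorem exists_pow_datum_of_chartDepth (hπ : Irreducible π) (hp : p.Prime) (he₁ : 0 < e₁)
    (hpe : (p : R) = ε * π ^ e₁) (hAC : ResAlgClosed π)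
    (𝔭 : Ideal ↥B) [h𝔭 : 𝔭.IsPrime] (hπ𝔭 : algebraMap R ↥B π ∈ 𝔭)
    (hloc : ∀ z ∈ 𝔭, ∃ s : ↥B, s ∉ 𝔭 ∧ algebraMap R ↥B π ∣ s * z)
    {g : F} (hgu : IsUnitAtPrime 𝔭 g) {c : K₁} (hc : c ≠ 0) {N : ℕ} (hN : 1 ≤ N)
    (hd : ChartDepth B π p 𝔭 N g (algebraMap K₁ F c)) :
    ∃ a b c' d : ↥B, a ∉ 𝔭 ∧ b ∉ 𝔭 ∧ c' ∉ 𝔭 ∧ d ∉ 𝔭 ∧
      g * algebraMap ↥B F b = algebraMap ↥B F a ∧ a * d ^ p - b * c' ^ p ∈ 𝔭 := by
  set S := chartSheet (K₁ := K₁) (F := F) hπ hp he₁ hpe hAC 𝔭 hπ𝔭 hloc with hS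
  obtain ⟨a, b, ha, hb, hab⟩ := hgu
  have hgU : IsUnitIn S.W g := isUnitIn_locSub_iff.2 ⟨a, b, ha, hb, hab⟩
  have hdep : S.DepthGE g 1 :=
    (((chartSheet_depthGE_iff (K₁ := K₁) hπ hp he₁ hpe hAC 𝔭 hπ𝔭 hloc g N).2 ⟨c, hc, hd⟩).mono hN)
  obtain ⟨θ, hθ, hdvd⟩ := S.exists_unit_pow_of_depthGE_one hp.pos hgU hdep
  obtain ⟨c', d, hc', hd', hcd⟩ := isUnitIn_locSub_iff.1 hθ
  refine ⟨a, b, c', d, ha, hb, hc', hd', hab, ?_⟩
  have hbd : b * d ^ p ∉ 𝔭 := fun h =>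
    (h𝔭.mem_or_mem h).elim hb (fun h' => hd' (h𝔭.mem_of_pow_mem p h'))
  have hx : (g - θ ^ p) * ((b * d ^ p : ↥B) : F) = ((a * d ^ p - b * c' ^ p : ↥B) : F) := by
    have hab' : g * (b : F) = (a : F) := hab
    push_cast
    rw [← hab', ← hcd]
    ring
  exact (piDvd_one_locSub_iff hπ𝔭 hloc hbd hx).1 hdvd

end Chart

section Place

variable {R : Type*} [CommRing R] [IsDomain R] [IsDiscreteValuationRing R]
  [CharZero R] {K₁ : Type*} [Field K₁] [Algebra R K₁]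
  [IsFractionRing R K₁] {K : Type*} [Field K] [Algebra K₁ K] [Algebra R K] [IsScalarTower R K₁ K]
  {F : Type*} [Field F] [Algebra K F] [Algebra K₁ F] [IsScalarTower K₁ K F] [Algebra R F]
  [IsScalarTower R K F] [FiniteDimensional K F]

/-- **`IsKummerOnChart … p g` from the places, the depth along `𝔭∞` and the unit hypotheses.** -/
theorem isKummerOnChart_of_place_of_depth
    (t : K) (ht : Transcendental K₁ t) (hK : IntermediateField.adjoin K₁ {t} = ⊤)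
    {π : R} (hπ : Irreducible π) {p : ℕ} (hp : p.Prime) {e₁ : ℕ} (he₁ : 0 < e₁) {ε : Rˣ}
    (hpe : (p : R) = ε * π ^ e₁) (hAC : ResAlgClosed π)
    {𝔭inf 𝔭0 : Ideal ↥(chartOne R F t)} (hmod : IsModelChart F π 𝔭inf 𝔭0)
    {g : F} (hg : g ≠ 0)
    (hord : ∀ P : Place K₁ F, P.ord g = 0 ∨ (IsRationalPlace P ∧ (p : ℤ) ∣ P.ord g))
    (huinf : IsUnitAtPrime 𝔭inf g) (hu0 : IsUnitAtPrime 𝔭0 g)
    {c : K₁} (hc : c ≠ 0) {N : ℕ} (hN : 1 ≤ N)
    (hd : ChartDepth (chartOne R F t) π p 𝔭inf N g (algebraMap K₁ F c)) :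
    IsKummerOnChart π 𝔭inf 𝔭0 p g := by
  haveI : IsScalarTower R K₁ F := isScalarTower_base_const R K₁ K F
  haveI : IsIntegrallyClosed ↥(chartOne R F t) := isIntegrallyClosed_chartOne (K₁ := K₁) t hK
  haveI : IsNoetherianRing ↥(chartOne R F t) := isNoetherianRing_chartOne (K₁ := K₁) t ht hK
  haveI : IsFractionRing ↥(chartOne R F t) F := isFractionRing_chartOne (K₁ := K₁) t hK
  haveI := hmod.isPrime_inf
  refine ⟨?_, ?_, ⟨0, ?_⟩⟩
  · intro 𝔪 h𝔪 hπ𝔪 𝔮 h𝔮 hht hπ𝔮 hle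
    haveI := h𝔪
    haveI := h𝔮
    exact isKummerAtPrime_of_place (K₁ := K₁) hπ 𝔪 hπ𝔪 𝔮 hht hπ𝔮 hle hg (fun P _ _ => hord P)
  · exact exists_pow_datum_of_chartDepth (K₁ := K₁) hπ hp he₁ hpe hAC 𝔭inf hmod.mem_inf
      (IsModelChart.hloc_inf hmod) huinf hc hN hd
  · simpa using hu0

end Place

end Fermat.Agent.NP
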