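/-
NP33 (S33) — helper5 — package **[HOSTP]**, part 3: **Theorem B on an `SSModel`**
(`SSModel.kummer_inertia_pow_p`), the `p`-analogue of `SS.SSModel.kummer_inertia_pow_of_hjint`.

`h : SSModel K₁ π q n S t jM j A B VM Winf W0` over a discrete valuation ring `R` with algebraically
closed residue field, `p = ε π ^ e₁`, `ζ_p ∈ R`; `σ` an `SSModelAut` with `σ ζ = ζ ^ a`,
`σ K₁ ⊂ K₁`; `g ∈ E_Nˣ` a unit along both sheets, with `div g ∈ p Div` at the places of `E_N / K₁`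
(`hord`) and of depth `≥ N` (Hensel range) along `Winf` and `W0` (`ValDepth`, constants
`c∞`, `c0 ∈ K₁ˣ`).  Then `σ g / g ^ a ∈ K₁ˣ · E_Nˣ ^ p`.
-/
import Fermat.Agent.NP.HOSTP_helper5_Pow
import Fermat.Agent.NP.BRIDGE_helper5_Final
import Fermat.Agent.SS.EXPORT_helper4_Two
import Fermat.Agent.SS.GSIGMA_helper5_Main

set_option autoImplicit false
set_option linter.unusedSectionVars false
set_option linter.style.haveILetI false

open AlgebraicCurve

namespace Fermat.Agent.NP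

open Fermat.Agent.SS Fermat.Agent.JA Fermat.Agent.FF

section Defs

variable {R : Type*} [CommRing R] {K₁ : Type*} [Field K₁] {E : Type*} [Field E] [Algebra R E]
  [Algebra K₁ E]

/-- **depth `≥ N` of `g` along the sheet `W` with constant `c`**, in valuation-ring form:
`g = c γ ^ p (1 + π ^ N s)`, `s ∈ W`. -/
def ValDepth (π : R) (p : ℕ) (W : ValuationSubring E) (N : ℕ) (g : E) (c : K₁) : Prop :=
  ∃ γ : E, γ ≠ 0 ∧ ∃ s ∈ W, g = algebraMap K₁ E c * γ ^ p * (1 + algebraMap R E π ^ N * s)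

end Defs

section Chart

variable {R : Type*} [CommRing R] [IsDomain R] [IsDiscreteValuationRing R]
  {K₁ : Type*} [Field K₁] [Algebra R K₁] [IsFractionRing R K₁]
  {F : Type*} [Field F] [Algebra K₁ F] [Algebra R F] [IsScalarTower R K₁ F]
  {B : Subalgebra R F} [IsNoetherianRing ↥B] [IsFractionRing ↥B F]
  {𝔭 : Ideal ↥B} [h𝔭 : 𝔭.IsPrime] {π : R}

/-- `ValDepth` along `W` gives `ChartDepth` along the component of the chart cut out by `W`. -/
theorem chartDepth_of_valDepth (W : ValuationSubring F) (hBW : ∀ b : ↥B, (b : F) ∈ W)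
    (hW𝔭 : ∀ b : ↥B, b ∈ 𝔭 ↔ W.valuation (b : F) < 1)
    (hπ𝔭 : algebraMap R ↥B π ∈ 𝔭)
    (hloc : ∀ z ∈ 𝔭, ∃ s : ↥B, s ∉ 𝔭 ∧ algebraMap R ↥B π ∣ s * z)
    {p N : ℕ} {g : F} {c : K₁} (hc : c ≠ 0) (hd : ValDepth π p W N g c) :
    ChartDepth B π p 𝔭 N g (algebraMap K₁ F c) := by
  obtain ⟨γ, hγ, s, hs, e⟩ := hd
  have hcF : algebraMap K₁ F c ≠ 0 := by rwa [Ne, map_eq_zero]
  have hs' : s ∈ locSub B 𝔭 := by
    rw [locSub_eq_toSubring W hBW hW𝔭 hπ𝔭 hloc]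
    exact hs
  refine (chartDepth_iff π p N hcF).2 ⟨γ, hγ, s, hs', ?_⟩
  have hγp : γ ^ p ≠ 0 := pow_ne_zero _ hγ
  rw [e]
  field_simp
  ring

/-- a unit of `W` is a unit at the component of the chart cut out by `W`. -/
theorem isUnitAtPrime_of_valuationSubring_eq_one (W : ValuationSubring F) (hBW : ∀ b : ↥B, (b : F) ∈ W)
    (hW𝔭 : ∀ b : ↥B, b ∈ 𝔭 ↔ W.valuation (b : F) < 1)
    (hπ𝔭 : algebraMap R ↥B π ∈ 𝔭)
    (hloc : ∀ z ∈ 𝔭, ∃ s : ↥B, s ∉ 𝔭 ∧ algebraMap R ↥B π ∣ s * z)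
    {g : F} (hg : W.valuation g = 1) : IsUnitAtPrime 𝔭 g := by
  have hg0 : g ≠ 0 := by
    rintro rfl
    rw [map_zero] at hg
    exact zero_ne_one hg
  have hU : IsUnitIn (locSub B 𝔭) g := by
    rw [locSub_eq_toSubring W hBW hW𝔭 hπ𝔭 hloc]
    refine ⟨?_, ?_, hg0⟩
    · exact (ValuationSubring.valuation_le_one_iff W g).1 hg.le
    · refine (ValuationSubring.valuation_le_one_iff W g⁻¹).1 ?_
      rw [map_inv₀, hg, inv_one]
  obtain ⟨a, s, ha, hs, hx⟩ := isUnitIn_locSub_iff.1 hU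
  exact ⟨a, s, ha, hs, hx⟩

end Chart

section Model

variable {R : Type*} [CommRing R] [IsDomain R] [IsDiscreteValuationRing R] [CharZero R]
  {K₁ : Type*} [Field K₁] [Algebra R K₁] [IsFractionRing R K₁]
  {KM : Type*} [Field KM] [Algebra K₁ KM] [Algebra R KM] [IsScalarTower R K₁ KM]
  {EM : Type*} [Field EM] [Algebra KM EM] [Algebra K₁ EM] [IsScalarTower K₁ KM EM] [Algebra R EM]
  [IsScalarTower R KM EM]
  {KN : Type*} [Field KN] [Algebra K₁ KN] [Algebra R KN] [IsScalarTower R K₁ KN]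
  {EN : Type*} [Field EN] [Algebra KN EN] [Algebra K₁ EN] [IsScalarTower K₁ KN EN] [Algebra R EN]
  [IsScalarTower R KN EN] [FiniteDimensional KN EN]
  {π : R} {q n : ℕ} {S : Finset R} {t : KM} {jM : EM} {j : KN} {A B : EM →+* EN}
  {VM : ValuationSubring EM} {Winf W0 : ValuationSubring EN}

/-- **Theorem B on an `SSModel`.** -/
theorem SSModel.kummer_inertia_pow_p [IsAlgClosed (IsLocalRing.ResidueField R)]
    (h : SSModel K₁ π q n S t jM j A B VM Winf W0) (hπ : Irreducible π)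
    (hjint : IsIntegral ↥(Algebra.adjoin R {B jM}) (A jM))
    {p : ℕ} (hp : p.Prime) {e₁ : ℕ} (he₁ : 0 < e₁) {ε : Rˣ} (hpe : (p : R) = ε * π ^ e₁)
    (ζ : R) (hζ : IsPrimitiveRoot ζ p)
    (a : ℕ) (σ : EN →+* EN) (hσ : SSModelAut π j Winf W0 σ)
    (hσζ : σ (algebraMap R EN ζ) = algebraMap R EN ζ ^ a)
    (hσK : ∀ c : K₁, ∃ c' : K₁, σ (algebraMap K₁ EN c) = algebraMap K₁ EN c')
    (g : EN) (hg : g ≠ 0)
    (hord : ∀ P : Place K₁ EN, P.ord g = 0 ∨ (IsRationalPlace P ∧ (p : ℤ) ∣ P.ord g))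
    (hginf : Winf.valuation g = 1) (hg0 : W0.valuation g = 1)
    {N : ℕ} (hN : e₁ * p < N * (p - 1)) (cinf c0 : K₁) (hcinf : cinf ≠ 0) (hc0 : c0 ≠ 0)
    (hdinf : ValDepth π p Winf N g cinf) (hd0 : ValDepth π p W0 N g c0) :
    ∃ (c : K₁) (u : EN), c ≠ 0 ∧ σ g / g ^ a = algebraMap K₁ EN c * u ^ p := by
  have hu := h.j_transcendental
  have hK := h.j_adjoin
  have hu' := transcendental_inv_of_transcendental hu
  have hK' := adjoin_inv_eq_top hK
  have h2 : IsTwoSheet π j⁻¹ Winf W0 := h.two.inv hπ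
  have hmod₁ := h.isModelChart_one hπ
  have hmod₂ := h.isModelChart_two hπ hjint h2
  have hAC : ResAlgClosed π := resAlgClosed_of_isAlgClosed hπ
  haveI : IsScalarTower R K₁ EN := isScalarTower_base_const R K₁ KN EN
  haveI : IsNoetherianRing ↥(chartOne R EN j) := isNoetherianRing_chartOne (K₁ := K₁) j hu hK
  haveI : IsFractionRing ↥(chartOne R EN j) EN := isFractionRing_chartOne (K₁ := K₁) j hK
  haveI : IsNoetherianRing ↥(chartOne R EN j⁻¹) :=
    isNoetherianRing_chartOne (K₁ := K₁) j⁻¹ hu' hK'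
  haveI : IsFractionRing ↥(chartOne R EN j⁻¹) EN := isFractionRing_chartOne (K₁ := K₁) j⁻¹ hK'
  have hN1 : 1 ≤ N := by
    rcases Nat.eq_zero_or_pos N with h0 | h0
    · rw [h0, zero_mul] at hN
      exact absurd hN (Nat.not_lt_zero _)
    · exact h0
  -- the four (chart, sheet) pairs
  have hd₁i := chartDepth_of_valDepth (K₁ := K₁) (B := chartOne R EN j)
    (𝔭 := sheetIdeal j Winf h.two.chart_le_inf) Winf (fun b => h.two.chart_le_inf b b.2)
    (fun b => mem_sheetIdeal_iff j Winf h.two.chart_le_inf b) hmod₁.mem_inf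
    (IsModelChart.hloc_inf hmod₁) hcinf hdinf
  have hd₁z := chartDepth_of_valDepth (K₁ := K₁) (B := chartOne R EN j)
    (𝔭 := sheetIdeal j W0 h.two.chart_le_zero) W0 (fun b => h.two.chart_le_zero b b.2)
    (fun b => mem_sheetIdeal_iff j W0 h.two.chart_le_zero b) hmod₁.mem_zero
    (IsModelChart.hloc_zero hmod₁) hc0 hd0
  have hd₂i := chartDepth_of_valDepth (K₁ := K₁) (B := chartOne R EN j⁻¹)
    (𝔭 := sheetIdeal j⁻¹ Winf h2.chart_le_inf) Winf (fun b => h2.chart_le_inf b b.2)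
    (fun b => mem_sheetIdeal_iff j⁻¹ Winf h2.chart_le_inf b) hmod₂.mem_inf
    (IsModelChart.hloc_inf hmod₂) hcinf hdinf
  have hd₂z := chartDepth_of_valDepth (K₁ := K₁) (B := chartOne R EN j⁻¹)
    (𝔭 := sheetIdeal j⁻¹ W0 h2.chart_le_zero) W0 (fun b => h2.chart_le_zero b b.2)
    (fun b => mem_sheetIdeal_iff j⁻¹ W0 h2.chart_le_zero b) hmod₂.mem_zero
    (IsModelChart.hloc_zero hmod₂) hc0 hd0
  have hu₁i := isUnitAtPrime_of_valuationSubring_eq_one (B := chartOne R EN j)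
    (𝔭 := sheetIdeal j Winf h.two.chart_le_inf) Winf (fun b => h.two.chart_le_inf b b.2)
    (fun b => mem_sheetIdeal_iff j Winf h.two.chart_le_inf b) hmod₁.mem_inf
    (IsModelChart.hloc_inf hmod₁) hginf
  have hu₁z := isUnitAtPrime_of_valuationSubring_eq_one (B := chartOne R EN j)
    (𝔭 := sheetIdeal j W0 h.two.chart_le_zero) W0 (fun b => h.two.chart_le_zero b b.2)
    (fun b => mem_sheetIdeal_iff j W0 h.two.chart_le_zero b) hmod₁.mem_zero
    (IsModelChart.hloc_zero hmod₁) hg0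
  have hu₂i := isUnitAtPrime_of_valuationSubring_eq_one (B := chartOne R EN j⁻¹)
    (𝔭 := sheetIdeal j⁻¹ Winf h2.chart_le_inf) Winf (fun b => h2.chart_le_inf b b.2)
    (fun b => mem_sheetIdeal_iff j⁻¹ Winf h2.chart_le_inf b) hmod₂.mem_inf
    (IsModelChart.hloc_inf hmod₂) hginf
  have hu₂z := isUnitAtPrime_of_valuationSubring_eq_one (B := chartOne R EN j⁻¹)
    (𝔭 := sheetIdeal j⁻¹ W0 h2.chart_le_zero) W0 (fun b => h2.chart_le_zero b b.2)
    (fun b => mem_sheetIdeal_iff j⁻¹ W0 h2.chart_le_zero b) hmod₂.mem_zero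
    (IsModelChart.hloc_zero hmod₂) hg0
  have hk₁ := isKummerOnChart_of_place_of_depth (K₁ := K₁) j hu hK hπ hp he₁ hpe hAC hmod₁ hg hord
    hu₁i hu₁z hcinf hN1 hd₁i
  have hk₂ := isKummerOnChart_of_place_of_depth (K₁ := K₁) j⁻¹ hu' hK' hπ hp he₁ hpe hAC hmod₂ hg
    hord hu₂i hu₂z hcinf hN1 hd₂i
  exact kummer_inertia_pow_p_of_model (K₁ := K₁) j hu hK π hπ hp he₁ hpe ζ hζ h.const hmod₁ hmod₂
    a σ (hσ.exists_eq_add_mul_one h.two hπ hu hK) (hσ.exists_eq_add_mul_two h2 hπ hu' hK')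
    hσζ hσK g hg hk₁ hk₂ hN cinf c0 cinf c0 hcinf hc0 hcinf hc0 hd₁i hd₁z hd₂i hd₂z

end Model

end Fermat.Agent.NP
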