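/-
NP33 (S33) — helper5 — package **[KUMP]**, part 7: **FRONT-END Δ6** (one sheet).

Two-chart model of `F / K₁(t)` over `R`, `π ∈ R` prime, `p` prime, `ζ_p ∈ R`, and assume that the
special fibre is **irreducible**: there is exactly one sheet (prime of the middle ring minimal over
`π`).  If `f ∈ Fˣ` has a deep `p`-th root at every closed point of the special fibres of both charts
then `f ∈ K₁ˣ · Fˣ ^ p` (`kummer_one_sheet`).

Coherence of the roots: every root is normalised by a `p`-th root of unity so as to be near a fixed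
reference root **at the sheet** (`exists_zeta_pow_of_deepRoots` at the sheet); two such roots at a
prime `𝔮 ∋ π` differ by `ζ ^ j (1 + lam π ⋯)` at `𝔮`, and nearness at the sheet `𝔭₀ ⊆ 𝔮` forces
`j = 0` (`[j]` is a unit).
-/
import Fermat.Agent.NP.KUMP_helper5_B

set_option autoImplicit false
set_option linter.unusedSectionVars false
set_option linter.style.haveILetI false

namespace Fermat.Agent.NP

open Fermat.Agent.JA Fermat.Agent.SS Polynomial Finset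

section Transfer

variable {R : Type*} [CommRing R] {F : Type*} [Field F] [Algebra R F]

/-- multiplying a deep root by a `p`-th root of unity. -/
theorem DeepRootAt.zeta_pow_mul {B : Subalgebra R F} {p : ℕ} {ζ π : R} (hζ : ζ ^ p = 1)
    (hζ0 : algebraMap R F ζ ≠ 0) {h : F}
    {𝔫 : Ideal ↥B} {s : F} (hs : DeepRootAt B p ζ π h 𝔫 s) (i : ℕ) :
    DeepRootAt B p ζ π h 𝔫 (algebraMap R F ζ ^ i * s) := by
  obtain ⟨hs0, d, r, hd, hdr⟩ := hs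
  refine ⟨mul_ne_zero (pow_ne_zero i hζ0) hs0, d, r, hd, ?_⟩
  have h1 : (algebraMap R F ζ ^ i * s) ^ p = s ^ p := by
    rw [mul_pow, ← pow_mul, mul_comm i p, pow_mul, ← map_pow, hζ, map_one, one_pow, one_mul]
  rw [h1]
  exact hdr

end Transfer

section Zero

variable {R : Type*} [CommRing R] [IsDomain R] {F : Type*} [Field F] [Algebra R F]

/-- **the label is trivial**: if `s = ζ ^ j s' (1 + lam π w / q)` and both `s`, `s'` are near `s₀` at a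
prime `𝔭₀ ∋ π` (with `q ∉ 𝔭₀`), then `j = 0`. -/
theorem eq_zero_of_near (hinj : Function.Injective (algebraMap R F)) (B : Subalgebra R F)
    {p : ℕ} (hp : p.Prime) {ζ : R} (hζ : IsPrimitiveRoot ζ p) (π : R)
    (𝔭₀ : Ideal ↥B) [h𝔭₀ : 𝔭₀.IsPrime] (hπ : algebraMap R ↥B π ∈ 𝔭₀) {s s' s₀ : F} (hs₀ : s₀ ≠ 0)
    {j : ℕ} (hj : j < p) (q w q₁ w₁ q₂ w₂ : ↥B) (hq : q ∉ 𝔭₀) (hq₁ : q₁ ∉ 𝔭₀) (hq₂ : q₂ ∉ 𝔭₀)
    (h : s * (q : F) = algebraMap R F ζ ^ j * s' *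
      ((q : F) + algebraMap R F ((ζ - 1) * π) * (w : F)))
    (h₁ : s * (q₁ : F) = s₀ * ((q₁ : F) + algebraMap R F ((ζ - 1) * π) * (w₁ : F)))
    (h₂ : s' * (q₂ : F) = s₀ * ((q₂ : F) + algebraMap R F ((ζ - 1) * π) * (w₂ : F))) :
    j = 0 := by
  by_contra hj0
  have hpj : ¬ p ∣ j := fun hd => hj0 (Nat.eq_zero_of_dvd_of_lt hd hj)
  have hunit : IsUnit (qInt ζ j) := isUnit_qInt hζ hp hpj
  have hlam : ζ - 1 ≠ 0 := sub_ne_zero.2 (hζ.ne_one hp.one_lt)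
  set lamB : ↥B := algebraMap R ↥B (ζ - 1) with hlamB
  set πB : ↥B := algebraMap R ↥B π with hπB
  set ζB : ↥B := algebraMap R ↥B ζ with hζB
  have e0 : ∀ x : R, ((algebraMap R ↥B x : ↥B) : F) = algebraMap R F x := fun _ => rfl
  -- the identity in `F`
  have key : ((q₁ + lamB * πB * w₁) * q * q₂ : ↥B) =
      ζB ^ j * (q₂ + lamB * πB * w₂) * (q + lamB * πB * w) * q₁ := by
    apply Subtype.ext
    apply mul_left_cancel₀ hs₀
    simp only [Subalgebra.coe_mul, Subalgebra.coe_add, Subalgebra.coe_pow, hlamB, hπB, hζB, e0]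
    rw [map_mul] at h h₁ h₂
    have e1 : s₀ * (((q₁ : F) + algebraMap R F (ζ - 1) * algebraMap R F π * (w₁ : F)) * (q : F) *
        (q₂ : F)) = s * (q₁ : F) * (q : F) * (q₂ : F) := by rw [h₁]; ring
    have e2 : s₀ * (algebraMap R F ζ ^ j * ((q₂ : F) + algebraMap R F (ζ - 1) * algebraMap R F π *
        (w₂ : F)) * ((q : F) + algebraMap R F (ζ - 1) * algebraMap R F π * (w : F)) * (q₁ : F)) =
        algebraMap R F ζ ^ j * (s' * (q₂ : F)) *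
          ((q : F) + algebraMap R F (ζ - 1) * algebraMap R F π * (w : F)) * (q₁ : F) := by
      rw [h₂]; ring
    rw [e1, e2]
    linear_combination ((q₁ : F) * (q₂ : F)) * h
  have hq' : algebraMap R ↥B (qInt ζ j) * lamB = ζB ^ j - 1 := by
    rw [hlamB, hζB, ← map_mul, qInt_mul_sub_one, map_sub, map_pow, map_one]
  -- `[j] q q₁ q₂ ∈ π B`
  have hlamB0 : lamB ≠ 0 := by
    intro h0
    apply hlam
    apply hinj
    rw [map_zero, ← e0, ← hlamB, h0]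
    rfl
  have hmem : algebraMap R ↥B (qInt ζ j) * (q * q₁ * q₂) ∈ 𝔭₀ := by
    have e3 : lamB * (algebraMap R ↥B (qInt ζ j) * (q * q₁ * q₂)) =
        lamB * (πB * (w₁ * q * q₂ - ζB ^ j * (w₂ * (q + lamB * πB * w) * q₁ + q₂ * w * q₁))) := by
      linear_combination (q * q₁ * q₂) * hq' - key
    rw [mul_left_cancel₀ hlamB0 e3]
    exact 𝔭₀.mul_mem_right _ hπ
  have hunitB : IsUnit (algebraMap R ↥B (qInt ζ j)) := hunit.map _
  rcases h𝔭₀.mem_or_mem hmem with h1 | h1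
  · exact h𝔭₀.ne_top (Ideal.eq_top_of_isUnit_mem _ h1 hunitB)
  · rcases h𝔭₀.mem_or_mem h1 with h2 | h2
    · rcases h𝔭₀.mem_or_mem h2 with h3 | h3
      · exact hq h3
      · exact hq₁ h3
    · exact hq₂ h2

end Zero

section FrontD6

variable {R : Type*} [CommRing R] [IsDomain R] [IsIntegrallyClosed R] [IsNoetherianRing R]
  [CharZero R] {K₁ : Type*} [Field K₁] [Algebra R K₁]
  [IsFractionRing R K₁] {K : Type*} [Field K] [Algebra K₁ K] [Algebra R K] [IsScalarTower R K₁ K]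
  {F : Type*} [Field F] [Algebra K F] [Algebra K₁ F] [IsScalarTower K₁ K F] [Algebra R F]
  [IsScalarTower R K F] [FiniteDimensional K F]

/-- two deep roots at a prime `𝔮 ∋ π` of the middle ring differ by `ζ ^ j (1 + lam π w / q)`. -/
theorem exists_zeta_pow_of_deepRootAt (t : K) (hK : IntermediateField.adjoin K₁ {t} = ⊤)
    (ht0 : t ≠ 0) (π : R) {p : ℕ} (hp : p.Prime) {ζ : R} (hζ : IsPrimitiveRoot ζ p) (g : F)
    (𝔮 : Ideal ↥(chartMid R F t)) [h𝔮 : 𝔮.IsPrime]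
    (hπ𝔮 : algebraMap R ↥(chartMid R F t) π ∈ 𝔮) {γ γ' : F}
    (hγ : DeepRootAt (chartMid R F t) p ζ π g 𝔮 γ)
    (hγ' : DeepRootAt (chartMid R F t) p ζ π g 𝔮 γ') :
    ∃ j < p, ∃ q w : ↥(chartMid R F t), q ∉ 𝔮 ∧
      γ * (q : F) = algebraMap R F ζ ^ j * γ' *
        ((q : F) + algebraMap R F ((ζ - 1) * π) * (w : F)) := by
  have hinjF : Function.Injective (algebraMap R F) :=
    algebraMap_injective_of_tower (K₁ := K₁) (K := K)
  obtain ⟨hγ0, d, r, hd, hdr⟩ := deepRoot_normalise t ht0 𝔮 hγ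
  obtain ⟨hγ0', d', r', hd', hdr'⟩ := deepRoot_normalise t ht0 𝔮 hγ'
  haveI : IsIntegrallyClosed ↥(chartOne R F t) := isIntegrallyClosed_chartOne (K₁ := K₁) t hK
  haveI : IsFractionRing ↥(chartOne R F t) F := isFractionRing_chartOne (K₁ := K₁) t hK
  set 𝔫 : Ideal ↥(chartOne R F t) := 𝔮.comap (Subalgebra.inclusion (chartOne_le_chartMid t)) with h𝔫
  haveI h𝔫p : 𝔫.IsPrime := Ideal.comap_isPrime _ 𝔮
  have hπ𝔫 : algebraMap R ↥(chartOne R F t) π ∈ 𝔫 := hπ𝔮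
  have hinjA : Function.Injective (algebraMap R ↥(chartOne R F t)) := by
    intro x y hxy
    apply hinjF
    exact congrArg (fun z : ↥(chartOne R F t) => (z : F)) hxy
  have hζA : IsPrimitiveRoot (algebraMap R ↥(chartOne R F t) ζ) p := hζ.map_of_injective hinjA
  have he : ∀ k : ℕ, algebraMap ↥(chartOne R F t) F ((algebraMap R ↥(chartOne R F t) ζ - 1) ^ k *
      algebraMap R ↥(chartOne R F t) π) = algebraMap R F ((ζ - 1) ^ k * π) := by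
    intro k
    rw [← map_one (algebraMap R ↥(chartOne R F t)), ← map_sub, ← map_pow, ← map_mul]
    rfl
  have hdrA : g * algebraMap ↥(chartOne R F t) F d = γ ^ p * (algebraMap ↥(chartOne R F t) F d +
      algebraMap ↥(chartOne R F t) F ((algebraMap R ↥(chartOne R F t) ζ - 1) ^ p *
        algebraMap R ↥(chartOne R F t) π) * algebraMap ↥(chartOne R F t) F r) := by
    rw [he]
    exact hdr
  have hdrA' : g * algebraMap ↥(chartOne R F t) F d' = γ' ^ p * (algebraMap ↥(chartOne R F t) F d' +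
      algebraMap ↥(chartOne R F t) F ((algebraMap R ↥(chartOne R F t) ζ - 1) ^ p *
        algebraMap R ↥(chartOne R F t) π) * algebraMap ↥(chartOne R F t) F r') := by
    rw [he]
    exact hdr'
  obtain ⟨j, hj, q, w, hq, hqw⟩ := exists_zeta_pow_of_deepRoots hp hζA 𝔫 hπ𝔫 g γ γ' hγ0 hγ0'
    d r d' r' hd hd' hdrA hdrA'
  have he1 := he 1
  simp only [pow_one] at he1
  rw [he1, ← map_pow] at hqw
  refine ⟨j, hj, Subalgebra.inclusion (chartOne_le_chartMid t) q,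
    Subalgebra.inclusion (chartOne_le_chartMid t) w, hq, ?_⟩
  rw [← map_pow]
  exact hqw

/-- **FRONT-END Δ6, abstract form**: `𝔭₀` a prime of the middle ring which is contained in every
prime containing `π` and passes through every closed point of the special fibres of both charts. -/
theorem kummer_one_sheet_aux {t : K} {π : R} {p : ℕ} {ζ : R}
    (ht : Transcendental K₁ t) (hK : IntermediateField.adjoin K₁ {t} = ⊤) (hπ : Prime π)
    (hp : p.Prime) (hζ : IsPrimitiveRoot ζ p)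
    (hM4 : ∀ x : F, IsAlgebraic K₁ x → x ∈ Set.range (algebraMap K₁ F))
    (𝔭₀ : Ideal ↥(chartMid R F t)) (h𝔭₀ : 𝔭₀.IsPrime)
    (hπ𝔭₀ : algebraMap R ↥(chartMid R F t) π ∈ 𝔭₀)
    (hone : ∀ 𝔮 : Ideal ↥(chartMid R F t), 𝔮.IsPrime → algebraMap R ↥(chartMid R F t) π ∈ 𝔮 →
      𝔭₀ ≤ 𝔮)
    (hthr₁ : ∀ 𝔫 : Ideal ↥(chartOne R F t), 𝔫.IsMaximal → algebraMap R ↥(chartOne R F t) π ∈ 𝔫 →
      Through (chartOne R F t) (chartMid R F t) 𝔫 𝔭₀)
    (hthr₂ : ∀ 𝔫 : Ideal ↥(chartOne R F t⁻¹), 𝔫.IsMaximal →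
      algebraMap R ↥(chartOne R F t⁻¹) π ∈ 𝔫 →
      Through (chartOne R F t⁻¹) (chartMid R F t) 𝔫 𝔭₀)
    (f : F) (hf : f ≠ 0) (s₀ : F) (hs₀ : DeepRootAt (chartMid R F t) p ζ π f 𝔭₀ s₀)
    (hb₁ : ∀ 𝔫 : Ideal ↥(chartOne R F t), 𝔫.IsMaximal → algebraMap R ↥(chartOne R F t) π ∈ 𝔫 →
      ∃ γ : F, DeepRootAt (chartOne R F t) p ζ π f 𝔫 γ)
    (hb₂ : ∀ 𝔫 : Ideal ↥(chartOne R F t⁻¹), 𝔫.IsMaximal →
      algebraMap R ↥(chartOne R F t⁻¹) π ∈ 𝔫 →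
      ∃ γ : F, DeepRootAt (chartOne R F t⁻¹) p ζ π f 𝔫 γ) :
    ∃ (c : K₁) (u : F), c ≠ 0 ∧ f = algebraMap K₁ F c * u ^ p := by
  have ht0 : t ≠ 0 := by
    rintro rfl
    exact ht (isAlgebraic_zero)
  have hinjF : Function.Injective (algebraMap R F) :=
    algebraMap_injective_of_tower (K₁ := K₁) (K := K)
  have hζF0 : algebraMap R F ζ ≠ 0 := (hζ.map_of_injective hinjF).ne_zero hp.ne_zero
  haveI := h𝔭₀
  -- normalisation of a root at the sheet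
  have hnorm : ∀ {B : Subalgebra R F} (hle : B ≤ chartMid R F t) (𝔫 : Ideal ↥B) (γ : F),
      Through B (chartMid R F t) 𝔫 𝔭₀ → DeepRootAt B p ζ π f 𝔫 γ →
      ∃ s : F, DeepRootAt B p ζ π f 𝔫 s ∧ NearAt (chartMid R F t) ζ π 𝔭₀ s s₀ := by
    intro B hle 𝔫 γ hthr hγ
    obtain ⟨j, hj, q, w, hq, hqw⟩ := exists_zeta_pow_of_deepRootAt (K₁ := K₁) t hK ht0 π hp hζ f
      𝔭₀ hπ𝔭₀ (hγ.through hle hthr) hs₀
    refine ⟨algebraMap R F ζ ^ (p - j) * γ, hγ.zeta_pow_mul hζ.pow_eq_one hζF0 _, q, w, hq, ?_⟩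
    have h1 : algebraMap R F ζ ^ (p - j) * algebraMap R F ζ ^ j = 1 := by
      rw [← pow_add, Nat.sub_add_cancel hj.le, ← map_pow, hζ.pow_eq_one, map_one]
    rw [mul_assoc, hqw]
    linear_combination (s₀ * ((q : F) + algebraMap R F ((ζ - 1) * π) * (w : F))) * h1
  set G : Ideal ↥(chartMid R F t) → F → Prop := fun 𝔮 s =>
    DeepRootAt (chartMid R F t) p ζ π f 𝔮 s ∧ NearAt (chartMid R F t) ζ π 𝔭₀ s s₀ with hG
  have H : KumPHyp K₁ t π p ζ f G :=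
    { ht := ht
      hK := hK
      hπ := hπ
      hp := hp
      hζ := hζ
      hh := hf
      hM4 := hM4
      hGdeep := fun 𝔮 s _ _ hs => hs.1
      hGnear := by
        rintro 𝔮 s s' h𝔮 hπ𝔮 ⟨hs, q₁, w₁, hq₁, e₁⟩ ⟨hs', q₂, w₂, hq₂, e₂⟩
        haveI := h𝔮
        obtain ⟨j, hj, q, w, hq, hqw⟩ := exists_zeta_pow_of_deepRootAt (K₁ := K₁) t hK ht0 π hp hζ
          f 𝔮 hπ𝔮 hs hs'
        have hq₀ : q ∉ 𝔭₀ := fun hmem => hq (hone 𝔮 h𝔮 hπ𝔮 hmem)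
        have hj0 : j = 0 := eq_zero_of_near hinjF (chartMid R F t) hp hζ π 𝔭₀ hπ𝔭₀ hs₀.1 hj
          q w q₁ w₁ q₂ w₂ hq₀ hq₁ hq₂ hqw e₁ e₂
        rw [hj0, pow_zero, one_mul] at hqw
        exact ⟨q, w, hq, hqw⟩
      hb₁ := by
        intro 𝔫 h𝔫 hπ𝔫
        obtain ⟨γ, hγ⟩ := hb₁ 𝔫 h𝔫 hπ𝔫
        obtain ⟨s, hs, hnear⟩ := hnorm (chartOne_le_chartMid t) 𝔫 γ (hthr₁ 𝔫 h𝔫 hπ𝔫) hγ
        exact ⟨s, hs, fun 𝔮 _ _ hthr => ⟨hs.through (chartOne_le_chartMid t) hthr, hnear⟩⟩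
      hb₂ := by
        intro 𝔫 h𝔫 hπ𝔫
        obtain ⟨γ, hγ⟩ := hb₂ 𝔫 h𝔫 hπ𝔫
        obtain ⟨s, hs, hnear⟩ := hnorm (chartOne_inv_le_chartMid t ht0) 𝔫 γ (hthr₂ 𝔫 h𝔫 hπ𝔫) hγ
        exact ⟨s, hs, fun 𝔮 _ _ hthr =>
          ⟨hs.through (chartOne_inv_le_chartMid t ht0) hthr, hnear⟩⟩ }
  exact H.exists_pow

/-- **FRONT-END Δ6**: on a two-chart model with irreducible special fibre (exactly one sheet), a
function with deep `p`-th roots at all closed points of the special fibres of both charts is a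
constant times a `p`-th power. -/
theorem kummer_one_sheet {t : K} {π : R} {p : ℕ} {ζ : R}
    (ht : Transcendental K₁ t) (hK : IntermediateField.adjoin K₁ {t} = ⊤) (hπ : Prime π)
    (hp : p.Prime) (hζ : IsPrimitiveRoot ζ p)
    (hM4 : ∀ x : F, IsAlgebraic K₁ x → x ∈ Set.range (algebraMap K₁ F))
    (hone : ∀ s s' : SheetOf R F t π, s = s')
    (f : F) (hf : f ≠ 0)
    (hb₁ : ∀ 𝔫 : Ideal ↥(chartOne R F t), 𝔫.IsMaximal → algebraMap R ↥(chartOne R F t) π ∈ 𝔫 →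
      ∃ γ : F, DeepRootAt (chartOne R F t) p ζ π f 𝔫 γ)
    (hb₂ : ∀ 𝔫 : Ideal ↥(chartOne R F t⁻¹), 𝔫.IsMaximal →
      algebraMap R ↥(chartOne R F t⁻¹) π ∈ 𝔫 →
      ∃ γ : F, DeepRootAt (chartOne R F t⁻¹) p ζ π f 𝔫 γ) :
    ∃ (c : K₁) (u : F), c ≠ 0 ∧ f = algebraMap K₁ F c * u ^ p := by
  have ht0 : t ≠ 0 := by
    rintro rfl
    exact ht (isAlgebraic_zero)
  have ht' : Transcendental K₁ t⁻¹ := transcendental_inv_of_transcendental ht
  have hK' : IntermediateField.adjoin K₁ {t⁻¹} = ⊤ := adjoin_inv_eq_top hK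
  have hT₁ := coord_not_mem_of_mem_minimalPrimes (K₁ := K₁) (F := F) t ht hK π hπ
  have hT₂ := coord_not_mem_of_mem_minimalPrimes (K₁ := K₁) (F := F) t⁻¹ ht' hK' π hπ
  obtain ⟨𝔭₀⟩ := nonempty_sheetOf_rad (K₁ := K₁) (E := F) t ht hK π hπ hM4 hT₁ hT₂
  haveI h𝔭₀ : (𝔭₀.1).IsPrime := 𝔭₀.2.1.1
  have hπ𝔭₀ : algebraMap R ↥(chartMid R F t) π ∈ 𝔭₀.1 :=
    𝔭₀.2.1.2 (Ideal.subset_span (Set.mem_singleton _))
  have hone' : ∀ 𝔮 : Ideal ↥(chartMid R F t), 𝔮.IsPrime → algebraMap R ↥(chartMid R F t) π ∈ 𝔮 →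
      𝔭₀.1 ≤ 𝔮 := by
    intro 𝔮 h𝔮 hπ𝔮
    haveI := h𝔮
    obtain ⟨P, hP, hPle⟩ := Ideal.exists_minimalPrimes_le
      (show Ideal.span {algebraMap R ↥(chartMid R F t) π} ≤ 𝔮 from
        (Ideal.span_singleton_le_iff_mem _).2 hπ𝔮)
    have : (⟨P, hP⟩ : SheetOf R F t π) = 𝔭₀ := hone _ _
    rw [← this]
    exact hPle
  have hthr₁ : ∀ 𝔫 : Ideal ↥(chartOne R F t), 𝔫.IsMaximal →
      algebraMap R ↥(chartOne R F t) π ∈ 𝔫 →
      Through (chartOne R F t) (chartMid R F t) 𝔫 𝔭₀.1 := by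
    intro 𝔫 h𝔫 hπ𝔫
    refine through_of_comap_le (chartOne_le_chartMid t) (fun x hx => ?_)
    obtain ⟨N, hN⟩ := chartOne_rad_of_forall_mem_sheet t ht0 π hT₁ x
      (fun s => by rw [hone s 𝔭₀]; exact hx)
    have h1 : x ^ N ∈ 𝔫 := (Ideal.span_singleton_le_iff_mem _).2 hπ𝔫 hN
    exact h𝔫.isPrime.mem_of_pow_mem N h1
  have hthr₂ : ∀ 𝔫 : Ideal ↥(chartOne R F t⁻¹), 𝔫.IsMaximal →
      algebraMap R ↥(chartOne R F t⁻¹) π ∈ 𝔫 →
      Through (chartOne R F t⁻¹) (chartMid R F t) 𝔫 𝔭₀.1 := by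
    intro 𝔫 h𝔫 hπ𝔫
    refine through_of_comap_le (chartOne_inv_le_chartMid t ht0) (fun x hx => ?_)
    obtain ⟨N, hN⟩ := chartOne_inv_rad_of_forall_mem_sheet t ht0 π hT₂ x
      (fun s => by rw [hone s 𝔭₀]; exact hx)
    have h1 : x ^ N ∈ 𝔫 := (Ideal.span_singleton_le_iff_mem _).2 hπ𝔫 hN
    exact h𝔫.isPrime.mem_of_pow_mem N h1
  -- a closed point of the first chart on the sheet
  have hne : (𝔭₀.1).comap (Subalgebra.inclusion (chartOne_le_chartMid (R := R) (E := F) t)) ≠ ⊤ :=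
    (Ideal.comap_isPrime _ 𝔭₀.1).ne_top
  obtain ⟨𝔫, h𝔫, hle⟩ := Ideal.exists_le_maximal _ hne
  have hπ𝔫 : algebraMap R ↥(chartOne R F t) π ∈ 𝔫 := hle hπ𝔭₀
  obtain ⟨s₀, hs₀⟩ := hb₁ 𝔫 h𝔫 hπ𝔫
  exact kummer_one_sheet_aux ht hK hπ hp hζ hM4 𝔭₀.1 h𝔭₀ hπ𝔭₀ hone' hthr₁ hthr₂ f hf s₀
    (hs₀.through (chartOne_le_chartMid t) (hthr₁ 𝔫 h𝔫 hπ𝔫)) hb₁ hb₂

end FrontD6

end Fermat.Agent.NP
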