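/-
NP33 (S33) — helper5 — package **[BRIDGE]**, part 12: `exists_common_const` with an abstract
uniqueness hypothesis on the first chart (for one-sheet models).
-/
import Fermat.Agent.NP.BRIDGE_helper5_Glob

set_option autoImplicit false
set_option linter.unusedSectionVars false
set_option linter.style.haveILetI false

namespace Fermat.Agent.NP

open Fermat.Agent.JA Fermat.Agent.SS Polynomial

section Glob

variable {R : Type*} [CommRing R] [IsDomain R] [IsDiscreteValuationRing R]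
  [CharZero R] {K₁ : Type*} [Field K₁] [Algebra R K₁]
  [IsFractionRing R K₁] {K : Type*} [Field K] [Algebra K₁ K] [Algebra R K] [IsScalarTower R K₁ K]
  {F : Type*} [Field F] [Algebra K F] [Algebra K₁ F] [IsScalarTower K₁ K F] [Algebra R F]
  [IsScalarTower R K F] [FiniteDimensional K F]

/-- **one constant for the whole model**, from uniqueness of the constant at the primes of the
special fibre of the first chart. -/
theorem exists_common_const_of_unique (t : K) (ht : Transcendental K₁ t)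
    (hK : IntermediateField.adjoin K₁ {t} = ⊤) (π : R) (hπ : Irreducible π) {p : ℕ} {ζ : R}
    (hM4 : ∀ x : F, IsAlgebraic K₁ x → x ∈ Set.range (algebraMap K₁ F))
    {g : F}
    (hU : ∀ 𝔮 : Ideal ↥(chartOne R F t), 𝔮.IsPrime → algebraMap R ↥(chartOne R F t) π ∈ 𝔮 →
      ∀ c c' : K₁, c ≠ 0 → c' ≠ 0 → ∀ γ γ' : F,
        DeepRootAt (chartOne R F t) p ζ π (g / algebraMap K₁ F c) 𝔮 γ →
        DeepRootAt (chartOne R F t) p ζ π (g / algebraMap K₁ F c') 𝔮 γ' →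
        ConstRel p ((ζ - 1) ^ p * π) c c')
    (hb₁ : ∀ 𝔫 : Ideal ↥(chartOne R F t), 𝔫.IsMaximal → algebraMap R ↥(chartOne R F t) π ∈ 𝔫 →
      ∃ c : K₁, c ≠ 0 ∧ ∃ γ : F, DeepRootAt (chartOne R F t) p ζ π (g / algebraMap K₁ F c) 𝔫 γ)
    (hb₂ : ∀ 𝔫 : Ideal ↥(chartOne R F t⁻¹), 𝔫.IsMaximal →
      algebraMap R ↥(chartOne R F t⁻¹) π ∈ 𝔫 →
      ∃ c : K₁, c ≠ 0 ∧ ∃ γ : F, DeepRootAt (chartOne R F t⁻¹) p ζ π (g / algebraMap K₁ F c) 𝔫 γ) :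
    ∃ c₀ : K₁, c₀ ≠ 0 ∧
      (∀ 𝔫 : Ideal ↥(chartOne R F t), 𝔫.IsMaximal → algebraMap R ↥(chartOne R F t) π ∈ 𝔫 →
        ∃ γ : F, DeepRootAt (chartOne R F t) p ζ π (g / algebraMap K₁ F c₀) 𝔫 γ) ∧
      (∀ 𝔫 : Ideal ↥(chartOne R F t⁻¹), 𝔫.IsMaximal →
        algebraMap R ↥(chartOne R F t⁻¹) π ∈ 𝔫 →
        ∃ γ : F, DeepRootAt (chartOne R F t⁻¹) p ζ π (g / algebraMap K₁ F c₀) 𝔫 γ) := by
  have ht0 : t ≠ 0 := fun h => ht (h ▸ isAlgebraic_zero)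
  have hπp : Prime π := hπ.prime
  have ht' : Transcendental K₁ t⁻¹ := transcendental_inv_of_transcendental ht
  have hK' : IntermediateField.adjoin K₁ {t⁻¹} = ⊤ := adjoin_inv_eq_top hK
  haveI : IsScalarTower R K₁ F := isScalarTower_base_top R K₁ K F
  have hT₁ := coord_not_mem_of_mem_minimalPrimes (K₁ := K₁) (F := F) t ht hK π hπp
  have hT₂ := coord_not_mem_of_mem_minimalPrimes (K₁ := K₁) (F := F) t⁻¹ ht' hK' π hπp
  -- the class attached to a sheet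
  set Φ : SheetOf R F t π → Set K₁ := fun s =>
    {c | c ≠ 0 ∧ ∃ γ : F, DeepRootAt (chartMid R F t) p ζ π (g / algebraMap K₁ F c) s.1 γ} with hΦ
  have hsp : ∀ s : SheetOf R F t π, (s.1).IsPrime := fun s => s.2.1.1
  have hsπ : ∀ s : SheetOf R F t π, algebraMap R ↥(chartMid R F t) π ∈ s.1 := fun s =>
    s.2.1.2 (Ideal.subset_span (Set.mem_singleton _))
  -- two members of a class are related
  have hA : ∀ (s : SheetOf R F t π) (c c' : K₁), c ∈ Φ s → c' ∈ Φ s →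
      ConstRel p ((ζ - 1) ^ p * π) c c' := by
    rintro s c c' ⟨hc, γ, hγ⟩ ⟨hc', γ', hγ'⟩
    haveI := hsp s
    obtain ⟨hγ0, d, r, hd, hdr⟩ := deepRoot_normalise t ht0 s.1 hγ
    obtain ⟨hγ0', d', r', hd', hdr'⟩ := deepRoot_normalise t ht0 s.1 hγ'
    exact hU ((s.1).comap (Subalgebra.inclusion (chartOne_le_chartMid (R := R) (E := F) t)))
      (Ideal.comap_isPrime _ s.1) (hsπ s) c c' hc hc' γ γ' ⟨hγ0, d, r, hd, hdr⟩
      ⟨hγ0', d', r', hd', hdr'⟩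
  -- a class is saturated
  have hB : ∀ (s : SheetOf R F t π) (c c' : K₁), c' ∈ Φ s → c ≠ 0 →
      ConstRel p ((ζ - 1) ^ p * π) c c' → c ∈ Φ s := by
    rintro s c c' ⟨hc', γ', hγ'⟩ hc hrel
    exact ⟨hc, hγ'.of_constRel hc hc' hrel⟩
  -- two sheets with a common member have the same class
  have hC : ∀ (s s' : SheetOf R F t π) (c₁ : K₁), c₁ ∈ Φ s → c₁ ∈ Φ s' → Φ s = Φ s' := by
    intro s s' c₁ h1 h1'
    ext c
    constructor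
    · intro hc
      exact hB s' c c₁ h1' hc.1 (hA s c c₁ hc h1)
    · intro hc
      exact hB s c c₁ h1 hc.1 (hA s' c c₁ hc h1')
  have hconst : ∀ s s' : SheetOf R F t π, Φ s = Φ s' := by
    refine chart_sheet_const_rad (K₁ := K₁) t ht hK π hπp hM4 hT₁ hT₂ Φ ?_ ?_
    · intro 𝔑 h𝔑 s s' hs hs'
      have hπ𝔑 : algebraMap R ↥(chartOne R F t) π ∈ 𝔑 := hs (hsπ s)
      obtain ⟨c₁, hc₁, γ, hγ⟩ := hb₁ 𝔑 h𝔑 hπ𝔑
      exact hC s s' c₁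
        ⟨hc₁, γ, hγ.through (chartOne_le_chartMid t) (through_of_comap_le _ hs)⟩
        ⟨hc₁, γ, hγ.through (chartOne_le_chartMid t) (through_of_comap_le _ hs')⟩
    · intro 𝔑 h𝔑 s s' hs hs'
      have hπ𝔑 : algebraMap R ↥(chartOne R F t⁻¹) π ∈ 𝔑 := hs (hsπ s)
      obtain ⟨c₁, hc₁, γ, hγ⟩ := hb₂ 𝔑 h𝔑 hπ𝔑
      exact hC s s' c₁
        ⟨hc₁, γ, hγ.through (chartOne_inv_le_chartMid t ht0) (through_of_comap_le _ hs)⟩
        ⟨hc₁, γ, hγ.through (chartOne_inv_le_chartMid t ht0) (through_of_comap_le _ hs')⟩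
  -- a base sheet and its constant
  obtain ⟨s₀⟩ := nonempty_sheetOf_rad (K₁ := K₁) (E := F) t ht hK π hπp hM4 hT₁ hT₂
  haveI := hsp s₀
  have hne : (s₀.1).comap (Subalgebra.inclusion (chartOne_le_chartMid (R := R) (E := F) t)) ≠ ⊤ :=
    (Ideal.comap_isPrime _ s₀.1).ne_top
  obtain ⟨𝔑₀, h𝔑₀, hle₀⟩ := Ideal.exists_le_maximal _ hne
  have hπ𝔑₀ : algebraMap R ↥(chartOne R F t) π ∈ 𝔑₀ := hle₀ (hsπ s₀)
  obtain ⟨c₀, hc₀, γ₀, hγ₀⟩ := hb₁ 𝔑₀ h𝔑₀ hπ𝔑₀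
  have hc₀Φ : c₀ ∈ Φ s₀ :=
    ⟨hc₀, γ₀, hγ₀.through (chartOne_le_chartMid t) (through_of_comap_le _ hle₀)⟩
  refine ⟨c₀, hc₀, ?_, ?_⟩
  · intro 𝔫 h𝔫 hπ𝔫
    haveI := h𝔫.isPrime
    obtain ⟨s, hs⟩ := exists_sheet_through_one (K₁ := K₁) t ht hK π hπp 𝔫 hπ𝔫
    obtain ⟨c₁, hc₁, γ, hγ⟩ := hb₁ 𝔫 h𝔫 hπ𝔫
    have h1 : c₁ ∈ Φ s₀ := by
      rw [hconst s₀ s]
      exact ⟨hc₁, γ, hγ.through (chartOne_le_chartMid t) (through_of_comap_le _ hs)⟩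
    exact hγ.of_constRel hc₀ hc₁ (hA s₀ c₀ c₁ hc₀Φ h1)
  · intro 𝔫 h𝔫 hπ𝔫
    haveI := h𝔫.isPrime
    obtain ⟨s, hs⟩ := exists_sheet_through_inv (K₁ := K₁) t ht hK π hπp 𝔫 hπ𝔫
    obtain ⟨c₁, hc₁, γ, hγ⟩ := hb₂ 𝔫 h𝔫 hπ𝔫
    have h1 : c₁ ∈ Φ s₀ := by
      rw [hconst s₀ s]
      exact ⟨hc₁, γ, hγ.through (chartOne_inv_le_chartMid t ht0) (through_of_comap_le _ hs)⟩
    exact hγ.of_constRel hc₀ hc₁ (hA s₀ c₀ c₁ hc₀Φ h1)

end Glob

end Fermat.Agent.NP
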