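/-
NP33 (S33) — helper5 — package **[BRIDGE]**, part 13: **the consumer form of (Δ6) for a one-sheet
(smooth) two-chart model** (`kummer_one_sheet_of_smooth`).

`R` a discrete valuation ring of characteristic zero with algebraically closed residue field of
characteristic `p`, `π` a uniformizer, `p = ε π ^ e₁`, `ζ_p ∈ R`; `K₁ = Frac R`, `K = K₁(t)`, `F / K`
finite with constant field `K₁`; on both charts `π` generates a prime ideal and every closed point of
the special fibre has a branch uniformizer (`IsSmoothChart`: the special fibre is a smooth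
irreducible curve); `f` satisfies `IsKummerOnSmoothChart … p f` on both charts (`div f ∈ p Div`
near the special fibre) and has depth `≥ N` (`ChartDepth`, `N` in the Hensel range) along the
component `(π)` of both charts.  Then `f ∈ K₁ˣ · Fˣ ^ p`.
-/
import Fermat.Agent.NP.ONESHEET_helper5_Unif
import Fermat.Agent.NP.BRIDGE_helper5_Final
import Fermat.Agent.NP.KUMP_helper5_D6

set_option autoImplicit false
set_option linter.unusedSectionVars false
set_option linter.style.haveILetI false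

namespace Fermat.Agent.NP

open Fermat.Agent.JA Fermat.Agent.SS Polynomial

section Abstract

variable {R₁ : Type*} [CommRing R₁]

/-- **the model data of one chart `B` of a one-component smooth model** over the base `R₁`:
`ϖ B` is prime and every closed point of the special fibre has a branch uniformizer. -/
structure IsSmoothChart (B : Type*) [CommRing B] [Algebra R₁ B] (ϖ : R₁) : Prop where
  isPrime : (Ideal.span {algebraMap R₁ B ϖ}).IsPrime
  branch : ∀ 𝔪 : Ideal B, 𝔪.IsMaximal → algebraMap R₁ B ϖ ∈ 𝔪 →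
    ∃ z : B, IsBranchUniformizer (Ideal.span {algebraMap R₁ B ϖ}) 𝔪 z

variable {B : Type*} [CommRing B] [Algebra R₁ B] {E : Type*} [Field E] [Algebra B E]

/-- **the hypotheses on the function `g` on a smooth chart**: `IsKummerAtPrime` at the horizontal
primes of height one through the closed points of the special fibre; order divisible by `m` along
the special fibre. -/
structure IsKummerOnSmoothChart (ϖ : R₁) (m : ℕ) (g : E) : Prop where
  div : ∀ 𝔪 : Ideal B, 𝔪.IsMaximal → algebraMap R₁ B ϖ ∈ 𝔪 →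
    ∀ 𝔮 : Ideal B, 𝔮.IsPrime → 𝔮.height = 1 → algebraMap R₁ B ϖ ∉ 𝔮 → 𝔮 ≤ 𝔪 →
    IsKummerAtPrime R₁ m g 𝔮
  ord : ∃ j : ℤ, IsUnitAtPrime (Ideal.span {algebraMap R₁ B ϖ})
    (g * (algebraMap B E (algebraMap R₁ B ϖ) ^ ((m : ℤ) * j))⁻¹)

end Abstract

section Chart

variable {R₁ : Type*} [CommRing R₁] [IsDomain R₁] [IsDiscreteValuationRing R₁]
variable {B : Type*} [CommRing B] [IsDomain B] [IsNoetherianRing B] [IsIntegrallyClosed B]
  [Algebra R₁ B]
variable {E : Type*} [Field E] [Algebra B E] [IsFractionRing B E]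

/-- **`g = γ ^ m ·` unit at every closed point of the special fibre of a smooth chart.** -/
theorem IsSmoothChart.closed_datum {ϖ : R₁} (hϖ : Irreducible ϖ) (hπne : algebraMap R₁ B ϖ ≠ 0)
    (hsm : IsSmoothChart B ϖ) {m : ℕ} (hm : m ≠ 0) {g : E} (hg : g ≠ 0)
    (hk : IsKummerOnSmoothChart (B := B) ϖ m g)
    (𝔪 : Ideal B) (h𝔪 : 𝔪.IsMaximal) (hπ𝔪 : algebraMap R₁ B ϖ ∈ 𝔪) :
    ∃ γ : E, γ ≠ 0 ∧ ∃ c d : B, c ∉ 𝔪 ∧ d ∉ 𝔪 ∧
      g * algebraMap B E d = γ ^ m * algebraMap B E c := by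
  haveI := hsm.isPrime
  haveI := h𝔪
  obtain ⟨j, hj⟩ := hk.ord
  obtain ⟨z, hz⟩ := hsm.branch 𝔪 h𝔪 hπ𝔪
  have hS : 𝔪.primeCompl ≤ nonZeroDivisors B := by
    intro s hs
    exact mem_nonZeroDivisors_of_ne_zero (fun h0 => hs (h0 ▸ 𝔪.zero_mem))
  haveI : IsIntegrallyClosed (Localization.AtPrime 𝔪) :=
    isIntegrallyClosed_of_isLocalization (Localization.AtPrime 𝔪) 𝔪.primeCompl hS
  have hunits : ∀ s : 𝔪.primeCompl, IsUnit (algebraMap B E s) := fun s =>
    Localization.map_isUnit_of_le E 𝔪.primeCompl hS s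
  letI : Algebra (Localization.AtPrime 𝔪) E :=
    (IsLocalization.lift (M := 𝔪.primeCompl) (S := Localization.AtPrime 𝔪) hunits).toAlgebra
  haveI : IsScalarTower B (Localization.AtPrime 𝔪) E :=
    IsScalarTower.of_algebraMap_eq (fun b => (IsLocalization.lift_eq hunits b).symm)
  haveI : IsFractionRing (Localization.AtPrime 𝔪) E :=
    IsFractionRing.isFractionRing_of_isDomain_of_isLocalization 𝔪.primeCompl
      (Localization.AtPrime 𝔪) E
  have hle : Ideal.span {algebraMap R₁ B ϖ} ≤ 𝔪 := (Ideal.span_singleton_le_iff_mem _).2 hπ𝔪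
  obtain ⟨γ, hγ, r, s, hr, hs, hrs⟩ := exists_kummer_at_smooth (R := Localization.AtPrime 𝔪) 𝔪 hϖ
    hπne (𝔭 := Ideal.span {algebraMap R₁ B ϖ}) (𝔭' := ⊤)
    (Ideal.subset_span (Set.mem_singleton _)) inf_le_left hle
    (fun h => h𝔪.ne_top (top_le_iff.1 h)) hz hm hg (hk.div 𝔪 h𝔪 hπ𝔪) j hj
  refine ⟨γ, hγ, r, s, hr, hs, ?_⟩
  have hγm : γ ^ m ≠ 0 := pow_ne_zero _ hγ
  rw [← hrs]
  field_simp

end Chart

section Final

variable {R : Type*} [CommRing R] [IsDomain R] [IsDiscreteValuationRing R]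
  [CharZero R] {K₁ : Type*} [Field K₁] [Algebra R K₁]
  [IsFractionRing R K₁] {K : Type*} [Field K] [Algebra K₁ K] [Algebra R K] [IsScalarTower R K₁ K]
  {F : Type*} [Field F] [Algebra K F] [Algebra K₁ F] [IsScalarTower K₁ K F] [Algebra R F]
  [IsScalarTower R K F] [FiniteDimensional K F]

/-- if `π` is prime in the first chart there is only one sheet. -/
theorem sheetOf_subsingleton_of_isPrime (t : K) (ht0 : t ≠ 0) (π : R)
    (hprime : (Ideal.span {algebraMap R ↥(chartOne R F t) π}).IsPrime) :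
    ∀ s s' : SheetOf R F t π, s = s' := by
  have htE : algebraMap K F t ≠ 0 := by rw [Ne, map_eq_zero]; exact ht0
  letI := inclusionAlgebra (chartOne_le_chartMid (R := R) (E := F) t)
  haveI : IsLocalization.Away (⟨algebraMap K F t, algebraMap_coord_mem_chartOne t⟩ :
      ↥(chartOne R F t)) ↥(chartMid R F t) :=
    isLocalization_away_of_le (chartOne_le_chartMid t) (algebraMap K F t)
      (algebraMap_coord_mem_chartOne t) htE (inv_coord_mem_chartMid t ht0) (fun x hx => hx)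
  have key : ∀ s : SheetOf R F t π, s.1 =
      (Ideal.span {algebraMap R ↥(chartOne R F t) π}).map
        (algebraMap ↥(chartOne R F t) ↥(chartMid R F t)) := by
    rintro ⟨𝔓, h1⟩
    change 𝔓 = _
    rw [← map_span_inclusion (chartOne_le_chartMid t) π,
      IsLocalization.minimalPrimes_map (Submonoid.powers (⟨algebraMap K F t,
        algebraMap_coord_mem_chartOne t⟩ : ↥(chartOne R F t))) ↥(chartMid R F t),
      Set.mem_preimage, Ideal.minimalPrimes_eq_subsingleton_self, Set.mem_singleton_iff] at h1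
    rw [← h1, IsLocalization.map_comap (Submonoid.powers (⟨algebraMap K F t,
        algebraMap_coord_mem_chartOne t⟩ : ↥(chartOne R F t))) ↥(chartMid R F t)]
  intro s s'
  exact Subtype.ext ((key s).trans (key s').symm)

/-- **deep roots at all closed points of a smooth chart.** -/
theorem IsSmoothChart.exists_deepRoot_of_chartDepth (t : K) (ht : Transcendental K₁ t)
    (hK : IntermediateField.adjoin K₁ {t} = ⊤) (π : R) (hπ : Irreducible π) {p : ℕ}
    (hp : p.Prime) {e₁ : ℕ} (he₁ : 0 < e₁) {ε : Rˣ} (hpe : (p : R) = ε * π ^ e₁)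
    [IsAlgClosed (IsLocalRing.ResidueField R)] (ζ : R) (hζ : IsPrimitiveRoot ζ p)
    (hsm : IsSmoothChart ↥(chartOne R F t) π)
    {g : F} (hg : g ≠ 0) (hk : IsKummerOnSmoothChart (B := ↥(chartOne R F t)) π p g)
    {N : ℕ} (hN : e₁ * p < N * (p - 1)) (c : K₁) (hc : c ≠ 0)
    (hd : ChartDepth (chartOne R F t) π p (Ideal.span {algebraMap R ↥(chartOne R F t) π}) N g
      (algebraMap K₁ F c))
    (𝔫 : Ideal ↥(chartOne R F t)) (h𝔫 : 𝔫.IsMaximal)
    (hπ𝔫 : algebraMap R ↥(chartOne R F t) π ∈ 𝔫) :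
    ∃ γ : F, DeepRootAt (chartOne R F t) p ζ π (g / algebraMap K₁ F c) 𝔫 γ := by
  haveI : IsScalarTower R K₁ F := isScalarTower_base_top R K₁ K F
  haveI : IsIntegrallyClosed ↥(chartOne R F t) := isIntegrallyClosed_chartOne (K₁ := K₁) t hK
  haveI : IsNoetherianRing ↥(chartOne R F t) := isNoetherianRing_chartOne (K₁ := K₁) t ht hK
  haveI : IsFractionRing ↥(chartOne R F t) F := isFractionRing_chartOne (K₁ := K₁) t hK
  haveI := h𝔫
  haveI := h𝔫.isPrime
  haveI := hsm.isPrime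
  have hinjF : Function.Injective (algebraMap R F) :=
    algebraMap_injective_of_tower (K₁ := K₁) (K := K)
  have hπ1 : algebraMap R ↥(chartOne R F t) π ≠ 0 := by
    intro h0
    have := congrArg (fun w : ↥(chartOne R F t) => (w : F)) h0
    exact hπ.ne_zero (hinjF (by rw [map_zero]; exact this))
  have hAC : ResAlgClosed π := resAlgClosed_of_isAlgClosed hπ
  have hlamN := lam_pow_mul_pi_dvd hπ hp hζ hpe hN
  have hcl := hsm.closed_datum (E := F) hπ hπ1 hp.ne_zero hg hk 𝔫 h𝔫 hπ𝔫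
  have hres : ∀ b : ↥(chartOne R F t), ∃ a : R, b - algebraMap R ↥(chartOne R F t) a ∈ 𝔫 :=
    fun b => exists_sub_mem_of_isMaximal_chartOne (K₁ := K₁) hπ ht hK 𝔫 hπ𝔫 b
  obtain ⟨z, hz⟩ := hsm.branch 𝔫 h𝔫 hπ𝔫
  have hle : Ideal.span {algebraMap R ↥(chartOne R F t) π} ≤ 𝔫 :=
    (Ideal.span_singleton_le_iff_mem _).2 hπ𝔫
  have hπ𝔭 : algebraMap R ↥(chartOne R F t) π ∈
      Ideal.span {algebraMap R ↥(chartOne R F t) π} := Ideal.subset_span (Set.mem_singleton _)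
  have hk1 : ∀ a ∈ Ideal.span {algebraMap R ↥(chartOne R F t) π}, ∃ b : ↥(chartOne R F t),
      b ∉ 𝔫 ∧ algebraMap R ↥(chartOne R F t) π ∣ b * a := by
    intro a ha
    refine ⟨1, fun h => h𝔫.ne_top ((Ideal.eq_top_iff_one _).2 h), ?_⟩
    rw [one_mul]
    exact Ideal.mem_span_singleton.1 ha
  set L := chartLocalPtSmooth (K₁ := K₁) (F := F) hπ hp he₁ hpe hAC
    (Ideal.span {algebraMap R ↥(chartOne R F t) π}) 𝔫 hle hπ𝔭 hk1 hz hres with hL
  have key := deepRoot_of_localPt (K₁ := K₁) hπ hp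
    (chartDepthBase (K₁ := K₁) (F := F) hπ hp he₁ hpe hAC) rfl rfl rfl L rfl
    (fun _ : Unit => Ideal.span {algebraMap R ↥(chartOne R F t) π}) (fun _ => rfl)
    (fun _ => hle) (fun _ => hπ𝔭) hN ζ hlamN hcl (fun _ => c) (fun _ => hc) (fun _ => hd)
  exact key ()

/-- **uniqueness of the constant of a deep root at a prime of the special fibre of a smooth
chart.** -/
theorem IsSmoothChart.constRel_of_deepRoots (t : K) (ht : Transcendental K₁ t)
    (hK : IntermediateField.adjoin K₁ {t} = ⊤) (π : R) (hπ : Irreducible π) {p : ℕ}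
    (hp : p.Prime) {e₁ : ℕ} (he₁ : 0 < e₁) {ε : Rˣ} (hpe : (p : R) = ε * π ^ e₁)
    (hAC : ResAlgClosed π) (hsm : IsSmoothChart ↥(chartOne R F t) π)
    (𝔮 : Ideal ↥(chartOne R F t)) (hπ𝔮 : algebraMap R ↥(chartOne R F t) π ∈ 𝔮)
    {ζ : R} (hζ1 : ζ ≠ 1) {g : F} (hg : g ≠ 0) {c c' : K₁} (hc : c ≠ 0) (hc' : c' ≠ 0)
    {γ γ' : F} (h : DeepRootAt (chartOne R F t) p ζ π (g / algebraMap K₁ F c) 𝔮 γ)
    (h' : DeepRootAt (chartOne R F t) p ζ π (g / algebraMap K₁ F c') 𝔮 γ') :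
    ConstRel p ((ζ - 1) ^ p * π) c c' := by
  haveI : IsScalarTower R K₁ F := isScalarTower_base_top R K₁ K F
  haveI : IsNoetherianRing ↥(chartOne R F t) := isNoetherianRing_chartOne (K₁ := K₁) t ht hK
  haveI : IsFractionRing ↥(chartOne R F t) F := isFractionRing_chartOne (K₁ := K₁) t hK
  haveI := hsm.isPrime
  have hle : Ideal.span {algebraMap R ↥(chartOne R F t) π} ≤ 𝔮 :=
    (Ideal.span_singleton_le_iff_mem _).2 hπ𝔮
  refine NP.constRel_of_deepRoots (K₁ := K₁) hπ hp he₁ hpe hAC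
    (Ideal.span {algebraMap R ↥(chartOne R F t) π}) (Ideal.subset_span (Set.mem_singleton _))
    ?_ hζ1 hg hc hc' (h.of_le hle) (h'.of_le hle)
  intro z hz
  refine ⟨1, fun h => hsm.isPrime.ne_top ((Ideal.eq_top_iff_one _).2 h), ?_⟩
  rw [one_mul]
  exact Ideal.mem_span_singleton.1 hz

/-- **(Δ6) for a smooth one-sheet two-chart model** (consumer form): `f ∈ K₁ˣ · Fˣ ^ p`. -/
theorem kummer_one_sheet_of_smooth
    (t : K) (ht : Transcendental K₁ t) (hK : IntermediateField.adjoin K₁ {t} = ⊤)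
    (π : R) (hπ : Irreducible π) {p : ℕ} (hp : p.Prime) {e₁ : ℕ} (he₁ : 0 < e₁) {ε : Rˣ}
    (hpe : (p : R) = ε * π ^ e₁) [IsAlgClosed (IsLocalRing.ResidueField R)]
    (ζ : R) (hζ : IsPrimitiveRoot ζ p)
    (hM4 : ∀ x : F, IsAlgebraic K₁ x → x ∈ Set.range (algebraMap K₁ F))
    (hsm₁ : IsSmoothChart ↥(chartOne R F t) π) (hsm₂ : IsSmoothChart ↥(chartOne R F t⁻¹) π)
    (f : F) (hf : f ≠ 0)
    (hk₁ : IsKummerOnSmoothChart (B := ↥(chartOne R F t)) π p f)
    (hk₂ : IsKummerOnSmoothChart (B := ↥(chartOne R F t⁻¹)) π p f)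
    {N : ℕ} (hN : e₁ * p < N * (p - 1)) (c₁ c₂ : K₁) (hc₁ : c₁ ≠ 0) (hc₂ : c₂ ≠ 0)
    (hd₁ : ChartDepth (chartOne R F t) π p (Ideal.span {algebraMap R ↥(chartOne R F t) π}) N f
      (algebraMap K₁ F c₁))
    (hd₂ : ChartDepth (chartOne R F t⁻¹) π p (Ideal.span {algebraMap R ↥(chartOne R F t⁻¹) π}) N f
      (algebraMap K₁ F c₂)) :
    ∃ (c : K₁) (u : F), c ≠ 0 ∧ f = algebraMap K₁ F c * u ^ p := by
  have ht0 : t ≠ 0 := fun h => ht (h ▸ isAlgebraic_zero)
  have ht' := transcendental_inv_of_transcendental ht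
  have hK' := adjoin_inv_eq_top hK
  have hAC : ResAlgClosed π := resAlgClosed_of_isAlgClosed hπ
  have hζ1 : ζ ≠ 1 := hζ.ne_one hp.one_lt
  obtain ⟨c₀, hc₀, hb₁, hb₂⟩ := exists_common_const_of_unique (K₁ := K₁) t ht hK π hπ
    (p := p) (ζ := ζ) hM4 (g := f)
    (fun 𝔮 _ hπ𝔮 c c' hc hc' γ γ' h h' =>
      IsSmoothChart.constRel_of_deepRoots (K₁ := K₁) t ht hK π hπ hp he₁ hpe hAC hsm₁ 𝔮 hπ𝔮 hζ1 hf
        hc hc' h h')
    (fun 𝔫 h𝔫 hπ𝔫 => ⟨c₁, hc₁, IsSmoothChart.exists_deepRoot_of_chartDepth (K₁ := K₁) t ht hK π hπ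
      hp he₁ hpe ζ hζ hsm₁ hf hk₁ hN c₁ hc₁ hd₁ 𝔫 h𝔫 hπ𝔫⟩)
    (fun 𝔫 h𝔫 hπ𝔫 => ⟨c₂, hc₂, IsSmoothChart.exists_deepRoot_of_chartDepth (K₁ := K₁) t⁻¹ ht' hK' π
      hπ hp he₁ hpe ζ hζ hsm₂ hf hk₂ hN c₂ hc₂ hd₂ 𝔫 h𝔫 hπ𝔫⟩)
  have hC₀ : algebraMap K₁ F c₀ ≠ 0 := by rwa [Ne, map_eq_zero]
  have hf' : f / algebraMap K₁ F c₀ ≠ 0 := div_ne_zero hf hC₀
  obtain ⟨c, u, hc, hcu⟩ := kummer_one_sheet (K₁ := K₁) ht hK hπ.prime hp hζ hM4
    (sheetOf_subsingleton_of_isPrime t ht0 π hsm₁.isPrime) (f / algebraMap K₁ F c₀) hf' hb₁ hb₂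
  refine ⟨c * c₀, u, mul_ne_zero hc hc₀, ?_⟩
  rw [map_mul]
  rw [div_eq_iff hC₀] at hcu
  rw [hcu]
  ring

end Final

end Fermat.Agent.NP
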