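/-
NP33 (S33) — helper5 — package **[HOSTP]**, part 4: **(Δ6) at a level of good reduction**
(`GeoHyps.kummer_one_sheet_p`).

`h : GeoHyps K₁ π t E n S` (level `M`, good reduction in the coordinate `t`), `VM` the extension of
the Gauss valuation; `f ∈ Eˣ` a unit of `VM` with `div f ∈ p Div` at the places of `E / K₁` (`hord`)
and of depth `≥ N` (Hensel range) along `VM` (`ValDepth`).  Then `f ∈ K₁ˣ · Eˣ ^ p`.

* `GeoHyps.isSmoothChart` : the chart of a level of good reduction is an `IsSmoothChart`;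
* `isKummerOnSmoothChart_of_place` : `IsKummerOnSmoothChart … p f` from the places and the unit
  hypothesis;
* `GeoHyps.kummer_one_sheet_p`.
-/
import Fermat.Agent.NP.HOSTP_helper5_Kum
import Fermat.Agent.NP.ONESHEET_helper5_Main
import Fermat.Agent.SS.HART_helper4
import Fermat.Agent.SS.ETALE_helper1_Main

set_option autoImplicit false
set_option linter.unusedSectionVars false
set_option linter.style.haveILetI false

open AlgebraicCurve

namespace Fermat.Agent.NP

open Fermat.Agent.SS Fermat.Agent.JA Fermat.Agent.FF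

section One

variable {R : Type*} [CommRing R] [IsDomain R] [IsDiscreteValuationRing R] [CharZero R]
  {K₁ : Type*} [Field K₁] [Algebra R K₁] [IsFractionRing R K₁]
  {K : Type*} [Field K] [Algebra K₁ K] [Algebra R K] [IsScalarTower R K₁ K]
  {E : Type*} [Field E] [Algebra K E] [Algebra K₁ E] [IsScalarTower K₁ K E]
  [Algebra R E] [IsScalarTower R K E]
  {π : R} {t : K} {n : ℕ} {S : Finset R}

/-- the chart of a level of good reduction is smooth with integral special fibre. -/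
theorem GeoHyps.isSmoothChart (h : GeoHyps K₁ π t E n S) :
    IsSmoothChart ↥(chartOne R E t) π where
  isPrime := GeoHyps.span_isPrime h
  branch := fun 𝔪 h𝔪 hπ𝔪 => by
    haveI := h𝔪
    exact GeoHyps.exists_isBranchUniformizer h 𝔪 hπ𝔪

variable [FiniteDimensional K E]

/-- **`IsKummerOnSmoothChart … p f` from the places and the unit hypothesis.** -/
theorem isKummerOnSmoothChart_of_place
    (ht : Transcendental K₁ t) (hK : IntermediateField.adjoin K₁ {t} = ⊤)
    (hπ : Irreducible π) {p : ℕ}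
    {f : E} (hf : f ≠ 0)
    (hord : ∀ P : Place K₁ E, P.ord f = 0 ∨ (IsRationalPlace P ∧ (p : ℤ) ∣ P.ord f))
    (hu : IsUnitAtPrime (Ideal.span {algebraMap R ↥(chartOne R E t) π}) f) :
    IsKummerOnSmoothChart (B := ↥(chartOne R E t)) π p f := by
  haveI : IsScalarTower R K₁ E := isScalarTower_base_const R K₁ K E
  haveI : IsIntegrallyClosed ↥(chartOne R E t) := isIntegrallyClosed_chartOne (K₁ := K₁) t hK
  haveI : IsNoetherianRing ↥(chartOne R E t) := isNoetherianRing_chartOne (K₁ := K₁) t ht hK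
  haveI : IsFractionRing ↥(chartOne R E t) E := isFractionRing_chartOne (K₁ := K₁) t hK
  refine ⟨?_, ⟨0, ?_⟩⟩
  · intro 𝔪 h𝔪 hπ𝔪 𝔮 h𝔮 hht hπ𝔮 hle
    haveI := h𝔪
    haveI := h𝔮
    exact isKummerAtPrime_of_place (K₁ := K₁) hπ 𝔪 hπ𝔪 𝔮 hht hπ𝔮 hle hf (fun P _ _ => hord P)
  · simpa using hu

/-- **(Δ6) at a level of good reduction.** -/
theorem GeoHyps.kummer_one_sheet_p [IsAlgClosed (IsLocalRing.ResidueField R)]
    (h : GeoHyps K₁ π t E n S) (VM : ValuationSubring E)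
    (hG : IsGaussAt R π t (VM.comap (algebraMap K E)))
    {p : ℕ} (hp : p.Prime) {e₁ : ℕ} (he₁ : 0 < e₁) {ε : Rˣ} (hpe : (p : R) = ε * π ^ e₁)
    (ζ : R) (hζ : IsPrimitiveRoot ζ p)
    (f : E) (hf : f ≠ 0)
    (hord : ∀ P : Place K₁ E, P.ord f = 0 ∨ (IsRationalPlace P ∧ (p : ℤ) ∣ P.ord f))
    (hfu : VM.valuation f = 1)
    {N : ℕ} (hN : e₁ * p < N * (p - 1)) (c : K₁) (hc : c ≠ 0)
    (hd : ValDepth π p VM N f c) :
    ∃ (c' : K₁) (u : E), c' ≠ 0 ∧ f = algebraMap K₁ E c' * u ^ p := by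
  have hπ := h.irreducible
  have hu := h.transcendental
  have hK := h.adjoin_eq_top
  have hu' := transcendental_inv_of_transcendental hu
  have hK' := adjoin_inv_eq_top hK
  obtain ⟨S', h'⟩ := h.inv
  have hG' : IsGaussAt R π t⁻¹ (VM.comap (algebraMap K E)) := isGaussAt_inv π hπ.prime t _ hG
  haveI : IsScalarTower R K₁ E := isScalarTower_base_const R K₁ K E
  haveI : IsNoetherianRing ↥(chartOne R E t) := isNoetherianRing_chartOne (K₁ := K₁) t hu hK
  haveI : IsFractionRing ↥(chartOne R E t) E := isFractionRing_chartOne (K₁ := K₁) t hK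
  haveI : IsNoetherianRing ↥(chartOne R E t⁻¹) :=
    isNoetherianRing_chartOne (K₁ := K₁) t⁻¹ hu' hK'
  haveI : IsFractionRing ↥(chartOne R E t⁻¹) E := isFractionRing_chartOne (K₁ := K₁) t⁻¹ hK'
  haveI hP₁ := GeoHyps.span_isPrime h
  haveI hP₂ := GeoHyps.span_isPrime h'
  have hloc₁ : ∀ z ∈ Ideal.span {algebraMap R ↥(chartOne R E t) π}, ∃ s : ↥(chartOne R E t),
      s ∉ Ideal.span {algebraMap R ↥(chartOne R E t) π} ∧
        algebraMap R ↥(chartOne R E t) π ∣ s * z := by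
    intro z hz
    refine ⟨1, fun h1 => hP₁.ne_top ((Ideal.eq_top_iff_one _).2 h1), ?_⟩
    rw [one_mul]
    exact Ideal.mem_span_singleton.1 hz
  have hloc₂ : ∀ z ∈ Ideal.span {algebraMap R ↥(chartOne R E t⁻¹) π}, ∃ s : ↥(chartOne R E t⁻¹),
      s ∉ Ideal.span {algebraMap R ↥(chartOne R E t⁻¹) π} ∧
        algebraMap R ↥(chartOne R E t⁻¹) π ∣ s * z := by
    intro z hz
    refine ⟨1, fun h1 => hP₂.ne_top ((Ideal.eq_top_iff_one _).2 h1), ?_⟩
    rw [one_mul]
    exact Ideal.mem_span_singleton.1 hz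
  have hBW₁ : ∀ b : ↥(chartOne R E t), (b : E) ∈ VM := fun b => chart_le_of_isGaussAt hG b b.2
  have hBW₂ : ∀ b : ↥(chartOne R E t⁻¹), (b : E) ∈ VM := fun b => chart_le_of_isGaussAt hG' b b.2
  have hW₁ : ∀ b : ↥(chartOne R E t), b ∈ Ideal.span {algebraMap R ↥(chartOne R E t) π} ↔
      VM.valuation (b : E) < 1 := fun b => (GeoHyps.valuation_lt_one_iff_mem_span h VM hG b).symm
  have hW₂ : ∀ b : ↥(chartOne R E t⁻¹), b ∈ Ideal.span {algebraMap R ↥(chartOne R E t⁻¹) π} ↔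
      VM.valuation (b : E) < 1 := fun b => (GeoHyps.valuation_lt_one_iff_mem_span h' VM hG' b).symm
  have hπ₁ : algebraMap R ↥(chartOne R E t) π ∈ Ideal.span {algebraMap R ↥(chartOne R E t) π} :=
    Ideal.subset_span (Set.mem_singleton _)
  have hπ₂ : algebraMap R ↥(chartOne R E t⁻¹) π ∈
      Ideal.span {algebraMap R ↥(chartOne R E t⁻¹) π} := Ideal.subset_span (Set.mem_singleton _)
  have hd₁ := chartDepth_of_valDepth (K₁ := K₁) VM hBW₁ hW₁ hπ₁ hloc₁ hc hd
  have hd₂ := chartDepth_of_valDepth (K₁ := K₁) VM hBW₂ hW₂ hπ₂ hloc₂ hc hd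
  have hu₁ := isUnitAtPrime_of_valuationSubring_eq_one VM hBW₁ hW₁ hπ₁ hloc₁ hfu
  have hu₂ := isUnitAtPrime_of_valuationSubring_eq_one VM hBW₂ hW₂ hπ₂ hloc₂ hfu
  exact kummer_one_sheet_of_smooth (K₁ := K₁) t hu hK π hπ hp he₁ hpe ζ hζ h.const
    (GeoHyps.isSmoothChart h) (GeoHyps.isSmoothChart h') f hf
    (isKummerOnSmoothChart_of_place (K₁ := K₁) hu hK hπ hf hord hu₁)
    (isKummerOnSmoothChart_of_place (K₁ := K₁) hu' hK' hπ hf hord hu₂)
    hN c c hc hc hd₁ hd₂

end One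

end Fermat.Agent.NP
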