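/-
NP33 (S33) — helper5 — package **[HOSTP]**, part 5 (P3): **the `DepthBase`s and the valuation-ring
`Sheet`s of an `SSModel`** (input of helper7's `TwoLevel.ofSSModel`).

* `Sheet.ext'` : a sheet is determined by its ring; `Sheet.copyW` : replace the ring by an equal one.
* `hostDepthBase K₁ K E hπ hp he₁ hpe : DepthBase E p` (`= chartDepthBase`), with
  `π = algebraMap R E π`, `R₁ = (algebraMap R E).range`, `K₁ = (algebraMap K₁ E).fieldRange` (`rfl`).
* `SSModel.sheetInf`, `SSModel.sheetZero : Sheet (hostDepthBase K₁ KN EN …)` with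
  `W = Winf.toSubring`, `W = W0.toSubring` (`rfl`), and their identification with the `chartSheet`s
  of the chart `chartOne R EN j` (`SSModel.sheetInf_eq`, `SSModel.sheetZero_eq`).
* `GeoHyps.sheetM : Sheet (hostDepthBase K₁ K E …)` with `W = VM.toSubring` for the extension `VM`
  of the Gauss valuation at a level of good reduction, `GeoHyps.sheetM_eq`.
-/
import Fermat.Agent.NP.HOSTP_helper5_One

set_option autoImplicit false
set_option linter.unusedSectionVars false
set_option linter.style.haveILetI false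

open AlgebraicCurve

namespace Fermat.Agent.NP

open Fermat.Agent.SS Fermat.Agent.JA Fermat.Agent.FF

section Copy

variable {F : Type*} [Field F] {p : ℕ} {B : DepthBase F p}

/-- a sheet is determined by its ring. -/
theorem Sheet.ext' {S S' : Sheet B} (h : S.W = S'.W) : S = S' := by
  cases S
  cases S'
  cases h
  rfl

/-- replace the ring of a sheet by an equal one. -/
def Sheet.copyW (S : Sheet B) (W' : Subring F) (h : W' = S.W) : Sheet B where
  W := W'
  R₁_le := h ▸ S.R₁_le
  const_mem := h ▸ S.const_mem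
  π_inv_notMem := h ▸ S.π_inv_notMem
  unif := h ▸ S.unif
  algclosed := h ▸ S.algclosed

@[simp] theorem Sheet.copyW_W (S : Sheet B) (W' : Subring F) (h : W' = S.W) :
    (S.copyW W' h).W = W' := rfl

theorem Sheet.copyW_eq (S : Sheet B) (W' : Subring F) (h : W' = S.W) : S.copyW W' h = S :=
  Sheet.ext' h

end Copy

section Base

variable {R : Type*} [CommRing R] [IsDomain R] [IsDiscreteValuationRing R]
  (K₁ : Type*) [Field K₁] [Algebra R K₁] [IsFractionRing R K₁]
  (K : Type*) [Field K] [Algebra K₁ K] [Algebra R K] [IsScalarTower R K₁ K]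
  (E : Type*) [Field E] [Algebra K E] [Algebra K₁ E] [IsScalarTower K₁ K E]
  [Algebra R E] [IsScalarTower R K E]

/-- **the `DepthBase` of a host `E ⊇ K ⊇ K₁ = Frac R`.** -/
noncomputable def hostDepthBase [IsAlgClosed (IsLocalRing.ResidueField R)] {π : R}
    (hπ : Irreducible π) {p : ℕ} (hp : p.Prime) {e₁ : ℕ} (he₁ : 0 < e₁) {ε : Rˣ}
    (hpe : (p : R) = ε * π ^ e₁) : DepthBase E p :=
  haveI : IsScalarTower R K₁ E := isScalarTower_base_const R K₁ K E
  chartDepthBase (K₁ := K₁) (F := E) hπ hp he₁ hpe (resAlgClosed_of_isAlgClosed hπ)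

variable [IsAlgClosed (IsLocalRing.ResidueField R)] {π : R}
  (hπ : Irreducible π) {p : ℕ} (hp : p.Prime) {e₁ : ℕ} (he₁ : 0 < e₁) {ε : Rˣ}
  (hpe : (p : R) = ε * π ^ e₁)

@[simp] theorem hostDepthBase_π : (hostDepthBase K₁ K E hπ hp he₁ hpe).π = algebraMap R E π := rfl

@[simp] theorem hostDepthBase_R₁ :
    (hostDepthBase K₁ K E hπ hp he₁ hpe).R₁ = (algebraMap R E).range := rfl

@[simp] theorem hostDepthBase_K₁ :
    (hostDepthBase K₁ K E hπ hp he₁ hpe).K₁ = (algebraMap K₁ E).fieldRange := rfl

@[simp] theorem hostDepthBase_e₁ : (hostDepthBase K₁ K E hπ hp he₁ hpe).e₁ = e₁ := rfl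

@[simp] theorem hostDepthBase_ε :
    (hostDepthBase K₁ K E hπ hp he₁ hpe).ε = algebraMap R E (ε : R) := rfl

end Base

section LevelN

variable {R : Type*} [CommRing R] [IsDomain R] [IsDiscreteValuationRing R] [CharZero R]
  {K₁ : Type*} [Field K₁] [Algebra R K₁] [IsFractionRing R K₁]
  {KM : Type*} [Field KM] [Algebra K₁ KM] [Algebra R KM] [IsScalarTower R K₁ KM]
  {EM : Type*} [Field EM] [Algebra KM EM] [Algebra K₁ EM] [IsScalarTower K₁ KM EM] [Algebra R EM]
  [IsScalarTower R KM EM]
  {KN : Type*} [Field KN] [Algebra K₁ KN] [Algebra R KN] [IsScalarTower R K₁ KN]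
  {EN : Type*} [Field EN] [Algebra KN EN] [Algebra K₁ EN] [IsScalarTower K₁ KN EN] [Algebra R EN]
  [IsScalarTower R KN EN] [FiniteDimensional KN EN]
  {π : R} {q n : ℕ} {S : Finset R} {t : KM} {jM : EM} {j : KN} {A B : EM →+* EN}
  {VM : ValuationSubring EM} {Winf W0 : ValuationSubring EN}
  [IsAlgClosed (IsLocalRing.ResidueField R)]

/-- `(𝒪_{chart})_{𝔭∞} = W∞` on the chart `j`. -/
theorem SSModel.locSub_inf (h : SSModel K₁ π q n S t jM j A B VM Winf W0) (hπ : Irreducible π) :
    haveI : IsScalarTower R K₁ EN := isScalarTower_base_const R K₁ KN EN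
    haveI : IsNoetherianRing ↥(chartOne R EN j) :=
      isNoetherianRing_chartOne (K₁ := K₁) j h.j_transcendental h.j_adjoin
    haveI : IsFractionRing ↥(chartOne R EN j) EN := isFractionRing_chartOne (K₁ := K₁) j h.j_adjoin
    locSub (chartOne R EN j) (sheetIdeal j Winf h.two.chart_le_inf) = Winf.toSubring := by
  haveI : IsScalarTower R K₁ EN := isScalarTower_base_const R K₁ KN EN
  haveI : IsNoetherianRing ↥(chartOne R EN j) :=
    isNoetherianRing_chartOne (K₁ := K₁) j h.j_transcendental h.j_adjoin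
  haveI : IsFractionRing ↥(chartOne R EN j) EN := isFractionRing_chartOne (K₁ := K₁) j h.j_adjoin
  have hmod₁ := h.isModelChart_one hπ
  exact locSub_eq_toSubring Winf (fun b => h.two.chart_le_inf b b.2)
    (fun b => mem_sheetIdeal_iff j Winf h.two.chart_le_inf b) hmod₁.mem_inf
    (IsModelChart.hloc_inf hmod₁)

/-- `(𝒪_{chart})_{𝔭0} = W0` on the chart `j`. -/
theorem SSModel.locSub_zero (h : SSModel K₁ π q n S t jM j A B VM Winf W0) (hπ : Irreducible π) :
    haveI : IsScalarTower R K₁ EN := isScalarTower_base_const R K₁ KN EN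
    haveI : IsNoetherianRing ↥(chartOne R EN j) :=
      isNoetherianRing_chartOne (K₁ := K₁) j h.j_transcendental h.j_adjoin
    haveI : IsFractionRing ↥(chartOne R EN j) EN := isFractionRing_chartOne (K₁ := K₁) j h.j_adjoin
    locSub (chartOne R EN j) (sheetIdeal j W0 h.two.chart_le_zero) = W0.toSubring := by
  haveI : IsScalarTower R K₁ EN := isScalarTower_base_const R K₁ KN EN
  haveI : IsNoetherianRing ↥(chartOne R EN j) :=
    isNoetherianRing_chartOne (K₁ := K₁) j h.j_transcendental h.j_adjoin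
  haveI : IsFractionRing ↥(chartOne R EN j) EN := isFractionRing_chartOne (K₁ := K₁) j h.j_adjoin
  have hmod₁ := h.isModelChart_one hπ
  exact locSub_eq_toSubring W0 (fun b => h.two.chart_le_zero b b.2)
    (fun b => mem_sheetIdeal_iff j W0 h.two.chart_le_zero b) hmod₁.mem_zero
    (IsModelChart.hloc_zero hmod₁)

variable {p : ℕ} (hp : p.Prime) {e₁ : ℕ} (he₁ : 0 < e₁) {ε : Rˣ} (hpe : (p : R) = ε * π ^ e₁)

/-- **the chart form of the sheet `∞`** of an `SSModel`. -/
noncomputable def SSModel.chartSheetInf (h : SSModel K₁ π q n S t jM j A B VM Winf W0)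
    (hπ : Irreducible π) : Sheet (hostDepthBase K₁ KN EN hπ hp he₁ hpe) :=
  haveI : IsScalarTower R K₁ EN := isScalarTower_base_const R K₁ KN EN
  haveI : IsNoetherianRing ↥(chartOne R EN j) :=
    isNoetherianRing_chartOne (K₁ := K₁) j h.j_transcendental h.j_adjoin
  haveI : IsFractionRing ↥(chartOne R EN j) EN := isFractionRing_chartOne (K₁ := K₁) j h.j_adjoin
  chartSheet (K₁ := K₁) hπ hp he₁ hpe (resAlgClosed_of_isAlgClosed hπ)
    (sheetIdeal j Winf h.two.chart_le_inf) (h.isModelChart_one hπ).mem_inf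
    (IsModelChart.hloc_inf (h.isModelChart_one hπ))

/-- **the chart form of the sheet `0`** of an `SSModel`. -/
noncomputable def SSModel.chartSheetZero (h : SSModel K₁ π q n S t jM j A B VM Winf W0)
    (hπ : Irreducible π) : Sheet (hostDepthBase K₁ KN EN hπ hp he₁ hpe) :=
  haveI : IsScalarTower R K₁ EN := isScalarTower_base_const R K₁ KN EN
  haveI : IsNoetherianRing ↥(chartOne R EN j) :=
    isNoetherianRing_chartOne (K₁ := K₁) j h.j_transcendental h.j_adjoin
  haveI : IsFractionRing ↥(chartOne R EN j) EN := isFractionRing_chartOne (K₁ := K₁) j h.j_adjoin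
  chartSheet (K₁ := K₁) hπ hp he₁ hpe (resAlgClosed_of_isAlgClosed hπ)
    (sheetIdeal j W0 h.two.chart_le_zero) (h.isModelChart_one hπ).mem_zero
    (IsModelChart.hloc_zero (h.isModelChart_one hπ))

/-- **the sheet `∞` of an `SSModel`**, `W = Winf.toSubring`. -/
noncomputable def SSModel.sheetInf (h : SSModel K₁ π q n S t jM j A B VM Winf W0)
    (hπ : Irreducible π) : Sheet (hostDepthBase K₁ KN EN hπ hp he₁ hpe) :=
  (SSModel.chartSheetInf hp he₁ hpe h hπ).copyW Winf.toSubring (SSModel.locSub_inf h hπ).symm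

/-- **the sheet `0` of an `SSModel`**, `W = W0.toSubring`. -/
noncomputable def SSModel.sheetZero (h : SSModel K₁ π q n S t jM j A B VM Winf W0)
    (hπ : Irreducible π) : Sheet (hostDepthBase K₁ KN EN hπ hp he₁ hpe) :=
  (SSModel.chartSheetZero hp he₁ hpe h hπ).copyW W0.toSubring (SSModel.locSub_zero h hπ).symm

@[simp] theorem SSModel.sheetInf_W (h : SSModel K₁ π q n S t jM j A B VM Winf W0)
    (hπ : Irreducible π) : (SSModel.sheetInf hp he₁ hpe h hπ).W = Winf.toSubring := rfl

@[simp] theorem SSModel.sheetZero_W (h : SSModel K₁ π q n S t jM j A B VM Winf W0)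
    (hπ : Irreducible π) : (SSModel.sheetZero hp he₁ hpe h hπ).W = W0.toSubring := rfl

theorem SSModel.sheetInf_eq (h : SSModel K₁ π q n S t jM j A B VM Winf W0)
    (hπ : Irreducible π) :
    SSModel.sheetInf hp he₁ hpe h hπ = SSModel.chartSheetInf hp he₁ hpe h hπ :=
  Sheet.copyW_eq _ _ _

theorem SSModel.sheetZero_eq (h : SSModel K₁ π q n S t jM j A B VM Winf W0)
    (hπ : Irreducible π) :
    SSModel.sheetZero hp he₁ hpe h hπ = SSModel.chartSheetZero hp he₁ hpe h hπ :=
  Sheet.copyW_eq _ _ _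

end LevelN

section LevelM

variable {R : Type*} [CommRing R] [IsDomain R] [IsDiscreteValuationRing R] [CharZero R]
  {K₁ : Type*} [Field K₁] [Algebra R K₁] [IsFractionRing R K₁]
  {K : Type*} [Field K] [Algebra K₁ K] [Algebra R K] [IsScalarTower R K₁ K]
  {E : Type*} [Field E] [Algebra K E] [Algebra K₁ E] [IsScalarTower K₁ K E]
  [Algebra R E] [IsScalarTower R K E]
  {π : R} {t : K} {n : ℕ} {S : Finset R}
  [IsAlgClosed (IsLocalRing.ResidueField R)]

/-- the component `(π)` of a chart of good reduction is (trivially) locally generated by `π`. -/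
theorem GeoHyps.hloc_span (h : GeoHyps K₁ π t E n S) :
    ∀ z ∈ Ideal.span {algebraMap R ↥(chartOne R E t) π}, ∃ s : ↥(chartOne R E t),
      s ∉ Ideal.span {algebraMap R ↥(chartOne R E t) π} ∧
        algebraMap R ↥(chartOne R E t) π ∣ s * z := by
  haveI hP₁ := GeoHyps.span_isPrime h
  intro z hz
  refine ⟨1, fun h1 => hP₁.ne_top ((Ideal.eq_top_iff_one _).2 h1), ?_⟩
  rw [one_mul]
  exact Ideal.mem_span_singleton.1 hz

/-- `(𝒪_{chart})_{(π)} = VM` on the chart `t` of a level of good reduction. -/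
theorem GeoHyps.locSub_span (h : GeoHyps K₁ π t E n S) (VM : ValuationSubring E)
    (hG : IsGaussAt R π t (VM.comap (algebraMap K E))) :
    haveI : FiniteDimensional K E := h.finite
    haveI : IsScalarTower R K₁ E := isScalarTower_base_const R K₁ K E
    haveI : IsNoetherianRing ↥(chartOne R E t) :=
      isNoetherianRing_chartOne (K₁ := K₁) t h.transcendental h.adjoin_eq_top
    haveI : IsFractionRing ↥(chartOne R E t) E :=
      isFractionRing_chartOne (K₁ := K₁) t h.adjoin_eq_top
    haveI := GeoHyps.span_isPrime h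
    locSub (chartOne R E t) (Ideal.span {algebraMap R ↥(chartOne R E t) π}) = VM.toSubring := by
  haveI : FiniteDimensional K E := h.finite
  haveI : IsScalarTower R K₁ E := isScalarTower_base_const R K₁ K E
  haveI : IsNoetherianRing ↥(chartOne R E t) :=
    isNoetherianRing_chartOne (K₁ := K₁) t h.transcendental h.adjoin_eq_top
  haveI : IsFractionRing ↥(chartOne R E t) E :=
    isFractionRing_chartOne (K₁ := K₁) t h.adjoin_eq_top
  haveI := GeoHyps.span_isPrime h
  exact locSub_eq_toSubring VM (fun b => chart_le_of_isGaussAt hG b b.2)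
    (fun b => (GeoHyps.valuation_lt_one_iff_mem_span h VM hG b).symm)
    (Ideal.subset_span (Set.mem_singleton _)) (GeoHyps.hloc_span h)

variable {p : ℕ} (hp : p.Prime) {e₁ : ℕ} (he₁ : 0 < e₁) {ε : Rˣ} (hpe : (p : R) = ε * π ^ e₁)

/-- **the chart form of the sheet of a level of good reduction.** -/
noncomputable def GeoHyps.chartSheetM (h : GeoHyps K₁ π t E n S) :
    Sheet (hostDepthBase K₁ K E h.irreducible hp he₁ hpe) :=
  haveI : FiniteDimensional K E := h.finite
  haveI : IsScalarTower R K₁ E := isScalarTower_base_const R K₁ K E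
  haveI : IsNoetherianRing ↥(chartOne R E t) :=
    isNoetherianRing_chartOne (K₁ := K₁) t h.transcendental h.adjoin_eq_top
  haveI : IsFractionRing ↥(chartOne R E t) E :=
    isFractionRing_chartOne (K₁ := K₁) t h.adjoin_eq_top
  haveI := GeoHyps.span_isPrime h
  chartSheet (K₁ := K₁) h.irreducible hp he₁ hpe (resAlgClosed_of_isAlgClosed h.irreducible)
    (Ideal.span {algebraMap R ↥(chartOne R E t) π}) (Ideal.subset_span (Set.mem_singleton _))
    (GeoHyps.hloc_span h)

/-- **the sheet of a level of good reduction**, `W = VM.toSubring`. -/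
noncomputable def GeoHyps.sheetM (h : GeoHyps K₁ π t E n S) (VM : ValuationSubring E)
    (hG : IsGaussAt R π t (VM.comap (algebraMap K E))) :
    Sheet (hostDepthBase K₁ K E h.irreducible hp he₁ hpe) :=
  (GeoHyps.chartSheetM hp he₁ hpe h).copyW VM.toSubring (GeoHyps.locSub_span h VM hG).symm

@[simp] theorem GeoHyps.sheetM_W (h : GeoHyps K₁ π t E n S) (VM : ValuationSubring E)
    (hG : IsGaussAt R π t (VM.comap (algebraMap K E))) :
    (GeoHyps.sheetM hp he₁ hpe h VM hG).W = VM.toSubring := rfl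

theorem GeoHyps.sheetM_eq (h : GeoHyps K₁ π t E n S) (VM : ValuationSubring E)
    (hG : IsGaussAt R π t (VM.comap (algebraMap K E))) :
    GeoHyps.sheetM hp he₁ hpe h VM hG = GeoHyps.chartSheetM hp he₁ hpe h :=
  Sheet.copyW_eq _ _ _

end LevelM

end Fermat.Agent.NP
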