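import Mathlib

/-!
# NP33 — helper7 — [NORMP]-(N1), part 1: commutative algebra of norms modulo an ideal

* `normp_norm_quotient_mk` : the norm of a finite free algebra commutes with reduction modulo an
  arbitrary ideal `I` of the base;
* `normp_exists_norm_add_smul` : `N (u + a • s) = N u + a r`;
* `normp_prod_equiv` : over a local ring, the factors of a product decomposition `T ≃ M₁ × M₂` of a
  finite free algebra are finite free, the norm is the product of the norms and the ranks add.
-/

set_option autoImplicit false
set_option linter.unusedSectionVars false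

open TensorProduct

namespace Fermat.Agent.NP

section Quotient

variable {A B : Type*} [CommRing A] [CommRing B] [Algebra A B] [Module.Free A B]
  [Module.Finite A B]

/-- the norm commutes with base change. -/
theorem normp_norm_baseChange (C : Type*) [CommRing C] [Algebra A C] (f : B) :
    Algebra.norm C ((1 : C) ⊗ₜ[A] f) = algebraMap A C (Algebra.norm A f) := by
  rw [Algebra.norm_apply, ← Algebra.baseChange_lmul, LinearMap.det_baseChange, Algebra.norm_apply]

/-- **the norm commutes with reduction modulo an ideal of the base.** -/
theorem normp_norm_quotient_mk (I : Ideal A) (x : B) :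
    Algebra.norm (A ⧸ I) (Ideal.Quotient.mk (I.map (algebraMap A B)) x) =
      Ideal.Quotient.mk I (Algebra.norm A x) := by
  rw [← Algebra.norm_eq_of_algEquiv (Algebra.TensorProduct.quotIdealMapEquivQuotTensor B I)]
  have h1 : Algebra.TensorProduct.quotIdealMapEquivQuotTensor B I
      (Ideal.Quotient.mk (I.map (algebraMap A B)) x) = (1 : A ⧸ I) ⊗ₜ[A] x := by
    simp [Algebra.TensorProduct.quotIdealMapEquivQuotTensor]
  rw [h1, normp_norm_baseChange]
  rfl

theorem normp_free_quotient_map (I : Ideal A) :
    Module.Free (A ⧸ I) (B ⧸ I.map (algebraMap A B)) :=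
  Module.Free.of_equiv (Algebra.TensorProduct.quotIdealMapEquivQuotTensor B I).symm.toLinearEquiv

theorem normp_finite_quotient_map (I : Ideal A) :
    Module.Finite (A ⧸ I) (B ⧸ I.map (algebraMap A B)) :=
  Module.Finite.equiv (Algebra.TensorProduct.quotIdealMapEquivQuotTensor B I).symm.toLinearEquiv

theorem normp_finrank_quotient_map (I : Ideal A) [Nontrivial (A ⧸ I)] :
    Module.finrank (A ⧸ I) (B ⧸ I.map (algebraMap A B)) = Module.finrank A B := by
  have : Nontrivial A := (Ideal.Quotient.mk_surjective (I := I)).nontrivial
  rw [(Algebra.TensorProduct.quotIdealMapEquivQuotTensor B I).toLinearEquiv.finrank_eq,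
    Module.finrank_baseChange]

/-- `N (u + a • s) ≡ N u` modulo `a`. -/
theorem normp_exists_norm_add_smul (a : A) (u s : B) :
    ∃ r : A, Algebra.norm A (u + a • s) = Algebra.norm A u + a * r := by
  have h1 := normp_norm_quotient_mk (Ideal.span {a}) (u + a • s)
  have h2 := normp_norm_quotient_mk (Ideal.span {a}) u
  have h3 : Ideal.Quotient.mk ((Ideal.span {a}).map (algebraMap A B)) (u + a • s) =
      Ideal.Quotient.mk ((Ideal.span {a}).map (algebraMap A B)) u := by
    rw [Ideal.Quotient.eq]
    have : u + a • s - u = algebraMap A B a * s := by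
      rw [Algebra.smul_def]
      ring
    rw [this]
    exact Ideal.mul_mem_right _ _ (Ideal.mem_map_of_mem _ (Ideal.mem_span_singleton_self a))
  rw [h3, h2] at h1
  have h4 := (Ideal.Quotient.eq.mp h1.symm)
  rw [Ideal.mem_span_singleton] at h4
  obtain ⟨r, hr⟩ := h4
  exact ⟨r, by linear_combination hr⟩

end Quotient

section Prod

variable {R : Type*} [CommRing R]

/-- the norm on a product algebra is the product of the norms. -/
theorem normp_norm_prod {S T : Type*} [CommRing S] [CommRing T] [Algebra R S] [Algebra R T]
    [Module.Free R S] [Module.Finite R S] [Module.Free R T] [Module.Finite R T] (x : S) (y : T) :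
    Algebra.norm R ((x, y) : S × T) = Algebra.norm R x * Algebra.norm R y := by
  rw [Algebra.norm_apply, Algebra.norm_apply, Algebra.norm_apply, ← LinearMap.det_prodMap]
  congr 1

variable [IsLocalRing R] {T M₁ M₂ : Type*} [CommRing T] [CommRing M₁] [CommRing M₂]
  [Algebra R T] [Algebra R M₁] [Algebra R M₂] [Module.Free R T] [Module.Finite R T]

theorem normp_finite_fst (e : T ≃ₐ[R] M₁ × M₂) : Module.Finite R M₁ :=
  Module.Finite.of_surjective ((LinearMap.fst R M₁ M₂).comp e.toLinearMap)
    (fun m => ⟨e.symm (m, 0), by simp⟩)

theorem normp_finite_snd (e : T ≃ₐ[R] M₁ × M₂) : Module.Finite R M₂ :=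
  Module.Finite.of_surjective ((LinearMap.snd R M₁ M₂).comp e.toLinearMap)
    (fun m => ⟨e.symm (0, m), by simp⟩)

theorem normp_free_fst (e : T ≃ₐ[R] M₁ × M₂) : Module.Free R M₁ := by
  have := normp_finite_fst e
  have hP : Module.Projective R (M₁ × M₂) := Module.Projective.of_equiv e.toLinearEquiv
  have : Module.Projective R M₁ :=
    Module.Projective.of_split (LinearMap.inl R M₁ M₂) (LinearMap.fst R M₁ M₂)
      (by ext; simp)
  exact Module.free_of_flat_of_isLocalRing

theorem normp_free_snd (e : T ≃ₐ[R] M₁ × M₂) : Module.Free R M₂ := by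
  have := normp_finite_snd e
  have hP : Module.Projective R (M₁ × M₂) := Module.Projective.of_equiv e.toLinearEquiv
  have : Module.Projective R M₂ :=
    Module.Projective.of_split (LinearMap.inr R M₁ M₂) (LinearMap.snd R M₁ M₂)
      (by ext; simp)
  exact Module.free_of_flat_of_isLocalRing

/-- the norm through a product decomposition. -/
theorem normp_norm_prod_equiv (e : T ≃ₐ[R] M₁ × M₂) (t : T) :
    Algebra.norm R t = Algebra.norm R (e t).1 * Algebra.norm R (e t).2 := by
  have := normp_finite_fst e
  have := normp_finite_snd e
  have := normp_free_fst e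
  have := normp_free_snd e
  rw [← Algebra.norm_eq_of_algEquiv e t]
  exact normp_norm_prod (e t).1 (e t).2

/-- the ranks add. -/
theorem normp_finrank_prod_equiv (e : T ≃ₐ[R] M₁ × M₂) :
    Module.finrank R T = Module.finrank R M₁ + Module.finrank R M₂ := by
  have := normp_finite_fst e
  have := normp_finite_snd e
  have := normp_free_fst e
  have := normp_free_snd e
  rw [e.toLinearEquiv.finrank_eq, Module.finrank_prod]

end Prod

end Fermat.Agent.NP
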