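import Mathlib
import Fermat.Agent.SS.VAL2_helper7_TwoExtB
import Fermat.Agent.S35.NORMRED_helper9_Abs
import Fermat.Agent.NP.NORMP_helper7_AbsAlg

/-!
# NP33 — helper7 — [NORMP]-(N1), part 2: the norm modulo `ϖ ^ n` in the two-extension situation,
scalar case

`S` the integral closure of the discrete valuation ring `O` in `L`, `V₁ ≠ V₂` the two extensions
(`e₁ = f₁ = e₂ = 1`): `powIdeal h ϖ n = S ∩ ϖ ^ n V`, the Chinese remainder decomposition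
`S / ϖ ^ n S ≃ S / (S ∩ ϖ ^ n V₁) × S / (S ∩ ϖ ^ n V₂)` over `O / ϖ ^ n`, and
`norm_sub_mem_of_scalars`: `g ≡ a` at `V₁`, `g ≡ c` at `V₂` modulo `ϖ ^ n` ⇒ `N g ≡ a c ^ q`.
-/

set_option autoImplicit false
set_option linter.unusedSectionVars false

open IsLocalRing

namespace Fermat.Agent.NP

open Fermat.Agent.SS.TwoExt Fermat.Agent.S35

variable {F L : Type*} [Field F] [Field L] [Algebra F L]
  {O : ValuationSubring F} [IsDiscreteValuationRing ↥O] [FiniteDimensional F L]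
  [Algebra.IsSeparable F L]

section PowIdeal

variable {V : ValuationSubring L} (h : IsExt O V) (ϖ : ↥O) (n : ℕ)

/-- the ideal `S ∩ ϖ ^ n V` of the integral closure. -/
def powIdeal : Ideal (intCl L O) where
  carrier := {s | ∃ t ∈ V, (s : L) = algebraMap F L (ϖ : F) ^ n * t}
  add_mem' := by
    rintro s s' ⟨t, ht, e⟩ ⟨t', ht', e'⟩
    exact ⟨t + t', V.add_mem _ _ ht ht', by rw [AddMemClass.coe_add, e, e']; ring⟩
  zero_mem' := ⟨0, V.zero_mem, by simp⟩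
  smul_mem' := by
    rintro c s ⟨t, ht, e⟩
    exact ⟨c * t, V.mul_mem _ _ (intCl_le h c c.2) ht, by
      rw [smul_eq_mul, MulMemClass.coe_mul, e]; ring⟩

theorem mem_powIdeal_iff (s : intCl L O) :
    s ∈ powIdeal h ϖ n ↔ ∃ t ∈ V, (s : L) = algebraMap F L (ϖ : F) ^ n * t := Iff.rfl

theorem coe_algebraMap_intCl (a : ↥O) :
    ((algebraMap ↥O (intCl L O) a : intCl L O) : L) = algebraMap F L (a : F) := rfl

variable {ϖ}

/-- `S ∩ ϖ ^ n V` lies over `ϖ ^ n O`. -/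
theorem powIdeal_under (hϖ : ϖ ≠ 0) : (powIdeal h ϖ n).under ↥O = Ideal.span {ϖ ^ n} := by
  have hϖF : (ϖ : F) ≠ 0 := fun h0 => hϖ (Subtype.ext h0)
  have hϖL : algebraMap F L (ϖ : F) ≠ 0 := (map_ne_zero _).mpr hϖF
  ext a
  rw [Ideal.under_def, Ideal.mem_comap, mem_powIdeal_iff, Ideal.mem_span_singleton]
  constructor
  · rintro ⟨t, ht, e⟩
    rw [coe_algebraMap_intCl] at e
    have ht' : t = algebraMap F L ((a : F) * ((ϖ : F) ^ n)⁻¹) := by
      rw [map_mul, map_inv₀, map_pow, e]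
      field_simp
    rw [ht', h.mem_iff] at ht
    refine ⟨⟨_, ht⟩, Subtype.ext ?_⟩
    simp only [MulMemClass.coe_mul, SubmonoidClass.coe_pow]
    field_simp
  · rintro ⟨b, rfl⟩
    refine ⟨algebraMap F L (b : F), (h.mem_iff _).mpr b.2, ?_⟩
    rw [coe_algebraMap_intCl]
    simp only [MulMemClass.coe_mul, SubmonoidClass.coe_pow, map_mul, map_pow]

theorem powIdeal_ne_top (hϖ : Irreducible ϖ) (hn : 1 ≤ n) : Ideal.span {ϖ ^ n} ≠ (⊤ : Ideal ↥O) := by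
  rw [Ne, Ideal.span_singleton_eq_top]
  intro hu
  exact hϖ.not_isUnit (isUnit_of_dvd_unit (dvd_pow_self ϖ (by omega)) hu)

/-- `P ^ n ⊆ S ∩ ϖ ^ n V` when `e = 1`. -/
theorem center_pow_le_powIdeal (he : (center h).ramificationIdx ↥O = 1) (hϖ : Irreducible ϖ) :
    (center h) ^ n ≤ powIdeal h ϖ n := by
  have hϖF : (ϖ : F) ≠ 0 := fun h0 => hϖ.ne_zero (Subtype.ext h0)
  have hϖL : algebraMap F L (ϖ : F) ≠ 0 := (map_ne_zero _).mpr hϖF
  induction n with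
  | zero =>
    intro s _
    exact ⟨s, intCl_le h s s.2, by rw [pow_zero, one_mul]⟩
  | succ n ih =>
    rw [pow_succ, Ideal.mul_le]
    intro r hr s hs
    obtain ⟨t, ht, e⟩ := ih hr
    rw [mem_center_iff] at hs
    have hs' := mul_inv_mem_of_ramificationIdx_eq_one h he hϖ hs
    refine ⟨t * ((s : L) * (algebraMap F L (ϖ : F))⁻¹), V.mul_mem _ _ ht hs', ?_⟩
    rw [MulMemClass.coe_mul, e, pow_succ]
    field_simp

/-- approximation at an extension with `e = f = 1`. -/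
theorem exists_sub_eq_pow_mul (hf : (center h).inertiaDeg ↥O = 1)
    (he : (center h).ramificationIdx ↥O = 1) (hϖ : Irreducible ϖ) {x : L} (hx : x ∈ V) :
    ∃ a : ↥O, ∃ t ∈ V, x - algebraMap F L (a : F) = algebraMap F L (ϖ : F) ^ n * t := by
  have hϖF : (ϖ : F) ≠ 0 := fun h0 => hϖ.ne_zero (Subtype.ext h0)
  have hϖL : algebraMap F L (ϖ : F) ≠ 0 := (map_ne_zero _).mpr hϖF
  induction n generalizing x with
  | zero =>
    refine ⟨0, x, hx, ?_⟩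
    simp
  | succ n ih =>
    obtain ⟨a₀, ha₀⟩ := exists_sub_val_lt_one_of_inertiaDeg_eq_one h hf hx
    have hx₁ := mul_inv_mem_of_ramificationIdx_eq_one h he hϖ ha₀
    obtain ⟨a₁, t, ht, e⟩ := ih hx₁
    refine ⟨a₀ + ϖ * a₁, t, ht, ?_⟩
    have e2 : x - algebraMap F L (a₀ : F)
        = algebraMap F L (ϖ : F) * (algebraMap F L (a₁ : F) + algebraMap F L (ϖ : F) ^ n * t) := by
      rw [← e]
      field_simp
      ring
    simp only [AddMemClass.coe_add, MulMemClass.coe_mul, map_add, map_mul]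
    rw [pow_succ]
    linear_combination e2

end PowIdeal

section Decomp

variable {V₁ V₂ : ValuationSubring L} (h₁ : IsExt O V₁) (h₂ : IsExt O V₂)

/-- `(S ∩ ϖ ^ n V₁) ∩ (S ∩ ϖ ^ n V₂) = ϖ ^ n S`. -/
theorem powIdeal_inf
    (hall : ∀ q : (maximalIdeal ↥O).primesOver (intCl L O),
      q = centerOver h₁ ∨ q = centerOver h₂)
    {ϖ : ↥O} (hϖ : ϖ ≠ 0) (n : ℕ) :
    powIdeal h₁ ϖ n ⊓ powIdeal h₂ ϖ n =
      (Ideal.span {ϖ ^ n}).map (algebraMap ↥O (intCl L O)) := by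
  have hϖF : (ϖ : F) ≠ 0 := fun h0 => hϖ (Subtype.ext h0)
  have hϖL : algebraMap F L (ϖ : F) ≠ 0 := (map_ne_zero _).mpr hϖF
  rw [Ideal.map_span, Set.image_singleton]
  ext s
  rw [Ideal.mem_inf, mem_powIdeal_iff, mem_powIdeal_iff, Ideal.mem_span_singleton']
  constructor
  · rintro ⟨⟨t, ht, e⟩, ⟨t', ht', e'⟩⟩
    have htt : t = t' := by
      have : algebraMap F L (ϖ : F) ^ n * t = algebraMap F L (ϖ : F) ^ n * t' := by
        rw [← e, ← e']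
      exact mul_left_cancel₀ (pow_ne_zero n hϖL) this
    subst htt
    have hint := isIntegral_of_mem_of_mem h₁ h₂ hall ht ht'
    refine ⟨⟨t, hint⟩, Subtype.ext ?_⟩
    rw [MulMemClass.coe_mul, coe_algebraMap_intCl, e]
    simp only [SubmonoidClass.coe_pow, map_pow]
    ring
  · rintro ⟨a, rfl⟩
    refine ⟨⟨a, intCl_le h₁ a a.2, ?_⟩, ⟨a, intCl_le h₂ a a.2, ?_⟩⟩ <;>
    · rw [MulMemClass.coe_mul, coe_algebraMap_intCl]
      simp only [SubmonoidClass.coe_pow, map_pow]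
      ring

theorem isCoprime_powIdeal (hne : V₁ ≠ V₂)
    (he₁ : (center h₁).ramificationIdx ↥O = 1) (he₂ : (center h₂).ramificationIdx ↥O = 1)
    {ϖ : ↥O} (hϖ : Irreducible ϖ) (n : ℕ) :
    IsCoprime (powIdeal h₁ ϖ n) (powIdeal h₂ ϖ n) := by
  have hPne : center h₁ ≠ center h₂ := fun heq => hne (eq_of_center_eq h₁ h₂ heq)
  have h1 : IsCoprime (center h₁) (center h₂) := by
    rw [Ideal.isCoprime_iff_sup_eq]
    exact Ideal.IsMaximal.coprime_of_ne inferInstance inferInstance hPne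
  have h2 : IsCoprime ((center h₁) ^ n) ((center h₂) ^ n) := h1.pow
  rw [Ideal.isCoprime_iff_sup_eq] at h2 ⊢
  rw [eq_top_iff, ← h2]
  exact sup_le_sup (center_pow_le_powIdeal h₁ n he₁ hϖ) (center_pow_le_powIdeal h₂ n he₂ hϖ)

end Decomp

section Scalars

variable {V₁ V₂ : ValuationSubring L} (h₁ : IsExt O V₁) (h₂ : IsExt O V₂)

/-- **the norm modulo `ϖ ^ n`, scalar case**: `g ≡ a` at `V₁`, `g ≡ c` at `V₂` modulo `ϖ ^ n` ⇒
`N g ≡ a c ^ q` modulo `ϖ ^ n`. -/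
theorem norm_sub_mem_of_scalars (hne : V₁ ≠ V₂)
    (hall : ∀ q : (maximalIdeal ↥O).primesOver (intCl L O),
      q = centerOver h₁ ∨ q = centerOver h₂)
    (he₁ : (center h₁).ramificationIdx ↥O = 1) (hf₁ : (center h₁).inertiaDeg ↥O = 1)
    (he₂ : (center h₂).ramificationIdx ↥O = 1) {q : ℕ}
    (hdeg : Module.finrank F L = q + 1)
    {ϖ : ↥O} (hϖ : Irreducible ϖ) {n : ℕ} (hn : 1 ≤ n)
    (g : intCl L O) (a c : ↥O)
    (hg₁ : g - algebraMap ↥O (intCl L O) a ∈ powIdeal h₁ ϖ n)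
    (hg₂ : g - algebraMap ↥O (intCl L O) c ∈ powIdeal h₂ ϖ n) :
    Algebra.norm ↥O g - a * c ^ q ∈ Ideal.span {ϖ ^ n} := by
  have hI : Ideal.span {ϖ ^ n} ≠ (⊤ : Ideal ↥O) := powIdeal_ne_top n hϖ hn
  have : Nontrivial (↥O ⧸ Ideal.span {ϖ ^ n}) := Ideal.Quotient.nontrivial_iff.mpr hI
  have : IsLocalRing (↥O ⧸ Ideal.span {ϖ ^ n}) :=
    IsLocalRing.of_surjective' (Ideal.Quotient.mk _) Ideal.Quotient.mk_surjective
  have : (powIdeal h₁ ϖ n).LiesOver (Ideal.span {ϖ ^ n}) :=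
    ⟨(powIdeal_under h₁ n hϖ.ne_zero).symm⟩
  have : (powIdeal h₂ ϖ n).LiesOver (Ideal.span {ϖ ^ n}) :=
    ⟨(powIdeal_under h₂ n hϖ.ne_zero).symm⟩
  have : Module.Free (↥O ⧸ Ideal.span {ϖ ^ n})
      (intCl L O ⧸ (Ideal.span {ϖ ^ n}).map (algebraMap ↥O (intCl L O))) :=
    normp_free_quotient_map _
  have : Module.Finite (↥O ⧸ Ideal.span {ϖ ^ n})
      (intCl L O ⧸ (Ideal.span {ϖ ^ n}).map (algebraMap ↥O (intCl L O))) :=
    normp_finite_quotient_map _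
  let e : (intCl L O ⧸ (Ideal.span {ϖ ^ n}).map (algebraMap ↥O (intCl L O)))
      ≃ₐ[↥O ⧸ Ideal.span {ϖ ^ n}]
      ((intCl L O ⧸ powIdeal h₁ ϖ n) × (intCl L O ⧸ powIdeal h₂ ϖ n)) :=
    { __ := (Ideal.quotEquivOfEq (powIdeal_inf h₁ h₂ hall hϖ.ne_zero n).symm).trans
        (Ideal.quotientInfEquivQuotientProd _ _ (isCoprime_powIdeal h₁ h₂ hne he₁ he₂ hϖ n))
      commutes' := Quotient.ind fun _ => rfl }
  have := normp_finite_fst (R := ↥O ⧸ Ideal.span {ϖ ^ n}) (T := intCl L O ⧸ (Ideal.span {ϖ ^ n}).map (algebraMap ↥O (intCl L O))) (M₁ := intCl L O ⧸ powIdeal h₁ ϖ n) (M₂ := intCl L O ⧸ powIdeal h₂ ϖ n) e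
  have := normp_finite_snd (R := ↥O ⧸ Ideal.span {ϖ ^ n}) (T := intCl L O ⧸ (Ideal.span {ϖ ^ n}).map (algebraMap ↥O (intCl L O))) (M₁ := intCl L O ⧸ powIdeal h₁ ϖ n) (M₂ := intCl L O ⧸ powIdeal h₂ ϖ n) e
  have := normp_free_fst (R := ↥O ⧸ Ideal.span {ϖ ^ n}) (T := intCl L O ⧸ (Ideal.span {ϖ ^ n}).map (algebraMap ↥O (intCl L O))) (M₁ := intCl L O ⧸ powIdeal h₁ ϖ n) (M₂ := intCl L O ⧸ powIdeal h₂ ϖ n) e
  have := normp_free_snd (R := ↥O ⧸ Ideal.span {ϖ ^ n}) (T := intCl L O ⧸ (Ideal.span {ϖ ^ n}).map (algebraMap ↥O (intCl L O))) (M₁ := intCl L O ⧸ powIdeal h₁ ϖ n) (M₂ := intCl L O ⧸ powIdeal h₂ ϖ n) e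
  have key := normp_norm_prod_equiv (R := ↥O ⧸ Ideal.span {ϖ ^ n}) (T := intCl L O ⧸ (Ideal.span {ϖ ^ n}).map (algebraMap ↥O (intCl L O))) (M₁ := intCl L O ⧸ powIdeal h₁ ϖ n) (M₂ := intCl L O ⧸ powIdeal h₂ ϖ n) e (Ideal.Quotient.mk _ g)
  rw [normp_norm_quotient_mk] at key
  have e1 : (e (Ideal.Quotient.mk _ g)).1 = algebraMap (↥O ⧸ Ideal.span {ϖ ^ n})
      (intCl L O ⧸ powIdeal h₁ ϖ n) (Ideal.Quotient.mk _ a) := by
    rw [Ideal.Quotient.algebraMap_mk_of_liesOver]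
    change Ideal.Quotient.mk (powIdeal h₁ ϖ n) g = _
    rw [Ideal.Quotient.eq]
    exact hg₁
  have e2 : (e (Ideal.Quotient.mk _ g)).2 = algebraMap (↥O ⧸ Ideal.span {ϖ ^ n})
      (intCl L O ⧸ powIdeal h₂ ϖ n) (Ideal.Quotient.mk _ c) := by
    rw [Ideal.Quotient.algebraMap_mk_of_liesOver]
    change Ideal.Quotient.mk (powIdeal h₂ ϖ n) g = _
    rw [Ideal.Quotient.eq]
    exact hg₂
  rw [e1, e2, Algebra.norm_algebraMap, Algebra.norm_algebraMap] at key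
  -- the ranks
  have hr1 : Module.finrank (↥O ⧸ Ideal.span {ϖ ^ n}) (intCl L O ⧸ powIdeal h₁ ϖ n) = 1 := by
    have hbij : Function.Bijective (Algebra.linearMap (↥O ⧸ Ideal.span {ϖ ^ n})
        (intCl L O ⧸ powIdeal h₁ ϖ n)) := by
      refine ⟨FaithfulSMul.algebraMap_injective _ _, ?_⟩
      intro x
      obtain ⟨s, rfl⟩ := Ideal.Quotient.mk_surjective x
      obtain ⟨a', t, ht, et⟩ := exists_sub_eq_pow_mul h₁ n hf₁ he₁ hϖ (intCl_le h₁ s s.2)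
      refine ⟨Ideal.Quotient.mk _ a', ?_⟩
      rw [Algebra.linearMap_apply, Ideal.Quotient.algebraMap_mk_of_liesOver, Ideal.Quotient.eq,
        ← neg_mem_iff, neg_sub]
      exact ⟨t, ht, by rw [AddSubgroupClass.coe_sub, coe_algebraMap_intCl, et]⟩
    have := (LinearEquiv.ofBijective _ hbij).finrank_eq
    rw [← this, Module.finrank_self]
  have hr2 : Module.finrank (↥O ⧸ Ideal.span {ϖ ^ n}) (intCl L O ⧸ powIdeal h₂ ϖ n) = q := by
    have h3 : Module.finrank ↥O (intCl L O) = Module.finrank F L :=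
      (IsFractionRing.finrank_eq ↥O F (intCl L O) L).symm
    have h4 := normp_finrank_prod_equiv (R := ↥O ⧸ Ideal.span {ϖ ^ n}) (T := intCl L O ⧸ (Ideal.span {ϖ ^ n}).map (algebraMap ↥O (intCl L O))) (M₁ := intCl L O ⧸ powIdeal h₁ ϖ n) (M₂ := intCl L O ⧸ powIdeal h₂ ϖ n) e
    rw [normp_finrank_quotient_map, h3, hdeg, hr1] at h4
    omega
  rw [hr1, hr2, pow_one, ← map_pow, ← map_mul] at key
  exact Ideal.Quotient.eq.mp key

end Scalars

end Fermat.Agent.NP
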