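import Mathlib
import Fermat.Agent.NP.NORMP_helper7_AbsPow
import Fermat.Agent.NP.IFACE_helper5_Defs

/-!
# NP33 — helper7 — [NORMP]-(N1), part 3: the norm modulo `ϖ ^ (j + 1)` in the two-extension
situation (generalisation of S35 `NORMRED_helper9_Abs` from `mod 𝔪` to `mod ϖ ^ (j + 1)`)

`L / F` finite separable, `O ⊆ F` a discrete valuation ring with uniformizer `ϖ`, `V₁ ≠ V₂` two
extensions of `O` to `L`, `[L : F] ≤ q + 1`, `q` a prime which is not a unit of `O`, `q` elements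
of `V₂` with independent residues (hypotheses of `two_ext_hom`), and the residue extension of `V₂`
purely inseparable (`hinsep`).  Then for `a c ∈ O`, `j ≥ 1`:
`f ≡ a mod ϖ ^ (j + 1) V₁`, `f ≡ c (1 + ϖ ^ j y) mod ϖ ^ (j + 1) V₂` (`y ∈ V₂`) ⇒
`N_{L/F} f ≡ a c ^ q mod ϖ ^ (j + 1) O`.

* `trace_mem_maximalIdeal_of_mem_center` (TR) : the trace of `s ∈ P₁` is divisible by `ϖ`;
* `norm_congr_of_count`, `norm_congr_two_ext`, `norm_congr_two_ext_hom` : the theorem;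
* `piDvd_norm_of_two_ext` : the same in the `PiDvd` language, literally the fields
  `TwoLevel.normA` / `TwoLevel.normB`.
-/

set_option autoImplicit false
set_option linter.unusedSectionVars false
set_option linter.style.haveILetI false

open IsLocalRing TensorProduct

namespace Fermat.Agent.NP

open Fermat.Agent.SS.TwoExt Fermat.Agent.S35

variable {F L : Type*} [Field F] [Field L] [Algebra F L]
  {O : ValuationSubring F} [IsDiscreteValuationRing ↥O] [FiniteDimensional F L]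
  [Algebra.IsSeparable F L]

section Trace

variable {V₁ V₂ : ValuationSubring L} (h₁ : IsExt O V₁) (h₂ : IsExt O V₂)

/-- the residue field of `V₂` is inseparable over that of `O`. -/
theorem not_isSeparable_center
    {q : ℕ} (hq : q.Prime) (hf₂ : (center h₂).inertiaDeg ↥O = q)
    (hchar : O.valuation (q : F) < 1)
    (hinsep : ∀ y ∈ V₂, ∃ a : ↥O, V₂.valuation (y ^ q - algebraMap F L (a : F)) < 1) :
    letI : Field (↥O ⧸ maximalIdeal ↥O) := Ideal.Quotient.field _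
    letI : Field (intCl L O ⧸ center h₂) := Ideal.Quotient.field _
    ¬ Algebra.IsSeparable (↥O ⧸ maximalIdeal ↥O) (intCl L O ⧸ center h₂) := by
  letI : Field (↥O ⧸ maximalIdeal ↥O) := Ideal.Quotient.field _
  letI : Field (intCl L O ⧸ center h₂) := Ideal.Quotient.field _
  intro hsep
  haveI : CharP (↥O ⧸ maximalIdeal ↥O) q := by
    rw [CharP.charP_iff_prime_eq_zero hq]
    have h1 : ((q : ↥O) : F) = (q : F) := by simp
    have h2 : (q : ↥O) ∈ maximalIdeal ↥O := by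
      rw [ValuationSubring.valuation_lt_one_iff, h1]
      exact hchar
    have h3 : ((q : ↥O ⧸ maximalIdeal ↥O)) = Ideal.Quotient.mk (maximalIdeal ↥O) (q : ↥O) := by
      simp
    rw [h3, Ideal.Quotient.eq_zero_iff_mem]
    exact h2
  haveI : ExpChar (↥O ⧸ maximalIdeal ↥O) q := ExpChar.prime hq
  have hpi : IsPurelyInseparable (↥O ⧸ maximalIdeal ↥O) (intCl L O ⧸ center h₂) := by
    rw [isPurelyInseparable_iff_pow_mem (↥O ⧸ maximalIdeal ↥O) q]
    intro x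
    obtain ⟨s, rfl⟩ := Ideal.Quotient.mk_surjective x
    obtain ⟨a, ha⟩ := hinsep s (intCl_le h₂ s s.2)
    refine ⟨1, Ideal.Quotient.mk _ a, ?_⟩
    rw [pow_one, Ideal.Quotient.algebraMap_mk_of_liesOver, ← map_pow, eq_comm, Ideal.Quotient.eq,
      mem_center_iff]
    exact ha
  have hsurj := IsPurelyInseparable.surjective_algebraMap_of_isSeparable
    (↥O ⧸ maximalIdeal ↥O) (intCl L O ⧸ center h₂)
  rw [Ideal.inertiaDeg_eq_of_isMaximal (maximalIdeal ↥O) (center h₂)] at hf₂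
  have hle : Module.finrank (↥O ⧸ maximalIdeal ↥O) (intCl L O ⧸ center h₂) ≤ 1 := by
    refine finrank_le_one (1 : intCl L O ⧸ center h₂) (fun w => ?_)
    obtain ⟨c, hc⟩ := hsurj w
    exact ⟨c, by rw [Algebra.smul_def, mul_one, hc]⟩
  have := hq.two_le
  omega

/-- **(TR)**: the trace of an element of the center of `V₁` is divisible by the uniformizer. -/
theorem trace_mem_maximalIdeal_of_mem_center
    (hall : ∀ q : (maximalIdeal ↥O).primesOver (intCl L O),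
      q = centerOver h₁ ∨ q = centerOver h₂)
    (he₁ : (center h₁).ramificationIdx ↥O = 1) (hf₁ : (center h₁).inertiaDeg ↥O = 1)
    (he₂ : (center h₂).ramificationIdx ↥O = 1) {q : ℕ} (hq : q.Prime)
    (hf₂ : (center h₂).inertiaDeg ↥O = q) (hdeg : Module.finrank F L = q + 1)
    (hchar : O.valuation (q : F) < 1)
    (hinsep : ∀ y ∈ V₂, ∃ a : ↥O, V₂.valuation (y ^ q - algebraMap F L (a : F)) < 1)
    (s : intCl L O) (hs : s ∈ center h₁) :
    Algebra.trace ↥O (intCl L O) s ∈ maximalIdeal ↥O := by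
  letI : Field (↥O ⧸ maximalIdeal ↥O) := Ideal.Quotient.field _
  letI : Field (intCl L O ⧸ center h₂) := Ideal.Quotient.field _
  have hbc : algebraMap ↥O (↥O ⧸ maximalIdeal ↥O) (Algebra.trace ↥O (intCl L O) s)
      = Algebra.trace (↥O ⧸ maximalIdeal ↥O) ((↥O ⧸ maximalIdeal ↥O) ⊗[↥O] (intCl L O))
        ((1 : ↥O ⧸ maximalIdeal ↥O) ⊗ₜ[↥O] s) := by
    rw [Algebra.trace_apply, Algebra.trace_apply, ← Algebra.baseChange_lmul,
      LinearMap.trace_baseChange]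
  have h0 := Algebra.trace_eq_of_algEquiv (A := ↥O ⧸ maximalIdeal ↥O)
    (B := (↥O ⧸ maximalIdeal ↥O) ⊗[↥O] (intCl L O))
    (C := (intCl L O ⧸ center h₁) × (intCl L O ⧸ center h₂))
    (normredEquiv h₁ h₂ hall he₁ hf₁ he₂ hf₂ hdeg)
    ((1 : ↥O ⧸ maximalIdeal ↥O) ⊗ₜ[↥O] s)
  rw [← h0] at hbc
  have h1 : normredEquiv h₁ h₂ hall he₁ hf₁ he₂ hf₂ hdeg (1 ⊗ₜ s) =
      (Ideal.Quotient.mk (center h₁) s, Ideal.Quotient.mk (center h₂) s) :=
    normredPhi_one_tmul h₁ h₂ s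
  rw [h1, Algebra.trace_prod_apply] at hbc
  have h2 : Ideal.Quotient.mk (center h₁) s = 0 := Ideal.Quotient.eq_zero_iff_mem.mpr hs
  have h3 := Algebra.trace_eq_zero_of_not_isSeparable
    (not_isSeparable_center h₂ hq hf₂ hchar hinsep)
  rw [h2, map_zero, zero_add, h3, LinearMap.zero_apply] at hbc
  rw [Ideal.Quotient.algebraMap_eq, Ideal.Quotient.eq_zero_iff_mem] at hbc
  exact hbc

end Trace

section Main

variable {V₁ V₂ : ValuationSubring L} (h₁ : IsExt O V₁) (h₂ : IsExt O V₂)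

/-- `1 + x` is a unit of `V` when `v(x) < 1`. -/
theorem valSub_one_add_inv_mem {V : ValuationSubring L} {x : L} (hx : V.valuation x < 1) :
    (1 + x)⁻¹ ∈ V := by
  rw [← ValuationSubring.valuation_le_one_iff, map_inv₀, (V.valuation).map_one_add_of_lt hx,
    inv_one]

/-- **the norm modulo `ϖ ^ (j + 1)`** (counting form). -/
theorem norm_congr_of_count (hne : V₁ ≠ V₂)
    (hall : ∀ q : (maximalIdeal ↥O).primesOver (intCl L O),
      q = centerOver h₁ ∨ q = centerOver h₂)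
    (he₁ : (center h₁).ramificationIdx ↥O = 1) (hf₁ : (center h₁).inertiaDeg ↥O = 1)
    (he₂ : (center h₂).ramificationIdx ↥O = 1) {q : ℕ} (hq : q.Prime)
    (hf₂ : (center h₂).inertiaDeg ↥O = q) (hdeg : Module.finrank F L = q + 1)
    (hchar : O.valuation (q : F) < 1)
    (hinsep : ∀ y ∈ V₂, ∃ a : ↥O, V₂.valuation (y ^ q - algebraMap F L (a : F)) < 1)
    {ϖ : ↥O} (hϖ : Irreducible ϖ) {j : ℕ} (hj : 1 ≤ j) {f : L} (a c : ↥O)
    (hfa : ∃ t ∈ V₁, f - algebraMap F L (a : F) = algebraMap F L (ϖ : F) ^ (j + 1) * t)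
    (hfc : ∃ y ∈ V₂, ∃ t ∈ V₂, f - algebraMap F L (c : F) * (1 + algebraMap F L (ϖ : F) ^ j * y)
      = algebraMap F L (ϖ : F) ^ (j + 1) * t) :
    ∃ t : ↥O, Algebra.norm F f - (a : F) * (c : F) ^ q = (ϖ : F) ^ (j + 1) * (t : F) := by
  obtain ⟨t₁, ht₁, e₁⟩ := hfa
  obtain ⟨y, hy, t₂, ht₂, e₂⟩ := hfc
  have hϖF : (ϖ : F) ≠ 0 := fun h0 => hϖ.ne_zero (Subtype.ext h0)
  set pL : L := algebraMap F L (ϖ : F) with hpL
  have hpL0 : pL ≠ 0 := (map_ne_zero _).mpr hϖF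
  have hpL₁ : pL ∈ V₁ := (h₁.mem_iff _).mpr ϖ.2
  have hpL₂ : pL ∈ V₂ := (h₂.mem_iff _).mpr ϖ.2
  have hpLv₁ : V₁.valuation pL < 1 := by
    have : algebraMap ↥O (intCl L O) ϖ ∈ center h₁ := by
      have h3 : ϖ ∈ (center h₁).under ↥O := by
        rw [center_under]
        exact hϖ.maximalIdeal_eq ▸ Ideal.mem_span_singleton_self ϖ
      exact h3
    exact (mem_center_iff h₁ _).mp this
  have hpLv₂ : V₂.valuation pL < 1 := by
    have : algebraMap ↥O (intCl L O) ϖ ∈ center h₂ := by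
      have h3 : ϖ ∈ (center h₂).under ↥O := by
        rw [center_under]
        exact hϖ.maximalIdeal_eq ▸ Ideal.mem_span_singleton_self ϖ
      exact h3
    exact (mem_center_iff h₂ _).mp this
  -- the element `s`
  obtain ⟨y', hy'⟩ := exists_intCl_sub_val_lt_one h₂ hy
  have hPne : center h₁ ≠ center h₂ := fun heq => hne (eq_of_center_eq h₁ h₂ heq)
  have hsup : center h₁ ⊔ center h₂ = ⊤ :=
    Ideal.IsMaximal.coprime_of_ne inferInstance inferInstance hPne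
  obtain ⟨u, hu, v, hv, huv⟩ := Submodule.mem_sup.mp
    (show (1 : intCl L O) ∈ center h₁ ⊔ center h₂ by rw [hsup]; exact Submodule.mem_top)
  obtain ⟨s, hs⟩ : ∃ s : intCl L O, s = y' * u := ⟨_, rfl⟩
  have hsP : s ∈ center h₁ := by
    rw [hs]
    exact Ideal.mul_mem_left _ _ hu
  have hsv₁ : V₁.valuation (s : L) < 1 := (mem_center_iff h₁ s).mp hsP
  have hsV₂ : (s : L) ∈ V₂ := intCl_le h₂ s s.2
  have hsy : V₂.valuation (y - (s : L)) < 1 := by
    have hu' : (u : L) = 1 - (v : L) := by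
      have := congrArg (fun z : intCl L O => (z : L)) huv
      simp only [AddMemClass.coe_add, OneMemClass.coe_one] at this
      linear_combination this
    have e : y - (s : L) = (y - (y' : L)) + (y' : L) * (v : L) := by
      rw [hs, MulMemClass.coe_mul, hu']
      ring
    rw [e]
    refine lt_of_le_of_lt (Valuation.map_add _ _ _) (max_lt hy' ?_)
    rw [map_mul]
    calc V₂.valuation (y' : L) * V₂.valuation (v : L) ≤ 1 * V₂.valuation (v : L) :=
          mul_le_mul_left ((ValuationSubring.valuation_le_one_iff _ _).mpr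
            (intCl_le h₂ y' y'.2)) _
      _ = V₂.valuation (v : L) := one_mul _
      _ < 1 := (mem_center_iff h₂ v).mp hv
  -- `s = pL s₁` at `V₁`, `y - s = pL d` at `V₂`
  have hs₁ := mul_inv_mem_of_ramificationIdx_eq_one h₁ he₁ hϖ hsv₁
  have hd := mul_inv_mem_of_ramificationIdx_eq_one h₂ he₂ hϖ hsy
  rw [← hpL] at hs₁ hd
  -- the unit `w`
  obtain ⟨w, hw⟩ : ∃ w : intCl L O, w = 1 + (ϖ ^ j) • s := ⟨_, rfl⟩
  have hwL : (w : L) = 1 + pL ^ j * (s : L) := by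
    rw [hw]
    simp only [AddMemClass.coe_add, OneMemClass.coe_one, Algebra.smul_def, MulMemClass.coe_mul,
      coe_algebraMap_intCl, SubmonoidClass.coe_pow, map_pow]
    rfl
  obtain ⟨i, hi⟩ : ∃ i, j = i + 1 := ⟨j - 1, by omega⟩
  have hpLs₁ : V₁.valuation (pL ^ j * (s : L)) < 1 := by
    rw [map_mul]
    calc V₁.valuation (pL ^ j) * V₁.valuation (s : L) ≤ 1 * V₁.valuation (s : L) :=
          mul_le_mul_left ((ValuationSubring.valuation_le_one_iff _ _).mpr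
            (V₁.pow_mem hpL₁ j)) _
      _ = V₁.valuation (s : L) := one_mul _
      _ < 1 := hsv₁
  have hpLs₂ : V₂.valuation (pL ^ j * (s : L)) < 1 := by
    rw [hi, pow_succ, mul_assoc, map_mul]
    calc V₂.valuation (pL ^ i) * V₂.valuation (pL * (s : L)) ≤ 1 * V₂.valuation (pL * (s : L)) :=
          mul_le_mul_left ((ValuationSubring.valuation_le_one_iff _ _).mpr
            (V₂.pow_mem hpL₂ i)) _
      _ = V₂.valuation (pL * (s : L)) := one_mul _
      _ = V₂.valuation pL * V₂.valuation (s : L) := map_mul _ _ _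
      _ ≤ V₂.valuation pL * 1 :=
          mul_le_mul_right ((ValuationSubring.valuation_le_one_iff _ _).mpr hsV₂) _
      _ = V₂.valuation pL := mul_one _
      _ < 1 := hpLv₂
  have hwi₁ : (w : L)⁻¹ ∈ V₁ := by
    rw [hwL]
    exact valSub_one_add_inv_mem hpLs₁
  have hwi₂ : (w : L)⁻¹ ∈ V₂ := by
    rw [hwL]
    exact valSub_one_add_inv_mem hpLs₂
  have hw0 : (w : L) ≠ 0 := by
    intro h0
    have := (V₁.valuation).map_one_add_of_lt hpLs₁
    rw [← hwL, h0, map_zero] at this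
    exact zero_ne_one this
  -- `f ∈ V₁ ∩ V₂`
  have hfV₁ : f ∈ V₁ := by
    have : f = algebraMap F L (a : F) + pL ^ (j + 1) * t₁ := by linear_combination e₁
    rw [this]
    exact V₁.add_mem _ _ ((h₁.mem_iff _).mpr a.2) (V₁.mul_mem _ _ (V₁.pow_mem hpL₁ _) ht₁)
  have hfV₂ : f ∈ V₂ := by
    have : f = algebraMap F L (c : F) * (1 + pL ^ j * y) + pL ^ (j + 1) * t₂ := by
      linear_combination e₂
    rw [this]
    exact V₂.add_mem _ _ (V₂.mul_mem _ _ ((h₂.mem_iff _).mpr c.2) (V₂.add_mem _ _ V₂.one_mem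
      (V₂.mul_mem _ _ (V₂.pow_mem hpL₂ _) hy))) (V₂.mul_mem _ _ (V₂.pow_mem hpL₂ _) ht₂)
  -- `g = f / w`
  have hgint : IsIntegral ↥O (f * (w : L)⁻¹) :=
    isIntegral_of_mem_of_mem h₁ h₂ hall (V₁.mul_mem _ _ hfV₁ hwi₁) (V₂.mul_mem _ _ hfV₂ hwi₂)
  obtain ⟨g, hg⟩ : ∃ g : intCl L O, (g : L) = f * (w : L)⁻¹ := ⟨⟨_, hgint⟩, rfl⟩
  have hfgw : f = (g : L) * (w : L) := by
    rw [hg]
    field_simp
  -- congruences of `g`
  have hg₁ : g - algebraMap ↥O (intCl L O) a ∈ powIdeal h₁ ϖ (j + 1) := by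
    refine ⟨(t₁ - algebraMap F L (a : F) * ((s : L) * pL⁻¹)) * (w : L)⁻¹,
      V₁.mul_mem _ _ (sub_mem ht₁ (V₁.mul_mem _ _ ((h₁.mem_iff _).mpr a.2) hs₁)) hwi₁, ?_⟩
    rw [AddSubgroupClass.coe_sub, coe_algebraMap_intCl, hg, ← hpL]
    have e3 : f = algebraMap F L (a : F) + pL ^ (j + 1) * t₁ := by linear_combination e₁
    have h8 : pL * ((s : L) * pL⁻¹) = (s : L) := by field_simp
    have key : f - algebraMap F L (a : F) * (w : L)
        = pL ^ (j + 1) * (t₁ - algebraMap F L (a : F) * ((s : L) * pL⁻¹)) := by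
      rw [hwL, e3, pow_succ]
      linear_combination (algebraMap F L (a : F) * pL ^ j) * h8
    have h9 : f * (w : L)⁻¹ - algebraMap F L (a : F)
        = (f - algebraMap F L (a : F) * (w : L)) * (w : L)⁻¹ := by field_simp
    rw [h9, key]
    ring
  have hg₂ : g - algebraMap ↥O (intCl L O) c ∈ powIdeal h₂ ϖ (j + 1) := by
    refine ⟨(t₂ + algebraMap F L (c : F) * ((y - (s : L)) * pL⁻¹)) * (w : L)⁻¹,
      V₂.mul_mem _ _ (V₂.add_mem _ _ ht₂ (V₂.mul_mem _ _ ((h₂.mem_iff _).mpr c.2) hd)) hwi₂, ?_⟩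
    rw [AddSubgroupClass.coe_sub, coe_algebraMap_intCl, hg, ← hpL]
    have e3 : f = algebraMap F L (c : F) * (1 + pL ^ j * y) + pL ^ (j + 1) * t₂ := by
      linear_combination e₂
    have h8 : pL * ((y - (s : L)) * pL⁻¹) = y - (s : L) := by field_simp
    have key : f - algebraMap F L (c : F) * (w : L)
        = pL ^ (j + 1) * (t₂ + algebraMap F L (c : F) * ((y - (s : L)) * pL⁻¹)) := by
      rw [hwL, e3, pow_succ]
      linear_combination (-(algebraMap F L (c : F) * pL ^ j)) * h8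
    have h9 : f * (w : L)⁻¹ - algebraMap F L (c : F)
        = (f - algebraMap F L (c : F) * (w : L)) * (w : L)⁻¹ := by field_simp
    rw [h9, key]
    ring
  -- norms
  have hNg := norm_sub_mem_of_scalars h₁ h₂ hne hall he₁ hf₁ he₂ hdeg hϖ (by omega : 1 ≤ j + 1)
    g a c hg₁ hg₂
  rw [Ideal.mem_span_singleton] at hNg
  obtain ⟨r₁, hr₁⟩ := hNg
  obtain ⟨r₂, hr₂⟩ := Algebra.norm_one_add_smul (ϖ ^ j) s
  have hTr := trace_mem_maximalIdeal_of_mem_center h₁ h₂ hall he₁ hf₁ he₂ hq hf₂ hdeg hchar hinsep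
    s hsP
  rw [hϖ.maximalIdeal_eq, Ideal.mem_span_singleton] at hTr
  obtain ⟨τ, hτ⟩ := hTr
  rw [← hw] at hr₂
  -- `N f = N g * N w`
  have hfS : f = ((g * w : intCl L O) : L) := by
    rw [MulMemClass.coe_mul]
    exact hfgw
  have hN : Algebra.norm F f = algebraMap ↥O F (Algebra.norm ↥O (g * w)) := by
    rw [hfS]
    exact Algebra.norm_localization ↥O (nonZeroDivisors ↥O) (Sₘ := L) (g * w)
  rw [hN, map_mul, hr₂, hτ]
  refine ⟨Algebra.norm ↥O g * (τ + r₂ * ϖ ^ i) + r₁, ?_⟩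
  have hO : Algebra.norm ↥O g * (1 + ϖ * τ * ϖ ^ j + r₂ * (ϖ ^ j) ^ 2) - a * c ^ q
      = ϖ ^ (j + 1) * (Algebra.norm ↥O g * (τ + r₂ * ϖ ^ i) + r₁) := by
    rw [hi] at hr₁ ⊢
    linear_combination hr₁
  have := congrArg (algebraMap ↥O F) hO
  rw [map_sub] at this
  exact this

end Main

section Alg

variable {F L : Type*} [Field F] [Field L] [Algebra F L]
  {O : ValuationSubring F} [IsDiscreteValuationRing ↥O] [FiniteDimensional F L]
  [Algebra.IsSeparable F L] {V₁ V₂ : ValuationSubring L} (h₁ : IsExt O V₁) (h₂ : IsExt O V₂)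

include h₁ h₂ in
/-- **(N1), `Algebra` form**: in the two-extension situation (`V₁ ≠ V₂` extend the discrete
valuation ring `O`, `[L : F] ≤ q + 1`, `q` elements of `V₂` with independent residues, the residue
extension of `V₂` purely inseparable), if `f ≡ a` modulo `ϖ ^ (j + 1) V₁` and
`f ≡ c (1 + ϖ ^ j y)` modulo `ϖ ^ (j + 1) V₂` (`a c ∈ O`, `j ≥ 1`) then
`N f ≡ a c ^ q` modulo `ϖ ^ (j + 1) O`. -/
theorem norm_congr_two_ext (hne : V₁ ≠ V₂) {q : ℕ} (hq : q.Prime)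
    (hchar : O.valuation (q : F) < 1)
    (hr : Module.finrank F L ≤ q + 1) (b : Fin q → L) (hb : ∀ i, b i ∈ V₂)
    (hind : ∀ a : Fin q → ↥O, V₂.valuation (∑ i, algebraMap F L (a i : F) * b i) < 1 →
      ∀ i, a i ∈ maximalIdeal ↥O)
    (hinsep : ∀ y ∈ V₂, ∃ a : ↥O, V₂.valuation (y ^ q - algebraMap F L (a : F)) < 1)
    {ϖ : ↥O} (hϖ : Irreducible ϖ) {j : ℕ} (hj : 1 ≤ j) {f : L} (a c : ↥O)
    (hfa : ∃ t ∈ V₁, f - algebraMap F L (a : F) = algebraMap F L (ϖ : F) ^ (j + 1) * t)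
    (hfc : ∃ y ∈ V₂, ∃ t ∈ V₂, f - algebraMap F L (c : F) * (1 + algebraMap F L (ϖ : F) ^ j * y)
      = algebraMap F L (ϖ : F) ^ (j + 1) * t) :
    ∃ t : ↥O, Algebra.norm F f - (a : F) * (c : F) ^ q = (ϖ : F) ^ (j + 1) * (t : F) := by
  obtain ⟨hall, he₁, hf₁, he₂, hf₂, hdeg⟩ := normred_count_two h₁ h₂ hne hq.pos hr b hb hind
  exact norm_congr_of_count h₁ h₂ hne hall he₁ hf₁ he₂ hq hf₂ hdeg hchar hinsep hϖ hj a c hfa hfc

end Alg

section Hom

variable {F L : Type*} [Field F] [Field L]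

/-- **(N1), ring-hom form** (same hypotheses as `two_ext_hom` + pure inseparability). -/
theorem norm_congr_two_ext_hom (ι : F →+* L) (O : ValuationSubring F)
    [IsDiscreteValuationRing ↥O]
    (hfin : letI := ι.toAlgebra; FiniteDimensional F L)
    (hsep : letI := ι.toAlgebra; Algebra.IsSeparable F L)
    {V₁ V₂ : ValuationSubring L} (h₁ : V₁.comap ι = O) (h₂ : V₂.comap ι = O)
    (hne : V₁ ≠ V₂) {q : ℕ} (hq : q.Prime) (hchar : O.valuation (q : F) < 1)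
    (hr : letI := ι.toAlgebra; Module.finrank F L ≤ q + 1)
    (b : Fin q → L) (hb : ∀ i, b i ∈ V₂)
    (hind : ∀ a : Fin q → ↥O, V₂.valuation (∑ i, ι (a i : F) * b i) < 1 →
      ∀ i, a i ∈ maximalIdeal ↥O)
    (hinsep : ∀ y ∈ V₂, ∃ a : ↥O, V₂.valuation (y ^ q - ι (a : F)) < 1)
    {ϖ : ↥O} (hϖ : Irreducible ϖ) {j : ℕ} (hj : 1 ≤ j) {f : L} (a c : ↥O)
    (hfa : ∃ t ∈ V₁, f - ι (a : F) = ι (ϖ : F) ^ (j + 1) * t)
    (hfc : ∃ y ∈ V₂, ∃ t ∈ V₂, f - ι (c : F) * (1 + ι (ϖ : F) ^ j * y)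
      = ι (ϖ : F) ^ (j + 1) * t) :
    ∃ t : ↥O, (letI := ι.toAlgebra; Algebra.norm F f) - (a : F) * (c : F) ^ q
      = (ϖ : F) ^ (j + 1) * (t : F) := by
  letI := ι.toAlgebra
  haveI := hfin
  haveI := hsep
  exact norm_congr_two_ext (O := O) (V₁ := V₁) (V₂ := V₂) h₁ h₂ hne hq hchar hr b hb hind hinsep
    hϖ hj a c hfa hfc

/-- **(N1) in the `PiDvd` language of `TwoLevel.normA`**: `O`, `V₁`, `V₂` the valuation rings of
the sheets `SM`, `Sinf`, `S0` (for `normB`: `S0`, `Sinf` swapped), `ι` the degeneracy embedding,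
`N` its norm, `ϖ` the uniformizer. -/
theorem piDvd_norm_of_two_ext (ι : F →+* L) (N : L →* F)
    (hN : ∀ x, N x = (letI := ι.toAlgebra; Algebra.norm F x))
    (O : ValuationSubring F) [IsDiscreteValuationRing ↥O]
    (hfin : letI := ι.toAlgebra; FiniteDimensional F L)
    (hsep : letI := ι.toAlgebra; Algebra.IsSeparable F L)
    {V₁ V₂ : ValuationSubring L} (h₁ : V₁.comap ι = O) (h₂ : V₂.comap ι = O)
    (hne : V₁ ≠ V₂) {q : ℕ} (hq : q.Prime) (hchar : O.valuation (q : F) < 1)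
    (hr : letI := ι.toAlgebra; Module.finrank F L ≤ q + 1)
    (b : Fin q → L) (hb : ∀ i, b i ∈ V₂)
    (hind : ∀ a : Fin q → ↥O, V₂.valuation (∑ i, ι (a i : F) * b i) < 1 →
      ∀ i, a i ∈ maximalIdeal ↥O)
    (hinsep : ∀ y ∈ V₂, ∃ a : ↥O, V₂.valuation (y ^ q - ι (a : F)) < 1)
    {ϖ : F} (hϖO : ϖ ∈ O) (hϖ : Irreducible (⟨ϖ, hϖO⟩ : ↥O))
    (j : ℕ) (f : L) (a c : F) (hj : 1 ≤ j) (ha : a ∈ O) (hc : c ∈ O)
    (hfa : PiDvd (ι ϖ) V₁.toSubring (j + 1) (f - ι a))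
    (hfc : ∃ y ∈ V₂.toSubring, PiDvd (ι ϖ) V₂.toSubring (j + 1)
      (f - ι c * (1 + ι ϖ ^ j * y))) :
    PiDvd ϖ O.toSubring (j + 1) (N f - a * c ^ q) := by
  obtain ⟨t₁, ht₁, e₁⟩ := hfa
  obtain ⟨y, hy, t₂, ht₂, e₂⟩ := hfc
  obtain ⟨t, ht⟩ := norm_congr_two_ext_hom ι O hfin hsep h₁ h₂ hne hq hchar hr b hb hind hinsep
    hϖ hj (f := f) ⟨a, ha⟩ ⟨c, hc⟩ ⟨t₁, ht₁, e₁⟩ ⟨y, hy, t₂, ht₂, e₂⟩
  exact ⟨t, t.2, by rw [hN]; exact ht⟩

end Hom

end Fermat.Agent.NP
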