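import Mathlib
import Fermat.Agent.NP.NORMP_helper7_Depth

/-!
# NP33 — helper7 — [NORMP]-(N2): the abstract two-level datum and Theorem A

`TwoLevel EM EN p`: the function fields `EM` (level `M`, one sheet `SM`) and `EN` (level `M p`,
two sheets `Sinf`, `S0`), the two degeneracy embeddings `A B : EM →+* EN` with their norms
`NA NB : EN →* EM`, in the `DepthBase`/`Sheet`/`PiDvd` language of `IFACE_helper5_Defs`.
The fields are: base compatibility, (T1) `A`, `B` map `SM.W` into both sheets and reflect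
integrality, (T2) approximation (`e = f = 1` along `A` at `∞` and along `B` at `0`), the norm
formulas (NF_A), (NF_B) (`N f ≡ ι⁻¹(f mod V₁) · N_i(f mod V₂)`, `N_i(const) = const ^ p`,
contraction `N_i(1 + π ^ j y) ∈ 1 + π ^ (j+1)`), and the Kronecker congruence at `∞`
(`Φ̄_∞ = A⁻¹ B` is Frobenius composed with a bijection of `κ_M`).

**Theorem A** (`TwoLevel.thmA`): a function `f ∈ EN` which is a unit at both sheets, of depth `≥ 1`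
at both sheets, whose two norms are constants times `p`-th powers, has depth `≥ i` at both sheets
for every `i`.
-/

set_option autoImplicit false

namespace Fermat.Agent.NP

/-- **the abstract two-level datum.** -/
structure TwoLevel (EM EN : Type*) [Field EM] [Field EN] (p : ℕ) where
  /-- the base, seen in `EM` -/
  BM : DepthBase EM p
  /-- the base, seen in `EN` -/
  BN : DepthBase EN p
  /-- the degeneracy embedding `α^*` -/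
  A : EM →+* EN
  /-- the degeneracy embedding `β^*` -/
  B : EM →+* EN
  /-- the norm along `A` -/
  NA : EN →* EM
  /-- the norm along `B` -/
  NB : EN →* EM
  /-- the sheet of level `M` -/
  SM : Sheet BM
  /-- the sheet `∞` of level `M p` -/
  Sinf : Sheet BN
  /-- the sheet `0` of level `M p` -/
  S0 : Sheet BN
  A_π : A BM.π = BN.π
  A_K₁ : ∀ c ∈ BM.K₁, A c ∈ BN.K₁
  A_R₁ : ∀ c ∈ BM.R₁, A c ∈ BN.R₁
  A_R₁_surj : ∀ c ∈ BN.R₁, ∃ c₀ ∈ BM.R₁, A c₀ = c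
  B_eq_A : ∀ c ∈ BM.K₁, B c = A c
  A_mem_inf : ∀ y ∈ SM.W, A y ∈ Sinf.W
  A_mem_zero : ∀ y ∈ SM.W, A y ∈ S0.W
  B_mem_inf : ∀ y ∈ SM.W, B y ∈ Sinf.W
  B_mem_zero : ∀ y ∈ SM.W, B y ∈ S0.W
  A_reflect_inf : ∀ y, A y ∈ Sinf.W → y ∈ SM.W
  A_reflect_zero : ∀ y, A y ∈ S0.W → y ∈ SM.W
  B_reflect_inf : ∀ y, B y ∈ Sinf.W → y ∈ SM.W
  B_reflect_zero : ∀ y, B y ∈ S0.W → y ∈ SM.W
  /-- (T2) at `∞` along `A` -/
  approx_inf : ∀ x ∈ Sinf.W, ∀ n : ℕ, ∃ y ∈ SM.W, PiDvd BN.π Sinf.W n (x - A y)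
  /-- (T2) at `0` along `B` -/
  approx_zero : ∀ x ∈ S0.W, ∀ n : ℕ, ∃ y ∈ SM.W, PiDvd BN.π S0.W n (x - B y)
  NA_A : ∀ y, NA (A y) = y ^ (p + 1)
  NB_B : ∀ y, NB (B y) = y ^ (p + 1)
  /-- (NF_A) -/
  normA : ∀ (j : ℕ) (f : EN) (a c : EM), 1 ≤ j → a ∈ SM.W → c ∈ BM.R₁ →
    PiDvd BN.π Sinf.W (j + 1) (f - A a) →
    (∃ y ∈ S0.W, PiDvd BN.π S0.W (j + 1) (f - A c * (1 + BN.π ^ j * y))) →
    PiDvd BM.π SM.W (j + 1) (NA f - a * c ^ p)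
  /-- (NF_B) -/
  normB : ∀ (j : ℕ) (f : EN) (a c : EM), 1 ≤ j → a ∈ SM.W → c ∈ BM.R₁ →
    PiDvd BN.π S0.W (j + 1) (f - B a) →
    (∃ y ∈ Sinf.W, PiDvd BN.π Sinf.W (j + 1) (f - B c * (1 + BN.π ^ j * y))) →
    PiDvd BM.π SM.W (j + 1) (NB f - a * c ^ p)
  /-- (KRON_∞): `B z ≡ A (w ^ p)` on the sheet `∞` -/
  kron_inf : ∀ z ∈ SM.W, ∃ w ∈ SM.W, PiDvd BN.π Sinf.W 1 (B z - A (w ^ p))
  /-- (KRON_∞), surjectivity of `τ` -/
  kron_inf_surj : ∀ w ∈ SM.W, ∃ z ∈ SM.W, PiDvd BN.π Sinf.W 1 (B z - A (w ^ p))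

/-- `(1 + x) ^ n = 1 + x r` in a subring. -/
theorem one_add_pow_eq_subring {F : Type*} [Field F] (S : Subring F) {x : F} (hx : x ∈ S)
    (n : ℕ) : ∃ r ∈ S, (1 + x) ^ n = 1 + x * r := by
  refine ⟨∑ i ∈ Finset.range n, (1 + x) ^ i,
    S.sum_mem fun i _ => S.pow_mem (S.add_mem S.one_mem hx) i, ?_⟩
  have h := mul_geom_sum (1 + x) n
  rw [add_sub_cancel_left] at h
  rw [h]
  ring

section Core

variable {EM EN : Type*} [Field EM] [Field EN] {p : ℕ}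

/-- a unit plus a multiple of `π` is a unit. -/
theorem Sheet.isUnitIn_of_piDvd_sub {F : Type*} [Field F] {B : DepthBase F p} (S : Sheet B)
    {x y : F} {n : ℕ} (hn : 1 ≤ n) (hx : IsUnitIn S.W x) (h : PiDvd B.π S.W n (y - x)) :
    IsUnitIn S.W y := by
  obtain ⟨t, ht, e⟩ := h
  have e' : y = x * (1 + B.π ^ n * (t * x⁻¹)) := by
    have h0 := hx.2.2
    field_simp
    linear_combination e
  rw [e']
  exact hx.mul (S.isUnitIn_one_add_pow_mul hn (S.W.mul_mem ht hx.2.1))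

/-- **the induction step of Theorem A**, for one of the two sheets: depth `≥ j` on the sheet
`S₂` (where `B'` is an isomorphism on residue rings) and `N' f ∈ K₁ˣ EMˣᵖ` give depth `≥ j + 1` on
the sheet `S₁` (where `A'` is an isomorphism on residue rings). -/
theorem thmA_core {BM : DepthBase EM p} {BN : DepthBase EN p} (SM : Sheet BM)
    (S₁ S₂ : Sheet BN) (A' B' : EM →+* EN) (N' : EN →* EM)
    (hπ : A' BM.π = BN.π) (hK : ∀ c ∈ BM.K₁, A' c ∈ BN.K₁)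
    (hlift : ∀ c, IsUnitIn BN.R₁ c → ∃ c₀, IsUnitIn BM.R₁ c₀ ∧ A' c₀ = c)
    (hA1 : ∀ y ∈ SM.W, A' y ∈ S₁.W) (hB1 : ∀ y ∈ SM.W, B' y ∈ S₁.W)
    (hA1r : ∀ y, A' y ∈ S₁.W → y ∈ SM.W) (hB2r : ∀ y, B' y ∈ S₂.W → y ∈ SM.W)
    (happ1 : ∀ x ∈ S₁.W, ∀ n : ℕ, ∃ y ∈ SM.W, PiDvd BN.π S₁.W n (x - A' y))
    (happ2 : ∀ x ∈ S₂.W, ∀ n : ℕ, ∃ y ∈ SM.W, PiDvd BN.π S₂.W n (x - B' y))
    (hnorm : ∀ (j : ℕ) (f : EN) (a c : EM), 1 ≤ j → a ∈ SM.W → c ∈ BM.R₁ →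
      PiDvd BN.π S₁.W (j + 1) (f - A' a) →
      (∃ y ∈ S₂.W, PiDvd BN.π S₂.W (j + 1) (f - A' c * (1 + BN.π ^ j * y))) →
      PiDvd BM.π SM.W (j + 1) (N' f - a * c ^ p))
    {f : EN} {j : ℕ} (hj : 1 ≤ j) (hf1 : IsUnitIn S₁.W f) (hf2 : IsUnitIn S₂.W f)
    (h2 : S₂.DepthGE f j)
    (hN : ∃ u ∈ BM.K₁, ∃ h : EM, u ≠ 0 ∧ h ≠ 0 ∧ N' f = u * h ^ p) :
    S₁.DepthGE f (j + 1) := by
  obtain ⟨u, hu, h, hu0, hh0, hNf⟩ := hN
  -- normal form on `S₂`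
  obtain ⟨c', γ', s', hc', hγ', hs', e⟩ := h2.exists_unit_rep hj hf2
  obtain ⟨c₀, hc₀, hAc₀⟩ := hlift c' hc'
  -- approximate the root `γ'` by `B' g'`
  obtain ⟨g', hg', hγg⟩ := happ2 γ' hγ'.1 (j + 1)
  have hBg2 : IsUnitIn S₂.W (B' g') := by
    refine S₂.isUnitIn_of_piDvd_sub (n := j + 1) (by omega) hγ' ?_
    have := hγg.neg
    rwa [neg_sub] at this
  have hg'0 : g' ≠ 0 := by
    rintro rfl
    rw [map_zero] at hBg2
    exact hBg2.2.2 rfl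
  have hg'inv : g'⁻¹ ∈ SM.W := by
    apply hB2r
    rw [map_inv₀]
    exact hBg2.2.1
  have hBg1 : IsUnitIn S₁.W (B' g') :=
    ⟨hB1 g' hg', by rw [← map_inv₀]; exact hB1 _ hg'inv, hBg2.2.2⟩
  have hBg0 := hBg2.2.2
  -- the quotient `f₂ = f / (B' g') ^ p`
  obtain ⟨f₂, hf₂⟩ : ∃ f₂, f₂ = f * ((B' g') ^ p)⁻¹ := ⟨_, rfl⟩
  have hf₂1 : IsUnitIn S₁.W f₂ := by
    rw [hf₂]
    exact hf1.mul (hBg1.pow p).inv
  -- shape of `f₂` on `S₂`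
  have hshape : ∃ y ∈ S₂.W, f₂ = A' c₀ * (1 + BN.π ^ j * y) := by
    obtain ⟨t, ht, et⟩ := hγg
    have et' : γ' * (B' g')⁻¹ = 1 + BN.π ^ (j + 1) * (t * (B' g')⁻¹) := by
      field_simp
      linear_combination et
    obtain ⟨r, hr, er⟩ := one_add_pow_eq_subring S₂.W
      (S₂.W.mul_mem (S₂.W.pow_mem S₂.π_mem (j + 1)) (S₂.W.mul_mem ht hBg2.2.1)) p
    refine ⟨s' + BN.π * (t * (B' g')⁻¹ * r) * (1 + BN.π ^ j * s'), ?_, ?_⟩
    · exact S₂.W.add_mem hs' (S₂.W.mul_mem (S₂.W.mul_mem S₂.π_mem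
        (S₂.W.mul_mem (S₂.W.mul_mem ht hBg2.2.1) hr))
        (S₂.W.add_mem S₂.W.one_mem (S₂.W.mul_mem (S₂.W.pow_mem S₂.π_mem j) hs')))
    · have e1 : f₂ = c' * (γ' * (B' g')⁻¹) ^ p * (1 + BN.π ^ j * s') := by
        rw [hf₂, e, mul_pow, inv_pow]
        ring
      rw [e1, et', er, hAc₀]
      ring
  obtain ⟨y, hy, hf₂y⟩ := hshape
  -- approximate `f₂` on `S₁`
  obtain ⟨a, ha, hfa⟩ := happ1 f₂ hf₂1.1 (j + 1)
  have hAa : IsUnitIn S₁.W (A' a) := by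
    refine S₁.isUnitIn_of_piDvd_sub (n := j + 1) (by omega) hf₂1 ?_
    have := hfa.neg
    rwa [neg_sub] at this
  have ha0 : a ≠ 0 := by
    rintro rfl
    rw [map_zero] at hAa
    exact hAa.2.2 rfl
  have haU : IsUnitIn SM.W a := by
    refine ⟨ha, ?_, ha0⟩
    apply hA1r
    rw [map_inv₀]
    exact hAa.2.1
  -- the norm formula
  have hn := hnorm j f₂ a c₀ hj ha hc₀.1 hfa ⟨y, hy, by rw [hf₂y, sub_self]; exact piDvd_zero⟩
  -- `N' f₂ = u h₂ ^ p`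
  have hN2 : N' f₂ = u * (h * (N' (B' g'))⁻¹) ^ p := by
    have h1 : N' (B' g') * N' ((B' g')⁻¹) = 1 := by
      rw [← map_mul, mul_inv_cancel₀ hBg0, map_one]
    have h2 : N' ((B' g')⁻¹) = (N' (B' g'))⁻¹ := eq_inv_of_mul_eq_one_right h1
    rw [hf₂, map_mul, ← inv_pow, map_pow, h2, hNf, mul_pow]
    ring
  have hNB0 : N' (B' g') ≠ 0 := by
    intro h0
    have h1 : N' (B' g') * N' ((B' g')⁻¹) = 1 := by
      rw [← map_mul, mul_inv_cancel₀ hBg0, map_one]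
    rw [h0, zero_mul] at h1
    exact zero_ne_one h1
  have hh₂0 : h * (N' (B' g'))⁻¹ ≠ 0 := mul_ne_zero hh0 (inv_ne_zero hNB0)
  -- depth of `a`
  have hcU : IsUnitIn SM.W (a * c₀ ^ p) :=
    haU.mul (IsUnitIn.pow ⟨SM.R₁_le hc₀.1, SM.R₁_le hc₀.2.1, hc₀.2.2⟩ p)
  have hda : SM.DepthGE a (j + 1) := by
    obtain ⟨t, ht, et⟩ := hn
    rw [hN2] at et
    have hone := SM.isUnitIn_one_add_pow_mul (m := j + 1) (by omega)
      (SM.W.mul_mem ht hcU.2.1)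
    have ea : a = (u * (c₀ ^ p)⁻¹) * (h * (N' (B' g'))⁻¹) ^ p
        * (1 + BM.π ^ (j + 1) * (t * (a * c₀ ^ p)⁻¹))⁻¹ := by
      have h1 := hcU.2.2
      have h2 := hone.2.2
      have h3 : c₀ ^ p ≠ 0 := pow_ne_zero p hc₀.2.2
      rw [eq_mul_inv_iff_mul_eq₀ h2]
      field_simp
      linear_combination (-1 : EM) * et
    rw [ea]
    refine ((SM.depthGE_const (BM.K₁.mul_mem hu (BM.K₁.inv_mem (BM.K₁.pow_mem
      (BM.R₁_le _ hc₀.1) p))) (mul_ne_zero hu0 (inv_ne_zero (pow_ne_zero p hc₀.2.2)))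
      (j + 1)).mul_pow hh₂0).mul ?_
    exact (SM.depthGE_one_add (SM.W.mul_mem ht hcU.2.1) (j + 1)).inv (by omega)
  -- transport along `A'`
  have hdAa : S₁.DepthGE (A' a) (j + 1) := by
    obtain ⟨c, hc, γ, s, hc0, hγ0, hs, ea⟩ := SM.depthGE_iff.mp hda
    refine S₁.depthGE_iff.mpr ⟨A' c, hK c hc, A' γ, A' s, (map_ne_zero A').mpr hc0,
      (map_ne_zero A').mpr hγ0, hA1 s hs, ?_⟩
    rw [ea]
    simp only [map_mul, map_add, map_pow, map_one, hπ]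
  have hdf₂ : S₁.DepthGE f₂ (j + 1) := hdAa.of_piDvd_sub hAa hfa
  have ef : f = f₂ * (B' g') ^ p := by
    rw [hf₂]
    have := pow_ne_zero p hBg0
    field_simp
  rw [ef]
  exact hdf₂.mul_pow hBg0

end Core

namespace TwoLevel

variable {EM EN : Type*} [Field EM] [Field EN] {p : ℕ} (T : TwoLevel EM EN p)

theorem B_π : T.B T.BM.π = T.BN.π := by
  rw [T.B_eq_A _ T.BM.π_mem_K₁, T.A_π]

theorem NA_ne_zero {x : EN} (hx : x ≠ 0) : T.NA x ≠ 0 := by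
  intro h
  have h1 : T.NA x * T.NA x⁻¹ = 1 := by
    rw [← map_mul, mul_inv_cancel₀ hx, map_one]
  rw [h, zero_mul] at h1
  exact zero_ne_one h1

theorem NA_inv {x : EN} (hx : x ≠ 0) : T.NA x⁻¹ = (T.NA x)⁻¹ := by
  have h1 : T.NA x * T.NA x⁻¹ = 1 := by
    rw [← map_mul, mul_inv_cancel₀ hx, map_one]
  exact eq_inv_of_mul_eq_one_right h1

theorem NB_ne_zero {x : EN} (hx : x ≠ 0) : T.NB x ≠ 0 := by
  intro h
  have h1 : T.NB x * T.NB x⁻¹ = 1 := by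
    rw [← map_mul, mul_inv_cancel₀ hx, map_one]
  rw [h, zero_mul] at h1
  exact zero_ne_one h1

theorem NB_inv {x : EN} (hx : x ≠ 0) : T.NB x⁻¹ = (T.NB x)⁻¹ := by
  have h1 : T.NB x * T.NB x⁻¹ = 1 := by
    rw [← map_mul, mul_inv_cancel₀ hx, map_one]
  exact eq_inv_of_mul_eq_one_right h1

/-- units of `R₁` lift along `A`. -/
theorem exists_unit_lift {c : EN} (hc : IsUnitIn T.BN.R₁ c) :
    ∃ c₀, IsUnitIn T.BM.R₁ c₀ ∧ T.A c₀ = c := by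
  obtain ⟨c₀, hc₀, e⟩ := T.A_R₁_surj c hc.1
  obtain ⟨d₀, hd₀, e'⟩ := T.A_R₁_surj c⁻¹ hc.2.1
  have hc₀0 : c₀ ≠ 0 := by
    rintro rfl
    rw [map_zero] at e
    exact hc.2.2 e.symm
  refine ⟨c₀, ⟨hc₀, ?_, hc₀0⟩, e⟩
  have : c₀⁻¹ = d₀ := by
    apply T.A.injective
    rw [map_inv₀, e, e']
  rw [this]
  exact hd₀

/-- transport of depth along `A` to the sheet `∞`. -/
theorem depthGE_A_inf {a : EM} {i : ℕ} (h : T.SM.DepthGE a i) : T.Sinf.DepthGE (T.A a) i := by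
  obtain ⟨c, hc, γ, s, hc0, hγ0, hs, rfl⟩ := T.SM.depthGE_iff.mp h
  refine T.Sinf.depthGE_iff.mpr ⟨T.A c, T.A_K₁ c hc, T.A γ, T.A s,
    (map_ne_zero T.A).mpr hc0, (map_ne_zero T.A).mpr hγ0, T.A_mem_inf s hs, ?_⟩
  simp only [map_mul, map_add, map_pow, map_one, T.A_π]

/-- transport of depth along `B` to the sheet `0`. -/
theorem depthGE_B_zero {a : EM} {i : ℕ} (h : T.SM.DepthGE a i) : T.S0.DepthGE (T.B a) i := by
  obtain ⟨c, hc, γ, s, hc0, hγ0, hs, rfl⟩ := T.SM.depthGE_iff.mp h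
  refine T.S0.depthGE_iff.mpr ⟨T.B c, by rw [T.B_eq_A c hc]; exact T.A_K₁ c hc, T.B γ, T.B s,
    (map_ne_zero T.B).mpr hc0, (map_ne_zero T.B).mpr hγ0, T.B_mem_zero s hs, ?_⟩
  simp only [map_mul, map_add, map_pow, map_one, T.B_π]

/-- step of Theorem A at the sheet `∞`. -/
theorem depth_inf_succ {f : EN} {j : ℕ} (hj : 1 ≤ j) (hfi : IsUnitIn T.Sinf.W f)
    (hfz : IsUnitIn T.S0.W f) (h0 : T.S0.DepthGE f j)
    (hN : ∃ u ∈ T.BM.K₁, ∃ h : EM, u ≠ 0 ∧ h ≠ 0 ∧ T.NA f = u * h ^ p) :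
    T.Sinf.DepthGE f (j + 1) :=
  thmA_core T.SM T.Sinf T.S0 T.A T.B T.NA T.A_π T.A_K₁ (fun _ hc => T.exists_unit_lift hc)
    T.A_mem_inf T.B_mem_inf T.A_reflect_inf T.B_reflect_zero T.approx_inf T.approx_zero T.normA
    hj hfi hfz h0 hN

/-- step of Theorem A at the sheet `0`. -/
theorem depth_zero_succ {f : EN} {j : ℕ} (hj : 1 ≤ j) (hfi : IsUnitIn T.Sinf.W f)
    (hfz : IsUnitIn T.S0.W f) (hi : T.Sinf.DepthGE f j)
    (hN : ∃ u ∈ T.BM.K₁, ∃ h : EM, u ≠ 0 ∧ h ≠ 0 ∧ T.NB f = u * h ^ p) :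
    T.S0.DepthGE f (j + 1) :=
  thmA_core T.SM T.S0 T.Sinf T.B T.A T.NB T.B_π
    (fun c hc => by rw [T.B_eq_A c hc]; exact T.A_K₁ c hc)
    (fun c hc => by
      obtain ⟨c₀, hc₀, e⟩ := T.exists_unit_lift hc
      exact ⟨c₀, hc₀, by rw [T.B_eq_A c₀ (T.BM.R₁_le _ hc₀.1), e]⟩)
    T.B_mem_zero T.A_mem_zero T.B_reflect_zero T.A_reflect_inf T.approx_zero T.approx_inf T.normB
    hj hfz hfi hi hN

/-- **Theorem A**: new + split ⇒ toric. -/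
theorem thmA {f : EN} (hfi : IsUnitIn T.Sinf.W f) (hfz : IsUnitIn T.S0.W f)
    (h1i : T.Sinf.DepthGE f 1) (h1z : T.S0.DepthGE f 1)
    (hNA : ∃ u ∈ T.BM.K₁, ∃ h : EM, u ≠ 0 ∧ h ≠ 0 ∧ T.NA f = u * h ^ p)
    (hNB : ∃ u ∈ T.BM.K₁, ∃ h : EM, u ≠ 0 ∧ h ≠ 0 ∧ T.NB f = u * h ^ p) (i : ℕ) :
    T.Sinf.DepthGE f i ∧ T.S0.DepthGE f i := by
  have key : ∀ j : ℕ, T.Sinf.DepthGE f (j + 1) ∧ T.S0.DepthGE f (j + 1) := by
    intro j
    induction j with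
    | zero => exact ⟨h1i, h1z⟩
    | succ j ih =>
      exact ⟨T.depth_inf_succ (by omega) hfi hfz ih.2 hNA,
        T.depth_zero_succ (by omega) hfi hfz ih.1 hNB⟩
  exact ⟨(key i).1.mono (by omega), (key i).2.mono (by omega)⟩

end TwoLevel

end Fermat.Agent.NP
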