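import Mathlib
import Fermat.Agent.NP.NORMP_helper7_TwoLevel
import Fermat.Agent.NP.NORMP_helper7_Abs
import Fermat.Agent.SS.MODEL_helper7_Iface
import Fermat.Agent.SS.VAL2_helper7_HostTwo

/-!
# NP33 — helper7 — [HOSTP-TL], part 1: the `TwoLevel` datum of an `SSModel`

From an `SSModel` (the two levels `M`, `M p` of a host tower with the sheets `V_M`, `W_∞`, `W_0`),
any `DepthBase`s / `Sheet`s with these valuation rings, and the norm / Frobenius data `SSNormData`,
the abstract two-level datum `TwoLevel` of `NORMP_helper7_TwoLevel` (input of Theorem A and of the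
Hecke depth lemmas (C2), (C3)).
-/

set_option autoImplicit false
set_option linter.unusedSectionVars false
set_option linter.style.haveILetI false

open IsLocalRing

namespace Fermat.Agent.NP

open Fermat.Agent.SS Fermat.Agent.JA

section

variable {R : Type*} [CommRing R] [IsDomain R] [IsDiscreteValuationRing R] [CharZero R]
  {K₁ : Type*} [Field K₁] [Algebra R K₁] [IsFractionRing R K₁]
  {KM : Type*} [Field KM] [Algebra K₁ KM] [Algebra R KM] [IsScalarTower R K₁ KM]
  {EM : Type*} [Field EM] [Algebra KM EM] [Algebra K₁ EM] [IsScalarTower K₁ KM EM] [Algebra R EM]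
  [IsScalarTower R KM EM]
  {KN : Type*} [Field KN] [Algebra K₁ KN] [Algebra R KN] [IsScalarTower R K₁ KN]
  {EN : Type*} [Field EN] [Algebra KN EN] [Algebra K₁ EN] [IsScalarTower K₁ KN EN] [Algebra R EN]
  [IsScalarTower R KN EN] [FiniteDimensional KN EN]

/-- **the norm and Frobenius data of a two-level host** (beyond `SSModel`). -/
structure SSNormData (p : ℕ) (A B : EM →+* EN) (VM : ValuationSubring EM)
    (Winf W0 : ValuationSubring EN) (NA NB : EN →* EM) : Prop where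
  finA : letI := A.toAlgebra; FiniteDimensional EM EN
  degA : letI := A.toAlgebra; Module.finrank EM EN = p + 1
  normA : ∀ x, NA x = (letI := A.toAlgebra; Algebra.norm EM x)
  indA : ∃ b : Fin p → EN, (∀ i, b i ∈ W0) ∧ ∀ a : Fin p → ↥VM,
    W0.valuation (∑ i, A (a i : EM) * b i) < 1 → ∀ i, a i ∈ maximalIdeal ↥VM
  insepA : ∀ y ∈ W0, ∃ a : ↥VM, W0.valuation (y ^ p - A (a : EM)) < 1
  finB : letI := B.toAlgebra; FiniteDimensional EM EN
  degB : letI := B.toAlgebra; Module.finrank EM EN = p + 1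
  normB : ∀ x, NB x = (letI := B.toAlgebra; Algebra.norm EM x)
  indB : ∃ b : Fin p → EN, (∀ i, b i ∈ Winf) ∧ ∀ a : Fin p → ↥VM,
    Winf.valuation (∑ i, B (a i : EM) * b i) < 1 → ∀ i, a i ∈ maximalIdeal ↥VM
  insepB : ∀ y ∈ Winf, ∃ a : ↥VM, Winf.valuation (y ^ p - B (a : EM)) < 1
  /-- `Φ̄_∞ = A⁻¹ B` on residue fields is Frobenius composed with a bijection `τ` -/
  kron : ∀ z ∈ VM, ∃ w ∈ VM, Winf.valuation (B z - A (w ^ p)) < 1
  kron_surj : ∀ w ∈ VM, ∃ z ∈ VM, Winf.valuation (B z - A (w ^ p)) < 1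

theorem algebraMap_R_eq_K₁ {R : Type*} [CommRing R] {K₁ : Type*} [Field K₁] [Algebra R K₁]
    (KM : Type*) [Field KM] [Algebra K₁ KM] [Algebra R KM] [IsScalarTower R K₁ KM]
    {EM : Type*} [Field EM] [Algebra KM EM] [Algebra K₁ EM] [IsScalarTower K₁ KM EM] [Algebra R EM]
    [IsScalarTower R KM EM] (r : R) :
    algebraMap R EM r = algebraMap K₁ EM (algebraMap R K₁ r) := by
  rw [IsScalarTower.algebraMap_apply R KM EM, IsScalarTower.algebraMap_apply R K₁ KM,
    ← IsScalarTower.algebraMap_apply K₁ KM EM]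

variable {π : R} {p n : ℕ} {S : Finset R} {t : KM} {jM : EM} {j : KN} {A B : EM →+* EN}
  {VM : ValuationSubring EM} {Winf W0 : ValuationSubring EN}

/-- the degeneracy maps are `K₁`-linear. -/
theorem SSModel_A_algebraMap_K₁ (h : SSModel K₁ π p n S t jM j A B VM Winf W0) (c : K₁) :
    A (algebraMap K₁ EM c) = algebraMap K₁ EN c := by
  obtain ⟨a, b, hb, rfl⟩ := IsFractionRing.div_surjective (A := R) c
  have hA : ∀ r : R, A (algebraMap K₁ EM (algebraMap R K₁ r))
      = algebraMap K₁ EN (algebraMap R K₁ r) := fun r => by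
    rw [← algebraMap_R_eq_K₁ (K₁ := K₁) KM (EM := EM), h.A_algebraMap,
      algebraMap_R_eq_K₁ (K₁ := K₁) KN (EM := EN)]
  rw [map_div₀, map_div₀, map_div₀, hA, hA]

theorem SSModel_B_algebraMap_K₁ (h : SSModel K₁ π p n S t jM j A B VM Winf W0) (c : K₁) :
    B (algebraMap K₁ EM c) = algebraMap K₁ EN c := by
  obtain ⟨a, b, hb, rfl⟩ := IsFractionRing.div_surjective (A := R) c
  have hB : ∀ r : R, B (algebraMap K₁ EM (algebraMap R K₁ r))
      = algebraMap K₁ EN (algebraMap R K₁ r) := fun r => by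
    rw [← algebraMap_R_eq_K₁ (K₁ := K₁) KM (EM := EM), h.B_algebraMap,
      algebraMap_R_eq_K₁ (K₁ := K₁) KN (EM := EN)]
  rw [map_div₀, map_div₀, map_div₀, hB, hB]

section Unif

variable (h : SSModel K₁ π p n S t jM j A B VM Winf W0)

include h in
theorem SSModel_pi_mem_inf : algebraMap R EN π ∈ Winf := by
  have h1 := h.two.gauss_inf.1 (Polynomial.C π)
  rw [Polynomial.aeval_C] at h1
  have h2 : algebraMap KN EN (algebraMap R KN π) ∈ Winf := h1
  rwa [← IsScalarTower.algebraMap_apply R KN EN] at h2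

include h in
theorem SSModel_pi_mem_zero : algebraMap R EN π ∈ W0 := by
  have h1 := h.two.gauss_zero.1 (Polynomial.C π)
  rw [Polynomial.aeval_C] at h1
  have h2 : algebraMap KN EN (algebraMap R KN π) ∈ W0 := h1
  rwa [← IsScalarTower.algebraMap_apply R KN EN] at h2

include h in
theorem SSModel_pi_inv_notMem_inf : (algebraMap R EN π)⁻¹ ∉ Winf := by
  intro hmem
  apply h.two.gauss_inf.2.1
  show algebraMap KN EN (algebraMap R KN π)⁻¹ ∈ Winf
  rwa [map_inv₀, ← IsScalarTower.algebraMap_apply R KN EN]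

include h in
theorem SSModel_pi_ne_zero : algebraMap R EN π ≠ 0 := by
  intro h0
  apply SSModel_pi_inv_notMem_inf h
  rw [h0, inv_zero]
  exact Winf.zero_mem

include h in
theorem SSModel_piM_ne_zero : algebraMap R EM π ≠ 0 := by
  intro h0
  apply SSModel_pi_ne_zero h
  rw [← h.A_algebraMap, h0, map_zero]

include h in
theorem SSModel_piM_mem : algebraMap R EM π ∈ VM := by
  rw [← comap_mem_iff A h.comap_A_inf, h.A_algebraMap]
  exact SSModel_pi_mem_inf h

include h in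
theorem SSModel_piM_val_lt_one : VM.valuation (algebraMap R EM π) < 1 := by
  rw [← comap_val_lt_one_iff A h.comap_A_inf, h.A_algebraMap]
  have hmem := SSModel_pi_mem_inf h
  have hinv := SSModel_pi_inv_notMem_inf h
  rcases lt_or_eq_of_le ((ValuationSubring.valuation_le_one_iff _ _).mpr hmem) with h1 | h1
  · exact h1
  · exfalso
    apply hinv
    rw [← ValuationSubring.valuation_le_one_iff, map_inv₀, h1, inv_one]

include h in
/-- `V_M` has uniformizer `π`. -/
theorem SSModel_div_pi_mem {x : EM} (hx : VM.valuation x < 1) :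
    x * (algebraMap R EM π)⁻¹ ∈ VM := by
  rw [← comap_mem_iff A h.comap_A_inf, map_mul, map_inv₀, h.A_algebraMap]
  exact h.two.e_inf _ ((comap_val_lt_one_iff A h.comap_A_inf x).mpr hx)

include h in
theorem SSModel_irreducible_pi [IsDiscreteValuationRing ↥VM] :
    Irreducible (⟨algebraMap R EM π, SSModel_piM_mem h⟩ : ↥VM) := by
  rw [IsDiscreteValuationRing.irreducible_iff_uniformizer]
  have h0 := SSModel_piM_ne_zero h
  apply le_antisymm
  · intro x hx
    rw [ValuationSubring.valuation_lt_one_iff] at hx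
    have := SSModel_div_pi_mem h hx
    rw [Ideal.mem_span_singleton']
    refine ⟨⟨_, this⟩, Subtype.ext ?_⟩
    simp only [MulMemClass.coe_mul]
    field_simp
  · rw [Ideal.span_le, Set.singleton_subset_iff, SetLike.mem_coe,
      ValuationSubring.valuation_lt_one_iff]
    exact SSModel_piM_val_lt_one h

include h in
/-- approximation to any order along `A` at the sheet `∞`. -/
theorem SSModel_approx_inf {x : EN} (hx : x ∈ Winf) (m : ℕ) :
    ∃ y ∈ VM, ∃ u ∈ Winf, x - A y = algebraMap R EN π ^ m * u := by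
  have hπ0 := SSModel_pi_ne_zero h
  induction m generalizing x with
  | zero => exact ⟨0, VM.zero_mem, x, hx, by simp⟩
  | succ m ih =>
    obtain ⟨a₀, ha₀, hv⟩ := h.res_inf x hx
    obtain ⟨y₁, hy₁, u, hu, e⟩ := ih (h.two.e_inf _ hv)
    refine ⟨a₀ + algebraMap R EM π * y₁, VM.add_mem _ _ ha₀ (VM.mul_mem _ _ (SSModel_piM_mem h) hy₁),
      u, hu, ?_⟩
    have e2 : x - A a₀ = algebraMap R EN π * (A y₁ + algebraMap R EN π ^ m * u) := by
      rw [← e]
      field_simp
      ring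
    rw [map_add, map_mul, h.A_algebraMap, pow_succ]
    linear_combination e2

include h in
/-- approximation to any order along `B` at the sheet `0`. -/
theorem SSModel_approx_zero {x : EN} (hx : x ∈ W0) (m : ℕ) :
    ∃ y ∈ VM, ∃ u ∈ W0, x - B y = algebraMap R EN π ^ m * u := by
  have hπ0 := SSModel_pi_ne_zero h
  induction m generalizing x with
  | zero => exact ⟨0, VM.zero_mem, x, hx, by simp⟩
  | succ m ih =>
    obtain ⟨a₀, ha₀, hv⟩ := h.res_zero x hx
    obtain ⟨y₁, hy₁, u, hu, e⟩ := ih (h.two.e_zero _ hv)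
    refine ⟨a₀ + algebraMap R EM π * y₁, VM.add_mem _ _ ha₀ (VM.mul_mem _ _ (SSModel_piM_mem h) hy₁),
      u, hu, ?_⟩
    have e2 : x - B a₀ = algebraMap R EN π * (B y₁ + algebraMap R EN π ^ m * u) := by
      rw [← e]
      field_simp
      ring
    rw [map_add, map_mul, h.B_algebraMap, pow_succ]
    linear_combination e2

end Unif

section Assembly

variable (h : SSModel K₁ π p n S t jM j A B VM Winf W0) [IsDiscreteValuationRing ↥VM]
  (BM : DepthBase EM p) (BN : DepthBase EN p) (SM : Sheet BM) (Sinf S0 : Sheet BN)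
  (hBMπ : BM.π = algebraMap R EM π)
  (hBMR : ∀ x, x ∈ BM.R₁ ↔ ∃ r : R, algebraMap R EM r = x)
  (hBMK : ∀ x, x ∈ BM.K₁ ↔ ∃ c : K₁, algebraMap K₁ EM c = x)
  (hBNπ : BN.π = algebraMap R EN π)
  (hBNR : ∀ x, x ∈ BN.R₁ ↔ ∃ r : R, algebraMap R EN r = x)
  (hBNK : ∀ x, x ∈ BN.K₁ ↔ ∃ c : K₁, algebraMap K₁ EN c = x)
  (hSM : ∀ x, x ∈ SM.W ↔ x ∈ VM) (hSinf : ∀ x, x ∈ Sinf.W ↔ x ∈ Winf)
  (hS0 : ∀ x, x ∈ S0.W ↔ x ∈ W0)
  {NA NB : EN →* EM} (D : SSNormData p A B VM Winf W0 NA NB)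

include h hBNπ hSinf in
theorem SSModel_piDvd_inf_of_val_lt {x : EN} (hx : Winf.valuation x < 1) :
    PiDvd BN.π Sinf.W 1 x := by
  refine ⟨x * (algebraMap R EN π)⁻¹, (hSinf _).mpr (h.two.e_inf _ hx), ?_⟩
  rw [hBNπ, pow_one]
  have := SSModel_pi_ne_zero h
  field_simp

include h hBNπ hS0 in
theorem SSModel_piDvd_zero_of_val_lt {x : EN} (hx : W0.valuation x < 1) :
    PiDvd BN.π S0.W 1 x := by
  refine ⟨x * (algebraMap R EN π)⁻¹, (hS0 _).mpr (h.two.e_zero _ hx), ?_⟩
  rw [hBNπ, pow_one]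
  have := SSModel_pi_ne_zero h
  field_simp

include h in
theorem SSModel_injective_algebraMap_R : Function.Injective (algebraMap R EM) := by
  intro x y hxy
  have e := algebraMap_R_eq_K₁ (R := R) (K₁ := K₁) KM (EM := EM)
  rw [e x, e y] at hxy
  exact IsFractionRing.injective R K₁ ((algebraMap K₁ EM).injective hxy)

include h in
theorem SSModel_algebraMap_R_mem (r : R) : algebraMap R EM r ∈ VM := by
  rw [← comap_mem_iff A h.comap_A_inf, h.A_algebraMap]
  have h2 := h.two.gauss_inf.1 (Polynomial.C r)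
  rw [Polynomial.aeval_C] at h2
  have h3 : algebraMap KN EN (algebraMap R KN r) ∈ Winf := h2
  rwa [← IsScalarTower.algebraMap_apply R KN EN] at h3

include h in
theorem SSModel_val_natCast_lt_one : VM.valuation ((p : ℕ) : EM) < 1 := by
  obtain ⟨r, hr⟩ := Ideal.mem_span_singleton.mp h.q_mem
  have e : ((p : ℕ) : EM) = algebraMap R EM π * algebraMap R EM r := by
    rw [← map_mul, ← hr, map_natCast]
  rw [e, map_mul]
  have h1 : algebraMap R EM r ∈ VM := SSModel_algebraMap_R_mem h r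
  calc VM.valuation (algebraMap R EM π) * VM.valuation (algebraMap R EM r)
      ≤ VM.valuation (algebraMap R EM π) * 1 :=
        mul_le_mul_right ((ValuationSubring.valuation_le_one_iff _ _).mpr h1) _
    _ = VM.valuation (algebraMap R EM π) := mul_one _
    _ < 1 := SSModel_piM_val_lt_one h

include h D hBMπ hBNπ hSM hSinf hS0 hBMR in
/-- the field `normA` of `TwoLevel`. -/
theorem SSModel_normA (k : ℕ) (f : EN) (a c : EM) (hk : 1 ≤ k) (ha : a ∈ SM.W) (hc : c ∈ BM.R₁)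
    (hfa : PiDvd BN.π Sinf.W (k + 1) (f - A a))
    (hfc : ∃ y ∈ S0.W, PiDvd BN.π S0.W (k + 1) (f - A c * (1 + BN.π ^ k * y))) :
    PiDvd BM.π SM.W (k + 1) (NA f - a * c ^ p) := by
  have hCZ : CharZero EM := charZero_of_injective_algebraMap (SSModel_injective_algebraMap_R h)
  have hsep : letI := A.toAlgebra; Algebra.IsSeparable EM EN := by
    letI := A.toAlgebra
    haveI := D.finA
    exact Algebra.IsAlgebraic.isSeparable_of_perfectField
  obtain ⟨b, hb, hind⟩ := D.indA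
  have hchar : VM.valuation ((p : ℕ) : EM) < 1 := SSModel_val_natCast_lt_one h
  have hcV : c ∈ VM := (hSM c).mp (SM.R₁_le hc)
  have key := piDvd_norm_of_two_ext A NA D.normA VM D.finA hsep h.comap_A_inf h.comap_A_zero
    h.two.ne h.q_prime hchar (le_of_eq D.degA) b hb hind D.insepA (SSModel_piM_mem h)
    (SSModel_irreducible_pi h) k f a c hk ((hSM a).mp ha) hcV
    (by
      obtain ⟨u, hu, e⟩ := hfa
      exact ⟨u, (hSinf u).mp hu, by rw [h.A_algebraMap, ← hBNπ]; exact e⟩)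
    (by
      obtain ⟨y, hy, u, hu, e⟩ := hfc
      exact ⟨y, (hS0 y).mp hy, u, (hS0 u).mp hu, by rw [h.A_algebraMap, ← hBNπ]; exact e⟩)
  obtain ⟨u, hu, e⟩ := key
  exact ⟨u, (hSM u).mpr hu, by rw [hBMπ]; exact e⟩

include h D hBMπ hBNπ hSM hSinf hS0 hBMR in
/-- the field `normB` of `TwoLevel`. -/
theorem SSModel_normB (k : ℕ) (f : EN) (a c : EM) (hk : 1 ≤ k) (ha : a ∈ SM.W) (hc : c ∈ BM.R₁)
    (hfa : PiDvd BN.π S0.W (k + 1) (f - B a))
    (hfc : ∃ y ∈ Sinf.W, PiDvd BN.π Sinf.W (k + 1) (f - B c * (1 + BN.π ^ k * y))) :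
    PiDvd BM.π SM.W (k + 1) (NB f - a * c ^ p) := by
  have hCZ : CharZero EM := charZero_of_injective_algebraMap (SSModel_injective_algebraMap_R h)
  have hsep : letI := B.toAlgebra; Algebra.IsSeparable EM EN := by
    letI := B.toAlgebra
    haveI := D.finB
    exact Algebra.IsAlgebraic.isSeparable_of_perfectField
  obtain ⟨b, hb, hind⟩ := D.indB
  have hchar : VM.valuation ((p : ℕ) : EM) < 1 := SSModel_val_natCast_lt_one h
  have hcV : c ∈ VM := (hSM c).mp (SM.R₁_le hc)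
  have key := piDvd_norm_of_two_ext B NB D.normB VM D.finB hsep h.comap_B_zero h.comap_B_inf
    h.two.ne.symm h.q_prime hchar (le_of_eq D.degB) b hb hind D.insepB (SSModel_piM_mem h)
    (SSModel_irreducible_pi h) k f a c hk ((hSM a).mp ha) hcV
    (by
      obtain ⟨u, hu, e⟩ := hfa
      exact ⟨u, (hS0 u).mp hu, by rw [h.B_algebraMap, ← hBNπ]; exact e⟩)
    (by
      obtain ⟨y, hy, u, hu, e⟩ := hfc
      exact ⟨y, (hSinf y).mp hy, u, (hSinf u).mp hu, by rw [h.B_algebraMap, ← hBNπ]; exact e⟩)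
  obtain ⟨u, hu, e⟩ := key
  exact ⟨u, (hSM u).mpr hu, by rw [hBMπ]; exact e⟩

include h hBMπ hBMR hBMK hBNπ hBNR hBNK hSM hSinf hS0 D in
/-- **the `TwoLevel` datum of an `SSModel`** with norm / Frobenius data. -/
noncomputable def TwoLevel.ofSSModel : TwoLevel EM EN p where
  BM := BM
  BN := BN
  A := A
  B := B
  NA := NA
  NB := NB
  SM := SM
  Sinf := Sinf
  S0 := S0
  A_π := by rw [hBMπ, hBNπ, h.A_algebraMap]
  A_K₁ := fun c hc => by
    obtain ⟨c', rfl⟩ := (hBMK c).mp hc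
    exact (hBNK _).mpr ⟨c', (SSModel_A_algebraMap_K₁ h c').symm⟩
  A_R₁ := fun c hc => by
    obtain ⟨r, rfl⟩ := (hBMR c).mp hc
    exact (hBNR _).mpr ⟨r, (h.A_algebraMap r).symm⟩
  A_R₁_surj := fun c hc => by
    obtain ⟨r, rfl⟩ := (hBNR c).mp hc
    exact ⟨algebraMap R EM r, (hBMR _).mpr ⟨r, rfl⟩, h.A_algebraMap r⟩
  B_eq_A := fun c hc => by
    obtain ⟨c', rfl⟩ := (hBMK c).mp hc
    rw [SSModel_A_algebraMap_K₁ h, SSModel_B_algebraMap_K₁ h]
  A_mem_inf := fun y hy => (hSinf _).mpr ((comap_mem_iff A h.comap_A_inf y).mpr ((hSM y).mp hy))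
  A_mem_zero := fun y hy => (hS0 _).mpr ((comap_mem_iff A h.comap_A_zero y).mpr ((hSM y).mp hy))
  B_mem_inf := fun y hy => (hSinf _).mpr ((comap_mem_iff B h.comap_B_inf y).mpr ((hSM y).mp hy))
  B_mem_zero := fun y hy => (hS0 _).mpr ((comap_mem_iff B h.comap_B_zero y).mpr ((hSM y).mp hy))
  A_reflect_inf := fun y hy =>
    (hSM y).mpr ((comap_mem_iff A h.comap_A_inf y).mp ((hSinf _).mp hy))
  A_reflect_zero := fun y hy =>
    (hSM y).mpr ((comap_mem_iff A h.comap_A_zero y).mp ((hS0 _).mp hy))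
  B_reflect_inf := fun y hy =>
    (hSM y).mpr ((comap_mem_iff B h.comap_B_inf y).mp ((hSinf _).mp hy))
  B_reflect_zero := fun y hy =>
    (hSM y).mpr ((comap_mem_iff B h.comap_B_zero y).mp ((hS0 _).mp hy))
  approx_inf := fun x hx m => by
    obtain ⟨y, hy, u, hu, e⟩ := SSModel_approx_inf h ((hSinf x).mp hx) m
    exact ⟨y, (hSM y).mpr hy, u, (hSinf u).mpr hu, by rw [hBNπ]; exact e⟩
  approx_zero := fun x hx m => by
    obtain ⟨y, hy, u, hu, e⟩ := SSModel_approx_zero h ((hS0 x).mp hx) m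
    exact ⟨y, (hSM y).mpr hy, u, (hS0 u).mpr hu, by rw [hBNπ]; exact e⟩
  NA_A := fun y => by
    rw [D.normA]
    letI := A.toAlgebra
    haveI := D.finA
    have e : A y = algebraMap EM EN y := rfl
    rw [e, Algebra.norm_algebraMap, D.degA]
  NB_B := fun y => by
    rw [D.normB]
    letI := B.toAlgebra
    haveI := D.finB
    have e : B y = algebraMap EM EN y := rfl
    rw [e, Algebra.norm_algebraMap, D.degB]
  normA := SSModel_normA h BM BN SM Sinf S0 hBMπ hBMR hBNπ hSM hSinf hS0 D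
  normB := SSModel_normB h BM BN SM Sinf S0 hBMπ hBMR hBNπ hSM hSinf hS0 D
  kron_inf := fun z hz => by
    obtain ⟨w, hw, hv⟩ := D.kron z ((hSM z).mp hz)
    exact ⟨w, (hSM w).mpr hw, SSModel_piDvd_inf_of_val_lt h BN Sinf hBNπ hSinf hv⟩
  kron_inf_surj := fun w hw => by
    obtain ⟨z, hz, hv⟩ := D.kron_surj w ((hSM w).mp hw)
    exact ⟨z, (hSM z).mpr hz, SSModel_piDvd_inf_of_val_lt h BN Sinf hBNπ hSinf hv⟩

section Proj

variable {h BM BN SM Sinf S0 hBMπ hBMR hBMK hBNπ hBNR hBNK hSM hSinf hS0 D}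

@[simp] theorem TwoLevel.ofSSModel_BM : (TwoLevel.ofSSModel h BM BN SM Sinf S0 hBMπ hBMR hBMK
    hBNπ hBNR hBNK hSM hSinf hS0 D).BM = BM := rfl

@[simp] theorem TwoLevel.ofSSModel_BN : (TwoLevel.ofSSModel h BM BN SM Sinf S0 hBMπ hBMR hBMK
    hBNπ hBNR hBNK hSM hSinf hS0 D).BN = BN := rfl

@[simp] theorem TwoLevel.ofSSModel_A : (TwoLevel.ofSSModel h BM BN SM Sinf S0 hBMπ hBMR hBMK
    hBNπ hBNR hBNK hSM hSinf hS0 D).A = A := rfl

@[simp] theorem TwoLevel.ofSSModel_B : (TwoLevel.ofSSModel h BM BN SM Sinf S0 hBMπ hBMR hBMK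
    hBNπ hBNR hBNK hSM hSinf hS0 D).B = B := rfl

@[simp] theorem TwoLevel.ofSSModel_NA : (TwoLevel.ofSSModel h BM BN SM Sinf S0 hBMπ hBMR hBMK
    hBNπ hBNR hBNK hSM hSinf hS0 D).NA = NA := rfl

@[simp] theorem TwoLevel.ofSSModel_NB : (TwoLevel.ofSSModel h BM BN SM Sinf S0 hBMπ hBMR hBMK
    hBNπ hBNR hBNK hSM hSinf hS0 D).NB = NB := rfl

@[simp] theorem TwoLevel.ofSSModel_SM : (TwoLevel.ofSSModel h BM BN SM Sinf S0 hBMπ hBMR hBMK
    hBNπ hBNR hBNK hSM hSinf hS0 D).SM = SM := rfl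

@[simp] theorem TwoLevel.ofSSModel_Sinf : (TwoLevel.ofSSModel h BM BN SM Sinf S0 hBMπ hBMR hBMK
    hBNπ hBNR hBNK hSM hSinf hS0 D).Sinf = Sinf := rfl

@[simp] theorem TwoLevel.ofSSModel_S0 : (TwoLevel.ofSSModel h BM BN SM Sinf S0 hBMπ hBMR hBMK
    hBNπ hBNR hBNK hSM hSinf hS0 D).S0 = S0 := rfl

end Proj

end Assembly

end

end Fermat.Agent.NP
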