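import Mathlib
import Fermat.Agent.NP.HOSTP_helper7_TwoLevel
import Fermat.Agent.NP.HOSTP_helper5_Sheets
import Fermat.Agent.SS.VAL3_helper7_Insep
import Fermat.Agent.JA.GAUSSUNIQ_helper6

/-!
# NP33 — helper7 — [HOSTP-TL], part 1b: the `TwoLevel` datum of an `SSModel` on helper5's sheets

`SSModel.twoLevel` : `TwoLevel.ofSSModel` instantiated with `hostDepthBase`, `GeoHyps.sheetM`,
`SSModel.sheetInf`, `SSModel.sheetZero` of `HOSTP_helper5_Sheets`.
-/

set_option autoImplicit false
set_option linter.unusedSectionVars false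
set_option linter.style.haveILetI false

open IsLocalRing

namespace Fermat.Agent.NP

open Fermat.Agent.SS Fermat.Agent.JA

section

variable {R : Type*} [CommRing R] [IsDomain R] [IsDiscreteValuationRing R] [CharZero R]
  {K₁ : Type*} [Field K₁] [Algebra R K₁] [IsFractionRing R K₁]
  {KM : Type*} [Field KM] [Algebra K₁ KM] [Algebra R KM] [IsScalarTower R K₁ KM]
  {EM : Type*} [Field EM] [Algebra KM EM] [Algebra K₁ EM] [IsScalarTower K₁ KM EM] [Algebra R EM]
  [IsScalarTower R KM EM]
  {KN : Type*} [Field KN] [Algebra K₁ KN] [Algebra R KN] [IsScalarTower R K₁ KN]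
  {EN : Type*} [Field EN] [Algebra KN EN] [Algebra K₁ EN] [IsScalarTower K₁ KN EN] [Algebra R EN]
  [IsScalarTower R KN EN] [FiniteDimensional KN EN]
  {π : R} {p n : ℕ} {S : Finset R} {t : KM} {jM : EM} {j : KN} {A B : EM →+* EN}
  {VM : ValuationSubring EM} {Winf W0 : ValuationSubring EN}

/-- the sheet of level `M` of an `SSModel` is a discrete valuation ring. -/
theorem SSModel.isDiscreteValuationRing_VM (h : SSModel K₁ π p n S t jM j A B VM Winf W0) :
    IsDiscreteValuationRing ↥VM := by
  have hG := h.gauss_M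
  haveI : IsDiscreteValuationRing ↥(VM.comap (algebraMap KM EM)) :=
    isDiscreteValuationRing_of_isGaussAt (K₁ := K₁) π h.geo.irreducible t h.geo.transcendental
      h.geo.adjoin_eq_top hG
  have hinj : Function.Injective (algebraMap R KM) := by
    rw [IsScalarTower.algebraMap_eq R K₁ KM]
    exact (algebraMap K₁ KM).injective.comp (IsFractionRing.injective R K₁)
  haveI : CharZero KM := charZero_of_injective_algebraMap hinj
  haveI := h.geo.finite
  exact isDiscreteValuationRing_of_comap (algebraMap KM EM) (VM.comap (algebraMap KM EM))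
    (by
      have e : (algebraMap KM EM).toAlgebra = (inferInstance : Algebra KM EM) :=
        Algebra.algebra_ext _ _ fun _ => rfl
      rw [e]; infer_instance)
    (by
      have e : (algebraMap KM EM).toAlgebra = (inferInstance : Algebra KM EM) :=
        Algebra.algebra_ext _ _ fun _ => rfl
      rw [e]; exact Algebra.IsAlgebraic.isSeparable_of_perfectField) rfl

variable [IsAlgClosed (IsLocalRing.ResidueField R)]

/-- **the `TwoLevel` datum of an `SSModel`** on the host sheets of `HOSTP_helper5_Sheets`. -/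
noncomputable def SSModel.twoLevel (h : SSModel K₁ π p n S t jM j A B VM Winf W0)
    {e₁ : ℕ} (he₁ : 0 < e₁) {ε : Rˣ} (hpe : (p : R) = ε * π ^ e₁) {NA NB : EN →* EM}
    (D : SSNormData p A B VM Winf W0 NA NB) : TwoLevel EM EN p :=
  haveI := SSModel.isDiscreteValuationRing_VM h
  TwoLevel.ofSSModel h (hostDepthBase K₁ KM EM h.geo.irreducible h.q_prime he₁ hpe)
    (hostDepthBase K₁ KN EN h.geo.irreducible h.q_prime he₁ hpe)
    (GeoHyps.sheetM h.q_prime he₁ hpe h.geo VM h.gauss_M)
    (SSModel.sheetInf h.q_prime he₁ hpe h h.geo.irreducible)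
    (SSModel.sheetZero h.q_prime he₁ hpe h h.geo.irreducible)
    rfl (fun _ => RingHom.mem_range) (fun _ => RingHom.mem_fieldRange)
    rfl (fun _ => RingHom.mem_range) (fun _ => RingHom.mem_fieldRange)
    (fun _ => Iff.rfl) (fun _ => Iff.rfl) (fun _ => Iff.rfl) D

section Proj

variable (h : SSModel K₁ π p n S t jM j A B VM Winf W0)
  {e₁ : ℕ} (he₁ : 0 < e₁) {ε : Rˣ} (hpe : (p : R) = ε * π ^ e₁) {NA NB : EN →* EM}
  (D : SSNormData p A B VM Winf W0 NA NB)

@[simp] theorem SSModel.twoLevel_BM : (SSModel.twoLevel h he₁ hpe D).BM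
    = hostDepthBase K₁ KM EM h.geo.irreducible h.q_prime he₁ hpe := rfl

@[simp] theorem SSModel.twoLevel_BN : (SSModel.twoLevel h he₁ hpe D).BN
    = hostDepthBase K₁ KN EN h.geo.irreducible h.q_prime he₁ hpe := rfl

@[simp] theorem SSModel.twoLevel_A : (SSModel.twoLevel h he₁ hpe D).A = A := rfl

@[simp] theorem SSModel.twoLevel_B : (SSModel.twoLevel h he₁ hpe D).B = B := rfl

@[simp] theorem SSModel.twoLevel_NA : (SSModel.twoLevel h he₁ hpe D).NA = NA := rfl

@[simp] theorem SSModel.twoLevel_NB : (SSModel.twoLevel h he₁ hpe D).NB = NB := rfl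

@[simp] theorem SSModel.twoLevel_SM : (SSModel.twoLevel h he₁ hpe D).SM
    = GeoHyps.sheetM h.q_prime he₁ hpe h.geo VM h.gauss_M := rfl

@[simp] theorem SSModel.twoLevel_Sinf : (SSModel.twoLevel h he₁ hpe D).Sinf
    = SSModel.sheetInf h.q_prime he₁ hpe h h.geo.irreducible := rfl

@[simp] theorem SSModel.twoLevel_S0 : (SSModel.twoLevel h he₁ hpe D).S0
    = SSModel.sheetZero h.q_prime he₁ hpe h h.geo.irreducible := rfl

end Proj

end

end Fermat.Agent.NP
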