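import Mathlib
import Fermat.Agent.NP.HOSTP_helper7_PBasis
import Fermat.Agent.NP.HOSTP_helper7_TwoLevelHost
import Fermat.Agent.FG.EDEF_helper6_Res
import Fermat.Agent.SS.VAL2_helper7_TwoExt
import Fermat.Agent.SS.VAL3_helper7_Insep
import Fermat.Agent.S35.NORMRED_helper9_Host

/-!
# NP33 — helper7 — [HOSTP-TL], part 2b: (KRON_∞) on any `SSModel`, without a Frobenius lift

* `isPSum_residue_gauss` : the reduction of `t` is a `p`-basis of the residue field `k(t̄)` of the
  Gauss valuation (`k` perfect);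
* `GeoHyps.exists_psum` : at a level of good reduction (residue extension separable) every
  `z ∈ V_M` is congruent to `∑_{i<p} c_i^p t^i`, `c_i ∈ V_M`;
* `SSModel.kron_inf_of_perfect` : `∀ z ∈ V_M, ∃ w ∈ V_M, B z ≡ A (w^p)` on `W_∞`
  (from `B t ≡ (A t)^p` and residue degree one along `A`);
* `SSNormData.of_insep` : the norm data of a two-level host from the degree / independence /
  inseparability data alone (any base with perfect residue field, normal over `ℚ` or not).
-/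

set_option autoImplicit false
set_option linter.unusedSectionVars false
set_option linter.style.haveILetI false

open IsLocalRing Polynomial

namespace Fermat.Agent.NP

open Fermat.Agent.JA Fermat.Agent.SS Fermat.Agent.FG

section Gauss

variable {R : Type*} [CommRing R] [IsDomain R] [IsDiscreteValuationRing R] [CharZero R]
  {K₁ : Type*} [Field K₁] [Algebra R K₁] [IsFractionRing R K₁]
  {K : Type*} [Field K] [Algebra K₁ K] [Algebra R K] [IsScalarTower R K₁ K]
  {π : R} (hπ : Irreducible π) {t : K} (ht : Transcendental K₁ t)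
  (hK : IntermediateField.adjoin K₁ {t} = ⊤)
  {𝒱 : ValuationSubring K} (h𝒱 : IsGaussAt R π t 𝒱)
  (p : ℕ) [hp : Fact p.Prime] (hpπ : (p : R) ∈ Ideal.span {π})
  (hperf : ∀ r : R, ∃ s : R, r - s ^ p ∈ Ideal.span {π})

include hπ ht hK h𝒱 in
theorem residue_gauss_pi_eq_zero :
    residue ↥𝒱 ⟨algebraMap R K π, h𝒱.algebraMap_mem π⟩ = 0 := by
  rw [residue_eq_zero_iff, mem_maximalIdeal, mem_nonunits_iff]
  exact (irreducible_of_isGaussAt π hπ t ht hK h𝒱 (h𝒱.algebraMap_mem π)).not_isUnit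

include hπ ht hK h𝒱 hpπ in
theorem charP_residueField_gauss : CharP (ResidueField ↥𝒱) p := by
  have h0 : ((p : ℕ) : ResidueField ↥𝒱) = 0 := by
    obtain ⟨r, hr⟩ := Ideal.mem_span_singleton'.mp hpπ
    have e : ((p : ℕ) : ↥𝒱) = ⟨algebraMap R K r, h𝒱.algebraMap_mem r⟩ *
        ⟨algebraMap R K π, h𝒱.algebraMap_mem π⟩ := by
      apply Subtype.ext
      show (((p : ℕ) : ↥𝒱) : K) = algebraMap R K r * algebraMap R K π
      rw [← map_mul, hr, map_natCast]
      simp
    rw [← map_natCast (residue ↥𝒱), e, map_mul, residue_gauss_pi_eq_zero hπ ht hK h𝒱, mul_zero]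
  exact charP_of_prime_of_natCast_eq_zero hp.out h0

include hπ ht hK h𝒱 hpπ hperf in
/-- **the reduction of the coordinate is a `p`-basis of the residue field of the Gauss
valuation.** -/
theorem isPSum_residue_gauss (x : ↥𝒱) :
    IsPSum p (residue ↥𝒱 ⟨t, h𝒱.self_mem⟩) (residue ↥𝒱 x) := by
  haveI := charP_residueField_gauss hπ ht hK h𝒱 p hpπ
  set τ := residue ↥𝒱 ⟨t, h𝒱.self_mem⟩ with hτ
  let φ : R[X] →+* ResidueField ↥𝒱 := (residue ↥𝒱).comp
    ((aeval (R := R) t).toRingHom.codRestrict 𝒱.toSubring (fun f => h𝒱.1 f))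
  have hφ : ∀ f : R[X], φ f = residue ↥𝒱 ⟨aeval t f, h𝒱.1 f⟩ := fun f => rfl
  have hφS : ∀ f : R[X], φ f ∈ pSumSubfield p τ := by
    intro f
    induction f using Polynomial.induction_on with
    | C a =>
      obtain ⟨s, hs⟩ := hperf a
      obtain ⟨u, hu⟩ := Ideal.mem_span_singleton'.mp hs
      have e : (⟨aeval t (C a), h𝒱.1 (C a)⟩ : ↥𝒱) = ⟨algebraMap R K s, h𝒱.algebraMap_mem s⟩ ^ p +
          ⟨algebraMap R K u, h𝒱.algebraMap_mem u⟩ * ⟨algebraMap R K π, h𝒱.algebraMap_mem π⟩ := by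
        apply Subtype.ext
        show aeval t (C a) = algebraMap R K s ^ p + algebraMap R K u * algebraMap R K π
        rw [aeval_C, ← map_pow, ← map_mul, ← map_add, hu]
        congr 1
        ring
      rw [hφ, e, map_add, map_mul, residue_gauss_pi_eq_zero hπ ht hK h𝒱, mul_zero, add_zero,
        map_pow]
      have := isPSum_pow_mul_pow p τ (residue ↥𝒱 ⟨algebraMap R K s, h𝒱.algebraMap_mem s⟩) 0
      rw [pow_zero, mul_one] at this
      exact this
    | add f g hf hg =>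
      rw [map_add]
      exact Subfield.add_mem _ hf hg
    | monomial n a ih =>
      rw [pow_succ, ← mul_assoc, map_mul]
      refine Subfield.mul_mem _ ih ?_
      have e : φ X = τ := by
        rw [hφ, hτ]
        congr 1
        exact Subtype.ext (aeval_X t)
      rw [e]
      exact isPSum_self p τ
  obtain ⟨f, g, hg, hx⟩ := (mem_of_isGaussAt_iff π hπ t ht hK h𝒱 (x : K)).mp x.2
  have hx' : x * (⟨aeval t g, h𝒱.1 g⟩ : ↥𝒱) = ⟨aeval t f, h𝒱.1 f⟩ := Subtype.ext hx
  have h1 : residue ↥𝒱 x * φ g = φ f := by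
    rw [hφ, hφ, ← map_mul, hx']
  have hg0 : g ≠ 0 := by
    rintro rfl
    exact hg (dvd_zero _)
  have hne : aeval t g ≠ 0 := aeval_ne_zero_of_transcendental_frac t ht hg0
  have hφg : φ g ≠ 0 := by
    intro h0
    have hu : (⟨aeval t g, h𝒱.1 g⟩ : ↥𝒱) * ⟨(aeval t g)⁻¹, h𝒱.2.2 g hg⟩ = 1 :=
      Subtype.ext (mul_inv_cancel₀ hne)
    have := congrArg (residue ↥𝒱) hu
    rw [map_mul, ← hφ, h0, zero_mul, map_one] at this
    exact zero_ne_one this
  have h2 : residue ↥𝒱 x = φ f / φ g := by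
    rw [eq_div_iff hφg]
    exact h1
  rw [h2]
  exact Subfield.div_mem _ (hφS f) (hφS g)

end Gauss

section Geo

variable {R : Type*} [CommRing R] [IsDomain R] [IsDiscreteValuationRing R] [CharZero R]
  {K₁ : Type*} [Field K₁] [Algebra R K₁] [IsFractionRing R K₁]
  {K : Type*} [Field K] [Algebra K₁ K] [Algebra R K] [IsScalarTower R K₁ K]
  {E : Type*} [Field E] [Algebra K E] [Algebra K₁ E] [IsScalarTower K₁ K E]
  {π : R} {t : K} {n : ℕ} {S : Finset R}

/-- **the coordinate is a `p`-basis of the residue field of a level of good reduction**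
(valuation form): every `z ∈ V_M` is congruent to `∑_{i<p} c_i^p t^i`, `c_i ∈ V_M`. -/
theorem GeoHyps.exists_psum (h : GeoHyps K₁ π t E n S) (VM : ValuationSubring E)
    (hG : IsGaussAt R π t (VM.comap (algebraMap K E)))
    (p : ℕ) (hp : p.Prime) (hpπ : (p : R) ∈ Ideal.span {π})
    (hperf : ∀ r : R, ∃ s : R, r - s ^ p ∈ Ideal.span {π}) {z : E} (hz : z ∈ VM) :
    ∃ c : Fin p → E, (∀ i, c i ∈ VM) ∧
      VM.valuation (z - ∑ i, c i ^ p * algebraMap K E t ^ (i : ℕ)) < 1 := by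
  haveI : Fact p.Prime := ⟨hp⟩
  haveI := h.finite
  have hπ := h.irreducible
  have hu := h.transcendental
  have hK := h.adjoin_eq_top
  set 𝒱 := VM.comap (algebraMap K E) with h𝒱def
  haveI : IsDiscreteValuationRing ↥𝒱 := isDiscreteValuationRing_of_isGaussAt π hπ t hu hK hG
  have hinj : Function.Injective (algebraMap R K) := by
    rw [IsScalarTower.algebraMap_eq R K₁ K]
    exact (algebraMap K₁ K).injective.comp (IsFractionRing.injective R K₁)
  haveI : CharZero K := charZero_of_injective_algebraMap hinj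
  haveI : Algebra.IsSeparable K E := Algebra.IsAlgebraic.isSeparable_of_perfectField
  have hExt : TwoExt.IsExt 𝒱 VM := rfl
  haveI : IsLocalRing ↥(integralClosure ↥𝒱 E) := GeoHyps.isLocalRing h 𝒱 hG
  letI := gaussResAlg 𝒱 E
  haveI := geo_resField_isSeparable h 𝒱 hG
  haveI := charP_residueField_gauss hπ hu hK hG p hpπ
  have hcen : TwoExt.center hExt = maximalIdeal ↥(integralClosure ↥𝒱 E) :=
    IsLocalRing.eq_maximalIdeal (TwoExt.center_isMaximal hExt)
  obtain ⟨s, hs⟩ := TwoExt.exists_intCl_sub_val_lt_one hExt hz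
  obtain ⟨d, hd⟩ := isPSum_of_isSeparable p (residue ↥𝒱 ⟨t, hG.self_mem⟩)
    (fun f => by
      obtain ⟨x, rfl⟩ := residue_surjective f
      exact isPSum_residue_gauss hπ hu hK hG p hpπ hperf x)
    (residue ↥(integralClosure ↥𝒱 E) s)
  choose c hc using fun i => residue_surjective (d i)
  set T : ↥(integralClosure ↥𝒱 E) := algebraMap ↥𝒱 ↥(integralClosure ↥𝒱 E) ⟨t, hG.self_mem⟩
    with hT
  have hmem : s - ∑ i, c i ^ p * T ^ (i : ℕ) ∈ maximalIdeal ↥(integralClosure ↥𝒱 E) := by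
    rw [← residue_eq_zero_iff, map_sub, map_sum, hd, sub_eq_zero]
    refine Finset.sum_congr rfl fun i _ => ?_
    rw [map_mul, map_pow, map_pow, hc i, gaussResAlg_algebraMap_residue]
  rw [← hcen, TwoExt.mem_center_iff] at hmem
  have hcoe : ((s - ∑ i, c i ^ p * T ^ (i : ℕ) : ↥(integralClosure ↥𝒱 E)) : E)
      = (s : E) - ∑ i, (c i : E) ^ p * algebraMap K E t ^ (i : ℕ) := by
    rw [show ((s - ∑ i, c i ^ p * T ^ (i : ℕ) : ↥(integralClosure ↥𝒱 E)) : E)
      = (integralClosure ↥𝒱 E).val (s - ∑ i, c i ^ p * T ^ (i : ℕ)) from rfl, map_sub, map_sum]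
    congr 1
  rw [hcoe] at hmem
  refine ⟨fun i => (c i : E), fun i => TwoExt.intCl_le hExt _ (c i).2, ?_⟩
  have e : z - ∑ i, (c i : E) ^ p * algebraMap K E t ^ (i : ℕ)
      = (z - (s : E)) + ((s : E) - ∑ i, (c i : E) ^ p * algebraMap K E t ^ (i : ℕ)) := by ring
  rw [e]
  exact val_lt_one_add VM hs hmem

end Geo



open Fermat.Agent.S35

section

variable {R : Type*} [CommRing R] [IsDomain R] [IsDiscreteValuationRing R] [CharZero R]
  {K₁ : Type*} [Field K₁] [Algebra R K₁] [IsFractionRing R K₁]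
  {KM : Type*} [Field KM] [Algebra K₁ KM] [Algebra R KM] [IsScalarTower R K₁ KM]
  {EM : Type*} [Field EM] [Algebra KM EM] [Algebra K₁ EM] [IsScalarTower K₁ KM EM] [Algebra R EM]
  [IsScalarTower R KM EM]
  {KN : Type*} [Field KN] [Algebra K₁ KN] [Algebra R KN] [IsScalarTower R K₁ KN]
  {EN : Type*} [Field EN] [Algebra KN EN] [Algebra K₁ EN] [IsScalarTower K₁ KN EN] [Algebra R EN]
  [IsScalarTower R KN EN] [FiniteDimensional KN EN]
  {π : R} {p n : ℕ} {S : Finset R} {t : KM} {jM : EM} {j : KN} {A B : EM →+* EN}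
  {VM : ValuationSubring EM} {Winf W0 : ValuationSubring EN}

/-- perfectness of the residue field, in congruence form. -/
theorem exists_pow_sub_mem_span_of_isAlgClosed [IsAlgClosed (ResidueField R)] {π : R}
    (hπ : Irreducible π) {p : ℕ} (hp : 0 < p) (r : R) : ∃ s : R, r - s ^ p ∈ Ideal.span {π} := by
  obtain ⟨z, hz⟩ := IsAlgClosed.exists_pow_nat_eq (residue R r) hp
  obtain ⟨s, rfl⟩ := residue_surjective z
  refine ⟨s, ?_⟩
  rw [← hπ.maximalIdeal_eq, ← residue_eq_zero_iff, map_sub, map_pow, hz, sub_self]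

/-- **(KRON_∞) on any `SSModel`**: `B z ≡ A (w ^ p)` on the sheet `∞` (no Frobenius lift of the
base is needed: the coordinate `t` is a `p`-basis of the residue field of `V_M`, and
`B t ≡ (A t) ^ p`). -/
theorem SSModel.kron_inf_of_perfect (h : SSModel K₁ π p n S t jM j A B VM Winf W0)
    (hperf : ∀ r : R, ∃ s : R, r - s ^ p ∈ Ideal.span {π}) {z : EM} (hz : z ∈ VM) :
    ∃ w ∈ VM, Winf.valuation (B z - A (w ^ p)) < 1 := by
  obtain ⟨c, hc, hzc⟩ := GeoHyps.exists_psum h.geo VM h.gauss_M p h.q_prime h.q_mem hperf hz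
  set T : EM := algebraMap KM EM t with hT
  have hTM : T ∈ VM := by
    have := h.gauss_M.self_mem
    exact this
  -- `B z ≡ B (∑ c_i^p T^i)`
  have h1 : Winf.valuation (B z - B (∑ i, c i ^ p * T ^ (i : ℕ))) < 1 := by
    rw [← map_sub]
    exact (comap_val_lt_one_iff B h.comap_B_inf _).mpr hzc
  -- `y = ∑ B c_i (A T)^i`
  set y : EN := ∑ i, B (c i) * A T ^ (i : ℕ) with hy
  haveI := SSModel.isDiscreteValuationRing_VM h
  have hcharM : VM.valuation ((p : ℕ) : EM) < 1 := SSModel_val_natCast_lt_one h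
  have hchar : Winf.valuation ((p : ℕ) : EN) < 1 := by
    have := (comap_val_lt_one_iff A h.comap_A_inf _).mpr hcharM
    rwa [map_natCast] at this
  have hAT : A T ∈ Winf := (comap_mem_iff A h.comap_A_inf T).mpr hTM
  have hk : Winf.valuation (A T ^ p - B ((⟨T, hTM⟩ : ↥VM) : EM)) < 1 := by
    rw [Valuation.map_sub_swap]
    exact h.kron_t_inf
  have h2 := normred_pow_sub_val_lt_one B h.comap_B_inf h.q_prime hchar hAT ⟨T, hTM⟩ hk
    (x := y) (fun i => (⟨c i, hc i⟩ : ↥VM)) (by rw [hy]; simp)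
  have h2' : Winf.valuation (y ^ p - B (∑ i, c i ^ p * T ^ (i : ℕ))) < 1 := by
    have e : ((∑ i, (⟨c i, hc i⟩ : ↥VM) ^ p * (⟨T, hTM⟩ : ↥VM) ^ (i : ℕ) : ↥VM) : EM)
        = ∑ i, c i ^ p * T ^ (i : ℕ) := by
      rw [show ((∑ i, (⟨c i, hc i⟩ : ↥VM) ^ p * (⟨T, hTM⟩ : ↥VM) ^ (i : ℕ) : ↥VM) : EM)
        = VM.subtype (∑ i, (⟨c i, hc i⟩ : ↥VM) ^ p * (⟨T, hTM⟩ : ↥VM) ^ (i : ℕ)) from rfl,
        map_sum]
      rfl
    rw [← e]
    exact h2
  have hyW : y ∈ Winf := by
    rw [hy]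
    exact sum_mem fun i _ => mul_mem ((comap_mem_iff B h.comap_B_inf _).mpr (hc i))
      (pow_mem hAT _)
  obtain ⟨w, hw, hyw⟩ := h.res_inf y hyW
  -- `y ^ p ≡ (A w) ^ p`
  have h3 : Winf.valuation (y ^ p - A w ^ p) < 1 := by
    have hAw : A w ∈ Winf := (comap_mem_iff A h.comap_A_inf w).mpr hw
    have hfac : y ^ p - A w ^ p = (y - A w) * ∑ i ∈ Finset.range p, y ^ i * A w ^ (p - 1 - i) :=
      (Commute.all y (A w)).mul_geom_sum₂ p |>.symm ▸ rfl
    rw [hfac]
    exact val_lt_one_mul_mem Winf hyw (sum_mem fun i _ => mul_mem (pow_mem hyW _)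
      (pow_mem hAw _))
  refine ⟨w, hw, ?_⟩
  have e : B z - A (w ^ p) = (B z - B (∑ i, c i ^ p * T ^ (i : ℕ)))
      - (y ^ p - B (∑ i, c i ^ p * T ^ (i : ℕ))) + (y ^ p - A w ^ p) := by
    rw [map_pow]; ring
  rw [e]
  exact val_lt_one_add Winf (val_lt_one_sub Winf h1 h2') h3

/-- **the norm data of a two-level host from the inseparability data alone**: (KRON_∞) is
automatic (`SSModel.kron_inf_of_perfect`), its surjectivity is `insepB`. -/
theorem SSNormData.of_insep (h : SSModel K₁ π p n S t jM j A B VM Winf W0)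
    (hperf : ∀ r : R, ∃ s : R, r - s ^ p ∈ Ideal.span {π}) {NA NB : EN →* EM}
    (finA : letI := A.toAlgebra; FiniteDimensional EM EN)
    (degA : letI := A.toAlgebra; Module.finrank EM EN = p + 1)
    (normA : ∀ x, NA x = (letI := A.toAlgebra; Algebra.norm EM x))
    (indA : ∃ b : Fin p → EN, (∀ i, b i ∈ W0) ∧ ∀ a : Fin p → ↥VM,
      W0.valuation (∑ i, A (a i : EM) * b i) < 1 → ∀ i, a i ∈ maximalIdeal ↥VM)
    (insepA : ∀ y ∈ W0, ∃ a : ↥VM, W0.valuation (y ^ p - A (a : EM)) < 1)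
    (finB : letI := B.toAlgebra; FiniteDimensional EM EN)
    (degB : letI := B.toAlgebra; Module.finrank EM EN = p + 1)
    (normB : ∀ x, NB x = (letI := B.toAlgebra; Algebra.norm EM x))
    (indB : ∃ b : Fin p → EN, (∀ i, b i ∈ Winf) ∧ ∀ a : Fin p → ↥VM,
      Winf.valuation (∑ i, B (a i : EM) * b i) < 1 → ∀ i, a i ∈ maximalIdeal ↥VM)
    (insepB : ∀ y ∈ Winf, ∃ a : ↥VM, Winf.valuation (y ^ p - B (a : EM)) < 1) :
    SSNormData p A B VM Winf W0 NA NB where
  finA := finA
  degA := degA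
  normA := normA
  indA := indA
  insepA := insepA
  finB := finB
  degB := degB
  normB := normB
  indB := indB
  insepB := insepB
  kron := fun z hz => SSModel.kron_inf_of_perfect h hperf hz
  kron_surj := fun w hw => by
    obtain ⟨a, ha⟩ := insepB (A w) ((comap_mem_iff A h.comap_A_inf w).mpr hw)
    refine ⟨a, a.2, ?_⟩
    rw [Valuation.map_sub_swap, map_pow]
    exact ha

end

end Fermat.Agent.NP
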