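/-
NP33 (S33) — helper2 — **[BASEP], part 6: the degree `[E_{Mp} : E_M] = p + 1` of the Legendre hosts
at every base** (from helper7's `legSSNormData`), and the resulting compatibility of the Hecke
operators at a base.
-/
import Mathlib
import Fermat.Agent.NP.BASEP_helper2_Compat
import Fermat.Agent.NP.HOSTP_helper7_LegNorm
import Fermat.Agent.SS.MODELS_helper7_AtBases
import Fermat.Agent.S35.NORMBC_helper8_Key
import Fermat.Agent.S35.T3B_helper4_Gen

set_option autoImplicit false
set_option linter.unusedSectionVars false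
set_option linter.unusedVariables false
set_option linter.style.haveILetI false
set_option synthInstance.maxHeartbeats 400000

open HahnSeries IntermediateField AlgebraicCurve ModularCurve IsLocalRing

namespace Fermat.Agent.NP

open Fermat.Agent.JA Fermat.Agent.FF Fermat.Agent.SS Fermat.Agent.S35 Fermat.Agent.S36
  Fermat.Agent.Igusa

/-- `Ω = AlgebraicClosure ℚ`. -/
local notation "Ω" => AlgebraicClosure ℚ

section Deg

variable (M p : ℕ) [NeZero M] [NeZero p] [NeZero (M * p)]

set_option maxHeartbeats 1600000 in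
/-- **`[E_{Mp} : E_M] = p + 1` at every base.** -/
theorem finrank_legHostA_of_isBase (hp : p.Prime) (hp2 : p ≠ 2) (hpM : ¬ p ∣ M)
    (A : ValuationSubring Ω) (hA : A.LiesOverPrime p) (K' : IntermediateField ℚ Ω)
    (hK' : haveI : Fact p.Prime := ⟨hp⟩; IsBase p K') :
    letI := (legHostA ↥K' M p).toRingHom.toAlgebra
    Module.finrank ↥(legE ↥K' M) ↥(legE ↥K' (M * p)) = p + 1 := by
  classical
  haveI : Fact p.Prime := ⟨hp⟩
  haveI : IsDiscreteValuationRing ↥(baseRing A K') := hK'.isDiscreteValuationRing hA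
  haveI : CharZero ↥(baseRing A K') := charZero_valuationSubring_of_algebraRat _
  have h2 : IsUnit (2 : ↥(baseRing A K')) := isUnit_ofNat_baseRing hA K' Nat.prime_two hp2
  obtain ⟨x, y, hbez⟩ := exists_bezout_of_prime_of_not_dvd hp hpM
  letI := baseToComplex K'
  haveI : IsAlgClosed (ResidueField ↥(baseRing A K')) := hK'.isAlgClosed_residueField hA
  obtain ⟨ϖ, hϖ⟩ := IsDiscreteValuationRing.exists_irreducible ↥(baseRing A K')
  have hmodel : SSModelLeg ↥(baseRing A K') ↥K' ϖ h2 hbez hp hp2 :=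
    ssModelLeg ↥(baseRing A K') ↥K' hϖ h2 hbez hp hp2
      (natCast_mem_span_uniformizer_baseRing hA K' hϖ)
      (geoHyps_legE_baseRing hA M hpM hK' hp2 hϖ)
  have D := legSSNormData ↥(baseRing A K') ↥K' hϖ hmodel
  exact D.degA

end Deg

section HeckeK

variable (K : Type*) [Field K] [Algebra ℚ K] (M p : ℕ) [NeZero M] [NeZero p] [NeZero (M * p)]

/-- **the Hecke operator `T_p` on the functions of `X₀(M)` over `K`**: `f ↦ N_α (β^* f)`. -/
noncomputable def heckeFunK (f : ↥(keyFq K M)) : ↥(keyFq K M) :=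
  normAlong (heckeAlphaBar K M p) (heckeBetaBar K M p f)

theorem heckeFunK_eq_norm (f : ↥(keyFq K M)) :
    heckeFunK K M p f = (letI := (keyFqA K M p).toRingHom.toAlgebra;
      Algebra.norm ↥(keyFq K M) (keyFqB K M p f)) := by
  rw [norm_keyFqA_eq_normAlong, keyFqB_eq_betaBar]
  rfl

/-- `T_p` of a constant multiple. -/
theorem exists_heckeFunK_algebraMap_mul :
    ∃ d : ℕ, ∀ (c : K) (f : ↥(keyFq K M)),
      heckeFunK K M p (algebraMap K ↥(keyFq K M) c * f) =
        algebraMap K ↥(keyFq K M) (c ^ d) * heckeFunK K M p f := by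
  obtain ⟨d, hd⟩ := exists_normAlong_algebraMap_mul (heckeAlphaBar K M p)
  refine ⟨d, fun c f => ?_⟩
  unfold heckeFunK
  rw [map_mul, AlgHom.commutes, hd]

/-- the iterates of `T_p` of a constant multiple. -/
theorem exists_heckeFunK_iterate_algebraMap_mul (j : ℕ) :
    ∃ d : ℕ, ∀ (c : K) (f : ↥(keyFq K M)),
      (heckeFunK K M p)^[j] (algebraMap K ↥(keyFq K M) c * f) =
        algebraMap K ↥(keyFq K M) (c ^ d) * (heckeFunK K M p)^[j] f := by
  induction j with
  | zero => exact ⟨1, fun c f => by simp⟩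
  | succ j ih =>
    obtain ⟨d₁, h1⟩ := ih
    obtain ⟨d₂, h2⟩ := exists_heckeFunK_algebraMap_mul K M p
    refine ⟨d₁ * d₂, fun c f => ?_⟩
    rw [Function.iterate_succ_apply', Function.iterate_succ_apply', h1, h2, pow_mul]

end HeckeK

section HeckeBase

variable (M p : ℕ) [NeZero M] [NeZero p] [NeZero (M * p)]

/-- **`T_p` on the host and on the level field are compatible, at every base.** -/
theorem legHeckeP_fullToLegE_of_isBase (hp : p.Prime) (hp2 : p ≠ 2) (hpM : ¬ p ∣ M)
    (A : ValuationSubring Ω) (hA : A.LiesOverPrime p) (K' : IntermediateField ℚ Ω)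
    (hK' : haveI : Fact p.Prime := ⟨hp⟩; IsBase p K') (f : ↥(keyFq ↥K' M)) :
    legHeckeP ↥K' M p hp hp2 (fullToLegE ↥K' M f) = fullToLegE ↥K' M (heckeFunK ↥K' M p f) := by
  letI := baseToComplex K'
  rw [heckeFunK_eq_norm]
  exact legHeckeP_fullToLegE ↥K' M p hp hp2 hpM
    (finrank_legHostA_of_isBase M p hp hp2 hpM A hA K' hK') f

theorem legHeckeP_iterate_fullToLegE_of_isBase (hp : p.Prime) (hp2 : p ≠ 2) (hpM : ¬ p ∣ M)
    (A : ValuationSubring Ω) (hA : A.LiesOverPrime p) (K' : IntermediateField ℚ Ω)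
    (hK' : haveI : Fact p.Prime := ⟨hp⟩; IsBase p K') (f : ↥(keyFq ↥K' M)) (j : ℕ) :
    (legHeckeP ↥K' M p hp hp2)^[j] (fullToLegE ↥K' M f) =
      fullToLegE ↥K' M ((heckeFunK ↥K' M p)^[j] f) := by
  induction j with
  | zero => rfl
  | succ j ih =>
    rw [Function.iterate_succ_apply', Function.iterate_succ_apply', ih,
      legHeckeP_fullToLegE_of_isBase M p hp hp2 hpM A hA K' hK']

/-- base change of `T_p`. -/
theorem keyFqBC_heckeFunK (hp : p.Prime) (K₁ : IntermediateField ℚ Ω) (f : ↥(keyFq ↥K₁ M)) :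
    keyFqBC M K₁ (heckeFunK ↥K₁ M p f) = heckeFunK Ω M p (keyFqBC M K₁ f) := by
  unfold heckeFunK
  rw [keyFqBC_normAlong_heckeAlphaBar M p K₁ hp, keyFqBC_heckeBetaBar]

theorem keyFqBC_heckeFunK_iterate (hp : p.Prime) (K₁ : IntermediateField ℚ Ω)
    (f : ↥(keyFq ↥K₁ M)) (j : ℕ) :
    keyFqBC M K₁ ((heckeFunK ↥K₁ M p)^[j] f) = (heckeFunK Ω M p)^[j] (keyFqBC M K₁ f) := by
  induction j with
  | zero => rfl
  | succ j ih =>
    rw [Function.iterate_succ_apply', Function.iterate_succ_apply', keyFqBC_heckeFunK M p hp, ih]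

end HeckeBase

end Fermat.Agent.NP
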