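/-
NP33 (S33) — helper2 — **[BASEP], part 8: the base of the top-depth case of (KEY-OLD)**.

`I = I_A` the inertia group at `A ∣ p`, `I' = {τ ∈ I | τ ζ_p = ζ_p}`.
* `exists_descent_finset_of_fixed` : an element of `Ω·F₀` fixed by a subset `H ⊆ I` is defined
  over every field `K₀ ⊇ K^♭` containing a certain finite set of `H`-fixed constants;
* `exists_zpow_valuation_eq_of_cycFixed` : the value of a non-zero constant fixed by `I'` is an
  integral power of `v (ζ_p - 1)` (orbit product over `I / I'`);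
* `exists_inertia_stable_base` : finitely many `I'`-fixed constants lie in a base `K' ∋ ζ_p`,
  stable under `I`, fixed by `I'`;
* `resStable` : the restriction of `σ ∈ G_ℚ` to a `σ`-stable field.
-/
import Mathlib
import Fermat.Agent.S35.DESC_helper2_Unr
import Fermat.Agent.TW.CycloRam_helper6
import Fermat.Agent.NP.KEY_helper2_Iface

set_option autoImplicit false
set_option linter.unusedSectionVars false
set_option linter.unusedVariables false
set_option linter.style.haveILetI false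
set_option synthInstance.maxHeartbeats 400000

open HahnSeries IntermediateField ModularCurve

namespace Fermat.Agent.NP

open Fermat.Agent.X0N Fermat.Agent.JA Fermat.Agent.SS Fermat.Agent.S35

/-- `Ω = AlgebraicClosure ℚ`. -/
local notation "Ω" => AlgebraicClosure ℚ

/-- the absolute Galois group. -/
local notation "GQ" => (AlgebraicClosure ℚ ≃ₐ[ℚ] AlgebraicClosure ℚ)

section Desc

variable {q : ℕ} [hq : Fact q.Prime] {A : ValuationSubring Ω}

set_option maxHeartbeats 800000 in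
/-- **descent to the fields containing finitely many fixed constants**: an element of `Ω·F₀` fixed
by a set `H` of elements of the inertia group at `A` is defined over every `K₀ ⊇ K^♭` containing
a certain finite set of `H`-fixed elements. -/
theorem exists_descent_finset_of_fixed (hA : A.LiesOverPrime q)
    (F₀ : IntermediateField ℚ (LaurentSeries ℚ)) {f : LaurentSeries Ω}
    (hf : f ∈ laurentBaseChange Ω F₀) (H : Set GQ)
    (hH : ∀ σ ∈ H, σ ∈ A.inertiaSubgroupIn ℚ)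
    (hfix : ∀ σ ∈ H, coeffMap ((σ : GQ) : Ω →+* Ω) f = f) :
    ∃ s : Finset Ω, (∀ y ∈ s, ∀ σ ∈ H, σ y = y) ∧
      ∀ K₀ : IntermediateField ℚ Ω, flatBase q ≤ K₀ → (∀ y ∈ s, y ∈ K₀) →
        ∃ f₀ ∈ laurentBaseChange ↥K₀ F₀, coeffMap (algebraMap ↥K₀ Ω) f₀ = f := by
  classical
  set B := Module.Basis.ofVectorSpace ↥(flatBase q) ↥(laurentBaseChange ↥(flatBase q) F₀) with hB
  obtain ⟨c, hc⟩ := mem_range_iotaSum_of_mem (K := ↥(flatBase q)) (L := Ω) F₀ B hf
  -- the coordinates are fixed by `H`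
  have hcfix : ∀ σ ∈ H, ∀ i, σ (c i) = c i := by
    intro σ hσ i
    refine apply_coord_eq F₀ B ((σ : GQ) : Ω →+* Ω)
      (fun a => inertia_apply_of_mem_flatBase hA (hH σ hσ) a.2) c ?_ i
    rw [hc]
    exact hfix σ hσ
  refine ⟨c.support.image c, ?_, ?_⟩
  · intro y hy σ hσ
    obtain ⟨i, -, rfl⟩ := Finset.mem_image.mp hy
    exact hcfix σ hσ i
  intro K₀ hle hs
  have hcK₀ : ∀ i, c i ∈ K₀ := by
    intro i
    by_cases hi : i ∈ c.support
    · exact hs _ (Finset.mem_image_of_mem c hi)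
    · rw [Finsupp.notMem_support_iff.mp hi]
      exact zero_mem _
  -- the descended element
  set φ : ↥(flatBase q) →+* ↥K₀ := (IntermediateField.inclusion hle).toRingHom with hφ
  set c₀ : _ →₀ ↥K₀ := c.mapRange (fun a => if h : a ∈ K₀ then (⟨a, h⟩ : ↥K₀) else 0)
    (by rw [dif_pos (zero_mem K₀)]; rfl) with hc₀
  set v₀ : _ → LaurentSeries ↥K₀ := fun i =>
    coeffMap φ ((B i : ↥(laurentBaseChange ↥(flatBase q) F₀)) : LaurentSeries ↥(flatBase q))
    with hv₀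
  refine ⟨iotaSum v₀ c₀, iotaSum_mem _ v₀ (fun i =>
    coeffMap_hom_mem_laurentBaseChange φ F₀ (B i).2) c₀, ?_⟩
  rw [coeffMap_iotaSum, ← hc]
  have h1 : (fun i => coeffMap (algebraMap ↥K₀ Ω) (v₀ i)) = iotaVec (L := Ω) F₀ B := by
    funext i
    rw [hv₀]
    show coeffMap (algebraMap ↥K₀ Ω) (coeffMap φ _) = _
    rw [coeffMap_coeffMap]
    rfl
  have h2 : c₀.mapRange (algebraMap ↥K₀ Ω) (map_zero _) = c := by
    ext i
    rw [Finsupp.mapRange_apply, hc₀, Finsupp.mapRange_apply, dif_pos (hcK₀ i)]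
    rfl
  rw [h1, h2]

end Desc

section Val

variable {p : ℕ} {A : ValuationSubring Ω}

/-- **the orbit product over `I / I'`**: there is `1 ≤ n ≤ p - 1` such that the `n`-th power of the
value of every non-zero constant fixed by `I' = {τ ∈ I_A | τ ζ = ζ}` is an integral power of
`v(p)`. -/
theorem exists_pow_valuation_eq_of_cycFixed (hp : p.Prime) (hA : A.LiesOverPrime p) {ζ : Ω}
    (hζ : IsPrimitiveRoot ζ p) :
    ∃ n : ℕ, 0 < n ∧ n ≤ p - 1 ∧ ∀ x : Ω, x ≠ 0 →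
      (∀ τ ∈ A.inertiaSubgroupIn ℚ, τ ζ = ζ → τ x = x) →
      ∃ m : ℤ, A.valuation x ^ n = A.valuation (p : Ω) ^ m := by
  classical
  set I := A.inertiaSubgroupIn ℚ with hI
  set C : Set Ω := {c | ∃ σ ∈ I, σ ζ = c} with hC
  have hCprim : ∀ c ∈ C, IsPrimitiveRoot c p := by
    rintro c ⟨σ, -, rfl⟩
    exact hζ.map_of_injective σ.injective
  have hCfin : C.Finite := by
    refine Set.Finite.subset (primitiveRoots p Ω).finite_toSet ?_
    intro c hc
    exact Finset.mem_coe.2 ((mem_primitiveRoots hp.pos).2 (hCprim c hc))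
  set Cf : Finset Ω := hCfin.toFinset with hCf
  have hmemCf : ∀ c, c ∈ Cf ↔ c ∈ C := fun c => hCfin.mem_toFinset
  have hζC : ζ ∈ C := ⟨1, one_mem _, rfl⟩
  have hcard_pos : 0 < Cf.card := Finset.card_pos.2 ⟨ζ, (hmemCf ζ).2 hζC⟩
  have hcard_le : Cf.card ≤ p - 1 := by
    have h1 : Cf ⊆ primitiveRoots p Ω := fun c hc =>
      (mem_primitiveRoots hp.pos).2 (hCprim c ((hmemCf c).1 hc))
    have h2 := Finset.card_le_card h1
    rwa [hζ.card_primitiveRoots, Nat.totient_prime hp] at h2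
  -- representatives
  have hrep : ∀ c : Ω, ∃ σ : GQ, c ∈ C → σ ∈ I ∧ σ ζ = c := by
    intro c
    by_cases hc : c ∈ C
    · obtain ⟨σ, hσ, hσc⟩ := hc
      exact ⟨σ, fun _ => ⟨hσ, hσc⟩⟩
    · exact ⟨1, fun h => absurd h hc⟩
  choose rep hrep using hrep
  refine ⟨Cf.card, hcard_pos, hcard_le, fun x hx hfix => ?_⟩
  set N : Ω := ∏ c ∈ Cf, rep c x with hN
  have hN0 : N ≠ 0 := Finset.prod_ne_zero_iff.2 fun c _ => (map_ne_zero _).2 hx
  have hmapC : ∀ τ ∈ I, ∀ c ∈ C, τ c ∈ C := by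
    intro τ hτ c hc
    obtain ⟨σ, hσ, rfl⟩ := hc
    exact ⟨τ * σ, mul_mem hτ hσ, rfl⟩
  -- the key relation
  have hkey : ∀ τ ∈ I, ∀ c ∈ C, τ (rep c x) = rep (τ c) x := by
    intro τ hτ c hc
    have hτc : τ c ∈ C := hmapC τ hτ c hc
    obtain ⟨h1, h2⟩ := hrep c hc
    obtain ⟨h3, h4⟩ := hrep (τ c) hτc
    have hρ : ((rep (τ c))⁻¹ * τ * rep c) ∈ I := mul_mem (mul_mem (inv_mem h3) hτ) h1
    have hρζ : ((rep (τ c))⁻¹ * τ * rep c) ζ = ζ := by
      rw [AlgEquiv.mul_apply, AlgEquiv.mul_apply, h2]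
      have h5 : (rep (τ c))⁻¹ (rep (τ c) ζ) = ζ := by
        rw [← AlgEquiv.mul_apply, inv_mul_cancel, AlgEquiv.one_apply]
      rw [h4] at h5
      exact h5
    have h5 := hfix _ hρ hρζ
    rw [AlgEquiv.mul_apply, AlgEquiv.mul_apply] at h5
    have h6 := congrArg (rep (τ c)) h5
    rwa [← AlgEquiv.mul_apply, mul_inv_cancel, AlgEquiv.one_apply] at h6
  have hfixN : ∀ τ ∈ I, τ N = N := by
    intro τ hτ
    rw [hN, map_prod]
    refine Finset.prod_bij' (fun c _ => τ c) (fun c _ => τ⁻¹ c) ?_ ?_ ?_ ?_ ?_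
    · intro c hc
      exact (hmemCf _).2 (hmapC τ hτ c ((hmemCf c).1 hc))
    · intro c hc
      exact (hmemCf _).2 (hmapC τ⁻¹ (inv_mem hτ) c ((hmemCf c).1 hc))
    · intro c hc
      show τ⁻¹ (τ c) = c
      rw [← AlgEquiv.mul_apply, inv_mul_cancel, AlgEquiv.one_apply]
    · intro c hc
      show τ (τ⁻¹ c) = c
      rw [← AlgEquiv.mul_apply, mul_inv_cancel, AlgEquiv.one_apply]
    · intro c hc
      exact hkey τ hτ c ((hmemCf c).1 hc)
  obtain ⟨m, hm⟩ := Fermat.Agent.EC.exists_zpow_valuation_eq_of_fixed hp hA N hN0 hfixN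
  refine ⟨m, ?_⟩
  rw [← hm, hN, map_prod]
  rw [Finset.prod_congr rfl (fun c hc =>
    Fermat.Agent.EC.valuation_map_eq_of_mem_decompositionSubgroup hp hA
      (Fermat.Agent.EC.inertiaSubgroupIn_le_decompositionSubgroup' A
        (hrep c ((hmemCf c).1 hc)).1) x), Finset.prod_const]

/-- **the values of the constants fixed by `I'`** are the integral powers of `v(ζ_p - 1)`. -/
theorem exists_zpow_valuation_eq_of_cycFixed (hp : p.Prime) (hA : A.LiesOverPrime p) {ζ : Ω}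
    (hζ : IsPrimitiveRoot ζ p) (x : Ω) (hx : x ≠ 0)
    (hfix : ∀ τ ∈ A.inertiaSubgroupIn ℚ, τ ζ = ζ → τ x = x) :
    ∃ j : ℤ, A.valuation x = A.valuation (ζ - 1) ^ j := by
  obtain ⟨n, hn0, hnle, hn⟩ := exists_pow_valuation_eq_of_cycFixed hp hA hζ
  set c := A.valuation (ζ - 1) with hc
  have hζ1 : ζ - 1 ≠ 0 := sub_ne_zero.2 (hζ.ne_one hp.one_lt)
  have hc0 : c ≠ 0 := (Valuation.ne_zero_iff _).2 hζ1
  have hcp : c ^ (p - 1) = A.valuation (p : Ω) :=
    Fermat.Agent.TW.valuation_sub_one_pow_eq hp hζ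
  have hc1 : c < 1 := by
    by_contra hge
    rw [not_lt] at hge
    have h1 : 1 ≤ c ^ (p - 1) := one_le_pow₀ hge
    rw [hcp] at h1
    exact absurd (valuation_prime_lt_one (ℓ := p) (hℓ := ⟨hp⟩) hA) (not_lt.2 h1)
  -- `n = p - 1`
  obtain ⟨m₀, hm₀⟩ := hn (ζ - 1) hζ1 (fun τ _ hτ => by rw [map_sub, hτ, map_one])
  have hcpos : 0 < c := zero_lt_iff.2 hc0
  have hinj : Function.Injective (fun k : ℤ => c ^ k) :=
    zpow_right_injective₀ hcpos (ne_of_lt hc1)
  have hnm : (n : ℤ) = ((p - 1 : ℕ) : ℤ) * m₀ := by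
    apply hinj
    show c ^ (n : ℤ) = c ^ (((p - 1 : ℕ) : ℤ) * m₀)
    rw [zpow_natCast, zpow_mul, zpow_natCast, hcp, ← hm₀]
  have hm₀1 : m₀ = 1 := by
    have h1 : (0 : ℤ) < n := by exact_mod_cast hn0
    have h2 : (n : ℤ) ≤ ((p - 1 : ℕ) : ℤ) := by exact_mod_cast hnle
    have h3 : (0 : ℤ) < ((p - 1 : ℕ) : ℤ) := lt_of_lt_of_le h1 h2
    have h4 : 0 < m₀ := by
      by_contra h
      rw [not_lt] at h
      nlinarith
    have h5 : m₀ ≤ 1 := by
      by_contra h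
      rw [not_le] at h
      nlinarith
    omega
  have hnp : n = p - 1 := by
    rw [hm₀1, mul_one] at hnm
    exact_mod_cast hnm
  obtain ⟨m, hm⟩ := hn x hx hfix
  refine ⟨m, ?_⟩
  have h1 : A.valuation x ^ (p - 1) = (c ^ m) ^ (p - 1) := by
    rw [← hnp, hm, ← hcp, ← zpow_natCast (c ^ m), ← zpow_mul, mul_comm, zpow_mul, zpow_natCast,
      hnp]
  exact (pow_left_inj₀ zero_le zero_le (Nat.sub_pos_of_lt hp.one_lt).ne').mp h1

end Val

section Stab

/-- `I' = {τ ∈ I_A | τ ζ = ζ}`. -/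
def cycStab (A : ValuationSubring Ω) (ζ : Ω) : Subgroup GQ where
  carrier := {τ | τ ∈ A.inertiaSubgroupIn ℚ ∧ τ ζ = ζ}
  mul_mem' := by
    rintro a b ⟨ha, haζ⟩ ⟨hb, hbζ⟩
    exact ⟨mul_mem ha hb, by rw [AlgEquiv.mul_apply, hbζ, haζ]⟩
  one_mem' := ⟨one_mem _, rfl⟩
  inv_mem' := by
    rintro a ⟨ha, haζ⟩
    refine ⟨inv_mem ha, ?_⟩
    have h1 : a⁻¹ (a ζ) = ζ := by rw [← AlgEquiv.mul_apply, inv_mul_cancel, AlgEquiv.one_apply]
    rwa [haζ] at h1

theorem mem_cycStab {A : ValuationSubring Ω} {ζ : Ω} {τ : GQ} :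
    τ ∈ cycStab A ζ ↔ τ ∈ A.inertiaSubgroupIn ℚ ∧ τ ζ = ζ := Iff.rfl

variable {p : ℕ} {A : ValuationSubring Ω}

/-- `I'` is normalised by `I`. -/
theorem conj_mem_cycStab {ζ : Ω} (hζ : IsPrimitiveRoot ζ p) (hp : p.Prime) {σ τ : GQ}
    (hσ : σ ∈ A.inertiaSubgroupIn ℚ) (hτ : τ ∈ cycStab A ζ) : σ⁻¹ * τ * σ ∈ cycStab A ζ := by
  refine ⟨mul_mem (mul_mem (inv_mem hσ) hτ.1) hσ, ?_⟩
  haveI : NeZero p := ⟨hp.ne_zero⟩
  have hσζ : (σ ζ) ^ p = 1 := by rw [← map_pow, hζ.pow_eq_one, map_one]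
  obtain ⟨a, -, ha⟩ := hζ.eq_pow_of_pow_eq_one hσζ
  rw [AlgEquiv.mul_apply, AlgEquiv.mul_apply, ← ha, map_pow, hτ.2, ha, ← AlgEquiv.mul_apply,
    inv_mul_cancel, AlgEquiv.one_apply]

set_option maxHeartbeats 800000 in
/-- **the stable base**: finitely many constants fixed by `I'` lie in a base `K' ∋ ζ_p`, stable
under `I` and fixed by `I'`. -/
theorem exists_inertia_stable_base (hp : p.Prime) (hA : A.LiesOverPrime p) {ζ : Ω}
    (hζ : IsPrimitiveRoot ζ p) (s : Finset Ω)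
    (hs : ∀ y ∈ s, ∀ τ ∈ A.inertiaSubgroupIn ℚ, τ ζ = ζ → τ y = y) :
    ∃ K' : IntermediateField ℚ Ω, (haveI : Fact p.Prime := ⟨hp⟩; IsBase p K') ∧ ζ ∈ K' ∧
      (∀ y ∈ s, y ∈ K') ∧ (∀ σ ∈ A.inertiaSubgroupIn ℚ, ∀ x ∈ K', σ x ∈ K') ∧
      (∀ τ ∈ A.inertiaSubgroupIn ℚ, τ ζ = ζ → ∀ x ∈ K', τ x = x) := by
  classical
  haveI : Fact p.Prime := ⟨hp⟩
  set I := A.inertiaSubgroupIn ℚ with hI
  set s' : Finset Ω := insert ζ s with hs'
  have hs'fix : ∀ y ∈ s', ∀ τ ∈ cycStab A ζ, τ y = y := by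
    intro y hy τ hτ
    rcases Finset.mem_insert.1 hy with rfl | hy
    · exact hτ.2
    · exact hs y hy τ hτ.1 hτ.2
  set T : Set Ω := {z | ∃ σ ∈ I, ∃ y ∈ s', σ y = z} with hT
  have hTfin : T.Finite := by
    refine Set.Finite.subset (Set.Finite.biUnion s'.finite_toSet
      (fun y _ => (minpoly ℚ y).rootSet_finite Ω)) ?_
    rintro z ⟨σ, -, y, hy, rfl⟩
    refine Set.mem_biUnion (Finset.mem_coe.2 hy) ?_
    rw [Polynomial.mem_rootSet]
    have hint : IsIntegral ℚ y := (Algebra.IsAlgebraic.isAlgebraic y).isIntegral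
    refine ⟨minpoly.ne_zero hint, ?_⟩
    rw [← minpoly.algEquiv_eq σ y]
    exact minpoly.aeval ℚ (σ y)
  haveI : Finite T := hTfin.to_subtype
  set F : IntermediateField ℚ Ω := IntermediateField.adjoin ℚ T with hF
  haveI : FiniteDimensional ℚ ↥F :=
    IntermediateField.finiteDimensional_adjoin
      (fun x _ => (Algebra.IsAlgebraic.isAlgebraic x).isIntegral)
  set K' : IntermediateField ℚ Ω := flatBase p ⊔ F with hK'
  have hTK : ∀ z ∈ T, z ∈ K' := fun z hz =>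
    (le_sup_right : F ≤ K') (IntermediateField.subset_adjoin ℚ _ hz)
  have hs'T : ∀ y ∈ s', y ∈ T := fun y hy => ⟨1, one_mem _, y, hy, rfl⟩
  refine ⟨K', ⟨F, inferInstance, rfl⟩, hTK ζ (hs'T ζ (Finset.mem_insert_self _ _)),
    fun y hy => hTK y (hs'T y (Finset.mem_insert_of_mem hy)), ?_, ?_⟩
  · -- stability
    intro σ hσ
    have hle : K' ≤ K'.comap (σ : Ω →ₐ[ℚ] Ω) := by
      refine sup_le ?_ ?_
      · intro x hx
        show σ x ∈ K'
        rw [inertia_apply_of_mem_flatBase hA hσ hx]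
        exact (le_sup_left : flatBase p ≤ K') hx
      · rw [hF, IntermediateField.adjoin_le_iff]
        rintro z ⟨σ', hσ', y, hy, rfl⟩
        show σ (σ' y) ∈ K'
        exact hTK _ ⟨σ * σ', mul_mem hσ hσ', y, hy, rfl⟩
    exact fun x hx => hle hx
  · -- fixed by `I'`
    have hle : K' ≤ IntermediateField.fixedField (cycStab A ζ) := by
      refine sup_le ?_ ?_
      · intro x hx
        rw [IntermediateField.mem_fixedField_iff]
        exact fun τ hτ => inertia_apply_of_mem_flatBase hA hτ.1 hx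
      · rw [hF, IntermediateField.adjoin_le_iff]
        rintro z ⟨σ, hσ, y, hy, rfl⟩
        show σ y ∈ IntermediateField.fixedField (cycStab A ζ)
        rw [IntermediateField.mem_fixedField_iff]
        intro τ hτ
        have h1 := hs'fix y hy _ (conj_mem_cycStab hζ hp hσ hτ)
        rw [AlgEquiv.mul_apply, AlgEquiv.mul_apply] at h1
        have h2 := congrArg σ h1
        rwa [← AlgEquiv.mul_apply, mul_inv_cancel, AlgEquiv.one_apply] at h2
    intro τ hτ hτζ x hx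
    exact (IntermediateField.mem_fixedField_iff _ _).1 (hle hx) τ ⟨hτ, hτζ⟩

end Stab

section Res

/-- **the restriction of `σ ∈ G_ℚ` to a `σ`-stable field.** -/
noncomputable def resStable (K' : IntermediateField ℚ Ω) (σ : GQ) (h1 : ∀ x ∈ K', σ x ∈ K')
    (h2 : ∀ x ∈ K', σ⁻¹ x ∈ K') : ↥K' ≃ₐ[ℚ] ↥K' where
  toFun x := ⟨σ x, h1 x x.2⟩
  invFun x := ⟨σ⁻¹ x, h2 x x.2⟩
  left_inv x := Subtype.ext (by
    show σ⁻¹ (σ (x : Ω)) = x
    rw [← AlgEquiv.mul_apply, inv_mul_cancel, AlgEquiv.one_apply])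
  right_inv x := Subtype.ext (by
    show σ (σ⁻¹ (x : Ω)) = x
    rw [← AlgEquiv.mul_apply, mul_inv_cancel, AlgEquiv.one_apply])
  map_mul' x y := Subtype.ext (map_mul σ _ _)
  map_add' x y := Subtype.ext (map_add σ _ _)
  commutes' r := Subtype.ext (σ.commutes r)

theorem coe_resStable (K' : IntermediateField ℚ Ω) (σ : GQ) (h1 : ∀ x ∈ K', σ x ∈ K')
    (h2 : ∀ x ∈ K', σ⁻¹ x ∈ K') (x : ↥K') :
    ((resStable K' σ h1 h2 x : ↥K') : Ω) = σ (x : Ω) := rfl

theorem algebraMap_resStable (K' : IntermediateField ℚ Ω) (σ : GQ) (h1 : ∀ x ∈ K', σ x ∈ K')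
    (h2 : ∀ x ∈ K', σ⁻¹ x ∈ K') (x : ↥K') :
    algebraMap ↥K' Ω (resStable K' σ h1 h2 x) = σ (algebraMap ↥K' Ω x) := rfl

end Res

end Fermat.Agent.NP
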