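import Mathlib
import Fermat.Agent.JA.VALGLUE_helper8

/-!
# NP33 — helper7 — [HOSTP-TL]: weak approximation for two discrete valuation subrings

`exists_val_eq_one_val_lt_one` : a unit of `V₁` which is a non-unit of `V₂`;
`exists_val_eq_one_val_div_eq_one` : (common uniformizer `ϖ`) a unit of `V₁` which is a uniformizer
of `V₂`.
-/

set_option autoImplicit false
set_option linter.unusedSectionVars false
set_option linter.style.haveILetI false

namespace Fermat.Agent.NP

open Fermat.Agent.JA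

section Approx

variable {F : Type*} [Field F] (V₁ V₂ : ValuationSubring F)

/-- two distinct discrete valuation subrings: a unit of the first which is a non-unit of the
second. -/
theorem exists_val_eq_one_val_lt_one [IsDiscreteValuationRing ↥V₁] [IsDiscreteValuationRing ↥V₂]
    (hne : V₁ ≠ V₂) (h1 : V₁ ≠ ⊤) (h2 : V₂ ≠ ⊤) :
    ∃ α : F, V₁.valuation α = 1 ∧ V₂.valuation α < 1 := by
  have h12 : ¬ V₁ ≤ V₂ := by
    intro hle
    rcases eq_or_eq_top_of_le_of_isDiscreteValuationRing V₁ V₂ hle with h | h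
    · exact hne h.symm
    · exact h2 h
  have h21 : ¬ V₂ ≤ V₁ := by
    intro hle
    rcases eq_or_eq_top_of_le_of_isDiscreteValuationRing V₂ V₁ hle with h | h
    · exact hne h
    · exact h1 h
  obtain ⟨a, ha1, ha2⟩ := SetLike.not_le_iff_exists.mp h12
  obtain ⟨b, hb2, hb1⟩ := SetLike.not_le_iff_exists.mp h21
  have va1 : V₁.valuation a ≤ 1 := (ValuationSubring.valuation_le_one_iff _ _).mpr ha1
  have va2 : 1 < V₂.valuation a := by
    rw [← not_le, ValuationSubring.valuation_le_one_iff]; exact ha2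
  have vb2 : V₂.valuation b ≤ 1 := (ValuationSubring.valuation_le_one_iff _ _).mpr hb2
  have vb1 : 1 < V₁.valuation b := by
    rw [← not_le, ValuationSubring.valuation_le_one_iff]; exact hb1
  have hb0 : b ≠ 0 := by
    rintro rfl
    exact hb1 V₁.zero_mem
  have vb2pos : 0 < V₂.valuation b := zero_lt_iff.mpr ((Valuation.ne_zero_iff _).mpr hb0)
  have vb1pos : 0 < V₁.valuation b := lt_trans zero_lt_one vb1
  set c := a * b⁻¹ with hc
  have vc1 : V₁.valuation c < 1 := by
    rw [hc, map_mul, map_inv₀, ← div_eq_mul_inv, div_lt_one₀ vb1pos]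
    exact lt_of_le_of_lt va1 vb1
  have vc2 : 1 < V₂.valuation c := by
    rw [hc, map_mul, map_inv₀, ← div_eq_mul_inv, lt_div_iff₀ vb2pos, one_mul]
    exact lt_of_le_of_lt vb2 va2
  refine ⟨(1 + c)⁻¹, ?_, ?_⟩
  · rw [map_inv₀, Valuation.map_one_add_of_lt _ vc1, inv_one]
  · have h3 : V₂.valuation (1 + c) = V₂.valuation c := by
      apply Valuation.map_add_eq_of_lt_right
      rw [map_one]; exact vc2
    rw [map_inv₀, h3]
    exact inv_lt_one_of_one_lt₀ vc2

/-- two distinct discrete valuation subrings with a common uniformizer `ϖ`: an element which is a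
unit of the first and a uniformizer of the second. -/
theorem exists_val_eq_one_val_div_eq_one [IsDiscreteValuationRing ↥V₁]
    [IsDiscreteValuationRing ↥V₂] (hne : V₁ ≠ V₂) (h1 : V₁ ≠ ⊤) (h2 : V₂ ≠ ⊤) {ϖ : F}
    (hϖ0 : ϖ ≠ 0) (hϖ1 : V₁.valuation ϖ < 1)
    (he2 : ∀ x : F, V₂.valuation x < 1 → x * ϖ⁻¹ ∈ V₂) :
    ∃ y : F, V₁.valuation y = 1 ∧ V₂.valuation (y * ϖ⁻¹) = 1 := by
  obtain ⟨α, hα1, hα2⟩ := exists_val_eq_one_val_lt_one V₁ V₂ hne h1 h2
  refine ⟨α ^ 2 + (1 - α ^ 2) * ϖ, ?_, ?_⟩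
  · have h3 : V₁.valuation ((1 - α ^ 2) * ϖ) < V₁.valuation (α ^ 2) := by
      rw [map_mul, map_pow, hα1, one_pow]
      have h4 : V₁.valuation (1 - α ^ 2) ≤ 1 := by
        refine le_trans (Valuation.map_sub _ _ _) (max_le ?_ ?_)
        · rw [map_one]
        · rw [map_pow, hα1, one_pow]
      calc V₁.valuation (1 - α ^ 2) * V₁.valuation ϖ ≤ 1 * V₁.valuation ϖ :=
            mul_le_mul_left h4 _
        _ = V₁.valuation ϖ := one_mul _
        _ < 1 := hϖ1
    rw [Valuation.map_add_eq_of_lt_left _ h3, map_pow, hα1, one_pow]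
  · have e : (α ^ 2 + (1 - α ^ 2) * ϖ) * ϖ⁻¹ = α * (α * ϖ⁻¹) + (1 - α ^ 2) := by
      field_simp
    have h3 : V₂.valuation (α * (α * ϖ⁻¹)) < 1 := by
      rw [map_mul]
      have h4 : V₂.valuation (α * ϖ⁻¹) ≤ 1 :=
        (ValuationSubring.valuation_le_one_iff _ _).mpr (he2 α hα2)
      calc V₂.valuation α * V₂.valuation (α * ϖ⁻¹) ≤ V₂.valuation α * 1 :=
            mul_le_mul_right h4 _
        _ = V₂.valuation α := mul_one _
        _ < 1 := hα2
    have h5 : V₂.valuation (1 - α ^ 2) = 1 := by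
      apply Valuation.map_one_sub_of_lt
      rw [map_pow]
      exact pow_lt_one₀ zero_le hα2 (by norm_num)
    rw [e, Valuation.map_add_eq_of_lt_right _ (by rw [h5]; exact h3), h5]

end Approx

end Fermat.Agent.NP
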