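import Mathlib
import Fermat.Agent.NP.HOSTP_helper7_TwoLevelHost
import Fermat.Agent.NP.HOSTP_helper5_Kum
import Fermat.Agent.SS.UNODE_helper6_Abs
import Fermat.Agent.NP.HOSTP_helper7_Approx
import Fermat.Agent.SS.VAL3_helper7_Insep

/-!
# NP33 — helper7 — [HOSTP-TL], part 3: Theorem A on an `SSModel`, in `ValDepth` language

* `hostDepthBase_depthGE_iff` : on a sheet of `hostDepthBase` with ring `W.toSubring`,
  `S.DepthGE f i ↔ ∃ c ≠ 0, ValDepth π p W i f c`;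
* `isUnitIn_toSubring_iff` : `IsUnitIn W.toSubring f ↔ W.valuation f = 1`;
* **`SSModel.thmA_p`** : a unit `f` along both sheets of level `M p`, of depth `≥ 1` along both,
  whose norms along `A` and `B` are constants times `p`-th powers, has depth `≥ N` along both
  sheets, for every `N`.
-/

set_option autoImplicit false
set_option linter.unusedSectionVars false
set_option linter.style.haveILetI false

open IsLocalRing

namespace Fermat.Agent.NP

open Fermat.Agent.SS Fermat.Agent.JA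

section Bridge

variable {R : Type*} [CommRing R] [IsDomain R] [IsDiscreteValuationRing R]
  {K₁ : Type*} [Field K₁] [Algebra R K₁] [IsFractionRing R K₁]
  {K : Type*} [Field K] [Algebra K₁ K] [Algebra R K] [IsScalarTower R K₁ K]
  {E : Type*} [Field E] [Algebra K E] [Algebra K₁ E] [IsScalarTower K₁ K E]
  [Algebra R E] [IsScalarTower R K E]
  [IsAlgClosed (IsLocalRing.ResidueField R)] {π : R}
  (hπ : Irreducible π) {p : ℕ} (hp : p.Prime) {e₁ : ℕ} (he₁ : 0 < e₁) {ε : Rˣ}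
  (hpe : (p : R) = ε * π ^ e₁)

theorem isUnitIn_toSubring_iff {E : Type*} [Field E] (W : ValuationSubring E) {f : E} :
    IsUnitIn W.toSubring f ↔ W.valuation f = 1 := by
  constructor
  · rintro ⟨h1, h2, h3⟩
    exact valuation_eq_one_of_mem_of_inv_mem h3 h1 h2
  · intro h
    have h0 : f ≠ 0 := by
      rintro rfl
      rw [map_zero] at h
      exact zero_ne_one h
    refine ⟨(ValuationSubring.valuation_le_one_iff W f).mp h.le, ?_, h0⟩
    have : W.valuation f⁻¹ ≤ 1 := by rw [map_inv₀, h, inv_one]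
    exact (ValuationSubring.valuation_le_one_iff W _).mp this

/-- **`DepthGE` on a host sheet is `ValDepth` with some non-zero constant.** -/
theorem hostDepthBase_depthGE_iff (S : Sheet (hostDepthBase K₁ K E hπ hp he₁ hpe))
    (W : ValuationSubring E) (hW : S.W = W.toSubring) {f : E} {i : ℕ} :
    S.DepthGE f i ↔ ∃ c : K₁, c ≠ 0 ∧ ValDepth π p W i f c := by
  rw [Sheet.depthGE_iff]
  constructor
  · rintro ⟨c, hc, γ, s, hc0, hγ0, hs, e⟩
    rw [hostDepthBase_K₁, RingHom.mem_fieldRange] at hc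
    obtain ⟨c', rfl⟩ := hc
    refine ⟨c', fun h0 => hc0 (by rw [h0, map_zero]), γ, hγ0, s, ?_, ?_⟩
    · rw [hW] at hs
      exact hs
    · rw [e, hostDepthBase_π]
  · rintro ⟨c, hc0, γ, hγ0, s, hs, e⟩
    refine ⟨algebraMap K₁ E c, ?_, γ, s, (map_ne_zero _).mpr hc0, hγ0, ?_, ?_⟩
    · rw [hostDepthBase_K₁, RingHom.mem_fieldRange]
      exact ⟨c, rfl⟩
    · rw [hW]
      exact hs
    · rw [e, hostDepthBase_π]

end Bridge

section ThmA

variable {R : Type*} [CommRing R] [IsDomain R] [IsDiscreteValuationRing R] [CharZero R]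
  {K₁ : Type*} [Field K₁] [Algebra R K₁] [IsFractionRing R K₁]
  {KM : Type*} [Field KM] [Algebra K₁ KM] [Algebra R KM] [IsScalarTower R K₁ KM]
  {EM : Type*} [Field EM] [Algebra KM EM] [Algebra K₁ EM] [IsScalarTower K₁ KM EM] [Algebra R EM]
  [IsScalarTower R KM EM]
  {KN : Type*} [Field KN] [Algebra K₁ KN] [Algebra R KN] [IsScalarTower R K₁ KN]
  {EN : Type*} [Field EN] [Algebra KN EN] [Algebra K₁ EN] [IsScalarTower K₁ KN EN] [Algebra R EN]
  [IsScalarTower R KN EN] [FiniteDimensional KN EN]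
  {π : R} {p n : ℕ} {S : Finset R} {t : KM} {jM : EM} {j : KN} {A B : EM →+* EN}
  {VM : ValuationSubring EM} {Winf W0 : ValuationSubring EN}
  [IsAlgClosed (IsLocalRing.ResidueField R)]

/-- **Theorem A on an `SSModel`** (new + split ⇒ toric), in `ValDepth` language. -/
theorem SSModel.thmA_p (h : SSModel K₁ π p n S t jM j A B VM Winf W0)
    {e₁ : ℕ} (he₁ : 0 < e₁) {ε : Rˣ} (hpe : (p : R) = ε * π ^ e₁) {NA NB : EN →* EM}
    (D : SSNormData p A B VM Winf W0 NA NB) {f : EN}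
    (hfi : Winf.valuation f = 1) (hfz : W0.valuation f = 1)
    (h1i : ∃ c : K₁, c ≠ 0 ∧ ValDepth π p Winf 1 f c)
    (h1z : ∃ c : K₁, c ≠ 0 ∧ ValDepth π p W0 1 f c)
    (hNA : ∃ (u : K₁) (g : EM), u ≠ 0 ∧ g ≠ 0 ∧ NA f = algebraMap K₁ EM u * g ^ p)
    (hNB : ∃ (u : K₁) (g : EM), u ≠ 0 ∧ g ≠ 0 ∧ NB f = algebraMap K₁ EM u * g ^ p) (N : ℕ) :
    (∃ c : K₁, c ≠ 0 ∧ ValDepth π p Winf N f c) ∧
      (∃ c : K₁, c ≠ 0 ∧ ValDepth π p W0 N f c) := by
  set T := SSModel.twoLevel h he₁ hpe D with hT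
  have hπ := h.geo.irreducible
  have hp := h.q_prime
  have bi : ∀ {g : EN} {i : ℕ}, T.Sinf.DepthGE g i ↔ ∃ c : K₁, c ≠ 0 ∧ ValDepth π p Winf i g c :=
    fun {g i} => hostDepthBase_depthGE_iff hπ hp he₁ hpe
      (SSModel.sheetInf hp he₁ hpe h hπ) Winf rfl
  have bz : ∀ {g : EN} {i : ℕ}, T.S0.DepthGE g i ↔ ∃ c : K₁, c ≠ 0 ∧ ValDepth π p W0 i g c :=
    fun {g i} => hostDepthBase_depthGE_iff hπ hp he₁ hpe
      (SSModel.sheetZero hp he₁ hpe h hπ) W0 rfl
  have hN : ∀ {N' : EN →* EM}, (∃ (u : K₁) (g : EM), u ≠ 0 ∧ g ≠ 0 ∧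
      N' f = algebraMap K₁ EM u * g ^ p) →
      ∃ u ∈ T.BM.K₁, ∃ g : EM, u ≠ 0 ∧ g ≠ 0 ∧ N' f = u * g ^ p := by
    rintro N' ⟨u, g, hu, hg, e⟩
    exact ⟨algebraMap K₁ EM u, ⟨u, rfl⟩, g, (map_ne_zero _).mpr hu, hg, e⟩
  have key := T.thmA (f := f) ((isUnitIn_toSubring_iff Winf).mpr hfi)
    ((isUnitIn_toSubring_iff W0).mpr hfz) (bi.mpr h1i) (bz.mpr h1z) (hN hNA) (hN hNB) N
  exact ⟨bi.mp key.1, bz.mp key.2⟩


omit [IsAlgClosed (IsLocalRing.ResidueField R)] in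
/-- the sheets of level `M p` are discrete valuation rings. -/
theorem SSNormData.isDiscreteValuationRing_inf (h : SSModel K₁ π p n S t jM j A B VM Winf W0)
    {NA NB : EN →* EM} (D : SSNormData p A B VM Winf W0 NA NB) :
    IsDiscreteValuationRing ↥Winf := by
  haveI := SSModel.isDiscreteValuationRing_VM h
  haveI : CharZero EM := charZero_of_injective_algebraMap (SSModel_injective_algebraMap_R h)
  exact isDiscreteValuationRing_of_comap A VM D.finA
    (by letI := A.toAlgebra; haveI := D.finA; exact Algebra.IsAlgebraic.isSeparable_of_perfectField)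
    h.comap_A_inf

omit [IsAlgClosed (IsLocalRing.ResidueField R)] in
theorem SSNormData.isDiscreteValuationRing_zero (h : SSModel K₁ π p n S t jM j A B VM Winf W0)
    {NA NB : EN →* EM} (D : SSNormData p A B VM Winf W0 NA NB) :
    IsDiscreteValuationRing ↥W0 := by
  haveI := SSModel.isDiscreteValuationRing_VM h
  haveI : CharZero EM := charZero_of_injective_algebraMap (SSModel_injective_algebraMap_R h)
  exact isDiscreteValuationRing_of_comap A VM D.finA
    (by letI := A.toAlgebra; haveI := D.finA; exact Algebra.IsAlgebraic.isSeparable_of_perfectField)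
    h.comap_A_zero

/-- every non-zero function is `π ^ a` times a unit along the sheet `∞`. -/
theorem SSModel.exists_zpow_val_eq_one_inf (h : SSModel K₁ π p n S t jM j A B VM Winf W0)
    {e₁ : ℕ} (he₁ : 0 < e₁) {ε : Rˣ} (hpe : (p : R) = ε * π ^ e₁) {f : EN} (hf : f ≠ 0) :
    ∃ a : ℤ, Winf.valuation (f * (algebraMap R EN π ^ a)⁻¹) = 1 := by
  obtain ⟨a, u, hu, hu', e⟩ :=
    (SSModel.sheetInf h.q_prime he₁ hpe h h.geo.irreducible).unif f hf
  refine ⟨a, ?_⟩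
  have hπ0 := SSModel_pi_ne_zero h
  have hu0 : u ≠ 0 := by
    rintro rfl
    rw [mul_zero] at e
    exact hf e
  have e' : f * (algebraMap R EN π ^ a)⁻¹ = u := by
    rw [e, hostDepthBase_π]
    field_simp
  rw [e']
  exact valuation_eq_one_of_mem_of_inv_mem hu0 hu hu'

/-- every non-zero function is `π ^ b` times a unit along the sheet `0`. -/
theorem SSModel.exists_zpow_val_eq_one_zero (h : SSModel K₁ π p n S t jM j A B VM Winf W0)
    {e₁ : ℕ} (he₁ : 0 < e₁) {ε : Rˣ} (hpe : (p : R) = ε * π ^ e₁) {f : EN} (hf : f ≠ 0) :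
    ∃ b : ℤ, W0.valuation (f * (algebraMap R EN π ^ b)⁻¹) = 1 := by
  obtain ⟨a, u, hu, hu', e⟩ :=
    (SSModel.sheetZero h.q_prime he₁ hpe h h.geo.irreducible).unif f hf
  refine ⟨a, ?_⟩
  have hπ0 := SSModel_pi_ne_zero h
  have hu0 : u ≠ 0 := by
    rintro rfl
    rw [mul_zero] at e
    exact hf e
  have e' : f * (algebraMap R EN π ^ a)⁻¹ = u := by
    rw [e, hostDepthBase_π]
    field_simp
  rw [e']
  exact valuation_eq_one_of_mem_of_inv_mem hu0 hu hu'

omit [IsAlgClosed (IsLocalRing.ResidueField R)] in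
/-- **(R1), unit normalisation**: if the orders of `f` along the two sheets are congruent modulo
`p`, then `f` is a power of `π` times a `p`-th power times a unit along BOTH sheets. -/
theorem SSModel.exists_unit_normalisation (h : SSModel K₁ π p n S t jM j A B VM Winf W0)
    {NA NB : EN →* EM} (D : SSNormData p A B VM Winf W0 NA NB) {f : EN} {a b : ℤ}
    (hfa : Winf.valuation (f * (algebraMap R EN π ^ a)⁻¹) = 1)
    (hfb : W0.valuation (f * (algebraMap R EN π ^ b)⁻¹) = 1) (hab : (p : ℤ) ∣ b - a) :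
    ∃ g : EN, g ≠ 0 ∧ Winf.valuation (f * (algebraMap R EN π ^ a * g ^ p)⁻¹) = 1 ∧
      W0.valuation (f * (algebraMap R EN π ^ a * g ^ p)⁻¹) = 1 := by
  haveI := SSNormData.isDiscreteValuationRing_inf h D
  haveI := SSNormData.isDiscreteValuationRing_zero h D
  have hπ0 := SSModel_pi_ne_zero h
  have htop1 : Winf ≠ ⊤ := by
    intro htop
    apply SSModel_pi_inv_notMem_inf h
    rw [htop]
    exact ValuationSubring.mem_top _
  have hπinv0 : (algebraMap R EN π)⁻¹ ∉ W0 := by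
    intro hmem
    apply h.two.gauss_zero.2.1
    show algebraMap KN EN (algebraMap R KN π)⁻¹ ∈ W0
    rwa [map_inv₀, ← IsScalarTower.algebraMap_apply R KN EN]
  have htop2 : W0 ≠ ⊤ := by
    intro htop
    apply hπinv0
    rw [htop]
    exact ValuationSubring.mem_top _
  have hπ1 : Winf.valuation (algebraMap R EN π) < 1 := by
    rw [TwoExt.val_lt_one_iff_inv_not_mem Winf hπ0]
    exact SSModel_pi_inv_notMem_inf h
  obtain ⟨y, hy1, hy2⟩ := exists_val_eq_one_val_div_eq_one Winf W0 h.two.ne htop1 htop2 hπ0 hπ1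
    h.two.e_zero
  obtain ⟨m, hm⟩ := hab
  have hy0 : y ≠ 0 := by
    rintro rfl
    rw [map_zero] at hy1
    exact zero_ne_one hy1
  have hgp : (y ^ m) ^ p = y ^ (b - a) := by
    rw [← zpow_natCast, ← zpow_mul, hm, mul_comm]
  refine ⟨y ^ m, zpow_ne_zero m hy0, ?_, ?_⟩
  · rw [hgp, mul_inv, ← mul_assoc, map_mul, hfa, one_mul, map_inv₀, map_zpow₀, hy1, one_zpow,
      inv_one]
  · have e : f * (algebraMap R EN π ^ a * y ^ (b - a))⁻¹
        = f * (algebraMap R EN π ^ b)⁻¹ * ((y * (algebraMap R EN π)⁻¹) ^ (b - a))⁻¹ := by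
      rw [mul_zpow, inv_zpow, zpow_sub₀ hπ0, zpow_sub₀ hy0]
      field_simp
    rw [hgp, e, map_mul, hfb, one_mul, map_inv₀, map_zpow₀, hy2, one_zpow, inv_one]


omit [IsAlgClosed (IsLocalRing.ResidueField R)] [FiniteDimensional KN EN] in
/-- `ValDepth` is insensitive to constants times `p`-th powers. -/
theorem ValDepth.mul_inv_const_pow {W : ValuationSubring EN} {N : ℕ} {f : EN} {c : K₁}
    (hd : ValDepth π p W N f c) {d : K₁} (hd0 : d ≠ 0) {g : EN} (hg : g ≠ 0) :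
    ValDepth π p W N (f * (algebraMap K₁ EN d * g ^ p)⁻¹) (c / d) := by
  obtain ⟨γ, hγ, s, hs, e⟩ := hd
  refine ⟨γ * g⁻¹, mul_ne_zero hγ (inv_ne_zero hg), s, hs, ?_⟩
  have hd' : algebraMap K₁ EN d ≠ 0 := (map_ne_zero _).mpr hd0
  rw [e, map_div₀, mul_pow, inv_pow]
  field_simp

omit [IsAlgClosed (IsLocalRing.ResidueField R)] [FiniteDimensional KN EN] in
theorem ValDepth.of_mul_inv_const_pow {W : ValuationSubring EN} {N : ℕ} {f : EN} {c : K₁}
    {d : K₁} (hd0 : d ≠ 0) {g : EN} (hg : g ≠ 0)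
    (hd : ValDepth π p W N (f * (algebraMap K₁ EN d * g ^ p)⁻¹) c) :
    ValDepth π p W N f (c * d) := by
  obtain ⟨γ, hγ, s, hs, e⟩ := hd
  refine ⟨γ * g, mul_ne_zero hγ hg, s, hs, ?_⟩
  have hd' : algebraMap K₁ EN d ≠ 0 := (map_ne_zero _).mpr hd0
  have hgp : g ^ p ≠ 0 := pow_ne_zero p hg
  have e' : f = algebraMap K₁ EN c * γ ^ p * (1 + algebraMap R EN π ^ N * s) *
      (algebraMap K₁ EN d * g ^ p) := by
    rw [← e]
    field_simp
  rw [e', map_mul, mul_pow]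
  ring

/-- **Theorem A on an `SSModel`, general form** (with the unit normalisation (R1)): `f ≠ 0` whose
orders `a`, `b` along the two sheets are congruent modulo `p`, of depth `≥ 1` along both sheets,
with both norms in `K₁ˣ · E_Mˣ ^ p`, has depth `≥ N` along both sheets for every `N`; moreover the
normalised unit `f' = f / (π ^ a g ^ p)` is exhibited. -/
theorem SSModel.thmA_p' (h : SSModel K₁ π p n S t jM j A B VM Winf W0)
    {e₁ : ℕ} (he₁ : 0 < e₁) {ε : Rˣ} (hpe : (p : R) = ε * π ^ e₁) {NA NB : EN →* EM}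
    (D : SSNormData p A B VM Winf W0 NA NB) {f : EN} {a b : ℤ}
    (hfa : Winf.valuation (f * (algebraMap R EN π ^ a)⁻¹) = 1)
    (hfb : W0.valuation (f * (algebraMap R EN π ^ b)⁻¹) = 1) (hab : (p : ℤ) ∣ b - a)
    (h1i : ∃ c : K₁, c ≠ 0 ∧ ValDepth π p Winf 1 f c)
    (h1z : ∃ c : K₁, c ≠ 0 ∧ ValDepth π p W0 1 f c)
    (hNA : ∃ (u : K₁) (g : EM), u ≠ 0 ∧ g ≠ 0 ∧ NA f = algebraMap K₁ EM u * g ^ p)
    (hNB : ∃ (u : K₁) (g : EM), u ≠ 0 ∧ g ≠ 0 ∧ NB f = algebraMap K₁ EM u * g ^ p) :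
    ∃ (d : K₁) (g : EN), d ≠ 0 ∧ g ≠ 0 ∧
      Winf.valuation (f * (algebraMap K₁ EN d * g ^ p)⁻¹) = 1 ∧
      W0.valuation (f * (algebraMap K₁ EN d * g ^ p)⁻¹) = 1 ∧
      ∀ N : ℕ,
        (∃ c : K₁, c ≠ 0 ∧ ValDepth π p Winf N (f * (algebraMap K₁ EN d * g ^ p)⁻¹) c) ∧
        (∃ c : K₁, c ≠ 0 ∧ ValDepth π p W0 N (f * (algebraMap K₁ EN d * g ^ p)⁻¹) c) ∧
        (∃ c : K₁, c ≠ 0 ∧ ValDepth π p Winf N f c) ∧
        (∃ c : K₁, c ≠ 0 ∧ ValDepth π p W0 N f c) := by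
  obtain ⟨g, hg, hgi, hgz⟩ := SSModel.exists_unit_normalisation h D hfa hfb hab
  have hπR : (algebraMap R K₁ π) ≠ 0 := by
    intro h0
    apply SSModel_pi_ne_zero h
    rw [algebraMap_R_eq_K₁ (K₁ := K₁) KN (EM := EN), h0, map_zero]
  set d : K₁ := algebraMap R K₁ π ^ a with hd
  have hd0 : d ≠ 0 := zpow_ne_zero a hπR
  have hdE : algebraMap K₁ EN d = algebraMap R EN π ^ a := by
    rw [hd, map_zpow₀, ← algebraMap_R_eq_K₁ (K₁ := K₁) KN (EM := EN)]
  rw [← hdE] at hgi hgz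
  set T := SSModel.twoLevel h he₁ hpe D with hT
  have hNAc : ∀ c : K₁, NA (algebraMap K₁ EN c) = algebraMap K₁ EM (c ^ (p + 1)) := by
    intro c
    have := T.NA_A (algebraMap K₁ EM c)
    rw [map_pow]
    rw [← this]
    show NA (algebraMap K₁ EN c) = NA (A (algebraMap K₁ EM c))
    rw [SSModel_A_algebraMap_K₁ h]
  have hNBc : ∀ c : K₁, NB (algebraMap K₁ EN c) = algebraMap K₁ EM (c ^ (p + 1)) := by
    intro c
    have := T.NB_B (algebraMap K₁ EM c)
    rw [map_pow]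
    rw [← this]
    show NB (algebraMap K₁ EN c) = NB (B (algebraMap K₁ EM c))
    rw [SSModel_B_algebraMap_K₁ h]
  have hnorm : ∀ (N' : EN →* EM), (∀ c : K₁, N' (algebraMap K₁ EN c) = algebraMap K₁ EM (c ^ (p + 1))) →
      (∀ x : EN, x ≠ 0 → N' x ≠ 0) →
      (∃ (u : K₁) (g' : EM), u ≠ 0 ∧ g' ≠ 0 ∧ N' f = algebraMap K₁ EM u * g' ^ p) →
      ∃ (u : K₁) (g' : EM), u ≠ 0 ∧ g' ≠ 0 ∧
        N' (f * (algebraMap K₁ EN d * g ^ p)⁻¹) = algebraMap K₁ EM u * g' ^ p := by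
    rintro N' hN'c hN'0 ⟨u, g', hu, hg', e⟩
    have hx0 : algebraMap K₁ EN d * g ^ p ≠ 0 :=
      mul_ne_zero ((map_ne_zero _).mpr hd0) (pow_ne_zero p hg)
    have hinv : N' (algebraMap K₁ EN d * g ^ p)⁻¹ = (N' (algebraMap K₁ EN d * g ^ p))⁻¹ := by
      apply eq_inv_of_mul_eq_one_left
      rw [← map_mul, inv_mul_cancel₀ hx0, map_one]
    refine ⟨u / d ^ (p + 1), g' * (N' g)⁻¹, div_ne_zero hu (pow_ne_zero _ hd0),
      mul_ne_zero hg' (inv_ne_zero (hN'0 g hg)), ?_⟩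
    rw [map_mul, hinv, map_mul, map_pow, hN'c, e, map_div₀, mul_pow, inv_pow]
    have h1 : algebraMap K₁ EM (d ^ (p + 1)) ≠ 0 := (map_ne_zero _).mpr (pow_ne_zero _ hd0)
    have h2 : N' g ^ p ≠ 0 := pow_ne_zero p (hN'0 g hg)
    field_simp
  have key := fun N => SSModel.thmA_p h he₁ hpe D hgi hgz
    (by
      obtain ⟨c, hc, hv⟩ := h1i
      exact ⟨c / d, div_ne_zero hc hd0, hv.mul_inv_const_pow hd0 hg⟩)
    (by
      obtain ⟨c, hc, hv⟩ := h1z
      exact ⟨c / d, div_ne_zero hc hd0, hv.mul_inv_const_pow hd0 hg⟩)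
    (hnorm NA hNAc (fun x hx => T.NA_ne_zero hx) hNA)
    (hnorm NB hNBc (fun x hx => T.NB_ne_zero hx) hNB) N
  refine ⟨d, g, hd0, hg, hgi, hgz, fun N => ⟨(key N).1, (key N).2, ?_, ?_⟩⟩
  · obtain ⟨c, hc, hv⟩ := (key N).1
    exact ⟨c * d, mul_ne_zero hc hd0, ValDepth.of_mul_inv_const_pow hd0 hg hv⟩
  · obtain ⟨c, hc, hv⟩ := (key N).2
    exact ⟨c * d, mul_ne_zero hc hd0, ValDepth.of_mul_inv_const_pow hd0 hg hv⟩

end ThmA

end Fermat.Agent.NP
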