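import Mathlib
import Fermat.Agent.NP.NORMP_helper7_TwoLevel

/-!
# NP33 — helper7 — [OLDP], part 1: the Hecke operator `T_p = N_A ∘ B` and the depth filtration

On a `TwoLevel` datum, for `f ∈ EM`:
* `TwoLevel.depthGE_hecke` : `T_p` does not lower the depth (`≥ 2`);
* `TwoLevel.depthGE_hecke_succ` (C2) : at a middle level `p ∣ i`, `i (p - 1) < e₁ p`, `T_p` raises
  the depth;
* `TwoLevel.depthGE_succ_of_hecke_top` (C3) : at the top level `n (p - 1) = e₁ p`, `T_p` is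
  injective on leading terms: depth `≥ n` and `depth (T_p f) ≥ n + 1` give depth `≥ n + 1`
  (needs a unit `u` of `R₁` with `u ^ (p - 1) ≡ -ε mod π`, i.e. `ζ_p ∈ K₁`).
-/

set_option autoImplicit false

namespace Fermat.Agent.NP

namespace TwoLevel

variable {EM EN : Type*} [Field EM] [Field EN] {p : ℕ} (T : TwoLevel EM EN p)

/-- `B` maps `π SM.W` into `π Sinf.W`. -/
theorem piDvd_B_inf {x : EM} {n : ℕ} (h : PiDvd T.BM.π T.SM.W n x) :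
    PiDvd T.BN.π T.Sinf.W n (T.B x) := by
  obtain ⟨t, ht, rfl⟩ := h
  exact ⟨T.B t, T.B_mem_inf t ht, by rw [map_mul, map_pow, T.B_π]⟩

/-- `A` maps `π SM.W` into `π Sinf.W`. -/
theorem piDvd_A_inf {x : EM} {n : ℕ} (h : PiDvd T.BM.π T.SM.W n x) :
    PiDvd T.BN.π T.Sinf.W n (T.A x) := by
  obtain ⟨t, ht, rfl⟩ := h
  exact ⟨T.A t, T.A_mem_inf t ht, by rw [map_mul, map_pow, T.A_π]⟩

/-- `B` reflects divisibility by `π` on the sheet `∞`. -/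
theorem piDvd_of_B_inf {x : EM} {n : ℕ} (h : PiDvd T.BN.π T.Sinf.W n (T.B x)) :
    PiDvd T.BM.π T.SM.W n x := by
  obtain ⟨t, ht, e⟩ := h
  have h0 : T.BM.π ^ n ≠ 0 := pow_ne_zero n T.BM.π_ne_zero
  refine ⟨x * (T.BM.π ^ n)⁻¹, ?_, by field_simp⟩
  apply T.B_reflect_inf
  have : T.B (x * (T.BM.π ^ n)⁻¹) = t := by
    rw [map_mul, map_inv₀, map_pow, T.B_π, e]
    have := pow_ne_zero n T.BN.π_ne_zero
    field_simp
  rw [this]
  exact ht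

/-- the norm of `1 + π ^ j B s`, crude form. -/
theorem NA_one_add_B {s : EM} (hs : s ∈ T.SM.W) {j : ℕ} (hj : 2 ≤ j) :
    PiDvd T.BM.π T.SM.W j (T.NA (1 + T.BN.π ^ j * T.B s) - 1) := by
  obtain ⟨j', rfl⟩ : ∃ j', j = j' + 1 := ⟨j - 1, by omega⟩
  have h := T.normA j' (1 + T.BN.π ^ (j' + 1) * T.B s) 1 1 (by omega) T.SM.W.one_mem
    T.BM.R₁.one_mem ?_ ?_
  · simpa using h
  · rw [map_one, add_sub_cancel_left]
    exact piDvd_pow_mul (T.B_mem_inf s hs)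
  · refine ⟨T.BN.π * T.B s, T.S0.W.mul_mem T.S0.π_mem (T.B_mem_zero s hs), ?_⟩
    have : 1 + T.BN.π ^ (j' + 1) * T.B s
        - T.A 1 * (1 + T.BN.π ^ j' * (T.BN.π * T.B s)) = 0 := by
      rw [map_one]
      ring
    rw [this]
    exact piDvd_zero

/-- the norm of `1 + π ^ i B s`, fine form: `≡ 1 + π ^ i w ^ p` where `B s ≡ A (w ^ p)`. -/
theorem NA_one_add_B_kron {s w : EM} (hs : s ∈ T.SM.W) (hw : w ∈ T.SM.W)
    (hsw : PiDvd T.BN.π T.Sinf.W 1 (T.B s - T.A (w ^ p))) {i : ℕ} (hi : 1 ≤ i) :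
    PiDvd T.BM.π T.SM.W (i + 1)
      (T.NA (1 + T.BN.π ^ i * T.B s) - (1 + T.BM.π ^ i * w ^ p)) := by
  have h := T.normA i (1 + T.BN.π ^ i * T.B s) (1 + T.BM.π ^ i * w ^ p) 1 hi
    (T.SM.W.add_mem T.SM.W.one_mem (T.SM.W.mul_mem (T.SM.W.pow_mem T.SM.π_mem i)
      (T.SM.W.pow_mem hw p))) T.BM.R₁.one_mem ?_ ?_
  · simpa using h
  · have e : 1 + T.BN.π ^ i * T.B s - T.A (1 + T.BM.π ^ i * w ^ p)
        = T.BN.π ^ i * (T.B s - T.A (w ^ p)) := by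
      rw [map_add, map_one, map_mul, map_pow T.A T.BM.π, T.A_π]
      ring
    rw [e, add_comm i 1]
    exact hsw.pow_mul.mono T.Sinf.π_mem (by omega)
  · refine ⟨T.B s, T.B_mem_zero s hs, ?_⟩
    rw [map_one, one_mul, sub_self]
    exact piDvd_zero

/-- `T_p f` as a product. -/
theorem NA_B_eq {c γ s : EM} {i : ℕ} :
    T.NA (T.B (c * γ ^ p * (1 + T.BM.π ^ i * s)))
      = T.NA (T.B c) * (T.NA (T.B γ)) ^ p * T.NA (1 + T.BN.π ^ i * T.B s) := by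
  simp only [map_mul, map_pow, map_add, map_one, T.B_π]

theorem depthGE_NA_B_const {c : EM} (hc : c ∈ T.BM.K₁) (hc0 : c ≠ 0) (i : ℕ) :
    T.SM.DepthGE (T.NA (T.B c)) i := by
  rw [T.B_eq_A c hc, T.NA_A]
  exact T.SM.depthGE_const (T.BM.K₁.pow_mem hc _) (pow_ne_zero _ hc0) i

/-- `T_p` does not lower the depth. -/
theorem depthGE_hecke {f : EM} {j : ℕ} (hj : 2 ≤ j) (hf : T.SM.DepthGE f j) :
    T.SM.DepthGE (T.NA (T.B f)) j := by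
  obtain ⟨c, hc, γ, s, hc0, hγ0, hs, rfl⟩ := T.SM.depthGE_iff.mp hf
  rw [T.NA_B_eq]
  refine ((T.depthGE_NA_B_const hc hc0 j).mul_pow
    (T.NA_ne_zero ((map_ne_zero T.B).mpr hγ0))).mul ?_
  obtain ⟨t, ht, e⟩ := T.NA_one_add_B hs hj
  have e' : T.NA (1 + T.BN.π ^ j * T.B s) = 1 + T.BM.π ^ j * t := by linear_combination e
  rw [e']
  exact T.SM.depthGE_one_add ht j

/-- (C2): `T_p` raises the depth at the middle levels `p ∣ i`. -/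
theorem depthGE_hecke_succ (hp : p.Prime) {f : EM} {i : ℕ} (hi : 1 ≤ i) (hpi : p ∣ i)
    (hie : i * (p - 1) < T.BM.e₁ * p) (hf : T.SM.DepthGE f i) :
    T.SM.DepthGE (T.NA (T.B f)) (i + 1) := by
  obtain ⟨c, hc, γ, s, hc0, hγ0, hs, rfl⟩ := T.SM.depthGE_iff.mp hf
  rw [T.NA_B_eq]
  refine ((T.depthGE_NA_B_const hc hc0 (i + 1)).mul_pow
    (T.NA_ne_zero ((map_ne_zero T.B).mpr hγ0))).mul ?_
  obtain ⟨w, hw, hsw⟩ := T.kron_inf s hs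
  obtain ⟨t, ht, e⟩ := T.NA_one_add_B_kron hs hw hsw hi
  have hτ : T.BM.τ i = 0 := by
    unfold DepthBase.τ
    rw [if_neg (ne_of_lt hie)]
  refine T.SM.depthGE_succ_of_shape hp (c := 1) (γ := 1) (s := w ^ p + T.BM.π * t) (a := 0)
    (h := w) (w := t) T.BM.K₁.one_mem one_ne_zero one_ne_zero hi hie.le ?_ T.BM.R₁.zero_mem hw ht
    ?_ (Or.inr hpi)
  · linear_combination e
  · rw [hτ]
    ring

/-- (C3): at the top level `T_p` is injective on leading terms. -/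
theorem depthGE_succ_of_hecke_top (hp : p.Prime) {u : EM} (hu : IsUnitIn T.BM.R₁ u)
    (hue : PiDvd T.BM.π T.BM.R₁ 1 (u ^ (p - 1) + T.BM.ε)) {f : EM} {n : ℕ} (hn : 1 ≤ n)
    (hne : n * (p - 1) = T.BM.e₁ * p) (hf : T.SM.DepthGE f n)
    (hT : T.SM.DepthGE (T.NA (T.B f)) (n + 1)) : T.SM.DepthGE f (n + 1) := by
  obtain ⟨c, hc, γ, s, hc0, hγ0, hs, rfl⟩ := T.SM.depthGE_iff.mp hf
  have hπW := T.SM.π_mem
  have hp1 : p = (p - 1) + 1 := (Nat.sub_add_cancel hp.one_le).symm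
  -- depth of the norm of the principal part
  have hNc0 : T.NA (T.B c) ≠ 0 := T.NA_ne_zero ((map_ne_zero T.B).mpr hc0)
  have hNγ0 : T.NA (T.B γ) ≠ 0 := T.NA_ne_zero ((map_ne_zero T.B).mpr hγ0)
  have hX : T.SM.DepthGE (T.NA (1 + T.BN.π ^ n * T.B s)) (n + 1) := by
    have h1 := T.NA_B_eq (c := c) (γ := γ) (s := s) (i := n)
    have h2 : T.NA (1 + T.BN.π ^ n * T.B s)
        = T.NA (T.B (c * γ ^ p * (1 + T.BM.π ^ n * s))) / (T.NA (T.B c) * (T.NA (T.B γ)) ^ p) := by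
      rw [h1]
      have := pow_ne_zero p hNγ0
      field_simp
    rw [h2]
    exact hT.div (by omega) ((T.depthGE_NA_B_const hc hc0 (n + 1)).mul_pow hNγ0)
  obtain ⟨w, hw, hsw⟩ := T.kron_inf s hs
  obtain ⟨t, ht, e⟩ := T.NA_one_add_B_kron hs hw hsw hn
  have eX : T.NA (1 + T.BN.π ^ n * T.B s) = 1 + T.BM.π ^ n * (w ^ p + T.BM.π * t) := by
    linear_combination e
  -- the leading term of `w ^ p`
  obtain ⟨c₁, hc₁, γ₁, s₁, hc₁0, hγ₁0, hs₁, e₁⟩ := T.SM.depthGE_iff.mp hX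
  have hrel : c₁⁻¹ * (γ₁⁻¹) ^ p * (1 + T.BM.π ^ n * (w ^ p + T.BM.π * t))
      = 1 + T.BM.π ^ n * (T.BM.π * s₁) := by
    rw [← eX, e₁, inv_pow]
    have := pow_ne_zero p hγ₁0
    field_simp
    ring
  obtain ⟨a, ha, h', hh', hsh, -⟩ := T.SM.leading_term_rel hp (T.BM.K₁.inv_mem hc₁)
    (inv_ne_zero hc₁0) (inv_ne_zero hγ₁0) (T.SM.W.mul_mem hπW hs₁)
    (T.SM.W.add_mem (T.SM.W.pow_mem hw p) (T.SM.W.mul_mem hπW ht)) hn hne.le hrel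
  have hτ : T.BM.τ n = T.BM.ε := by
    unfold DepthBase.τ
    rw [if_pos hne]
  rw [hτ] at hsh
  -- `w ^ p ≡ -a + ... `: rewrite as `w ^ p + a + h' ^ p + ε h' ≡ 0`
  have hεW : T.BM.ε ∈ T.SM.W := T.SM.R₁_le T.BM.ε_mem
  have hLT : PiDvd T.BM.π T.SM.W 1 (w ^ p + a + (h' ^ p + T.BM.ε * h')) := by
    have h1 : PiDvd T.BM.π T.SM.W 1 (T.BM.π * (s₁ - t)) := by
      have := piDvd_pow_mul (π := T.BM.π) (n := 1) (T.SM.W.sub_mem hs₁ ht)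
      rwa [pow_one] at this
    have h2 := (hsh.sub h1).neg
    have e2 : -(T.BM.π * s₁ - (w ^ p + T.BM.π * t) - a - (h' ^ p + T.BM.ε * h')
        - T.BM.π * (s₁ - t)) = w ^ p + a + (h' ^ p + T.BM.ε * h') := by ring
    rwa [e2] at h2
  -- a `p`-th root of `-a` in the base (`k` is perfect)
  obtain ⟨a₁, ha₁, haa⟩ := T.BM.asclosed (-a) (T.BM.R₁.neg_mem ha) 0 T.BM.R₁.zero_mem
  have haa' : PiDvd T.BM.π T.SM.W 1 (a₁ ^ p + a) := by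
    have := haa.of_le T.SM.R₁_le
    have e3 : a₁ ^ p + 0 * a₁ - -a = a₁ ^ p + a := by ring
    rwa [e3] at this
  have ha₁W : a₁ ∈ T.SM.W := T.SM.R₁_le ha₁
  have huW : IsUnitIn T.SM.W u := ⟨T.SM.R₁_le hu.1, T.SM.R₁_le hu.2.1, hu.2.2⟩
  have hu0 := hu.2.2
  have hpW : PiDvd T.BM.π T.SM.W 1 (p : EM) := T.SM.piDvd_p
  -- here `w ^ p ≡ -a - h' ^ p - ε h'`, `a ≡ -a₁ ^ p`; put `u t = a₁ - w - h'`
  obtain ⟨t₀, ht₀⟩ : ∃ t₀, t₀ = u⁻¹ * (a₁ - w - h') := ⟨_, rfl⟩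
  have ht₀W : t₀ ∈ T.SM.W := by
    rw [ht₀]
    exact T.SM.W.mul_mem huW.2.1 (T.SM.W.sub_mem (T.SM.W.sub_mem ha₁W hw) hh')
  have hut : u * t₀ = a₁ - w - h' := by
    rw [ht₀]
    field_simp
  -- `(u t) ^ p ≡ a₁ ^ p - w ^ p - h' ^ p`
  obtain ⟨r₁, hr₁, er₁⟩ := sub_pow_prime_eq_subring T.SM.W hp ha₁W hw
  obtain ⟨r₂, hr₂, er₂⟩ := sub_pow_prime_eq_subring T.SM.W hp (T.SM.W.sub_mem ha₁W hw) hh'
  have h1 : PiDvd T.BM.π T.SM.W 1 (u ^ (p - 1) * (u * t₀ ^ p + h')) := by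
    have e4 : u ^ (p - 1) * (u * t₀ ^ p + h')
        = (a₁ ^ p + a) - (w ^ p + a + (h' ^ p + T.BM.ε * h'))
          + (u ^ (p - 1) + T.BM.ε) * h' + (p : EM) * (r₁ + r₂) := by
      have e5 : u ^ (p - 1) * (u * t₀ ^ p) = (u * t₀) ^ p := by
        have hup : u ^ p = u ^ (p - 1) * u := by
          conv_lhs => rw [hp1, pow_succ]
        rw [mul_pow, hup]
        ring
      rw [mul_add, e5, hut, er₂, er₁]
      ring
    rw [e4]
    exact ((haa'.sub hLT).add ((hue.of_le T.SM.R₁_le).mul_right hh')).add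
      (hpW.mul_right (T.SM.W.add_mem hr₁ hr₂))
  have h2 : PiDvd T.BM.π T.SM.W 1 (u * t₀ ^ p + h') := by
    have := h1.mul_left ((huW.pow (p - 1)).2.1)
    have e6 : (u ^ (p - 1))⁻¹ * (u ^ (p - 1) * (u * t₀ ^ p + h')) = u * t₀ ^ p + h' := by
      have := pow_ne_zero (p - 1) hu0
      field_simp
    rwa [e6] at this
  -- `w ≡ a₁ + u t ^ p - u t`
  have h3 : PiDvd T.BM.π T.SM.W 1 (w - (a₁ + u * t₀ ^ p - u * t₀)) := by
    have e7 : w - (a₁ + u * t₀ ^ p - u * t₀) = -(u * t₀ ^ p + h') := by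
      rw [hut]
      ring
    rw [e7]
    exact h2.neg
  have hXW : a₁ + u * t₀ ^ p - u * t₀ ∈ T.SM.W :=
    T.SM.W.sub_mem (T.SM.W.add_mem ha₁W (T.SM.W.mul_mem huW.1 (T.SM.W.pow_mem ht₀W p)))
      (T.SM.W.mul_mem huW.1 ht₀W)
  -- `w ^ p ≡ a₁ ^ p + u ^ p (t ^ p) ^ p - u ^ p t ^ p`
  have h4 : PiDvd T.BM.π T.SM.W 1
      (w ^ p - (a₁ ^ p + u ^ p * (t₀ ^ p) ^ p - u ^ p * t₀ ^ p)) := by
    have h41 := T.SM.pow_congr hw hXW h3 p
    obtain ⟨r₃, hr₃, er₃⟩ := sub_pow_prime_eq_subring T.SM.W hp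
      (T.SM.W.add_mem ha₁W (T.SM.W.mul_mem huW.1 (T.SM.W.pow_mem ht₀W p)))
      (T.SM.W.mul_mem huW.1 ht₀W)
    obtain ⟨r₄, hr₄, er₄⟩ := add_pow_prime_eq_subring T.SM.W hp ha₁W
      (T.SM.W.mul_mem huW.1 (T.SM.W.pow_mem ht₀W p))
    have e8 : w ^ p - (a₁ ^ p + u ^ p * (t₀ ^ p) ^ p - u ^ p * t₀ ^ p)
        = (w ^ p - (a₁ + u * t₀ ^ p - u * t₀) ^ p) + (p : EM) * (r₃ + r₄) := by
      rw [er₃, er₄]
      ring
    rw [e8]
    exact h41.add (hpW.mul_right (T.SM.W.add_mem hr₃ hr₄))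
  -- pull back through `τ`
  obtain ⟨t', ht', hkt⟩ := T.kron_inf_surj t₀ ht₀W
  have hBt' : T.B t' ∈ T.Sinf.W := T.B_mem_inf t' ht'
  have hAt : T.A (t₀ ^ p) ∈ T.Sinf.W := T.A_mem_inf _ (T.SM.W.pow_mem ht₀W p)
  have hupK : u ^ p ∈ T.BM.K₁ := T.BM.K₁.pow_mem (T.BM.R₁_le _ hu.1) p
  have ha₁K : a₁ ^ p ∈ T.BM.K₁ := T.BM.K₁.pow_mem (T.BM.R₁_le _ ha₁) p
  have hAu : T.A (u ^ p) ∈ T.Sinf.W := T.A_mem_inf _ (T.SM.W.pow_mem huW.1 p)
  have h5 : PiDvd T.BN.π T.Sinf.W 1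
      (T.B (s - (a₁ ^ p + u ^ p * t' ^ p - u ^ p * t'))) := by
    have h51 := T.piDvd_A_inf h4
    have h52 := T.Sinf.pow_congr hBt' hAt hkt p
    have e9 : T.B (s - (a₁ ^ p + u ^ p * t' ^ p - u ^ p * t'))
        = (T.B s - T.A (w ^ p))
          + T.A (w ^ p - (a₁ ^ p + u ^ p * (t₀ ^ p) ^ p - u ^ p * t₀ ^ p))
          - T.A (u ^ p) * ((T.B t') ^ p - (T.A (t₀ ^ p)) ^ p)
          + T.A (u ^ p) * (T.B t' - T.A (t₀ ^ p)) := by
      simp only [map_sub, map_add, map_mul, T.B_eq_A _ hupK, T.B_eq_A _ ha₁K]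
      simp only [map_pow]
      ring
    rw [e9]
    exact ((hsw.add h51).sub (h52.mul_left hAu)).add (hkt.mul_left hAu)
  have h6 := T.piDvd_of_B_inf h5
  -- the shape of `s`
  have h7 : PiDvd T.BM.π T.SM.W 1
      (s - a₁ ^ p - ((u * t') ^ p + T.BM.ε * (u * t'))) := by
    have e10 : s - a₁ ^ p - ((u * t') ^ p + T.BM.ε * (u * t'))
        = (s - (a₁ ^ p + u ^ p * t' ^ p - u ^ p * t'))
          - (u ^ (p - 1) + T.BM.ε) * (u * t') := by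
      have e11 : u ^ p = u ^ (p - 1) * u := by
        conv_lhs => rw [hp1, pow_succ]
      rw [mul_pow, e11]
      ring
    rw [e10]
    exact h6.sub ((hue.of_le T.SM.R₁_le).mul_right (T.SM.W.mul_mem huW.1 ht'))
  obtain ⟨w₀, hw₀, ew₀⟩ := h7
  have hpn : p ∣ n := by
    have h8 : p ∣ n * (p - 1) := by
      rw [hne]
      exact Dvd.intro_left _ rfl
    have hcop : Nat.Coprime p (p - 1) := by
      have := hp.two_le
      rw [Nat.coprime_comm]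
      have h9 : (p - 1).Coprime ((p - 1) + 1) := Nat.coprime_self_add_right.mpr (Nat.coprime_one_right _)
      rwa [← hp1] at h9
    exact hcop.dvd_of_dvd_mul_right h8
  refine T.SM.depthGE_succ_of_shape hp (s := s) (a := a₁ ^ p) (h := u * t') (w := w₀) hc hc0 hγ0
    hn hne.le rfl (T.BM.R₁.pow_mem ha₁ p) (T.SM.W.mul_mem huW.1 ht') hw₀ ?_ (Or.inr hpn)
  rw [hτ]
  rw [pow_one] at ew₀
  linear_combination ew₀

end TwoLevel

end Fermat.Agent.NP
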