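import Mathlib
import Fermat.Agent.NP.NORMP_helper7_Depth
import Fermat.Agent.NP.EXT_helper5_Main

/-!
# NP33 — helper7 — [OLDP], part 2: one sheet — global regularity (C1) and inertia at the top
depth (Δ3)

* `Sheet.depthGE_succ_of_cover` (C1): on a one-sheet (good reduction) model covered by `LocalPt`s
  with (GLOB) "an element of `W` which is regular modulo `π` at every closed point is constant
  modulo `π`", a function which is locally a `p`-th power times a unit and has depth `≥ i`, `p ∤ i`,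
  `i` not in the Hensel range, has depth `≥ i + 1`.
* `Sheet.depthGE_sigma_top` (Δ3): `f` of depth `≥ m p` (`λ = π ^ m · unit`) and `σ` a ring
  endomorphism of `F`, trivial on the residue field of the sheet, with `σ λ ≡ a λ mod π ^ (m+1)`
  ⇒ `σ f / f ^ a` has depth `≥ m p + 1`.
-/

set_option autoImplicit false

namespace Fermat.Agent.NP

variable {F : Type*} [Field F] {p : ℕ} {B : DepthBase F p}

/-- (C1) **global regularity**. -/
theorem Sheet.depthGE_succ_of_cover (S : Sheet B) (hp : p.Prime) {I ι : Type*} [Nonempty ι]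
    (L : I → LocalPt B ι) (hL : ∀ n k, (L n).sheet k = S)
    (hglob : ∀ s ∈ S.W, (∀ n, ∃ r ∈ (L n).R', PiDvd B.π S.W 1 (s - r)) →
      ∃ a ∈ B.R₁, PiDvd B.π S.W 1 (s - a))
    {f : F} {i : ℕ} (hi : 1 ≤ i) (hpi : ¬ p ∣ i) (hie : i * (p - 1) ≤ B.e₁ * p)
    (hloc : ∀ n, ∃ g v : F, g ≠ 0 ∧ IsUnitIn (L n).R' v ∧ f = g ^ p * v)
    (hf : S.DepthGE f i) : S.DepthGE f (i + 1) := by
  obtain ⟨c, hc, γ, s, hc0, hγ0, hs, e⟩ := S.depthGE_iff.mp hf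
  have hone := S.isUnitIn_one_add_pow_mul hi hs
  have key : ∀ n, ∃ r ∈ (L n).R', PiDvd B.π S.W 1 (s - r) := by
    intro n
    obtain ⟨g, v, hg0, hv, efv⟩ := hloc n
    have hRW : (L n).R' ≤ S.W := by
      have := (L n).le_sheet (Classical.arbitrary ι)
      rwa [hL] at this
    have hgp : g ^ p ≠ 0 := pow_ne_zero p hg0
    have hγp : γ ^ p ≠ 0 := pow_ne_zero p hγ0
    -- `v = c (γ / g) ^ p (1 + π ^ i s)`
    have ev : v = c * (γ * g⁻¹) ^ p * (1 + B.π ^ i * s) := by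
      have h1 : v = f * (g ^ p)⁻¹ := by
        rw [efv]
        field_simp
      rw [h1, e, mul_pow, inv_pow]
      ring
    have hcg : c * (γ * g⁻¹) ^ p ∈ S.W := by
      have h1 : c * (γ * g⁻¹) ^ p = v * (1 + B.π ^ i * s)⁻¹ := by
        rw [ev]
        have := hone.2.2
        field_simp
      rw [h1]
      exact S.W.mul_mem (hRW hv.1) hone.2.1
    have hroots : ∀ k, ∃ c' ∈ B.K₁, ∃ γ' : F, c' ≠ 0 ∧ γ' ≠ 0 ∧
        PiDvd B.π ((L n).sheet k).W i (v - c' * γ' ^ p) := by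
      intro k
      rw [hL]
      refine ⟨c, hc, γ * g⁻¹, hc0, mul_ne_zero hγ0 (inv_ne_zero hg0),
        c * (γ * g⁻¹) ^ p * s, S.W.mul_mem hcg hs, ?_⟩
      rw [ev]
      ring
    obtain ⟨cn, δ, hcn, hδ, r₀, hr₀, er⟩ := (L n).ext hp hv hroots
    -- `v = cn δ ^ p (1 + π ^ i r)`
    have hcδ : IsUnitIn (L n).R' (cn * δ ^ p) :=
      IsUnitIn.mul ⟨(L n).R₁_le hcn.1, (L n).R₁_le hcn.2.1, hcn.2.2⟩ (hδ.pow p)
    obtain ⟨r, hr⟩ : ∃ r, r = r₀ * (cn * δ ^ p)⁻¹ := ⟨_, rfl⟩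
    have hrR : r ∈ (L n).R' := by
      rw [hr]
      exact (L n).R'.mul_mem hr₀ hcδ.2.1
    have ev2 : v = cn * δ ^ p * (1 + B.π ^ i * r) := by
      rw [hr]
      have h1 : cn * δ ^ p * (cn * δ ^ p)⁻¹ = 1 := mul_inv_cancel₀ hcδ.2.2
      linear_combination er - B.π ^ i * r₀ * h1
    -- relative (LT)
    have hrel : (c * cn⁻¹) * (γ * g⁻¹ * δ⁻¹) ^ p * (1 + B.π ^ i * s) = 1 + B.π ^ i * r := by
      have h1 : cn * δ ^ p * (1 + B.π ^ i * r) = c * (γ * g⁻¹) ^ p * (1 + B.π ^ i * s) := by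
        rw [← ev2, ← ev]
      have h2 := hcn.2.2
      have h3 : δ ^ p ≠ 0 := pow_ne_zero p hδ.2.2
      have h4 : (c * cn⁻¹) * (γ * g⁻¹ * δ⁻¹) ^ p * (1 + B.π ^ i * s)
          = cn⁻¹ * (δ ^ p)⁻¹ * (c * (γ * g⁻¹) ^ p * (1 + B.π ^ i * s)) := by
        rw [mul_pow (γ * g⁻¹), inv_pow]
        ring
      rw [h4, ← h1]
      field_simp
    obtain ⟨a, ha, h', hh', hsh, hor⟩ := S.leading_term_rel hp
      (B.K₁.mul_mem hc (B.K₁.inv_mem (B.R₁_le _ hcn.1))) (mul_ne_zero hc0 (inv_ne_zero hcn.2.2))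
      (mul_ne_zero (mul_ne_zero hγ0 (inv_ne_zero hg0)) (inv_ne_zero hδ.2.2)) (hRW hrR) hs hi hie
      hrel
    have hh0 : h' = 0 := hor.resolve_right hpi
    rw [hh0, zero_pow hp.ne_zero, mul_zero, add_zero, sub_zero] at hsh
    refine ⟨r - a, (L n).R'.sub_mem hrR ((L n).R₁_le ha), ?_⟩
    have := hsh.neg
    have e2 : -(r - s - a) = s - (r - a) := by ring
    rwa [e2] at this
  obtain ⟨a₀, ha₀, w, hw, ew⟩ := hglob s hs key
  refine S.depthGE_succ_of_const hc hc0 hγ0 hi ha₀ hw ?_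
  rw [e]
  rw [pow_one] at ew
  have : s = a₀ + B.π * w := by linear_combination ew
  rw [this]

/-- `(1 + x) ^ n = 1 + n x + x ^ 2 r` in a subring. -/
theorem one_add_pow_eq_two_subring (S : Subring F) {x : F} (hx : x ∈ S) (n : ℕ) :
    ∃ r ∈ S, (1 + x) ^ n = 1 + n * x + x ^ 2 * r := by
  induction n with
  | zero => exact ⟨0, S.zero_mem, by simp⟩
  | succ n ih =>
    obtain ⟨r, hr, e⟩ := ih
    refine ⟨r + n + x * r, S.add_mem (S.add_mem hr (natCast_mem S n)) (S.mul_mem hx hr), ?_⟩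
    rw [pow_succ, e]
    push_cast
    ring

/-- Fermat's little theorem in a sheet: `a ^ p ≡ a mod π`. -/
theorem Sheet.piDvd_natCast_pow_sub (S : Sheet B) (hp : p.Prime) (a : ℕ) :
    PiDvd B.π S.W 1 ((a : F) ^ p - a) := by
  have : Fact p.Prime := ⟨hp⟩
  have h1 : ((a ^ p : ℕ) : ZMod p) = (a : ZMod p) := by
    push_cast
    exact ZMod.pow_card _
  have h2 : (p : ℤ) ∣ ((a ^ p : ℕ) : ℤ) - (a : ℤ) := by
    have := (ZMod.natCast_eq_natCast_iff _ _ _).mp h1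
    exact (Nat.modEq_iff_dvd.mp this.symm)
  obtain ⟨k, hk⟩ := h2
  have h3 : (a : F) ^ p - a = (p : F) * (k : F) := by
    have := congrArg (Int.cast : ℤ → F) hk
    push_cast at this
    exact this
  rw [h3]
  exact S.piDvd_p.mul_right (intCast_mem S.W k)

/-- (Δ3) **inertia at the top depth**. -/
theorem Sheet.depthGE_sigma_top (S : Sheet B) (hp : p.Prime) (σ : F →+* F)
    (hσK : ∀ c ∈ B.K₁, σ c ∈ B.K₁) (hσW : ∀ y ∈ S.W, PiDvd B.π S.W 1 (σ y - y))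
    {lam u₀ : F} {m : ℕ} (hm : 1 ≤ m) (hu₀ : IsUnitIn B.R₁ u₀) (hlam : lam = B.π ^ m * u₀)
    (a : ℕ) (hσlam : PiDvd B.π S.W (m + 1) (σ lam - a * lam))
    {f : F} (hf : S.DepthGE f (m * p)) : S.DepthGE (σ f / f ^ a) (m * p + 1) := by
  obtain ⟨c, hc, γ, s, hc0, hγ0, hs, e⟩ := S.depthGE_iff.mp hf
  have hπW := S.π_mem
  have hπ0 := B.π_ne_zero
  have hu₀W : IsUnitIn S.W u₀ := ⟨S.R₁_le hu₀.1, S.R₁_le hu₀.2.1, hu₀.2.2⟩
  have hu₀0 := hu₀.2.2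
  have hup0 : u₀ ^ p ≠ 0 := pow_ne_zero p hu₀0
  have hmp : 1 ≤ m * p := Nat.mul_pos (by omega) hp.pos
  obtain ⟨k, hk⟩ : ∃ k, m * p = k + 1 := ⟨m * p - 1, by omega⟩
  -- `π ^ (m p) s = λ ^ p z`
  obtain ⟨z, hz⟩ : ∃ z, z = s * (u₀ ^ p)⁻¹ := ⟨_, rfl⟩
  have hzW : z ∈ S.W := by
    rw [hz]
    exact S.W.mul_mem hs (hu₀W.pow p).2.1
  have hsz : s = u₀ ^ p * z := by
    rw [hz]
    field_simp
  have hPs : B.π ^ (m * p) * s = lam ^ p * z := by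
    rw [hlam, mul_pow, ← pow_mul, hsz]
    ring
  -- the action of `σ`
  obtain ⟨ρ, hρ, eρ⟩ := hσlam
  obtain ⟨t₂, ht₂, e₂⟩ := hσW z hzW
  rw [pow_one] at e₂
  have hauW : (a : F) * u₀ ∈ S.W := S.W.mul_mem (natCast_mem S.W a) hu₀W.1
  have hx₁W : (a : F) * u₀ + B.π * ρ ∈ S.W := S.W.add_mem hauW (S.W.mul_mem hπW hρ)
  have hσlam' : σ lam = B.π ^ m * ((a : F) * u₀ + B.π * ρ) := by
    have : σ lam = a * lam + B.π ^ (m + 1) * ρ := by linear_combination eρ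
    rw [this, hlam]
    ring
  obtain ⟨q', hq', eq'⟩ := pow_sub_pow_eq_subring S.W p hx₁W hauW
  obtain ⟨t₃, ht₃, e₃⟩ := S.piDvd_natCast_pow_sub hp a
  rw [pow_one] at e₃
  have hPsW : B.π ^ (m * p) * s ∈ S.W := S.W.mul_mem (S.W.pow_mem hπW _) hs
  obtain ⟨r, hr, er⟩ := one_add_pow_eq_two_subring S.W hPsW a
  -- the two factors
  obtain ⟨D, hD⟩ : ∃ D, D = (1 + B.π ^ (m * p) * s) ^ a := ⟨_, rfl⟩
  have hDU : IsUnitIn S.W D := by
    rw [hD]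
    exact (S.isUnitIn_one_add_pow_mul hmp hs).pow a
  obtain ⟨T, hT⟩ : ∃ T, T = t₃ * u₀ ^ p * z + ((a : F) * u₀) ^ p * t₂
      + ρ * q' * (z + B.π * t₂) - B.π ^ k * s ^ 2 * r := ⟨_, rfl⟩
  have hTW : T ∈ S.W := by
    rw [hT]
    exact S.W.sub_mem (S.W.add_mem (S.W.add_mem (S.W.mul_mem (S.W.mul_mem ht₃ (hu₀W.pow p).1) hzW)
      (S.W.mul_mem (S.W.pow_mem hauW p) ht₂)) (S.W.mul_mem (S.W.mul_mem hρ hq')
      (S.W.add_mem hzW (S.W.mul_mem hπW ht₂))))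
      (S.W.mul_mem (S.W.mul_mem (S.W.pow_mem hπW k) (S.W.pow_mem hs 2)) hr)
  have hσz : σ z = z + B.π * t₂ := by linear_combination e₂
  have hNm : σ (1 + B.π ^ (m * p) * s) = D + B.π ^ (m * p + 1) * T := by
    rw [hPs, map_add, map_one, map_mul, map_pow, hσlam', hσz, hD, er, hT]
    have e4 : ((a : F) * u₀ + B.π * ρ) ^ p = ((a : F) * u₀) ^ p + B.π * ρ * q' := by
      linear_combination eq'
    rw [mul_pow, ← pow_mul, e4, hsz]
    have e5 : (a : F) ^ p = a + B.π * t₃ := by linear_combination e₃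
    rw [mul_pow (a : F) u₀, e5, hk]
    ring
  have hσc0 : σ c ≠ 0 := (map_ne_zero σ).mpr hc0
  have hσγ0 : σ γ ≠ 0 := (map_ne_zero σ).mpr hγ0
  refine S.depthGE_iff.mpr ⟨σ c * (c ^ a)⁻¹, B.K₁.mul_mem (hσK c hc) (B.K₁.inv_mem
    (B.K₁.pow_mem hc a)), σ γ * (γ ^ a)⁻¹, T * D⁻¹, mul_ne_zero hσc0 (inv_ne_zero
    (pow_ne_zero a hc0)), mul_ne_zero hσγ0 (inv_ne_zero (pow_ne_zero a hγ0)),
    S.W.mul_mem hTW hDU.2.1, ?_⟩
  have hD0 := hDU.2.2
  have e6 : σ f = σ c * (σ γ) ^ p * (D + B.π ^ (m * p + 1) * T) := by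
    rw [e, map_mul, map_mul, map_pow, hNm]
  have e7 : f ^ a = c ^ a * (γ ^ a) ^ p * D := by
    rw [e, mul_pow, mul_pow, hD, ← pow_mul, ← pow_mul, mul_comm p a]
  rw [e6, e7]
  have h1 := pow_ne_zero a hc0
  have h2 : (γ ^ a) ^ p ≠ 0 := pow_ne_zero p (pow_ne_zero a hγ0)
  rw [mul_pow, inv_pow]
  field_simp

end Fermat.Agent.NP
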