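import Mathlib
import Fermat.Agent.NP.OLDP_helper7_Sheet

/-!
# NP33 — helper7 — [OLDP], part 3: the constants coming from `ζ_p`

With `λ = ζ - 1 = π ^ m · u₀` (`ζ ^ p = 1`, `ζ ≠ 1`, `u₀` a unit of `R₁`, `m (p - 1) = e₁`):
* `DepthBase.piDvd_unit_pow_add_eps` : `u₀ ^ (p - 1) + ε ∈ π R₁` (the hypothesis `hue` of (C3),
  `TwoLevel.depthGE_succ_of_hecke_top`);
* `Sheet.piDvd_sigma_lam` : `σ ζ = ζ ^ a` ⇒ `σ λ - a λ ∈ π ^ (m + 1) W` (the hypothesis `hσlam` of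
  (Δ3), `Sheet.depthGE_sigma_top`).
-/

set_option autoImplicit false

namespace Fermat.Agent.NP

variable {F : Type*} [Field F] {p : ℕ} {B : DepthBase F p}

/-- `hue` of (C3): for `ζ - 1 = π ^ m u₀`, `m (p - 1) = e₁`: `u₀ ^ (p - 1) ≡ -ε mod π`. -/
theorem DepthBase.piDvd_unit_pow_add_eps (B : DepthBase F p) (hp : p.Prime) {ζ : F}
    (hζp : ζ ^ p = 1) (hζ1 : ζ ≠ 1) {m : ℕ} (hm : 1 ≤ m) (hme : m * (p - 1) = B.e₁) {u₀ : F}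
    (hu₀ : u₀ ∈ B.R₁) (hlam : ζ - 1 = B.π ^ m * u₀) :
    PiDvd B.π B.R₁ 1 (u₀ ^ (p - 1) + B.ε) := by
  have hπ0 := B.π_ne_zero
  have hlamR : B.π ^ m * u₀ ∈ B.R₁ := B.R₁.mul_mem (B.R₁.pow_mem B.π_mem m) hu₀
  obtain ⟨c, hc, e⟩ := one_add_pow_prime_eq_subring B.R₁ hp hlamR
  have hlam0 : B.π ^ m * u₀ ≠ 0 := by
    rw [← hlam]
    exact sub_ne_zero.mpr hζ1
  have hu0 : u₀ ≠ 0 := right_ne_zero_of_mul hlam0
  have h1 : (1 + B.π ^ m * u₀) ^ p = 1 := by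
    rw [← hlam]
    have : 1 + (ζ - 1) = ζ := by ring
    rw [this, hζp]
  rw [h1] at e
  obtain ⟨j, hj⟩ : ∃ j, m = j + 1 := ⟨m - 1, by omega⟩
  have hp1 : p = (p - 1) + 1 := (Nat.sub_add_cancel hp.one_le).symm
  refine ⟨-(B.ε * B.π ^ j * u₀ * c), B.R₁.neg_mem (B.R₁.mul_mem (B.R₁.mul_mem (B.R₁.mul_mem
    B.ε_mem (B.R₁.pow_mem B.π_mem j)) hu₀) hc), ?_⟩
  -- `0 = lam * (p + lam ^ (p - 1) + p lam c)`
  have h2 : (B.π ^ m * u₀) * ((p : F) + (B.π ^ m * u₀) ^ (p - 1) + p * (B.π ^ m * u₀) * c) = 0 := by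
    have e3 : (B.π ^ m * u₀) ^ p = (B.π ^ m * u₀) ^ (p - 1) * (B.π ^ m * u₀) := by
      rw [← pow_succ, Nat.sub_add_cancel hp.one_le]
    linear_combination -e - e3
  have h3 := (mul_eq_zero.mp h2).resolve_left hlam0
  rw [B.p_eq, mul_pow, ← pow_mul, hme] at h3
  -- cancel `π ^ e₁`
  have h4 : B.π ^ B.e₁ * (u₀ ^ (p - 1) + B.ε + B.ε * (B.π ^ m * u₀) * c) = 0 := by
    linear_combination h3
  have h5 := (mul_eq_zero.mp h4).resolve_left (pow_ne_zero _ hπ0)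
  rw [hj, pow_succ] at h5
  rw [pow_one]
  linear_combination h5

/-- `hσlam` of (Δ3): `σ ζ = ζ ^ a` ⇒ `σ λ ≡ a λ mod π ^ (m + 1)` for `λ = ζ - 1 = π ^ m u₀`. -/
theorem Sheet.piDvd_sigma_lam (S : Sheet B) (σ : F →+* F) {ζ : F} {a : ℕ} (hσζ : σ ζ = ζ ^ a)
    {m : ℕ} (hm : 1 ≤ m) {u₀ lam : F} (hu₀ : u₀ ∈ S.W) (hlam : lam = B.π ^ m * u₀)
    (hζ : ζ = 1 + lam) : PiDvd B.π S.W (m + 1) (σ lam - a * lam) := by
  have hπW := S.π_mem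
  have hlamW : lam ∈ S.W := by
    rw [hlam]
    exact S.W.mul_mem (S.W.pow_mem hπW m) hu₀
  obtain ⟨r, hr, e⟩ := one_add_pow_eq_two_subring S.W hlamW a
  obtain ⟨j, hj⟩ : ∃ j, m = j + 1 := ⟨m - 1, by omega⟩
  have h1 : σ lam = σ ζ - 1 := by
    rw [hζ, map_add, map_one]
    ring
  refine ⟨B.π ^ j * u₀ ^ 2 * r, S.W.mul_mem (S.W.mul_mem (S.W.pow_mem hπW j) (S.W.pow_mem hu₀ 2))
    hr, ?_⟩
  rw [h1, hσζ, hζ, e, hlam, hj]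
  ring

end Fermat.Agent.NP
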