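import Mathlib
import Fermat.Agent.NP.HOSTP_helper7_ThmA
import Fermat.Agent.NP.OLDP_helper7_Hecke
import Fermat.Agent.NP.OLDP_helper7_Zeta
import Fermat.Agent.NP.OLDP_helper7_Sheet

/-!
# NP33 — helper7 — [HOSTP-TL], part 4: the Hecke depth lemmas on an `SSModel`, in `ValDepth`
language (`T_p = N_A ∘ B` on the level `M`)

* `SSModel.valDepth_hecke` : `T_p` does not lower the depth (`≥ 2`);
* `SSModel.valDepth_hecke_succ` : (C2), `T_p` raises the depth at the levels `p ∣ i`,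
  `i (p - 1) < e₁ p`;
* `SSModel.valDepth_succ_of_hecke_top` : (C3), at the top level `n (p - 1) = e₁ p`, if `T_p f` has
  depth `≥ n + 1` then so has `f` (`ζ_p - 1 = π ^ m u₀`, `m (p - 1) = e₁`).
-/

set_option autoImplicit false
set_option linter.unusedSectionVars false
set_option linter.style.haveILetI false

open IsLocalRing

namespace Fermat.Agent.NP

open Fermat.Agent.SS Fermat.Agent.JA

section Hecke

variable {R : Type*} [CommRing R] [IsDomain R] [IsDiscreteValuationRing R] [CharZero R]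
  {K₁ : Type*} [Field K₁] [Algebra R K₁] [IsFractionRing R K₁]
  {KM : Type*} [Field KM] [Algebra K₁ KM] [Algebra R KM] [IsScalarTower R K₁ KM]
  {EM : Type*} [Field EM] [Algebra KM EM] [Algebra K₁ EM] [IsScalarTower K₁ KM EM] [Algebra R EM]
  [IsScalarTower R KM EM]
  {KN : Type*} [Field KN] [Algebra K₁ KN] [Algebra R KN] [IsScalarTower R K₁ KN]
  {EN : Type*} [Field EN] [Algebra KN EN] [Algebra K₁ EN] [IsScalarTower K₁ KN EN] [Algebra R EN]
  [IsScalarTower R KN EN] [FiniteDimensional KN EN]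
  {π : R} {p n : ℕ} {S : Finset R} {t : KM} {jM : EM} {j : KN} {A B : EM →+* EN}
  {VM : ValuationSubring EM} {Winf W0 : ValuationSubring EN}
  [IsAlgClosed (IsLocalRing.ResidueField R)]
  (h : SSModel K₁ π p n S t jM j A B VM Winf W0)
  {e₁ : ℕ} (he₁ : 0 < e₁) {ε : Rˣ} (hpe : (p : R) = ε * π ^ e₁) {NA NB : EN →* EM}
  (D : SSNormData p A B VM Winf W0 NA NB)

include h he₁ hpe D

/-- `DepthGE` on the sheet of level `M` of `SSModel.twoLevel` is `ValDepth` along `V_M`. -/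
theorem SSModel.twoLevel_depthGE_iff {f : EM} {i : ℕ} :
    (SSModel.twoLevel h he₁ hpe D).SM.DepthGE f i ↔ ∃ c : K₁, c ≠ 0 ∧ ValDepth π p VM i f c :=
  hostDepthBase_depthGE_iff h.geo.irreducible h.q_prime he₁ hpe
    (GeoHyps.sheetM h.q_prime he₁ hpe h.geo VM h.gauss_M) VM rfl

/-- **`T_p` does not lower the depth.** -/
theorem SSModel.valDepth_hecke {f : EM} {i : ℕ} (hi : 2 ≤ i)
    (hf : ∃ c : K₁, c ≠ 0 ∧ ValDepth π p VM i f c) :
    ∃ c : K₁, c ≠ 0 ∧ ValDepth π p VM i (NA (B f)) c :=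
  (SSModel.twoLevel_depthGE_iff h he₁ hpe D).mp
    ((SSModel.twoLevel h he₁ hpe D).depthGE_hecke hi
      ((SSModel.twoLevel_depthGE_iff h he₁ hpe D).mpr hf))

/-- **(C2)**: `T_p` raises the depth at the middle levels `p ∣ i`. -/
theorem SSModel.valDepth_hecke_succ {f : EM} {i : ℕ} (hi : 1 ≤ i) (hpi : p ∣ i)
    (hie : i * (p - 1) < e₁ * p) (hf : ∃ c : K₁, c ≠ 0 ∧ ValDepth π p VM i f c) :
    ∃ c : K₁, c ≠ 0 ∧ ValDepth π p VM (i + 1) (NA (B f)) c :=
  (SSModel.twoLevel_depthGE_iff h he₁ hpe D).mp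
    ((SSModel.twoLevel h he₁ hpe D).depthGE_hecke_succ h.q_prime hi hpi hie
      ((SSModel.twoLevel_depthGE_iff h he₁ hpe D).mpr hf))

/-- **(C3)**: at the top level `T_p` is injective on leading terms. -/
theorem SSModel.valDepth_succ_of_hecke_top {ζ : R} (hζ : IsPrimitiveRoot ζ p) {m : ℕ}
    (hm : 1 ≤ m) (hme : m * (p - 1) = e₁) {u₀ : Rˣ} (hlam : ζ - 1 = π ^ m * u₀)
    {f : EM} {N : ℕ} (hN : 1 ≤ N) (hNe : N * (p - 1) = e₁ * p)
    (hf : ∃ c : K₁, c ≠ 0 ∧ ValDepth π p VM N f c)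
    (hT : ∃ c : K₁, c ≠ 0 ∧ ValDepth π p VM (N + 1) (NA (B f)) c) :
    ∃ c : K₁, c ≠ 0 ∧ ValDepth π p VM (N + 1) f c := by
  set T := SSModel.twoLevel h he₁ hpe D with hTdef
  have hp := h.q_prime
  have hu : IsUnitIn T.BM.R₁ (algebraMap R EM (u₀ : R)) := by
    refine ⟨⟨_, rfl⟩, ⟨((u₀⁻¹ : Rˣ) : R), ?_⟩, ?_⟩
    · apply eq_inv_of_mul_eq_one_left
      rw [← map_mul, ← Units.val_mul, inv_mul_cancel, Units.val_one, map_one]
    · intro h0
      have : algebraMap R EM ((u₀ : R) * ((u₀⁻¹ : Rˣ) : R)) = 1 := by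
        rw [← Units.val_mul, mul_inv_cancel, Units.val_one, map_one]
      rw [map_mul, h0, zero_mul] at this
      exact zero_ne_one this
  have hue : PiDvd T.BM.π T.BM.R₁ 1 (algebraMap R EM (u₀ : R) ^ (p - 1) + T.BM.ε) := by
    refine DepthBase.piDvd_unit_pow_add_eps T.BM hp (ζ := algebraMap R EM ζ) ?_ ?_ hm hme hu.1 ?_
    · rw [← map_pow, hζ.pow_eq_one, map_one]
    · intro h1
      haveI := SSModel.isDiscreteValuationRing_VM h
      have hinj := SSModel_injective_algebraMap_R h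
      have : ζ = 1 := hinj (by rw [h1, map_one])
      exact hζ.ne_one hp.one_lt this
    · show algebraMap R EM ζ - 1 = algebraMap R EM π ^ m * algebraMap R EM (u₀ : R)
      rw [← map_one (algebraMap R EM), ← map_sub, hlam, map_mul, map_pow]
  exact (SSModel.twoLevel_depthGE_iff h he₁ hpe D).mp
    (T.depthGE_succ_of_hecke_top hp hu hue hN hNe
      ((SSModel.twoLevel_depthGE_iff h he₁ hpe D).mpr hf)
      ((SSModel.twoLevel_depthGE_iff h he₁ hpe D).mpr hT))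


/-- **(Δ3)**: inertia at the top depth: if `σ` acts on `E_M` preserving `K₁`, trivially on the
residue field of `V_M`, with `σ ζ = ζ ^ a`, and `f` has depth `≥ m p` (`ζ - 1 = π ^ m u₀`,
`m (p - 1) = e₁`), then `σ f / f ^ a` has depth `≥ m p + 1`. -/
theorem SSModel.valDepth_sigma_top (σ : EM →+* EM)
    (hσK : ∀ c : K₁, ∃ c' : K₁, σ (algebraMap K₁ EM c) = algebraMap K₁ EM c')
    (hσW : ∀ y ∈ VM, VM.valuation (σ y - y) < 1)
    {ζ : R} {a : ℕ} (hσζ : σ (algebraMap R EM ζ) = algebraMap R EM ζ ^ a) {m : ℕ}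
    (hm : 1 ≤ m) {u₀ : Rˣ} (hlam : ζ - 1 = π ^ m * u₀)
    {f : EM} (hf : ∃ c : K₁, c ≠ 0 ∧ ValDepth π p VM (m * p) f c) :
    ∃ c : K₁, c ≠ 0 ∧ ValDepth π p VM (m * p + 1) (σ f / f ^ a) c := by
  set T := SSModel.twoLevel h he₁ hpe D with hTdef
  have hp := h.q_prime
  haveI := SSModel.isDiscreteValuationRing_VM h
  have hu : IsUnitIn T.BM.R₁ (algebraMap R EM (u₀ : R)) := by
    refine ⟨⟨_, rfl⟩, ⟨((u₀⁻¹ : Rˣ) : R), ?_⟩, ?_⟩
    · apply eq_inv_of_mul_eq_one_left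
      rw [← map_mul, ← Units.val_mul, inv_mul_cancel, Units.val_one, map_one]
    · intro h0
      have : algebraMap R EM ((u₀ : R) * ((u₀⁻¹ : Rˣ) : R)) = 1 := by
        rw [← Units.val_mul, mul_inv_cancel, Units.val_one, map_one]
      rw [map_mul, h0, zero_mul] at this
      exact zero_ne_one this
  have hlamE : algebraMap R EM (ζ - 1) = T.BM.π ^ m * algebraMap R EM (u₀ : R) := by
    rw [hlam, map_mul, map_pow]
    rfl
  have hζE : algebraMap R EM ζ = 1 + algebraMap R EM (ζ - 1) := by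
    rw [map_sub, map_one]
    ring
  have hσK' : ∀ c ∈ T.BM.K₁, σ c ∈ T.BM.K₁ := by
    rintro c ⟨c', rfl⟩
    obtain ⟨c'', e⟩ := hσK c'
    exact ⟨c'', e.symm⟩
  have hσW' : ∀ y ∈ T.SM.W, PiDvd T.BM.π T.SM.W 1 (σ y - y) := by
    intro y hy
    have hy' : y ∈ VM := hy
    refine ⟨(σ y - y) * (algebraMap R EM π)⁻¹, SSModel_div_pi_mem h (hσW y hy'), ?_⟩
    have := SSModel_piM_ne_zero h
    show σ y - y = algebraMap R EM π ^ 1 * ((σ y - y) * (algebraMap R EM π)⁻¹)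
    field_simp
  have hσlam := Sheet.piDvd_sigma_lam T.SM σ hσζ hm (T.SM.R₁_le hu.1) hlamE hζE
  exact (SSModel.twoLevel_depthGE_iff h he₁ hpe D).mp
    (T.SM.depthGE_sigma_top hp σ hσK' hσW' hm hu hlamE a hσlam
      ((SSModel.twoLevel_depthGE_iff h he₁ hpe D).mpr hf))

end Hecke

end Fermat.Agent.NP
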