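import Mathlib
import Fermat.Agent.NP.HOSTP_helper7_HeckeCons

/-!
# NP33 — helper7 — OLD-TOP, part 1: depth `≥ 1` from a twisted-invariance `σ f / f ^ a ∈ K₁ˣ Eˣᵖ`
-/

set_option autoImplicit false
set_option linter.unusedSectionVars false
set_option linter.style.haveILetI false

open IsLocalRing

namespace Fermat.Agent.NP

open Fermat.Agent.SS Fermat.Agent.JA

section Sat

variable {F : Type*} [Field F] {p : ℕ} {B : DepthBase F p} (S : Sheet B)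

/-- a unit of the sheet which is `≡ 1` modulo `π`, in product form. -/
theorem Sheet.eq_one_add_of_piDvd_sub_one {x : F} (h : PiDvd B.π S.W 1 (x - 1)) :
    ∃ s ∈ S.W, x = 1 + B.π ^ 1 * s := by
  obtain ⟨s, hs, e⟩ := h
  exact ⟨s, hs, by linear_combination e⟩

/-- a power of `π` which is a unit of the sheet is trivial. -/
theorem Sheet.zpow_unit_eq_zero {k : ℤ} (h : IsUnitIn S.W (B.π ^ k)) : k = 0 := by
  have hπ0 := B.π_ne_zero
  have aux : ∀ k : ℤ, 0 < k → IsUnitIn S.W (B.π ^ k) → False := by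
    intro k hk hu
    apply S.π_inv_notMem
    have e : B.π⁻¹ = B.π ^ (k - 1) * (B.π ^ k)⁻¹ := by
      rw [zpow_sub₀ hπ0, zpow_one]
      have := zpow_ne_zero k hπ0
      field_simp
    rw [e]
    exact S.W.mul_mem (S.zpow_π_mem (by omega)) hu.2.1
  by_contra hk
  rcases lt_or_gt_of_ne hk with hneg | hpos
  · have h' : IsUnitIn S.W (B.π ^ (-k)) := by rw [zpow_neg]; exact h.inv
    exact aux (-k) (by omega) h'
  · exact aux k hpos h

/-- integer powers of `1 + π ^ i s`. -/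
theorem Sheet.one_add_zpow {i : ℕ} (hi : 1 ≤ i) {s : F} (hs : s ∈ S.W) (x : ℤ) :
    ∃ s' ∈ S.W, (1 + B.π ^ i * s) ^ x = 1 + B.π ^ i * s' := by
  have hπi : B.π ^ i ∈ S.W := S.W.pow_mem S.π_mem i
  have nat : ∀ (t : F), t ∈ S.W → ∀ n : ℕ, ∃ s' ∈ S.W, (1 + B.π ^ i * t) ^ n = 1 + B.π ^ i * s' := by
    intro t ht n
    obtain ⟨r, hr, e⟩ := one_add_pow_eq_subring S.W (S.W.mul_mem hπi ht) n
    exact ⟨t * r, S.W.mul_mem ht hr, by rw [e]; ring⟩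
  rcases Int.eq_nat_or_neg x with ⟨n, rfl | rfl⟩
  · rw [zpow_natCast]
    exact nat s hs n
  · have hu := S.isUnitIn_one_add_pow_mul hi hs
    have einv : (1 + B.π ^ i * s)⁻¹ = 1 + B.π ^ i * (-s * (1 + B.π ^ i * s)⁻¹) := by
      have := hu.2.2
      field_simp
      ring
    rw [zpow_neg, zpow_natCast, ← inv_pow, einv]
    exact nat _ (S.W.mul_mem (S.W.neg_mem hs) hu.2.1) n

/-- **depth `≥ 1` from twisted invariance**: if `σ` preserves the constants, is trivial on the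
residue field of the sheet, and `σ f / f ^ a = c w ^ p` with `c` a non-zero constant and
`a - 1` prime to `p`, then `f` has depth `≥ 1`. -/
theorem Sheet.depthGE_one_of_sigma (σ : F →+* F) (hσK : ∀ c ∈ B.K₁, σ c ∈ B.K₁)
    (hσW : ∀ y ∈ S.W, PiDvd B.π S.W 1 (σ y - y)) {a : ℕ} {x y : ℤ}
    (hxy : x * ((a : ℤ) - 1) + y * (p : ℤ) = 1) {f : F} (hf : f ≠ 0)
    (h : ∃ c ∈ B.K₁, ∃ w : F, c ≠ 0 ∧ w ≠ 0 ∧ σ f / f ^ a = c * w ^ p) : S.DepthGE f 1 := by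
  obtain ⟨c, hc, w, hc0, hw0, e⟩ := h
  have hπ0 := B.π_ne_zero
  have hπW := S.π_mem
  -- `f = π ^ n u`
  obtain ⟨n, u, hu, hu', rfl⟩ := S.unif f hf
  have hu0 : u ≠ 0 := right_ne_zero_of_mul hf
  have hU : IsUnitIn S.W u := ⟨hu, hu', hu0⟩
  -- `σ (π ^ n)` is a constant
  have hπn : B.π ^ n ∈ B.K₁ := B.K₁.zpow_mem (B.R₁_le _ B.π_mem) n
  have hσπn := hσK _ hπn
  have hσπn0 : σ (B.π ^ n) ≠ 0 := (map_ne_zero σ).mpr (zpow_ne_zero n hπ0)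
  -- `σ u / u ^ a = c₁ w ^ p`
  set c₁ : F := c * (B.π ^ n) ^ a * (σ (B.π ^ n))⁻¹ with hc₁
  have hc₁K : c₁ ∈ B.K₁ :=
    B.K₁.mul_mem (B.K₁.mul_mem hc (B.K₁.pow_mem hπn a)) (B.K₁.inv_mem hσπn)
  have hc₁0 : c₁ ≠ 0 :=
    mul_ne_zero (mul_ne_zero hc0 (pow_ne_zero a (zpow_ne_zero n hπ0))) (inv_ne_zero hσπn0)
  have hua0 : u ^ a ≠ 0 := pow_ne_zero a hu0
  have e₁ : σ u / u ^ a = c₁ * w ^ p := by
    have h1 : σ (B.π ^ n * u) / (B.π ^ n * u) ^ a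
        = σ (B.π ^ n) * ((B.π ^ n) ^ a)⁻¹ * (σ u / u ^ a) := by
      rw [map_mul, mul_pow]
      have := pow_ne_zero a (zpow_ne_zero n hπ0)
      field_simp
    rw [h1] at e
    rw [hc₁]
    have h2 := pow_ne_zero a (zpow_ne_zero n hπ0)
    field_simp
    field_simp at e
    linear_combination e
  -- `σ u` is a unit, `σ u ≡ u`
  obtain ⟨r, hr, er⟩ := hσW u hu
  have hσu : σ u = u * (1 + B.π ^ 1 * (r * u⁻¹)) := by
    field_simp
    linear_combination er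
  have hone : IsUnitIn S.W (1 + B.π ^ 1 * (r * u⁻¹)) :=
    S.isUnitIn_one_add_pow_mul le_rfl (S.W.mul_mem hr hu')
  have hσU : IsUnitIn S.W (σ u) := by
    rw [hσu]; exact hU.mul hone
  -- `X = σ u / u ^ a` is a unit
  have hX : IsUnitIn S.W (σ u / u ^ a) := by
    rw [div_eq_mul_inv]; exact hσU.mul (hU.pow a).inv
  -- decompose `c₁` and `w`
  obtain ⟨b, c₂, hc₂, hc₂', ec⟩ := B.unif_const c₁ hc₁K hc₁0
  obtain ⟨d, w₁, hw₁, hw₁', ew⟩ := S.unif w hw0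
  have hc₂0 : c₂ ≠ 0 := by
    rintro rfl
    rw [mul_zero] at ec
    exact hc₁0 ec
  have hw₁0 : w₁ ≠ 0 := by
    rintro rfl
    rw [mul_zero] at ew
    exact hw0 ew
  have hC₂ : IsUnitIn S.W c₂ := ⟨S.R₁_le hc₂, S.R₁_le hc₂', hc₂0⟩
  have hW₁ : IsUnitIn S.W w₁ := ⟨hw₁, hw₁', hw₁0⟩
  have eX : σ u / u ^ a = B.π ^ (b + d * (p : ℤ)) * (c₂ * w₁ ^ p) := by
    rw [e₁, ec, ew, mul_pow, zpow_add₀ hπ0, zpow_mul, zpow_natCast]
    ring
  have hbd : b + d * (p : ℤ) = 0 := by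
    have hY : IsUnitIn S.W (c₂ * w₁ ^ p) := hC₂.mul (hW₁.pow p)
    have hZ : IsUnitIn S.W (B.π ^ (b + d * (p : ℤ))) := by
      have e2 : B.π ^ (b + d * (p : ℤ)) = σ u / u ^ a * (c₂ * w₁ ^ p)⁻¹ := by
        rw [eX]
        have := hY.2.2
        field_simp
      rw [e2]
      exact hX.mul hY.inv
    exact S.zpow_unit_eq_zero hZ
  rw [hbd, zpow_zero, one_mul] at eX
  -- `u = (c₂ w₁^p)^{-x} u^{y p} (σ u / u)^{x}`
  have key : u = (c₂ ^ (-x)) * (w₁ ^ (-x) * u ^ y) ^ p * ((σ u / u) ^ x) := by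
    have h1 : σ u / u = (c₂ * w₁ ^ p) * u ^ ((a : ℤ) - 1) := by
      rw [← eX, zpow_sub₀ hu0, zpow_natCast, zpow_one]
      field_simp
    have h2 : u = u ^ (x * ((a : ℤ) - 1) + y * (p : ℤ)) := by rw [hxy, zpow_one]
    have hcw : c₂ * w₁ ^ p ≠ 0 := mul_ne_zero hc₂0 (pow_ne_zero p hw₁0)
    rw [h1, mul_zpow, ← zpow_natCast (w₁ ^ (-x) * u ^ y), mul_zpow, mul_zpow, ← zpow_mul,
      ← zpow_mul, ← zpow_mul, ← zpow_natCast w₁ p, ← zpow_mul]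
    conv_lhs => rw [h2]
    rw [zpow_add₀ hu0]
    have e3 : c₂ ^ (-x) * (w₁ ^ (-x * (p : ℤ)) * u ^ (y * (p : ℤ))) *
        (c₂ ^ x * w₁ ^ ((p : ℤ) * x) * u ^ (((a : ℤ) - 1) * x))
        = (c₂ ^ (-x) * c₂ ^ x) * (w₁ ^ (-x * (p : ℤ)) * w₁ ^ ((p : ℤ) * x)) *
          (u ^ (((a : ℤ) - 1) * x) * u ^ (y * (p : ℤ))) := by ring
    rw [e3, ← zpow_add₀ hc₂0, ← zpow_add₀ hw₁0, neg_add_cancel, zpow_zero,
      show -x * (p : ℤ) + (p : ℤ) * x = 0 by ring, zpow_zero, one_mul, one_mul,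
      mul_comm ((a : ℤ) - 1) x]
  -- `(σ u / u) ^ x ≡ 1`
  have hquot : σ u / u = 1 + B.π ^ 1 * (r * u⁻¹) := by
    rw [hσu]
    field_simp
  have hpow : ∃ s ∈ S.W, (σ u / u) ^ x = 1 + B.π ^ 1 * s := by
    rw [hquot]
    exact S.one_add_zpow le_rfl (S.W.mul_mem hr hu') x
  obtain ⟨s, hs, es⟩ := hpow
  refine S.depthGE_iff.mpr ⟨B.π ^ n * c₂ ^ (-x), ?_, w₁ ^ (-x) * u ^ y, s, ?_, ?_, hs, ?_⟩
  · exact B.K₁.mul_mem hπn (B.K₁.zpow_mem (B.R₁_le _ hc₂) _)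
  · exact mul_ne_zero (zpow_ne_zero n hπ0) (zpow_ne_zero _ hc₂0)
  · exact mul_ne_zero (zpow_ne_zero _ hw₁0) (zpow_ne_zero _ hu0)
  · rw [← es]
    conv_lhs => rw [key]
    ring

end Sat


section Core

variable {R : Type*} [CommRing R] [IsDomain R] [IsDiscreteValuationRing R] [CharZero R]
  {K₁ : Type*} [Field K₁] [Algebra R K₁] [IsFractionRing R K₁]
  {KM : Type*} [Field KM] [Algebra K₁ KM] [Algebra R KM] [IsScalarTower R K₁ KM]
  {EM : Type*} [Field EM] [Algebra KM EM] [Algebra K₁ EM] [IsScalarTower K₁ KM EM] [Algebra R EM]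
  [IsScalarTower R KM EM]
  {KN : Type*} [Field KN] [Algebra K₁ KN] [Algebra R KN] [IsScalarTower R K₁ KN]
  {EN : Type*} [Field EN] [Algebra KN EN] [Algebra K₁ EN] [IsScalarTower K₁ KN EN] [Algebra R EN]
  [IsScalarTower R KN EN] [FiniteDimensional KN EN]
  {π : R} {p n : ℕ} {S : Finset R} {t : KM} {jM : EM} {j : KN} {A B : EM →+* EN}
  {VM : ValuationSubring EM} {Winf W0 : ValuationSubring EN}
  [IsAlgClosed (IsLocalRing.ResidueField R)]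

/-- **depth `≥ 1` from twisted invariance, on an `SSModel`** (`ValDepth` language). -/
theorem SSModel.valDepth_one_of_sigma (h : SSModel K₁ π p n S t jM j A B VM Winf W0)
    {e₁ : ℕ} (he₁ : 0 < e₁) {ε : Rˣ} (hpe : (p : R) = ε * π ^ e₁) {NA NB : EN →* EM}
    (D : SSNormData p A B VM Winf W0 NA NB) (σ : EM →+* EM)
    (hσK : ∀ c : K₁, ∃ c' : K₁, σ (algebraMap K₁ EM c) = algebraMap K₁ EM c')
    (hσW : ∀ y ∈ VM, VM.valuation (σ y - y) < 1) {a : ℕ} (ha : ¬ a ≡ 1 [MOD p])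
    {f : EM} (hf : f ≠ 0)
    (hσf : ∃ (c : K₁) (w : EM), c ≠ 0 ∧ σ f / f ^ a = algebraMap K₁ EM c * w ^ p) :
    ∃ c : K₁, c ≠ 0 ∧ ValDepth π p VM 1 f c := by
  set T := SSModel.twoLevel h he₁ hpe D with hTdef
  have hp := h.q_prime
  haveI := SSModel.isDiscreteValuationRing_VM h
  have hσK' : ∀ c ∈ T.BM.K₁, σ c ∈ T.BM.K₁ := by
    rintro c ⟨c', rfl⟩
    obtain ⟨c'', e⟩ := hσK c'
    exact ⟨c'', e.symm⟩
  have hσW' : ∀ y ∈ T.SM.W, PiDvd T.BM.π T.SM.W 1 (σ y - y) := by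
    intro y hy
    have hy' : y ∈ VM := hy
    refine ⟨(σ y - y) * (algebraMap R EM π)⁻¹, SSModel_div_pi_mem h (hσW y hy'), ?_⟩
    have := SSModel_piM_ne_zero h
    show σ y - y = algebraMap R EM π ^ 1 * ((σ y - y) * (algebraMap R EM π)⁻¹)
    field_simp
  have hcop : IsCoprime ((a : ℤ) - 1) (p : ℤ) := by
    rw [isCoprime_comm, (Nat.prime_iff_prime_int.mp hp).irreducible.coprime_iff_not_dvd]
    intro hd
    apply ha
    rw [Nat.modEq_iff_dvd]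
    have : ((1 : ℕ) : ℤ) - (a : ℤ) = -((a : ℤ) - 1) := by push_cast; ring
    rw [this]
    exact (dvd_neg).mpr hd
  obtain ⟨x, y, hxy⟩ := hcop
  obtain ⟨c, w, hc0, e⟩ := hσf
  have hσf0 : σ f / f ^ a ≠ 0 := div_ne_zero ((map_ne_zero σ).mpr hf) (pow_ne_zero a hf)
  have hw0 : w ≠ 0 := by
    rintro rfl
    rw [zero_pow hp.ne_zero, mul_zero] at e
    exact hσf0 e
  exact (SSModel.twoLevel_depthGE_iff h he₁ hpe D).mp
    (T.SM.depthGE_one_of_sigma σ hσK' hσW' hxy hf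
      ⟨algebraMap K₁ EM c, ⟨c, rfl⟩, w, (map_ne_zero _).mpr hc0, hw0, e⟩)

/-- **OLD-TOP, core**: at a base with `e₁ = p - 1` (uniformizer `ζ_p - 1` up to a unit), a function
`f` of level `M` with `σ f / f ^ a ∈ K₁ˣ Eˣᵖ` (`a ≢ 1`), `T_p f ∈ K₁ˣ Eˣᵖ`, which satisfies the
regularity step (C1) at the depths `1 ≤ i < p` and the Kummer step (Δ6) at depth `p + 1`, is in
`K₁ˣ Eˣᵖ`. -/
theorem SSModel.oldTop_core (h : SSModel K₁ π p n S t jM j A B VM Winf W0)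
    {ε : Rˣ} (hpe : (p : R) = ε * π ^ (p - 1)) {NA NB : EN →* EM}
    (D : SSNormData p A B VM Winf W0 NA NB)
    {ζ : R} (hζ : IsPrimitiveRoot ζ p) {u₀ : Rˣ} (hlam : ζ - 1 = π ^ 1 * u₀)
    (σ : EM →+* EM)
    (hσK : ∀ c : K₁, ∃ c' : K₁, σ (algebraMap K₁ EM c) = algebraMap K₁ EM c')
    (hσW : ∀ y ∈ VM, VM.valuation (σ y - y) < 1) {a : ℕ} (ha : ¬ a ≡ 1 [MOD p])
    {f : EM} (hf : f ≠ 0)
    (hC1 : ∀ i : ℕ, 1 ≤ i → ¬ p ∣ i → i * (p - 1) ≤ (p - 1) * p →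
      (∃ c : K₁, c ≠ 0 ∧ ValDepth π p VM i f c) → ∃ c : K₁, c ≠ 0 ∧ ValDepth π p VM (i + 1) f c)
    (hD6 : (∃ c : K₁, c ≠ 0 ∧ ValDepth π p VM (p + 1) f c) →
      ∃ (c : K₁) (u : EM), c ≠ 0 ∧ f = algebraMap K₁ EM c * u ^ p)
    (hσf : ∃ (c : K₁) (w : EM), c ≠ 0 ∧ σ f / f ^ a = algebraMap K₁ EM c * w ^ p)
    (hT : ∃ (c : K₁) (w : EM), c ≠ 0 ∧ NA (B f) = algebraMap K₁ EM c * w ^ p) :
    ∃ (c : K₁) (u : EM), c ≠ 0 ∧ f = algebraMap K₁ EM c * u ^ p := by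
  have hp := h.q_prime
  have he₁ : 0 < p - 1 := Nat.sub_pos_of_lt hp.one_lt
  set T := SSModel.twoLevel h he₁ hpe D with hTdef
  have h1 := SSModel.valDepth_one_of_sigma h he₁ hpe D σ hσK hσW ha hf hσf
  -- climb to depth `p`
  have climb : ∀ i : ℕ, 1 ≤ i → i ≤ p → ∃ c : K₁, c ≠ 0 ∧ ValDepth π p VM i f c := by
    intro i hi
    induction i, hi using Nat.le_induction with
    | base => intro _; exact h1
    | succ i hi ih =>
      intro hip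
      have hlt : i < p := by omega
      refine hC1 i hi (fun hd => ?_) ?_ (ih (by omega))
      · exact absurd (Nat.le_of_dvd (by omega) hd) (by omega)
      · rw [mul_comm]
        exact Nat.mul_le_mul_left _ hlt.le
  have hdp := climb p hp.one_le le_rfl
  -- `T_p f` has infinite depth
  obtain ⟨c, w, hc0, e⟩ := hT
  have hTf0 : NA (B f) ≠ 0 := T.NA_ne_zero ((map_ne_zero B).mpr hf)
  have hw0 : w ≠ 0 := by
    rintro rfl
    rw [zero_pow hp.ne_zero, mul_zero] at e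
    exact hTf0 e
  have hTd : ∃ c : K₁, c ≠ 0 ∧ ValDepth π p VM (p + 1) (NA (B f)) c :=
    ⟨c, hc0, w, hw0, 0, VM.zero_mem, by rw [e]; ring⟩
  -- (C3) at the top depth `p`
  have htop := SSModel.valDepth_succ_of_hecke_top h he₁ hpe D hζ (m := 1) le_rfl (one_mul _) hlam
    hp.one_le (mul_comm _ _) hdp hTd
  exact hD6 htop

end Core

end Fermat.Agent.NP
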