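import Mathlib
import Fermat.Agent.NP.OLDTOP_helper7_Core

/-!
# NP33 — helper7 — saturation on a sheet

`S.IsConstRes u` : `u = c (1 + π s)`, `c` a non-zero constant, `s ∈ W` ("`u` is a constant modulo
`π`", no `p`-th power factor).  Closed under products and inverses; contains the coboundaries
`σ g / g` of an endomorphism `σ` preserving the constants and trivial on the residue field of the
sheet; and **saturated**: `f ^ (p ^ k)` constant modulo `π` ⇒ `f` constant modulo `π` (the residue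
field of `R₁` is perfect and `p`-closed in that of the sheet).
-/

set_option autoImplicit false
set_option linter.unusedSectionVars false
set_option linter.style.haveILetI false

namespace Fermat.Agent.NP

section Sat

variable {F : Type*} [Field F] {p : ℕ} {B : DepthBase F p} (S : Sheet B)

/-- `u` is a non-zero constant modulo `π` along the sheet. -/
def Sheet.IsConstRes (u : F) : Prop :=
  ∃ c ∈ B.K₁, ∃ s ∈ S.W, c ≠ 0 ∧ u = c * (1 + B.π ^ 1 * s)

variable {S}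

theorem Sheet.IsConstRes.ne_zero {u : F} (h : S.IsConstRes u) : u ≠ 0 := by
  obtain ⟨c, _, s, hs, hc0, rfl⟩ := h
  exact mul_ne_zero hc0 (S.isUnitIn_one_add_pow_mul le_rfl hs).2.2

theorem Sheet.IsConstRes.depthGE {u : F} (h : S.IsConstRes u) : S.DepthGE u 1 := by
  obtain ⟨c, hc, s, hs, hc0, rfl⟩ := h
  exact S.depthGE_iff.mpr ⟨c, hc, 1, s, hc0, one_ne_zero, hs, by ring⟩

variable (S)

theorem Sheet.isConstRes_one : S.IsConstRes 1 :=
  ⟨1, B.K₁.one_mem, 0, S.W.zero_mem, one_ne_zero, by ring⟩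

theorem Sheet.isConstRes_const {c : F} (hc : c ∈ B.K₁) (hc0 : c ≠ 0) : S.IsConstRes c :=
  ⟨c, hc, 0, S.W.zero_mem, hc0, by ring⟩

variable {S}

theorem Sheet.IsConstRes.mul {u v : F} (hu : S.IsConstRes u) (hv : S.IsConstRes v) :
    S.IsConstRes (u * v) := by
  obtain ⟨c, hc, s, hs, hc0, rfl⟩ := hu
  obtain ⟨c', hc', s', hs', hc0', rfl⟩ := hv
  refine ⟨c * c', B.K₁.mul_mem hc hc', s + s' + B.π ^ 1 * (s * s'), ?_, mul_ne_zero hc0 hc0', ?_⟩
  · exact S.W.add_mem (S.W.add_mem hs hs')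
      (S.W.mul_mem (S.W.pow_mem S.π_mem 1) (S.W.mul_mem hs hs'))
  · ring

theorem Sheet.IsConstRes.inv {u : F} (hu : S.IsConstRes u) : S.IsConstRes u⁻¹ := by
  obtain ⟨c, hc, s, hs, hc0, rfl⟩ := hu
  have hU := S.isUnitIn_one_add_pow_mul le_rfl hs
  refine ⟨c⁻¹, B.K₁.inv_mem hc, -s * (1 + B.π ^ 1 * s)⁻¹,
    S.W.mul_mem (S.W.neg_mem hs) hU.2.1, inv_ne_zero hc0, ?_⟩
  have h0 := hU.2.2
  have h1 : (1 + B.π ^ 1 * s)⁻¹ = 1 + B.π ^ 1 * (-s * (1 + B.π ^ 1 * s)⁻¹) := by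
    have h2 : (1 + B.π ^ 1 * s) * (1 + B.π ^ 1 * s)⁻¹ = 1 := mul_inv_cancel₀ h0
    linear_combination h2
  rw [mul_inv, ← h1]

theorem Sheet.IsConstRes.pow {u : F} (hu : S.IsConstRes u) (n : ℕ) : S.IsConstRes (u ^ n) := by
  induction n with
  | zero => rw [pow_zero]; exact S.isConstRes_one
  | succ n ih => rw [pow_succ]; exact ih.mul hu

/-- the coboundaries of an endomorphism preserving the constants and trivial on the residue field
of the sheet are constant modulo `π`. -/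
theorem Sheet.isConstRes_cob (σ : F →+* F) (hσK : ∀ c ∈ B.K₁, σ c ∈ B.K₁)
    (hσW : ∀ y ∈ S.W, PiDvd B.π S.W 1 (σ y - y)) {g : F} (hg : g ≠ 0) :
    S.IsConstRes (σ g / g) := by
  have hπ0 := B.π_ne_zero
  obtain ⟨n, v, hv, hv', rfl⟩ := S.unif g hg
  have hv0 : v ≠ 0 := right_ne_zero_of_mul hg
  have hπn : B.π ^ n ∈ B.K₁ := B.K₁.zpow_mem (B.R₁_le _ B.π_mem) n
  have hσπn0 : σ (B.π ^ n) ≠ 0 := (map_ne_zero σ).mpr (zpow_ne_zero n hπ0)
  obtain ⟨r, hr, er⟩ := hσW v hv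
  refine ⟨σ (B.π ^ n) * (B.π ^ n)⁻¹, B.K₁.mul_mem (hσK _ hπn) (B.K₁.inv_mem hπn), r * v⁻¹,
    S.W.mul_mem hr hv', mul_ne_zero hσπn0 (inv_ne_zero (zpow_ne_zero n hπ0)), ?_⟩
  have hσv : σ v = v + B.π ^ 1 * r := by linear_combination er
  rw [map_mul, hσv]
  have := zpow_ne_zero n hπ0
  field_simp

/-- **saturation, one step**: `f ^ p` constant modulo `π` ⇒ `f` constant modulo `π`. -/
theorem Sheet.IsConstRes.of_pow_p {f : F} (h : S.IsConstRes (f ^ p)) (hp : p ≠ 0) :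
    S.IsConstRes f := by
  have hπ0 := B.π_ne_zero
  have hf : f ≠ 0 := by
    intro h0
    apply h.ne_zero
    rw [h0, zero_pow hp]
  obtain ⟨c, hc, s, hs, hc0, e⟩ := h
  obtain ⟨a, f₁, hf₁, hf₁', rfl⟩ := S.unif f hf
  have hf₁0 : f₁ ≠ 0 := right_ne_zero_of_mul hf
  have hU₁ : IsUnitIn S.W f₁ := ⟨hf₁, hf₁', hf₁0⟩
  have hU := S.isUnitIn_one_add_pow_mul le_rfl hs
  -- the constant `c' = c π ^ (- a p)` is a unit of `W`, congruent to `f₁ ^ p`
  set c' : F := c * (B.π ^ a)⁻¹ ^ p with hc'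
  have hπa : B.π ^ a ∈ B.K₁ := B.K₁.zpow_mem (B.R₁_le _ B.π_mem) a
  have hc'K : c' ∈ B.K₁ := B.K₁.mul_mem hc (B.K₁.pow_mem (B.K₁.inv_mem hπa) p)
  have e₁ : f₁ ^ p = c' * (1 + B.π ^ 1 * s) := by
    rw [mul_pow] at e
    rw [hc', inv_pow]
    have := pow_ne_zero p (zpow_ne_zero a hπ0)
    field_simp
    linear_combination e
  have hc'W : c' ∈ S.W := by
    have : c' = f₁ ^ p * (1 + B.π ^ 1 * s)⁻¹ := by
      rw [e₁, mul_assoc, mul_inv_cancel₀ hU.2.2, mul_one]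
    rw [this]
    exact S.W.mul_mem (S.W.pow_mem hf₁ p) hU.2.1
  have hc'R : c' ∈ B.R₁ := S.const_mem c' hc'K hc'W
  have hcong : PiDvd B.π S.W 1 (f₁ ^ p - c') :=
    ⟨c' * s, S.W.mul_mem hc'W hs, by rw [e₁]; ring⟩
  obtain ⟨a', ha', s₂, hs₂, e₂⟩ := S.pclosed hf₁ hc'R hcong
  -- `a'` is a unit of `W`
  have hA' : IsUnitIn S.W a' := by
    refine S.isUnitIn_of_piDvd_sub le_rfl hU₁ ⟨-s₂, S.W.neg_mem hs₂, ?_⟩
    linear_combination -e₂
  refine ⟨B.π ^ a * a', B.K₁.mul_mem hπa (B.R₁_le _ ha'), s₂ * a'⁻¹, S.W.mul_mem hs₂ hA'.2.1,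
    mul_ne_zero (zpow_ne_zero a hπ0) hA'.2.2, ?_⟩
  have hf₁e : f₁ = a' + B.π ^ 1 * s₂ := by linear_combination e₂
  rw [hf₁e]
  have := hA'.2.2
  field_simp

/-- **saturation**: `f ^ (p ^ k)` constant modulo `π` ⇒ `f` constant modulo `π`. -/
theorem Sheet.IsConstRes.of_pow_p_pow (hp : p ≠ 0) {f : F} (k : ℕ)
    (h : S.IsConstRes (f ^ p ^ k)) : S.IsConstRes f := by
  induction k generalizing f with
  | zero => rwa [pow_zero, pow_one] at h
  | succ k ih =>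
    rw [pow_succ, pow_mul] at h
    exact ih (h.of_pow_p hp)

/-- **the saturation lemma on a sheet**: if `f ^ (p ^ k) = c u` with `c` a non-zero constant and
`u` in the subgroup generated by coboundaries `σ g / g` of endomorphisms `σ` preserving the
constants and trivial on the residue field of the sheet, then `f` has depth `≥ 1`. -/
theorem Sheet.depthGE_one_of_split (hp : p ≠ 0) {f : F} {k : ℕ} {c u : F} (hc : c ∈ B.K₁)
    (hc0 : c ≠ 0) (hu : S.IsConstRes u) (e : f ^ p ^ k = c * u) : S.DepthGE f 1 := by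
  have h1 : S.IsConstRes (f ^ p ^ k) := by
    rw [e]
    exact (S.isConstRes_const hc hc0).mul hu
  exact (h1.of_pow_p_pow hp k).depthGE

/-- the subgroup generated by the coboundaries of a set of endomorphisms preserving the constants
and trivial on the residue field of the sheet consists of constants modulo `π`. -/
theorem Sheet.isConstRes_of_mem_closure (G : Set (F →+* F))
    (hG : ∀ σ ∈ G, (∀ c ∈ B.K₁, σ c ∈ B.K₁) ∧ ∀ y ∈ S.W, PiDvd B.π S.W 1 (σ y - y)) {u : Fˣ}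
    (hu : u ∈ Subgroup.closure
      {u : Fˣ | ∃ (g : Fˣ) (σ : F →+* F), σ ∈ G ∧ (u : F) = σ (g : F) / (g : F)}) :
    S.IsConstRes (u : F) := by
  induction hu using Subgroup.closure_induction with
  | mem x hx =>
    obtain ⟨g, σ, hσ, e⟩ := hx
    rw [e]
    exact S.isConstRes_cob σ (hG σ hσ).1 (hG σ hσ).2 g.ne_zero
  | one => rw [Units.val_one]; exact S.isConstRes_one
  | mul x y _ _ hx hy => rw [Units.val_mul]; exact hx.mul hy
  | inv x _ hx => rw [Units.val_inv_eq_inv_val]; exact hx.inv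

/-- the coboundaries of an endomorphism multiplying `π` by a unit of `R₁` and trivial on the
residue field of the sheet are units of the sheet. -/
theorem Sheet.isUnitIn_cob (σ : F →+* F)
    (hσπ : ∃ c₀ ∈ B.R₁, c₀⁻¹ ∈ B.R₁ ∧ σ B.π = c₀ * B.π)
    (hσW : ∀ y ∈ S.W, PiDvd B.π S.W 1 (σ y - y)) {g : F} (hg : g ≠ 0) :
    IsUnitIn S.W (σ g / g) := by
  have hπ0 := B.π_ne_zero
  obtain ⟨c₀, hc₀, hc₀', eπ⟩ := hσπ
  have hc₀0 : c₀ ≠ 0 := by
    rintro rfl
    rw [zero_mul] at eπ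
    exact hπ0 ((map_eq_zero σ).mp eπ)
  have hC₀ : IsUnitIn S.W c₀ := ⟨S.R₁_le hc₀, S.R₁_le hc₀', hc₀0⟩
  obtain ⟨n, v, hv, hv', rfl⟩ := S.unif g hg
  have hv0 : v ≠ 0 := right_ne_zero_of_mul hg
  obtain ⟨r, hr, er⟩ := hσW v hv
  have hσv : σ v = v * (1 + B.π ^ 1 * (r * v⁻¹)) := by
    field_simp
    linear_combination er
  have hone : IsUnitIn S.W (1 + B.π ^ 1 * (r * v⁻¹)) :=
    S.isUnitIn_one_add_pow_mul le_rfl (S.W.mul_mem hr hv')
  have hzpow : ∀ n : ℤ, IsUnitIn S.W (c₀ ^ n) := by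
    intro n
    rcases Int.eq_nat_or_neg n with ⟨m, rfl | rfl⟩
    · rw [zpow_natCast]; exact hC₀.pow m
    · rw [zpow_neg, zpow_natCast]; exact (hC₀.pow m).inv
  have e : σ (B.π ^ n * v) / (B.π ^ n * v) = c₀ ^ n * (1 + B.π ^ 1 * (r * v⁻¹)) := by
    rw [map_mul, map_zpow₀, eπ, hσv, mul_zpow]
    have := zpow_ne_zero n hπ0
    field_simp
  rw [e]
  exact (hzpow n).mul hone

theorem Sheet.isUnitIn_of_mem_closure (G : Set (F →+* F))
    (hG : ∀ σ ∈ G, (∃ c₀ ∈ B.R₁, c₀⁻¹ ∈ B.R₁ ∧ σ B.π = c₀ * B.π) ∧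
      ∀ y ∈ S.W, PiDvd B.π S.W 1 (σ y - y)) {u : Fˣ}
    (hu : u ∈ Subgroup.closure
      {u : Fˣ | ∃ (g : Fˣ) (σ : F →+* F), σ ∈ G ∧ (u : F) = σ (g : F) / (g : F)}) :
    IsUnitIn S.W (u : F) := by
  induction hu using Subgroup.closure_induction with
  | mem x hx =>
    obtain ⟨g, σ, hσ, e⟩ := hx
    rw [e]
    exact S.isUnitIn_cob σ (hG σ hσ).1 (hG σ hσ).2 g.ne_zero
  | one => rw [Units.val_one]; exact ⟨S.W.one_mem, by rw [inv_one]; exact S.W.one_mem, one_ne_zero⟩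
  | mul x y _ _ hx hy => rw [Units.val_mul]; exact hx.mul hy
  | inv x _ hx => rw [Units.val_inv_eq_inv_val]; exact hx.inv

end Sat

end Fermat.Agent.NP
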