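import Mathlib
import Fermat.Agent.NP.SAT_helper7_Sheet
import Fermat.Agent.NP.HOSTP_helper7_ThmA

/-!
# NP33 — helper7 — NEW-BASE, part 1: saturation on the two sheets of the semistable level

For `f ^ (p ^ k) = c u` with `c` a non-zero constant and `u` in the subgroup generated by the
coboundaries of a set of endomorphisms preserving the constants, multiplying `π` by a unit of `R`
and trivial on the residue fields of both sheets:  `f` has the same order `a` along `W_∞` and `W_0`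
and depth `≥ 1` along both.
-/

set_option autoImplicit false
set_option linter.unusedSectionVars false
set_option linter.style.haveILetI false

open IsLocalRing

namespace Fermat.Agent.NP

open Fermat.Agent.SS Fermat.Agent.JA

section Order

variable {F : Type*} [Field F] {p : ℕ} {B : DepthBase F p} (S : Sheet B)

/-- the order of `f` along a sheet is determined by a splitting `f ^ m = π ^ n c₁ u`, `c₁` a unit
of `R₁`, `u` a unit of the sheet. -/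
theorem Sheet.order_of_split {f c₁ u : F} {m : ℕ} {n a : ℤ} (hc₁ : IsUnitIn B.R₁ c₁)
    (hu : IsUnitIn S.W u) (e : f ^ m = B.π ^ n * c₁ * u)
    (ha : IsUnitIn S.W (f * (B.π ^ a)⁻¹)) : a * (m : ℤ) = n := by
  have hπ0 := B.π_ne_zero
  have hC₁ : IsUnitIn S.W c₁ := ⟨S.R₁_le hc₁.1, S.R₁_le hc₁.2.1, hc₁.2.2⟩
  set w := f * (B.π ^ a)⁻¹ with hw
  have hf : f = B.π ^ a * w := by
    rw [hw]
    have := zpow_ne_zero a hπ0
    field_simp
  have hkey : B.π ^ (a * (m : ℤ) - n) = c₁ * u * (w ^ m)⁻¹ := by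
    have hwm : w ^ m ≠ 0 := pow_ne_zero m ha.2.2
    rw [zpow_sub₀ hπ0, zpow_mul, zpow_natCast, eq_mul_inv_iff_mul_eq₀ hwm, div_mul_eq_mul_div,
      div_eq_iff (zpow_ne_zero n hπ0), ← mul_pow, ← hf, e]
    ring
  have hunit : IsUnitIn S.W (B.π ^ (a * (m : ℤ) - n)) := by
    rw [hkey]
    exact (hC₁.mul hu).mul (ha.pow m).inv
  have := S.zpow_eq_zero_of_isUnitIn hunit
  omega

end Order

section Core

variable {R : Type*} [CommRing R] [IsDomain R] [IsDiscreteValuationRing R] [CharZero R]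
  {K₁ : Type*} [Field K₁] [Algebra R K₁] [IsFractionRing R K₁]
  {KM : Type*} [Field KM] [Algebra K₁ KM] [Algebra R KM] [IsScalarTower R K₁ KM]
  {EM : Type*} [Field EM] [Algebra KM EM] [Algebra K₁ EM] [IsScalarTower K₁ KM EM] [Algebra R EM]
  [IsScalarTower R KM EM]
  {KN : Type*} [Field KN] [Algebra K₁ KN] [Algebra R KN] [IsScalarTower R K₁ KN]
  {EN : Type*} [Field EN] [Algebra KN EN] [Algebra K₁ EN] [IsScalarTower K₁ KN EN] [Algebra R EN]
  [IsScalarTower R KN EN] [FiniteDimensional KN EN]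
  {π : R} {p n : ℕ} {S : Finset R} {t : KM} {jM : EM} {j : KN} {A B : EM →+* EN}
  {VM : ValuationSubring EM} {Winf W0 : ValuationSubring EN}
  [IsAlgClosed (IsLocalRing.ResidueField R)]

/-- **the saturation lemma on the two sheets of the semistable level of an `SSModel`.** -/
theorem SSModel.split_levelN (h : SSModel K₁ π p n S t jM j A B VM Winf W0)
    {e₁ : ℕ} (he₁ : 0 < e₁) {ε : Rˣ} (hpe : (p : R) = ε * π ^ e₁) (G : Set (EN →+* EN))
    (hG : ∀ σ ∈ G, (∀ c : K₁, ∃ c' : K₁, σ (algebraMap K₁ EN c) = algebraMap K₁ EN c') ∧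
      (∃ c₀ : Rˣ, σ (algebraMap R EN π) = algebraMap R EN ((c₀ : R) * π)) ∧
      (∀ y ∈ Winf, Winf.valuation (σ y - y) < 1) ∧ (∀ y ∈ W0, W0.valuation (σ y - y) < 1))
    {f : EN} (hf : f ≠ 0) {k : ℕ} {c : K₁} (hc : c ≠ 0) {u : ENˣ}
    (hu : u ∈ Subgroup.closure
      {u : ENˣ | ∃ (g : ENˣ) (σ : EN →+* EN), σ ∈ G ∧ (u : EN) = σ (g : EN) / (g : EN)})
    (e : f ^ p ^ k = algebraMap K₁ EN c * u) :
    ∃ a : ℤ, Winf.valuation (f * (algebraMap R EN π ^ a)⁻¹) = 1 ∧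
      W0.valuation (f * (algebraMap R EN π ^ a)⁻¹) = 1 ∧
      (∃ c : K₁, c ≠ 0 ∧ ValDepth π p Winf 1 f c) ∧
      (∃ c : K₁, c ≠ 0 ∧ ValDepth π p W0 1 f c) := by
  have hp := h.q_prime
  have hπ := h.geo.irreducible
  set BN := hostDepthBase K₁ KN EN hπ hp he₁ hpe with hBN
  set Si : Sheet BN := SSModel.sheetInf hp he₁ hpe h hπ with hSi
  set Sz : Sheet BN := SSModel.sheetZero hp he₁ hpe h hπ with hSz
  have hπ0 := SSModel_pi_ne_zero h
  -- the hypotheses on `G` in sheet form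
  have hK : ∀ σ ∈ G, ∀ c ∈ BN.K₁, σ c ∈ BN.K₁ := by
    rintro σ hσ c ⟨c', rfl⟩
    obtain ⟨c'', e⟩ := (hG σ hσ).1 c'
    exact ⟨c'', e.symm⟩
  have hπG : ∀ σ ∈ G, ∃ c₀ ∈ BN.R₁, c₀⁻¹ ∈ BN.R₁ ∧ σ BN.π = c₀ * BN.π := by
    intro σ hσ
    obtain ⟨c₀, e⟩ := (hG σ hσ).2.1
    refine ⟨algebraMap R EN (c₀ : R), ⟨_, rfl⟩, ⟨((c₀⁻¹ : Rˣ) : R), ?_⟩, ?_⟩
    · show algebraMap R EN ((c₀⁻¹ : Rˣ) : R) = (algebraMap R EN (c₀ : R))⁻¹
      apply eq_inv_of_mul_eq_one_left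
      rw [← map_mul, ← Units.val_mul, inv_mul_cancel, Units.val_one, map_one]
    · rw [hostDepthBase_π, e, map_mul]
  have hWi : ∀ σ ∈ G, ∀ y ∈ Si.W, PiDvd BN.π Si.W 1 (σ y - y) := by
    intro σ hσ y hy
    have hy' : y ∈ Winf := hy
    refine ⟨(σ y - y) * (algebraMap R EN π)⁻¹, h.two.e_inf _ ((hG σ hσ).2.2.1 y hy'), ?_⟩
    show σ y - y = algebraMap R EN π ^ 1 * ((σ y - y) * (algebraMap R EN π)⁻¹)
    field_simp
  have hWz : ∀ σ ∈ G, ∀ y ∈ Sz.W, PiDvd BN.π Sz.W 1 (σ y - y) := by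
    intro σ hσ y hy
    have hy' : y ∈ W0 := hy
    refine ⟨(σ y - y) * (algebraMap R EN π)⁻¹, h.two.e_zero _ ((hG σ hσ).2.2.2 y hy'), ?_⟩
    show σ y - y = algebraMap R EN π ^ 1 * ((σ y - y) * (algebraMap R EN π)⁻¹)
    field_simp
  -- constants modulo `π` and units along both sheets
  have hCi := Si.isConstRes_of_mem_closure G (fun σ hσ => ⟨hK σ hσ, hWi σ hσ⟩) hu
  have hCz := Sz.isConstRes_of_mem_closure G (fun σ hσ => ⟨hK σ hσ, hWz σ hσ⟩) hu
  have hUi := Si.isUnitIn_of_mem_closure G (fun σ hσ => ⟨hπG σ hσ, hWi σ hσ⟩) hu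
  have hUz := Sz.isUnitIn_of_mem_closure G (fun σ hσ => ⟨hπG σ hσ, hWz σ hσ⟩) hu
  have hcK : algebraMap K₁ EN c ∈ BN.K₁ := ⟨c, rfl⟩
  have hc0 : algebraMap K₁ EN c ≠ 0 := (map_ne_zero _).mpr hc
  -- depth `≥ 1`
  have hdi := Sheet.depthGE_one_of_split hp.ne_zero (S := Si) hcK hc0 hCi e
  have hdz := Sheet.depthGE_one_of_split hp.ne_zero (S := Sz) hcK hc0 hCz e
  -- the orders
  obtain ⟨ai, hai⟩ := SSModel.exists_zpow_val_eq_one_inf h he₁ hpe hf
  obtain ⟨az, haz⟩ := SSModel.exists_zpow_val_eq_one_zero h he₁ hpe hf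
  obtain ⟨nc, c₁, hc₁, hc₁', ec⟩ := BN.unif_const _ hcK hc0
  have hc₁0 : c₁ ≠ 0 := by
    rintro rfl
    rw [mul_zero] at ec
    exact hc0 ec
  have e' : f ^ p ^ k = BN.π ^ nc * c₁ * (u : EN) := by rw [e, ec]
  have h1 := Si.order_of_split ⟨hc₁, hc₁', hc₁0⟩ hUi e'
    ((isUnitIn_toSubring_iff Winf).mpr hai)
  have h2 := Sz.order_of_split ⟨hc₁, hc₁', hc₁0⟩ hUz e'
    ((isUnitIn_toSubring_iff W0).mpr haz)
  have haeq : ai = az := by
    have hpk : ((p ^ k : ℕ) : ℤ) ≠ 0 := by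
      exact_mod_cast pow_ne_zero k hp.ne_zero
    exact mul_right_cancel₀ hpk (h1.trans h2.symm)
  refine ⟨ai, hai, haeq ▸ haz, ?_, ?_⟩
  · exact (hostDepthBase_depthGE_iff hπ hp he₁ hpe Si Winf rfl).mp hdi
  · exact (hostDepthBase_depthGE_iff hπ hp he₁ hpe Sz W0 rfl).mp hdz

end Core

end Fermat.Agent.NP
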