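/-
NP33 (S33) — helper5 — package **[BASEP]**, part 1: **Theorem B at a base `K₁ ⊂ Ω`, generic form**
(the `p`-analogue of `SS.kummer_base_of_ssModel`, `SS/BASE_helper1_Gen`).

For the coefficientwise action `σ̄` of an inertia element `σ` at `A ∣ q` on a coefficient-stable host
`E_N ⊂ K₁⸨x⸩` carrying an abstract `SSModel` (sheet `W_∞` = Gauss valuation subring, degeneracy map
`B` = dilation), with `ζ_q ∈ R₁`, `σ ζ = ζ ^ a` on `μ_q`:  if `g ∈ E_Nˣ` is a unit along both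
sheets, `div g ∈ q Div` (rational places), and `g` has depth `≥ N` (Hensel range) along both sheets
(`ValDepth`), then `σ̄ g / g ^ a ∈ K₁ˣ · E_Nˣ ^ q`.
-/
import Mathlib
import Fermat.Agent.SS.BASE_helper1_Gen
import Fermat.Agent.NP.HOSTP_helper5_Kum

set_option autoImplicit false
set_option linter.unusedSectionVars false
set_option linter.style.haveILetI false

open HahnSeries IntermediateField AlgebraicCurve ModularCurve Fermat.Agent.Igusa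

namespace Fermat.Agent.NP

open Fermat.Agent.JA Fermat.Agent.FF Fermat.Agent.SS

/-- `Ω = AlgebraicClosure ℚ`. -/
local notation "Ω" => AlgebraicClosure ℚ

/-- the absolute Galois group. -/
local notation "GQ" => (AlgebraicClosure ℚ ≃ₐ[ℚ] AlgebraicClosure ℚ)

section Gen

variable {q : ℕ} [hq : Fact q.Prime] [NeZero q] {A : ValuationSubring Ω}
  {K₁ : IntermediateField ℚ Ω} [Normal ℚ ↥K₁]
  [IsDiscreteValuationRing ↥(baseRing A K₁)] [CharZero ↥(baseRing A K₁)]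
  [IsFractionRing ↥(baseRing A K₁) ↥K₁]
  {EMf ENf : IntermediateField ↥K₁ (LaurentSeries ↥K₁)}
  {KM : Type*} [Field KM] [Algebra ↥K₁ KM] [Algebra ↥(baseRing A K₁) KM]
  [IsScalarTower ↥(baseRing A K₁) ↥K₁ KM]
  [Algebra KM ↥EMf] [IsScalarTower ↥K₁ KM ↥EMf] [Algebra ↥(baseRing A K₁) ↥EMf]
  [IsScalarTower ↥(baseRing A K₁) KM ↥EMf]
  {KN : Type*} [Field KN] [Algebra ↥K₁ KN] [Algebra ↥(baseRing A K₁) KN]
  [IsScalarTower ↥(baseRing A K₁) ↥K₁ KN]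
  [Algebra KN ↥ENf] [IsScalarTower ↥K₁ KN ↥ENf] [Algebra ↥(baseRing A K₁) ↥ENf]
  [IsScalarTower ↥(baseRing A K₁) KN ↥ENf] [FiniteDimensional KN ↥ENf]

/-- the coefficientwise action of an inertia element is an automorphism of the model. -/
theorem ssModelAut_coeffRingAut
    (hEM : CoeffStable EMf) (hEN : CoeffStable ENf)
    (hMle : EMf ≤ gaussField ↥(baseRing A K₁) ↥K₁) (hNle : ENf ≤ gaussField ↥(baseRing A K₁) ↥K₁)
    {ϖ : ↥(baseRing A K₁)} (hϖ : Irreducible ϖ) {n : ℕ} {S : Finset ↥(baseRing A K₁)} {t : KM}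
    {jM : ↥EMf} {j : KN} {Ad Bd : ↥EMf →+* ↥ENf} {W0 : ValuationSubring ↥ENf}
    (h : SSModel ↥K₁ ϖ q n S t jM j Ad Bd (gaussValSub ↥(baseRing A K₁) ↥K₁ EMf hMle)
      (gaussValSub ↥(baseRing A K₁) ↥K₁ ENf hNle) W0)
    (hB : ∀ f : ↥EMf, ((Bd f : ↥ENf) : LaurentSeries ↥K₁) = qExpand ↥K₁ q (f : LaurentSeries ↥K₁))
    (hj : ∀ τ : ↥K₁ ≃ₐ[ℚ] ↥K₁, coeffRingAut hEN τ (algebraMap KN ↥ENf j) = algebraMap KN ↥ENf j)
    (hR : ∀ r : ↥(baseRing A K₁), algebraMap ↥(baseRing A K₁) ↥ENf r =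
      algebraMap ↥K₁ ↥ENf (algebraMap ↥(baseRing A K₁) ↥K₁ r))
    {σ : GQ} (hσ : σ ∈ A.inertiaSubgroupIn ℚ) :
    SSModelAut ϖ j (gaussValSub ↥(baseRing A K₁) ↥K₁ ENf hNle) W0
      ((coeffRingAut hEN (resGal K₁ σ) : ↥ENf ≃+* ↥ENf) : ↥ENf →+* ↥ENf) := by
  set σN : ↥ENf ≃+* ↥ENf := coeffRingAut hEN (resGal K₁ σ) with hσN
  set σM : ↥EMf ≃+* ↥EMf := coeffRingAut hEM (resGal K₁ σ) with hσM
  have hσR : ∀ r : ↥(baseRing A K₁), σN (algebraMap ↥(baseRing A K₁) ↥ENf r) =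
      algebraMap ↥(baseRing A K₁) ↥ENf ((baseRingAut (K₁ := K₁) hσ).toRingHom r) := by
    intro r
    rw [hR, hR]
    exact coeffRingAut_algebraMap_baseRing hEN hσ r
  have hres : ∀ r : ↥(baseRing A K₁),
      (baseRingAut (K₁ := K₁) hσ).toRingHom r - r ∈ Ideal.span {ϖ} := by
    intro r
    rw [← hϖ.maximalIdeal_eq]
    exact baseRingAut_sub_mem_maximalIdeal hσ r
  refine h.modelAut σN (baseRingAut (K₁ := K₁) hσ).toRingHom (σM : ↥EMf →+* ↥EMf)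
    (hj _) hσR hres (fun x => coeffRingAut_mem_gaussValSub_iff hEN hσ x)
    (fun x hx => valuation_coeffRingAut_sub_lt_one hEN hσ hx) ?_
    (fun a ha => valuation_coeffRingAut_sub_lt_one hEM hσ ha)
  intro a
  apply Subtype.ext
  rw [hB]
  show coeffMap _ ((Bd a : ↥ENf) : LaurentSeries ↥K₁) = qExpand ↥K₁ q (coeffMap _ _)
  rw [hB, coeffMap_qExpand]

/-- **Theorem B at a base, generic form.** -/
theorem kummer_base_p_of_ssModel (hA : A.LiesOverPrime q) (hK₁ : IsBase q K₁)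
    (hEM : CoeffStable EMf) (hEN : CoeffStable ENf)
    (hMle : EMf ≤ gaussField ↥(baseRing A K₁) ↥K₁) (hNle : ENf ≤ gaussField ↥(baseRing A K₁) ↥K₁)
    {ϖ : ↥(baseRing A K₁)} (hϖ : Irreducible ϖ) {n : ℕ} {S : Finset ↥(baseRing A K₁)} {t : KM}
    {jM : ↥EMf} {j : KN} {Ad Bd : ↥EMf →+* ↥ENf} {VM : ValuationSubring ↥EMf}
    {Winf W0 : ValuationSubring ↥ENf}
    (h : SSModel ↥K₁ ϖ q n S t jM j Ad Bd VM Winf W0)
    (hVM : VM = gaussValSub ↥(baseRing A K₁) ↥K₁ EMf hMle)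
    (hWinf : Winf = gaussValSub ↥(baseRing A K₁) ↥K₁ ENf hNle)
    (hB : ∀ f : ↥EMf, ((Bd f : ↥ENf) : LaurentSeries ↥K₁) = qExpand ↥K₁ q (f : LaurentSeries ↥K₁))
    (hj : ∀ τ : ↥K₁ ≃ₐ[ℚ] ↥K₁, coeffRingAut hEN τ (algebraMap KN ↥ENf j) = algebraMap KN ↥ENf j)
    (hR : ∀ r : ↥(baseRing A K₁), algebraMap ↥(baseRing A K₁) ↥ENf r =
      algebraMap ↥K₁ ↥ENf (algebraMap ↥(baseRing A K₁) ↥K₁ r))
    (hjint : IsIntegral ↥(Algebra.adjoin ↥(baseRing A K₁) {Bd jM}) (Ad jM))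
    {e₁ : ℕ} (he₁ : 0 < e₁) {ε : (↥(baseRing A K₁))ˣ}
    (hpe : ((q : ℕ) : ↥(baseRing A K₁)) = ε * ϖ ^ e₁)
    (ζ : ↥(baseRing A K₁)) (hζ : IsPrimitiveRoot ζ q)
    {σ : GQ} (hσ : σ ∈ A.inertiaSubgroupIn ℚ) (a : ℕ) (hσa : ∀ z : Ω, z ^ q = 1 → σ z = z ^ a)
    (g : ↥ENf) (hg : g ≠ 0)
    (hord : ∀ P : Place ↥K₁ ↥ENf, P.ord g = 0 ∨ (IsRationalPlace P ∧ (q : ℤ) ∣ P.ord g))
    (hginf : Winf.valuation g = 1) (hg0 : W0.valuation g = 1)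
    {N : ℕ} (hN : e₁ * q < N * (q - 1)) (cinf c0 : ↥K₁) (hcinf : cinf ≠ 0) (hc0 : c0 ≠ 0)
    (hdinf : ValDepth ϖ q Winf N g cinf) (hd0 : ValDepth ϖ q W0 N g c0) :
    ∃ (c : ↥K₁) (u : ↥ENf), c ≠ 0 ∧
      coeffGalois hEN (resGal K₁ σ) • g / g ^ a = algebraMap ↥K₁ ↥ENf c * u ^ q := by
  subst hVM hWinf
  haveI := hK₁.isAlgClosed_residueField hA
  set σN : ↥ENf ≃+* ↥ENf := coeffRingAut hEN (resGal K₁ σ) with hσN
  have haut := ssModelAut_coeffRingAut hEM hEN hMle hNle hϖ h hB hj hR hσ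
  -- the action on `ζ`
  have hσζ : (σN : ↥ENf →+* ↥ENf) (algebraMap ↥(baseRing A K₁) ↥ENf ζ) =
      algebraMap ↥(baseRing A K₁) ↥ENf ζ ^ a := by
    have h1 : baseRingAut (K₁ := K₁) hσ ζ = ζ ^ a := by
      apply Subtype.ext
      apply Subtype.ext
      rw [coe_coe_baseRingAut]
      have hz : (((ζ : ↥(baseRing A K₁)) : ↥K₁) : Ω) ^ q = 1 := by
        have := hζ.pow_eq_one
        have h2 := congrArg (fun x : ↥(baseRing A K₁) => (((x : ↥K₁)) : Ω)) this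
        simpa using h2
      rw [hσa _ hz]
      simp
    rw [hR, ← map_pow]
    show coeffRingAut hEN (resGal K₁ σ) _ = _
    rw [coeffRingAut_algebraMap_baseRing hEN hσ ζ, h1, map_pow]
  have hσK : ∀ c : ↥K₁, ∃ c' : ↥K₁, (σN : ↥ENf →+* ↥ENf) (algebraMap ↥K₁ ↥ENf c) =
      algebraMap ↥K₁ ↥ENf c' := by
    intro c
    exact ⟨resGal K₁ σ c, coeffRingAut_algebraMap hEN (resGal K₁ σ) c⟩
  have hq := hq.out
  exact SSModel.kummer_inertia_pow_p h hϖ hjint hq he₁ hpe ζ hζ a (σN : ↥ENf →+* ↥ENf) haut hσζ hσK g hg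
    hord hginf hg0 hN cinf c0 hcinf hc0 hdinf hd0

end Gen

end Fermat.Agent.NP
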