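/-
NP33 (S33) — helper5 — package **[GLOB]**, part 1: **field-level input**: an element of an
extension `κ` of an algebraically closed field `k` which is integral over `k[τ]` and over `k[τ⁻¹]`
(`τ` transcendental) lies in `k` (`H⁰` of a complete integral curve over `k` is `k`).

* `isIntegral_of_surjective_comp` : integrality descends along a surjection of coefficient rings;
* `exists_algebraMap_eq_of_isIntegral_adjoin_both` : the statement above, from helper7's
  `JA.exists_algebraMap_eq_of_isIntegral_both` applied to `k ⊂ k(τ) ⊂ κ`;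
* `isIntegral_adjoin_of_sum_eq_zero` : a monic relation `x ^ d + Σ_{i<d} f_i(τ) x ^ i = 0` with
  `f_i ∈ k[X]` gives integrality over `k[τ]`.
-/
import Mathlib
import Fermat.Agent.JA.CHARTADJ_helper7
import Fermat.Agent.JA.HOST_helper3_Kit

set_option autoImplicit false
set_option linter.unusedSectionVars false
set_option linter.style.haveILetI false

open Polynomial IntermediateField

namespace Fermat.Agent.NP

open Fermat.Agent.JA

/-- integrality descends along a surjection of coefficient rings. -/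
theorem isIntegral_of_surjective_comp {A' A κ : Type*} [CommRing A'] [CommRing A] [Ring κ]
    [Nontrivial A] [Algebra A' κ] [Algebra A κ] (ρ : A' →+* A) (hρ : Function.Surjective ρ)
    (hcomp : ∀ a', algebraMap A κ (ρ a') = algebraMap A' κ a') {x : κ} (h : IsIntegral A x) :
    IsIntegral A' x := by
  obtain ⟨p, hp, hpx⟩ := h
  have hl : p ∈ Polynomial.lifts ρ :=
    (Polynomial.lifts_iff_coeff_lifts p).2 (fun n => hρ (p.coeff n))
  obtain ⟨q, hq, -, hqm⟩ := Polynomial.lifts_and_degree_eq_and_monic hl hp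
  refine ⟨q, hqm, ?_⟩
  have hc : algebraMap A' κ = (algebraMap A κ).comp ρ := RingHom.ext (fun a' => (hcomp a').symm)
  rw [hc, ← Polynomial.eval₂_map, hq]
  exact hpx

section Field

variable {k κ : Type*} [Field k] [Field κ] [Algebra k κ]

/-- integrality over `k[σ] ⊂ κ` is integrality over `k[s] ⊂ k(τ)` for `s ∈ k(τ)` with image `σ`. -/
theorem isIntegral_adjoin_intermediate (τ : κ) (s : ↥k⟮τ⟯) {x : κ}
    (h : IsIntegral ↥(Algebra.adjoin k {(s : κ)}) x) : IsIntegral ↥(Algebra.adjoin k {s}) x := by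
  set ι : ↥k⟮τ⟯ →ₐ[k] κ := (k⟮τ⟯).val with hι
  have hmap : (Algebra.adjoin k {s}).map ι = Algebra.adjoin k {(s : κ)} := by
    rw [AlgHom.map_adjoin_singleton]
    rfl
  have hmem : ∀ a' : ↥(Algebra.adjoin k {s}),
      (ι.comp (Algebra.adjoin k {s}).val) a' ∈ Algebra.adjoin k {(s : κ)} := by
    intro a'
    rw [← hmap]
    exact ⟨a', a'.2, rfl⟩
  set ρ : ↥(Algebra.adjoin k {s}) →ₐ[k] ↥(Algebra.adjoin k {(s : κ)}) :=
    (ι.comp (Algebra.adjoin k {s}).val).codRestrict _ hmem with hρ
  refine isIntegral_of_surjective_comp (ρ : ↥(Algebra.adjoin k {s}) →+* _) ?_ ?_ h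
  · rintro ⟨a, ha⟩
    rw [← hmap] at ha
    obtain ⟨y, hy, hya⟩ := ha
    exact ⟨⟨y, hy⟩, Subtype.ext hya⟩
  · intro a'
    rfl

/-- **an element integral over `k[τ]` and over `k[τ⁻¹]` is a constant** (`k` algebraically closed,
`τ` transcendental). -/
theorem exists_algebraMap_eq_of_isIntegral_adjoin_both [IsAlgClosed k] (τ : κ)
    (hτ : Transcendental k τ) (x : κ)
    (h₁ : IsIntegral ↥(Algebra.adjoin k {τ}) x) (h₂ : IsIntegral ↥(Algebra.adjoin k {τ⁻¹}) x) :
    ∃ r : k, algebraMap k κ r = x := by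
  have hM4 : ∀ y : κ, IsAlgebraic k y → y ∈ Set.range (algebraMap k κ) := by
    intro y hy
    have hint : IsIntegral k y := hy.isIntegral
    have h1 := IsAlgClosed.degree_eq_one_of_irreducible k (minpoly.irreducible hint)
    exact minpoly.mem_range_of_degree_eq_one k y h1
  set g : ↥k⟮τ⟯ := AdjoinSimple.gen k τ with hg
  have hgτ : (g : κ) = τ := AdjoinSimple.coe_gen k τ
  have h₁' : IsIntegral ↥(Algebra.adjoin k {g}) x := by
    apply isIntegral_adjoin_intermediate τ g
    rw [hgτ]
    exact h₁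
  have h₂' : IsIntegral ↥(Algebra.adjoin k {g⁻¹}) x := by
    apply isIntegral_adjoin_intermediate τ g⁻¹
    have : ((g⁻¹ : ↥k⟮τ⟯) : κ) = τ⁻¹ := by
      rw [IntermediateField.coe_inv, hgτ]
    rw [this]
    exact h₂
  exact exists_algebraMap_eq_of_isIntegral_both (R := k) (K₁ := k) (K := ↥k⟮τ⟯) (E := κ) g
    (Host.transcendental_gen hτ) (Host.adjoin_gen_eq_top τ) hM4 x h₁' h₂'

/-- a monic relation with coefficients polynomial in `τ` gives integrality over `k[τ]`. -/
theorem isIntegral_adjoin_of_sum_eq_zero (τ x : κ) (d : ℕ) (f : Fin d → k[X])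
    (h : x ^ d + ∑ i : Fin d, aeval τ (f i) * x ^ (i : ℕ) = 0) :
    IsIntegral ↥(Algebra.adjoin k {τ}) x := by
  have hmem : ∀ i : Fin d, aeval τ (f i) ∈ Algebra.adjoin k {τ} := fun i =>
    Polynomial.aeval_mem_adjoin_singleton _ _
  set c : Fin d → ↥(Algebra.adjoin k {τ}) := fun i => ⟨aeval τ (f i), hmem i⟩ with hc
  set Q : (↥(Algebra.adjoin k {τ}))[X] := X ^ d + ∑ i : Fin d, C (c i) * X ^ (i : ℕ) with hQ
  have hQm : Q.Monic := Polynomial.monic_X_pow_add (Polynomial.degree_sum_fin_lt c)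
  refine ⟨Q, hQm, ?_⟩
  rw [hQ, Polynomial.eval₂_add, Polynomial.eval₂_pow, Polynomial.eval₂_X,
    Polynomial.eval₂_finsetSum]
  rw [← h]
  congr 1
  refine Finset.sum_congr rfl (fun i _ => ?_)
  rw [Polynomial.eval₂_mul, Polynomial.eval₂_C, Polynomial.eval₂_pow, Polynomial.eval₂_X]
  rfl

end Field

end Fermat.Agent.NP
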