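/-
NP33 (S33) — helper5 — package **[GLOB]**, part 2: **global regularity modulo `π` on a model of good
reduction** (`H⁰(special fibre, 𝒪) = k`).

`h : GeoHyps K₁ π t E n S` over a discrete valuation ring `R` with algebraically closed residue
field, `VM` the extension of the Gauss valuation, `B₁ = chartOne R E t`, `B₂ = chartOne R E t⁻¹`.

* `GeoHyps.exists_const_of_two_charts` : `x₁ ∈ B₁`, `x₂ ∈ B₂`, `x₁ ≡ x₂ mod 𝔪_VM`
  ⇒ `x₁ ≡ a mod 𝔪_VM` for some `a ∈ R`   (`(B₁ + 𝔪) ∩ (B₂ + 𝔪) = R + 𝔪`);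
* `exists_chart_rep_of_local` : `s ∈ VM` congruent modulo `𝔪_VM` to an element of `B_𝔫` for every
  closed point `𝔫 ∋ π` of a chart `B ⊂ VM` is congruent to an element of `B`;
* **`GeoHyps.glob`** : `s ∈ VM` regular modulo `π` at every closed point of the special fibre of
  both charts is constant modulo `π`   (the hypothesis `hglob` of (C1)).
-/
import Fermat.Agent.NP.GLOB_helper5_Field
import Fermat.Agent.NP.HOSTP_helper5_Sheets

set_option autoImplicit false
set_option linter.unusedSectionVars false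
set_option linter.style.haveILetI false

open Polynomial

namespace Fermat.Agent.NP

open Fermat.Agent.JA Fermat.Agent.SS Fermat.Agent.FF

section Rel

variable {R : Type*} [CommRing R] {K : Type*} [Field K] [Algebra R K]
  {E : Type*} [Field E] [Algebra K E] [Algebra R E] [IsScalarTower R K E]

/-- an element of the chart `chartOne R E u` satisfies a monic relation with coefficients in
`R[u]`. -/
theorem exists_monic_relation_of_mem_chartOne (u : K) {x : E} (hx : x ∈ chartOne R E u) :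
    ∃ (d : ℕ) (f : Fin d → R[X]),
      x ^ d + ∑ i : Fin d, aeval (algebraMap K E u) (f i) * x ^ (i : ℕ) = 0 := by
  rw [mem_chartOne_iff] at hx
  obtain ⟨P, hP, hPx⟩ := hx
  have hc : ∀ i : ℕ, ∃ g : R[X], ((P.coeff i : ↥(Algebra.adjoin R {u})) : K) = aeval u g := by
    intro i
    have h1 : ((P.coeff i : ↥(Algebra.adjoin R {u})) : K) ∈
        (Polynomial.aeval u : R[X] →ₐ[R] K).range := by
      rw [← Algebra.adjoin_singleton_eq_range_aeval]; exact (P.coeff i).2
    obtain ⟨g, hg⟩ := h1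
    exact ⟨g, hg.symm⟩
  choose g hg using hc
  refine ⟨P.natDegree, fun i => g i, ?_⟩
  have h2 : Polynomial.eval₂ (algebraMap ↥(Algebra.adjoin R {u}) E) x P = 0 := hPx
  rw [hP.as_sum, Polynomial.eval₂_add, Polynomial.eval₂_pow, Polynomial.eval₂_X,
    Polynomial.eval₂_finsetSum] at h2
  rw [← h2]
  congr 1
  rw [Fin.sum_univ_eq_sum_range (fun i => aeval (algebraMap K E u) (g i) * x ^ i) P.natDegree]
  refine Finset.sum_congr rfl (fun i _ => ?_)
  rw [Polynomial.eval₂_mul, Polynomial.eval₂_C, Polynomial.eval₂_pow, Polynomial.eval₂_X]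
  congr 1
  have h3 : algebraMap ↥(Algebra.adjoin R {u}) E (P.coeff i) =
      algebraMap K E ((P.coeff i : ↥(Algebra.adjoin R {u})) : K) := rfl
  rw [h3, hg i, ← Polynomial.aeval_algebraMap_apply]

end Rel

section Abs

/-- reduction of a monic relation along a ring homomorphism to a field. -/
theorem isIntegral_adjoin_of_relation {R V k κ : Type*} [CommRing R] [CommRing V] [Field k]
    [Field κ] [Algebra k κ] (φ : V →+* κ) (ρ : R →+* k) (f₀ : R →+* V)
    (hcomp : ∀ r, φ (f₀ r) = algebraMap k κ (ρ r)) (tV xV : V) (d : ℕ) (f : Fin d → R[X])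
    (hrel : xV ^ d + ∑ i : Fin d, Polynomial.eval₂ f₀ tV (f i) * xV ^ (i : ℕ) = 0) :
    IsIntegral ↥(Algebra.adjoin k {φ tV}) (φ xV) := by
  refine isIntegral_adjoin_of_sum_eq_zero (φ tV) (φ xV) d (fun i => (f i).map ρ) ?_
  have h1 := congrArg φ hrel
  rw [map_add, map_pow, map_sum, map_zero] at h1
  rw [← h1]
  congr 1
  refine Finset.sum_congr rfl (fun i _ => ?_)
  rw [map_mul, map_pow, Polynomial.hom_eval₂, Polynomial.aeval_def, Polynomial.eval₂_map]
  congr 2
  exact RingHom.ext (fun r => (hcomp r).symm)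

end Abs

section Cover

variable {R : Type*} [CommRing R] {F : Type*} [Field F] [Algebra R F]

/-- **from local to global on one chart**: `s ∈ W` which is congruent modulo `π W` to an element of
`B_𝔫` for every maximal ideal `𝔫 ∋ π` of the chart `B ⊂ W` is congruent to an element of `B`. -/
theorem exists_chart_rep_of_local (B : Subalgebra R F) (W : Subring F) (hBW : ∀ b : ↥B, (b : F) ∈ W)
    (π : R) {s : F} (hs : s ∈ W)
    (hloc : ∀ (𝔫 : Ideal ↥B) [𝔫.IsMaximal], algebraMap R ↥B π ∈ 𝔫 →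
      ∃ r ∈ locSub B 𝔫, PiDvd (algebraMap R F π) W 1 (s - r)) :
    ∃ y : ↥B, PiDvd (algebraMap R F π) W 1 (s - (y : F)) := by
  set I : Ideal ↥B :=
    { carrier := {b | ∃ y : ↥B, PiDvd (algebraMap R F π) W 1 ((b : F) * s - (y : F))}
      add_mem' := by
        rintro a b ⟨y, w, hw, e⟩ ⟨y', w', hw', e'⟩
        refine ⟨y + y', w + w', W.add_mem hw hw', ?_⟩
        push_cast
        linear_combination e + e'
      zero_mem' := ⟨0, 0, W.zero_mem, by simp⟩
      smul_mem' := by
        rintro c b ⟨y, w, hw, e⟩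
        refine ⟨c * y, (c : F) * w, W.mul_mem (hBW c) hw, ?_⟩
        rw [smul_eq_mul]
        push_cast
        linear_combination (c : F) * e } with hI
  have hπI : algebraMap R ↥B π ∈ I := by
    refine ⟨0, s, hs, ?_⟩
    have e0 : ((algebraMap R ↥B π : ↥B) : F) = algebraMap R F π := rfl
    rw [e0]
    simp
  have htop : I = ⊤ := by
    by_contra hne
    obtain ⟨𝔫, h𝔫, hle⟩ := Ideal.exists_le_maximal I hne
    haveI := h𝔫
    obtain ⟨r, ⟨a, d, hd, hrd⟩, w, hw, e⟩ := hloc 𝔫 (hle hπI)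
    apply hd
    apply hle
    refine ⟨a, (d : F) * w, W.mul_mem (hBW d) hw, ?_⟩
    rw [← hrd]
    linear_combination (d : F) * e
  have h1 : (1 : ↥B) ∈ I := by rw [htop]; trivial
  obtain ⟨y, hy⟩ := h1
  refine ⟨y, ?_⟩
  simpa using hy

end Cover

section Glob

variable {R : Type*} [CommRing R] [IsDomain R] [IsDiscreteValuationRing R] [CharZero R]
  {K₁ : Type*} [Field K₁] [Algebra R K₁] [IsFractionRing R K₁]
  {K : Type*} [Field K] [Algebra K₁ K] [Algebra R K] [IsScalarTower R K₁ K]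
  {E : Type*} [Field E] [Algebra K E] [Algebra K₁ E] [IsScalarTower K₁ K E]
  [Algebra R E] [IsScalarTower R K E]
  {π : R} {t : K} {n : ℕ} {S : Finset R}

/-- **`(B₁ + 𝔪) ∩ (B₂ + 𝔪) = R + 𝔪`** on a model of good reduction. -/
theorem GeoHyps.exists_const_of_two_charts [IsAlgClosed (IsLocalRing.ResidueField R)]
    (h : GeoHyps K₁ π t E n S) (VM : ValuationSubring E)
    (hG : IsGaussAt R π t (VM.comap (algebraMap K E)))
    {x₁ x₂ : E} (hx₁ : x₁ ∈ chartOne R E t) (hx₂ : x₂ ∈ chartOne R E t⁻¹)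
    (hx : VM.valuation (x₁ - x₂) < 1) :
    ∃ a : R, VM.valuation (x₁ - algebraMap R E a) < 1 := by
  have hπ := h.irreducible
  haveI : FiniteDimensional K E := h.finite
  have hG' : IsGaussAt R π t⁻¹ (VM.comap (algebraMap K E)) := isGaussAt_inv π hπ.prime t _ hG
  have hB₁ : ∀ b ∈ chartOne R E t, b ∈ VM := chart_le_of_isGaussAt hG
  have hB₂ : ∀ b ∈ chartOne R E t⁻¹, b ∈ VM := chart_le_of_isGaussAt hG'
  have hRV : ∀ r : R, algebraMap R E r ∈ VM := fun r =>
    hB₁ _ ((chartOne R E t).algebraMap_mem r)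
  -- `π` is a non-unit of `VM`
  have hπV : VM.valuation (algebraMap R E π) < 1 := by
    have := (GeoHyps.valuation_lt_one_iff_mem_span h VM hG
      (algebraMap R ↥(chartOne R E t) π)).2 (Ideal.subset_span (Set.mem_singleton _))
    exact this
  -- the base map `R → VM` is local
  set f₀ : R →+* ↥VM := (algebraMap R E).codRestrict VM.toSubring hRV with hf₀
  haveI : IsLocalHom f₀ := by
    refine ⟨fun r hr => ?_⟩
    by_contra hnu
    have hmem : r ∈ IsLocalRing.maximalIdeal R := (IsLocalRing.mem_maximalIdeal _).2 hnu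
    rw [hπ.maximalIdeal_eq, Ideal.mem_span_singleton] at hmem
    obtain ⟨r', rfl⟩ := hmem
    have h1 : VM.valuation (algebraMap R E (π * r')) < 1 := by
      rw [map_mul, map_mul]
      calc VM.valuation (algebraMap R E π) * VM.valuation (algebraMap R E r')
          ≤ VM.valuation (algebraMap R E π) * 1 :=
            mul_le_mul_right ((ValuationSubring.valuation_le_one_iff VM _).2 (hRV r')) _
        _ < 1 := by rw [mul_one]; exact hπV
    have h2 : VM.valuation ((f₀ (π * r') : ↥VM) : E) = 1 :=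
      (ValuationSubring.valuation_eq_one_iff VM _).1 hr
    have h3 : ((f₀ (π * r') : ↥VM) : E) = algebraMap R E (π * r') := rfl
    rw [h3] at h2
    exact absurd h2 (ne_of_lt h1)
  letI : Algebra (IsLocalRing.ResidueField R) (IsLocalRing.ResidueField ↥VM) :=
    (IsLocalRing.ResidueField.map f₀).toAlgebra
  set φ : ↥VM →+* IsLocalRing.ResidueField ↥VM := IsLocalRing.residue ↥VM with hφ
  set ρ : R →+* IsLocalRing.ResidueField R := IsLocalRing.residue R with hρ
  have hcomp : ∀ r, φ (f₀ r) = algebraMap (IsLocalRing.ResidueField R)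
      (IsLocalRing.ResidueField ↥VM) (ρ r) := fun r =>
    (IsLocalRing.ResidueField.map_residue f₀ r).symm
  -- the coordinate
  have htV : algebraMap K E t ∈ VM := hB₁ _ (algebraMap_coord_mem_chartOne t)
  have htV' : (algebraMap K E t)⁻¹ ∈ VM := by
    have := hB₂ _ (algebraMap_coord_mem_chartOne (R := R) (E := E) t⁻¹)
    rwa [map_inv₀] at this
  have ht0 : algebraMap K E t ≠ 0 := by
    rw [Ne, map_eq_zero]
    exact h.ne_zero
  set tV : ↥VM := ⟨algebraMap K E t, htV⟩ with htVdef
  set tV' : ↥VM := ⟨(algebraMap K E t)⁻¹, htV'⟩ with htV'def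
  have hφinv : φ tV' = (φ tV)⁻¹ := by
    apply eq_inv_of_mul_eq_one_right
    rw [← map_mul]
    have : tV * tV' = 1 := Subtype.ext (mul_inv_cancel₀ ht0)
    rw [this, map_one]
  have hx₁V : x₁ ∈ VM := hB₁ _ hx₁
  have hx₂V : x₂ ∈ VM := hB₂ _ hx₂
  have hφx : φ ⟨x₁, hx₁V⟩ = φ ⟨x₂, hx₂V⟩ := by
    rw [← sub_eq_zero, ← map_sub, IsLocalRing.residue_eq_zero_iff]
    exact (ValuationSubring.valuation_lt_one_iff VM (⟨x₁, hx₁V⟩ - ⟨x₂, hx₂V⟩)).2 hx
  -- evaluation of polynomials in `VM`
  have hev : ∀ (u : ↥VM) (g : R[X]), ((Polynomial.eval₂ f₀ u g : ↥VM) : E) = aeval (u : E) g := by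
    intro u g
    have := Polynomial.hom_eval₂ g f₀ VM.subtype u
    rw [Polynomial.aeval_def]
    exact this
  -- transcendence of the reduction of the coordinate
  have htR : Transcendental R t :=
    h.transcendental.restrictScalars (IsFractionRing.injective R K₁)
  have hτ : Transcendental (IsLocalRing.ResidueField R) (φ tV) := by
    rintro ⟨pbar, hp0, hpe⟩
    obtain ⟨p, rfl⟩ := Polynomial.map_surjective ρ IsLocalRing.residue_surjective pbar
    have hnd : ¬ (C π ∣ p) := by
      rintro ⟨q, rfl⟩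
      apply hp0
      rw [Polynomial.map_mul, Polynomial.map_C]
      have : ρ π = 0 := (IsLocalRing.residue_eq_zero_iff π).2
        (by rw [hπ.maximalIdeal_eq]; exact Ideal.subset_span (Set.mem_singleton _))
      rw [this, C_0, zero_mul]
    have hp00 : p ≠ 0 := by
      rintro rfl
      exact hp0 (Polynomial.map_zero ρ)
    have hne : aeval t p ≠ 0 := fun h0 => hp00 (transcendental_iff.1 htR p h0)
    have hunit : (aeval t p)⁻¹ ∈ VM.comap (algebraMap K E) := hG.2.2 p hnd
    have h2 : (aeval (algebraMap K E t) p)⁻¹ ∈ VM := by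
      have : algebraMap K E (aeval t p)⁻¹ ∈ VM := hunit
      rwa [map_inv₀, ← Polynomial.aeval_algebraMap_apply] at this
    have hneE : aeval (algebraMap K E t) p ≠ 0 := by
      rw [Polynomial.aeval_algebraMap_apply, Ne, map_eq_zero]
      exact hne
    have h3 : φ (Polynomial.eval₂ f₀ tV p) = 0 := by
      rw [Polynomial.hom_eval₂]
      have hc : φ.comp f₀ = (algebraMap (IsLocalRing.ResidueField R)
          (IsLocalRing.ResidueField ↥VM)).comp ρ := RingHom.ext hcomp
      rw [hc, ← Polynomial.eval₂_map, ← Polynomial.aeval_def]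
      exact hpe
    rw [IsLocalRing.residue_eq_zero_iff] at h3
    have h4 := (ValuationSubring.valuation_lt_one_iff VM _).1 h3
    rw [hev] at h4
    have h5 : VM.valuation (aeval (algebraMap K E t) p)⁻¹ ≤ 1 :=
      (ValuationSubring.valuation_le_one_iff VM _).2 h2
    rw [map_inv₀] at h5
    have h6 : VM.valuation (aeval (algebraMap K E t) p) ≠ 0 := (_root_.map_ne_zero _).2 hneE
    have h7 := (inv_le_one₀ (zero_lt_iff.2 h6)).1 h5
    exact absurd h4 (not_lt.2 h7)
  -- integrality of the reduction of `x₁` over `k[τ]` and over `k[τ⁻¹]`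
  have hint₁ : IsIntegral ↥(Algebra.adjoin (IsLocalRing.ResidueField R) {φ tV})
      (φ ⟨x₁, hx₁V⟩) := by
    obtain ⟨d, f, hrel⟩ := exists_monic_relation_of_mem_chartOne t hx₁
    refine isIntegral_adjoin_of_relation φ ρ f₀ hcomp tV ⟨x₁, hx₁V⟩ d f ?_
    apply Subtype.ext
    push_cast
    simp only [hev]
    exact hrel
  have hint₂ : IsIntegral ↥(Algebra.adjoin (IsLocalRing.ResidueField R) {(φ tV)⁻¹})
      (φ ⟨x₁, hx₁V⟩) := by
    obtain ⟨d, f, hrel⟩ := exists_monic_relation_of_mem_chartOne t⁻¹ hx₂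
    rw [hφx, ← hφinv]
    refine isIntegral_adjoin_of_relation φ ρ f₀ hcomp tV' ⟨x₂, hx₂V⟩ d f ?_
    apply Subtype.ext
    push_cast
    simp only [hev]
    rw [map_inv₀] at hrel
    exact hrel
  obtain ⟨rbar, hrbar⟩ := exists_algebraMap_eq_of_isIntegral_adjoin_both (φ tV) hτ _ hint₁ hint₂
  obtain ⟨a, rfl⟩ := IsLocalRing.residue_surjective rbar
  refine ⟨a, ?_⟩
  have h8 : φ (⟨x₁, hx₁V⟩ - f₀ a) = 0 := by
    rw [map_sub, hcomp, hrbar, sub_self]
  rw [IsLocalRing.residue_eq_zero_iff] at h8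
  exact (ValuationSubring.valuation_lt_one_iff VM (⟨x₁, hx₁V⟩ - f₀ a)).1 h8

/-- the maximal ideal of `VM` is generated by `π`. -/
theorem GeoHyps.piDvd_of_valuation_lt_one [IsAlgClosed (IsLocalRing.ResidueField R)]
    (h : GeoHyps K₁ π t E n S) (VM : ValuationSubring E)
    (hG : IsGaussAt R π t (VM.comap (algebraMap K E))) {x : E} (hx : VM.valuation x < 1) :
    PiDvd (algebraMap R E π) VM.toSubring 1 x := by
  haveI : FiniteDimensional K E := h.finite
  haveI : IsScalarTower R K₁ E := isScalarTower_base_const R K₁ K E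
  haveI : IsNoetherianRing ↥(chartOne R E t) :=
    isNoetherianRing_chartOne (K₁ := K₁) t h.transcendental h.adjoin_eq_top
  haveI : IsFractionRing ↥(chartOne R E t) E :=
    isFractionRing_chartOne (K₁ := K₁) t h.adjoin_eq_top
  haveI := GeoHyps.span_isPrime h
  have hloc := GeoHyps.locSub_span h VM hG
  have hxV : x ∈ VM.toSubring :=
    (ValuationSubring.valuation_le_one_iff VM x).1 hx.le
  rw [← hloc] at hxV ⊢
  obtain ⟨a, d, hd, hxd⟩ := hxV
  have hvd : VM.valuation (d : E) = 1 := by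
    refine le_antisymm ((ValuationSubring.valuation_le_one_iff VM _).2
      (chart_le_of_isGaussAt hG _ d.2)) ?_
    by_contra hlt
    exact hd ((GeoHyps.valuation_lt_one_iff_mem_span h VM hG d).1 (not_le.1 hlt))
  have hva : VM.valuation (a : E) < 1 := by
    rw [← hxd, map_mul, hvd, mul_one]
    exact hx
  have ha := (GeoHyps.valuation_lt_one_iff_mem_span h VM hG a).1 hva
  rw [Ideal.mem_span_singleton] at ha
  obtain ⟨a', rfl⟩ := ha
  refine (piDvd_locSub_iff π 1).2 ⟨a', d, hd, ?_⟩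
  rw [pow_one, hxd]
  push_cast
  rfl

/-- **(GLOB)**: an element of `VM` which is regular modulo `π` at every closed point of the special
fibre of both charts is constant modulo `π`. -/
theorem GeoHyps.glob [IsAlgClosed (IsLocalRing.ResidueField R)]
    (h : GeoHyps K₁ π t E n S) (VM : ValuationSubring E)
    (hG : IsGaussAt R π t (VM.comap (algebraMap K E))) {s : E} (hs : s ∈ VM)
    (h₁ : ∀ (𝔫 : Ideal ↥(chartOne R E t)) [𝔫.IsMaximal],
      algebraMap R ↥(chartOne R E t) π ∈ 𝔫 →
      ∃ r ∈ locSub (chartOne R E t) 𝔫, PiDvd (algebraMap R E π) VM.toSubring 1 (s - r))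
    (h₂ : ∀ (𝔫 : Ideal ↥(chartOne R E t⁻¹)) [𝔫.IsMaximal],
      algebraMap R ↥(chartOne R E t⁻¹) π ∈ 𝔫 →
      ∃ r ∈ locSub (chartOne R E t⁻¹) 𝔫, PiDvd (algebraMap R E π) VM.toSubring 1 (s - r)) :
    ∃ a : R, PiDvd (algebraMap R E π) VM.toSubring 1 (s - algebraMap R E a) := by
  have hπ := h.irreducible
  haveI : FiniteDimensional K E := h.finite
  have hG' : IsGaussAt R π t⁻¹ (VM.comap (algebraMap K E)) := isGaussAt_inv π hπ.prime t _ hG
  obtain ⟨y₁, w₁, hw₁, e₁⟩ := exists_chart_rep_of_local (chartOne R E t) VM.toSubring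
    (fun b => chart_le_of_isGaussAt hG _ b.2) π hs h₁
  obtain ⟨y₂, w₂, hw₂, e₂⟩ := exists_chart_rep_of_local (chartOne R E t⁻¹) VM.toSubring
    (fun b => chart_le_of_isGaussAt hG' _ b.2) π hs h₂
  have hπV : VM.valuation (algebraMap R E π) < 1 :=
    (GeoHyps.valuation_lt_one_iff_mem_span h VM hG
      (algebraMap R ↥(chartOne R E t) π)).2 (Ideal.subset_span (Set.mem_singleton _))
  have hx : VM.valuation ((y₁ : E) - (y₂ : E)) < 1 := by
    have e : (y₁ : E) - (y₂ : E) = algebraMap R E π * (w₂ - w₁) := by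
      rw [pow_one] at e₁ e₂
      linear_combination e₂ - e₁
    rw [e, map_mul]
    calc VM.valuation (algebraMap R E π) * VM.valuation (w₂ - w₁)
        ≤ VM.valuation (algebraMap R E π) * 1 :=
          mul_le_mul_right ((ValuationSubring.valuation_le_one_iff VM _).2
            (VM.toSubring.sub_mem hw₂ hw₁)) _
      _ < 1 := by rw [mul_one]; exact hπV
  obtain ⟨a, ha⟩ := GeoHyps.exists_const_of_two_charts h VM hG y₁.2 y₂.2 hx
  obtain ⟨w, hw, e⟩ := GeoHyps.piDvd_of_valuation_lt_one h VM hG ha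
  refine ⟨a, w₁ + w, VM.toSubring.add_mem hw₁ hw, ?_⟩
  linear_combination e₁ + e

end Glob

end Fermat.Agent.NP
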