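/-
NP33 (S33) — helper5 — package **[SMOOTHQ]**, part 1: **primes through a smooth closed point of the
special fibre are principal.**

`R` a noetherian local domain with maximal ideal `(z, π)` and `(π)` prime (the local ring of a
two-dimensional model at a smooth closed point of the special fibre): `R / π` is a principal ideal
ring (a discrete valuation ring or a field), and every prime ideal `𝔮 ∌ π` of `R` is principal
(Nakayama: `𝔮 = (h) + π 𝔮` for a lift `h ∈ 𝔮` of a generator of the image of `𝔮` in `R / π`).
No rationality of `𝔮` is needed (contrast `SS.ker_retraction_eq_of_smooth`).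
-/
import Mathlib

set_option autoImplicit false
set_option linter.unusedSectionVars false
set_option linter.style.haveILetI false

namespace Fermat.Agent.NP

open IsLocalRing

section Principal

variable {R : Type*} [CommRing R] [IsDomain R] [IsLocalRing R] [IsNoetherianRing R]

/-- the quotient of a local ring `(R, (z, π))` by a prime `(π)` is a principal ideal ring. -/
theorem isPrincipalIdealRing_quotient_of_smooth {π z : R}
    (hmax : maximalIdeal R = Ideal.span {z, π})
    (hprime : (Ideal.span {π} : Ideal R).IsPrime) :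
    IsPrincipalIdealRing (R ⧸ (Ideal.span {π} : Ideal R)) := by
  haveI := hprime
  set I : Ideal R := Ideal.span {π} with hI
  haveI : IsLocalRing (R ⧸ I) :=
    IsLocalRing.of_surjective' (Ideal.Quotient.mk I) Ideal.Quotient.mk_surjective
  have hmaxbar : maximalIdeal (R ⧸ I) = Ideal.span {Ideal.Quotient.mk I z} := by
    have h1 : (maximalIdeal R).map (Ideal.Quotient.mk I) = Ideal.span {Ideal.Quotient.mk I z} := by
      rw [hmax, Ideal.map_span, Set.image_pair]
      have hπ0 : Ideal.Quotient.mk I π = 0 :=
        Ideal.Quotient.eq_zero_iff_mem.2 (Ideal.subset_span (Set.mem_singleton _))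
      rw [hπ0]
      apply le_antisymm
      · rw [Ideal.span_le]
        rintro w (rfl | rfl)
        · exact Ideal.subset_span (Set.mem_singleton _)
        · exact Ideal.zero_mem _
      · exact Ideal.span_mono (by simp)
    rw [← h1]
    symm
    apply IsLocalRing.eq_maximalIdeal
    rcases Ideal.map_eq_top_or_isMaximal_of_surjective (Ideal.Quotient.mk I)
      Ideal.Quotient.mk_surjective (maximalIdeal.isMaximal R) with h | h
    · exfalso
      -- `1 ∈ 𝔪 + (π) = 𝔪`
      have h2 : (1 : R ⧸ I) ∈ (maximalIdeal R).map (Ideal.Quotient.mk I) := by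
        rw [h]; trivial
      rw [Ideal.mem_map_iff_of_surjective _ Ideal.Quotient.mk_surjective] at h2
      obtain ⟨a, ha, ha1⟩ := h2
      have h3 : a - 1 ∈ I := by
        rw [← Ideal.Quotient.eq_zero_iff_mem, map_sub, ha1, map_one, sub_self]
      have hIle : I ≤ maximalIdeal R := by
        rw [hI, Ideal.span_le, hmax]
        rintro w rfl
        exact Ideal.subset_span (by simp)
      have h4 : (1 : R) ∈ maximalIdeal R := by
        have h5 := (maximalIdeal R).sub_mem ha (hIle h3)
        rwa [sub_sub_cancel] at h5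
      exact (maximalIdeal.isMaximal R).ne_top ((Ideal.eq_top_iff_one _).2 h4)
    · exact h
  have hprin : (maximalIdeal (R ⧸ I)).IsPrincipal := ⟨⟨Ideal.Quotient.mk I z, hmaxbar⟩⟩
  exact ((tfae_of_isNoetherianRing_of_isLocalRing_of_isDomain (R ⧸ I)).out 0 4).mpr hprin

/-- **every prime `𝔮 ∌ π` through a smooth closed point `(z, π)` is principal.** -/
theorem exists_eq_span_singleton_of_smooth {π z : R}
    (hmax : maximalIdeal R = Ideal.span {z, π})
    (hprime : (Ideal.span {π} : Ideal R).IsPrime)
    (𝔮 : Ideal R) [h𝔮 : 𝔮.IsPrime] (hπ𝔮 : π ∉ 𝔮) : ∃ h ∈ 𝔮, 𝔮 = Ideal.span {h} := by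
  haveI := isPrincipalIdealRing_quotient_of_smooth hmax hprime
  set I : Ideal R := Ideal.span {π} with hI
  obtain ⟨g, hg⟩ := (IsPrincipalIdealRing.principal (𝔮.map (Ideal.Quotient.mk I))).principal
  have hgmem : g ∈ 𝔮.map (Ideal.Quotient.mk I) := by
    rw [hg]; exact Submodule.mem_span_singleton_self g
  rw [Ideal.mem_map_iff_of_surjective _ Ideal.Quotient.mk_surjective] at hgmem
  obtain ⟨h, hh, hhg⟩ := hgmem
  refine ⟨h, hh, le_antisymm ?_ ?_⟩
  · have hfg : 𝔮.FG := IsNoetherian.noetherian _
    have hjac : maximalIdeal R ≤ Ideal.jacobson (⊥ : Ideal R) := by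
      rw [IsLocalRing.jacobson_eq_maximalIdeal ⊥ bot_ne_top]
    refine Submodule.le_of_le_smul_of_le_jacobson_bot hfg hjac ?_
    intro w hw
    have hwbar : Ideal.Quotient.mk I w ∈ 𝔮.map (Ideal.Quotient.mk I) :=
      Ideal.mem_map_of_mem _ hw
    rw [hg] at hwbar
    obtain ⟨abar, habar⟩ := Submodule.mem_span_singleton.1 hwbar
    obtain ⟨a, rfl⟩ := Ideal.Quotient.mk_surjective abar
    have h1 : w - a * h ∈ I := by
      rw [← Ideal.Quotient.eq_zero_iff_mem, map_sub, map_mul, hhg, ← habar, smul_eq_mul, sub_self]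
    rw [hI, Ideal.mem_span_singleton] at h1
    obtain ⟨w', hw'⟩ := h1
    have hmem : π * w' ∈ 𝔮 := by
      rw [← hw']
      exact 𝔮.sub_mem hw (𝔮.mul_mem_left _ hh)
    have hw'q : w' ∈ 𝔮 := (h𝔮.mem_or_mem hmem).resolve_left hπ𝔮
    have hπm : π ∈ maximalIdeal R := by
      rw [hmax]; exact Ideal.subset_span (by simp)
    have hw_eq : w = a * h + π * w' := by rw [← hw']; ring
    rw [hw_eq]
    refine Submodule.add_mem_sup ?_ ?_
    · exact Ideal.mul_mem_left _ _ (Ideal.subset_span (Set.mem_singleton _))
    · exact Submodule.smul_mem_smul hπm hw'q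
  · rw [Ideal.span_le]
    rintro w rfl
    exact hh

end Principal

end Fermat.Agent.NP
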