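/-
NP33 (S33) — helper5 — package **[SMOOTHQ]**, part 2: **the local Kummer factorisation at a smooth
closed point of the special fibre, without rationality of the horizontal divisor.**

* `IsKummerAtPrimeQ m g 𝔮` : `SS.IsKummerAtPrime` without the rational point: `g` is a unit at the
  horizontal prime `𝔮`, or its order at `𝔮` (measured by a normalised valuation adapted to `𝔮`) is
  divisible by `m`.
* `exists_kummer_factorisation_of_smoothQ` : in the local ring `R ∋ π, z`, `𝔪 = (z, π)`, `(π)` prime,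
  `R` normal: if all orders of `f` at the primes of height one are divisible by `N` then
  `f = γ ^ N · v`, `v ∈ Rˣ` (the horizontal primes are principal: `SMOOTHQ_helper5_Prin`).
* `exists_kummer_at_smoothQ` : chart form (the analogue of `SS.exists_kummer_at_smooth`).
* `isKummerAtPrimeQ_of_place` : `IsKummerAtPrimeQ` from the orders of `g` at the places (`m ∣ ord_P g`
  for ALL places, no rationality).
-/
import Mathlib
import Fermat.Agent.SS.LOCASM_helper5_Main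
import Fermat.Agent.SS.NODEPLACE_helper5
import Fermat.Agent.NP.SMOOTHQ_helper5_Prin

set_option autoImplicit false
set_option linter.unusedSectionVars false
set_option linter.style.haveILetI false

open AlgebraicCurve

namespace Fermat.Agent.NP

open Fermat.Agent.SS Fermat.Agent.JA IsLocalRing

section Data

variable {B : Type*} [CommRing B] [IsDomain B] {E : Type*} [Field E] [Algebra B E]
  [IsFractionRing B E]

/-- the hypothesis on the horizontal divisor of `g` at a horizontal prime `𝔮` of height one of the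
chart `B`, without rationality: either `g` is a unit at `𝔮`, or the order of `g` at `𝔮` (measured by
a normalised valuation `v` adapted to `𝔮`) is divisible by `m`. -/
def IsKummerAtPrimeQ (m : ℕ) (g : E) (𝔮 : Ideal B) : Prop :=
  IsUnitAtPrime 𝔮 g ∨ ∃ (v : E → ℤ) (k : ℤ),
    (∀ a b : E, a ≠ 0 → b ≠ 0 → v (a * b) = v a + v b) ∧
    (∀ a : B, a ∉ 𝔮 → v (algebraMap B E a) = 0) ∧
    (∀ a : B, a ∈ 𝔮 → a ≠ 0 → 0 < v (algebraMap B E a)) ∧
    (∃ ϖ' : E, ϖ' ≠ 0 ∧ v ϖ' = 1) ∧ v g = (m : ℤ) * k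

end Data

section Transfer

variable {B : Type*} [CommRing B] [IsDomain B]
variable {R : Type*} [CommRing R] [IsDomain R] [IsLocalRing R] [Algebra B R]
variable {E : Type*} [Field E] [Algebra B E] [Algebra R E] [IsScalarTower B R E]
  [IsFractionRing B E] [IsFractionRing R E]

/-- the hypotheses of `valuation_eq_of_isUnitAtPrime` pass from the contraction of a prime `𝔮` of
`B_𝔪` to `𝔮`. -/
theorem valuation_transferQ (𝔪 : Ideal B) [h𝔪 : 𝔪.IsPrime] [IsLocalization.AtPrime R 𝔪]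
    (𝔮 : Ideal R) [h𝔮 : 𝔮.IsPrime]
    (v : E → ℤ) (hmul : ∀ a b : E, a ≠ 0 → b ≠ 0 → v (a * b) = v a + v b)
    (hunit : ∀ a : B, a ∉ 𝔮.comap (algebraMap B R) → v (algebraMap B E a) = 0)
    (hpos : ∀ a : B, a ∈ 𝔮.comap (algebraMap B R) → a ≠ 0 → 0 < v (algebraMap B E a)) :
    (∀ a : R, a ∉ 𝔮 → v (algebraMap R E a) = 0) ∧
      (∀ a : R, a ∈ 𝔮 → a ≠ 0 → 0 < v (algebraMap R E a)) := by
  have hinjB : Function.Injective (algebraMap B E) := IsFractionRing.injective B E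
  have hinjR : Function.Injective (algebraMap R E) := IsFractionRing.injective R E
  have key : ∀ a : R, a ≠ 0 → ∃ (b : B), b ≠ 0 ∧ (b ∈ 𝔮.comap (algebraMap B R) ↔ a ∈ 𝔮) ∧
      v (algebraMap R E a) = v (algebraMap B E b) := by
    intro a ha
    obtain ⟨b, s, rfl⟩ := IsLocalization.exists_mk'_eq 𝔪.primeCompl a
    have hspec : IsLocalization.mk' R b s * algebraMap B R s = algebraMap B R b :=
      IsLocalization.mk'_spec R b s
    have hs0 : (s : B) ≠ 0 := fun h0 => s.2 (h0 ▸ 𝔪.zero_mem)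
    have hb0 : b ≠ 0 := by
      rintro rfl
      apply ha
      rw [IsLocalization.mk'_zero]
    have hsu : IsUnit (algebraMap B R s) := IsLocalization.map_units R s
    have hs𝔮 : algebraMap B R s ∉ 𝔮 := fun h => h𝔮.ne_top (Ideal.eq_top_of_isUnit_mem _ h hsu)
    refine ⟨b, hb0, ?_, ?_⟩
    · rw [Ideal.mem_comap, ← hspec]
      constructor
      · intro h
        exact (h𝔮.mem_or_mem h).resolve_right hs𝔮
      · intro h
        exact 𝔮.mul_mem_right _ h
    · have hsq : (s : B) ∉ 𝔮.comap (algebraMap B R) := hs𝔮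
      have hvs := hunit s hsq
      have h1 : algebraMap R E (IsLocalization.mk' R b s) * algebraMap B E s = algebraMap B E b := by
        rw [IsScalarTower.algebraMap_apply B R E, ← map_mul, hspec,
          ← IsScalarTower.algebraMap_apply B R E]
      have h2 := hmul (algebraMap R E (IsLocalization.mk' R b s)) (algebraMap B E s)
        (fun h0 => ha (hinjR (by rw [h0, map_zero])))
        (fun h0 => hs0 (hinjB (by rw [h0, map_zero])))
      rw [h1, hvs, add_zero] at h2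
      exact h2.symm
  constructor
  · intro a ha
    have ha0 : a ≠ 0 := by
      rintro rfl
      exact ha (Ideal.zero_mem _)
    obtain ⟨b, hb0, hiff, hv⟩ := key a ha0
    rw [hv]
    exact hunit b (fun hb => ha (hiff.1 hb))
  · intro a ha ha0
    obtain ⟨b, hb0, hiff, hv⟩ := key a ha0
    rw [hv]
    exact hpos b (hiff.2 ha) hb0

end Transfer

section LocalFact

variable {R : Type*} [CommRing R] [IsDomain R] [IsLocalRing R] [IsNoetherianRing R]
  [IsIntegrallyClosed R]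
variable {K : Type*} [Field K] [Algebra R K] [IsFractionRing R K]

/-- the set of horizontal primes of height one at which `f` is not a unit is finite. -/
theorem finite_setOf_not_isUnitAtPrime_hor {π : R} {f : K} (hf : f ≠ 0) :
    {𝔮 : Ideal R | 𝔮.IsPrime ∧ 𝔮.height = 1 ∧ ¬ IsUnitAtPrime 𝔮 f ∧ π ∉ 𝔮}.Finite := by
  obtain ⟨a, b, hb, rfl⟩ := IsFractionRing.div_surjective (A := R) f
  have hb0 : b ≠ 0 := nonZeroDivisors.ne_zero hb
  have ha0 : a ≠ 0 := by
    rintro rfl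
    simp at hf
  have hab : a * b ≠ 0 := mul_ne_zero ha0 hb0
  refine (Ideal.finite_minimalPrimes_of_isNoetherianRing R (Ideal.span {a * b})).subset ?_
  rintro 𝔮 ⟨h𝔮, hht, hnu, -⟩
  haveI := h𝔮
  have hmem : a * b ∈ 𝔮 := by
    by_contra hn
    apply hnu
    have ha : a ∉ 𝔮 := fun h => hn (𝔮.mul_mem_right _ h)
    have hb' : b ∉ 𝔮 := fun h => hn (𝔮.mul_mem_left _ h)
    exact (isUnitAtPrime_algebraMap ha).div (isUnitAtPrime_algebraMap hb')
  have hle : Ideal.span {a * b} ≤ 𝔮 := by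
    rw [Ideal.span_le]
    rintro w rfl
    exact hmem
  obtain ⟨𝔭, h𝔭min, h𝔭le⟩ := Ideal.exists_minimalPrimes_le hle
  haveI : 𝔭.IsPrime := h𝔭min.1.1
  have h𝔭bot : 𝔭 ≠ ⊥ := by
    intro hbot
    have : a * b ∈ 𝔭 := h𝔭min.1.2 (Ideal.mem_span_singleton_self _)
    rw [hbot, Ideal.mem_bot] at this
    exact hab this
  have := eq_of_le_of_height_eq_one h𝔭le h𝔭bot hht
  rw [← this]
  exact h𝔭min

/-- **the local Kummer factorisation at a smooth point, general horizontal divisor.** -/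
theorem exists_kummer_factorisation_of_smoothQ {π z : R}
    (hmax : maximalIdeal R = Ideal.span {z, π})
    (hprime : (Ideal.span {π} : Ideal R).IsPrime) (hπne : π ≠ 0)
    {N : ℕ} {f : K} (hf : f ≠ 0)
    (hhor : ∀ (𝔮 : Ideal R) (h : R), 𝔮.IsPrime → 𝔮.height = 1 → π ∉ 𝔮 → 𝔮 = Ideal.span {h} →
      ∃ k : ℤ, IsUnitAtPrime 𝔮 (f * (algebraMap R K h ^ ((N : ℤ) * k))⁻¹))
    (j : ℤ) (hfπ : IsUnitAtPrime (Ideal.span {π})
      (f * (algebraMap R K π ^ ((N : ℤ) * j))⁻¹)) :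
    ∃ (γ : K) (v : Rˣ), f = γ ^ N * algebraMap R K (v : R) := by
  classical
  haveI := hprime
  have hinjK : Function.Injective (algebraMap R K) := IsFractionRing.injective R K
  have hπK : algebraMap R K π ≠ 0 := fun h' => hπne (hinjK (by rw [h', map_zero]))
  set 𝒮 : Set (Ideal R) := {𝔮 : Ideal R | 𝔮.IsPrime ∧ 𝔮.height = 1 ∧ ¬ IsUnitAtPrime 𝔮 f ∧
    π ∉ 𝔮} with h𝒮
  have hfin : 𝒮.Finite := finite_setOf_not_isUnitAtPrime_hor hf
  haveI : Fintype ↥𝒮 := hfin.fintype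
  have hgen : ∀ i : ↥𝒮, ∃ (h : R) (k : ℤ), h ∈ i.1 ∧ i.1 = Ideal.span {h} ∧
      IsUnitAtPrime i.1 (f * (algebraMap R K h ^ ((N : ℤ) * k))⁻¹) := by
    rintro ⟨𝔮, h𝔮, hht, hnu, hhor'⟩
    haveI := h𝔮
    obtain ⟨h, hh, heq⟩ := exists_eq_span_singleton_of_smooth hmax hprime 𝔮 hhor'
    obtain ⟨k, hk⟩ := hhor 𝔮 h h𝔮 hht hhor' heq
    exact ⟨h, k, hh, heq, hk⟩
  choose h k hh heq hk using hgen
  have hprimeS : ∀ i : ↥𝒮, (i.1).IsPrime := fun i => i.2.1
  have hne_bot : ∀ i : ↥𝒮, i.1 ≠ ⊥ := by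
    intro i hbot
    have h1 := i.2.2.1
    rw [hbot, Ideal.height_bot] at h1
    exact zero_ne_one h1
  -- a prime of height one containing `h i` is `i`
  have hmem : ∀ (i : ↥𝒮) (𝔮' : Ideal R), 𝔮'.IsPrime → 𝔮'.height = 1 → h i ∈ 𝔮' → i.1 = 𝔮' := by
    intro i 𝔮' h𝔮' hht' hm
    haveI := h𝔮'
    haveI := hprimeS i
    have hle : i.1 ≤ 𝔮' := by
      intro w hw
      rw [heq i, Ideal.mem_span_singleton] at hw
      obtain ⟨c, rfl⟩ := hw
      exact 𝔮'.mul_mem_right _ hm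
    exact eq_of_le_of_height_eq_one hle (hne_bot i) hht'
  have hhK : ∀ i : ↥𝒮, algebraMap R K (h i) ≠ 0 := by
    intro i h'
    have h0 : h i = 0 := hinjK (by rw [h', map_zero])
    apply hne_bot i
    rw [heq i, h0]
    exact Ideal.span_singleton_eq_bot.2 rfl
  have hspanπ_ne : (Ideal.span {π} : Ideal R) ≠ ⊥ := by
    rw [Ne, Ideal.span_singleton_eq_bot]; exact hπne
  set Pr : K := ∏ i : ↥𝒮, algebraMap R K (h i) ^ ((N : ℤ) * k i) with hPr
  have hPr0 : Pr ≠ 0 := Finset.prod_ne_zero_iff.mpr (fun i _ => zpow_ne_zero _ (hhK i))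
  set T : K := f * Pr⁻¹ * (algebraMap R K π ^ ((N : ℤ) * j))⁻¹ with hT
  have hT0 : T ≠ 0 :=
    mul_ne_zero (mul_ne_zero hf (inv_ne_zero hPr0)) (inv_ne_zero (zpow_ne_zero _ hπK))
  have hTunit : ∀ 𝔮 : Ideal R, 𝔮.IsPrime → 𝔮.height = 1 → IsUnitAtPrime 𝔮 T := by
    intro 𝔮 h𝔮 hh'
    haveI := h𝔮
    by_cases hπ𝔮 : π ∈ 𝔮
    · -- `𝔮 = (π)`
      have hle : Ideal.span {π} ≤ 𝔮 := by rw [Ideal.span_le]; rintro w rfl; exact hπ𝔮
      have heq' : Ideal.span {π} = 𝔮 := eq_of_le_of_height_eq_one hle hspanπ_ne hh'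
      subst heq'
      have h1 : IsUnitAtPrime (Ideal.span {π}) Pr := by
        refine isUnitAtPrime_prod Finset.univ _ (fun i _ => (isUnitAtPrime_algebraMap ?_).zpow _)
        intro hm
        have := hmem i _ hprime hh' hm
        exact i.2.2.2.2 (this ▸ Ideal.subset_span (Set.mem_singleton _))
      have : T = (f * (algebraMap R K π ^ ((N : ℤ) * j))⁻¹) * Pr⁻¹ := by rw [hT]; ring
      rw [this]
      exact hfπ.mul h1.inv
    · have hfac : ∀ i : ↥𝒮, i.1 ≠ 𝔮 →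
          IsUnitAtPrime 𝔮 (algebraMap R K (h i) ^ ((N : ℤ) * k i)) := by
        intro i hi
        refine (isUnitAtPrime_algebraMap ?_).zpow _
        intro hm
        exact hi (hmem i 𝔮 h𝔮 hh' hm)
      have hπunit : IsUnitAtPrime 𝔮 (algebraMap R K π ^ ((N : ℤ) * j)) :=
        (isUnitAtPrime_algebraMap hπ𝔮).zpow _
      rw [hT]
      refine IsUnitAtPrime.mul ?_ hπunit.inv
      by_cases hex : ∃ i : ↥𝒮, i.1 = 𝔮
      · obtain ⟨i₀, hq⟩ := hex
        rw [hPr, ← Finset.mul_prod_erase Finset.univ _ (Finset.mem_univ i₀), mul_inv, ← mul_assoc]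
        refine IsUnitAtPrime.mul ?_ (IsUnitAtPrime.inv ?_)
        · rw [← hq]; exact hk i₀
        · refine isUnitAtPrime_prod _ _ (fun i hi => hfac i ?_)
          intro hqi
          exact (Finset.ne_of_mem_erase hi) (Subtype.ext (hqi.trans hq.symm))
      · have hu : IsUnitAtPrime 𝔮 f := by
          by_contra hnu
          exact hex ⟨⟨𝔮, h𝔮, hh', hnu, hπ𝔮⟩, rfl⟩
        refine hu.mul (IsUnitAtPrime.inv ?_)
        exact isUnitAtPrime_prod _ _ (fun i _ => hfac i (fun hqi => hex ⟨i, hqi⟩))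
  obtain ⟨v, hv⟩ := exists_unit_of_forall_height_one (R := R) T hT0 hTunit
  refine ⟨algebraMap R K π ^ j * ∏ i : ↥𝒮, algebraMap R K (h i) ^ (k i), v, ?_⟩
  have hPreq : Pr = (∏ i : ↥𝒮, algebraMap R K (h i) ^ (k i)) ^ N := by
    rw [hPr, ← Finset.prod_pow]
    refine Finset.prod_congr rfl (fun i _ => ?_)
    rw [← zpow_natCast, ← zpow_mul, mul_comm]
  have hπeq : algebraMap R K π ^ ((N : ℤ) * j) = (algebraMap R K π ^ j) ^ N := by
    rw [← zpow_natCast, ← zpow_mul, mul_comm]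
  rw [hv, hT, mul_pow, ← hPreq, ← hπeq]
  have : algebraMap R K π ^ ((N : ℤ) * j) ≠ 0 := zpow_ne_zero _ hπK
  field_simp

end LocalFact

section ChartFact

variable {R₁ : Type*} [CommRing R₁] [IsDomain R₁] [IsDiscreteValuationRing R₁]
variable {B : Type*} [CommRing B] [IsDomain B] [Algebra R₁ B]
variable {R : Type*} [CommRing R] [IsDomain R] [IsLocalRing R] [IsNoetherianRing R]
  [IsIntegrallyClosed R] [Algebra B R] [Algebra R₁ R] [IsScalarTower R₁ B R]
variable {E : Type*} [Field E] [Algebra B E] [Algebra R E] [IsScalarTower B R E]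
  [IsFractionRing B E] [IsFractionRing R E]

/-- **(b) at a smooth closed point of the special fibre, general horizontal divisor.** -/
theorem exists_kummer_at_smoothQ (𝔪 : Ideal B) [h𝔪 : 𝔪.IsMaximal] [IsLocalization.AtPrime R 𝔪]
    {ϖ : R₁} (hπne : algebraMap R₁ B ϖ ≠ 0)
    {𝔭 𝔭' : Ideal B} [h𝔭 : 𝔭.IsPrime] (hπ : algebraMap R₁ B ϖ ∈ 𝔭)
    (hinf : 𝔭 ⊓ 𝔭' ≤ Ideal.span {algebraMap R₁ B ϖ}) (hle : 𝔭 ≤ 𝔪) (hnle : ¬ 𝔭' ≤ 𝔪)
    {z : B} (hz : IsBranchUniformizer 𝔭 𝔪 z)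
    {m : ℕ} (hm : m ≠ 0) {g : E} (hg : g ≠ 0)
    (hdiv : ∀ 𝔮 : Ideal B, 𝔮.IsPrime → 𝔮.height = 1 → algebraMap R₁ B ϖ ∉ 𝔮 → 𝔮 ≤ 𝔪 →
      IsKummerAtPrimeQ m g 𝔮)
    (j : ℤ) (hgπ : IsUnitAtPrime 𝔭
      (g * (algebraMap B E (algebraMap R₁ B ϖ) ^ ((m : ℤ) * j))⁻¹)) :
    ∃ γ : E, γ ≠ 0 ∧ IsUnitAtPrime 𝔪 (g * (γ ^ m)⁻¹) := by
  have hinjB : Function.Injective (algebraMap B E) := IsFractionRing.injective B E
  have hinjR : Function.Injective (algebraMap R E) := IsFractionRing.injective R E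
  have hinjBR : Function.Injective (algebraMap B R) := by
    intro a b hab
    apply hinjB
    rw [IsScalarTower.algebraMap_apply B R E, hab, ← IsScalarTower.algebraMap_apply B R E]
  have hπR : algebraMap B R (algebraMap R₁ B ϖ) = algebraMap R₁ R ϖ :=
    (IsScalarTower.algebraMap_apply R₁ B R ϖ).symm
  have hπne' : algebraMap R₁ R ϖ ≠ 0 := by
    rw [← hπR]
    intro h0
    exact hπne (hinjBR (by rw [h0, map_zero]))
  obtain ⟨hmax, hprime, hznot⟩ := smooth_point_of_branch (R := R) 𝔪 hπ hinf hle hnle hz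
  rw [hπR] at hmax hprime hznot
  have hmap := map_eq_span_of_not_le (R := R) 𝔪 hπ hinf hnle
  rw [hπR] at hmap
  have hfπ : IsUnitAtPrime (Ideal.span {algebraMap R₁ R ϖ})
      (g * (algebraMap R E (algebraMap R₁ R ϖ) ^ ((m : ℤ) * j))⁻¹) := by
    have := isUnitAtPrime_map_of_le (R := R) 𝔪 𝔭 hle hgπ
    rw [hmap, algebraMap_base_eq (R := R)] at this
    exact this
  have hhor : ∀ (𝔮 : Ideal R) (h : R), 𝔮.IsPrime → 𝔮.height = 1 → algebraMap R₁ R ϖ ∉ 𝔮 →
      𝔮 = Ideal.span {h} →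
      ∃ k : ℤ, IsUnitAtPrime 𝔮 (g * (algebraMap R E h ^ ((m : ℤ) * k))⁻¹) := by
    intro 𝔮 h h𝔮 hht hhor' heq
    haveI := h𝔮
    have hprime' : (𝔮.comap (algebraMap B R)).IsPrime := Ideal.comap_isPrime _ _
    have hht' := height_comap_eq_one 𝔪 𝔮 hht
    have hhor'' : algebraMap R₁ B ϖ ∉ 𝔮.comap (algebraMap B R) := by
      rw [Ideal.mem_comap, ← IsScalarTower.algebraMap_apply R₁ B R]
      exact hhor'
    have hle' := comap_le_of_isPrime 𝔪 𝔮
    have hh𝔮 : h ∈ 𝔮 := by rw [heq]; exact Ideal.subset_span (Set.mem_singleton _)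
    rcases hdiv _ hprime' hht' hhor'' hle' with hu | ⟨v, k, hmul, hunit, hpos, hone, hvg⟩
    · refine ⟨0, ?_⟩
      rw [mul_zero, zpow_zero, inv_one, mul_one]
      exact isUnitAtPrime_of_comap 𝔮 hu
    · obtain ⟨hunit', hpos'⟩ := valuation_transferQ (E := E) 𝔪 𝔮 v hmul hunit hpos
      have hloc : ∀ w ∈ 𝔮, ∃ s : R, s ∉ 𝔮 ∧ h ∣ s * w := by
        intro w hw
        refine ⟨1, fun h1 => h𝔮.ne_top ((Ideal.eq_top_iff_one _).2 h1), ?_⟩
        rw [one_mul]
        rw [heq] at hw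
        exact Ideal.mem_span_singleton.1 hw
      have hh0 : h ≠ 0 := by
        rintro rfl
        have h1 : 𝔮 = ⊥ := by rw [heq]; exact Ideal.span_singleton_eq_bot.2 rfl
        rw [h1, Ideal.height_bot] at hht
        exact zero_ne_one hht
      obtain ⟨e', he'⟩ := exists_zpow_isUnitAtPrime (K := E) 𝔮 hh𝔮 hloc hg
      have h2 := (valuation_eq_of_isUnitAtPrime (K := E) 𝔮 hh𝔮 hh0 hloc v hmul hunit' hpos'
        hone).2 g e' he'
      refine ⟨k, ?_⟩
      rw [← hvg, h2]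
      exact he'
  obtain ⟨γ, w, hγ⟩ := exists_kummer_factorisation_of_smoothQ (K := E) hmax hprime hπne'
    (N := m) hg hhor j hfπ
  exact ⟨γ, isUnitAtPrime_of_eq_pow_mul_unit 𝔪 hm hg w hγ⟩

end ChartFact

section Place

variable {R₁ : Type*} [CommRing R₁] [IsDomain R₁] [IsDiscreteValuationRing R₁]
  {K₁ : Type*} [Field K₁] [Algebra R₁ K₁] [IsFractionRing R₁ K₁]
  {B : Type*} [CommRing B] [IsDomain B] [Algebra R₁ B]
  {E : Type*} [Field E] [Algebra K₁ E] [Algebra R₁ E] [IsScalarTower R₁ K₁ E]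
  [Algebra B E] [IsScalarTower R₁ B E]
  [IsNoetherianRing B] [IsIntegrallyClosed B] [IsFractionRing B E]

/-- **`IsKummerAtPrimeQ` from places**: at a horizontal prime `𝔮` of height one, from the orders of
`g` at the places with centre `𝔮` (no rationality). -/
theorem isKummerAtPrimeQ_of_place {π : R₁} (hπ : Irreducible π)
    (𝔮 : Ideal B) [h𝔮p : 𝔮.IsPrime] (h𝔮 : 𝔮.height = 1) (hπ𝔮 : algebraMap R₁ B π ∉ 𝔮)
    {m : ℕ} {g : E}
    (h : ∀ (P : Place K₁ E) (hO : ∀ x : B, algebraMap B E x ∈ P.toValuationSubring),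
      centreIdeal P hO = 𝔮 → (m : ℤ) ∣ P.ord g) :
    IsKummerAtPrimeQ m g 𝔮 := by
  obtain ⟨P, hO, hP⟩ := exists_place_centreIdeal_eq (K₁ := K₁) (E := E) hπ 𝔮 h𝔮 hπ𝔮
  obtain ⟨k, hk⟩ := h P hO hP
  right
  refine ⟨P.ord, k, fun _ _ ha hb => P.ord_mul ha hb, ?_, ?_,
    Fermat.Agent.FF.Gal.exists_ord_eq_one P, hk⟩
  · intro a ha
    exact ord_eq_zero_of_not_mem_centreIdeal P hO (hP ▸ ha)
  · intro a ha ha0
    exact ord_pos_of_mem_centreIdeal P hO (hP ▸ ha) ha0

end Place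

end Fermat.Agent.NP
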