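/-
NP33 (S33) — helper5 — package **[SMOOTHQ]**, part 3: **(Δ6) at a level of good reduction without
rationality of the divisor** (`GeoHyps.kummer_one_sheet_p'`).

* `IsKummerOnSmoothChartQ ϖ m g` : `IsKummerOnSmoothChart` with `IsKummerAtPrimeQ` (no rational
  points); `IsSmoothChart.closed_datumQ` : `g = γ ^ m ·` unit at every closed point;
* `IsSmoothChart.exists_deepRoot_of_closed_datum`, `kummer_one_sheet_of_closed_data` : the one-sheet
  consumer of (Δ6) with the closed data as hypotheses;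
* `isKummerOnSmoothChartQ_of_place`, `GeoHyps.closed_datum_of_place` : from
  `∀ P : Place K₁ E, (p : ℤ) ∣ P.ord f`;
* **`GeoHyps.kummer_one_sheet_p'`** : `h : GeoHyps K₁ π t E n S`, `VM` the Gauss extension,
  `f ∈ Eˣ` a unit of `VM`, `p ∣ ord_P f` at ALL places, `ValDepth π p VM N f c` (`N` in the Hensel
  range) ⇒ `f ∈ K₁ˣ · Eˣ ^ p`.
-/
import Fermat.Agent.NP.SMOOTHQ_helper5_Fact
import Fermat.Agent.NP.HOSTP_helper5_Sheets

set_option autoImplicit false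
set_option linter.unusedSectionVars false
set_option linter.style.haveILetI false

open AlgebraicCurve

namespace Fermat.Agent.NP

open Fermat.Agent.JA Fermat.Agent.SS Fermat.Agent.FF Polynomial

section Abstract

variable {R₁ : Type*} [CommRing R₁]
variable {B : Type*} [CommRing B] [IsDomain B] [Algebra R₁ B] {E : Type*} [Field E] [Algebra B E]
  [IsFractionRing B E]

/-- **the hypotheses on the function `g` on a smooth chart, without rationality.** -/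
structure IsKummerOnSmoothChartQ (ϖ : R₁) (m : ℕ) (g : E) : Prop where
  div : ∀ 𝔪 : Ideal B, 𝔪.IsMaximal → algebraMap R₁ B ϖ ∈ 𝔪 →
    ∀ 𝔮 : Ideal B, 𝔮.IsPrime → 𝔮.height = 1 → algebraMap R₁ B ϖ ∉ 𝔮 → 𝔮 ≤ 𝔪 →
    IsKummerAtPrimeQ m g 𝔮
  ord : ∃ j : ℤ, IsUnitAtPrime (Ideal.span {algebraMap R₁ B ϖ})
    (g * (algebraMap B E (algebraMap R₁ B ϖ) ^ ((m : ℤ) * j))⁻¹)

end Abstract

section Chart

variable {R₁ : Type*} [CommRing R₁] [IsDomain R₁] [IsDiscreteValuationRing R₁]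
variable {B : Type*} [CommRing B] [IsDomain B] [IsNoetherianRing B] [IsIntegrallyClosed B]
  [Algebra R₁ B]
variable {E : Type*} [Field E] [Algebra B E] [IsFractionRing B E]

/-- **`g = γ ^ m ·` unit at every closed point of the special fibre of a smooth chart** (no
rationality). -/
theorem IsSmoothChart.closed_datumQ {ϖ : R₁} (hπne : algebraMap R₁ B ϖ ≠ 0)
    (hsm : IsSmoothChart B ϖ) {m : ℕ} (hm : m ≠ 0) {g : E} (hg : g ≠ 0)
    (hk : IsKummerOnSmoothChartQ (B := B) ϖ m g)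
    (𝔪 : Ideal B) (h𝔪 : 𝔪.IsMaximal) (hπ𝔪 : algebraMap R₁ B ϖ ∈ 𝔪) :
    ∃ γ : E, γ ≠ 0 ∧ ∃ c d : B, c ∉ 𝔪 ∧ d ∉ 𝔪 ∧
      g * algebraMap B E d = γ ^ m * algebraMap B E c := by
  haveI := hsm.isPrime
  haveI := h𝔪
  obtain ⟨j, hj⟩ := hk.ord
  obtain ⟨z, hz⟩ := hsm.branch 𝔪 h𝔪 hπ𝔪
  have hS : 𝔪.primeCompl ≤ nonZeroDivisors B := by
    intro s hs
    exact mem_nonZeroDivisors_of_ne_zero (fun h0 => hs (h0 ▸ 𝔪.zero_mem))
  haveI : IsIntegrallyClosed (Localization.AtPrime 𝔪) :=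
    isIntegrallyClosed_of_isLocalization (Localization.AtPrime 𝔪) 𝔪.primeCompl hS
  have hunits : ∀ s : 𝔪.primeCompl, IsUnit (algebraMap B E s) := fun s =>
    Localization.map_isUnit_of_le E 𝔪.primeCompl hS s
  letI : Algebra (Localization.AtPrime 𝔪) E :=
    (IsLocalization.lift (M := 𝔪.primeCompl) (S := Localization.AtPrime 𝔪) hunits).toAlgebra
  haveI : IsScalarTower B (Localization.AtPrime 𝔪) E :=
    IsScalarTower.of_algebraMap_eq (fun b => (IsLocalization.lift_eq hunits b).symm)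
  haveI : IsFractionRing (Localization.AtPrime 𝔪) E :=
    IsFractionRing.isFractionRing_of_isDomain_of_isLocalization 𝔪.primeCompl
      (Localization.AtPrime 𝔪) E
  have hle : Ideal.span {algebraMap R₁ B ϖ} ≤ 𝔪 := (Ideal.span_singleton_le_iff_mem _).2 hπ𝔪
  obtain ⟨γ, hγ, r, s, hr, hs, hrs⟩ := exists_kummer_at_smoothQ (R := Localization.AtPrime 𝔪) 𝔪
    hπne (𝔭 := Ideal.span {algebraMap R₁ B ϖ}) (𝔭' := ⊤)
    (Ideal.subset_span (Set.mem_singleton _)) inf_le_left hle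
    (fun h => h𝔪.ne_top (top_le_iff.1 h)) hz hm hg (hk.div 𝔪 h𝔪 hπ𝔪) j hj
  refine ⟨γ, hγ, r, s, hr, hs, ?_⟩
  have hγm : γ ^ m ≠ 0 := pow_ne_zero _ hγ
  rw [← hrs]
  field_simp

end Chart

section Final

variable {R : Type*} [CommRing R] [IsDomain R] [IsDiscreteValuationRing R]
  [CharZero R] {K₁ : Type*} [Field K₁] [Algebra R K₁]
  [IsFractionRing R K₁] {K : Type*} [Field K] [Algebra K₁ K] [Algebra R K] [IsScalarTower R K₁ K]
  {F : Type*} [Field F] [Algebra K F] [Algebra K₁ F] [IsScalarTower K₁ K F] [Algebra R F]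
  [IsScalarTower R K F] [FiniteDimensional K F]

/-- **deep roots at a closed point of a smooth chart, from the closed datum.** -/
theorem IsSmoothChart.exists_deepRoot_of_closed_datum (t : K) (ht : Transcendental K₁ t)
    (hK : IntermediateField.adjoin K₁ {t} = ⊤) (π : R) (hπ : Irreducible π) {p : ℕ}
    (hp : p.Prime) {e₁ : ℕ} (he₁ : 0 < e₁) {ε : Rˣ} (hpe : (p : R) = ε * π ^ e₁)
    [IsAlgClosed (IsLocalRing.ResidueField R)] (ζ : R) (hζ : IsPrimitiveRoot ζ p)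
    (hsm : IsSmoothChart ↥(chartOne R F t) π)
    {g : F} (hg : g ≠ 0)
    {N : ℕ} (hN : e₁ * p < N * (p - 1)) (c : K₁) (hc : c ≠ 0)
    (hd : ChartDepth (chartOne R F t) π p (Ideal.span {algebraMap R ↥(chartOne R F t) π}) N g
      (algebraMap K₁ F c))
    (𝔫 : Ideal ↥(chartOne R F t)) (h𝔫 : 𝔫.IsMaximal)
    (hπ𝔫 : algebraMap R ↥(chartOne R F t) π ∈ 𝔫)
    (hcl : ∃ γ : F, γ ≠ 0 ∧ ∃ c d : ↥(chartOne R F t), c ∉ 𝔫 ∧ d ∉ 𝔫 ∧
      g * algebraMap ↥(chartOne R F t) F d = γ ^ p * algebraMap ↥(chartOne R F t) F c) :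
    ∃ γ : F, DeepRootAt (chartOne R F t) p ζ π (g / algebraMap K₁ F c) 𝔫 γ := by
  haveI : IsScalarTower R K₁ F := isScalarTower_base_top R K₁ K F
  haveI : IsIntegrallyClosed ↥(chartOne R F t) := isIntegrallyClosed_chartOne (K₁ := K₁) t hK
  haveI : IsNoetherianRing ↥(chartOne R F t) := isNoetherianRing_chartOne (K₁ := K₁) t ht hK
  haveI : IsFractionRing ↥(chartOne R F t) F := isFractionRing_chartOne (K₁ := K₁) t hK
  haveI := h𝔫
  haveI := h𝔫.isPrime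
  haveI := hsm.isPrime
  have hAC : ResAlgClosed π := resAlgClosed_of_isAlgClosed hπ
  have hlamN := lam_pow_mul_pi_dvd hπ hp hζ hpe hN
  have hres : ∀ b : ↥(chartOne R F t), ∃ a : R, b - algebraMap R ↥(chartOne R F t) a ∈ 𝔫 :=
    fun b => exists_sub_mem_of_isMaximal_chartOne (K₁ := K₁) hπ ht hK 𝔫 hπ𝔫 b
  obtain ⟨z, hz⟩ := hsm.branch 𝔫 h𝔫 hπ𝔫
  have hle : Ideal.span {algebraMap R ↥(chartOne R F t) π} ≤ 𝔫 :=
    (Ideal.span_singleton_le_iff_mem _).2 hπ𝔫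
  have hπ𝔭 : algebraMap R ↥(chartOne R F t) π ∈
      Ideal.span {algebraMap R ↥(chartOne R F t) π} := Ideal.subset_span (Set.mem_singleton _)
  have hk1 : ∀ a ∈ Ideal.span {algebraMap R ↥(chartOne R F t) π}, ∃ b : ↥(chartOne R F t),
      b ∉ 𝔫 ∧ algebraMap R ↥(chartOne R F t) π ∣ b * a := by
    intro a ha
    refine ⟨1, fun h => h𝔫.ne_top ((Ideal.eq_top_iff_one _).2 h), ?_⟩
    rw [one_mul]
    exact Ideal.mem_span_singleton.1 ha
  set L := chartLocalPtSmooth (K₁ := K₁) (F := F) hπ hp he₁ hpe hAC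
    (Ideal.span {algebraMap R ↥(chartOne R F t) π}) 𝔫 hle hπ𝔭 hk1 hz hres with hL
  have key := deepRoot_of_localPt (K₁ := K₁) hπ hp
    (chartDepthBase (K₁ := K₁) (F := F) hπ hp he₁ hpe hAC) rfl rfl rfl L rfl
    (fun _ : Unit => Ideal.span {algebraMap R ↥(chartOne R F t) π}) (fun _ => rfl)
    (fun _ => hle) (fun _ => hπ𝔭) hN ζ hlamN hcl (fun _ => c) (fun _ => hc) (fun _ => hd)
  exact key ()

/-- **(Δ6) for a smooth one-sheet two-chart model, from the closed data.** -/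
theorem kummer_one_sheet_of_closed_data
    (t : K) (ht : Transcendental K₁ t) (hK : IntermediateField.adjoin K₁ {t} = ⊤)
    (π : R) (hπ : Irreducible π) {p : ℕ} (hp : p.Prime) {e₁ : ℕ} (he₁ : 0 < e₁) {ε : Rˣ}
    (hpe : (p : R) = ε * π ^ e₁) [IsAlgClosed (IsLocalRing.ResidueField R)]
    (ζ : R) (hζ : IsPrimitiveRoot ζ p)
    (hM4 : ∀ x : F, IsAlgebraic K₁ x → x ∈ Set.range (algebraMap K₁ F))
    (hsm₁ : IsSmoothChart ↥(chartOne R F t) π) (hsm₂ : IsSmoothChart ↥(chartOne R F t⁻¹) π)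
    (f : F) (hf : f ≠ 0)
    (hcl₁ : ∀ 𝔫 : Ideal ↥(chartOne R F t), 𝔫.IsMaximal → algebraMap R ↥(chartOne R F t) π ∈ 𝔫 →
      ∃ γ : F, γ ≠ 0 ∧ ∃ c d : ↥(chartOne R F t), c ∉ 𝔫 ∧ d ∉ 𝔫 ∧
        f * algebraMap ↥(chartOne R F t) F d = γ ^ p * algebraMap ↥(chartOne R F t) F c)
    (hcl₂ : ∀ 𝔫 : Ideal ↥(chartOne R F t⁻¹), 𝔫.IsMaximal →
      algebraMap R ↥(chartOne R F t⁻¹) π ∈ 𝔫 →
      ∃ γ : F, γ ≠ 0 ∧ ∃ c d : ↥(chartOne R F t⁻¹), c ∉ 𝔫 ∧ d ∉ 𝔫 ∧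
        f * algebraMap ↥(chartOne R F t⁻¹) F d = γ ^ p * algebraMap ↥(chartOne R F t⁻¹) F c)
    {N : ℕ} (hN : e₁ * p < N * (p - 1)) (c₁ c₂ : K₁) (hc₁ : c₁ ≠ 0) (hc₂ : c₂ ≠ 0)
    (hd₁ : ChartDepth (chartOne R F t) π p (Ideal.span {algebraMap R ↥(chartOne R F t) π}) N f
      (algebraMap K₁ F c₁))
    (hd₂ : ChartDepth (chartOne R F t⁻¹) π p (Ideal.span {algebraMap R ↥(chartOne R F t⁻¹) π}) N f
      (algebraMap K₁ F c₂)) :
    ∃ (c : K₁) (u : F), c ≠ 0 ∧ f = algebraMap K₁ F c * u ^ p := by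
  have ht0 : t ≠ 0 := fun h => ht (h ▸ isAlgebraic_zero)
  have ht' := transcendental_inv_of_transcendental ht
  have hK' := adjoin_inv_eq_top hK
  have hAC : ResAlgClosed π := resAlgClosed_of_isAlgClosed hπ
  have hζ1 : ζ ≠ 1 := hζ.ne_one hp.one_lt
  obtain ⟨c₀, hc₀, hb₁, hb₂⟩ := exists_common_const_of_unique (K₁ := K₁) t ht hK π hπ
    (p := p) (ζ := ζ) hM4 (g := f)
    (fun 𝔮 _ hπ𝔮 c c' hc hc' γ γ' h h' =>
      IsSmoothChart.constRel_of_deepRoots (K₁ := K₁) t ht hK π hπ hp he₁ hpe hAC hsm₁ 𝔮 hπ𝔮 hζ1 hf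
        hc hc' h h')
    (fun 𝔫 h𝔫 hπ𝔫 => ⟨c₁, hc₁, IsSmoothChart.exists_deepRoot_of_closed_datum (K₁ := K₁) t ht hK π
      hπ hp he₁ hpe ζ hζ hsm₁ hf hN c₁ hc₁ hd₁ 𝔫 h𝔫 hπ𝔫 (hcl₁ 𝔫 h𝔫 hπ𝔫)⟩)
    (fun 𝔫 h𝔫 hπ𝔫 => ⟨c₂, hc₂, IsSmoothChart.exists_deepRoot_of_closed_datum (K₁ := K₁) t⁻¹ ht'
      hK' π hπ hp he₁ hpe ζ hζ hsm₂ hf hN c₂ hc₂ hd₂ 𝔫 h𝔫 hπ𝔫 (hcl₂ 𝔫 h𝔫 hπ𝔫)⟩)
  have hC₀ : algebraMap K₁ F c₀ ≠ 0 := by rwa [Ne, map_eq_zero]
  have hf' : f / algebraMap K₁ F c₀ ≠ 0 := div_ne_zero hf hC₀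
  obtain ⟨c, u, hc, hcu⟩ := kummer_one_sheet (K₁ := K₁) ht hK hπ.prime hp hζ hM4
    (sheetOf_subsingleton_of_isPrime t ht0 π hsm₁.isPrime) (f / algebraMap K₁ F c₀) hf' hb₁ hb₂
  refine ⟨c * c₀, u, mul_ne_zero hc hc₀, ?_⟩
  rw [map_mul]
  rw [div_eq_iff hC₀] at hcu
  rw [hcu]
  ring

end Final

section One

variable {R : Type*} [CommRing R] [IsDomain R] [IsDiscreteValuationRing R] [CharZero R]
  {K₁ : Type*} [Field K₁] [Algebra R K₁] [IsFractionRing R K₁]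
  {K : Type*} [Field K] [Algebra K₁ K] [Algebra R K] [IsScalarTower R K₁ K]
  {E : Type*} [Field E] [Algebra K E] [Algebra K₁ E] [IsScalarTower K₁ K E]
  [Algebra R E] [IsScalarTower R K E]
  {π : R} {t : K} {n : ℕ} {S : Finset R}

variable [FiniteDimensional K E]

/-- **`IsKummerOnSmoothChartQ … p f` from the places (all of them) and the unit hypothesis.** -/
theorem isKummerOnSmoothChartQ_of_place
    (ht : Transcendental K₁ t) (hK : IntermediateField.adjoin K₁ {t} = ⊤)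
    (hπ : Irreducible π) {p : ℕ} {f : E}
    (hord : ∀ P : Place K₁ E, (p : ℤ) ∣ P.ord f)
    (hu : IsUnitAtPrime (Ideal.span {algebraMap R ↥(chartOne R E t) π}) f) :
    IsKummerOnSmoothChartQ (B := ↥(chartOne R E t)) π p f := by
  haveI : IsScalarTower R K₁ E := isScalarTower_base_const R K₁ K E
  haveI : IsIntegrallyClosed ↥(chartOne R E t) := isIntegrallyClosed_chartOne (K₁ := K₁) t hK
  haveI : IsNoetherianRing ↥(chartOne R E t) := isNoetherianRing_chartOne (K₁ := K₁) t ht hK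
  haveI : IsFractionRing ↥(chartOne R E t) E := isFractionRing_chartOne (K₁ := K₁) t hK
  refine ⟨?_, ⟨0, ?_⟩⟩
  · intro 𝔪 h𝔪 hπ𝔪 𝔮 h𝔮 hht hπ𝔮 hle
    haveI := h𝔮
    exact isKummerAtPrimeQ_of_place (K₁ := K₁) hπ 𝔮 hht hπ𝔮 (fun P _ _ => hord P)
  · simpa using hu

/-- **the closed data of a function with divisor in `p · Div` at a level of good reduction.** -/
theorem GeoHyps.closed_datum_of_place (h : GeoHyps K₁ π t E n S) (VM : ValuationSubring E)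
    (hG : IsGaussAt R π t (VM.comap (algebraMap K E)))
    {p : ℕ} (hp : p ≠ 0) {f : E} (hf : f ≠ 0)
    (hord : ∀ P : Place K₁ E, (p : ℤ) ∣ P.ord f) (hfu : VM.valuation f = 1)
    (𝔫 : Ideal ↥(chartOne R E t)) (h𝔫 : 𝔫.IsMaximal)
    (hπ𝔫 : algebraMap R ↥(chartOne R E t) π ∈ 𝔫) :
    ∃ γ : E, γ ≠ 0 ∧ ∃ c d : ↥(chartOne R E t), c ∉ 𝔫 ∧ d ∉ 𝔫 ∧
      f * algebraMap ↥(chartOne R E t) E d = γ ^ p * algebraMap ↥(chartOne R E t) E c := by
  have hπ := h.irreducible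
  have hu := h.transcendental
  have hK := h.adjoin_eq_top
  haveI : IsScalarTower R K₁ E := isScalarTower_base_const R K₁ K E
  haveI : IsIntegrallyClosed ↥(chartOne R E t) := isIntegrallyClosed_chartOne (K₁ := K₁) t hK
  haveI : IsNoetherianRing ↥(chartOne R E t) := isNoetherianRing_chartOne (K₁ := K₁) t hu hK
  haveI : IsFractionRing ↥(chartOne R E t) E := isFractionRing_chartOne (K₁ := K₁) t hK
  haveI hP₁ := GeoHyps.span_isPrime h
  have hinjF : Function.Injective (algebraMap R E) := by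
    rw [IsScalarTower.algebraMap_eq R K₁ E]
    exact (algebraMap K₁ E).injective.comp (IsFractionRing.injective R K₁)
  have hπ1 : algebraMap R ↥(chartOne R E t) π ≠ 0 := by
    intro h0
    have := congrArg (fun w : ↥(chartOne R E t) => (w : E)) h0
    exact hπ.ne_zero (hinjF (by rw [map_zero]; exact this))
  have hloc₁ : ∀ z ∈ Ideal.span {algebraMap R ↥(chartOne R E t) π}, ∃ s : ↥(chartOne R E t),
      s ∉ Ideal.span {algebraMap R ↥(chartOne R E t) π} ∧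
        algebraMap R ↥(chartOne R E t) π ∣ s * z := by
    intro z hz
    refine ⟨1, fun h1 => hP₁.ne_top ((Ideal.eq_top_iff_one _).2 h1), ?_⟩
    rw [one_mul]
    exact Ideal.mem_span_singleton.1 hz
  have hBW₁ : ∀ b : ↥(chartOne R E t), (b : E) ∈ VM := fun b => chart_le_of_isGaussAt hG b b.2
  have hW₁ : ∀ b : ↥(chartOne R E t), b ∈ Ideal.span {algebraMap R ↥(chartOne R E t) π} ↔
      VM.valuation (b : E) < 1 := fun b => (GeoHyps.valuation_lt_one_iff_mem_span h VM hG b).symm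
  have hπ₁ : algebraMap R ↥(chartOne R E t) π ∈ Ideal.span {algebraMap R ↥(chartOne R E t) π} :=
    Ideal.subset_span (Set.mem_singleton _)
  have hu₁ := isUnitAtPrime_of_valuationSubring_eq_one VM hBW₁ hW₁ hπ₁ hloc₁ hfu
  exact (GeoHyps.isSmoothChart h).closed_datumQ (E := E) hπ1 hp hf
    (isKummerOnSmoothChartQ_of_place (K₁ := K₁) hu hK hπ hord hu₁) 𝔫 h𝔫 hπ𝔫

/-- **(Δ6) at a level of good reduction, without rationality of the divisor.** -/
theorem GeoHyps.kummer_one_sheet_p' [IsAlgClosed (IsLocalRing.ResidueField R)]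
    (h : GeoHyps K₁ π t E n S) (VM : ValuationSubring E)
    (hG : IsGaussAt R π t (VM.comap (algebraMap K E)))
    {p : ℕ} (hp : p.Prime) {e₁ : ℕ} (he₁ : 0 < e₁) {ε : Rˣ} (hpe : (p : R) = ε * π ^ e₁)
    (ζ : R) (hζ : IsPrimitiveRoot ζ p)
    (f : E) (hf : f ≠ 0)
    (hord : ∀ P : Place K₁ E, (p : ℤ) ∣ P.ord f)
    (hfu : VM.valuation f = 1)
    {N : ℕ} (hN : e₁ * p < N * (p - 1)) (c : K₁) (hc : c ≠ 0)
    (hd : ValDepth π p VM N f c) :
    ∃ (c' : K₁) (u : E), c' ≠ 0 ∧ f = algebraMap K₁ E c' * u ^ p := by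
  have hπ := h.irreducible
  have hu := h.transcendental
  have hK := h.adjoin_eq_top
  have hu' := transcendental_inv_of_transcendental hu
  have hK' := adjoin_inv_eq_top hK
  obtain ⟨S', h'⟩ := h.inv
  have hG' : IsGaussAt R π t⁻¹ (VM.comap (algebraMap K E)) := isGaussAt_inv π hπ.prime t _ hG
  haveI : IsScalarTower R K₁ E := isScalarTower_base_const R K₁ K E
  haveI : IsNoetherianRing ↥(chartOne R E t) := isNoetherianRing_chartOne (K₁ := K₁) t hu hK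
  haveI : IsFractionRing ↥(chartOne R E t) E := isFractionRing_chartOne (K₁ := K₁) t hK
  haveI : IsNoetherianRing ↥(chartOne R E t⁻¹) :=
    isNoetherianRing_chartOne (K₁ := K₁) t⁻¹ hu' hK'
  haveI : IsFractionRing ↥(chartOne R E t⁻¹) E := isFractionRing_chartOne (K₁ := K₁) t⁻¹ hK'
  haveI hP₁ := GeoHyps.span_isPrime h
  haveI hP₂ := GeoHyps.span_isPrime h'
  have hloc₁ := GeoHyps.hloc_span h
  have hloc₂ := GeoHyps.hloc_span h'
  have hBW₁ : ∀ b : ↥(chartOne R E t), (b : E) ∈ VM := fun b => chart_le_of_isGaussAt hG b b.2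
  have hBW₂ : ∀ b : ↥(chartOne R E t⁻¹), (b : E) ∈ VM := fun b => chart_le_of_isGaussAt hG' b b.2
  have hW₁ : ∀ b : ↥(chartOne R E t), b ∈ Ideal.span {algebraMap R ↥(chartOne R E t) π} ↔
      VM.valuation (b : E) < 1 := fun b => (GeoHyps.valuation_lt_one_iff_mem_span h VM hG b).symm
  have hW₂ : ∀ b : ↥(chartOne R E t⁻¹), b ∈ Ideal.span {algebraMap R ↥(chartOne R E t⁻¹) π} ↔
      VM.valuation (b : E) < 1 := fun b => (GeoHyps.valuation_lt_one_iff_mem_span h' VM hG' b).symm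
  have hπ₁ : algebraMap R ↥(chartOne R E t) π ∈ Ideal.span {algebraMap R ↥(chartOne R E t) π} :=
    Ideal.subset_span (Set.mem_singleton _)
  have hπ₂ : algebraMap R ↥(chartOne R E t⁻¹) π ∈
      Ideal.span {algebraMap R ↥(chartOne R E t⁻¹) π} := Ideal.subset_span (Set.mem_singleton _)
  have hd₁ := chartDepth_of_valDepth (K₁ := K₁) VM hBW₁ hW₁ hπ₁ hloc₁ hc hd
  have hd₂ := chartDepth_of_valDepth (K₁ := K₁) VM hBW₂ hW₂ hπ₂ hloc₂ hc hd
  exact kummer_one_sheet_of_closed_data (K₁ := K₁) t hu hK π hπ hp he₁ hpe ζ hζ h.const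
    (GeoHyps.isSmoothChart h) (GeoHyps.isSmoothChart h') f hf
    (fun 𝔫 h𝔫 hπ𝔫 => GeoHyps.closed_datum_of_place h VM hG hp.ne_zero hf hord hfu 𝔫 h𝔫 hπ𝔫)
    (fun 𝔫 h𝔫 hπ𝔫 => GeoHyps.closed_datum_of_place h' VM hG' hp.ne_zero hf hord hfu 𝔫 h𝔫 hπ𝔫)
    hN c c hc hc hd₁ hd₂

end One

end Fermat.Agent.NP
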