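/-
NP33 (S33) — helper5 — **(C1) consumer: global regularity at a level of good reduction.**

For ANY `GeoHyps K₁ π t E n S` over a discrete valuation ring `R` with algebraically closed residue
field, `VM` the extension of the Gauss valuation:

* `hostSheet_depthGE_iff` : `Sheet.DepthGE` on a host sheet with ring `W` ↔ `∃ c ≠ 0, ValDepth …`.
* `GeoHyps.localPtM` : the `LocalPt` of a closed point of the special fibre of the chart `t`
  (`R' = locSub (chartOne R E t) 𝔫`, one sheet `GeoHyps.chartSheetM`).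
* **`GeoHyps.valDepth_succ_p`** : `f` a `VM`-unit with `p ∣ ord_P f` at ALL places, `p ∤ i`,
  `i (p - 1) ≤ e₁ p`, `ValDepth π p VM i f c` ⇒ `∃ c' ≠ 0, ValDepth π p VM (i + 1) f c'`
  (helper7's `Sheet.depthGE_succ_of_cover` on the cover by the closed points of the two charts
  `t`, `t⁻¹`, with `GeoHyps.glob` and `GeoHyps.closed_datum_of_place`).
-/
import Fermat.Agent.NP.SMOOTHQ_helper5_One
import Fermat.Agent.NP.GLOB_helper5_Main
import Fermat.Agent.NP.OLDP_helper7_Sheet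

set_option autoImplicit false
set_option linter.unusedSectionVars false
set_option linter.style.haveILetI false

open AlgebraicCurve

namespace Fermat.Agent.NP

open Fermat.Agent.SS Fermat.Agent.JA Fermat.Agent.FF

section Conv

variable {R : Type*} [CommRing R] [IsDomain R] [IsDiscreteValuationRing R]
  {K₁ : Type*} [Field K₁] [Algebra R K₁] [IsFractionRing R K₁]
  {K : Type*} [Field K] [Algebra K₁ K] [Algebra R K] [IsScalarTower R K₁ K]
  {E : Type*} [Field E] [Algebra K E] [Algebra K₁ E] [IsScalarTower K₁ K E]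
  [Algebra R E] [IsScalarTower R K E]
  [IsAlgClosed (IsLocalRing.ResidueField R)] {π : R}
  (hπ : Irreducible π) {p : ℕ} (hp : p.Prime) {e₁ : ℕ} (he₁ : 0 < e₁) {ε : Rˣ}
  (hpe : (p : R) = ε * π ^ e₁)

/-- `Sheet.DepthGE` on a host sheet with ring `W` is `ValDepth` along `W`. -/
theorem hostSheet_depthGE_iff (S₀ : Sheet (hostDepthBase K₁ K E hπ hp he₁ hpe))
    (W : ValuationSubring E) (hW : S₀.W = W.toSubring) {f : E} {i : ℕ} :
    S₀.DepthGE f i ↔ ∃ c : K₁, c ≠ 0 ∧ ValDepth π p W i f c := by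
  rw [Sheet.depthGE_iff]
  constructor
  · rintro ⟨c, hc, γ, s, hc0, hγ0, hs, e⟩
    obtain ⟨c', rfl⟩ : ∃ c' : K₁, algebraMap K₁ E c' = c := hc
    refine ⟨c', fun h0 => hc0 (by rw [h0, map_zero]), γ, hγ0, s, ?_, e⟩
    rw [hW] at hs
    exact hs
  · rintro ⟨c, hc0, γ, hγ0, s, hs, e⟩
    refine ⟨algebraMap K₁ E c, ⟨c, rfl⟩, γ, s, ?_, hγ0, ?_, e⟩
    · rwa [Ne, map_eq_zero]
    · rw [hW]
      exact hs

end Conv

section Main

variable {R : Type*} [CommRing R] [IsDomain R] [IsDiscreteValuationRing R] [CharZero R]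
  {K₁ : Type*} [Field K₁] [Algebra R K₁] [IsFractionRing R K₁]
  {K : Type*} [Field K] [Algebra K₁ K] [Algebra R K] [IsScalarTower R K₁ K]
  {E : Type*} [Field E] [Algebra K E] [Algebra K₁ E] [IsScalarTower K₁ K E]
  [Algebra R E] [IsScalarTower R K E]
  {π : R} {t : K} {n : ℕ} {S : Finset R}
  [IsAlgClosed (IsLocalRing.ResidueField R)]
  {p : ℕ} (hp : p.Prime) {e₁ : ℕ} (he₁ : 0 < e₁) {ε : Rˣ} (hpe : (p : R) = ε * π ^ e₁)

/-- **the `LocalPt` of a closed point of the special fibre of a chart of good reduction.** -/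
noncomputable def GeoHyps.localPtM (h : GeoHyps K₁ π t E n S) (𝔫 : Ideal ↥(chartOne R E t))
    (h𝔫 : 𝔫.IsMaximal) (hπ𝔫 : algebraMap R ↥(chartOne R E t) π ∈ 𝔫) :
    LocalPt (hostDepthBase K₁ K E h.irreducible hp he₁ hpe) Unit :=
  haveI : FiniteDimensional K E := h.finite
  haveI : IsScalarTower R K₁ E := isScalarTower_base_const R K₁ K E
  haveI : IsNoetherianRing ↥(chartOne R E t) :=
    isNoetherianRing_chartOne (K₁ := K₁) t h.transcendental h.adjoin_eq_top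
  haveI : IsFractionRing ↥(chartOne R E t) E :=
    isFractionRing_chartOne (K₁ := K₁) t h.adjoin_eq_top
  haveI := GeoHyps.span_isPrime h
  haveI := h𝔫
  haveI := h𝔫.isPrime
  chartLocalPtSmooth (K₁ := K₁) (F := E) h.irreducible hp he₁ hpe
    (resAlgClosed_of_isAlgClosed h.irreducible)
    (Ideal.span {algebraMap R ↥(chartOne R E t) π}) 𝔫
    ((Ideal.span_singleton_le_iff_mem _).2 hπ𝔫) (Ideal.subset_span (Set.mem_singleton _))
    (fun a ha => ⟨1, fun h1 => h𝔫.ne_top ((Ideal.eq_top_iff_one _).2 h1), by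
      rw [one_mul]; exact Ideal.mem_span_singleton.1 ha⟩)
    (Classical.choose_spec ((GeoHyps.isSmoothChart h).branch 𝔫 h𝔫 hπ𝔫))
    (fun b => exists_sub_mem_of_isMaximal_chartOne (K₁ := K₁) h.irreducible h.transcendental
      h.adjoin_eq_top 𝔫 hπ𝔫 b)

theorem GeoHyps.localPtM_sheet (h : GeoHyps K₁ π t E n S) (𝔫 : Ideal ↥(chartOne R E t))
    (h𝔫 : 𝔫.IsMaximal) (hπ𝔫 : algebraMap R ↥(chartOne R E t) π ∈ 𝔫) (k : Unit) :
    (GeoHyps.localPtM hp he₁ hpe h 𝔫 h𝔫 hπ𝔫).sheet k = GeoHyps.chartSheetM hp he₁ hpe h := rfl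

theorem GeoHyps.localPtM_R' (h : GeoHyps K₁ π t E n S) (𝔫 : Ideal ↥(chartOne R E t))
    (h𝔫 : 𝔫.IsMaximal) (hπ𝔫 : algebraMap R ↥(chartOne R E t) π ∈ 𝔫) :
    haveI := h𝔫.isPrime
    (GeoHyps.localPtM hp he₁ hpe h 𝔫 h𝔫 hπ𝔫).R' = locSub (chartOne R E t) 𝔫 := rfl

/-- the unit datum at a closed point, from the closed datum. -/
theorem GeoHyps.hloc_of_place [FiniteDimensional K E] (h : GeoHyps K₁ π t E n S)
    (VM : ValuationSubring E) (hG : IsGaussAt R π t (VM.comap (algebraMap K E)))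
    {p : ℕ} (hp0 : p ≠ 0) {f : E} (hf0 : f ≠ 0)
    (hord : ∀ P : Place K₁ E, (p : ℤ) ∣ P.ord f) (hVM : VM.valuation f = 1)
    (𝔫 : Ideal ↥(chartOne R E t)) (h𝔫 : 𝔫.IsMaximal)
    (hπ𝔫 : algebraMap R ↥(chartOne R E t) π ∈ 𝔫) :
    haveI := h𝔫.isPrime
    ∃ g v : E, g ≠ 0 ∧ IsUnitIn (locSub (chartOne R E t) 𝔫) v ∧ f = g ^ p * v := by
  haveI := h𝔫.isPrime
  obtain ⟨γ, hγ, c, d, hc, hd, e⟩ :=
    GeoHyps.closed_datum_of_place h VM hG hp0 hf0 hord hVM 𝔫 h𝔫 hπ𝔫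
  have hd0 : (d : E) ≠ 0 := ne_zero_of_notMem hd
  have e' : f * (d : E) = γ ^ p * (c : E) := e
  refine ⟨γ, (c : E) / (d : E), hγ, isUnitIn_locSub_iff.2 ⟨c, d, hc, hd, ?_⟩, ?_⟩
  · field_simp
  · field_simp
    exact e'

include hp he₁ hpe in
/-- **(C1) at a level of good reduction**: one more step of depth below the Hensel range, for a
`VM`-unit whose divisor is in `p · Div` (no rationality hypothesis). -/
theorem GeoHyps.valDepth_succ_p [FiniteDimensional K E] (h : GeoHyps K₁ π t E n S)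
    (VM : ValuationSubring E) (hG : IsGaussAt R π t (VM.comap (algebraMap K E)))
    (f : E) (hf0 : f ≠ 0) (hord : ∀ P : Place K₁ E, (p : ℤ) ∣ P.ord f)
    (hVM : VM.valuation f = 1) {i : ℕ} (hpi : ¬ p ∣ i) (hie : i * (p - 1) ≤ e₁ * p)
    (c : K₁) (hc : c ≠ 0) (hd : ValDepth π p VM i f c) :
    ∃ c' : K₁, c' ≠ 0 ∧ ValDepth π p VM (i + 1) f c' := by
  have hπ := h.irreducible
  obtain ⟨S', h'⟩ := h.inv
  have hG' : IsGaussAt R π t⁻¹ (VM.comap (algebraMap K E)) := isGaussAt_inv π hπ.prime t _ hG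
  have hi : 1 ≤ i := by
    rcases Nat.eq_zero_or_pos i with h0 | h0
    · exact absurd (h0 ▸ dvd_zero p) hpi
    · exact h0
  let L : ({𝔫 : Ideal ↥(chartOne R E t) // 𝔫.IsMaximal ∧ algebraMap R ↥(chartOne R E t) π ∈ 𝔫} ⊕
      {𝔫 : Ideal ↥(chartOne R E t⁻¹) // 𝔫.IsMaximal ∧ algebraMap R ↥(chartOne R E t⁻¹) π ∈ 𝔫}) →
      LocalPt (hostDepthBase K₁ K E hπ hp he₁ hpe) Unit :=
    Sum.elim (fun x => GeoHyps.localPtM hp he₁ hpe h x.1 x.2.1 x.2.2)
      (fun x => GeoHyps.localPtM hp he₁ hpe h' x.1 x.2.1 x.2.2)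
  have hL : ∀ x k, (L x).sheet k = GeoHyps.sheetM hp he₁ hpe h VM hG := by
    rintro (x | x) k
    · exact (GeoHyps.localPtM_sheet hp he₁ hpe h x.1 x.2.1 x.2.2 k).trans
        (GeoHyps.sheetM_eq hp he₁ hpe h VM hG).symm
    · exact (GeoHyps.localPtM_sheet hp he₁ hpe h' x.1 x.2.1 x.2.2 k).trans
        (((GeoHyps.sheetM_eq hp he₁ hpe h' VM hG').symm).trans
          (Sheet.ext' ((GeoHyps.sheetM_W hp he₁ hpe h' VM hG').trans
            (GeoHyps.sheetM_W hp he₁ hpe h VM hG).symm)))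
  have hglob : ∀ s ∈ (GeoHyps.sheetM hp he₁ hpe h VM hG).W,
      (∀ x, ∃ r ∈ (L x).R', PiDvd (hostDepthBase K₁ K E hπ hp he₁ hpe).π
        (GeoHyps.sheetM hp he₁ hpe h VM hG).W 1 (s - r)) →
      ∃ a ∈ (hostDepthBase K₁ K E hπ hp he₁ hpe).R₁,
        PiDvd (hostDepthBase K₁ K E hπ hp he₁ hpe).π (GeoHyps.sheetM hp he₁ hpe h VM hG).W 1
          (s - a) := by
    intro s hs hx
    obtain ⟨a, ha⟩ := GeoHyps.glob h VM hG (s := s) hs
      (fun 𝔫 h𝔫 hπ𝔫 => hx (Sum.inl ⟨𝔫, h𝔫, hπ𝔫⟩))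
      (fun 𝔫 h𝔫 hπ𝔫 => hx (Sum.inr ⟨𝔫, h𝔫, hπ𝔫⟩))
    exact ⟨algebraMap R E a, ⟨a, rfl⟩, ha⟩
  have hloc : ∀ x, ∃ g v : E, g ≠ 0 ∧ IsUnitIn (L x).R' v ∧ f = g ^ p * v := by
    rintro (x | x)
    · exact GeoHyps.hloc_of_place h VM hG hp.ne_zero hf0 hord hVM x.1 x.2.1 x.2.2
    · exact GeoHyps.hloc_of_place h' VM hG' hp.ne_zero hf0 hord hVM x.1 x.2.1 x.2.2
  have key := Sheet.depthGE_succ_of_cover (GeoHyps.sheetM hp he₁ hpe h VM hG) hp L hL hglob hi hpi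
    hie hloc ((hostSheet_depthGE_iff hπ hp he₁ hpe _ VM rfl).2 ⟨c, hc, hd⟩)
  exact (hostSheet_depthGE_iff hπ hp he₁ hpe _ VM rfl).1 key

end Main

end Fermat.Agent.NP
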