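import Mathlib
import Fermat.Agent.NP.C1_helper5_Main
import Fermat.Agent.SS.TOPA_lead

/-!
# NP33 — helper7 — OLD-TOP, part 2: (C1) and (Δ6) at a level of good reduction for arbitrary
non-zero functions (normalisation by a power of the uniformizer)
-/

set_option autoImplicit false
set_option linter.unusedSectionVars false
set_option linter.style.haveILetI false

open AlgebraicCurve

namespace Fermat.Agent.NP

open Fermat.Agent.SS Fermat.Agent.JA Fermat.Agent.FF

section Gen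

variable {R : Type*} [CommRing R] [IsDomain R] [IsDiscreteValuationRing R] [CharZero R]
  {K₁ : Type*} [Field K₁] [Algebra R K₁] [IsFractionRing R K₁]
  {K : Type*} [Field K] [Algebra K₁ K] [Algebra R K] [IsScalarTower R K₁ K]
  {E : Type*} [Field E] [Algebra K E] [Algebra K₁ E] [IsScalarTower K₁ K E]
  [Algebra R E] [IsScalarTower R K E]
  {π : R} {t : K} {n : ℕ} {S : Finset R}
  [IsAlgClosed (IsLocalRing.ResidueField R)]
  {p : ℕ} (hp : p.Prime) {e₁ : ℕ} (he₁ : 0 < e₁) {ε : Rˣ} (hpe : (p : R) = ε * π ^ e₁)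

omit [IsAlgClosed (IsLocalRing.ResidueField R)] [CharZero R] [IsDiscreteValuationRing R]
  [IsDomain R] [IsFractionRing R K₁] in
/-- moving a constant through `ValDepth`. -/
theorem valDepth_const_mul_iff {W : ValuationSubring E} {N : ℕ} {f : E} {c d : K₁} (hd : d ≠ 0) :
    ValDepth π p W N (algebraMap K₁ E d * f) (d * c) ↔ ValDepth π p W N f c := by
  have hd' : algebraMap K₁ E d ≠ 0 := (map_ne_zero _).mpr hd
  constructor
  · rintro ⟨γ, hγ, s, hs, e⟩
    refine ⟨γ, hγ, s, hs, ?_⟩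
    rw [map_mul, mul_assoc, mul_assoc] at e
    have := mul_left_cancel₀ hd' e
    rw [this]; ring
  · rintro ⟨γ, hγ, s, hs, e⟩
    refine ⟨γ, hγ, s, hs, ?_⟩
    rw [e, map_mul]; ring

include hp he₁ hpe in
/-- a non-zero function on a level of good reduction is a power of `π` times a unit of `VM`. -/
theorem GeoHyps.exists_zpow_mul_unit (h : GeoHyps K₁ π t E n S) (VM : ValuationSubring E)
    (hG : IsGaussAt R π t (VM.comap (algebraMap K E))) {f : E} (hf : f ≠ 0) :
    ∃ (a : ℤ) (u : E), VM.valuation u = 1 ∧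
      f = algebraMap K₁ E (algebraMap R K₁ π ^ a) * u := by
  haveI : IsScalarTower R K₁ E := isScalarTower_base_const R K₁ K E
  obtain ⟨a, u, hu, hu', e⟩ := (GeoHyps.sheetM hp he₁ hpe h VM hG).unif f hf
  have hu1 : u ∈ VM := hu
  have hu2 : u⁻¹ ∈ VM := hu'
  have hu0 : u ≠ 0 := right_ne_zero_of_mul (e ▸ hf)
  refine ⟨a, u, ?_, ?_⟩
  · have h1 : VM.valuation u ≤ 1 := (VM.valuation_le_one_iff u).mpr hu1
    have h2 : VM.valuation u⁻¹ ≤ 1 := (VM.valuation_le_one_iff _).mpr hu2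
    rw [map_inv₀] at h2
    have h0 : VM.valuation u ≠ 0 := (VM.valuation.ne_zero_iff).mpr hu0
    have h3 : 1 ≤ VM.valuation u := by
      rw [← inv_le_one₀ (zero_lt_iff.mpr h0)]
      exact h2
    exact le_antisymm h1 h3
  · rw [map_zpow₀, ← IsScalarTower.algebraMap_apply R K₁ E]
    exact e

include hp he₁ hpe in
/-- **(C1) at a level of good reduction**, for an arbitrary non-zero function. -/
theorem GeoHyps.valDepth_succ_p_of_ne_zero [FiniteDimensional K E] (h : GeoHyps K₁ π t E n S)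
    (VM : ValuationSubring E) (hG : IsGaussAt R π t (VM.comap (algebraMap K E)))
    (f : E) (hf0 : f ≠ 0) (hord : ∀ P : Place K₁ E, (p : ℤ) ∣ P.ord f)
    {i : ℕ} (hpi : ¬ p ∣ i) (hie : i * (p - 1) ≤ e₁ * p)
    (hd : ∃ c : K₁, c ≠ 0 ∧ ValDepth π p VM i f c) :
    ∃ c' : K₁, c' ≠ 0 ∧ ValDepth π p VM (i + 1) f c' := by
  have hπ0 : algebraMap R K₁ π ≠ 0 := by
    rw [Ne, map_eq_zero_iff _ (IsFractionRing.injective R K₁)]
    exact h.irreducible.ne_zero
  obtain ⟨a, u, hu, e⟩ := GeoHyps.exists_zpow_mul_unit hp he₁ hpe h VM hG hf0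
  set d : K₁ := algebraMap R K₁ π ^ a with hd_def
  have hd0 : d ≠ 0 := zpow_ne_zero a hπ0
  have hu0 : u ≠ 0 := right_ne_zero_of_mul (e ▸ hf0)
  have hordu : ∀ P : Place K₁ E, (p : ℤ) ∣ P.ord u := by
    intro P
    have := hord P
    rwa [e, P.ord_mul ((map_ne_zero _).mpr hd0) hu0, place_ord_algebraMap_eq_zero P hd0,
      zero_add] at this
  obtain ⟨c, hc, hdc⟩ := hd
  have hdu : ValDepth π p VM i u (c / d) := by
    rw [← valDepth_const_mul_iff (W := VM) hd0, ← e, mul_div_cancel₀ _ hd0]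
    exact hdc
  obtain ⟨c', hc', hd'⟩ := GeoHyps.valDepth_succ_p hp he₁ hpe h VM hG u hu0 hordu hu hpi hie
    (c / d) (div_ne_zero hc hd0) hdu
  refine ⟨d * c', mul_ne_zero hd0 hc', ?_⟩
  rw [e]
  exact (valDepth_const_mul_iff (W := VM) hd0).mpr hd'

include hp he₁ hpe in
/-- **(Δ6) at a level of good reduction**, for an arbitrary non-zero function. -/
theorem GeoHyps.kummer_one_sheet_of_ne_zero [FiniteDimensional K E] (h : GeoHyps K₁ π t E n S)
    (VM : ValuationSubring E) (hG : IsGaussAt R π t (VM.comap (algebraMap K E)))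
    (ζ : R) (hζ : IsPrimitiveRoot ζ p)
    (f : E) (hf0 : f ≠ 0) (hord : ∀ P : Place K₁ E, (p : ℤ) ∣ P.ord f)
    {N : ℕ} (hN : e₁ * p < N * (p - 1))
    (hd : ∃ c : K₁, c ≠ 0 ∧ ValDepth π p VM N f c) :
    ∃ (c' : K₁) (u : E), c' ≠ 0 ∧ f = algebraMap K₁ E c' * u ^ p := by
  have hπ0 : algebraMap R K₁ π ≠ 0 := by
    rw [Ne, map_eq_zero_iff _ (IsFractionRing.injective R K₁)]
    exact h.irreducible.ne_zero
  obtain ⟨a, u, hu, e⟩ := GeoHyps.exists_zpow_mul_unit hp he₁ hpe h VM hG hf0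
  set d : K₁ := algebraMap R K₁ π ^ a with hd_def
  have hd0 : d ≠ 0 := zpow_ne_zero a hπ0
  have hu0 : u ≠ 0 := right_ne_zero_of_mul (e ▸ hf0)
  have hordu : ∀ P : Place K₁ E, (p : ℤ) ∣ P.ord u := by
    intro P
    have := hord P
    rwa [e, P.ord_mul ((map_ne_zero _).mpr hd0) hu0, place_ord_algebraMap_eq_zero P hd0,
      zero_add] at this
  obtain ⟨c, hc, hdc⟩ := hd
  have hdu : ValDepth π p VM N u (c / d) := by
    rw [← valDepth_const_mul_iff (W := VM) hd0, ← e, mul_div_cancel₀ _ hd0]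
    exact hdc
  obtain ⟨c', w, hc', e'⟩ := GeoHyps.kummer_one_sheet_p' h VM hG hp he₁ hpe ζ hζ u hu0 hordu hu hN
    (c / d) (div_ne_zero hc hd0) hdu
  refine ⟨d * c', w, mul_ne_zero hd0 hc', ?_⟩
  rw [e, e', map_mul]
  ring

end Gen

end Fermat.Agent.NP
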