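import Mathlib
import Fermat.Agent.NP.NEWBASE_helper7_Sat
import Fermat.Agent.NP.OLDTOP_helper7_Norm
import Fermat.Agent.NP.HOSTP_helper7_LegNorm
import Fermat.Agent.NP.BASEP_helper2_Compat
import Fermat.Agent.NP.BASEP_helper5_Gen
import Fermat.Agent.SS.MODELS_helper7_AtBases

/-!
# NP33 — helper7 — NEW-BASE: `LegNewBaseP` from the `B`-side norm compatibility
-/

set_option autoImplicit false
set_option linter.unusedSectionVars false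
set_option linter.unusedVariables false
set_option linter.style.haveILetI false

open HahnSeries IntermediateField AlgebraicCurve ModularCurve IsLocalRing

namespace Fermat.Agent.NP

open Fermat.Agent.JA Fermat.Agent.FF Fermat.Agent.SS Fermat.Agent.S35 Fermat.Agent.Igusa

open scoped Fermat.Agent.JA.Host

/-- `Ω = AlgebraicClosure ℚ`. -/
local notation "Ω" => AlgebraicClosure ℚ

/-- **the `B`-side norm compatibility** between the Legendre hosts and the level fields. -/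
def LegNormBCompat : Prop :=
  ∀ (M : ℕ) [NeZero M] (p : ℕ) [NeZero p] [NeZero (M * p)] (hp : p.Prime) (hp2 : p ≠ 2), ¬ p ∣ M →
  ∀ (K₁ : IntermediateField ℚ Ω) (z : ↥(keyFq ↥K₁ (M * p))),
    legHostNormB ↥K₁ M p hp hp2 (fullToLegE ↥K₁ (M * p) z) =
      fullToLegE ↥K₁ M
        (letI := (keyFqB ↥K₁ M p).toRingHom.toAlgebra; Algebra.norm ↥(keyFq ↥K₁ M) z)

/-- the final bookkeeping of constants. -/
theorem newBase_final_algebra {E : Type*} [Field E] {f f₁ Dd sD C u σf σf₁ : E} {a p : ℕ}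
    (hD : Dd ≠ 0) (hf₁ : f₁ ≠ 0) (hff₁ : f = Dd * f₁) (e1 : σf = sD * σf₁)
    (eK : σf₁ / f₁ ^ a = C * u ^ p) : σf / f ^ a = sD / Dd ^ a * C * u ^ p := by
  have h1 : f₁ ^ a ≠ 0 := pow_ne_zero a hf₁
  have h2 : Dd ^ a ≠ 0 := pow_ne_zero a hD
  have e2 : σf₁ = C * u ^ p * f₁ ^ a := by
    rw [← eK]
    field_simp
  rw [e1, e2, hff₁, mul_pow]
  field_simp

set_option maxHeartbeats 3200000 in
/-- **NEW-BASE** from the `B`-side norm compatibility. -/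
theorem legNewBaseP_of_normB (HB : LegNormBCompat) : LegNewBaseP := by
  intro M _ p _ _ hp hp2 hpM A hA K₁ _ hK₁ hζex σ hσ a ha f₀ hf₀ hlead hord hNA hNB hsplit
  obtain ⟨ζ₀, hζ₀⟩ := hζex
  classical
  haveI : Fact p.Prime := ⟨hp⟩
  haveI : IsDiscreteValuationRing ↥(baseRing A K₁) := hK₁.isBase.isDiscreteValuationRing hA
  haveI : CharZero ↥(baseRing A K₁) := charZero_valuationSubring_of_algebraRat _
  obtain ⟨ϖ, hϖ⟩ := IsDiscreteValuationRing.exists_irreducible ↥(baseRing A K₁)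
  have h2 : IsUnit (2 : ↥(baseRing A K₁)) := isUnit_ofNat_baseRing hA K₁ Nat.prime_two hp2
  obtain ⟨x, y, hbez⟩ := exists_bezout_of_prime_of_not_dvd hp hpM
  letI := baseToComplex K₁
  haveI : IsAlgClosed (ResidueField ↥(baseRing A K₁)) := hK₁.isBase.isAlgClosed_residueField hA
  have hpϖ := natCast_mem_span_uniformizer_baseRing hA K₁ hϖ
  have hmodel : SSModelLeg ↥(baseRing A K₁) ↥K₁ ϖ h2 hbez hp hp2 :=
    ssModelLeg ↥(baseRing A K₁) ↥K₁ hϖ h2 hbez hp hp2 hpϖ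
      (geoHyps_legE_baseRing hA M hpM hK₁.isBase hp2 hϖ)
  haveI : FiniteDimensional ↥(↥K₁)⟮jqNModC ↥K₁ 2⟯ ↥(legE ↥K₁ (M * p)) :=
    finite_legE_adjoin_j ↥K₁ (M * p)
  have h' := SSModelLeg.ssModel ↥(baseRing A K₁) ↥K₁ hmodel
  have D := legSSNormData ↥(baseRing A K₁) ↥K₁ hϖ hmodel
  -- `p = ε ϖ ^ e₁`
  have hp0 : ((p : ℕ) : ↥(baseRing A K₁)) ≠ 0 := Nat.cast_ne_zero.mpr hp.ne_zero
  obtain ⟨e₁, ε, hpe⟩ := IsDiscreteValuationRing.eq_unit_mul_pow_irreducible hp0 hϖ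
  have he₁ : 0 < e₁ := by
    rcases Nat.eq_zero_or_pos e₁ with h0 | h0
    · exfalso
      rw [h0, pow_zero, mul_one] at hpe
      have hu : IsUnit ((p : ℕ) : ↥(baseRing A K₁)) := hpe ▸ Units.isUnit _
      obtain ⟨z, hz⟩ := Ideal.mem_span_singleton.mp hpϖ
      rw [hz] at hu
      exact hϖ.not_isUnit (isUnit_of_mul_isUnit_left hu)
    · exact h0
  -- notation
  set f : ↥(legE ↥K₁ (M * p)) := fullToLegE ↥K₁ (M * p) f₀ with hfdef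
  have hf : f ≠ 0 := (map_ne_zero (fullToLegE ↥K₁ (M * p))).mpr hf₀
  have hEN := coeffStable_legE ↥K₁ (M * p)
  have hEM := coeffStable_legE ↥K₁ M
  have hMle := legE_le_gaussField ↥(baseRing A K₁) ↥K₁ h2 M
  have hNle := legE_le_gaussField ↥(baseRing A K₁) ↥K₁ h2 (M * p)
  have hBq : ∀ g : ↥(legE ↥K₁ M), ((legHostB ↥K₁ M p hp hp2 g : ↥(legE ↥K₁ (M * p))) :
      LaurentSeries ↥K₁) = qExpand ↥K₁ p (g : LaurentSeries ↥K₁) :=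
    fun g => coe_legHostB ↥K₁ M p hp hp2 g
  have hjfix : ∀ τ : ↥K₁ ≃ₐ[ℚ] ↥K₁, coeffRingAut hEN τ
      (algebraMap ↥(↥K₁)⟮jqNModC ↥K₁ 2⟯ ↥(legE ↥K₁ (M * p))
        (AdjoinSimple.gen ↥K₁ (jqNModC ↥K₁ 2))) =
      algebraMap ↥(↥K₁)⟮jqNModC ↥K₁ 2⟯ ↥(legE ↥K₁ (M * p))
        (AdjoinSimple.gen ↥K₁ (jqNModC ↥K₁ 2)) :=
    fun τ => Subtype.ext (coeffMap_jqNModC (τ : ↥K₁ →+* ↥K₁) 2)
  have hRN : ∀ r : ↥(baseRing A K₁), algebraMap ↥(baseRing A K₁) ↥(legE ↥K₁ (M * p)) r =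
      algebraMap ↥K₁ ↥(legE ↥K₁ (M * p)) (algebraMap ↥(baseRing A K₁) ↥K₁ r) :=
    fun r => IsScalarTower.algebraMap_apply ↥(baseRing A K₁) ↥K₁ ↥(legE ↥K₁ (M * p)) r
  -- the inertia automorphisms
  let G : Set (↥(legE ↥K₁ (M * p)) →+* ↥(legE ↥K₁ (M * p))) :=
    {σ' | ∃ τ ∈ A.inertiaSubgroupIn ℚ, σ' =
      ((coeffRingAut hEN (resGal K₁ τ) : ↥(legE ↥K₁ (M * p)) ≃+* ↥(legE ↥K₁ (M * p))) :
        ↥(legE ↥K₁ (M * p)) →+* ↥(legE ↥K₁ (M * p)))}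
  have hG : ∀ σ' ∈ G,
      (∀ c : ↥K₁, ∃ c' : ↥K₁, σ' (algebraMap ↥K₁ ↥(legE ↥K₁ (M * p)) c) =
        algebraMap ↥K₁ ↥(legE ↥K₁ (M * p)) c') ∧
      (∃ c₀ : (↥(baseRing A K₁))ˣ, σ' (algebraMap ↥(baseRing A K₁) ↥(legE ↥K₁ (M * p)) ϖ) =
        algebraMap ↥(baseRing A K₁) ↥(legE ↥K₁ (M * p)) ((c₀ : ↥(baseRing A K₁)) * ϖ)) ∧
      (∀ y ∈ legWinf ↥(baseRing A K₁) ↥K₁ h2 (M * p),
        (legWinf ↥(baseRing A K₁) ↥K₁ h2 (M * p)).valuation (σ' y - y) < 1) ∧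
      (∀ y ∈ legW0 ↥(baseRing A K₁) ↥K₁ hbez hp,
        (legW0 ↥(baseRing A K₁) ↥K₁ hbez hp).valuation (σ' y - y) < 1) := by
    rintro σ' ⟨τ, hτ, rfl⟩
    have haut := ssModelAut_coeffRingAut hEM hEN hMle hNle hϖ h' hBq hjfix hRN hτ
    refine ⟨fun c => ⟨resGal K₁ τ c, coeffRingAut_algebraMap hEN (resGal K₁ τ) c⟩, ?_,
      fun y hy => haut.res_inf y hy, fun y hy => haut.res_zero y hy⟩
    obtain ⟨c₀, hc₀⟩ := associated_baseRingAut (K₁ := K₁) hτ hϖ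
    refine ⟨c₀⁻¹, ?_⟩
    rw [hRN, hRN]
    show coeffRingAut hEN (resGal K₁ τ) _ = _
    rw [coeffRingAut_algebraMap_baseRing hEN hτ ϖ]
    congr 2
    rw [eq_comm, Units.inv_mul_eq_iff_eq_mul, mul_comm]
    exact hc₀.symm
  obtain ⟨k, c, u, hc, hu, e⟩ := hsplit
  have hu' : u ∈ Subgroup.closure
      {u : (↥(legE ↥K₁ (M * p)))ˣ | ∃ (g : (↥(legE ↥K₁ (M * p)))ˣ)
        (σ' : ↥(legE ↥K₁ (M * p)) →+* ↥(legE ↥K₁ (M * p))), σ' ∈ G ∧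
        (u : ↥(legE ↥K₁ (M * p))) = σ' (g : ↥(legE ↥K₁ (M * p))) / (g : ↥(legE ↥K₁ (M * p)))} := by
    refine Subgroup.closure_mono ?_ hu
    rintro v ⟨g, τ, hτ, ev⟩
    exact ⟨g, _, ⟨τ, hτ, rfl⟩, ev⟩
  obtain ⟨a', hfa, hfb, h1i, h1z⟩ := SSModel.split_levelN h' he₁ hpe G hG hf hc hu' e
  -- the norms
  have hNAf0 : legHostNormA ↥K₁ M p f ≠ 0 :=
    (SSModel.twoLevel h' he₁ hpe D).NA_ne_zero hf
  have hNBf0 : legHostNormB ↥K₁ M p hp hp2 f ≠ 0 :=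
    (SSModel.twoLevel h' he₁ hpe D).NB_ne_zero hf
  have hNA' : ∃ (u : ↥K₁) (g : ↥(legE ↥K₁ M)), u ≠ 0 ∧ g ≠ 0 ∧
      legHostNormA ↥K₁ M p f = algebraMap ↥K₁ ↥(legE ↥K₁ M) u * g ^ p := by
    obtain ⟨hAf, ehA⟩ := hNA
    have hcompat : legHostNormA ↥K₁ M p f = fullToLegE ↥K₁ M (hAf ^ p) := by
      rw [← ehA]
      exact legHostNorm_fullToLegE ↥K₁ M p hp hpM D.degA f₀
    refine ⟨1, fullToLegE ↥K₁ M hAf, one_ne_zero, ?_, ?_⟩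
    · intro h0
      apply hNAf0
      rw [hcompat, map_pow, h0, zero_pow hp.ne_zero]
    · rw [hcompat, map_pow, map_one, one_mul]
  have hNB' : ∃ (u : ↥K₁) (g : ↥(legE ↥K₁ M)), u ≠ 0 ∧ g ≠ 0 ∧
      legHostNormB ↥K₁ M p hp hp2 f = algebraMap ↥K₁ ↥(legE ↥K₁ M) u * g ^ p := by
    obtain ⟨hBf, ehB⟩ := hNB
    have hcompat : legHostNormB ↥K₁ M p hp hp2 f = fullToLegE ↥K₁ M (hBf ^ p) := by
      rw [← ehB]
      exact HB M p hp hp2 hpM K₁ f₀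
    refine ⟨1, fullToLegE ↥K₁ M hBf, one_ne_zero, ?_, ?_⟩
    · intro h0
      apply hNBf0
      rw [hcompat, map_pow, h0, zero_pow hp.ne_zero]
    · rw [hcompat, map_pow, map_one, one_mul]
  -- Theorem A
  obtain ⟨_, _, _, _, _, _, hN⟩ := SSModel.thmA_p' h' he₁ hpe D hfa hfb
    (by rw [sub_self]; exact dvd_zero _) h1i h1z hNA' hNB'
  -- the unit `f₁ = f / ϖ ^ a'`
  have hϖK : algebraMap ↥(baseRing A K₁) ↥K₁ ϖ ≠ 0 := by
    rw [Ne, map_eq_zero_iff _ (IsFractionRing.injective ↥(baseRing A K₁) ↥K₁)]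
    exact hϖ.ne_zero
  set d : ↥K₁ := algebraMap ↥(baseRing A K₁) ↥K₁ ϖ ^ a' with hd
  have hd0 : d ≠ 0 := zpow_ne_zero a' hϖK
  have hdE : algebraMap ↥K₁ ↥(legE ↥K₁ (M * p)) d =
      algebraMap ↥(baseRing A K₁) ↥(legE ↥K₁ (M * p)) ϖ ^ a' := by
    rw [hd, map_zpow₀, ← hRN]
  have hD0 : algebraMap ↥K₁ ↥(legE ↥K₁ (M * p)) d ≠ 0 := (map_ne_zero _).mpr hd0
  set f₁ : ↥(legE ↥K₁ (M * p)) := f * (algebraMap ↥K₁ ↥(legE ↥K₁ (M * p)) d)⁻¹ with hf₁def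
  have hff₁ : f = algebraMap ↥K₁ ↥(legE ↥K₁ (M * p)) d * f₁ := by
    rw [hf₁def]
    field_simp
  have hf₁ : f₁ ≠ 0 := mul_ne_zero hf (inv_ne_zero hD0)
  have hf₁i : (legWinf ↥(baseRing A K₁) ↥K₁ h2 (M * p)).valuation f₁ = 1 := by
    rw [hf₁def, hdE]; exact hfa
  have hf₁z : (legW0 ↥(baseRing A K₁) ↥K₁ hbez hp).valuation f₁ = 1 := by
    rw [hf₁def, hdE]; exact hfb
  have hord₁ : ∀ P : Place ↥K₁ ↥(legE ↥K₁ (M * p)),
      P.ord f₁ = 0 ∨ (IsRationalPlace P ∧ (p : ℤ) ∣ P.ord f₁) := by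
    intro P
    have e1 : P.ord f = P.ord f₁ := by
      rw [hff₁, P.ord_mul hD0 hf₁, place_ord_algebraMap_eq_zero P hd0, zero_add]
    rw [← e1]
    exact hord P
  have hNlt : e₁ * p < (e₁ * p + 1) * (p - 1) := by
    have hp1 : 1 ≤ p - 1 := Nat.sub_pos_of_lt hp.one_lt
    calc e₁ * p < e₁ * p + 1 := Nat.lt_succ_self _
      _ = (e₁ * p + 1) * 1 := (mul_one _).symm
      _ ≤ (e₁ * p + 1) * (p - 1) := Nat.mul_le_mul_left _ hp1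
  obtain ⟨ci, hci, hdi⟩ := (hN (e₁ * p + 1)).2.2.1
  obtain ⟨cz, hcz, hdz⟩ := (hN (e₁ * p + 1)).2.2.2
  have hdi₁ : ValDepth ϖ p (legWinf ↥(baseRing A K₁) ↥K₁ h2 (M * p)) (e₁ * p + 1) f₁ (ci / d) := by
    rw [← valDepth_const_mul_iff hd0, ← hff₁, mul_div_cancel₀ _ hd0]
    exact hdi
  have hdz₁ : ValDepth ϖ p (legW0 ↥(baseRing A K₁) ↥K₁ hbez hp) (e₁ * p + 1) f₁ (cz / d) := by
    rw [← valDepth_const_mul_iff hd0, ← hff₁, mul_div_cancel₀ _ hd0]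
    exact hdz
  -- `ζ` in the base ring
  have hmem : ζ₀ ∈ baseRing A K₁ := by
    rw [mem_baseRing_iff]
    have h1 : (A.valuation (ζ₀ : Ω)) ^ p = 1 := by
      rw [← map_pow]
      have : ((ζ₀ : Ω)) ^ p = 1 := by
        have := congrArg (fun z : ↥K₁ => (z : Ω)) hζ₀.pow_eq_one
        exact this
      rw [this, map_one]
    exact le_of_eq (eq_one_of_pow_eq_one' hp.ne_zero h1)
  have hζ : IsPrimitiveRoot (⟨ζ₀, hmem⟩ : ↥(baseRing A K₁)) p :=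
    IsPrimitiveRoot.of_map_of_injective (f := (baseRing A K₁).subtype) hζ₀ Subtype.val_injective
  -- Theorem B
  obtain ⟨cK, uK, hcK, eK⟩ := kummer_base_p_of_ssModel hA hK₁.isBase hEM hEN hMle hNle hϖ h'
    rfl rfl hBq hjfix hRN (SSModelLeg.jint ↥(baseRing A K₁) ↥K₁ hϖ hmodel) he₁ hpe _ hζ hσ a ha
    f₁ hf₁ hord₁ hf₁i hf₁z hNlt (ci / d) (cz / d) (div_ne_zero hci hd0) (div_ne_zero hcz hd0)
    hdi₁ hdz₁
  -- conclusion
  have hsd0 : resGal K₁ σ d ≠ 0 := (map_ne_zero _).mpr hd0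
  refine ⟨resGal K₁ σ d / d ^ a * cK, uK, mul_ne_zero (div_ne_zero hsd0 (pow_ne_zero a hd0)) hcK,
    ?_⟩
  have e1 : legGalois ↥K₁ (M * p) (resGal K₁ σ) • f =
      algebraMap ↥K₁ ↥(legE ↥K₁ (M * p)) (resGal K₁ σ d) *
        (coeffGalois hEN (resGal K₁ σ) • f₁) := by
    show coeffRingAut hEN (resGal K₁ σ) f = _ * coeffRingAut hEN (resGal K₁ σ) f₁
    conv_lhs => rw [hff₁]
    rw [map_mul, coeffRingAut_algebraMap]
  rw [map_mul, map_div₀, map_pow]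
  exact newBase_final_algebra hD0 hf₁ hff₁ e1 eK

end Fermat.Agent.NP
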