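/-
NP33 / MP40 — helper2 — **the degree `[E_{Mq} : E_M] = q + 1` of the Legendre hosts over EVERY
subfield `K₁ ⊆ Ω`** (not only at the bases at `q`), hence the compatibility of `T_q` on the host and
on the level field over every `K₁` — in particular over the bases at `p ≠ q`.

Route: the square `F_M → F_{Mq} → E_{Mq}`, `F_M → E_M → E_{Mq}` gives
`[F_{Mq}:F_M]·[E_{Mq}:F_{Mq}] = [E_M:F_M]·[E_{Mq}:E_M]`; `[E_N:F_N] = legDeg N` does not depend on the
base (`finrank_legE_base`); at `K^♭(q)` the degree is `q + 1` (`finrank_legHostA_of_isBase`), so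
`legDeg (M q) = legDeg M`, and the degree is `q + 1` everywhere.
-/
import Mathlib
import Fermat.Agent.NP.BASEP_helper2_Deg
import Fermat.Agent.S54_Frobenius
import Fermat.Agent.JA.BCDEG_helper7
import Fermat.Agent.SS.TOPB_lead_Leg

set_option autoImplicit false
set_option linter.unusedSectionVars false
set_option linter.unusedVariables false
set_option linter.style.haveILetI false
set_option synthInstance.maxHeartbeats 400000

open HahnSeries IntermediateField AlgebraicCurve ModularCurve IsLocalRing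

namespace Fermat.Agent.NP

open Fermat.Agent.JA Fermat.Agent.FF Fermat.Agent.SS Fermat.Agent.S35 Fermat.Agent.S36

/-- `Ω = AlgebraicClosure ℚ`. -/
local notation "Ω" => AlgebraicClosure ℚ

section Abs

/-- degrees in a commutative square of field extensions. -/
theorem finrank_mul_eq_of_square {F F' E E' : Type*} [Field F] [Field F'] [Field E] [Field E']
    (a : F →+* F') (b : E →+* E') (φ : F →+* E) (φ' : F' →+* E')
    (hcomm : ∀ x, φ' (a x) = b (φ x)) :
    (letI := a.toAlgebra; Module.finrank F F') * (letI := φ'.toAlgebra; Module.finrank F' E') =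
      (letI := φ.toAlgebra; Module.finrank F E) * (letI := b.toAlgebra; Module.finrank E E') := by
  letI i1 := a.toAlgebra
  letI i2 := φ'.toAlgebra
  letI i3 := φ.toAlgebra
  letI i4 := b.toAlgebra
  letI i5 := (φ'.comp a).toAlgebra
  haveI : IsScalarTower F F' E' := IsScalarTower.of_algebraMap_eq fun x => rfl
  haveI : IsScalarTower F E E' := IsScalarTower.of_algebraMap_eq fun x => hcomm x
  rw [Module.finrank_mul_finrank F F' E', Module.finrank_mul_finrank F E E']

end Abs

section Deg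

variable (M q : ℕ) [NeZero M] [NeZero q] [NeZero (M * q)]

theorem legDeg_eq_finrank_base (N : ℕ) [NeZero N] (K₁ : IntermediateField ℚ Ω) :
    legDeg N = (letI := (fullToLegE ↥K₁ N).toRingHom.toAlgebra;
      Module.finrank ↥(keyFq ↥K₁ N) ↥(legE ↥K₁ N)) := by
  unfold legDeg
  exact finrank_legE_base N K₁

theorem finrank_keyFqA_base (hq : q.Prime) (hqM : ¬ q ∣ M) (K₁ : IntermediateField ℚ Ω) :
    (letI := (keyFqA ↥K₁ M q).toRingHom.toAlgebra;
      Module.finrank ↥(keyFq ↥K₁ M) ↥(keyFq ↥K₁ (M * q))) = q + 1 := by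
  letI := baseToComplex K₁
  exact finrank_keyFqA_of_not_dvd ↥K₁ M q hq hqM

theorem xport_fullToLegE_keyFqA_base (K₁ : IntermediateField ℚ Ω) (x : ↥(keyFq ↥K₁ M)) :
    fullToLegE ↥K₁ (M * q) (keyFqA ↥K₁ M q x) = legHostA ↥K₁ M q (fullToLegE ↥K₁ M x) := by
  letI := baseToComplex K₁
  exact xport_fullToLegE_keyFqA ↥K₁ (q := q) x

/-- the degree relation over a subfield of `Ω`. -/
theorem succ_mul_legDeg_eq (hq : q.Prime) (hqM : ¬ q ∣ M) (K₁ : IntermediateField ℚ Ω) :
    (q + 1) * legDeg (M * q) = legDeg M *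
      (letI := (legHostA ↥K₁ M q).toRingHom.toAlgebra;
        Module.finrank ↥(legE ↥K₁ M) ↥(legE ↥K₁ (M * q))) := by
  have h1 := finrank_mul_eq_of_square (keyFqA ↥K₁ M q).toRingHom (legHostA ↥K₁ M q).toRingHom
    (fullToLegE ↥K₁ M).toRingHom (fullToLegE ↥K₁ (M * q)).toRingHom
    (fun x => xport_fullToLegE_keyFqA_base M q K₁ x)
  rw [legDeg_eq_finrank_base M K₁, legDeg_eq_finrank_base (M * q) K₁,
    ← finrank_keyFqA_base M q hq hqM K₁]
  exact h1

/-- **the degree of the Legendre host over the level field does not change when the level is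
multiplied by a prime `q ∤ M`.** -/
theorem legDeg_mul_prime (hq : q.Prime) (hq2 : q ≠ 2) (hqM : ¬ q ∣ M) :
    legDeg (M * q) = legDeg M := by
  haveI : Fact q.Prime := ⟨hq⟩
  obtain ⟨A, hA⟩ := Fermat.Agent.S54.exists_valuationSubring_liesOver (L := Ω) hq
  have h1 := succ_mul_legDeg_eq M q hq hqM (flatBase q)
  rw [finrank_legHostA_of_isBase M q hq hq2 hqM A hA (flatBase q) isBase_flatBase, mul_comm] at h1
  exact Nat.eq_of_mul_eq_mul_right (Nat.succ_pos q) h1

/-- **`[E_{Mq} : E_M] = q + 1` over every subfield of `Ω`.** -/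
theorem finrank_legHostA_base (hq : q.Prime) (hq2 : q ≠ 2) (hqM : ¬ q ∣ M)
    (K₁ : IntermediateField ℚ Ω) :
    letI := (legHostA ↥K₁ M q).toRingHom.toAlgebra
    Module.finrank ↥(legE ↥K₁ M) ↥(legE ↥K₁ (M * q)) = q + 1 := by
  have h1 := succ_mul_legDeg_eq M q hq hqM K₁
  rw [legDeg_mul_prime M q hq hq2 hqM, mul_comm] at h1
  exact (Nat.eq_of_mul_eq_mul_left (Nat.pos_of_ne_zero (legDeg_ne_zero M)) h1).symm

/-- **`T_q` on the host and on the level field are compatible, over every subfield of `Ω`.** -/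
theorem legHeckeP_fullToLegE_base (hq : q.Prime) (hq2 : q ≠ 2) (hqM : ¬ q ∣ M)
    (K₁ : IntermediateField ℚ Ω) (f : ↥(keyFq ↥K₁ M)) :
    legHeckeP ↥K₁ M q hq hq2 (fullToLegE ↥K₁ M f) = fullToLegE ↥K₁ M (heckeFunK ↥K₁ M q f) := by
  letI := baseToComplex K₁
  rw [heckeFunK_eq_norm]
  exact legHeckeP_fullToLegE ↥K₁ M q hq hq2 hqM (finrank_legHostA_base M q hq hq2 hqM K₁) f

theorem legHeckeP_iterate_fullToLegE_base (hq : q.Prime) (hq2 : q ≠ 2) (hqM : ¬ q ∣ M)
    (K₁ : IntermediateField ℚ Ω) (f : ↥(keyFq ↥K₁ M)) (j : ℕ) :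
    (legHeckeP ↥K₁ M q hq hq2)^[j] (fullToLegE ↥K₁ M f) =
      fullToLegE ↥K₁ M ((heckeFunK ↥K₁ M q)^[j] f) := by
  induction j with
  | zero => rfl
  | succ j ih =>
    rw [Function.iterate_succ_apply', Function.iterate_succ_apply', ih,
      legHeckeP_fullToLegE_base M q hq hq2 hqM]

/-- the norms of the hosts and of the level fields along `A` are compatible, over every subfield of
`Ω`. -/
theorem legHostNorm_fullToLegE_base (hq : q.Prime) (hq2 : q ≠ 2) (hqM : ¬ q ∣ M)
    (K₁ : IntermediateField ℚ Ω) (z : ↥(keyFq ↥K₁ (M * q))) :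
    (letI := (legHostA ↥K₁ M q).toRingHom.toAlgebra;
      Algebra.norm ↥(legE ↥K₁ M) (fullToLegE ↥K₁ (M * q) z)) =
      fullToLegE ↥K₁ M (letI := (keyFqA ↥K₁ M q).toRingHom.toAlgebra;
        Algebra.norm ↥(keyFq ↥K₁ M) z) := by
  letI := baseToComplex K₁
  exact legHostNorm_fullToLegE ↥K₁ M q hq hqM (finrank_legHostA_base M q hq hq2 hqM K₁) z

end Deg

end Fermat.Agent.NP
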