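/-
NP33 (S33) — helper5 — package **[BRIDGE]**, part 1: **localisations of a chart inside the function
field**, in the `Subring F` / `PiDvd` / `IsUnitIn` language of `IFACE_helper5_Defs`.

`B : Subalgebra R F` a chart, `𝔭` a prime of `B`: `locSub B 𝔭 = B_𝔭 ⊂ F`.
-/
import Fermat.Agent.NP.EXT_helper5_Basic

set_option autoImplicit false
set_option linter.unusedSectionVars false

namespace Fermat.Agent.NP

section Loc

variable {R : Type*} [CommRing R] {F : Type*} [Field F] [Algebra R F]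

/-- the localisation of the chart `B` at the prime `𝔭`, inside `F`. -/
def locSub (B : Subalgebra R F) (𝔭 : Ideal ↥B) [h𝔭 : 𝔭.IsPrime] : Subring F where
  carrier := {x | ∃ a s : ↥B, s ∉ 𝔭 ∧ x * (s : F) = (a : F)}
  mul_mem' := by
    rintro x y ⟨a, s, hs, hx⟩ ⟨a', s', hs', hy⟩
    refine ⟨a * a', s * s', fun h => (h𝔭.mem_or_mem h).elim hs hs', ?_⟩
    push_cast
    rw [← hx, ← hy]
    ring
  one_mem' := ⟨1, 1, fun h => h𝔭.ne_top ((Ideal.eq_top_iff_one _).2 h), by simp⟩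
  add_mem' := by
    rintro x y ⟨a, s, hs, hx⟩ ⟨a', s', hs', hy⟩
    refine ⟨a * s' + a' * s, s * s', fun h => (h𝔭.mem_or_mem h).elim hs hs', ?_⟩
    push_cast
    rw [← hx, ← hy]
    ring
  zero_mem' := ⟨0, 1, fun h => h𝔭.ne_top ((Ideal.eq_top_iff_one _).2 h), by simp⟩
  neg_mem' := by
    rintro x ⟨a, s, hs, hx⟩
    refine ⟨-a, s, hs, ?_⟩
    push_cast
    rw [← hx]
    ring

variable {B : Subalgebra R F} {𝔭 𝔮 : Ideal ↥B} [h𝔭 : 𝔭.IsPrime] [h𝔮 : 𝔮.IsPrime]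

theorem mem_locSub_iff {x : F} :
    x ∈ locSub B 𝔭 ↔ ∃ a s : ↥B, s ∉ 𝔭 ∧ x * (s : F) = (a : F) := Iff.rfl

theorem coe_mem_locSub (b : ↥B) : (b : F) ∈ locSub B 𝔭 :=
  ⟨b, 1, fun h => h𝔭.ne_top ((Ideal.eq_top_iff_one _).2 h), by simp⟩

theorem algebraMap_mem_locSub (r : R) : algebraMap R F r ∈ locSub B 𝔭 :=
  coe_mem_locSub (algebraMap R ↥B r)

theorem locSub_mono (h : 𝔭 ≤ 𝔮) : locSub B 𝔮 ≤ locSub B 𝔭 := by
  rintro x ⟨a, s, hs, hx⟩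
  exact ⟨a, s, fun hmem => hs (h hmem), hx⟩

theorem ne_zero_of_notMem {s : ↥B} (hs : s ∉ 𝔭) : (s : F) ≠ 0 := by
  intro h0
  apply hs
  have : s = 0 := Subtype.ext h0
  rw [this]
  exact 𝔭.zero_mem

theorem inv_coe_mem_locSub {s : ↥B} (hs : s ∉ 𝔭) : ((s : F))⁻¹ ∈ locSub B 𝔭 :=
  ⟨1, s, hs, by rw [inv_mul_cancel₀ (ne_zero_of_notMem hs)]; rfl⟩

theorem isUnitIn_coe_of_notMem {s : ↥B} (hs : s ∉ 𝔭) : IsUnitIn (locSub B 𝔭) (s : F) :=
  ⟨coe_mem_locSub s, inv_coe_mem_locSub hs, ne_zero_of_notMem hs⟩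

/-- units of the localisation. -/
theorem isUnitIn_locSub_iff {x : F} :
    IsUnitIn (locSub B 𝔭) x ↔ ∃ a s : ↥B, a ∉ 𝔭 ∧ s ∉ 𝔭 ∧ x * (s : F) = (a : F) := by
  constructor
  · rintro ⟨⟨a, s, hs, hx⟩, ⟨a', s', hs', hx'⟩, hx0⟩
    refine ⟨a, s, ?_, hs, hx⟩
    intro ha
    have h1 : a * a' = s * s' := by
      apply Subtype.ext
      push_cast
      rw [← hx, ← hx']
      field_simp
    have h2 : s * s' ∈ 𝔭 := h1 ▸ 𝔭.mul_mem_right _ ha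
    exact (h𝔭.mem_or_mem h2).elim hs hs'
  · rintro ⟨a, s, ha, hs, hx⟩
    have hs0 := ne_zero_of_notMem hs
    have ha0 := ne_zero_of_notMem ha
    have hx0 : x ≠ 0 := by
      rintro rfl
      rw [zero_mul] at hx
      exact ha0 hx.symm
    refine ⟨⟨a, s, hs, hx⟩, ⟨s, a, ha, ?_⟩, hx0⟩
    rw [← hx]
    field_simp

/-- non-units of the localisation. -/
theorem nonunit_locSub_iff {x : F} :
    (x ∈ locSub B 𝔭 ∧ (x = 0 ∨ x⁻¹ ∉ locSub B 𝔭)) ↔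
      ∃ a s : ↥B, a ∈ 𝔭 ∧ s ∉ 𝔭 ∧ x * (s : F) = (a : F) := by
  constructor
  · rintro ⟨⟨a, s, hs, hx⟩, h⟩
    refine ⟨a, s, ?_, hs, hx⟩
    by_contra ha
    have hu : IsUnitIn (locSub B 𝔭) x := isUnitIn_locSub_iff.2 ⟨a, s, ha, hs, hx⟩
    rcases h with h | h
    · exact hu.2.2 h
    · exact h hu.2.1
  · rintro ⟨a, s, ha, hs, hx⟩
    refine ⟨⟨a, s, hs, hx⟩, ?_⟩
    by_cases hx0 : x = 0
    · exact Or.inl hx0
    · right
      intro hinv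
      obtain ⟨a', s', ha', hs', hx'⟩ := isUnitIn_locSub_iff.1
        (⟨⟨a, s, hs, hx⟩, hinv, hx0⟩ : IsUnitIn (locSub B 𝔭) x)
      have h1 : a * s' = a' * s := by
        apply Subtype.ext
        push_cast
        rw [← hx, ← hx']
        ring
      have h2 : a' * s ∈ 𝔭 := h1 ▸ 𝔭.mul_mem_right _ ha
      exact (h𝔭.mem_or_mem h2).elim ha' hs

/-- divisibility by `π ^ n` in the localisation. -/
theorem piDvd_locSub_iff (π : R) (n : ℕ) {x : F} :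
    PiDvd (algebraMap R F π) (locSub B 𝔭) n x ↔
      ∃ a s : ↥B, s ∉ 𝔭 ∧ x * (s : F) = algebraMap R F π ^ n * (a : F) := by
  constructor
  · rintro ⟨t, ⟨a, s, hs, ht⟩, rfl⟩
    exact ⟨a, s, hs, by rw [mul_assoc, ht]⟩
  · rintro ⟨a, s, hs, hx⟩
    have hs0 := ne_zero_of_notMem hs
    refine ⟨(a : F) * ((s : F))⁻¹, (locSub B 𝔭).mul_mem (coe_mem_locSub a)
      (inv_coe_mem_locSub hs), ?_⟩
    rw [← mul_assoc, ← hx]
    field_simp

end Loc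

end Fermat.Agent.NP
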