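import Mathlib
import Fermat.Agent.NP.OLDTOP_helper7_Core
import Fermat.Agent.NP.OLDTOP_helper7_Norm
import Fermat.Agent.NP.HOSTP_helper7_LegNorm
import Fermat.Agent.NP.BASEP_helper2_Iface
import Fermat.Agent.SS.MODELS_helper7_AtBases
import Fermat.Agent.S36.CYCLO_helper1
import Fermat.Agent.SS.AUT_helper1_Gauss

/-!
# NP33 — helper7 — OLD-TOP: `LegOldTopBaseP`
-/

set_option autoImplicit false
set_option linter.unusedSectionVars false
set_option linter.unusedVariables false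
set_option linter.style.haveILetI false

open HahnSeries IntermediateField AlgebraicCurve ModularCurve IsLocalRing

namespace Fermat.Agent.NP

open Fermat.Agent.JA Fermat.Agent.FF Fermat.Agent.SS Fermat.Agent.S35 Fermat.Agent.Igusa

open scoped Fermat.Agent.JA.Host

/-- `Ω = AlgebraicClosure ℚ`. -/
local notation "Ω" => AlgebraicClosure ℚ

set_option maxHeartbeats 1600000 in
/-- **OLD-TOP.** -/
theorem legOldTopBaseP : LegOldTopBaseP := by
  intro M _ p _ _ hp hp2 hpM A hA K' hK' ζ hζ hϖ s a₁ hs hsζ ha₁ f hf hord hσf hT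
  classical
  haveI : Fact p.Prime := ⟨hp⟩
  haveI : IsDiscreteValuationRing ↥(baseRing A K') := hK'.isDiscreteValuationRing hA
  haveI : CharZero ↥(baseRing A K') := charZero_valuationSubring_of_algebraRat _
  have h2 : IsUnit (2 : ↥(baseRing A K')) := isUnit_ofNat_baseRing hA K' Nat.prime_two hp2
  obtain ⟨x, y, hbez⟩ := exists_bezout_of_prime_of_not_dvd hp hpM
  letI := baseToComplex K'
  haveI : IsAlgClosed (ResidueField ↥(baseRing A K')) := hK'.isAlgClosed_residueField hA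
  have hmodel : SSModelLeg ↥(baseRing A K') ↥K' (ζ - 1) h2 hbez hp hp2 :=
    ssModelLeg ↥(baseRing A K') ↥K' hϖ h2 hbez hp hp2
      (natCast_mem_span_uniformizer_baseRing hA K' hϖ)
      (geoHyps_legE_baseRing hA M hpM hK' hp2 hϖ)
  haveI : FiniteDimensional ↥(↥K')⟮jqNModC ↥K' 2⟯ ↥(legE ↥K' (M * p)) :=
    finite_legE_adjoin_j ↥K' (M * p)
  have h' := SSModelLeg.ssModel ↥(baseRing A K') ↥K' hmodel
  have D := legSSNormData ↥(baseRing A K') ↥K' hϖ hmodel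
  haveI : FiniteDimensional ↥(↥K')⟮legT ↥K'⟯ ↥(legE ↥K' M) := h'.geo.finite
  -- `p = ε (ζ - 1) ^ (p - 1)`
  obtain ⟨ε, hε⟩ := Fermat.Agent.S36.associated_sub_one_pow_natCast_of_prime hp hζ
  have hpe : ((p : ℕ) : ↥(baseRing A K')) = ε * (ζ - 1) ^ (p - 1) := by
    rw [← hε, mul_comm]
  have he₁ : 0 < p - 1 := Nat.sub_pos_of_lt hp.one_lt
  have hlam : ζ - 1 = (ζ - 1) ^ 1 * ((1 : (↥(baseRing A K'))ˣ) : ↥(baseRing A K')) := by
    rw [pow_one, Units.val_one, mul_one]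
  -- the automorphism
  have hsmem : ∀ r : ↥(baseRing A K'), s (r : ↥K') ∈ baseRing A K' := by
    intro r
    obtain ⟨r', e, _⟩ := hs r
    rw [e]
    exact r'.2
  let τR : ↥(baseRing A K') →+* ↥(baseRing A K') :=
    ((s : ↥K' →+* ↥K').comp (baseRing A K').subtype).codRestrict (baseRing A K') hsmem
  have hτ : ∀ r : ↥(baseRing A K'), (s : ↥K' →+* ↥K') (algebraMap ↥(baseRing A K') ↥K' r) =
      algebraMap ↥(baseRing A K') ↥K' (τR r) := fun r => rfl
  have hres : ∀ r : ↥(baseRing A K'), τR r - r ∈ maximalIdeal ↥(baseRing A K') := by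
    intro r
    obtain ⟨r', e, hm⟩ := hs r
    have : τR r = r' := Subtype.ext e
    rw [this]
    exact hm
  set σ : ↥(legE ↥K' M) →+* ↥(legE ↥K' M) :=
    ((coeffRingAut (coeffStable_legE ↥K' M) s : ↥(legE ↥K' M) ≃+* ↥(legE ↥K' M)) :
      ↥(legE ↥K' M) →+* ↥(legE ↥K' M)) with hσdef
  have hσK : ∀ c : ↥K', ∃ c' : ↥K', σ (algebraMap ↥K' ↥(legE ↥K' M) c) =
      algebraMap ↥K' ↥(legE ↥K' M) c' :=
    fun c => ⟨s c, coeffRingAut_algebraMap (coeffStable_legE ↥K' M) s c⟩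
  have hσW : ∀ y ∈ legWinf ↥(baseRing A K') ↥K' h2 M,
      (legWinf ↥(baseRing A K') ↥K' h2 M).valuation (σ y - y) < 1 := by
    intro y hy
    exact valuation_map_sub_lt_one (hM := legE_le_gaussField ↥(baseRing A K') ↥K' h2 M)
      (s : ↥K' →+* ↥K') τR hτ hres σ (fun _ => rfl) hy
  have hC1 : ∀ i : ℕ, 1 ≤ i → ¬ p ∣ i → i * (p - 1) ≤ (p - 1) * p →
      (∃ c : ↥K', c ≠ 0 ∧ ValDepth (ζ - 1) p (legWinf ↥(baseRing A K') ↥K' h2 M) i f c) →
      ∃ c : ↥K', c ≠ 0 ∧ ValDepth (ζ - 1) p (legWinf ↥(baseRing A K') ↥K' h2 M) (i + 1) f c :=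
    fun i _ hpi hie hd => GeoHyps.valDepth_succ_p_of_ne_zero hp he₁ hpe h'.geo _ h'.gauss_M f hf
      hord hpi hie hd
  have hN : (p - 1) * p < (p + 1) * (p - 1) := by
    rw [mul_comm (p + 1)]
    exact Nat.mul_lt_mul_of_pos_left (Nat.lt_succ_self p) he₁
  have hD6 : (∃ c : ↥K', c ≠ 0 ∧
      ValDepth (ζ - 1) p (legWinf ↥(baseRing A K') ↥K' h2 M) (p + 1) f c) →
      ∃ (c : ↥K') (u : ↥(legE ↥K' M)), c ≠ 0 ∧ f = algebraMap ↥K' ↥(legE ↥K' M) c * u ^ p :=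
    fun hd => GeoHyps.kummer_one_sheet_of_ne_zero hp he₁ hpe h'.geo _ h'.gauss_M ζ hζ f hf hord hN hd
  exact SSModel.oldTop_core h' hpe D hζ hlam σ hσK hσW ha₁ hf hC1 hD6 hσf hT

end Fermat.Agent.NP
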