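/-
NP33 (S33) — helper2 — **[BASEP], part 1: abstract `Pic⁰` lemmas** (over any function field `F / K`
with a group `G` acting by semilinear automorphisms).

* `pic0_smul_mk_eq_nsmul_of_kummer` : `div f = m·D` and `g f / f ^ a = c · w ^ m` give
  `g [D] = a [D]`;
* `cobProd ι l` : the product of the coboundaries `(τ h) / h`, `(τ, h) ∈ l`;
* `exists_cob_rep_of_mem_closure` : a class in the subgroup generated by the `τ y - y`
  (`y` of `p`-power order, `τ ∈ I`) is represented by `D` with `p ^ n · D = div (cobProd l)`;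
* `exists_split_rep` : if moreover `p x = 0`, then `x = [D]`, `p · D = div f` with
  `f ^ (p ^ n) = c · cobProd l`.
-/
import Mathlib
import Fermat.Agent.S35.TOPF_helper8_Abs

set_option autoImplicit false
set_option linter.unusedSectionVars false
set_option linter.unusedVariables false
set_option linter.style.haveILetI false

open AlgebraicCurve

namespace Fermat.Agent.NP

open Fermat.Agent.SS Fermat.Agent.S35

section Abstract

variable {K F : Type*} [Field K] [Field F] [Algebra K F]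

/-- the order of a natural power. -/
theorem place_ord_pow (v : Place K F) (f : F) (n : ℕ) : v.ord (f ^ n) = (n : ℤ) * v.ord f := by
  have := v.ord_zpow f n
  rw [zpow_natCast] at this
  exact this

/-- **the Kummer eigen-relation**: `div f = m·D` and `g f / f ^ a = c · w ^ m` give
`g [D] = a [D]`. -/
theorem pic0_smul_mk_eq_nsmul_of_kummer (g : SemilinearAut K F) {m a : ℕ} (hm : m ≠ 0)
    (D : Divisor.degZero (K := K) (F := F)) (f : F) (hf : f ≠ 0)
    (hfD : ∀ v : Place K F, v.ord f = (m : ℤ) * (D : Divisor K F) v)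
    (c : K) (w : F) (hc : c ≠ 0) (hw : w ≠ 0) (h : g • f / f ^ a = algebraMap K F c * w ^ m) :
    g • (Pic0.mk D : Pic0 K F) = a • Pic0.mk D := by
  have hdiv : IsDivOf f (m • (D : Divisor K F)) := ⟨hf, fun v => by
    rw [Finsupp.smul_apply, nsmul_eq_mul, hfD v]⟩
  have hdiv2 := (hdiv.smul g).div (hdiv.pow a)
  set E : Divisor.degZero (K := K) (F := F) := SemilinearAut.degZeroSMulHom g D - a • D with hE
  have hprin : E ∈ (Divisor.principal (K := K) (F := F)).addSubgroupOf
      (Divisor.degZero (K := K) (F := F)) := by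
    rw [AddSubgroup.mem_addSubgroupOf]
    refine ⟨w, hw, fun v => ?_⟩
    have h1 := hdiv2.2 v
    rw [h, v.ord_mul ((map_ne_zero _).2 hc) (pow_ne_zero m hw), place_ord_algebraMap_eq_zero v hc,
      zero_add, place_ord_pow] at h1
    have h2 : ((E : Divisor.degZero (K := K) (F := F)) : Divisor K F) v =
        (g • (D : Divisor K F)) v - (a : ℤ) * (D : Divisor K F) v := by
      show ((g • (D : Divisor K F) - a • (D : Divisor K F)) : Divisor K F) v = _
      rw [Finsupp.sub_apply, Finsupp.smul_apply, nsmul_eq_mul]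
    rw [h2]
    have h3 : (g • (m • (D : Divisor K F)) - a • (m • (D : Divisor K F))) v =
        (m : ℤ) * ((g • (D : Divisor K F)) v - (a : ℤ) * (D : Divisor K F) v) := by
      rw [Finsupp.sub_apply, Finsupp.smul_apply, Finsupp.smul_apply,
        SemilinearAut.divisor_smul_apply, SemilinearAut.divisor_smul_apply, Finsupp.smul_apply,
        nsmul_eq_mul, nsmul_eq_mul, nsmul_eq_mul]
      ring
    rw [h3] at h1
    have hm' : (m : ℤ) ≠ 0 := by exact_mod_cast hm
    exact mul_left_cancel₀ hm' h1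
  have h4 : g • (Pic0.mk D : Pic0 K F) - a • Pic0.mk D = Pic0.mk E := rfl
  have h5 : (Pic0.mk E : Pic0 K F) = 0 := (QuotientAddGroup.eq_zero_iff _).2 hprin
  rw [← sub_eq_zero, h4, h5]

end Abstract

section Cob

variable {K F : Type*} [Field K] [Field F] [Algebra K F] {G : Type*} [Group G]

/-- the product of the coboundaries `(τ h) / h`, `(τ, h) ∈ l`. -/
noncomputable def cobProd (ι : G →* SemilinearAut K F) (l : List (G × F)) : F :=
  (l.map fun x => ι x.1 • x.2 / x.2).prod

/-- a list of pairs `(τ, h)` with `τ ∈ I` and `h ≠ 0`. -/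
def IsCobList (I : Set G) (l : List (G × F)) : Prop := ∀ x ∈ l, x.1 ∈ I ∧ x.2 ≠ 0

variable (ι : G →* SemilinearAut K F) {I : Set G}

@[simp] theorem cobProd_nil : cobProd ι ([] : List (G × F)) = 1 := rfl

theorem cobProd_cons (x : G × F) (l : List (G × F)) :
    cobProd ι (x :: l) = (ι x.1 • x.2 / x.2) * cobProd ι l := by
  unfold cobProd
  rw [List.map_cons, List.prod_cons]

theorem cobProd_append (l₁ l₂ : List (G × F)) :
    cobProd ι (l₁ ++ l₂) = cobProd ι l₁ * cobProd ι l₂ := by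
  unfold cobProd
  rw [List.map_append, List.prod_append]

theorem isCobList_nil : IsCobList I ([] : List (G × F)) := fun x hx => by simp at hx

theorem IsCobList.append {l₁ l₂ : List (G × F)} (h₁ : IsCobList I l₁) (h₂ : IsCobList I l₂) :
    IsCobList I (l₁ ++ l₂) := by
  intro x hx
  rcases List.mem_append.1 hx with h | h
  · exact h₁ x h
  · exact h₂ x h

theorem IsCobList.map {l : List (G × F)} (h : IsCobList I l) (φ : F → F)
    (hφ : ∀ y : F, y ≠ 0 → φ y ≠ 0) : IsCobList I (l.map fun x => (x.1, φ x.2)) := by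
  intro x hx
  obtain ⟨y, hy, rfl⟩ := List.mem_map.1 hx
  exact ⟨(h y hy).1, hφ _ (h y hy).2⟩

/-- the coboundary product of the inverted list. -/
theorem cobProd_map_inv (l : List (G × F)) :
    cobProd ι (l.map fun x => (x.1, x.2⁻¹)) = (cobProd ι l)⁻¹ := by
  induction l with
  | nil => simp
  | cons x l ih =>
    rw [List.map_cons, cobProd_cons, cobProd_cons, ih, mul_inv]
    congr 1
    show ι x.1 • x.2⁻¹ / x.2⁻¹ = (ι x.1 • x.2 / x.2)⁻¹
    rw [smul_inv'' (ι x.1) x.2, inv_div_inv, inv_div]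

/-- the coboundary product of the list of powers. -/
theorem cobProd_map_pow (l : List (G × F)) (n : ℕ) :
    cobProd ι (l.map fun x => (x.1, x.2 ^ n)) = (cobProd ι l) ^ n := by
  induction l with
  | nil => simp
  | cons x l ih =>
    rw [List.map_cons, cobProd_cons, cobProd_cons, ih, mul_pow]
    congr 1
    show ι x.1 • x.2 ^ n / x.2 ^ n = (ι x.1 • x.2 / x.2) ^ n
    rw [smul_pow', div_pow]

theorem cobProd_ne_zero {l : List (G × F)} (h : IsCobList I l) : cobProd ι l ≠ 0 := by
  induction l with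
  | nil => simp
  | cons x l ih =>
    rw [cobProd_cons]
    have hx := h x (List.mem_cons_self)
    refine mul_ne_zero (div_ne_zero ?_ hx.2) (ih fun y hy => h y (List.mem_cons_of_mem _ hy))
    simpa using hx.2

end Cob

section DivOf

variable {K F : Type*} [Field K] [Field F] [Algebra K F]

theorem isDivOf_one : IsDivOf (1 : F) (0 : Divisor K F) := by
  refine ⟨one_ne_zero, fun w => ?_⟩
  have h := w.ord_mul (one_ne_zero : (1 : F) ≠ 0) (one_ne_zero : (1 : F) ≠ 0)
  rw [mul_one] at h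
  rw [Finsupp.zero_apply]
  linarith

theorem _root_.Fermat.Agent.S35.IsDivOf.mul' {f f' : F} {D D' : Divisor K F} (h : IsDivOf f D) (h' : IsDivOf f' D') :
    IsDivOf (f * f') (D + D') := by
  refine ⟨mul_ne_zero h.1 h'.1, fun w => ?_⟩
  rw [Finsupp.add_apply, h.2, h'.2, w.ord_mul h.1 h'.1]

theorem _root_.Fermat.Agent.S35.IsDivOf.inv' {f : F} {D : Divisor K F} (h : IsDivOf f D) : IsDivOf f⁻¹ (-D) := by
  refine ⟨inv_ne_zero h.1, fun w => ?_⟩
  rw [Finsupp.neg_apply, h.2, w.ord_inv]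

theorem _root_.Fermat.Agent.S35.IsDivOf.congr {f : F} {D D' : Divisor K F} (h : IsDivOf f D) (e : D = D') :
    IsDivOf f D' := e ▸ h

/-- two functions with the same divisor differ by a constant. -/
theorem _root_.Fermat.Agent.S35.IsDivOf.exists_const
    (hconst : ∀ u : F, u ≠ 0 → (∀ v : Place K F, v.ord u = 0) → ∃ a : K, u = algebraMap K F a)
    {f f' : F} {D : Divisor K F} (h : IsDivOf f D) (h' : IsDivOf f' D) :
    ∃ a : K, a ≠ 0 ∧ f = algebraMap K F a * f' := by
  have hd := h.div h'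
  rw [sub_self] at hd
  obtain ⟨a, ha⟩ := hconst (f / f') hd.1 (fun v => by rw [← hd.2 v, Finsupp.zero_apply])
  refine ⟨a, ?_, ?_⟩
  · rintro rfl
    rw [map_zero] at ha
    exact hd.1 ha
  · rw [← ha, div_mul_cancel₀ _ h'.1]

/-- a class killed by `m` : `m · D` is the divisor of a function. -/
theorem exists_isDivOf_of_nsmul_eq_zero {m : ℕ} (D : Divisor.degZero (K := K) (F := F))
    (hx : m • (Pic0.mk D : Pic0 K F) = 0) : ∃ f : F, IsDivOf f (m • (D : Divisor K F)) := by
  have hmD : (m • D : Divisor.degZero (K := K) (F := F)) ∈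
      (Divisor.principal (K := K) (F := F)).addSubgroupOf (Divisor.degZero (K := K) (F := F)) := by
    have h1 : (Pic0.mk (m • D) : Pic0 K F) = m • Pic0.mk D := rfl
    rw [← h1] at hx
    exact (QuotientAddGroup.eq_zero_iff _).1 hx
  rw [AddSubgroup.mem_addSubgroupOf] at hmD
  obtain ⟨f, hf, hfD⟩ := hmD
  exact ⟨f, hf, fun v => hfD v⟩

theorem semilinear_smul_nsmul_divisor (g : SemilinearAut K F) (n : ℕ) (B : Divisor K F) :
    g • (n • B) = n • (g • B) := by
  ext v
  rw [SemilinearAut.divisor_smul_apply, Finsupp.smul_apply, Finsupp.smul_apply,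
    SemilinearAut.divisor_smul_apply]

end DivOf

section Closure

variable {K F : Type*} [Field K] [Field F] [Algebra K F] {G : Type*} [Group G]
  (ι : G →* SemilinearAut K F)

/-- the subgroup generated by the `τ y - y`, `y` of `p`-power order, `τ ∈ I`. -/
noncomputable def cobClosure (p : ℕ) (I : Set G) : AddSubgroup (Pic0 K F) :=
  AddSubgroup.closure {z : Pic0 K F | ∃ (y : Pic0 K F) (n : ℕ) (τ : G),
    p ^ n • y = 0 ∧ τ ∈ I ∧ z = ι τ • y - y}

theorem smul_sub_mem_cobClosure (p : ℕ) (I : Set G) (y : Pic0 K F) (n : ℕ) (hy : p ^ n • y = 0)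
    {τ : G} (hτ : τ ∈ I) : ι τ • y - y ∈ cobClosure ι p I :=
  AddSubgroup.subset_closure ⟨y, n, τ, hy, hτ, rfl⟩

/-- **closure bookkeeping**: a class in `cobClosure` is represented by a divisor `D` with
`p ^ n · D = div (cobProd l)`. -/
theorem exists_cob_rep_of_mem_closure (p : ℕ) (I : Set G) (z : Pic0 K F)
    (hz : z ∈ cobClosure ι p I) :
    ∃ (n : ℕ) (D : Divisor.degZero (K := K) (F := F)) (l : List (G × F)),
      IsCobList I l ∧ Pic0.mk D = z ∧ IsDivOf (cobProd ι l) ((p ^ n) • (D : Divisor K F)) := by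
  unfold cobClosure at hz
  induction hz using AddSubgroup.closure_induction with
  | mem z hz =>
    obtain ⟨y, n, τ, hy, hτ, rfl⟩ := hz
    obtain ⟨D, rfl⟩ := Pic0.mk_surjective y
    obtain ⟨h, hh⟩ := exists_isDivOf_of_nsmul_eq_zero D hy
    refine ⟨n, SemilinearAut.degZeroSMulHom (ι τ) D - D, [(τ, h)], ?_, rfl, ?_⟩
    · intro x hx
      rw [List.mem_singleton] at hx
      subst hx
      exact ⟨hτ, hh.1⟩
    · rw [cobProd_cons, cobProd_nil, mul_one]
      refine ((hh.smul (ι τ)).div hh).congr ?_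
      show ι τ • (p ^ n • (D : Divisor K F)) - p ^ n • (D : Divisor K F) =
        p ^ n • (ι τ • (D : Divisor K F) - (D : Divisor K F))
      rw [semilinear_smul_nsmul_divisor, smul_sub]
  | zero =>
    refine ⟨0, 0, [], isCobList_nil, rfl, ?_⟩
    rw [cobProd_nil]
    refine isDivOf_one.congr ?_
    show (0 : Divisor K F) = p ^ 0 • (0 : Divisor K F)
    rw [smul_zero]
  | add z₁ z₂ _ _ ih₁ ih₂ =>
    obtain ⟨n₁, D₁, l₁, hl₁, rfl, hd₁⟩ := ih₁
    obtain ⟨n₂, D₂, l₂, hl₂, rfl, hd₂⟩ := ih₂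
    refine ⟨n₁ + n₂, D₁ + D₂, (l₁.map fun x => (x.1, x.2 ^ p ^ n₂)) ++
      (l₂.map fun x => (x.1, x.2 ^ p ^ n₁)),
      (hl₁.map _ fun y hy => pow_ne_zero _ hy).append (hl₂.map _ fun y hy => pow_ne_zero _ hy),
      rfl, ?_⟩
    rw [cobProd_append, cobProd_map_pow, cobProd_map_pow]
    refine ((hd₁.pow (p ^ n₂)).mul' (hd₂.pow (p ^ n₁))).congr ?_
    show p ^ n₂ • (p ^ n₁ • (D₁ : Divisor K F)) + p ^ n₁ • (p ^ n₂ • (D₂ : Divisor K F)) =
      p ^ (n₁ + n₂) • ((D₁ : Divisor K F) + (D₂ : Divisor K F))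
    rw [smul_add, ← mul_smul, ← mul_smul, pow_add, mul_comm (p ^ n₂) (p ^ n₁)]
  | neg z _ ih =>
    obtain ⟨n, D, l, hl, rfl, hd⟩ := ih
    refine ⟨n, -D, l.map fun x => (x.1, x.2⁻¹), hl.map _ fun y hy => inv_ne_zero hy, rfl, ?_⟩
    rw [cobProd_map_inv]
    refine hd.inv'.congr ?_
    show -(p ^ n • (D : Divisor K F)) = p ^ n • (-(D : Divisor K F))
    rw [smul_neg]

/-- **the split representative**: a class `x` of `cobClosure` with `p x = 0` is `[D]` with
`p · D = div f` and `f ^ (p ^ k) = c · cobProd l`. -/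
theorem exists_split_rep
    (hconst : ∀ u : F, u ≠ 0 → (∀ v : Place K F, v.ord u = 0) → ∃ a : K, u = algebraMap K F a)
    (p : ℕ) (I : Set G) (x : Pic0 K F) (hx : x ∈ cobClosure ι p I) (hpx : p • x = 0) :
    ∃ (D : Divisor.degZero (K := K) (F := F)) (f : F) (k : ℕ) (c : K) (l : List (G × F)),
      Pic0.mk D = x ∧ f ≠ 0 ∧ (∀ v : Place K F, v.ord f = (p : ℤ) * (D : Divisor K F) v) ∧
      c ≠ 0 ∧ IsCobList I l ∧ f ^ p ^ k = algebraMap K F c * cobProd ι l := by
  obtain ⟨n, D, l, hl, rfl, hd⟩ := exists_cob_rep_of_mem_closure ι p I x hx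
  obtain ⟨f, hf⟩ := exists_isDivOf_of_nsmul_eq_zero D hpx
  have h1 : IsDivOf (f ^ p ^ n) (p ^ n • (p • (D : Divisor K F))) := hf.pow (p ^ n)
  have h2 : IsDivOf (cobProd ι (l.map fun x => (x.1, x.2 ^ p))) (p ^ n • (p • (D : Divisor K F))) := by
    rw [cobProd_map_pow]
    refine (hd.pow p).congr ?_
    rw [← mul_smul, ← mul_smul, mul_comm]
  obtain ⟨a, ha, hfa⟩ := h1.exists_const hconst h2
  refine ⟨D, f, n, a, l.map fun x => (x.1, x.2 ^ p), rfl, hf.1, fun v => ?_, ha,
    hl.map _ fun y hy => pow_ne_zero _ hy, hfa⟩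
  rw [← hf.2 v, Finsupp.smul_apply, nsmul_eq_mul]

end Closure

end Fermat.Agent.NP
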