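/-
NP33 (S33) — helper2 — **[BASEP], part 2: the `Ω`-level Kummer form of (KEY-NEW)** and
`keyNewAt_of_newKummer`.

`S := cobClosure` (the subgroup of `J₀(M p)` generated by the `τ y - y`, `y` of `p`-power order,
`τ ∈ I_A`).  A class `x ∈ S` with `p x = 0` is `[D]`, `p·D = div f`, `f ^ (p ^ k) = c · ∏ τ̄ h / h`
(`exists_split_rep`); newness gives the two norm conditions; the Kummer form `NewKummerAt` gives
`σ̄ (π^* f) / (π^* f) ^ a = c · w ^ p` on the Legendre host, so `σ (π^* x) = a (π^* x)`, and the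
kernel of `π^*` is killed by `2`.
-/
import Mathlib
import Fermat.Agent.NP.BASEP_helper2_Pic
import Fermat.Agent.NP.KEY_helper2_Iface
import Fermat.Agent.S35.TOPF_helper8_JZero
import Fermat.Agent.FG.EGAL_helper6_PullLeg

set_option autoImplicit false
set_option linter.unusedSectionVars false
set_option linter.unusedVariables false
set_option linter.style.haveILetI false
set_option synthInstance.maxHeartbeats 400000

open AlgebraicCurve ModularCurve

namespace Fermat.Agent.NP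

open Fermat.Agent.SS Fermat.Agent.JA Fermat.Agent.X0N Fermat.Agent.GR Fermat.Agent.S35
  Fermat.Agent.FG Fermat.Agent.FF

/-- `Ω = AlgebraicClosure ℚ`. -/
local notation "Ω" => AlgebraicClosure ℚ

/-- the absolute Galois group. -/
local notation "GQ" => (AlgebraicClosure ℚ ≃ₐ[ℚ] AlgebraicClosure ℚ)

section Split

/-- **`f` is inertia-split over `Ω`**: a `p`-power power of `f` is a constant times a product of
inertia coboundaries `τ̄ h / h`. -/
def IsSplitBar (N : ℕ) (A : ValuationSubring Ω) (p : ℕ) (f : ↥(modularFunctionFieldBar N)) : Prop :=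
  ∃ (k : ℕ) (c : Ω) (l : List (GQ × ↥(modularFunctionFieldBar N))), c ≠ 0 ∧
    IsCobList ((A.inertiaSubgroupIn ℚ : Subgroup GQ) : Set GQ) l ∧
    f ^ p ^ k = algebraMap Ω ↥(modularFunctionFieldBar N) c *
      cobProd (arithmeticGalois (modularFunctionFieldFull N)) l

/-- the subgroup `S` of (KEY-NEW) and (KEY-OLD). -/
noncomputable def inertiaCobClosure (N : ℕ) (A : ValuationSubring Ω) (p : ℕ) : AddSubgroup (JZero N) :=
  cobClosure (arithmeticGalois (modularFunctionFieldFull N)) p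
    ((A.inertiaSubgroupIn ℚ : Subgroup GQ) : Set GQ)

theorem smul_sub_mem_inertiaCobClosure (N : ℕ) (A : ValuationSubring Ω) (p : ℕ) (y : JZero N) (n : ℕ)
    (hy : p ^ n • y = 0) {τ : GQ} (hτ : τ ∈ A.inertiaSubgroupIn ℚ) :
    τ • y - y ∈ inertiaCobClosure N A p :=
  smul_sub_mem_cobClosure (arithmeticGalois (modularFunctionFieldFull N)) p _ y n hy hτ

/-- **the split representative** of a class of `S` killed by `p`. -/
theorem exists_split_rep_jzero (N : ℕ) [NeZero N] (A : ValuationSubring Ω) (p : ℕ) (x : JZero N)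
    (hx : x ∈ inertiaCobClosure N A p) (hpx : p • x = 0) :
    ∃ (D : Divisor.degZero (K := Ω) (F := ↥(modularFunctionFieldBar N)))
      (f : ↥(modularFunctionFieldBar N)), Pic0.mk D = x ∧ f ≠ 0 ∧
      (∀ v : Place Ω ↥(modularFunctionFieldBar N),
        v.ord f = (p : ℤ) * (D : Divisor Ω ↥(modularFunctionFieldBar N)) v) ∧
      IsSplitBar N A p f := by
  obtain ⟨D, f, k, c, l, hD, hf, hfD, hc, hl, hfl⟩ :=
    exists_split_rep (arithmeticGalois (modularFunctionFieldFull N))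
      (fun u _ hu => exists_const_of_forall_ord_eq_zero (jCoordBar N) u hu) p _ x hx hpx
  exact ⟨D, f, hD, hf, hfD, k, c, l, hc, hl, hfl⟩

end Split

section New

variable (M p : ℕ) [NeZero M] [NeZero p] [NeZero (M * p)]

/-- **the Kummer form of (KEY-NEW) over `Ω`, for one `σ`**. -/
def NewKummerAt (A : ValuationSubring Ω) (σ : GQ) (a : ℕ) : Prop :=
  ∀ f : ↥(modularFunctionFieldBar (M * p)), f ≠ 0 →
    (∀ v : Place Ω ↥(modularFunctionFieldBar (M * p)), (p : ℤ) ∣ v.ord f) →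
    (∃ (b : Ω) (h : ↥(modularFunctionFieldBar M)), b ≠ 0 ∧ h ≠ 0 ∧
      normAlong (heckeAlphaBar Ω M p) f = algebraMap Ω ↥(modularFunctionFieldBar M) b * h ^ p) →
    (∃ (b : Ω) (h : ↥(modularFunctionFieldBar M)), b ≠ 0 ∧ h ≠ 0 ∧
      normAlong (heckeBetaBar Ω M p) f = algebraMap Ω ↥(modularFunctionFieldBar M) b * h ^ p) →
    IsSplitBar (M * p) A p f →
    ∃ (c : Ω) (w : ↥(legE Ω (M * p))), c ≠ 0 ∧ w ≠ 0 ∧
      legGalois Ω (M * p) σ • fullToLegE Ω (M * p) f / fullToLegE Ω (M * p) f ^ a =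
        algebraMap Ω ↥(legE Ω (M * p)) c * w ^ p

end New

section Grp

theorem nsmul_smul_sub_nsmul_eq_zero {G J : Type*} [Group G] [AddCommGroup J] [DistribMulAction G J]
    (σ : G) (a : ℕ) {p : ℕ} {x : J} (hpx : p • x = 0) : p • (σ • x - a • x) = 0 := by
  rw [smul_sub, smul_comm p σ x, smul_comm p a x, hpx, smul_zero, smul_zero, sub_zero]

theorem eq_zero_of_two_nsmul_of_prime_nsmul {J : Type*} [AddCommGroup J] {p : ℕ} (hp : p.Prime)
    (hp2 : p ≠ 2) {z : J} (h3 : 2 • z = 0) (h4 : p • z = 0) : z = 0 := by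
  have hodd : Nat.Coprime 2 p := by
    rw [Nat.coprime_comm, Nat.Prime.coprime_iff_not_dvd hp]
    intro h2p
    exact hp2 ((Nat.prime_dvd_prime_iff_eq hp Nat.prime_two).1 h2p)
  have hgcd : Int.gcd (2 : ℕ) p = 1 := by exact_mod_cast hodd
  obtain ⟨u, v, huv⟩ : ∃ u v : ℤ, (1 : ℤ) = u * (2 : ℕ) + v * p := by
    refine ⟨Int.gcdA (2 : ℕ) p, Int.gcdB (2 : ℕ) p, ?_⟩
    have := Int.gcd_eq_gcd_ab ((2 : ℕ) : ℤ) (p : ℤ)
    rw [hgcd] at this
    push_cast at this ⊢
    linarith
  have h3' : ((2 : ℕ) : ℤ) • z = 0 := by rw [natCast_zsmul]; exact h3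
  have h4' : (p : ℤ) • z = 0 := by rw [natCast_zsmul]; exact h4
  calc z = (1 : ℤ) • z := (one_zsmul z).symm
    _ = (u * (2 : ℕ) + v * p) • z := by rw [← huv]
    _ = u • (((2 : ℕ) : ℤ) • z) + v • ((p : ℤ) • z) := by
        rw [add_smul, mul_smul, mul_smul]
    _ = 0 := by rw [h3', h4', smul_zero, smul_zero, add_zero]

end Grp

section Pull

variable (N : ℕ) [NeZero N]

/-- **the eigen-relation on `J₀(N)` from a Kummer relation on the Legendre host** (`p` odd). -/
theorem jzero_smul_eq_nsmul_of_leg_kummer {p : ℕ} (hp : p.Prime) (hp2 : p ≠ 2) (σ : GQ) (a : ℕ)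
    (D : Divisor.degZero (K := Ω) (F := ↥(modularFunctionFieldBar N)))
    (f : ↥(modularFunctionFieldBar N)) (hf : f ≠ 0)
    (hfD : ∀ v : Place Ω ↥(modularFunctionFieldBar N),
      v.ord f = (p : ℤ) * (D : Divisor Ω ↥(modularFunctionFieldBar N)) v)
    (c : Ω) (w : ↥(legE Ω N)) (hc : c ≠ 0) (hw : w ≠ 0)
    (h : legGalois Ω N σ • fullToLegE Ω N f / fullToLegE Ω N f ^ a =
      algebraMap Ω ↥(legE Ω N) c * w ^ p) :
    σ • (Pic0.mk D : JZero N) = a • (Pic0.mk D : JZero N) := by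
  haveI : HasPrincipalDivisors Ω ↥(legE Ω N) := legE_principal_gen N
  set x : JZero N := Pic0.mk D with hx
  have hpx : p • x = 0 := by
    have h1 : (p • x : JZero N) = Pic0.mk (p • D) := rfl
    rw [h1]
    refine (QuotientAddGroup.eq_zero_iff _).2 ?_
    rw [AddSubgroup.mem_addSubgroupOf]
    refine ⟨f, hf, fun v => ?_⟩
    show ((p • (D : Divisor Ω ↥(modularFunctionFieldBar N))) :
      Divisor Ω ↥(modularFunctionFieldBar N)) v = _
    rw [Finsupp.smul_apply, nsmul_eq_mul, hfD v]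
  -- the relation on the host
  set D' : Divisor.degZero (K := Ω) (F := ↥(legE Ω N)) :=
    pullDegZero (fullToLegE Ω N) (isIntegral_fullToLegE_bar N)
      (fundamentalIdentityAlong_fullToLegE N) D with hD'
  have hpull : legPull N x = Pic0.mk D' := rfl
  have hfD' : ∀ W : Place Ω ↥(legE Ω N),
      W.ord (fullToLegE Ω N f) = (p : ℤ) * (D' : Divisor Ω ↥(legE Ω N)) W := by
    intro W
    rw [hD', coe_pullDegZero, Divisor.pullbackAlong_apply,
      Place.ord_restrictAlong (fullToLegE Ω N) (isIntegral_fullToLegE_bar N), hfD]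
    ring
  have h1 : legGalois Ω N σ • (Pic0.mk D' : Pic0 Ω ↥(legE Ω N)) = a • Pic0.mk D' :=
    pic0_smul_mk_eq_nsmul_of_kummer (legGalois Ω N σ) hp.ne_zero D' (fullToLegE Ω N f)
      ((map_ne_zero _).2 hf) hfD' c w hc hw h
  -- the kernel of the pullback
  have h2 : legPull N (σ • x - a • x) = 0 := by
    rw [map_sub, map_nsmul, legPull_smul, hpull, h1, sub_self]
  have h3 : 2 • (σ • x - a • x) = 0 := two_nsmul_eq_zero_of_legPull_eq_zero N _ h2
  have h4 : p • (σ • x - a • x) = 0 := nsmul_smul_sub_nsmul_eq_zero σ a hpx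
  exact sub_eq_zero.1 (eq_zero_of_two_nsmul_of_prime_nsmul hp hp2 h3 h4)

end Pull

section KeyNew

variable (M p : ℕ) [NeZero M] [NeZero p] [NeZero (M * p)]

/-- **(KEY-NEW) from the Kummer form over `Ω`.** -/
theorem keyNewAt_of_newKummer (hp : p.Prime) (hp2 : p ≠ 2) (A : ValuationSubring Ω)
    (H : ∀ σ ∈ A.inertiaSubgroupIn ℚ, ∀ a : ℕ, CycAct p σ a → NewKummerAt M p A σ a) :
    KeyNewAt M p A := by
  refine ⟨inertiaCobClosure (M * p) A p, ?_, ?_⟩
  · intro y n hy τ hτ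
    exact smul_sub_mem_inertiaCobClosure (M * p) A p y n hy hτ
  · intro x hx hpx hα hβ σ hσ a ha
    obtain ⟨D, f, rfl, hf, hfD, hsplit⟩ := exists_split_rep_jzero (M * p) A p x hx hpx
    obtain ⟨c, w, hc, hw, h⟩ := H σ hσ a ha f hf (fun v => ⟨_, hfD v⟩)
      (exists_normAlong_eq_of_degPush_eq_zero M p (heckeAlphaBar Ω M p) D f hf hfD hα)
      (exists_normAlong_eq_of_degPush_eq_zero M p (heckeBetaBar Ω M p) D f hf hfD hβ) hsplit
    exact jzero_smul_eq_nsmul_of_leg_kummer (M * p) hp hp2 σ a D f hf hfD c w hc hw h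

end KeyNew

end Fermat.Agent.NP
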