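/-
NP33 (S33) — helper2 — **[BASEP], part 3: from the base statement `LegNewBaseP` to the Kummer form
`NewKummerAt` over `Ω`** (the analogue of S35 `frobKummerAt_leg`).

Chain: `f ∈ F_Ω(M p)` with all orders divisible by `p`, both degeneracy norms of the shape
(constant)·(`p`-th power) and `f ^ (p ^ k) = c · ∏ τ̄ h / h`; normalise `f` to be monic and absorb
the constants; choose a Galois base `K₁ ∋ ζ_p` over which `f`, the two `p`-th roots and the `h`'s
are defined and the support of the divisor of `f` on the host `E_Ω` is rational; the norm identities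
and the splitting descend to `K₁`; apply `LegNewBaseP`; go back to `Ω` with `legBC`.
-/
import Mathlib
import Fermat.Agent.NP.BASEP_helper2_New
import Fermat.Agent.NP.BASEP_helper2_Iface
import Fermat.Agent.S35.T3B_helper4_Leg

set_option autoImplicit false
set_option linter.unusedSectionVars false
set_option linter.unusedVariables false
set_option linter.style.haveILetI false
set_option synthInstance.maxHeartbeats 400000

open HahnSeries IntermediateField AlgebraicCurve ModularCurve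

namespace Fermat.Agent.NP

open Fermat.Agent.JA Fermat.Agent.FF Fermat.Agent.SS Fermat.Agent.X0N Fermat.Agent.S35

/-- `Ω = AlgebraicClosure ℚ`. -/
local notation "Ω" => AlgebraicClosure ℚ

/-- the absolute Galois group. -/
local notation "GQ" => (AlgebraicClosure ℚ ≃ₐ[ℚ] AlgebraicClosure ℚ)

section Lists

/-- lifting the second components of a list along a map. -/
theorem exists_list_map_eq {α β γ : Type*} (ψ : β → γ) (l : List (α × γ))
    (h : ∀ x ∈ l, ∃ y : β, ψ y = x.2) :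
    ∃ l₁ : List (α × β), l₁.map (fun x => (x.1, ψ x.2)) = l := by
  induction l with
  | nil => exact ⟨[], rfl⟩
  | cons x l ih =>
    obtain ⟨l₁, hl₁⟩ := ih fun y hy => h y (List.mem_cons_of_mem _ hy)
    obtain ⟨y, hy⟩ := h x List.mem_cons_self
    refine ⟨(x.1, y) :: l₁, ?_⟩
    rw [List.map_cons, hl₁, hy]

variable {K₁ F₁ K₂ F₂ : Type*} [Field K₁] [Field F₁] [Algebra K₁ F₁] [Field K₂] [Field F₂]
  [Algebra K₂ F₂] {G : Type*} [Group G]

/-- the coboundary products are compatible with an equivariant ring homomorphism. -/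
theorem map_cobProd (ι₁ : G →* SemilinearAut K₁ F₁) (ι₂ : G →* SemilinearAut K₂ F₂)
    (ψ : F₁ →+* F₂) (hψ : ∀ (τ : G) (x : F₁), ψ (ι₁ τ • x) = ι₂ τ • ψ x) (l : List (G × F₁)) :
    ψ (cobProd ι₁ l) = cobProd ι₂ (l.map fun x => (x.1, ψ x.2)) := by
  induction l with
  | nil => simp
  | cons x l ih =>
    rw [List.map_cons, cobProd_cons, cobProd_cons, map_mul, ih, map_div₀, hψ]

theorem IsCobList.map_hom {I : Set G} {l : List (G × F₁)} (h : IsCobList I l) (ψ : F₁ →+* F₂) :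
    IsCobList I (l.map fun x => (x.1, ψ x.2)) := by
  intro x hx
  obtain ⟨y, hy, rfl⟩ := List.mem_map.1 hx
  exact ⟨(h y hy).1, (map_ne_zero ψ).2 (h y hy).2⟩

theorem IsCobList.of_map_hom {I : Set G} {l : List (G × F₁)} (ψ : F₁ →+* F₂)
    (h : IsCobList I (l.map fun x => (x.1, ψ x.2))) : IsCobList I l := by
  intro x hx
  have := h (x.1, ψ x.2) (List.mem_map.2 ⟨x, hx, rfl⟩)
  exact ⟨this.1, (map_ne_zero ψ).1 this.2⟩

/-- a product of coboundaries lies in a subgroup of units containing the coboundaries. -/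
theorem exists_unit_mem_of_isCobList (ι₁ : G →* SemilinearAut K₁ F₁) {I : Set G}
    (S : Subgroup F₁ˣ)
    (hS : ∀ (g : F₁ˣ) (τ : G), τ ∈ I → ∀ u : F₁ˣ, (u : F₁) = ι₁ τ • (g : F₁) / g → u ∈ S)
    (l : List (G × F₁)) (hl : IsCobList I l) :
    ∃ u : F₁ˣ, u ∈ S ∧ (u : F₁) = cobProd ι₁ l := by
  induction l with
  | nil => exact ⟨1, one_mem _, rfl⟩
  | cons x l ih =>
    obtain ⟨u, hu, hu'⟩ := ih fun y hy => hl y (List.mem_cons_of_mem _ hy)
    have hx := hl x List.mem_cons_self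
    have hne : ι₁ x.1 • x.2 / x.2 ≠ 0 := by
      refine div_ne_zero ?_ hx.2
      simpa using hx.2
    refine ⟨Units.mk0 _ hne * u, mul_mem (hS (Units.mk0 x.2 hx.2) x.1 hx.1 _ rfl) hu, ?_⟩
    rw [cobProd_cons, Units.val_mul, hu']
    rfl

end Lists

section Cob

variable (A : ValuationSubring Ω) (K₁ : IntermediateField ℚ Ω) [Normal ℚ ↥K₁] (N : ℕ) [NeZero N]

/-- a product of inertia coboundaries of the host lies in `legInertiaCob`. -/
theorem cobProd_mem_legInertiaCob (l : List (GQ × ↥(legE ↥K₁ N)))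
    (hl : IsCobList ((A.inertiaSubgroupIn ℚ : Subgroup GQ) : Set GQ) l) :
    ∃ u : (↥(legE ↥K₁ N))ˣ, u ∈ legInertiaCob A K₁ N ∧
      (u : ↥(legE ↥K₁ N)) = cobProd ((legGalois ↥K₁ N).comp (resGal K₁)) l := by
  refine exists_unit_mem_of_isCobList ((legGalois ↥K₁ N).comp (resGal K₁)) (legInertiaCob A K₁ N)
    (fun g τ hτ u hu => Subgroup.subset_closure ⟨g, τ, hτ, hu⟩) l hl

/-- an element of `F(K₁)` whose base change is a constant is a constant. -/
theorem exists_const_of_keyFqBC_eq_algebraMap (K₂ : IntermediateField ℚ Ω) (X : ↥(keyFq ↥K₂ N))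
    (c₂ : Ω) (hX : keyFqBC N K₂ X = algebraMap Ω ↥(keyFq Ω N) c₂) :
    ∃ c₁ : ↥K₂, algebraMap ↥K₂ Ω c₁ = c₂ ∧ X = algebraMap ↥K₂ ↥(keyFq ↥K₂ N) c₁ := by
  have hinj : Function.Injective (algebraMap ↥K₂ Ω) := (algebraMap ↥K₂ Ω).injective
  have h1 := leadingCoeff_coeffMap_of_injective (f := algebraMap ↥K₂ Ω) hinj
    ((X : ↥(keyFq ↥K₂ N)) : LaurentSeries ↥K₂)
  have h2 : coeffMap (algebraMap ↥K₂ Ω) ((X : ↥(keyFq ↥K₂ N)) : LaurentSeries ↥K₂) =
      algebraMap Ω (LaurentSeries Ω) c₂ := by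
    rw [← coe_keyFqBC, hX]
    rfl
  rw [h2, algebraMap_laurentSeries_eq_single, HahnSeries.leadingCoeff_of_single] at h1
  refine ⟨_, h1.symm, ?_⟩
  apply (keyFqBC N K₂).injective
  rw [keyFqBC_algebraMap, ← h1, hX]

end Cob

section Main

variable (M p : ℕ) [NeZero M] [NeZero p] [NeZero (M * p)]

set_option maxHeartbeats 6400000 in
/-- **[BASEP], new case: from the base statement to the Kummer form over `Ω`.** -/
theorem newKummerAt_of_base (hB : LegNewBaseP) (hp : p.Prime) (hp2 : p ≠ 2) (hpM : ¬ p ∣ M)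
    (A : ValuationSubring Ω) (hA : A.LiesOverPrime p) (σ : GQ)
    (hσ : σ ∈ A.inertiaSubgroupIn ℚ) (a : ℕ) (ha : CycAct p σ a) : NewKummerAt M p A σ a := by
  classical
  rintro f hf hdiv ⟨aα, hα, haα, hhα, hNα⟩ ⟨aβ, hβ, haβ, hhβ, hNβ⟩ ⟨k, c, l, hc, hl, hfl⟩
  have hm0 : 0 < p := hp.pos
  -- monic normalisation over `Ω`
  have hfL : ((f : ↥(modularFunctionFieldBar (M * p))) : LaurentSeries Ω) ≠ 0 := fun h0 =>
    hf (Subtype.ext h0)
  set c₀ : Ω := (((f : ↥(modularFunctionFieldBar (M * p))) : LaurentSeries Ω).leadingCoeff)⁻¹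
    with hc₀def
  have hc₀ : c₀ ≠ 0 := inv_ne_zero (HahnSeries.leadingCoeff_ne_zero.2 hfL)
  set f' : ↥(modularFunctionFieldBar (M * p)) :=
    algebraMap Ω ↥(modularFunctionFieldBar (M * p)) c₀ * f with hf'def
  have hf'0 : f' ≠ 0 := mul_ne_zero ((map_ne_zero _).2 hc₀) hf
  have hf'lc : ((f' : ↥(modularFunctionFieldBar (M * p))) : LaurentSeries Ω).leadingCoeff = 1 := by
    show (algebraMap Ω (LaurentSeries Ω) c₀ *
      ((f : ↥(modularFunctionFieldBar (M * p))) : LaurentSeries Ω)).leadingCoeff = 1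
    rw [HahnSeries.leadingCoeff_mul, algebraMap_laurentSeries_eq_single,
      HahnSeries.leadingCoeff_of_single, hc₀def,
      inv_mul_cancel₀ (HahnSeries.leadingCoeff_ne_zero.2 hfL)]
  have hdiv' : ∀ v : Place Ω ↥(modularFunctionFieldBar (M * p)), ((p : ℕ) : ℤ) ∣ v.ord f' := by
    intro v
    rw [hf'def, v.ord_mul ((map_ne_zero _).2 hc₀) hf, place_ord_algebraMap_eq_zero v hc₀, zero_add]
    exact hdiv v
  -- absorb the constants of the two norms
  obtain ⟨Hα, hHα⟩ := exists_pow_eq_normAlong (heckeAlphaBar Ω M p) hm0.ne' c₀ f aα hα hNα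
  obtain ⟨Hβ, hHβ⟩ := exists_pow_eq_normAlong (heckeBetaBar Ω M p) hm0.ne' c₀ f aβ hβ hNβ
  -- the divisor of `f'` on the host over `Ω`
  haveI : HasPrincipalDivisors Ω ↥(legE Ω (M * p)) := up_hasPrincipalDivisors_legE (M * p)
  have hfE : fullToLegE Ω (M * p) f' ≠ 0 := (map_ne_zero _).2 hf'0
  obtain ⟨D, hD, -⟩ := HasPrincipalDivisors.exists_divisor (K := Ω) (fullToLegE Ω (M * p) f') hfE
  -- the Galois base
  haveI : Fact p.Prime := ⟨hp⟩
  obtain ⟨sM, hsM⟩ := exists_finset_forall_descent_family (modularFunctionFieldFull M)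
    (x := fun i : Bool => if i then ((Hα : ↥(modularFunctionFieldBar M)) : LaurentSeries Ω)
      else ((Hβ : ↥(modularFunctionFieldBar M)) : LaurentSeries Ω))
    (fun i => by cases i; exacts [Hβ.2, Hα.2])
  haveI : NeZero ((p : ℕ) : Ω) := ⟨by exact_mod_cast hp.ne_zero⟩
  obtain ⟨ζ, hζ⟩ : ∃ ζ : Ω, IsPrimitiveRoot ζ p := HasEnoughRootsOfUnity.exists_primitiveRoot Ω p
  obtain ⟨K₁, hK₁, -, htK, hdesc, hrat⟩ :=
    (isBase_flatBase (ℓ := p)).exists_ge_isGalBase_legE (M * p) (insert ζ sM)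
      (f := fun i : Option (Fin l.length) => i.elim
        ((f' : ↥(modularFunctionFieldBar (M * p))) : LaurentSeries Ω)
        (fun j => (((l.get j).2 : ↥(modularFunctionFieldBar (M * p))) : LaurentSeries Ω)))
      (fun i => by cases i; exacts [f'.2, (l.get _).2.2]) D.support
  haveI := hK₁.normal
  obtain ⟨f₁, hf₁mem, hf₁⟩ := hdesc none
  simp only [Option.elim_none] at hf₁
  have htK' : ∀ x ∈ sM, x ∈ K₁ := fun x hx => htK x (Finset.mem_insert_of_mem hx)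
  obtain ⟨hα₁, hα₁mem, hhα₁⟩ := hsM K₁ htK' true
  obtain ⟨hβ₁, hβ₁mem, hhβ₁⟩ := hsM K₁ htK' false
  simp only [if_true] at hhα₁
  simp only [Bool.false_eq_true, if_false] at hhβ₁
  set F₁ : ↥(keyFq ↥K₁ (M * p)) := ⟨f₁, hf₁mem⟩ with hF₁def
  have hBC0 : keyFqBC (M * p) K₁ F₁ = f' := Subtype.ext hf₁
  have hF₁0 : F₁ ≠ 0 := by
    intro h0
    apply hf'0
    rw [← hBC0, h0, map_zero]
  have hF₁lc : ((F₁ : ↥(keyFq ↥K₁ (M * p))) : LaurentSeries ↥K₁).leadingCoeff = 1 := by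
    have h1 := leadingCoeff_coeffMap_of_injective (f := algebraMap ↥K₁ Ω)
      (algebraMap ↥K₁ Ω).injective f₁
    rw [hf₁, hf'lc] at h1
    exact (algebraMap ↥K₁ Ω).injective (by rw [← h1, map_one])
  -- the norm identities over `K₁`
  have hnA : (letI := (keyFqA ↥K₁ M p).toRingHom.toAlgebra; Algebra.norm ↥(keyFq ↥K₁ M) F₁) =
      (⟨hα₁, hα₁mem⟩ : ↥(keyFq ↥K₁ M)) ^ p := by
    rw [norm_keyFqA_eq_normAlong]
    apply (keyFqBC M K₁).injective
    rw [keyFqBC_normAlong_heckeAlphaBar M p K₁ hp, hBC0, map_pow]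
    have h1 : keyFqBC M K₁ (⟨hα₁, hα₁mem⟩ : ↥(keyFq ↥K₁ M)) = Hα := Subtype.ext hhα₁
    rw [h1]
    exact hHα
  have hnB : (letI := (keyFqB ↥K₁ M p).toRingHom.toAlgebra; Algebra.norm ↥(keyFq ↥K₁ M) F₁) =
      (⟨hβ₁, hβ₁mem⟩ : ↥(keyFq ↥K₁ M)) ^ p := by
    rw [norm_keyFqB_eq_normAlong]
    apply (keyFqBC M K₁).injective
    rw [keyFqBC_normAlong_heckeBetaBar M p K₁ hp, hBC0, map_pow]
    have h1 : keyFqBC M K₁ (⟨hβ₁, hβ₁mem⟩ : ↥(keyFq ↥K₁ M)) = Hβ := Subtype.ext hhβ₁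
    rw [h1]
    exact hHβ
  -- the function on the host over `K₁`
  have hg₁BC : legBC (M * p) K₁ (fullToLegE ↥K₁ (M * p) F₁) =
      algebraMap Ω ↥(legE Ω (M * p)) 1 * fullToLegE Ω (M * p) f' := by
    rw [bcdeg_legBC_fullToLegE, hBC0, map_one, one_mul]
  have hord : LegOrdCond K₁ (M * p) p (fullToLegE ↥K₁ (M * p) F₁) := by
    intro P
    have h1 := ord_descended_leg (M * p) f' hdiv' D hD K₁ hrat (fullToLegE ↥K₁ (M * p) F₁) 1
      one_ne_zero hg₁BC P
    by_cases h0 : P.ord (fullToLegE ↥K₁ (M * p) F₁) = 0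
    · exact Or.inl h0
    · exact Or.inr ⟨h1.2 h0, h1.1⟩
  -- the primitive root
  have hζK : ∃ ζ₁ : ↥K₁, IsPrimitiveRoot ζ₁ p := by
    refine ⟨⟨ζ, htK ζ (Finset.mem_insert_self _ _)⟩, ?_⟩
    exact IsPrimitiveRoot.of_map_of_injective (f := algebraMap ↥K₁ Ω) hζ (algebraMap ↥K₁ Ω).injective
  -- the splitting over `K₁`
  have hdescl : ∀ x ∈ l, ∃ y : ↥(keyFq ↥K₁ (M * p)), keyFqBC (M * p) K₁ y = x.2 := by
    intro x hx
    obtain ⟨j, rfl⟩ := List.mem_iff_get.1 hx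
    obtain ⟨h₁, hmem, hh⟩ := hdesc (some j)
    exact ⟨⟨h₁, hmem⟩, Subtype.ext hh⟩
  obtain ⟨l₁, hl₁⟩ := exists_list_map_eq (keyFqBC (M * p) K₁) l hdescl
  set ι₁ : GQ →* SemilinearAut ↥K₁ ↥(keyFq ↥K₁ (M * p)) :=
    (keyFqGalois ↥K₁ (M * p)).comp (resGal K₁) with hι₁
  have hcob : keyFqBC (M * p) K₁ (cobProd ι₁ l₁) =
      cobProd (arithmeticGalois (modularFunctionFieldFull (M * p))) l := by
    rw [map_cobProd ι₁ (keyFqGalois Ω (M * p)) (keyFqBC (M * p) K₁)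
      (fun τ x => keyFqBC_keyFqGalois_smul (M * p) K₁ τ x) l₁, hl₁]
    rfl
  have hl₁' : IsCobList ((A.inertiaSubgroupIn ℚ : Subgroup GQ) : Set GQ) l₁ :=
    IsCobList.of_map_hom (keyFqBC (M * p) K₁) (by rw [hl₁]; exact hl)
  have hcob0 : cobProd ι₁ l₁ ≠ 0 := cobProd_ne_zero ι₁ hl₁'
  obtain ⟨c₁, hc₁, hX⟩ := exists_const_of_keyFqBC_eq_algebraMap (M * p) K₁
    (F₁ ^ p ^ k / cobProd ι₁ l₁) (c₀ ^ p ^ k * c) (by
      rw [map_div₀, map_pow, hBC0, hcob, hf'def, mul_pow, hfl, ← map_pow, map_mul]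
      have h0 : cobProd (arithmeticGalois (modularFunctionFieldFull (M * p))) l ≠ 0 := by
        rw [← hcob]
        exact (map_ne_zero _).2 hcob0
      field_simp)
  have hc₁0 : c₁ ≠ 0 := by
    rintro rfl
    rw [map_zero] at hc₁
    exact mul_ne_zero (pow_ne_zero _ hc₀) hc hc₁.symm
  have hsplit₁ : F₁ ^ p ^ k = algebraMap ↥K₁ ↥(keyFq ↥K₁ (M * p)) c₁ * cobProd ι₁ l₁ := by
    rw [← hX, div_mul_cancel₀ _ hcob0]
  -- the splitting on the host
  have hsplit : IsInertiaSplit A K₁ (M * p) p (fullToLegE ↥K₁ (M * p) F₁) := by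
    obtain ⟨u, hu, hu'⟩ := cobProd_mem_legInertiaCob A K₁ (M * p)
      (l₁.map fun x => (x.1, (fullToLegE ↥K₁ (M * p)).toRingHom x.2))
      (IsCobList.map_hom hl₁' (fullToLegE ↥K₁ (M * p)).toRingHom)
    refine ⟨k, c₁, u, hc₁0, hu, ?_⟩
    rw [hu', ← map_cobProd ι₁ ((legGalois ↥K₁ (M * p)).comp (resGal K₁))
      (fullToLegE ↥K₁ (M * p)).toRingHom
      (fun τ x => fullToLegE_keyFqGalois_smul (M * p) (resGal K₁ τ) x) l₁]
    have h3 := congrArg (fullToLegE ↥K₁ (M * p)) hsplit₁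
    rw [map_pow, map_mul, AlgHom.commutes] at h3
    exact h3
  -- the base statement
  obtain ⟨c', u, hc', hu⟩ := hB M p hp hp2 hpM A hA K₁ hK₁ hζK σ hσ a ha F₁ hF₁0 hF₁lc hord
    ⟨_, hnA⟩ ⟨_, hnB⟩ hsplit
  -- back to `Ω`
  have h1 := congrArg (legBC (M * p) K₁) hu
  rw [map_div₀, legBC_legGalois_smul, map_pow, map_mul, map_pow, legBC_algebraMap,
    bcdeg_legBC_fullToLegE, hBC0, hf'def, map_mul, AlgHom.commutes, smul_mul',
    SemilinearAut.smul_algebraMap] at h1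
  set X : ↥(legE Ω (M * p)) := fullToLegE Ω (M * p) f with hXdef
  have hX0 : X ≠ 0 := (map_ne_zero _).2 hf
  set d : Ω := SemilinearAut.baseAut (legGalois Ω (M * p) σ) c₀ with hd
  have hd0 : d ≠ 0 := (map_ne_zero _).2 hc₀
  have hsX0 : legGalois Ω (M * p) σ • X ≠ 0 := by simpa using hX0
  have hu0 : u ≠ 0 := by
    rintro rfl
    rw [zero_pow hp.ne_zero, mul_zero] at hu
    have h2 : legGalois ↥K₁ (M * p) (resGal K₁ σ) • fullToLegE ↥K₁ (M * p) F₁ ≠ 0 := by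
      simpa using (map_ne_zero (fullToLegE ↥K₁ (M * p))).2 hF₁0
    exact div_ne_zero h2 (pow_ne_zero _ ((map_ne_zero _).2 hF₁0)) hu
  refine ⟨algebraMap ↥K₁ Ω c' * c₀ ^ a / d, legBC (M * p) K₁ u,
    div_ne_zero (mul_ne_zero ((map_ne_zero _).2 hc') (pow_ne_zero _ hc₀)) hd0,
    (map_ne_zero _).2 hu0, ?_⟩
  have hA0 : algebraMap Ω ↥(legE Ω (M * p)) c₀ ≠ 0 := (map_ne_zero _).2 hc₀
  have hD0 : algebraMap Ω ↥(legE Ω (M * p)) d ≠ 0 := (map_ne_zero _).2 hd0
  rw [map_div₀, map_mul, map_pow]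
  have h2 : algebraMap Ω ↥(legE Ω (M * p)) (algebraMap ↥K₁ Ω c') *
      algebraMap Ω ↥(legE Ω (M * p)) c₀ ^ a / algebraMap Ω ↥(legE Ω (M * p)) d *
      legBC (M * p) K₁ u ^ p =
      (algebraMap Ω ↥(legE Ω (M * p)) (algebraMap ↥K₁ Ω c') * legBC (M * p) K₁ u ^ p) *
      algebraMap Ω ↥(legE Ω (M * p)) c₀ ^ a / algebraMap Ω ↥(legE Ω (M * p)) d := by ring
  rw [h2, ← h1, mul_pow]
  have hXa : X ^ a ≠ 0 := pow_ne_zero _ hX0
  have hQa : algebraMap Ω ↥(legE Ω (M * p)) c₀ ^ a ≠ 0 := pow_ne_zero _ hA0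
  field_simp

end Main

/-- **[BASEP], new case: `LegNewBaseP → KeyNewStatement`.** -/
theorem keyNewStatement_of_base (hB : LegNewBaseP) : KeyNewStatement := by
  intro M p _ _ _ hp hp2 hpM A hA
  exact keyNewAt_of_newKummer M p hp hp2 A fun σ hσ a ha =>
    newKummerAt_of_base M p hB hp hp2 hpM A hA σ hσ a ha

end Fermat.Agent.NP
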