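/-
NP33 (S33) — helper2 — **[EPS33], part 2: an element of the inertia group at `p` (odd) acting
non-trivially on `μ_p`.**
-/
import Mathlib
import Fermat.Agent.TW.CycloRam_helper6

set_option autoImplicit false
set_option linter.unusedSectionVars false
set_option linter.unusedVariables false
set_option linter.style.haveILetI false

namespace Fermat.Agent.NP

open Fermat.Agent.TW Fermat.Agent.CFT.S14 Fermat.Agent.Tate Fermat.Agent.EC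

local notation "Ω" => AlgebraicClosure ℚ
local notation "GQ" => (AlgebraicClosure ℚ ≃ₐ[ℚ] AlgebraicClosure ℚ)

/-- every `σ ∈ G_ℚ` acts on `μ_p` through a power `ζ ↦ ζ ^ a`, `p ∤ a`. -/
theorem exists_cycExp {p : ℕ} (hp : p.Prime) (σ : GQ) :
    ∃ a : ℕ, (∀ μ : Ω, μ ^ p = 1 → σ μ = μ ^ a) ∧ ¬ p ∣ a := by
  haveI : Fact p.Prime := ⟨hp⟩
  haveI : NeZero p := ⟨hp.ne_zero⟩
  obtain ⟨ζ, hζ⟩ := exists_primitiveRoot_Qbar p
  have hσζ : (σ ζ) ^ p = 1 := by rw [← map_pow, hζ.pow_eq_one, map_one]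
  obtain ⟨a, -, ha⟩ := hζ.eq_pow_of_pow_eq_one hσζ
  refine ⟨a, ?_, ?_⟩
  · intro μ hμ
    obtain ⟨j, -, rfl⟩ := hζ.eq_pow_of_pow_eq_one hμ
    rw [map_pow, ← ha, ← pow_mul, ← pow_mul, mul_comm]
  · intro hd
    obtain ⟨c, rfl⟩ := hd
    rw [pow_mul, hζ.pow_eq_one, one_pow] at ha
    have h1 : σ ζ = σ 1 := by rw [← ha, map_one]
    exact hζ.ne_one hp.one_lt (σ.injective h1)

/-- **some `σ ∈ I_P` acts on `μ_p` by `ζ ↦ ζ ^ a` with `a ≢ 0, 1 mod p`** (`p` odd). -/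
theorem exists_cycAct_ne_one {p : ℕ} (hp : p.Prime) (hp2 : p ≠ 2) {P : ValuationSubring Ω}
    (hP : P.LiesOverPrime p) :
    ∃ σ ∈ P.inertiaSubgroupIn ℚ, ∃ a : ℕ, (∀ μ : Ω, μ ^ p = 1 → σ μ = μ ^ a) ∧ ¬ p ∣ a ∧
      ¬ (a ≡ 1 [MOD p]) := by
  haveI : Fact p.Prime := ⟨hp⟩
  obtain ⟨ζ, hζ⟩ := exists_primitiveRoot_Qbar p
  obtain ⟨σ, hσ, hσζ⟩ := exists_mem_inertia_map_ne hp hp2 hP hζ
  obtain ⟨a, ha, ha0⟩ := exists_cycExp hp σ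
  refine ⟨σ, hσ, a, ha, ha0, ?_⟩
  intro hmod
  apply hσζ
  rw [ha ζ hζ.pow_eq_one, ← pow_mod_orderOf, ← hζ.eq_orderOf, hmod, Nat.mod_eq_of_lt hp.one_lt,
    pow_one]

end Fermat.Agent.NP
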