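/-
NP33 (S33) — helper2 — **[BASEP], part 4: the `Ω`-level Kummer forms of (KEY-OLD)** and
`keyOldAt_of_oldKummer`.

* `IsDivOf.correspondence` : `div f = D ⇒ div (N_ψ (φ f)) = ψ_* φ^* D`;
* `heckeFunBar M p f = N_α (β^* f)` : the Hecke operator `T_p` on functions of `X₀(M)` over `Ω`;
  `heckeOperatorBar_iterate_mk` : `T_p^j [D] = [D_j]` with `div (T^j f) = m · D_j`;
* `OldKummerAt M p A` (depth filtration) and `OldTopKummerAt M p A` (top depth): the two Kummer
  forms over `Ω`;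
* `keyOldAt_of_oldKummer` : they imply `KeyOldAt M p hp A`, with `S = inertiaCobClosure`,
  `D i = T_p^{i-1} (S ∩ J[p])`, `e = k + 1`, `k` the maximum over the finite set `S ∩ J[p]`.
-/
import Mathlib
import Fermat.Agent.NP.BASEP_helper2_New
import Fermat.Agent.GR.TSWAP_helper4_Main
import Fermat.Agent.FG.TOP19_helper5_Red
import Fermat.Agent.S35.DESC_helper2_Inv
import Fermat.Agent.NP.EPS33_helper2_Cyc

set_option autoImplicit false
set_option linter.unusedSectionVars false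
set_option linter.unusedVariables false
set_option linter.style.haveILetI false
set_option synthInstance.maxHeartbeats 400000

open AlgebraicCurve ModularCurve

namespace Fermat.Agent.NP

open Fermat.Agent.SS Fermat.Agent.JA Fermat.Agent.X0N Fermat.Agent.GR Fermat.Agent.S35
  Fermat.Agent.FG Fermat.Agent.FF

/-- `Ω = AlgebraicClosure ℚ`. -/
local notation "Ω" => AlgebraicClosure ℚ

/-- the absolute Galois group. -/
local notation "GQ" => (AlgebraicClosure ℚ ≃ₐ[ℚ] AlgebraicClosure ℚ)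

section Corr

variable {K F F' : Type*} [Field K] [Field F] [Field F'] [Algebra K F] [Algebra K F']
  [HasPrincipalDivisors K F']

/-- the divisor of the norm of the pullback is the correspondence of the divisor. -/
theorem _root_.Fermat.Agent.S35.IsDivOf.correspondence (φ ψ : F →ₐ[K] F')
    (hφ : φ.toRingHom.IsIntegral) (hψ : ψ.toRingHom.IsIntegral) (hfin : FiniteAlong K ψ)
    (hN : NormFormulaAlong K ψ hfin) {f : F} {D : Divisor K F} (h : IsDivOf f D) :
    IsDivOf (normAlong ψ (φ f)) (Divisor.correspondence φ ψ hφ hψ D) := by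
  have hφf : φ f ≠ 0 := (map_ne_zero φ).2 h.1
  have hpull : ∀ w : Place K F', Divisor.pullbackAlong φ hφ D w = w.ord (φ f) := by
    intro w
    rw [Divisor.pullbackAlong_apply, Place.ord_restrictAlong φ hφ, h.2]
  letI := algebraAlong ψ
  haveI := isScalarTower_along ψ
  haveI : Module.Finite F F' := hfin
  refine ⟨?_, fun v => ?_⟩
  · exact Algebra.norm_ne_zero_iff.mpr hφf
  · exact hN (φ f) hφf _ hpull v

end Corr

section Converse

variable {K F : Type*} [Field K] [Field F] [Algebra K F]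

/-- a principal class: if `[E] = 0` and `div g = m · E` then `g` is a constant times an `m`-th
power. -/
theorem exists_const_mul_pow_of_mk_eq_zero
    (hconst : ∀ u : F, u ≠ 0 → (∀ v : Place K F, v.ord u = 0) → ∃ a : K, u = algebraMap K F a)
    {m : ℕ} (E : Divisor.degZero (K := K) (F := F)) (hE : (Pic0.mk E : Pic0 K F) = 0) {g : F}
    (hg : IsDivOf g (m • (E : Divisor K F))) :
    ∃ (c : K) (h : F), c ≠ 0 ∧ h ≠ 0 ∧ g = algebraMap K F c * h ^ m := by
  have hprin := (QuotientAddGroup.eq_zero_iff _).1 hE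
  rw [AddSubgroup.mem_addSubgroupOf] at hprin
  obtain ⟨h, hh, hhE⟩ := hprin
  have hdiv : IsDivOf h (E : Divisor K F) := ⟨hh, fun v => hhE v⟩
  obtain ⟨c, hc, hgc⟩ := hg.exists_const hconst (hdiv.pow m)
  exact ⟨c, h, hc, hh, hgc⟩

/-- **the converse Kummer relation**: `g [D] = a [D]` and `div f = m · D` give
`g f / f ^ a = c · h ^ m`. -/
theorem exists_kummer_of_smul_mk_eq_nsmul
    (hconst : ∀ u : F, u ≠ 0 → (∀ v : Place K F, v.ord u = 0) → ∃ a : K, u = algebraMap K F a)
    (g : SemilinearAut K F) {m a : ℕ} (D : Divisor.degZero (K := K) (F := F)) {f : F}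
    (hf : IsDivOf f (m • (D : Divisor K F)))
    (h : g • (Pic0.mk D : Pic0 K F) = a • Pic0.mk D) :
    ∃ (c : K) (w : F), c ≠ 0 ∧ w ≠ 0 ∧ g • f / f ^ a = algebraMap K F c * w ^ m := by
  set E : Divisor.degZero (K := K) (F := F) := SemilinearAut.degZeroSMulHom g D - a • D with hE
  have hE0 : (Pic0.mk E : Pic0 K F) = 0 := by
    have h4 : g • (Pic0.mk D : Pic0 K F) - a • Pic0.mk D = Pic0.mk E := rfl
    rw [← h4, h, sub_self]
  refine exists_const_mul_pow_of_mk_eq_zero hconst E hE0 ?_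
  refine ((hf.smul g).div (hf.pow a)).congr ?_
  show g • (m • (D : Divisor K F)) - a • (m • (D : Divisor K F)) =
    m • (g • (D : Divisor K F) - a • (D : Divisor K F))
  rw [semilinear_smul_nsmul_divisor, smul_sub, smul_comm a m]

end Converse

section Hecke

variable (M p : ℕ) [NeZero M] [NeZero p]

/-- **the Hecke operator `T_p` on the functions of `X₀(M)` over `Ω`**: `f ↦ N_α (β^* f)`. -/
noncomputable def heckeFunBar (f : ↥(modularFunctionFieldBar M)) : ↥(modularFunctionFieldBar M) :=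
  normAlong (heckeAlphaBar Ω M p) (heckeBetaBar Ω M p f)

/-- `T_p [D] = [D']` with `div (T f) = m · D'` whenever `div f = m · D`. -/
theorem heckeOperatorBar_mk (hp : p.Prime)
    (D : Divisor.degZero (K := Ω) (F := ↥(modularFunctionFieldBar M))) :
    ∃ D' : Divisor.degZero (K := Ω) (F := ↥(modularFunctionFieldBar M)),
      heckeOperatorBar M ⟨p, hp⟩ (Pic0.mk D : JZero M) = Pic0.mk D' ∧
      ∀ (m : ℕ) (f : ↥(modularFunctionFieldBar M)),
        IsDivOf f (m • (D : Divisor Ω ↥(modularFunctionFieldBar M))) →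
        IsDivOf (heckeFunBar M p f) (m • (D' : Divisor Ω ↥(modularFunctionFieldBar M))) := by
  haveI : HasPrincipalDivisors Ω ↥(modularFunctionFieldBar (M * p)) :=
    (jCoordBar (M * p)).hasPrincipalDivisors
  have hα : HeckeAlphaBarIntegral Ω M p := heckeAlphaBarIntegral_bar M p
  have hβ : HeckeBetaBarIntegral Ω M p := heckeBetaBarIntegral_bar M p
  have hFI : FundamentalIdentityAlong Ω (heckeBetaBar Ω M p) hβ :=
    fundamentalIdentityAlong_of_coord (jCoordBar M) (jCoordBar (M * p)) _ _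
  have hfin : FiniteAlong Ω (heckeAlphaBar Ω M p) := finiteAlong_heckeAlphaBar M p
  have hN : NormFormulaAlong Ω (heckeAlphaBar Ω M p) hfin :=
    normFormulaAlong_of_coord (jCoordBar M) (jCoordBar (M * p)) _ _
  refine ⟨Pic0.degZeroCorrespondence (heckeBetaBar Ω M p) (heckeAlphaBar Ω M p) hβ hα hFI D,
    ?_, ?_⟩
  · exact (heckeOperatorBar_apply M ⟨p, hp⟩ _).trans
      (congrFun (congrArg DFunLike.coe (heckeOperatorAlong_eq hα hβ hFI hfin hN)) _)
  · intro m f hf
    have h1 := hf.correspondence (heckeBetaBar Ω M p) (heckeAlphaBar Ω M p) hβ hα hfin hN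
    rw [map_nsmul] at h1
    exact h1

/-- the iterates: `T_p^j [D] = [D_j]` with `div (T^j f) = m · D_j`. -/
theorem heckeOperatorBar_iterate_mk (hp : p.Prime)
    (D : Divisor.degZero (K := Ω) (F := ↥(modularFunctionFieldBar M))) (j : ℕ) :
    ∃ D' : Divisor.degZero (K := Ω) (F := ↥(modularFunctionFieldBar M)),
      (heckeOperatorBar M ⟨p, hp⟩)^[j] (Pic0.mk D : JZero M) = Pic0.mk D' ∧
      ∀ (m : ℕ) (f : ↥(modularFunctionFieldBar M)),
        IsDivOf f (m • (D : Divisor Ω ↥(modularFunctionFieldBar M))) →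
        IsDivOf ((heckeFunBar M p)^[j] f)
          (m • (D' : Divisor Ω ↥(modularFunctionFieldBar M))) := by
  induction j with
  | zero => exact ⟨D, rfl, fun m f hf => hf⟩
  | succ j ih =>
    obtain ⟨D₁, h1, h2⟩ := ih
    obtain ⟨D₂, h3, h4⟩ := heckeOperatorBar_mk M p hp D₁
    refine ⟨D₂, ?_, fun m f hf => ?_⟩
    · rw [Function.iterate_succ_apply', h1, h3]
    · rw [Function.iterate_succ_apply']
      exact h4 m _ (h2 m f hf)

end Hecke

section Forms

variable (M p : ℕ) [NeZero M] [NeZero p]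

/-- **the Kummer form of (KEY-OLD), depth filtration, over `Ω`**: for an inertia-split function
`f`, there is `k` such that if all the divisors of `T^j f`, `j ≤ k`, are divisible by `p`, then
`σ̄ (T^k f) / (T^k f) ^ a` is a constant times a `p`-th power on the Legendre host. -/
def OldKummerAt (A : ValuationSubring Ω) : Prop :=
  ∀ f : ↥(modularFunctionFieldBar M), f ≠ 0 → IsSplitBar M A p f → ∃ k : ℕ,
    (∀ j : ℕ, j ≤ k → ∀ v : Place Ω ↥(modularFunctionFieldBar M),
      (p : ℤ) ∣ v.ord ((heckeFunBar M p)^[j] f)) →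
    ∀ σ ∈ A.inertiaSubgroupIn ℚ, ∀ a : ℕ, CycAct p σ a →
      ∃ (c : Ω) (w : ↥(legE Ω M)), c ≠ 0 ∧ w ≠ 0 ∧
        legGalois Ω M σ • fullToLegE Ω M ((heckeFunBar M p)^[k] f) /
          fullToLegE Ω M ((heckeFunBar M p)^[k] f) ^ a = algebraMap Ω ↥(legE Ω M) c * w ^ p

/-- **the Kummer form of (KEY-OLD), top depth, over `Ω`**: a monic function `f` fixed by the
elements of the inertia group acting trivially on `μ_p`, with `div f ∈ p·Div`, such that
`σ̄₁ f / f ^ a₁` (`a₁ ≢ 1`) and `T f` are constants times `p`-th powers, is a constant times a `p`-th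
power on the Legendre host. -/
def OldTopKummerAt (A : ValuationSubring Ω) : Prop :=
  ∀ σ₁ ∈ A.inertiaSubgroupIn ℚ, ∀ a₁ : ℕ, CycAct p σ₁ a₁ → ¬ (a₁ ≡ 1 [MOD p]) →
  ∀ f : ↥(modularFunctionFieldBar M), f ≠ 0 →
    ((f : ↥(modularFunctionFieldBar M)) : LaurentSeries Ω).leadingCoeff = 1 →
    (∀ τ ∈ A.inertiaSubgroupIn ℚ, CycAct p τ 1 →
      arithmeticGalois (modularFunctionFieldFull M) τ • f = f) →
    (∀ v : Place Ω ↥(modularFunctionFieldBar M), (p : ℤ) ∣ v.ord f) →
    (∃ (c : Ω) (h : ↥(modularFunctionFieldBar M)), c ≠ 0 ∧ h ≠ 0 ∧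
      arithmeticGalois (modularFunctionFieldFull M) σ₁ • f / f ^ a₁ =
        algebraMap Ω ↥(modularFunctionFieldBar M) c * h ^ p) →
    (∃ (c : Ω) (h : ↥(modularFunctionFieldBar M)), c ≠ 0 ∧ h ≠ 0 ∧
      heckeFunBar M p f = algebraMap Ω ↥(modularFunctionFieldBar M) c * h ^ p) →
    ∃ (c : Ω) (w : ↥(legE Ω M)), c ≠ 0 ∧ w ≠ 0 ∧
      fullToLegE Ω M f = algebraMap Ω ↥(legE Ω M) c * w ^ p

end Forms

section Pull

variable (N : ℕ) [NeZero N]

/-- a class whose Kummer function becomes a constant times a `p`-th power on the Legendre host is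
killed by `2`. -/
theorem two_nsmul_mk_eq_zero_of_leg_pow {p : ℕ} (hp : p ≠ 0)
    (D : Divisor.degZero (K := Ω) (F := ↥(modularFunctionFieldBar N)))
    (f : ↥(modularFunctionFieldBar N)) (hf : f ≠ 0)
    (hfD : ∀ v : Place Ω ↥(modularFunctionFieldBar N),
      v.ord f = (p : ℤ) * (D : Divisor Ω ↥(modularFunctionFieldBar N)) v)
    (c : Ω) (w : ↥(legE Ω N)) (hc : c ≠ 0) (hw : w ≠ 0)
    (h : fullToLegE Ω N f = algebraMap Ω ↥(legE Ω N) c * w ^ p) :
    2 • (Pic0.mk D : JZero N) = 0 := by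
  haveI : HasPrincipalDivisors Ω ↥(legE Ω N) := legE_principal_gen N
  set D' : Divisor.degZero (K := Ω) (F := ↥(legE Ω N)) :=
    pullDegZero (fullToLegE Ω N) (isIntegral_fullToLegE_bar N)
      (fundamentalIdentityAlong_fullToLegE N) D with hD'
  have hpull : legPull N (Pic0.mk D) = Pic0.mk D' := rfl
  have hfD' : ∀ W : Place Ω ↥(legE Ω N),
      W.ord (fullToLegE Ω N f) = (p : ℤ) * (D' : Divisor Ω ↥(legE Ω N)) W := by
    intro W
    rw [hD', coe_pullDegZero, Divisor.pullbackAlong_apply,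
      Place.ord_restrictAlong (fullToLegE Ω N) (isIntegral_fullToLegE_bar N), hfD]
    ring
  apply two_nsmul_eq_zero_of_legPull_eq_zero N
  rw [hpull]
  refine (QuotientAddGroup.eq_zero_iff _).2 ?_
  rw [AddSubgroup.mem_addSubgroupOf]
  refine ⟨w, hw, fun W => ?_⟩
  have h1 := hfD' W
  rw [h, W.ord_mul ((map_ne_zero _).2 hc) (pow_ne_zero p hw), place_ord_algebraMap_eq_zero W hc,
    zero_add, place_ord_pow] at h1
  have hp' : (p : ℤ) ≠ 0 := by exact_mod_cast hp
  exact (mul_left_cancel₀ hp' h1).symm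

end Pull

section KeyOld

variable (M p : ℕ) [NeZero M] [NeZero p]

/-- the eigen-relation is stable under `T_p`. -/
theorem smul_hecke_iterate_eq_of_le (hp : p.Prime) (hpM : ¬ p ∣ M) (σ : GQ) (a : ℕ) (y : JZero M)
    {k k' : ℕ} (hk : k ≤ k')
    (h : σ • (heckeOperatorBar M ⟨p, hp⟩)^[k] y = a • (heckeOperatorBar M ⟨p, hp⟩)^[k] y) :
    σ • (heckeOperatorBar M ⟨p, hp⟩)^[k'] y = a • (heckeOperatorBar M ⟨p, hp⟩)^[k'] y := by
  induction k', hk using Nat.le_induction with
  | base => exact h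
  | succ n hn ih =>
    rw [Function.iterate_succ_apply', ← heckeOperatorBar_galois_smul hp hpM, ih, map_nsmul]

set_option maxHeartbeats 1600000 in
/-- **(KEY-OLD) from the two Kummer forms over `Ω`.** -/
theorem keyOldAt_of_oldKummer (hp : p.Prime) (hp2 : p ≠ 2) (hpM : ¬ p ∣ M)
    (A : ValuationSubring Ω) (hA : A.LiesOverPrime p)
    (H1 : OldKummerAt M p A) (H2 : OldTopKummerAt M p A) : KeyOldAt M p hp A := by
  classical
  haveI : Fact p.Prime := ⟨hp⟩
  set T := heckeOperatorBar M ⟨p, hp⟩ with hT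
  set S := inertiaCobClosure M A p with hS
  have hconst : ∀ u : ↥(modularFunctionFieldBar M), u ≠ 0 →
      (∀ v : Place Ω ↥(modularFunctionFieldBar M), v.ord u = 0) →
      ∃ a : Ω, u = algebraMap Ω ↥(modularFunctionFieldBar M) a :=
    fun u _ hu => exists_const_of_forall_ord_eq_zero (jCoordBar M) u hu
  -- step 1: the exponent of one class
  have key : ∀ y : JZero M, ∃ k : ℕ, y ∈ S → p • y = 0 →
      ∀ σ ∈ A.inertiaSubgroupIn ℚ, ∀ a : ℕ, CycAct p σ a → σ • T^[k] y = a • T^[k] y := by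
    intro y
    by_cases hy : y ∈ S ∧ p • y = 0
    · obtain ⟨D, f, rfl, hf, hfD, hsplit⟩ := exists_split_rep_jzero M A p y hy.1 hy.2
      obtain ⟨k, hk⟩ := H1 f hf hsplit
      refine ⟨k, fun _ _ σ hσ a ha => ?_⟩
      have hdiv : IsDivOf f (p • (D : Divisor Ω ↥(modularFunctionFieldBar M))) :=
        ⟨hf, fun v => by rw [Finsupp.smul_apply, nsmul_eq_mul, hfD v]⟩
      have hord : ∀ j : ℕ, j ≤ k → ∀ v : Place Ω ↥(modularFunctionFieldBar M),
          (p : ℤ) ∣ v.ord ((heckeFunBar M p)^[j] f) := by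
        intro j _ v
        obtain ⟨Dj, -, h2⟩ := heckeOperatorBar_iterate_mk M p hp D j
        rw [← (h2 p f hdiv).2 v, Finsupp.smul_apply, nsmul_eq_mul]
        exact Dvd.intro _ rfl
      obtain ⟨c, w, hc, hw, hrel⟩ := hk hord σ hσ a ha
      obtain ⟨Dk, h1, h2⟩ := heckeOperatorBar_iterate_mk M p hp D k
      have hdk := h2 p f hdiv
      rw [hT, h1]
      refine jzero_smul_eq_nsmul_of_leg_kummer M hp hp2 σ a Dk _ hdk.1 (fun v => ?_) c w hc hw hrel
      rw [← hdk.2 v, Finsupp.smul_apply, nsmul_eq_mul]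
    · exact ⟨0, fun h1 h2 => absurd ⟨h1, h2⟩ hy⟩
  choose kf hkf using key
  -- step 2: the uniform exponent
  have hfin : {y : JZero M | p • y = 0}.Finite := by
    haveI := finite_torsionBy_jzero M p 1
    refine Set.Finite.subset
      (Set.toFinite ((Submodule.torsionBy ℤ (JZero M) ((p : ℤ) ^ 1) : Submodule ℤ (JZero M)) :
        Set (JZero M))) ?_
    intro y hy
    have hy' : p • y = 0 := hy
    show y ∈ Submodule.torsionBy ℤ (JZero M) ((p : ℤ) ^ 1)
    rw [Submodule.mem_torsionBy_iff, pow_one, natCast_zsmul]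
    exact hy'
  set K : ℕ := hfin.toFinset.sup kf with hK
  have hKy : ∀ y : JZero M, y ∈ S → p • y = 0 →
      ∀ σ ∈ A.inertiaSubgroupIn ℚ, ∀ a : ℕ, CycAct p σ a → σ • T^[K] y = a • T^[K] y := by
    intro y hyS hpy σ hσ a ha
    have hle : kf y ≤ K := Finset.le_sup (f := kf) (hfin.mem_toFinset.2 hpy)
    exact smul_hecke_iterate_eq_of_le M p hp hpM σ a y hle (hkf y hyS hpy σ hσ a ha)
  -- step 3: the filtration
  set Sp : AddSubgroup (JZero M) := S ⊓ (nsmulAddMonoidHom (α := JZero M) p).ker with hSp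
  have hSp_mem : ∀ y : JZero M, y ∈ Sp ↔ y ∈ S ∧ p • y = 0 := by
    intro y
    rw [hSp, AddSubgroup.mem_inf, AddMonoidHom.mem_ker, nsmulAddMonoidHom_apply]
  refine ⟨S, K + 1, fun i => Sp.map ((T ^ (i - 1) : Module.End ℤ (JZero M)).toAddMonoidHom),
    Nat.succ_pos K, ?_, ?_, ?_, ?_, ?_⟩
  · intro y n hy τ hτ
    exact smul_sub_mem_inertiaCobClosure M A p y n hy hτ
  · intro x hx hpx
    refine ⟨x, (hSp_mem x).2 ⟨hx, hpx⟩, ?_⟩
    simp
  · intro i hi1 hie x hx
    obtain ⟨y, hy, rfl⟩ := hx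
    refine ⟨y, hy, ?_⟩
    have e : i + 1 - 1 = (i - 1) + 1 := by omega
    rw [e, pow_succ']
    rfl
  · intro x hx σ hσ a ha
    obtain ⟨y, hy, rfl⟩ := hx
    have hy' := (hSp_mem y).1 hy
    have e : ((T ^ (K + 1 - 1) : Module.End ℤ (JZero M)).toAddMonoidHom) y = T^[K] y := by
      rw [Nat.add_sub_cancel]
      exact Module.End.pow_apply T K y
    rw [e]
    exact hKy y hy'.1 hy'.2 σ hσ a ha
  · intro x hxS hpx hσx hTx
    -- an element of the inertia group acting non-trivially on `μ_p`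
    obtain ⟨σ₁, hσ₁, a₁, ha₁, -, ha₁1⟩ := exists_cycAct_ne_one hp hp2 hA
    have hcyc₁ : CycAct p σ₁ a₁ := ha₁
    -- an invariant pair
    obtain ⟨D, f, hf, rfl, hfD, hlc, -, hfinv⟩ := exists_invariant_pair M p x hpx
      {τ : GQ | τ ∈ A.inertiaSubgroupIn ℚ ∧ CycAct p τ 1}
      (fun τ hτ => by
        have := hσx τ hτ.1 1 hτ.2
        rwa [one_smul] at this)
    have hdiv : IsDivOf f (p • (D : Divisor Ω ↥(modularFunctionFieldBar M))) :=
      ⟨hf, fun v => by rw [Finsupp.smul_apply, nsmul_eq_mul, hfD v]⟩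
    -- the Kummer relation for `σ₁`
    have hk1 := exists_kummer_of_smul_mk_eq_nsmul hconst
      (arithmeticGalois (modularFunctionFieldFull M) σ₁) D hdiv (hσx σ₁ hσ₁ a₁ hcyc₁)
    -- the Kummer relation for `T_p`
    obtain ⟨D', hD', hdiv'⟩ := heckeOperatorBar_mk M p hp D
    have hk2 := exists_const_mul_pow_of_mk_eq_zero hconst D' (by rw [← hD']; exact hTx)
      (hdiv' p f hdiv)
    obtain ⟨c, w, hc, hw, hrel⟩ := H2 σ₁ hσ₁ a₁ hcyc₁ ha₁1 f hf hlc
      (fun τ hτ hτ1 => hfinv τ ⟨hτ, hτ1⟩) (fun v => ⟨_, hfD v⟩) hk1 hk2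
    have h2 := two_nsmul_mk_eq_zero_of_leg_pow M hp.ne_zero D f hf hfD c w hc hw hrel
    exact eq_zero_of_two_nsmul_of_prime_nsmul hp hp2 h2 hpx

end KeyOld

end Fermat.Agent.NP
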