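/-
NP33 (S33) — helper2 — **[BASEP], part 7: from the base statement `LegOldBaseP` to the Kummer form
`OldKummerAt` over `Ω`** (depth filtration of (KEY-OLD)).

Chain: `f ∈ F_Ω(M)` inertia-split, `f ^ (p ^ k₀) = c · ∏ τ̄ h / h`; normalise `f` to be monic; choose
a Galois base `K₁ ∋ ζ_p` over which `f` and the `h`'s are defined; the splitting descends to `K₁`;
`LegOldBaseP` at `K₁` gives `k`; the Hecke operators on the host over `K₁`, on `F_{K₁}(M)` and on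
`F_Ω(M)` are compatible, so the divisor conditions descend; go back to `Ω` with `legBC`.
-/
import Mathlib
import Fermat.Agent.NP.BASEP_helper2_Old
import Fermat.Agent.NP.BASEP_helper2_NewDesc
import Fermat.Agent.NP.BASEP_helper2_Deg

set_option autoImplicit false
set_option linter.unusedSectionVars false
set_option linter.unusedVariables false
set_option linter.style.haveILetI false
set_option synthInstance.maxHeartbeats 400000

open HahnSeries IntermediateField AlgebraicCurve ModularCurve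

namespace Fermat.Agent.NP

open Fermat.Agent.JA Fermat.Agent.FF Fermat.Agent.SS Fermat.Agent.X0N Fermat.Agent.S35

/-- `Ω = AlgebraicClosure ℚ`. -/
local notation "Ω" => AlgebraicClosure ℚ

/-- the absolute Galois group. -/
local notation "GQ" => (AlgebraicClosure ℚ ≃ₐ[ℚ] AlgebraicClosure ℚ)

section Ord

variable (N : ℕ) [NeZero N]

/-- the orders of a function of `F_{K₁}(N)` at the places of the host over `K₁` are divisible by
`m` as soon as the orders of its base change to `Ω` are. -/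
theorem dvd_ord_fullToLegE_of_keyFqBC {m : ℕ} (K₁ : IntermediateField ℚ Ω) (G : ↥(keyFq ↥K₁ N))
    (hdiv : ∀ v : Place Ω ↥(modularFunctionFieldBar N), (m : ℤ) ∣ v.ord (keyFqBC N K₁ G))
    (P : Place ↥K₁ ↥(legE ↥K₁ N)) : (m : ℤ) ∣ P.ord (fullToLegE ↥K₁ N G) := by
  obtain ⟨Q, -, hQord⟩ := exists_place_restrictBC_eq_and_ord (legBC N K₁) (legBC_algebraMap N K₁)
    (closure_range_legBC N K₁) P
  rw [hQord, bcdeg_legBC_fullToLegE]
  exact dvd_ord_fullToLegE N _ hdiv Q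

end Ord

section Main

variable (M p : ℕ) [NeZero M] [NeZero p] [NeZero (M * p)]

theorem heckeFunBar_eq_heckeFunK : heckeFunBar M p = heckeFunK Ω M p := rfl

theorem heckeFunBar_ne_zero {f : ↥(modularFunctionFieldBar M)} (hf : f ≠ 0) :
    heckeFunBar M p f ≠ 0 := by
  have hfin : FiniteAlong Ω (heckeAlphaBar Ω M p) := finiteAlong_heckeAlphaBar M p
  letI := algebraAlong (heckeAlphaBar Ω M p)
  haveI : Module.Finite ↥(modularFunctionFieldBar M) ↥(modularFunctionFieldBar (M * p)) := hfin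
  exact Algebra.norm_ne_zero_iff.mpr ((map_ne_zero _).2 hf)

theorem heckeFunBar_iterate_ne_zero {f : ↥(modularFunctionFieldBar M)} (hf : f ≠ 0) (j : ℕ) :
    (heckeFunBar M p)^[j] f ≠ 0 := by
  induction j with
  | zero => exact hf
  | succ j ih =>
    rw [Function.iterate_succ_apply']
    exact heckeFunBar_ne_zero M p ih

set_option maxHeartbeats 6400000 in
/-- **[BASEP], old case, depth filtration: from the base statement to the Kummer form over `Ω`.** -/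
theorem oldKummerAt_of_base (hB : LegOldBaseP) (hp : p.Prime) (hp2 : p ≠ 2) (hpM : ¬ p ∣ M)
    (A : ValuationSubring Ω) (hA : A.LiesOverPrime p) : OldKummerAt M p A := by
  classical
  rintro f hf ⟨k₀, c, l, hc, hl, hfl⟩
  -- monic normalisation over `Ω`
  have hfL : ((f : ↥(modularFunctionFieldBar M)) : LaurentSeries Ω) ≠ 0 := fun h0 =>
    hf (Subtype.ext h0)
  set c₀ : Ω := (((f : ↥(modularFunctionFieldBar M)) : LaurentSeries Ω).leadingCoeff)⁻¹
    with hc₀def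
  have hc₀ : c₀ ≠ 0 := inv_ne_zero (HahnSeries.leadingCoeff_ne_zero.2 hfL)
  set f' : ↥(modularFunctionFieldBar M) :=
    algebraMap Ω ↥(modularFunctionFieldBar M) c₀ * f with hf'def
  have hf'0 : f' ≠ 0 := mul_ne_zero ((map_ne_zero _).2 hc₀) hf
  -- the Galois base
  haveI : Fact p.Prime := ⟨hp⟩
  haveI : NeZero ((p : ℕ) : Ω) := ⟨by exact_mod_cast hp.ne_zero⟩
  obtain ⟨ζ, hζ⟩ : ∃ ζ : Ω, IsPrimitiveRoot ζ p := HasEnoughRootsOfUnity.exists_primitiveRoot Ω p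
  obtain ⟨K₁, hK₁, -, htK, hdesc, -⟩ :=
    (isBase_flatBase (ℓ := p)).exists_ge_isGalBase_legE M ({ζ} : Finset Ω)
      (f := fun i : Option (Fin l.length) => i.elim
        ((f' : ↥(modularFunctionFieldBar M)) : LaurentSeries Ω)
        (fun j => (((l.get j).2 : ↥(modularFunctionFieldBar M)) : LaurentSeries Ω)))
      (fun i => by cases i; exacts [f'.2, (l.get _).2.2]) ∅
  haveI := hK₁.normal
  obtain ⟨f₁, hf₁mem, hf₁⟩ := hdesc none
  simp only [Option.elim_none] at hf₁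
  set F₁ : ↥(keyFq ↥K₁ M) := ⟨f₁, hf₁mem⟩ with hF₁def
  have hBC0 : keyFqBC M K₁ F₁ = f' := Subtype.ext hf₁
  have hF₁0 : F₁ ≠ 0 := by
    intro h0
    apply hf'0
    rw [← hBC0, h0, map_zero]
  -- the primitive root
  have hζK : ∃ ζ₁ : ↥K₁, IsPrimitiveRoot ζ₁ p := by
    refine ⟨⟨ζ, htK ζ (Finset.mem_singleton_self _)⟩, ?_⟩
    exact IsPrimitiveRoot.of_map_of_injective (f := algebraMap ↥K₁ Ω) hζ (algebraMap ↥K₁ Ω).injective
  -- the splitting over `K₁`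
  have hdescl : ∀ x ∈ l, ∃ y : ↥(keyFq ↥K₁ M), keyFqBC M K₁ y = x.2 := by
    intro x hx
    obtain ⟨j, rfl⟩ := List.mem_iff_get.1 hx
    obtain ⟨h₁, hmem, hh⟩ := hdesc (some j)
    exact ⟨⟨h₁, hmem⟩, Subtype.ext hh⟩
  obtain ⟨l₁, hl₁⟩ := exists_list_map_eq (keyFqBC M K₁) l hdescl
  set ι₁ : GQ →* SemilinearAut ↥K₁ ↥(keyFq ↥K₁ M) :=
    (keyFqGalois ↥K₁ M).comp (resGal K₁) with hι₁
  have hcob : keyFqBC M K₁ (cobProd ι₁ l₁) =
      cobProd (arithmeticGalois (modularFunctionFieldFull M)) l := by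
    rw [map_cobProd ι₁ (keyFqGalois Ω M) (keyFqBC M K₁)
      (fun τ x => keyFqBC_keyFqGalois_smul M K₁ τ x) l₁, hl₁]
    rfl
  have hl₁' : IsCobList ((A.inertiaSubgroupIn ℚ : Subgroup GQ) : Set GQ) l₁ :=
    IsCobList.of_map_hom (keyFqBC M K₁) (by rw [hl₁]; exact hl)
  have hcob0 : cobProd ι₁ l₁ ≠ 0 := cobProd_ne_zero ι₁ hl₁'
  obtain ⟨c₁, hc₁, hX⟩ := exists_const_of_keyFqBC_eq_algebraMap M K₁
    (F₁ ^ p ^ k₀ / cobProd ι₁ l₁) (c₀ ^ p ^ k₀ * c) (by
      rw [map_div₀, map_pow, hBC0, hcob, hf'def, mul_pow, hfl, ← map_pow, map_mul]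
      have h0 : cobProd (arithmeticGalois (modularFunctionFieldFull M)) l ≠ 0 := by
        rw [← hcob]
        exact (map_ne_zero _).2 hcob0
      field_simp)
  have hc₁0 : c₁ ≠ 0 := by
    rintro rfl
    rw [map_zero] at hc₁
    exact mul_ne_zero (pow_ne_zero _ hc₀) hc hc₁.symm
  have hsplit₁ : F₁ ^ p ^ k₀ = algebraMap ↥K₁ ↥(keyFq ↥K₁ M) c₁ * cobProd ι₁ l₁ := by
    rw [← hX, div_mul_cancel₀ _ hcob0]
  -- the splitting on the host
  have hsplit : IsInertiaSplit A K₁ M p (fullToLegE ↥K₁ M F₁) := by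
    obtain ⟨u, hu, hu'⟩ := cobProd_mem_legInertiaCob A K₁ M
      (l₁.map fun x => (x.1, (fullToLegE ↥K₁ M).toRingHom x.2))
      (IsCobList.map_hom hl₁' (fullToLegE ↥K₁ M).toRingHom)
    refine ⟨k₀, c₁, u, hc₁0, hu, ?_⟩
    rw [hu', ← map_cobProd ι₁ ((legGalois ↥K₁ M).comp (resGal K₁))
      (fullToLegE ↥K₁ M).toRingHom
      (fun τ x => fullToLegE_keyFqGalois_smul M (resGal K₁ τ) x) l₁]
    have h3 := congrArg (fullToLegE ↥K₁ M) hsplit₁
    rw [map_pow, map_mul, AlgHom.commutes] at h3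
    exact h3
  -- the base statement
  obtain ⟨k, hk⟩ := hB M p hp hp2 hpM A hA K₁ hK₁ hζK
  refine ⟨k, fun hord σ hσ a ha => ?_⟩
  -- the iterates of `T_p`
  have hiter : ∀ j : ℕ, (legHeckeP ↥K₁ M p hp hp2)^[j] (fullToLegE ↥K₁ M F₁) =
      fullToLegE ↥K₁ M ((heckeFunK ↥K₁ M p)^[j] F₁) := fun j =>
    legHeckeP_iterate_fullToLegE_of_isBase M p hp hp2 hpM A hA K₁ hK₁.isBase F₁ j
  have hiterBC : ∀ j : ℕ, ∃ d : ℕ, keyFqBC M K₁ ((heckeFunK ↥K₁ M p)^[j] F₁) =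
      algebraMap Ω ↥(modularFunctionFieldBar M) (c₀ ^ d) * (heckeFunBar M p)^[j] f := by
    intro j
    obtain ⟨d, hd⟩ := exists_heckeFunK_iterate_algebraMap_mul Ω M p j
    exact ⟨d, by rw [keyFqBC_heckeFunK_iterate M p hp, hBC0, hf'def, hd]; rfl⟩
  have hTne : ∀ j : ℕ, (heckeFunBar M p)^[j] f ≠ 0 := heckeFunBar_iterate_ne_zero M p hf
  have hordK : ∀ j : ℕ, j ≤ k → ∀ P : Place ↥K₁ ↥(legE ↥K₁ M),
      (p : ℤ) ∣ P.ord ((legHeckeP ↥K₁ M p hp hp2)^[j] (fullToLegE ↥K₁ M F₁)) := by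
    intro j hj P
    rw [hiter j]
    refine dvd_ord_fullToLegE_of_keyFqBC M K₁ _ (fun v => ?_) P
    obtain ⟨d, hd⟩ := hiterBC j
    rw [hd, v.ord_mul ((map_ne_zero _).2 (pow_ne_zero _ hc₀)) (hTne j),
      place_ord_algebraMap_eq_zero v (pow_ne_zero _ hc₀), zero_add]
    exact hord j hj v
  obtain ⟨c', u, hc', hu⟩ := hk (fullToLegE ↥K₁ M F₁) ((map_ne_zero _).2 hF₁0) hordK hsplit
    σ hσ a ha
  -- back to `Ω`
  obtain ⟨d, hd⟩ := hiterBC k
  set g : ↥(modularFunctionFieldBar M) := (heckeFunBar M p)^[k] f with hgdef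
  have hg0 : g ≠ 0 := hTne k
  rw [hiter k] at hu
  have h1 := congrArg (legBC M K₁) hu
  rw [map_div₀, legBC_legGalois_smul, map_pow, map_mul, map_pow, legBC_algebraMap,
    bcdeg_legBC_fullToLegE, hd, map_mul, AlgHom.commutes, smul_mul',
    SemilinearAut.smul_algebraMap] at h1
  set X : ↥(legE Ω M) := fullToLegE Ω M g with hXdef
  have hX0 : X ≠ 0 := (map_ne_zero _).2 hg0
  set e : Ω := SemilinearAut.baseAut (legGalois Ω M σ) (c₀ ^ d) with he
  have hcd0 : c₀ ^ d ≠ 0 := pow_ne_zero _ hc₀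
  have he0 : e ≠ 0 := (map_ne_zero _).2 hcd0
  have hsX0 : legGalois Ω M σ • X ≠ 0 := by simpa using hX0
  have hG0 : fullToLegE ↥K₁ M ((heckeFunK ↥K₁ M p)^[k] F₁) ≠ 0 := by
    intro h0
    have h2 := congrArg (legBC M K₁) h0
    rw [bcdeg_legBC_fullToLegE, hd, map_zero] at h2
    exact mul_ne_zero ((map_ne_zero _).2 hcd0) hg0 ((map_eq_zero _).1 h2)
  have hu0 : u ≠ 0 := by
    rintro rfl
    rw [zero_pow hp.ne_zero, mul_zero] at hu
    have h2 : legGalois ↥K₁ M (resGal K₁ σ) •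
        fullToLegE ↥K₁ M ((heckeFunK ↥K₁ M p)^[k] F₁) ≠ 0 := by
      simpa using hG0
    exact div_ne_zero h2 (pow_ne_zero _ hG0) hu
  refine ⟨algebraMap ↥K₁ Ω c' * (c₀ ^ d) ^ a / e, legBC M K₁ u,
    div_ne_zero (mul_ne_zero ((map_ne_zero _).2 hc') (pow_ne_zero _ hcd0)) he0,
    (map_ne_zero _).2 hu0, ?_⟩
  have hA0 : algebraMap Ω ↥(legE Ω M) (c₀ ^ d) ≠ 0 := (map_ne_zero _).2 hcd0
  have hD0 : algebraMap Ω ↥(legE Ω M) e ≠ 0 := (map_ne_zero _).2 he0
  rw [map_div₀, map_mul, map_pow (algebraMap Ω ↥(legE Ω M)) (c₀ ^ d) a]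
  have h2 : algebraMap Ω ↥(legE Ω M) (algebraMap ↥K₁ Ω c') *
      algebraMap Ω ↥(legE Ω M) (c₀ ^ d) ^ a / algebraMap Ω ↥(legE Ω M) e *
      legBC M K₁ u ^ p =
      (algebraMap Ω ↥(legE Ω M) (algebraMap ↥K₁ Ω c') * legBC M K₁ u ^ p) *
      algebraMap Ω ↥(legE Ω M) (c₀ ^ d) ^ a / algebraMap Ω ↥(legE Ω M) e := by ring
  rw [h2, ← h1, mul_pow]
  have hXa : X ^ a ≠ 0 := pow_ne_zero _ hX0
  have hQa : algebraMap Ω ↥(legE Ω M) (c₀ ^ d) ^ a ≠ 0 := pow_ne_zero _ hA0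
  field_simp

end Main

end Fermat.Agent.NP
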