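/-
NP33 (S33) — helper5 — package **[BRIDGE]**, part 2: **the `DepthBase` of a chart model.**

`R` a discrete valuation ring with uniformizer `π`, `K₁ = Frac R ⊂ F`, `p = ε π ^ e₁`, and the residue
field of `R` algebraically closed in the elementary form `ResAlgClosed π` (every monic non-constant
polynomial over `R` has a root modulo `π`): `chartDepthBase : DepthBase F p` with
`K₁ = (algebraMap K₁ F).fieldRange`, `R₁ = (algebraMap R F).range`, `π = algebraMap R F π`.

`ResAlgClosed.exists_prod`: a monic polynomial splits modulo `π`.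
-/
import Fermat.Agent.NP.BRIDGE_helper5_Loc

set_option autoImplicit false
set_option linter.unusedSectionVars false

namespace Fermat.Agent.NP

open Polynomial

/-- the residue field `R / π` is algebraically closed (elementary form). -/
def ResAlgClosed {R : Type*} [CommRing R] (π : R) : Prop :=
  ∀ P : R[X], P.Monic → 0 < P.natDegree → ∃ b : R, π ∣ P.eval b

/-- a monic polynomial splits modulo `π`. -/
theorem ResAlgClosed.exists_prod {R : Type*} [CommRing R] [Nontrivial R] {π : R}
    (h : ResAlgClosed π) :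
    ∀ (n : ℕ) (P : R[X]), P.Monic → P.natDegree = n →
      ∃ (b : Fin n → R) (Q : R[X]), P = ∏ i, (X - C (b i)) + C π * Q := by
  intro n
  induction n with
  | zero =>
    intro P hP hdeg
    refine ⟨fun i => i.elim0, 0, ?_⟩
    rw [Finset.univ_eq_empty, Finset.prod_empty, mul_zero, add_zero]
    exact (Polynomial.Monic.natDegree_eq_zero hP).1 hdeg
  | succ n ih =>
    intro P hP hdeg
    obtain ⟨b₀, w, hw⟩ := h P hP (by omega)
    -- `P = (X - b₀) P₁ + P(b₀)`
    set P₁ : R[X] := P /ₘ (X - C b₀) with hP₁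
    have hdiv : P = (X - C b₀) * P₁ + C (P.eval b₀) := by
      have := Polynomial.modByMonic_add_div P (X - C b₀)
      rw [Polynomial.modByMonic_X_sub_C_eq_C_eval] at this
      rw [hP₁, add_comm]
      exact this.symm
    have hP₁m : P₁.Monic := by
      have h1 : ((X - C b₀) * P₁).Monic := by
        have h2 : (X - C b₀) * P₁ = P - C (P.eval b₀) := by
          rw [eq_sub_iff_add_eq]; exact hdiv.symm
        rw [h2]
        apply Polynomial.Monic.sub_of_left hP
        refine lt_of_le_of_lt degree_C_le ?_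
        rw [Polynomial.degree_eq_natDegree hP.ne_zero, hdeg]
        exact_mod_cast Nat.succ_pos n
      exact Polynomial.Monic.of_mul_monic_left (monic_X_sub_C b₀) h1
    have hP₁d : P₁.natDegree = n := by
      rw [hP₁, Polynomial.natDegree_divByMonic P (monic_X_sub_C b₀), hdeg, natDegree_X_sub_C]
      rfl
    obtain ⟨b, Q, hQ⟩ := ih P₁ hP₁m hP₁d
    refine ⟨Fin.cons b₀ b, (X - C b₀) * Q + C w, ?_⟩
    rw [Fin.prod_univ_succ]
    simp only [Fin.cons_zero, Fin.cons_succ]
    rw [hdiv, hQ, hw, C_mul]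
    ring

section Base

variable {R : Type*} [CommRing R] [IsDomain R] [IsDiscreteValuationRing R]
  (K₁ : Type*) [Field K₁] [Algebra R K₁] [IsFractionRing R K₁]
  (F : Type*) [Field F] [Algebra K₁ F] [Algebra R F] [IsScalarTower R K₁ F]

include K₁ in
theorem algebraMap_injective_base : Function.Injective (algebraMap R F) := by
  rw [IsScalarTower.algebraMap_eq R K₁ F]
  exact (algebraMap K₁ F).injective.comp (IsFractionRing.injective R K₁)

/-- every nonzero constant is `π ^ n` times a unit of `R`. -/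
theorem exists_zpow_mul_unit_base {π : R} (hπ : Irreducible π) {x : K₁} (hx : x ≠ 0) :
    ∃ (n : ℤ) (u : Rˣ), x = algebraMap R K₁ π ^ n * algebraMap R K₁ u := by
  obtain ⟨r, s, hs, rfl⟩ := IsFractionRing.div_surjective (A := R) x
  have hs0 : s ≠ 0 := nonZeroDivisors.ne_zero hs
  have hr0 : r ≠ 0 := by
    rintro rfl
    simp at hx
  obtain ⟨i, u, hu⟩ := IsDiscreteValuationRing.eq_unit_mul_pow_irreducible hr0 hπ
  obtain ⟨j, v, hv⟩ := IsDiscreteValuationRing.eq_unit_mul_pow_irreducible hs0 hπ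
  have hinj := IsFractionRing.injective R K₁
  have hπK : algebraMap R K₁ π ≠ 0 := (map_ne_zero_iff _ hinj).2 hπ.ne_zero
  have hvK : algebraMap R K₁ (v : R) ≠ 0 := (map_ne_zero_iff _ hinj).2 v.ne_zero
  refine ⟨(i : ℤ) - j, u * v⁻¹, ?_⟩
  rw [hu, hv, zpow_sub₀ hπK, zpow_natCast, zpow_natCast, Units.val_mul, map_mul, map_mul, map_mul,
    map_pow, map_pow]
  have hvinv : algebraMap R K₁ ((v⁻¹ : Rˣ) : R) = (algebraMap R K₁ (v : R))⁻¹ := by
    apply eq_inv_of_mul_eq_one_left
    rw [← map_mul, Units.inv_mul, map_one]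
  rw [hvinv]
  have hπj : algebraMap R K₁ π ^ j ≠ 0 := pow_ne_zero _ hπK
  field_simp

variable {K₁ F}

/-- **the `DepthBase` of a chart model.** -/
noncomputable def chartDepthBase {π : R} (hπ : Irreducible π) {p : ℕ} (hp : p.Prime) {e₁ : ℕ}
    (he₁ : 0 < e₁) {ε : Rˣ} (hpe : (p : R) = ε * π ^ e₁) (hAC : ResAlgClosed π) :
    DepthBase F p where
  K₁ := (algebraMap K₁ F).fieldRange
  R₁ := (algebraMap R F).range
  R₁_le := by
    rintro _ ⟨r, rfl⟩
    exact ⟨algebraMap R K₁ r, (IsScalarTower.algebraMap_apply R K₁ F r).symm⟩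
  π := algebraMap R F π
  π_mem := ⟨π, rfl⟩
  π_ne_zero := (map_ne_zero_iff _ (algebraMap_injective_base K₁ F)).2 hπ.ne_zero
  π_inv_notMem := by
    rintro ⟨r, hr⟩
    apply hπ.not_isUnit
    refine IsUnit.of_mul_eq_one r (algebraMap_injective_base K₁ F ?_)
    rw [map_mul, hr, map_one]
    exact mul_inv_cancel₀ ((map_ne_zero_iff _ (algebraMap_injective_base K₁ F)).2 hπ.ne_zero)
  unif_const := by
    rintro _ ⟨x, rfl⟩ hx0
    have hx : x ≠ 0 := by
      rintro rfl
      exact hx0 (map_zero _)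
    obtain ⟨n, u, hu⟩ := exists_zpow_mul_unit_base K₁ hπ hx
    refine ⟨n, algebraMap R F u, ⟨u, rfl⟩, ⟨((u⁻¹ : Rˣ) : R), ?_⟩, ?_⟩
    · apply eq_inv_of_mul_eq_one_left
      rw [← map_mul, Units.inv_mul, map_one]
    · rw [hu, map_mul, map_zpow₀, ← IsScalarTower.algebraMap_apply,
        ← IsScalarTower.algebraMap_apply]
  e₁ := e₁
  e₁_pos := he₁
  ε := algebraMap R F ε
  ε_mem := ⟨ε, rfl⟩
  ε_inv_mem := by
    refine ⟨((ε⁻¹ : Rˣ) : R), ?_⟩
    apply eq_inv_of_mul_eq_one_left
    rw [← map_mul, Units.inv_mul, map_one]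
  ε_ne_zero := (map_ne_zero_iff _ (algebraMap_injective_base K₁ F)).2 ε.ne_zero
  p_eq := by
    have := congrArg (algebraMap R F) hpe
    rw [map_natCast, map_mul, map_pow] at this
    exact this
  asclosed := by
    rintro _ ⟨a, rfl⟩ _ ⟨θ, rfl⟩
    have hm : (X ^ p + C θ * X - C a : R[X]).Monic := by
      have h1 : (X ^ p + C θ * X - C a : R[X]) = X ^ p + (C θ * X - C a) := by ring
      rw [h1]
      apply Polynomial.monic_X_pow_add
      refine lt_of_le_of_lt (degree_sub_le _ _) ?_
      refine max_lt (lt_of_le_of_lt (degree_C_mul_X_le θ) ?_) (lt_of_le_of_lt degree_C_le ?_)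
      · exact_mod_cast hp.one_lt
      · exact_mod_cast hp.pos
    have hd : (X ^ p + C θ * X - C a : R[X]).natDegree = p := by
      have h1 : (X ^ p + C θ * X - C a : R[X]) = X ^ p + (C θ * X - C a) := by ring
      rw [h1]
      rw [Polynomial.natDegree_add_eq_left_of_degree_lt, natDegree_X_pow]
      rw [degree_X_pow]
      refine lt_of_le_of_lt (degree_sub_le _ _) ?_
      refine max_lt (lt_of_le_of_lt (degree_C_mul_X_le θ) ?_) (lt_of_le_of_lt degree_C_le ?_)
      · exact_mod_cast hp.one_lt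
      · exact_mod_cast hp.pos
    obtain ⟨b, w, hw⟩ := hAC _ hm (by rw [hd]; exact hp.pos)
    refine ⟨algebraMap R F b, ⟨b, rfl⟩, algebraMap R F w, ⟨w, rfl⟩, ?_⟩
    simp only [eval_sub, eval_add, eval_pow, eval_X, eval_mul, eval_C] at hw
    have := congrArg (algebraMap R F) hw
    simp only [map_sub, map_add, map_pow, map_mul] at this
    rw [pow_one]
    exact this

section Simp

variable {π : R} (hπ : Irreducible π) {p : ℕ} (hp : p.Prime) {e₁ : ℕ}
    (he₁ : 0 < e₁) {ε : Rˣ} (hpe : (p : R) = ε * π ^ e₁) (hAC : ResAlgClosed π)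

@[simp] theorem chartDepthBase_π :
    (chartDepthBase (K₁ := K₁) (F := F) hπ hp he₁ hpe hAC).π = algebraMap R F π := rfl

@[simp] theorem chartDepthBase_R₁ :
    (chartDepthBase (K₁ := K₁) (F := F) hπ hp he₁ hpe hAC).R₁ = (algebraMap R F).range := rfl

@[simp] theorem chartDepthBase_K₁ :
    (chartDepthBase (K₁ := K₁) (F := F) hπ hp he₁ hpe hAC).K₁ = (algebraMap K₁ F).fieldRange := rfl

@[simp] theorem chartDepthBase_e₁ :
    (chartDepthBase (K₁ := K₁) (F := F) hπ hp he₁ hpe hAC).e₁ = e₁ := rfl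

@[simp] theorem chartDepthBase_ε :
    (chartDepthBase (K₁ := K₁) (F := F) hπ hp he₁ hpe hAC).ε = algebraMap R F ε := rfl

end Simp

end Base

end Fermat.Agent.NP
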