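/-
NP33 (S33) — helper2 — **[ALG33]: ordinarity from inertia-invariant functionals at the points.**

`ρ : GaloisRepAdic T` over a local ring `T`, residually ordinary at `p`, such that at every place
`P ∣ p` some inertia element acts non-trivially on the residual representation, and such that for
every `t ≠ 0` of `T` there is a "point" `ψ : T →+* B` (`B` a domain) with `ψ t ≠ 0` and a non-zero
`ψ`-semilinear functional `φ : V →+ B` invariant under the inertia group `I_P`.  Then `ρ` is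
ordinary at `p`.

Proof: `V' := ∑_{σ ∈ I_P} (σ - 1) V`.  Residually `V'` maps onto the ordinary line (it is contained
in it by `hres` and non-zero by `hdet`), so by Nakayama `V = V' + T v₁`; the functionals kill `V'`,
hence `t v₁ ∈ V'` forces `t = 0`.  So `V' = T v₀` for a basis `(v₀, v₁)`; `V'` is stable under the
decomposition group because `I_P` is normal in it.
-/
import Mathlib
import Fermat.Prelude.Def_GaloisRep_LocalConditions
import Fermat.Prelude.Def_FLTPrelim_Ramification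

set_option autoImplicit false
set_option linter.unusedSectionVars false
set_option linter.unusedVariables false
set_option linter.style.haveILetI false

open IsLocalRing TensorProduct

namespace Fermat.Agent.NP

/-- `Ω = AlgebraicClosure ℚ`. -/
local notation "Ω" => AlgebraicClosure ℚ

/-- the absolute Galois group. -/
local notation "GQ" => (AlgebraicClosure ℚ ≃ₐ[ℚ] AlgebraicClosure ℚ)

/-- the inertia group is normal in the decomposition group. -/
theorem conj_mem_inertiaSubgroupIn_of_mem_decomposition {A : ValuationSubring Ω} {τ σ : GQ}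
    (hτ : τ ∈ A.decompositionSubgroup ℚ) (hσ : σ ∈ A.inertiaSubgroupIn ℚ) :
    τ * σ * τ⁻¹ ∈ A.inertiaSubgroupIn ℚ := by
  obtain ⟨σ', hσ', rfl⟩ := hσ
  refine ⟨⟨τ, hτ⟩ * σ' * ⟨τ, hτ⟩⁻¹, ?_, rfl⟩
  have hn : (A.inertiaSubgroup ℚ).Normal := by
    unfold ValuationSubring.inertiaSubgroup
    infer_instance
  exact hn.conj_mem σ' hσ' ⟨τ, hτ⟩

section Alg

variable {T : Type} [CommRing T] [IsLocalRing T] (ρ : GaloisRepAdic T)

/-- the submodule `∑_{σ ∈ I} (σ - 1) V`. -/
def coinvKer (I : Subgroup GQ) : Submodule T ρ.V :=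
  Submodule.span T {w | ∃ σ ∈ I, ∃ v : ρ.V, w = ρ.ρ σ v - v}

theorem sub_mem_coinvKer {I : Subgroup GQ} {σ : GQ} (hσ : σ ∈ I) (v : ρ.V) :
    ρ.ρ σ v - v ∈ coinvKer ρ I :=
  Submodule.subset_span ⟨σ, hσ, v, rfl⟩

/-- `∑_{σ ∈ I} (σ - 1) V` is stable under every `τ` normalising `I`. -/
theorem map_mem_coinvKer {I : Subgroup GQ} {τ : GQ} (hτ : ∀ σ ∈ I, τ * σ * τ⁻¹ ∈ I)
    {w : ρ.V} (hw : w ∈ coinvKer ρ I) : ρ.ρ τ w ∈ coinvKer ρ I := by
  unfold coinvKer at hw
  induction hw using Submodule.span_induction with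
  | mem x hx =>
    obtain ⟨σ, hσ, v, rfl⟩ := hx
    have h1 : ρ.ρ τ (ρ.ρ σ v - v) = ρ.ρ (τ * σ * τ⁻¹) (ρ.ρ τ v) - ρ.ρ τ v := by
      rw [map_sub]
      congr 1
      rw [← Module.End.mul_apply, ← Module.End.mul_apply, ← map_mul, ← map_mul]
      congr 2
      group
    rw [h1]
    exact sub_mem_coinvKer ρ (hτ σ hσ) _
  | zero => rw [map_zero]; exact Submodule.zero_mem _
  | add x y _ _ hx hy => rw [map_add]; exact Submodule.add_mem _ hx hy
  | smul a x _ hx => rw [map_smul]; exact Submodule.smul_mem _ a hx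

/-- a semilinear functional invariant under `I` kills `∑_{σ ∈ I} (σ - 1) V`. -/
theorem functional_eq_zero_of_mem_coinvKer {I : Subgroup GQ} {B : Type*} [CommRing B]
    (ψ : T →+* B) (φ : ρ.V →+ B) (hlin : ∀ (s : T) (v : ρ.V), φ (s • v) = ψ s * φ v)
    (hinv : ∀ σ ∈ I, ∀ v : ρ.V, φ (ρ.ρ σ v) = φ v) {w : ρ.V} (hw : w ∈ coinvKer ρ I) :
    φ w = 0 := by
  unfold coinvKer at hw
  induction hw using Submodule.span_induction with
  | mem x hx =>
    obtain ⟨σ, hσ, v, rfl⟩ := hx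
    rw [map_sub, hinv σ hσ, sub_self]
  | zero => exact map_zero φ
  | add x y _ _ hx hy => rw [map_add, hx, hy, add_zero]
  | smul a x _ hx => rw [hlin, hx, mul_zero]

/-- every element of `κ ⊗ V` is of the form `1 ⊗ v`. -/
theorem exists_one_tmul_eq (z : ResidueField T ⊗[T] ρ.V) : ∃ v : ρ.V, (1 : ResidueField T) ⊗ₜ[T] v = z := by
  induction z using TensorProduct.induction_on with
  | zero => exact ⟨0, TensorProduct.tmul_zero _ _⟩
  | tmul x v =>
    obtain ⟨a, rfl⟩ := residue_surjective x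
    refine ⟨a • v, ?_⟩
    rw [TensorProduct.tmul_smul, TensorProduct.smul_tmul', Algebra.smul_def, mul_one]
    rfl
  | add x y hx hy =>
    obtain ⟨s, rfl⟩ := hx
    obtain ⟨t, rfl⟩ := hy
    exact ⟨s + t, TensorProduct.tmul_add _ _ _⟩

/-- the residual ordinarity hypothesis, in terms of `κ ⊗ V`. -/
theorem residual_ordinary_unfold (p : ℕ)
    (hres : (GaloisRepAdic.ofResidualGaloisRep ρ.residual).IsOrdinaryAt p)
    (P : ValuationSubring Ω) (hP : P.LiesOverPrime p) :
    ∃ (Lb : Submodule (ResidueField T) (ResidueField T ⊗[T] ρ.V))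
      (bb : Module.Basis (Fin 2) (ResidueField T) (ResidueField T ⊗[T] ρ.V)),
      Lb = Submodule.span (ResidueField T) {bb 0} ∧
      ∀ σ ∈ P.inertiaSubgroupIn ℚ, ∀ v : ResidueField T ⊗[T] ρ.V,
        (ρ.ρ σ).baseChange (ResidueField T) v - v ∈ Lb := by
  obtain ⟨L, ⟨b, hb⟩, -, hI⟩ := hres P hP
  exact ⟨L, b, hb, hI⟩

/-- the residual action is non-trivial, in terms of `κ ⊗ V`. -/
theorem residual_ne_one_unfold {σ : GQ} (h : ρ.residual.ρ σ ≠ 1) :
    ∃ z : ResidueField T ⊗[T] ρ.V, (ρ.ρ σ).baseChange (ResidueField T) z ≠ z := by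
  by_contra hcon
  apply h
  refine LinearMap.ext fun z => ?_
  by_contra hz
  exact hcon ⟨z, hz⟩

/-- **[ALG33]** -/
theorem isOrdinaryAt_of_functionals (p : ℕ)
    (hres : (GaloisRepAdic.ofResidualGaloisRep ρ.residual).IsOrdinaryAt p)
    (hdet : ∀ P : ValuationSubring Ω, P.LiesOverPrime p →
      ∃ σ ∈ P.inertiaSubgroupIn ℚ, ρ.residual.ρ σ ≠ 1)
    (hpts : ∀ P : ValuationSubring Ω, P.LiesOverPrime p → ∀ t : T, t ≠ 0 →
      ∃ (B : Type) (_ : CommRing B) (_ : IsDomain B) (ψ : T →+* B) (φ : ρ.V →+ B),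
        ψ t ≠ 0 ∧ (∀ (s : T) (v : ρ.V), φ (s • v) = ψ s * φ v) ∧
        (∀ σ ∈ P.inertiaSubgroupIn ℚ, ∀ v : ρ.V, φ (ρ.ρ σ v) = φ v) ∧ ∃ v : ρ.V, φ v ≠ 0) :
    ρ.IsOrdinaryAt p := by
  intro P hP
  obtain ⟨Lb, bb, hLb, hIb⟩ := residual_ordinary_unfold ρ p hres P hP
  obtain ⟨σ₀, hσ₀, hne⟩ := hdet P hP
  set I := P.inertiaSubgroupIn ℚ with hI
  set V' := coinvKer ρ I with hV'
  -- the residual action
  have hact : ∀ (σ : GQ) (v : ρ.V),
      (ρ.ρ σ).baseChange (ResidueField T) ((1 : ResidueField T) ⊗ₜ[T] v)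
      = (1 : ResidueField T) ⊗ₜ[T] (ρ.ρ σ v) := by
    intro σ v
    rw [LinearMap.baseChange_tmul]
  -- a non-zero vector `1 ⊗ w` of the ordinary line with `w ∈ V'`
  obtain ⟨z₀, hz₀⟩ := residual_ne_one_unfold ρ hne
  obtain ⟨u₀, rfl⟩ := exists_one_tmul_eq ρ z₀
  set w := ρ.ρ σ₀ u₀ - u₀ with hw
  have hwV' : w ∈ V' := sub_mem_coinvKer ρ hσ₀ u₀
  have hw0 : (1 : ResidueField T) ⊗ₜ[T] w ≠ 0 := by
    rw [hw, TensorProduct.tmul_sub, ← hact]
    exact sub_ne_zero.mpr hz₀
  have hwL : (1 : ResidueField T) ⊗ₜ[T] w ∈ Lb := by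
    have := hIb σ₀ hσ₀ ((1 : ResidueField T) ⊗ₜ[T] u₀)
    rw [hw, TensorProduct.tmul_sub, ← hact]
    exact this
  rw [hLb, Submodule.mem_span_singleton] at hwL
  obtain ⟨c, hc⟩ := hwL
  have hc0 : c ≠ 0 := by
    rintro rfl
    rw [zero_smul] at hc
    exact hw0 hc.symm
  obtain ⟨d, hd⟩ := residue_surjective c⁻¹
  -- the lifts of the basis
  set v₀ := d • w with hv₀
  have hv₀V' : v₀ ∈ V' := Submodule.smul_mem _ d hwV'
  have hb0 : (1 : ResidueField T) ⊗ₜ[T] v₀ = bb 0 := by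
    rw [hv₀, TensorProduct.tmul_smul, TensorProduct.smul_tmul', Algebra.smul_def, mul_one]
    have h1 : (algebraMap T (ResidueField T) d) ⊗ₜ[T] w
        = (residue T d) • ((1 : ResidueField T) ⊗ₜ[T] w) := by
      rw [TensorProduct.smul_tmul', smul_eq_mul, mul_one]
      rfl
    rw [h1, hd, ← hc, smul_smul, inv_mul_cancel₀ hc0, one_smul]
  obtain ⟨v₁, hb1⟩ := exists_one_tmul_eq ρ (bb 1)
  -- `(v₀, v₁)` is a basis of `V`
  have hspan : Submodule.span T (Set.range ![v₀, v₁]) = ⊤ := by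
    apply IsLocalRing.span_eq_top_of_tmul_eq_basis ![v₀, v₁] bb
    intro i
    fin_cases i
    · exact hb0
    · exact hb1
  have hcard : Fintype.card (Fin 2) = Module.finrank T ρ.V := by
    rw [ρ.finrank_eq, Fintype.card_fin]
  let b : Module.Basis (Fin 2) T ρ.V :=
    basisOfTopLeSpanOfCardEqFinrank ![v₀, v₁] (le_of_eq hspan.symm) hcard
  have hb : ⇑b = ![v₀, v₁] := coe_basisOfTopLeSpanOfCardEqFinrank _ _ _
  have hbv0 : b 0 = v₀ := by rw [hb]; rfl
  have hbv1 : b 1 = v₁ := by rw [hb]; rfl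
  -- `V' = T ∙ v₀`
  have hdecomp : ∀ v : ρ.V, v = b.repr v 0 • v₀ + b.repr v 1 • v₁ := by
    intro v
    conv_lhs => rw [← b.sum_repr v]
    rw [Fin.sum_univ_two, hbv0, hbv1]
  have hV'eq : V' = Submodule.span T {b 0} := by
    apply le_antisymm
    · intro x hx
      have hx' := hdecomp x
      set s := b.repr x 0
      set t := b.repr x 1
      have ht : t = 0 := by
        by_contra ht0
        obtain ⟨B, iB, iD, ψ, φ, hψt, hlin, hinv, v, hφv⟩ := hpts P hP t ht0
        have h1 : t • v₁ ∈ V' := by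
          have : t • v₁ = x - s • v₀ := by rw [hx']; abel
          rw [this]
          exact Submodule.sub_mem _ hx (Submodule.smul_mem _ s hv₀V')
        have h2 := functional_eq_zero_of_mem_coinvKer ρ ψ φ hlin hinv h1
        rw [hlin] at h2
        have h3 : φ v₁ = 0 := by
          rcases mul_eq_zero.mp h2 with h | h
          · exact absurd h hψt
          · exact h
        have h4 : φ v₀ = 0 := functional_eq_zero_of_mem_coinvKer ρ ψ φ hlin hinv hv₀V'
        apply hφv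
        have h5 : φ v = ψ (b.repr v 0) * φ v₀ + ψ (b.repr v 1) * φ v₁ := by
          conv_lhs => rw [hdecomp v]
          rw [map_add, hlin (b.repr v 0) v₀, hlin (b.repr v 1) v₁]
        rw [h5, h3, h4, mul_zero, mul_zero, add_zero]
      rw [hx', ht, zero_smul, add_zero, hbv0]
      exact Submodule.smul_mem _ s (Submodule.mem_span_singleton_self v₀)
    · rw [Submodule.span_singleton_le_iff_mem, hbv0]
      exact hv₀V'
  refine ⟨V', ⟨b, hV'eq⟩, ?_, ?_⟩
  · intro τ hτ v hv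
    exact map_mem_coinvKer ρ
      (fun σ hσ => conj_mem_inertiaSubgroupIn_of_mem_decomposition hτ hσ) hv
  · intro σ hσ v
    exact sub_mem_coinvKer ρ hσ v

end Alg

end Fermat.Agent.NP
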