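/-
NP33 (S33) — helper2 — **[BASEP], part 9: from the base statement `LegOldTopBaseP` to the Kummer
form `OldTopKummerAt` over `Ω`** (top depth of (KEY-OLD)), and `KeyOldStatement`.

Chain: `f ∈ F_Ω(M)` monic, fixed by `I' = {τ ∈ I_A | τ ζ_p = ζ_p}`; it is defined over a base
`K' ∋ ζ_p` stable under `I_A` and fixed by `I'`, so that `ζ_p - 1` is a uniformizer of `A ∩ K'` and
`σ₁` restricts to an automorphism `s` of `K'` of inertia type; the two Kummer hypotheses descend to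
`K'` (descent of `p`-th roots); `LegOldTopBaseP` at `K'`; back to `Ω` with `legBC`.
-/
import Mathlib
import Fermat.Agent.NP.BASEP_helper2_OldDesc
import Fermat.Agent.NP.BASEP_helper2_TopField
import Fermat.Agent.S36.T3_helper2_Root

set_option autoImplicit false
set_option linter.unusedSectionVars false
set_option linter.unusedVariables false
set_option linter.style.haveILetI false
set_option synthInstance.maxHeartbeats 400000

open HahnSeries IntermediateField AlgebraicCurve ModularCurve IsLocalRing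

namespace Fermat.Agent.NP

open Fermat.Agent.JA Fermat.Agent.FF Fermat.Agent.SS Fermat.Agent.X0N Fermat.Agent.S35
  Fermat.Agent.S36

/-- `Ω = AlgebraicClosure ℚ`. -/
local notation "Ω" => AlgebraicClosure ℚ

/-- the absolute Galois group. -/
local notation "GQ" => (AlgebraicClosure ℚ ≃ₐ[ℚ] AlgebraicClosure ℚ)

section Compat

variable (N : ℕ) [NeZero N] (K' : IntermediateField ℚ Ω)

/-- the coefficientwise actions of `s ∈ Aut(K')` and `σ ∈ G_ℚ` on the level fields are compatible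
as soon as `σ` restricts to `s`. -/
theorem keyFqBC_keyFqGalois_smul_of_restrict (s : ↥K' ≃ₐ[ℚ] ↥K') (σ : GQ)
    (hs : ∀ a : ↥K', algebraMap ↥K' Ω (s a) = σ (algebraMap ↥K' Ω a)) (x : ↥(keyFq ↥K' N)) :
    keyFqBC N K' (keyFqGalois ↥K' N s • x) = keyFqGalois Ω N σ • keyFqBC N K' x :=
  coeffHom_coeffGalois_smul (algebraMap ↥K' Ω) (coeffStable_keyFq ↥K' N) (coeffStable_keyFq Ω N) _
    hs x

end Compat

section Main

variable (M p : ℕ) [NeZero M] [NeZero p] [NeZero (M * p)]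

set_option maxHeartbeats 6400000 in
/-- **[BASEP], old case, top depth: from the base statement to the Kummer form over `Ω`.** -/
theorem oldTopKummerAt_of_base (hB : LegOldTopBaseP) (hp : p.Prime) (hp2 : p ≠ 2) (hpM : ¬ p ∣ M)
    (A : ValuationSubring Ω) (hA : A.LiesOverPrime p) : OldTopKummerAt M p A := by
  classical
  intro σ₁ hσ₁ a₁ ha₁ ha₁1 f hf hlc hfinv hdiv hKσ hKT
  obtain ⟨cσ, hσh, hcσ, hhσ, hrelσ⟩ := hKσ
  obtain ⟨cT, hTh, hcT, hhT, hrelT⟩ := hKT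
  haveI : Fact p.Prime := ⟨hp⟩
  haveI : NeZero ((p : ℕ) : Ω) := ⟨by exact_mod_cast hp.ne_zero⟩
  obtain ⟨ζ, hζ⟩ : ∃ ζ : Ω, IsPrimitiveRoot ζ p := HasEnoughRootsOfUnity.exists_primitiveRoot Ω p
  -- `f` is fixed by `I'`
  have hcyc1 : ∀ τ : GQ, τ ζ = ζ → CycAct p τ 1 := by
    intro τ hτ μ hμ
    obtain ⟨i, -, rfl⟩ := hζ.eq_pow_of_pow_eq_one hμ
    rw [map_pow, hτ, pow_one]
  have hfix : ∀ τ ∈ ((cycStab A ζ : Subgroup GQ) : Set GQ),
      coeffMap ((τ : GQ) : Ω →+* Ω) ((f : ↥(modularFunctionFieldBar M)) : LaurentSeries Ω) =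
        ((f : ↥(modularFunctionFieldBar M)) : LaurentSeries Ω) := by
    intro τ hτ
    have h1 := hfinv τ hτ.1 (hcyc1 τ hτ.2)
    exact congrArg Subtype.val h1
  -- the base
  obtain ⟨s₀, hs₀fix, hs₀desc⟩ := exists_descent_finset_of_fixed hA (modularFunctionFieldFull M)
    f.2 ((cycStab A ζ : Subgroup GQ) : Set GQ) (fun τ hτ => hτ.1) hfix
  obtain ⟨K', hK', hζK', hs₀K', hstab, hK'fix⟩ := exists_inertia_stable_base hp hA hζ s₀
    (fun y hy τ hτ hτζ => hs₀fix y hy τ ⟨hτ, hτζ⟩)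
  obtain ⟨f₁, hf₁mem, hf₁⟩ := hs₀desc K' hK'.flatBase_le hs₀K'
  set F₁ : ↥(keyFq ↥K' M) := ⟨f₁, hf₁mem⟩ with hF₁def
  have hBC0 : keyFqBC M K' F₁ = f := Subtype.ext hf₁
  have hF₁0 : F₁ ≠ 0 := by
    intro h0
    apply hf
    rw [← hBC0, h0, map_zero]
  -- the uniformizer `ζ - 1`
  have hζ1 : ζ - 1 ≠ 0 := sub_ne_zero.2 (hζ.ne_one hp.one_lt)
  have hζ1K : ζ - 1 ∈ K' := sub_mem hζK' (one_mem _)
  have hvζ1 : A.valuation (ζ - 1) < 1 := by
    by_contra hge
    rw [not_lt] at hge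
    have h1 : 1 ≤ A.valuation (ζ - 1) ^ (p - 1) := one_le_pow₀ hge
    rw [Fermat.Agent.TW.valuation_sub_one_pow_eq hp hζ] at h1
    exact absurd (valuation_prime_lt_one (ℓ := p) hA) (not_lt.2 h1)
  have hval : ∀ y ∈ K', y ≠ 0 → ∃ j : ℤ, A.valuation y = A.valuation (ζ - 1) ^ j :=
    fun y hy hy0 => exists_zpow_valuation_eq_of_cycFixed hp hA hζ y hy0
      (fun τ hτ hτζ => hK'fix τ hτ hτζ y hy)
  obtain ⟨π, hπ, hπirr, -⟩ := hasUnitMulPow_baseRing (A := A) (K := K') hζ1K hζ1 hvζ1 hval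
  have hvζ : A.valuation ζ = 1 := by
    have h1 : A.valuation ζ ^ p = 1 := by rw [← map_pow, hζ.pow_eq_one, map_one]
    exact (pow_eq_one_iff.1 h1).resolve_right hp.ne_zero
  set ζR : ↥(baseRing A K') := ⟨⟨ζ, hζK'⟩, mem_baseRing_iff.2 (le_of_eq hvζ)⟩ with hζRdef
  have hζR : IsPrimitiveRoot ζR p := by
    refine IsPrimitiveRoot.of_map_of_injective
      (f := (algebraMap ↥K' Ω).comp (baseRing A K').subtype) hζ ?_
    exact (algebraMap ↥K' Ω).injective.comp Subtype.val_injective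
  have hπeq : π = ζR - 1 := Subtype.ext (Subtype.ext hπ)
  have hirr : Irreducible (ζR - 1) := hπeq ▸ hπirr
  -- the automorphism
  set s : ↥K' ≃ₐ[ℚ] ↥K' := resStable K' σ₁ (hstab σ₁ hσ₁) (hstab σ₁⁻¹ (inv_mem hσ₁)) with hsdef
  have hsK : ∀ a : ↥K', algebraMap ↥K' Ω (s a) = σ₁ (algebraMap ↥K' Ω a) := fun a => rfl
  have hinert : ∀ r : ↥(baseRing A K'), ∃ r' : ↥(baseRing A K'), s (r : ↥K') = (r' : ↥K') ∧
      r' - r ∈ maximalIdeal ↥(baseRing A K') := by
    intro r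
    have hrA : (((r : ↥K') : Ω)) ∈ A := (A.valuation_le_one_iff _).1 (valuation_coe_le_one r)
    have h1 := Fermat.Agent.Tate.inertia_map_mem_and_sub_mem hσ₁ hrA
    have hmem : s (r : ↥K') ∈ baseRing A K' := by
      rw [mem_baseRing_iff]
      exact (A.valuation_le_one_iff _).2 h1.1
    refine ⟨⟨s (r : ↥K'), hmem⟩, rfl, ?_⟩
    rw [mem_maximalIdeal_baseRing_iff]
    exact (ValuationSubring.mem_nonunits_iff A).1 h1.2
  have hsζ : s ((ζR : ↥(baseRing A K')) : ↥K') = ((ζR : ↥(baseRing A K')) : ↥K') ^ a₁ :=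
    Subtype.ext (ha₁ ζ hζ.pow_eq_one)
  -- the divisor condition
  have hord : ∀ P : Place ↥K' ↥(legE ↥K' M), (p : ℤ) ∣ P.ord (fullToLegE ↥K' M F₁) := fun P =>
    dvd_ord_fullToLegE_of_keyFqBC M K' F₁ (fun v => by rw [hBC0]; exact hdiv v) P
  -- the Kummer relation for `σ₁` over `K'`
  have hC1 : IsConstMulPow (K := ↥K') p
      (legGalois ↥K' M s • fullToLegE ↥K' M F₁ / fullToLegE ↥K' M F₁ ^ a₁) := by
    obtain ⟨c₀, h₀, hc₀, hh₀, hX⟩ := exists_base_root K' M hp.pos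
      (keyFqGalois ↥K' M s • F₁ / F₁ ^ a₁) cσ hσh hcσ hhσ (by
        rw [map_div₀, keyFqBC_keyFqGalois_smul_of_restrict M K' s σ₁ hsK, map_pow, hBC0]
        exact hrelσ)
    refine ⟨c₀, fullToLegE ↥K' M h₀, hc₀, ?_⟩
    have h3 := congrArg (fullToLegE ↥K' M) hX
    rw [map_div₀, map_pow, map_mul, map_pow, AlgHom.commutes,
      fullToLegE_keyFqGalois_smul] at h3
    exact h3
  -- the Kummer relation for `T_p` over `K'`
  have hC2 : IsConstMulPow (K := ↥K') p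
      (legHeckeP ↥K' M p hp hp2 (fullToLegE ↥K' M F₁)) := by
    obtain ⟨c₀, h₀, hc₀, hh₀, hX⟩ := exists_base_root K' M hp.pos
      (heckeFunK ↥K' M p F₁) cT hTh hcT hhT (by
        rw [keyFqBC_heckeFunK M p hp, hBC0]
        exact hrelT)
    refine ⟨c₀, fullToLegE ↥K' M h₀, hc₀, ?_⟩
    rw [legHeckeP_fullToLegE_of_isBase M p hp hp2 hpM A hA K' hK', hX, map_mul, map_pow,
      AlgHom.commutes]
  -- the base statement
  obtain ⟨c', u, hc', hu⟩ := hB M p hp hp2 hpM A hA K' hK' ζR hζR hirr s a₁ hinert hsζ ha₁1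
    (fullToLegE ↥K' M F₁) ((map_ne_zero _).2 hF₁0) hord hC1 hC2
  have hu0 : u ≠ 0 := by
    rintro rfl
    rw [zero_pow hp.ne_zero, mul_zero] at hu
    exact (map_ne_zero _).2 hF₁0 hu
  refine ⟨algebraMap ↥K' Ω c', legBC M K' u, (map_ne_zero _).2 hc', (map_ne_zero _).2 hu0, ?_⟩
  have h1 := congrArg (legBC M K') hu
  rw [bcdeg_legBC_fullToLegE, hBC0, map_mul, map_pow, legBC_algebraMap] at h1
  exact h1

end Main

/-- **[BASEP], old case: `LegOldBaseP → LegOldTopBaseP → KeyOldStatement`.** -/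
theorem keyOldStatement_of_bases (hB1 : LegOldBaseP) (hB2 : LegOldTopBaseP) : KeyOldStatement := by
  intro M p _ hp hp2 hpM A hA
  haveI : NeZero p := ⟨hp.ne_zero⟩
  haveI : NeZero (M * p) := ⟨Nat.mul_ne_zero (NeZero.ne M) (NeZero.ne p)⟩
  exact keyOldAt_of_oldKummer M p hp hp2 hpM A hA (oldKummerAt_of_base M p hB1 hp hp2 hpM A hA)
    (oldTopKummerAt_of_base M p hB2 hp hp2 hpM A hA)

end Fermat.Agent.NP
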