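/-
NP33 (S33) — helper2 — **[S33TOP], part 5: the determinant of the Hecke representation is the
cyclotomic character**, over an arbitrary Noetherian local coefficient ring `R` (not necessarily a
domain): from the characteristic polynomials `X² - a_q X + q` of the Frobenius elements outside a
finite set of primes (Frobenius density on the finite levels + closedness of the ideals `(pⁿ)`).
The version `GR.detIsCyclotomic_of_frobeniusQuadratic` needs a domain and a non-scalar element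
because it only assumes the quadratic relation.
-/
import Mathlib
import Fermat.Agent.GR.DET_lead_Main
import Fermat.Agent.GR.S34TOP_helper4
import Fermat.Prelude.Def_CuspForm_HeckeGaloisRepDatum

set_option autoImplicit false
set_option linter.unusedSectionVars false
set_option linter.unusedVariables false
set_option linter.style.haveILetI false

namespace Fermat.Agent.NP

open Polynomial IsLocalRing Fermat.Agent.GR Fermat.Agent.TW.Kill

local notation "Ω" => AlgebraicClosure ℚ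
local notation "GQ" => (AlgebraicClosure ℚ ≃ₐ[ℚ] AlgebraicClosure ℚ)

section General

variable {R : Type} [CommRing R] [IsLocalRing R] [IsNoetherianRing R]

theorem span_natPow_le_maximalIdeal_pow {p : ℕ} (hp : (p : R) ∈ maximalIdeal R) (n : ℕ) :
    Ideal.span {((p ^ n : ℕ) : R)} ≤ maximalIdeal R ^ n := by
  rw [Ideal.span_singleton_le_iff_mem, Nat.cast_pow]
  exact Ideal.pow_mem_pow hp n

/-- closedness of an ideal of a Noetherian local ring: Krull's intersection theorem for `R ⧸ I`. -/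
theorem mem_ideal_of_forall_mem_sup {I : Ideal R} {x : R} (m₀ : ℕ)
    (h : ∀ m, m₀ ≤ m → x ∈ maximalIdeal R ^ m ⊔ I) : x ∈ I := by
  have h1 : (Ideal.Quotient.mk I x : R ⧸ I) ∈
      ⨅ i, (maximalIdeal R ^ i) • (⊤ : Submodule R (R ⧸ I)) := by
    rw [Submodule.mem_iInf]
    intro i
    have hx := h (max m₀ i) (le_max_left _ _)
    obtain ⟨y, hy, z, hz, rfl⟩ := Submodule.mem_sup.1 hx
    have hy' : y ∈ maximalIdeal R ^ i := Ideal.pow_le_pow_right (le_max_right _ _) hy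
    have : (Ideal.Quotient.mk I (y + z) : R ⧸ I) = y • (1 : R ⧸ I) := by
      rw [map_add, Ideal.Quotient.eq_zero_iff_mem.2 hz, add_zero, Algebra.smul_def, mul_one]
      rfl
    rw [this]
    exact Submodule.smul_mem_smul hy' Submodule.mem_top
  rw [Ideal.iInf_pow_smul_eq_bot_of_isLocalRing _ (Ideal.IsMaximal.ne_top inferInstance)] at h1
  exact Ideal.Quotient.eq_zero_iff_mem.1 ((Submodule.mem_bot R).1 h1)

variable (ρ : GaloisRepAdic R) {p : ℕ} [Fact p.Prime] {T : Finset ℕ} {a : ℕ → R}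

/-- **density step**: `det ρ = cyc` everywhere, from the Frobenius characteristic polynomials. -/
theorem mem_detCycSubgroup_of_charpoly (hp : (p : R) ∈ maximalIdeal R) (hpT : p ∈ T)
    (hch : ∀ q : ℕ, q.Prime → q ∉ T → ∀ P : ValuationSubring Ω, P.LiesOverPrime q →
      ∀ φ : GQ, P.IsFrobeniusAt φ q →
        LinearMap.charpoly (ρ.ρ φ) = X ^ 2 - C (a q) * X + C (q : R)) (g : GQ) :
    g ∈ detCycSubgroup ρ p := by
  intro n
  refine mem_ideal_of_forall_mem_sup n fun m hnm => ?_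
  set N := levelSubgroup ρ p m with hN
  have hopen := levelSubgroup_isOpen ρ p m
  obtain ⟨q, hq, hqT, hall⟩ :=
    Fermat.Agent.Density.exists_prime_frobenius_conj_algClosure N hopen g T
  haveI : Fact q.Prime := ⟨hq⟩
  have hP₀ : (padicPlace q).LiesOverPrime q := padicPlace_liesOverPrime q
  obtain ⟨φ₀, hφ₀⟩ := exists_isFrobeniusAt (padicPlace q) hq hP₀
  obtain ⟨τ, hτ⟩ := (hall _ hP₀).2 φ₀ hφ₀
  haveI : IsGalois ℚ Ω := IsAlgClosure.isGalois ℚ Ω
  haveI : Finite (GQ ⧸ N) := Subgroup.quotient_finite_of_isOpen N hopen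
  obtain ⟨k, -, hk⟩ := Fermat.Agent.Density.exists_coprime_pow_eq_of_zpowers_eq
    (a := QuotientGroup.mk' N (τ * g * τ⁻¹)) (b := QuotientGroup.mk' N φ₀)
    (isOfFinOrder_of_finite _) hτ.symm
  rw [← map_pow] at hk
  set ν : GQ := (φ₀ ^ k)⁻¹ * (τ * g * τ⁻¹) with hν
  have hνN : ν ∈ N := by
    have := hk.symm
    rw [QuotientGroup.mk'_apply, QuotientGroup.mk'_apply, QuotientGroup.eq] at this
    exact this
  have hdecomp : τ * g * τ⁻¹ = φ₀ ^ k * ν := by rw [hν, mul_inv_cancel_left]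
  have hqp : q ≠ p := fun h => hqT (h ▸ hpT)
  have hφ₀mem : φ₀ ∈ detCycSubgroup ρ p := by
    intro n'
    have hdet : LinearMap.det (ρ.ρ φ₀) = (q : R) :=
      (trace_det_of_charpoly_eq ρ.finrank_eq (ρ.ρ φ₀) (a q) (q : R)
        (hch q hq hqT _ hP₀ φ₀ hφ₀)).2
    rw [hdet]
    exact natCast_sub_natCast_mem_span (cycVal_frobenius p n' hq hqp hP₀ hφ₀)
  have hφk : φ₀ ^ k ∈ detCycSubgroup ρ p := Subgroup.pow_mem _ hφ₀mem k
  -- the computation modulo `𝔪 ^ m`
  set J := maximalIdeal R ^ m with hJ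
  have hspanJ : Ideal.span {((p ^ m : ℕ) : R)} ≤ J := span_natPow_le_maximalIdeal_pow hp m
  set X' := LinearMap.det (ρ.ρ (φ₀ ^ k)) with hX'
  set Y' := LinearMap.det (ρ.ρ ν) with hY'
  have hD : LinearMap.det (ρ.ρ g) = X' * Y' := by
    have h1 : LinearMap.det (ρ.ρ (τ * g * τ⁻¹)) = LinearMap.det (ρ.ρ g) := by
      have e : ρ.ρ (τ * g * τ⁻¹) = ρ.ρ τ * ρ.ρ g * ρ.ρ τ⁻¹ := by rw [map_mul, map_mul]
      have e2 : LinearMap.det (ρ.ρ τ) * LinearMap.det (ρ.ρ τ⁻¹) = 1 := by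
        rw [← map_mul, ← map_mul, mul_inv_cancel, map_one, map_one]
      rw [e, map_mul, map_mul, mul_right_comm, e2, one_mul]
    rw [← h1, hdecomp, map_mul, map_mul]
  have hY : Y' - 1 ∈ J := det_sub_one_mem_of_mem_levelSubgroup ρ p hνN
  have hX : X' - (cycVal p m (φ₀ ^ k) : R) ∈ J := hspanJ (hφk m)
  have hcν : ((cycVal p m ν : ℕ) : R) - 1 ∈ J := by
    have := natCast_sub_natCast_mem_span (R := R)
      (cycVal_of_cyc_eq_one p m ((mem_levelSubgroup ρ p).1 hνN).2)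
    rw [Nat.cast_one] at this
    exact hspanJ this
  have hcg : ((cycVal p m g : ℕ) : R) -
      ((cycVal p m (φ₀ ^ k) : ℕ) : R) * ((cycVal p m ν : ℕ) : R) ∈ J := by
    have h1 : cycVal p m g ≡ cycVal p m (φ₀ ^ k) * cycVal p m ν [MOD p ^ m] := by
      refine (cycVal_conj p m τ g).trans ?_
      rw [hdecomp]
      exact cycVal_mul p m _ _
    have := natCast_sub_natCast_mem_span (R := R) h1
    rw [Nat.cast_mul] at this
    exact hspanJ this
  have hmain : LinearMap.det (ρ.ρ g) - ((cycVal p m g : ℕ) : R) ∈ J := by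
    have : LinearMap.det (ρ.ρ g) - ((cycVal p m g : ℕ) : R) =
        X' * (Y' - 1) + (X' - (cycVal p m (φ₀ ^ k) : R)) -
          ((cycVal p m (φ₀ ^ k) : ℕ) : R) * (((cycVal p m ν : ℕ) : R) - 1) -
          (((cycVal p m g : ℕ) : R) -
            ((cycVal p m (φ₀ ^ k) : ℕ) : R) * ((cycVal p m ν : ℕ) : R)) := by
      rw [hD]; ring
    rw [this]
    exact J.sub_mem (J.sub_mem (J.add_mem (J.mul_mem_left _ hY) hX) (J.mul_mem_left _ hcν)) hcg
  have hlast : ((cycVal p m g : ℕ) : R) - ((cycVal p n g : ℕ) : R) ∈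
      Ideal.span {((p ^ n : ℕ) : R)} :=
    natCast_sub_natCast_mem_span (cycVal_modEq_of_le p hnm g)
  have : LinearMap.det (ρ.ρ g) - ((cycVal p n g : ℕ) : R) =
      (LinearMap.det (ρ.ρ g) - ((cycVal p m g : ℕ) : R)) +
        (((cycVal p m g : ℕ) : R) - ((cycVal p n g : ℕ) : R)) := by ring
  rw [this]
  exact Submodule.add_mem_sup hmain hlast

/-- **the determinant is the cyclotomic character** (the Prelude's `DetIsCyclotomic`), from the
Frobenius characteristic polynomials outside a finite set of primes containing `p`. -/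
theorem detIsCyclotomic_of_charpoly (hp : (p : R) ∈ maximalIdeal R) (hpT : p ∈ T)
    (hch : ∀ q : ℕ, q.Prime → q ∉ T → ∀ P : ValuationSubring Ω, P.LiesOverPrime q →
      ∀ φ : GQ, P.IsFrobeniusAt φ q →
        LinearMap.charpoly (ρ.ρ φ) = X ^ 2 - C (a q) * X + C (q : R)) :
    ρ.DetIsCyclotomic p := by
  refine ⟨hp, fun n σ a' ha => ?_⟩
  have h1 := mem_detCycSubgroup_of_charpoly ρ hp hpT hch σ n
  have h2 := natCast_sub_natCast_mem_span (R := R) (cycVal_unique p n σ ha)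
  have : LinearMap.det (ρ.ρ σ) - (a' : R) =
      (LinearMap.det (ρ.ρ σ) - ((cycVal p n σ : ℕ) : R)) -
        ((a' : R) - ((cycVal p n σ : ℕ) : R)) := by ring
  rw [this]
  exact Ideal.sub_mem _ h1 h2

end General

section Hecke

variable {p : ℕ} {N : ℕ} [NeZero N] {S : Finset ℕ}
  {𝒪 : Type} [CommRing 𝒪] [IsDomain 𝒪] [IsDiscreteValuationRing 𝒪]
  [IsAdicComplete (IsLocalRing.maximalIdeal 𝒪) 𝒪]
  {θ : CuspForm.heckeAlgebra N 2 (↑S : Set ℕ) →+* IsLocalRing.ResidueField 𝒪}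
  {T : Type} [CommRing T] [IsLocalRing T] [IsNoetherianRing T]
  [IsAdicComplete (IsLocalRing.maximalIdeal T) T] [Algebra 𝒪 T] [IsLocalHom (algebraMap 𝒪 T)]
  [Module.Finite 𝒪 T] [Module.Free 𝒪 T]

/-- `p` lies in the maximal ideal of the Hecke ring. -/
theorem natCast_mem_maximalIdeal_of_algebra (hp𝒪 : (p : 𝒪) ∈ maximalIdeal 𝒪) :
    (p : T) ∈ maximalIdeal T := by
  have h1 : (p : T) = algebraMap 𝒪 T (p : 𝒪) := by rw [map_natCast]
  rw [h1]
  exact map_nonunit (algebraMap 𝒪 T) _ hp𝒪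

/-- **the determinant of the Hecke representation is the cyclotomic character.** -/
theorem heckeDatum_detIsCyclotomic (hp : p.Prime) (hp𝒪 : (p : 𝒪) ∈ maximalIdeal 𝒪)
    (hNS : ∀ q : ℕ, q.Prime → q ∣ N → q ∈ S)
    (H : CuspForm.HeckeGaloisRepDatum N (↑S : Set ℕ) 𝒪 θ T) : H.ρ.DetIsCyclotomic p := by
  classical
  haveI : Fact p.Prime := ⟨hp⟩
  set a : ℕ → T := fun ℓ =>
    if h : ℓ.Prime ∧ ¬ ℓ ∣ N ∧ ℓ ∉ (↑S : Set ℕ) then
      H.π (CuspForm.heckeAlgebra.T h.1 h.2.1 h.2.2)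
    else 0 with ha
  refine detIsCyclotomic_of_charpoly H.ρ (T := insert p S) (a := a)
    (natCast_mem_maximalIdeal_of_algebra hp𝒪) (Finset.mem_insert_self p S) ?_
  intro ℓ hℓ hℓS P hP φ hφ
  have hℓS1 : ℓ ∉ S := fun h => hℓS (Finset.mem_insert_of_mem h)
  have hℓS' : ℓ ∉ (↑S : Set ℕ) := by simpa using hℓS1
  have hℓN : ¬ ℓ ∣ N := fun h => hℓS1 (hNS ℓ hℓ h)
  have haℓ : a ℓ = H.π (CuspForm.heckeAlgebra.T hℓ hℓN hℓS') := by
    rw [ha]
    exact dif_pos ⟨hℓ, hℓN, hℓS'⟩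
  rw [haℓ]
  exact H.charpoly_frob ℓ hℓ hℓN hℓS' P hP φ hφ

end Hecke

end Fermat.Agent.NP
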