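/-
NP33 (S33) — helper2 — **[EMB33], part 1 (Morita for `M₂`):** a free module `W` of rank two over a
local ring `B` on which the matrix algebra `M₂(B)` acts (`Θ : M₂(B) →ₐ[B] End_B W`) is isomorphic
to the standard module `B²`, compatibly with the actions.
-/
import Mathlib

set_option autoImplicit false
set_option linter.unusedSectionVars false
set_option linter.unusedVariables false
set_option linter.style.haveILetI false

namespace Fermat.Agent.NP

open Matrix

section Morita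

variable {B : Type*} [CommRing B] [IsLocalRing B] {W : Type*} [AddCommGroup W] [Module B W]
  [Module.Free B W] [Module.Finite B W]

/-- the matrix unit `E i j`. -/
abbrev mE (i j : Fin 2) : Matrix (Fin 2) (Fin 2) B := Matrix.single i j (1 : B)

theorem mE_mul_mE (i j k l : Fin 2) :
    (mE i j : Matrix (Fin 2) (Fin 2) B) * mE k l = if j = k then mE i l else 0 := by
  by_cases h : j = k
  · subst h
    rw [if_pos rfl, Matrix.single_mul_single_same, mul_one]
  · rw [if_neg h, Matrix.single_mul_single_of_ne _ _ _ _ h]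

theorem mE_zero_add_mE_one : (mE 0 0 : Matrix (Fin 2) (Fin 2) B) + mE 1 1 = 1 := by
  ext i j
  fin_cases i <;> fin_cases j <;> simp

theorem mul_mE_zero_zero (Y : Matrix (Fin 2) (Fin 2) B) :
    Y * mE 0 0 = Y 0 0 • mE 0 0 + Y 1 0 • mE 1 0 := by
  ext i j
  fin_cases i <;> fin_cases j <;> simp [Matrix.mul_apply, Matrix.single_apply]

theorem mul_mE_one_zero (Y : Matrix (Fin 2) (Fin 2) B) :
    Y * mE 1 0 = Y 0 1 • mE 0 0 + Y 1 1 • mE 1 0 := by
  ext i j
  fin_cases i <;> fin_cases j <;> simp [Matrix.mul_apply, Matrix.single_apply]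

/-- **Morita for `M₂(B)`**, `B` local. -/
theorem exists_equiv_of_mat2AlgHom (hW : Module.finrank B W = 2)
    (Θ : Matrix (Fin 2) (Fin 2) B →ₐ[B] Module.End B W) :
    ∃ f : (Fin 2 → B) ≃ₗ[B] W, ∀ (X : Matrix (Fin 2) (Fin 2) B) (x : Fin 2 → B),
      f (X.mulVec x) = Θ X (f x) := by
  set e₁ : Module.End B W := Θ (mE 0 0) with he₁
  set e₂ : Module.End B W := Θ (mE 1 1) with he₂
  set n : Module.End B W := Θ (mE 1 0) with hn
  set m : Module.End B W := Θ (mE 0 1) with hm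
  have hΘmul : ∀ (X Y : Matrix (Fin 2) (Fin 2) B) (w : W), Θ X (Θ Y w) = Θ (X * Y) w := by
    intro X Y w
    rw [map_mul]
    rfl
  have hsum : ∀ w : W, e₁ w + e₂ w = w := by
    intro w
    rw [he₁, he₂, ← LinearMap.add_apply, ← map_add, mE_zero_add_mE_one, map_one]
    rfl
  have he₁e₁ : ∀ w, e₁ (e₁ w) = e₁ w := by
    intro w
    rw [he₁, hΘmul, mE_mul_mE, if_pos rfl]
  have he₂e₂ : ∀ w, e₂ (e₂ w) = e₂ w := by
    intro w
    rw [he₂, hΘmul, mE_mul_mE, if_pos rfl]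
  have he₁e₂ : ∀ w, e₁ (e₂ w) = 0 := by
    intro w
    rw [he₁, he₂, hΘmul, mE_mul_mE, if_neg (by decide), map_zero]
    rfl
  have he₂e₁ : ∀ w, e₂ (e₁ w) = 0 := by
    intro w
    rw [he₁, he₂, hΘmul, mE_mul_mE, if_neg (by decide), map_zero]
    rfl
  have hmn : ∀ w, m (n w) = e₁ w := by
    intro w
    rw [hm, hn, hΘmul, mE_mul_mE, if_pos rfl]
  have hnm : ∀ w, n (m w) = e₂ w := by
    intro w
    rw [hm, hn, hΘmul, mE_mul_mE, if_pos rfl]
  have he₂n : ∀ w, e₂ (n w) = n w := by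
    intro w
    rw [he₂, hn, hΘmul, mE_mul_mE, if_pos rfl]
  have he₁m : ∀ w, e₁ (m w) = m w := by
    intro w
    rw [he₁, hm, hΘmul, mE_mul_mE, if_pos rfl]
  have hne₁ : ∀ w, n (e₁ w) = n w := by
    intro w
    rw [he₁, hn, hΘmul, mE_mul_mE, if_pos rfl]
  have hme₂ : ∀ w, m (e₂ w) = m w := by
    intro w
    rw [he₂, hm, hΘmul, mE_mul_mE, if_pos rfl]
  -- the two summands
  set W₁ : Submodule B W := LinearMap.range e₁ with hW₁
  set W₂ : Submodule B W := LinearMap.range e₂ with hW₂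
  have hmem₁ : ∀ w, w ∈ W₁ ↔ e₁ w = w := by
    intro w
    constructor
    · rintro ⟨a, rfl⟩
      exact he₁e₁ a
    · intro h
      exact ⟨w, h⟩
  have hmem₂ : ∀ w, w ∈ W₂ ↔ e₂ w = w := by
    intro w
    constructor
    · rintro ⟨a, rfl⟩
      exact he₂e₂ a
    · intro h
      exact ⟨w, h⟩
  have hcompl : IsCompl W₁ W₂ := by
    constructor
    · rw [Submodule.disjoint_def]
      intro w h1 h2
      rw [hmem₁] at h1
      rw [hmem₂] at h2
      rw [← h1, ← h2, he₁e₂]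
    · rw [codisjoint_iff, eq_top_iff]
      intro w _
      rw [← hsum w]
      exact Submodule.add_mem_sup ⟨w, rfl⟩ ⟨w, rfl⟩
  -- `W₁ ≃ W₂`
  let nn : ↥W₁ →ₗ[B] ↥W₂ := (n.domRestrict W₁).codRestrict W₂ (fun w => by
    rw [hmem₂]
    exact he₂n _)
  let mm : ↥W₂ →ₗ[B] ↥W₁ := (m.domRestrict W₂).codRestrict W₁ (fun w => by
    rw [hmem₁]
    exact he₁m _)
  let eqv : ↥W₁ ≃ₗ[B] ↥W₂ := LinearEquiv.ofLinearMap nn mm
    (by
      ext ⟨w, hw⟩
      show n (m w) = w
      rw [hnm]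
      exact (hmem₂ w).mp hw)
    (by
      ext ⟨w, hw⟩
      show m (n w) = w
      rw [hmn]
      exact (hmem₁ w).mp hw)
  -- `W₁` is free of rank one
  haveI : Module.Finite B ↥W₁ := Module.Finite.range e₁
  haveI : Module.Finite B ↥W₂ := Module.Finite.range e₂
  haveI : Module.Projective B ↥W₁ :=
    Module.Projective.of_split W₁.subtype (e₁.codRestrict W₁ (fun w => ⟨w, rfl⟩)) (by
      ext ⟨w, hw⟩
      show e₁ w = w
      exact (hmem₁ w).mp hw)
  haveI : Module.Free B ↥W₁ := Module.free_of_flat_of_isLocalRing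
  haveI : Module.Free B ↥W₂ := Module.Free.of_equiv eqv
  have hrank : Module.finrank B ↥W₁ = 1 := by
    have h1 : Module.finrank B (↥W₁ × ↥W₂) = Module.finrank B W :=
      LinearEquiv.finrank_eq (Submodule.prodEquivOfIsCompl W₁ W₂ hcompl)
    rw [Module.finrank_prod, ← LinearEquiv.finrank_eq eqv, hW] at h1
    omega
  let b₁ : Module.Basis (Fin 1) B ↥W₁ := Module.finBasisOfFinrankEq B ↥W₁ hrank
  set w₀ : W := (b₁ 0 : W) with hw₀
  have hw₀mem : e₁ w₀ = w₀ := (hmem₁ w₀).mp (b₁ 0).2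
  have hgen : ∀ w ∈ W₁, ∃ c : B, w = c • w₀ := by
    intro w hw
    have h1 := b₁.sum_repr ⟨w, hw⟩
    rw [Fin.sum_univ_one] at h1
    refine ⟨b₁.repr ⟨w, hw⟩ 0, ?_⟩
    have h2 := congrArg Subtype.val h1
    exact h2.symm
  -- the basis `(w₀, n w₀)`
  have hspan : Submodule.span B (Set.range ![w₀, n w₀]) = ⊤ := by
    rw [eq_top_iff]
    intro w _
    obtain ⟨c, hc⟩ := hgen (e₁ w) ⟨w, rfl⟩
    obtain ⟨c', hc'⟩ := hgen (m w) ((hmem₁ _).mpr (he₁m w))
    have h1 : w = c • w₀ + c' • n w₀ := by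
      rw [← hsum w, hc, ← hnm, hc', map_smul]
    rw [h1]
    refine Submodule.add_mem _ (Submodule.smul_mem _ _ (Submodule.subset_span ⟨0, rfl⟩))
      (Submodule.smul_mem _ _ (Submodule.subset_span ⟨1, rfl⟩))
  have hcard : Fintype.card (Fin 2) = Module.finrank B W := by
    rw [hW, Fintype.card_fin]
  let bW : Module.Basis (Fin 2) B W :=
    basisOfTopLeSpanOfCardEqFinrank ![w₀, n w₀] (le_of_eq hspan.symm) hcard
  have hbW : ⇑bW = ![w₀, n w₀] := coe_basisOfTopLeSpanOfCardEqFinrank _ _ _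
  have hf : ∀ x : Fin 2 → B, bW.equivFun.symm x = x 0 • w₀ + x 1 • n w₀ := by
    intro x
    rw [Module.Basis.equivFun_symm_apply, Fin.sum_univ_two, hbW]
    rfl
  -- the action on `w₀`
  have hact : ∀ Y : Matrix (Fin 2) (Fin 2) B, Θ Y w₀ = Y 0 0 • w₀ + Y 1 0 • n w₀ := by
    intro Y
    conv_lhs => rw [← hw₀mem, he₁, hΘmul, mul_mE_zero_zero]
    rw [map_add, map_smul, map_smul, LinearMap.add_apply, LinearMap.smul_apply,
      LinearMap.smul_apply, ← he₁, hw₀mem]
  have hact' : ∀ Y : Matrix (Fin 2) (Fin 2) B, Θ Y (n w₀) = Y 0 1 • w₀ + Y 1 1 • n w₀ := by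
    intro Y
    conv_lhs => rw [hn, hΘmul, mul_mE_one_zero]
    rw [map_add, map_smul, map_smul, LinearMap.add_apply, LinearMap.smul_apply,
      LinearMap.smul_apply, ← he₁, hw₀mem]
  refine ⟨bW.equivFun.symm, fun X x => ?_⟩
  have h1 := hact X
  have h2 := hact' X
  rw [hf, hf, map_add, map_smul, map_smul, h2, h1]
  simp only [Matrix.mulVec, dotProduct, Fin.sum_univ_two, smul_add, smul_smul, add_smul]
  have e1 : X 0 0 * x 0 = x 0 * X 0 0 := mul_comm _ _
  have e2 : X 0 1 * x 1 = x 1 * X 0 1 := mul_comm _ _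
  have e3 : X 1 0 * x 0 = x 0 * X 1 0 := mul_comm _ _
  have e4 : X 1 1 * x 1 = x 1 * X 1 1 := mul_comm _ _
  rw [e1, e2, e3, e4]
  abel

end Morita

end Fermat.Agent.NP
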