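/-
NP33 (S33) — helper2 — **[EMB33], part 2: comparison of an adic representation with any lattice
representation having the same Frobenius characteristic polynomials.**

`ρ : GaloisRepAdic T` with absolutely irreducible residual representation, `ψ : T →+* B` a local
homomorphism into a Noetherian local domain in which `2` is a unit, `ρ' : GaloisRepAdic B` with
`ψ (charpoly ρ(Frob_ℓ)) = charpoly ρ'(Frob_ℓ)` for almost all `ℓ`.  Then (Chebotarev,
Cayley–Hamilton, Boston–Lenstra–Ribet, Morita for `M₂(B)`) there is a `B`-linear isomorphism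
`f : B² ≃ ρ'.V` intertwining the matrices `ψ (repMat ρ σ)` with `ρ'(σ)`; consequently the additive
map `F : ρ.V → ρ'.V`, `v ↦ f (ψ ∘ coordinates of v)`, is `ψ`-semilinear and Galois-equivariant, it
transports invariant functionals from `ρ'.V` to `ρ.V`, and it is an "isomorphism modulo the maximal
ideals".
-/
import Mathlib
import Fermat.Agent.NP.EMB33_helper2_Morita
import Fermat.Agent.S32.PointRep_helper6

set_option autoImplicit false
set_option linter.unusedSectionVars false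
set_option linter.unusedVariables false
set_option linter.style.haveILetI false

namespace Fermat.Agent.NP

open Polynomial IsLocalRing Fermat.Agent.GR Fermat.Agent.S53.L1 Fermat.Agent.S32

local notation "Ω" => AlgebraicClosure ℚ
local notation "GQ" => (AlgebraicClosure ℚ ≃ₐ[ℚ] AlgebraicClosure ℚ)

section Embed

variable {T : Type} [CommRing T] [IsLocalRing T] (ρ : GaloisRepAdic T)
  {B : Type} [CommRing B] [IsLocalRing B] [IsNoetherianRing B] [IsDomain B]
  (ψ : T →+* B) [IsLocalHom ψ] (ρ' : GaloisRepAdic B)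

/-- the coordinates of `v` in `repBasis ρ`, pushed to `B`. -/
noncomputable def coordMap : ρ.V →+ (Fin 2 → B) where
  toFun v k := ψ ((repBasis ρ).repr v k)
  map_zero' := by
    funext k
    simp
  map_add' v w := by
    funext k
    simp

theorem coordMap_apply (v : ρ.V) (k : Fin 2) : coordMap ρ ψ v k = ψ ((repBasis ρ).repr v k) := rfl

theorem coordMap_smul (t : T) (v : ρ.V) : coordMap ρ ψ (t • v) = ψ t • coordMap ρ ψ v := by
  funext k
  rw [coordMap_apply, map_smul, Pi.smul_apply, coordMap_apply, Finsupp.smul_apply, smul_eq_mul,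
    map_mul, smul_eq_mul]

theorem coordMap_rho (σ : GQ) (v : ρ.V) :
    coordMap ρ ψ (ρ.ρ σ v) = (mapRep ψ (repMat ρ) σ).mulVec (coordMap ρ ψ v) := by
  funext i
  have h3 : (fun j => (repBasis ρ).repr (ρ.ρ σ v) j) =
      (repMat ρ σ).mulVec (fun j => (repBasis ρ).repr v j) := by
    funext j
    rw [repMat_apply, ← LinearMap.toMatrix_mulVec_repr (repBasis ρ) (repBasis ρ)]
  rw [coordMap_apply, congrFun h3 i, mapRep_apply]
  simp only [Matrix.mulVec, dotProduct, map_sum, map_mul, Matrix.map_apply, coordMap_apply]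

theorem coordMap_basis (k : Fin 2) : coordMap ρ ψ (repBasis ρ k) = Pi.single k 1 := by
  funext j
  rw [coordMap_apply, Module.Basis.repr_self, Finsupp.single_apply, Pi.single_apply]
  by_cases h : k = j
  · subst h
    simp
  · rw [if_neg h, if_neg (fun h' => h h'.symm), map_zero]

theorem det_repMat_eq (σ : GQ) : Matrix.det (repMat ρ σ) = LinearMap.det (ρ.ρ σ) := by
  rw [repMat_apply, LinearMap.det_toMatrix]

/-- **the comparison isomorphism.** -/
theorem exists_equiv_of_frob (habs : ρ.residual.IsAbsolutelyIrreducible) (h2 : IsUnit (2 : B))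
    (S : Finset ℕ)
    (hfrob : ∀ ℓ : ℕ, ℓ.Prime → ℓ ∉ S → ∀ P : ValuationSubring Ω, P.LiesOverPrime ℓ →
      ∀ φ : GQ, P.IsFrobeniusAt φ ℓ →
        (LinearMap.charpoly (ρ.ρ φ)).map ψ = LinearMap.charpoly (ρ'.ρ φ)) :
    ∃ f : (Fin 2 → B) ≃ₗ[B] ρ'.V, ∀ (σ : GQ) (x : Fin 2 → B),
      f ((mapRep ψ (repMat ρ) σ).mulVec x) = ρ'.ρ σ (f x) := by
  have hsep := Fermat.Agent.S58.cheb_separated_of_noetherian B
  have htd := fun σ : GQ => Fermat.Agent.S58.cheb_trace_det_eq ψ hsep ρ ρ' S hfrob σ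
  have hr := fullSpan_repMat ρ habs
  have hr' := fullSpan_mapRep ψ (repMat ρ) hr
  have htr : ∀ σ : GQ, Matrix.trace (mapRep ψ (repMat ρ) σ) =
      LinearMap.trace B ρ'.V (ρ'.ρ σ) := by
    intro σ
    rw [mapRep_apply, ← (htd σ).1, ← trace_repMat]
    simp [Matrix.trace_fin_two]
  have hdet : ∀ σ : GQ, Matrix.det (mapRep ψ (repMat ρ) σ) = LinearMap.det (ρ'.ρ σ) := by
    intro σ
    rw [mapRep_apply, ← (htd σ).2, ← det_repMat_eq]
    simp [Matrix.det_fin_two]
  have hCH : ∀ σ : GQ, ρ'.ρ σ * ρ'.ρ σ - Matrix.trace (mapRep ψ (repMat ρ) σ) • ρ'.ρ σ +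
      Matrix.det (mapRep ψ (repMat ρ) σ) • (1 : Module.End B ρ'.V) = 0 := by
    intro σ
    rw [htr, hdet]
    exact cayleyHamilton_rank_two ρ'.finrank_eq (ρ'.ρ σ)
  obtain ⟨f, hf⟩ := exists_equiv_of_mat2AlgHom ρ'.finrank_eq
    (blrHom (mapRep ψ (repMat ρ)) ρ'.ρ hCH h2 hr')
  refine ⟨f, fun σ x => ?_⟩
  rw [hf, blrHom_apply]

/-- coordinates of an element of `𝔪 • ⊤ ⊆ B²`. -/
theorem apply_mem_of_mem_smul_top {R : Type*} [CommRing R] (J : Ideal R) {x : Fin 2 → R}
    (hx : x ∈ J • (⊤ : Submodule R (Fin 2 → R))) (k : Fin 2) : x k ∈ J := by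
  refine Submodule.smul_induction_on (p := fun y => y k ∈ J) hx ?_ ?_
  · intro r hr n _
    rw [Pi.smul_apply, smul_eq_mul]
    exact Ideal.mul_mem_right _ _ hr
  · intro y z hy hz
    rw [Pi.add_apply]
    exact Ideal.add_mem _ hy hz

/-- **the semilinear comparison map** `F : ρ.V → ρ'.V` and its properties. -/
theorem exists_semilinear_of_frob (habs : ρ.residual.IsAbsolutelyIrreducible)
    (h2 : IsUnit (2 : B)) (S : Finset ℕ)
    (hfrob : ∀ ℓ : ℕ, ℓ.Prime → ℓ ∉ S → ∀ P : ValuationSubring Ω, P.LiesOverPrime ℓ →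
      ∀ φ : GQ, P.IsFrobeniusAt φ ℓ →
        (LinearMap.charpoly (ρ.ρ φ)).map ψ = LinearMap.charpoly (ρ'.ρ φ)) :
    ∃ F : ρ.V →+ ρ'.V,
      (∀ (σ : GQ) (v : ρ.V), F (ρ.ρ σ v) = ρ'.ρ σ (F v)) ∧
      (∀ (t : T) (v : ρ.V), F (t • v) = ψ t • F v) ∧
      (∀ Φ : ρ'.V →ₗ[B] B, (∀ v : ρ.V, Φ (F v) = 0) → Φ = 0) ∧
      (∀ v : ρ.V, v ∈ maximalIdeal T • (⊤ : Submodule T ρ.V) →
        F v ∈ maximalIdeal B • (⊤ : Submodule B ρ'.V)) ∧
      (∀ v : ρ.V, F v ∈ maximalIdeal B • (⊤ : Submodule B ρ'.V) →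
        v ∈ maximalIdeal T • (⊤ : Submodule T ρ.V)) := by
  obtain ⟨f, hf⟩ := exists_equiv_of_frob ρ ψ ρ' habs h2 S hfrob
  let F : ρ.V →+ ρ'.V := (f : (Fin 2 → B) →+ ρ'.V).comp (coordMap ρ ψ)
  have hF : ∀ v, F v = f (coordMap ρ ψ v) := fun v => rfl
  have hsemi : ∀ (t : T) (v : ρ.V), F (t • v) = ψ t • F v := by
    intro t v
    rw [hF, hF, coordMap_smul, map_smul]
  refine ⟨F, ?_, hsemi, ?_, ?_, ?_⟩
  · intro σ v
    rw [hF, hF, coordMap_rho, hf]
  · intro Φ hΦ
    apply LinearMap.ext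
    intro w
    obtain ⟨x, rfl⟩ := f.surjective w
    have hx : x = ∑ k, x k • (Pi.single k 1 : Fin 2 → B) := by
      funext j
      simp [Finset.sum_apply, Pi.single_apply]
    rw [hx, map_sum, map_sum, LinearMap.zero_apply]
    refine Finset.sum_eq_zero fun k _ => ?_
    rw [map_smul, map_smul, ← coordMap_basis ρ ψ k, ← hF, hΦ, smul_zero]
  · intro v hv
    refine Submodule.smul_induction_on (p := fun v => F v ∈
      maximalIdeal B • (⊤ : Submodule B ρ'.V)) hv ?_ ?_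
    · intro t ht w _
      rw [hsemi]
      refine Submodule.smul_mem_smul ?_ Submodule.mem_top
      exact map_nonunit ψ t ht
    · intro x y hx hy
      rw [map_add]
      exact Submodule.add_mem _ hx hy
  · intro v hv
    have h1 : coordMap ρ ψ v ∈ maximalIdeal B • (⊤ : Submodule B (Fin 2 → B)) := by
      have h3 : f.symm (F v) ∈ Submodule.map f.symm.toLinearMap
          (maximalIdeal B • (⊤ : Submodule B ρ'.V)) := ⟨F v, hv, rfl⟩
      rw [Submodule.map_smul''] at h3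
      rw [hF, LinearEquiv.symm_apply_apply] at h3
      exact Submodule.smul_mono le_rfl le_top h3
    have h4 : ∀ k, (repBasis ρ).repr v k ∈ maximalIdeal T := by
      intro k
      have h5 := apply_mem_of_mem_smul_top _ h1 k
      rw [coordMap_apply] at h5
      rw [mem_maximalIdeal, mem_nonunits_iff] at h5 ⊢
      intro hu
      exact h5 (hu.map ψ)
    rw [← (repBasis ρ).sum_repr v]
    refine Submodule.sum_mem _ fun k _ => ?_
    exact Submodule.smul_mem_smul (h4 k) Submodule.mem_top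

/-- **transfer of invariant functionals.** -/
theorem exists_functional_of_frob (habs : ρ.residual.IsAbsolutelyIrreducible)
    (h2 : IsUnit (2 : B)) (S : Finset ℕ)
    (hfrob : ∀ ℓ : ℕ, ℓ.Prime → ℓ ∉ S → ∀ P : ValuationSubring Ω, P.LiesOverPrime ℓ →
      ∀ φ : GQ, P.IsFrobeniusAt φ ℓ →
        (LinearMap.charpoly (ρ.ρ φ)).map ψ = LinearMap.charpoly (ρ'.ρ φ))
    (I : Subgroup GQ) (Φ : ρ'.V →ₗ[B] B) (hΦ : ∀ σ ∈ I, ∀ w : ρ'.V, Φ (ρ'.ρ σ w) = Φ w)
    (hne : Φ ≠ 0) :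
    ∃ φ : ρ.V →+ B, (∀ (s : T) (v : ρ.V), φ (s • v) = ψ s * φ v) ∧
      (∀ σ ∈ I, ∀ v : ρ.V, φ (ρ.ρ σ v) = φ v) ∧ ∃ v : ρ.V, φ v ≠ 0 := by
  obtain ⟨F, hFσ, hFt, hFΦ, -, -⟩ := exists_semilinear_of_frob ρ ψ ρ' habs h2 S hfrob
  refine ⟨(Φ : ρ'.V →+ B).comp F, ?_, ?_, ?_⟩
  · intro s v
    show Φ (F (s • v)) = ψ s * Φ (F v)
    rw [hFt, map_smul, smul_eq_mul]
  · intro σ hσ v
    show Φ (F (ρ.ρ σ v)) = Φ (F v)
    rw [hFσ, hΦ σ hσ]
  · by_contra hcon
    apply hne
    apply hFΦ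
    intro v
    by_contra hv
    exact hcon ⟨v, hv⟩

end Embed

end Fermat.Agent.NP
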