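/-
NP33 (S33) — helper5 — **[NEWBASE], part 1 (Mathlib only)**: `mem_adjoin_of_aut_of_factorisation`
(if `P(t) = 0` and `σ P` splits with all roots in `F(t′)`, `t′ ∈ F(t)`, then `t ∈ F(t′)`) and the
`S₃`-symmetry of the Legendre `λ`-formula (`legendre_factorisation`).
-/
import Mathlib

set_option autoImplicit false
set_option linter.style.haveILetI false

open Polynomial IntermediateField

namespace Fermat.Agent.NP

section AutSpan

variable {F H : Type*} [Field F] [Field H] [Algebra F H]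

/-- if `P(t) = 0`, `σ` is an automorphism of `F` such that `σ P` splits in `H` with all its
roots in `F(t')`, and `t' ∈ F(t)`, then `t ∈ F(t')`. -/
theorem mem_adjoin_of_aut_of_factorisation {t t' : H} (hint : IsIntegral F t) (ht' : t' ∈ F⟮t⟯)
    (σ : F ≃+* F) {P : F[X]} (hPt : aeval t P = 0) {c : H} (hc : c ≠ 0) {l : List H}
    (hl : ∀ ρ ∈ l, ρ ∈ F⟮t'⟯)
    (hfac : (P.map (σ : F →+* F)).map (algebraMap F H) =
      C c * (l.map (fun ρ => X - C ρ)).prod) :
    t ∈ F⟮t'⟯ := by
  have hprod0 : (l.map (fun ρ : H => X - C ρ)).prod ≠ 0 := by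
    apply List.prod_ne_zero
    intro h0
    obtain ⟨ρ, -, hρ⟩ := List.mem_map.1 h0
    exact X_sub_C_ne_zero ρ hρ
  have hQ0 : (P.map (σ : F →+* F)).map (algebraMap F H) ≠ 0 := by
    rw [hfac]
    exact mul_ne_zero (C_ne_zero.2 hc) hprod0
  set μ := minpoly F t with hμ
  have hμP : μ ∣ P := minpoly.dvd F t hPt
  have hμmonic : μ.Monic := minpoly.monic hint
  have hμirr : Irreducible μ := minpoly.irreducible hint
  set μσ := μ.map (σ : F →+* F) with hμσ
  have hσmonic : μσ.Monic := hμmonic.map _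
  have hσirr : Irreducible μσ := (MulEquiv.irreducible_iff (Polynomial.mapEquiv σ)).2 hμirr
  have hσdvd : μσ ∣ P.map (σ : F →+* F) := Polynomial.map_dvd _ hμP
  have hsplit : ((P.map (σ : F →+* F)).map (algebraMap F H)).Splits := by
    rw [hfac]
    refine Splits.C_mul (Splits.listProd ?_) c
    intro f hf
    obtain ⟨ρ, -, rfl⟩ := List.mem_map.1 hf
    exact Splits.X_sub_C ρ
  have hσsplit : (μσ.map (algebraMap F H)).Splits :=
    Polynomial.Splits.of_dvd hsplit hQ0 (Polynomial.map_dvd _ hσdvd)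
  have hdeg : μσ.natDegree = μ.natDegree := Polynomial.natDegree_map_eq_of_injective σ.injective _
  have hdeg0 : (μσ.map (algebraMap F H)).degree ≠ 0 := by
    rw [Polynomial.degree_map]
    intro h0
    exact hσirr.not_isUnit (Polynomial.isUnit_iff_degree_eq_zero.2 h0)
  obtain ⟨ρ, hρ⟩ := hσsplit.exists_eval_eq_zero hdeg0
  have hρ' : aeval ρ μσ = 0 := by
    rw [Polynomial.aeval_def, ← Polynomial.eval_map]
    exact hρ
  have hρQ : eval ρ ((P.map (σ : F →+* F)).map (algebraMap F H)) = 0 := by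
    obtain ⟨Q, hQ⟩ := hσdvd
    rw [hQ, Polynomial.map_mul, eval_mul, hρ, zero_mul]
  have hρl : ρ ∈ l := by
    rw [hfac, eval_mul, eval_C, mul_eq_zero, eval_list_prod] at hρQ
    rcases hρQ with h | h
    · exact absurd h hc
    · obtain ⟨y, hy, hy0⟩ := List.prod_eq_zero_iff.1 h |> fun h' => List.mem_map.1 h'
      obtain ⟨f, hf, rfl⟩ := List.mem_map.1 hy
      simp only [eval_sub, eval_X, eval_C] at hy0
      rw [sub_eq_zero] at hy0
      rwa [hy0]
  have hρmem := hl ρ hρl
  have hmin : minpoly F ρ = μσ := (minpoly.eq_of_irreducible_of_monic hσirr hρ' hσmonic).symm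
  have hρint : IsIntegral F ρ := by
    refine ⟨μσ, hσmonic, ?_⟩
    rw [← Polynomial.aeval_def]
    exact hρ'
  haveI : FiniteDimensional F F⟮t⟯ := IntermediateField.adjoin.finiteDimensional hint
  have hfr : Module.finrank F F⟮ρ⟯ = Module.finrank F F⟮t⟯ := by
    rw [IntermediateField.adjoin.finrank hρint, hmin, hdeg, ← IntermediateField.adjoin.finrank hint]
  have hle1 : F⟮ρ⟯ ≤ F⟮t'⟯ := by
    rw [IntermediateField.adjoin_simple_le_iff]
    exact hρmem
  have hle2 : F⟮t'⟯ ≤ F⟮t⟯ := by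
    rw [IntermediateField.adjoin_simple_le_iff]
    exact ht'
  have heq : F⟮ρ⟯ = F⟮t⟯ := IntermediateField.eq_of_le_of_finrank_eq (hle1.trans hle2) hfr
  exact hle1 (heq ▸ IntermediateField.mem_adjoin_simple_self F t)

end AutSpan

section Legendre

/-- **the `S₃`-symmetry of the Legendre `λ`-formula**: if `j' = 256 (s² - s + 1)³ / (s² (s - 1)²)`
then `256 (X² - X + 1)³ - j' X² (X - 1)²` splits with the six roots `s, 1 - s, 1/s, …`. -/
theorem legendre_factorisation {H : Type*} [Field H] [CharZero H] {s j' : H} (hs0 : s ≠ 0)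
    (hs1 : s ≠ 1) (hj : j' * (s ^ 2 * (s - 1) ^ 2) = 256 * (s ^ 2 - s + 1) ^ 3) :
    (256 * (X ^ 2 - X + 1) ^ 3 - C j' * (X ^ 2 * (X - 1) ^ 2) : H[X]) =
      C 256 * ([s, 1 - s, s⁻¹, (1 - s)⁻¹, (s - 1) / s, s / (s - 1)].map
        (fun ρ => X - C ρ)).prod := by
  have h1 : s - 1 ≠ 0 := sub_ne_zero.2 hs1
  have h2 : 1 - s ≠ 0 := sub_ne_zero.2 (Ne.symm hs1)
  apply Polynomial.funext
  intro x
  simp only [List.map_cons, List.map_nil, List.prod_cons, List.prod_nil, eval_mul, eval_sub,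
    eval_pow, eval_add, eval_X, eval_one, eval_C, eval_ofNat, mul_one]
  field_simp
  linear_combination (x ^ 2 * (x - 1) ^ 2) * hj

end Legendre

end Fermat.Agent.NP
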