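/-
NP33 (S33) — helper5 — **[NEWBASE], part 2: the degeneracy norms of the Legendre hosts restricted to
the level fields**: `legHostNormA K M p (fullToLegE f₀) = fullToLegE (N_{keyFqA} f₀)` and the same
along `B`.

* `legT_mem_sup_qExpand` : `t ∈ F_{Mp,2} · K(t(x^p))` (Atkin–Lehner involution of `F_{Mp,2}` + the
  `S₃`-symmetry of the `λ`-formula);
* `closure_range_fullToLegE_of_le` : `legE K N` is generated by the range of `fullToLegE` and `u` as
  soon as `legE K N ≤ F_{N,2} ⊔ K(u)`;
* `finrank_keyFqA`, `finrank_keyFqB` : both degrees of the level fields are `p + 1` (`p ∤ M`);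
* **`legHostNormA_fullToLegE`**, **`legHostNormB_fullToLegE`** (given that the host degrees are
  `p + 1`, which `SSNormData.degA/degB` provide).
-/
import Mathlib
import Fermat.Agent.NP.NEWBASE_helper5_Span
import Fermat.Agent.SS.FIELD_helper2_DegB
import Fermat.Agent.S35.NORMBC_helper8_Key
import Fermat.Agent.NP.HOSTP_helper7_LegNorm

set_option autoImplicit false
set_option linter.unusedSectionVars false
set_option linter.unusedVariables false
set_option linter.style.haveILetI false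
set_option synthInstance.maxHeartbeats 200000

open Polynomial ModularCurve IntermediateField

namespace Fermat.Agent.NP

open Fermat.Agent.JA Fermat.Agent.Igusa Fermat.Agent.SS Fermat.Agent.S35 Fermat.Agent.X0N

open scoped Fermat.Agent.JA.Host

noncomputable section

section Span

variable {K : Type*} [Field K] [Algebra ℚ K] (ι : K →+* ℂ) {M p : ℕ} [NeZero M] [NeZero p]
  [NeZero (M * p)] {x y : ℤ} (h : (p : ℤ) * x + M * y = 1) (hp : p.Prime)

/-- `legE K N = F_{N,2} ⊔ K(t)`. -/
theorem legE_eq_keyFw_sup (N : ℕ) [NeZero N] : legE K N = keyFw K N 2 ⊔ K⟮legT K⟯ :=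
  Etu_one_eq_sup K N 2 (legT K)

include ι h hp in
/-- **`t ∈ F_{Mp,2} · K(t(x^p))`.** -/
theorem legT_mem_sup_qExpand (hp2 : p ≠ 2) :
    legT K ∈ keyFw K (M * p) 2 ⊔ K⟮qExpand K p (legT K)⟯ := by
  set F := keyFw K (M * p) 2 with hF
  set t := legT K with ht
  set s := qExpand K p t with hs
  haveI : CharZero K := charZero_of_injective_algebraMap (algebraMap ℚ K).injective
  haveI : CharZero (LaurentSeries K) :=
    charZero_of_injective_algebraMap (algebraMap K (LaurentSeries K)).injective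
  -- integrality
  have hint : IsIntegral ↥F t := (isIntegral_legT K).tower_top
  -- `s ∈ F(t)`
  have hsE : s ∈ legE K (M * p) := by
    have hmem : t ∈ legE K M := Host.mem_Etu_t _ _ _
    have := (legHostB K M p hp hp2 ⟨t, hmem⟩).2
    rwa [coe_legHostB] at this
  have hEeq : legE K (M * p) = (IntermediateField.adjoin ↥F {t}).restrictScalars K := by
    rw [legE_eq_keyFw_sup, IntermediateField.restrictScalars_adjoin_eq_sup]
  have hs' : s ∈ (↥F)⟮t⟯ := by
    rw [hEeq] at hsE
    exact hsE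
  -- the Atkin–Lehner involution
  set σ := hostALEquiv ι h hp 2 with hσ
  -- `j ∈ F_{M,2} ≤ F`
  set jM : ↥(keyFw K M 2) := ⟨jqNModC K 2, jqNModC_mem_keyFw M 2⟩ with hjM
  set jF : ↥F := IntermediateField.inclusion (hw2_keyFw_le (K := K) (M := M) (q := p) 2) jM with hjF
  have hσj : ((σ jF : ↥F) : LaurentSeries K) = qExpand K p (jqNModC K 2) :=
    coe_hostAL_inclusion ι h hp 2 jM
  -- the polynomial
  set P : (↥F)[X] := (Host.legA K).map (algebraMap K ↥F) - C jF * (Host.legB K).map (algebraMap K ↥F)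
    with hP
  have hPt : aeval t P = 0 := by
    rw [hP, map_sub, map_mul, aeval_C, Polynomial.aeval_map_algebraMap,
      Polynomial.aeval_map_algebraMap]
    have := jqNModC_mul_aeval_legT K
    rw [sub_eq_zero]
    exact this.symm
  -- the relation for `s`
  have hrel : qExpand K p (jqNModC K 2) * (s ^ 2 * (s - 1) ^ 2) = 256 * (s ^ 2 - s + 1) ^ 3 := by
    have h0 := congrArg (qExpand K p) (jqNModC_mul_aeval_legT K)
    rw [Host.aeval_legA, Host.aeval_legB] at h0
    simp only [map_mul, map_pow, map_sub, map_add, map_one, map_ofNat] at h0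
    exact h0
  have hB0 : s ^ 2 * (s - 1) ^ 2 ≠ 0 := by
    have h0 := aeval_legT_legB_ne_zero K
    rw [Host.aeval_legB] at h0
    have h1 := (_root_.map_ne_zero (qExpand K p)).2 h0
    simp only [map_mul, map_pow, map_sub, map_one] at h1
    exact h1
  have hs0 : s ≠ 0 := by
    rintro h0
    apply hB0
    rw [h0]
    ring
  have hs1 : s ≠ 1 := by
    rintro h0
    apply hB0
    rw [h0]
    ring
  have hσK : ((σ : ↥F ≃+* ↥F) : ↥F →+* ↥F).comp (algebraMap K ↥F) = algebraMap K ↥F := by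
    refine RingHom.ext fun c => ?_
    exact hostAL_algebraMap ι h hp 2 c
  have hmapA : (Host.legA K).map (algebraMap K (LaurentSeries K)) =
      256 * (X ^ 2 - X + 1) ^ 3 := by
    simp [Host.legA, Polynomial.map_mul, Polynomial.map_pow, Polynomial.map_sub,
      Polynomial.map_add]
  have hmapB : (Host.legB K).map (algebraMap K (LaurentSeries K)) = X ^ 2 * (X - 1) ^ 2 := by
    simp [Host.legB, Polynomial.map_mul, Polynomial.map_pow, Polynomial.map_sub]
  have hfac : (P.map ((σ : ↥F ≃+* ↥F) : ↥F →+* ↥F)).map (algebraMap ↥F (LaurentSeries K)) =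
      C 256 * ([s, 1 - s, s⁻¹, (1 - s)⁻¹, (s - 1) / s, s / (s - 1)].map
        (fun ρ => X - C ρ)).prod := by
    rw [← legendre_factorisation hs0 hs1 hrel, hP]
    simp only [Polynomial.map_sub, Polynomial.map_mul, Polynomial.map_C, Polynomial.map_map]
    have e1 : (algebraMap ↥F (LaurentSeries K)).comp (algebraMap K ↥F) =
        algebraMap K (LaurentSeries K) := rfl
    have e2 : (algebraMap ↥F (LaurentSeries K)) (((σ : ↥F ≃+* ↥F) : ↥F →+* ↥F) jF) =
        qExpand K p (jqNModC K 2) := hσj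
    rw [hσK, e1, hmapA, hmapB, e2]
  have hl : ∀ ρ ∈ [s, 1 - s, s⁻¹, (1 - s)⁻¹, (s - 1) / s, s / (s - 1)], ρ ∈ (↥F)⟮s⟯ := by
    have hsm : s ∈ (↥F)⟮s⟯ := IntermediateField.mem_adjoin_simple_self _ s
    have h1m : (1 : LaurentSeries K) ∈ (↥F)⟮s⟯ := one_mem _
    intro ρ hρ
    simp only [List.mem_cons, List.not_mem_nil, or_false] at hρ
    rcases hρ with rfl | rfl | rfl | rfl | rfl | rfl
    · exact hsm
    · exact sub_mem h1m hsm
    · exact inv_mem hsm
    · exact inv_mem (sub_mem h1m hsm)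
    · exact div_mem (sub_mem hsm h1m) hsm
    · exact div_mem hsm (sub_mem hsm h1m)
  have key := mem_adjoin_of_aut_of_factorisation hint hs' σ hPt (by norm_num) hl hfac
  have : t ∈ (IntermediateField.adjoin ↥F {s}).restrictScalars K := key
  rwa [IntermediateField.restrictScalars_adjoin_eq_sup] at this

end Span

section Closure

variable (K : Type*) [Field K] [Algebra ℚ K] (N : ℕ) [NeZero N]

/-- the range of `fullToLegE` is `F_{N,2}`. -/
theorem exists_fullToLegE_eq {z : LaurentSeries K} (hz : z ∈ keyFw K N 2) :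
    ∃ w : ↥(keyFq K N), ((fullToLegE K N w : ↥(legE K N)) : LaurentSeries K) = z := by
  obtain ⟨w, hw⟩ := (hostImageEquiv K 2 (keyFq K N)).surjective ⟨z, hz⟩
  refine ⟨w, ?_⟩
  have := congrArg (fun a : ↥(keyFw K N 2) => (a : LaurentSeries K)) hw
  exact this

/-- if `legE K N ≤ F_{N,2} ⊔ K(u)` then `legE K N` is generated by the range of `fullToLegE` and
`u`. -/
theorem closure_range_fullToLegE_of_le {u : LaurentSeries K} (hu : u ∈ legE K N)
    (hle : legE K N ≤ keyFw K N 2 ⊔ K⟮u⟯) :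
    Subfield.closure (Set.range (fullToLegE K N) ∪ {(⟨u, hu⟩ : ↥(legE K N))}) = ⊤ := by
  set S := Subfield.closure (Set.range (fullToLegE K N) ∪ {(⟨u, hu⟩ : ↥(legE K N))}) with hS
  rw [eq_top_iff]
  rintro ⟨z, hz⟩ -
  have e : keyFw K N 2 ⊔ K⟮u⟯ =
      IntermediateField.adjoin K ((keyFw K N 2 : Set (LaurentSeries K)) ∪ {u}) := by
    rw [IntermediateField.adjoin_union, IntermediateField.adjoin_self]
  have hmap : (keyFw K N 2 ⊔ K⟮u⟯).toSubfield ≤
      S.map ((legE K N).val : ↥(legE K N) →+* LaurentSeries K) := by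
    rw [e, IntermediateField.adjoin_toSubfield, Subfield.closure_le]
    rintro w (⟨c, rfl⟩ | hw | hw)
    · refine ⟨fullToLegE K N (algebraMap K _ c), Subfield.subset_closure (Or.inl ⟨_, rfl⟩), ?_⟩
      rw [AlgHom.commutes]
      rfl
    · obtain ⟨w', hw'⟩ := exists_fullToLegE_eq K N hw
      exact ⟨fullToLegE K N w', Subfield.subset_closure (Or.inl ⟨_, rfl⟩), hw'⟩
    · rw [Set.mem_singleton_iff] at hw
      subst hw
      exact ⟨⟨w, hu⟩, Subfield.subset_closure (Or.inr rfl), rfl⟩
  obtain ⟨y, hy, hyz⟩ := hmap (hle hz)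
  have : y = ⟨z, hz⟩ := Subtype.ext hyz
  rw [← this]
  exact hy

end Closure

section Norm

variable (K : Type*) [Field K] [Algebra ℚ K] [Algebra K ℂ] {M p : ℕ} [NeZero M] [NeZero p]
  [NeZero (M * p)]

/-- `[F_{Mp} : A F_M] = p + 1` for `p ∤ M`. -/
theorem finrank_keyFqA (hp : p.Prime) (hpM : ¬ p ∣ M) :
    (letI := (keyFqA K M p).toRingHom.toAlgebra
     Module.finrank ↥(keyFq K M) ↥(keyFq K (M * p))) = p + 1 := by
  haveI : IsScalarTower ℚ K ℂ := IsScalarTower.of_algebraMap_eq (fun r => by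
    rw [eq_ratCast, eq_ratCast, map_ratCast])
  have h1 := finrankAlong_heckeAlphaBar (k := K) M p hp
  rw [if_neg hpM, ← keyFqA_eq_alphaBar] at h1
  exact h1

/-- `[F_{Mp} : B F_M] = p + 1` for `p ∤ M`. -/
theorem finrank_keyFqB (hp : p.Prime) (hpM : ¬ p ∣ M) :
    (letI := (keyFqB K M p).toRingHom.toAlgebra
     Module.finrank ↥(keyFq K M) ↥(keyFq K (M * p))) = p + 1 := by
  haveI : IsScalarTower ℚ K ℂ := IsScalarTower.of_algebraMap_eq (fun r => by
    rw [eq_ratCast, eq_ratCast, map_ratCast])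
  have h1 := finrankAlong_heckeBetaBar (k := K) M p hp
  rw [if_neg hpM, ← keyFqB_eq_betaBar] at h1
  exact h1

/-- **the norm of the Legendre hosts along `A`, on the level field.** -/
theorem legHostNormA_fullToLegE (hp : p.Prime) (hpM : ¬ p ∣ M)
    (hdeg : (letI := (legHostA K M p).toRingHom.toAlgebra
      Module.finrank ↥(legE K M) ↥(legE K (M * p))) = p + 1)
    (f₀ : ↥(keyFq K (M * p))) :
    legHostNormA K M p (fullToLegE K (M * p) f₀) =
      fullToLegE K M (letI := (keyFqA K M p).toRingHom.toAlgebra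
        Algebra.norm ↥(keyFq K M) f₀) := by
  have hd1 := finrank_keyFqA K hp hpM
  letI a1 : Algebra ↥(keyFq K M) ↥(keyFq K (M * p)) := (keyFqA K M p).toRingHom.toAlgebra
  letI a2 : Algebra ↥(legE K M) ↥(legE K (M * p)) := (legHostA K M p).toRingHom.toAlgebra
  haveI : FiniteDimensional ↥(legE K M) ↥(legE K (M * p)) :=
    Module.finite_of_finrank_pos (by rw [hdeg]; omega)
  haveI : FiniteDimensional ↥(keyFq K M) ↥(keyFq K (M * p)) :=
    Module.finite_of_finrank_pos (by rw [hd1]; omega)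
  haveI : Algebra.IsAlgebraic ↥(legE K M) ↥(legE K (M * p)) := Algebra.IsAlgebraic.of_finite _ _
  have hu : legT K ∈ legE K (M * p) := Host.mem_Etu_t _ _ _
  have huM : legT K ∈ legE K M := Host.mem_Etu_t _ _ _
  have hcl := closure_range_fullToLegE_of_le K (M * p) hu (le_of_eq (legE_eq_keyFw_sup (M * p)))
  have hspan : Submodule.span ↥(legE K M) (Set.range (fullToLegE K (M * p) :
      ↥(keyFq K (M * p)) →+* ↥(legE K (M * p)))) = ⊤ := by
    refine span_range_eq_top_of_closure _ {(⟨legT K, hu⟩ : ↥(legE K (M * p)))} ?_ hcl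
    rintro _ rfl
    exact ⟨⟨legT K, huM⟩, Subtype.ext rfl⟩
  symm
  refine norm_map_of_finrank_eq (fullToLegE K M : ↥(keyFq K M) →+* ↥(legE K M))
    (fullToLegE K (M * p) : ↥(keyFq K (M * p)) →+* ↥(legE K (M * p))) ?_ (hd1.trans hdeg.symm)
    hspan f₀
  intro a
  apply Subtype.ext
  have e1 : algebraMap ↥(keyFq K M) ↥(keyFq K (M * p)) a = keyFqA K M p a := rfl
  have e2 : algebraMap ↥(legE K M) ↥(legE K (M * p))
      ((fullToLegE K M : ↥(keyFq K M) →+* ↥(legE K M)) a) =
      legHostA K M p (fullToLegE K M a) := rfl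
  rw [e1, e2, coe_legHostA]
  have e3 : (((fullToLegE K (M * p) : ↥(keyFq K (M * p)) →+* ↥(legE K (M * p)))
      (keyFqA K M p a) : ↥(legE K (M * p))) : LaurentSeries K) =
      qExpand K 2 ((keyFqA K M p a : ↥(keyFq K (M * p))) : LaurentSeries K) := rfl
  rw [e3, coe_fullToLegE, coe_keyFqA]

/-- **the norm of the Legendre hosts along `B`, on the level field.** -/
theorem legHostNormB_fullToLegE (hp : p.Prime) (hp2 : p ≠ 2) (hpM : ¬ p ∣ M)
    (hdeg : (letI := (legHostB K M p hp hp2).toRingHom.toAlgebra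
      Module.finrank ↥(legE K M) ↥(legE K (M * p))) = p + 1)
    (f₀ : ↥(keyFq K (M * p))) :
    legHostNormB K M p hp hp2 (fullToLegE K (M * p) f₀) =
      fullToLegE K M (letI := (keyFqB K M p).toRingHom.toAlgebra
        Algebra.norm ↥(keyFq K M) f₀) := by
  have hd1 := finrank_keyFqB K hp hpM
  obtain ⟨x, y, hbez⟩ := exists_bezout_of_prime_of_not_dvd hp hpM
  letI a1 : Algebra ↥(keyFq K M) ↥(keyFq K (M * p)) := (keyFqB K M p).toRingHom.toAlgebra
  letI a2 : Algebra ↥(legE K M) ↥(legE K (M * p)) := (legHostB K M p hp hp2).toRingHom.toAlgebra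
  haveI : FiniteDimensional ↥(legE K M) ↥(legE K (M * p)) :=
    Module.finite_of_finrank_pos (by rw [hdeg]; omega)
  haveI : FiniteDimensional ↥(keyFq K M) ↥(keyFq K (M * p)) :=
    Module.finite_of_finrank_pos (by rw [hd1]; omega)
  haveI : Algebra.IsAlgebraic ↥(legE K M) ↥(legE K (M * p)) := Algebra.IsAlgebraic.of_finite _ _
  have huM : legT K ∈ legE K M := Host.mem_Etu_t _ _ _
  have hu : qExpand K p (legT K) ∈ legE K (M * p) := by
    have := (legHostB K M p hp hp2 ⟨legT K, huM⟩).2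
    rwa [coe_legHostB] at this
  have hmem := legT_mem_sup_qExpand (algebraMap K ℂ) hbez hp hp2
  have hle : legE K (M * p) ≤ keyFw K (M * p) 2 ⊔ K⟮qExpand K p (legT K)⟯ := by
    rw [legE_eq_keyFw_sup]
    refine sup_le le_sup_left ?_
    rw [IntermediateField.adjoin_simple_le_iff]
    exact hmem
  have hcl := closure_range_fullToLegE_of_le K (M * p) hu hle
  have hspan : Submodule.span ↥(legE K M) (Set.range (fullToLegE K (M * p) :
      ↥(keyFq K (M * p)) →+* ↥(legE K (M * p)))) = ⊤ := by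
    refine span_range_eq_top_of_closure _
      {(⟨qExpand K p (legT K), hu⟩ : ↥(legE K (M * p)))} ?_ hcl
    rintro _ rfl
    exact ⟨⟨legT K, huM⟩, Subtype.ext (coe_legHostB K M p hp hp2 _)⟩
  symm
  refine norm_map_of_finrank_eq (fullToLegE K M : ↥(keyFq K M) →+* ↥(legE K M))
    (fullToLegE K (M * p) : ↥(keyFq K (M * p)) →+* ↥(legE K (M * p))) ?_ (hd1.trans hdeg.symm)
    hspan f₀
  intro a
  apply Subtype.ext
  have e1 : algebraMap ↥(keyFq K M) ↥(keyFq K (M * p)) a = keyFqB K M p a := rfl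
  have e2 : algebraMap ↥(legE K M) ↥(legE K (M * p))
      ((fullToLegE K M : ↥(keyFq K M) →+* ↥(legE K M)) a) =
      legHostB K M p hp hp2 (fullToLegE K M a) := rfl
  rw [e1, e2, coe_legHostB]
  have e3 : (((fullToLegE K (M * p) : ↥(keyFq K (M * p)) →+* ↥(legE K (M * p)))
      (keyFqB K M p a) : ↥(legE K (M * p))) : LaurentSeries K) =
      qExpand K 2 ((keyFqB K M p a : ↥(keyFq K (M * p))) : LaurentSeries K) := rfl
  rw [e3, coe_fullToLegE, coe_keyFqB, qExpand_qExpand, qExpand_qExpand]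
  exact qExpand_congr (mul_comm 2 p) _

end Norm

end

end Fermat.Agent.NP
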