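/-
NP33 (S33) — helper5 — **[NEWBASE], part 3: `legNormBCompat : LegNormBCompat`** (helper7's
`NP/NEWBASE_helper7_Main`): the `B`-side norm compatibility of the Legendre hosts and the level
fields over every subfield `K₁ ⊆ Ω`.

`legHostNormB_fullToLegE` (part 2) + the degree `[E_{Mp} : B E_M] = p + 1` over every `K₁`
(`finrank_legHostB_base`: helper2's `finrank_legHostA_base` and `degB_finrank_Etu_eq`).
-/
import Mathlib
import Fermat.Agent.NP.NEWBASE_helper5_Norm
import Fermat.Agent.NP.BASEP_helper2_DegGen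
import Fermat.Agent.NP.NEWBASE_helper7_Main

set_option autoImplicit false
set_option linter.unusedSectionVars false
set_option linter.unusedVariables false
set_option linter.style.haveILetI false
set_option synthInstance.maxHeartbeats 400000

open IntermediateField ModularCurve

namespace Fermat.Agent.NP

open Fermat.Agent.JA Fermat.Agent.FF Fermat.Agent.SS Fermat.Agent.S35

open scoped Fermat.Agent.JA.Host

/-- `Ω = AlgebraicClosure ℚ`. -/
local notation "Ω" => AlgebraicClosure ℚ

/-- **`[E_{Mp} : B E_M] = p + 1` over every subfield of `Ω`.** -/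
theorem finrank_legHostB_base (M p : ℕ) [NeZero M] [NeZero p] [NeZero (M * p)] (hp : p.Prime)
    (hp2 : p ≠ 2) (hpM : ¬ p ∣ M) (K₁ : IntermediateField ℚ Ω) :
    letI := (legHostB ↥K₁ M p hp hp2).toRingHom.toAlgebra
    Module.finrank ↥(legE ↥K₁ M) ↥(legE ↥K₁ (M * p)) = p + 1 := by
  letI := baseToComplex K₁
  have h1 := degB_finrank_Etu_eq (algebraMap ↥K₁ ℂ) 2 (legT ↥K₁) hp hpM
    (isIntegral_legT ↥K₁).tower_top (legE_le_of_dvd ↥K₁ (dvd_mul_right M p))
    (legHostB ↥K₁ M p hp hp2 : ↥(legE ↥K₁ M) →+* ↥(legE ↥K₁ (M * p))) (fun _ => rfl)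
  have h2 := finrank_legHostA_base M p hp hp2 hpM K₁
  exact h1.trans h2

/-- **the `B`-side norm compatibility.** -/
theorem legNormBCompat : LegNormBCompat := by
  intro M _ p _ _ hp hp2 hpM K₁ z
  letI := baseToComplex K₁
  exact legHostNormB_fullToLegE ↥K₁ hp hp2 hpM (finrank_legHostB_base M p hp hp2 hpM K₁) z

end Fermat.Agent.NP
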