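import Mathlib
import Fermat.Agent.NP.OLDTOP_helper7_Norm
import Fermat.Agent.NP.HOSTP_helper7_HeckeCons
import Fermat.Agent.S36.CYCLO_helper1

/-!
# NP33 — helper7 — OLD-BASE, core: the depth filtration chain on an `SSModel`

`e₁ = m (p - 1)`, `ζ - 1 = π ^ m · unit`, `T = N_A ∘ B`.  For `f` of depth `≥ 1` such that the
divisors of `T ^ j f`, `j ≤ m - 1`, are in `p · Div`:  `g = T ^ (m - 1) f` has depth `≥ m p` (the
top), hence `σ g / g ^ a` has depth `≥ m p + 1` by (Δ3) and is in `K₁ˣ Eˣᵖ` by (Δ6).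
-/

set_option autoImplicit false
set_option linter.unusedSectionVars false
set_option linter.style.haveILetI false

open IsLocalRing AlgebraicCurve

namespace Fermat.Agent.NP

open Fermat.Agent.SS Fermat.Agent.JA Fermat.Agent.FF

section Cyc

variable {R : Type*} [CommRing R] [IsDomain R] [IsDiscreteValuationRing R]

/-- the exponent of `ζ_p - 1` and of `p` in a discrete valuation ring of residue characteristic
`p` containing `ζ_p`. -/
theorem exists_zeta_sub_one_eq_pow_mul {π : R} (hπ : Irreducible π) {p : ℕ} (hp : p.Prime)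
    (hpπ : (p : R) ∈ Ideal.span {π}) {ζ : R} (hζ : IsPrimitiveRoot ζ p) :
    ∃ (m : ℕ) (u₀ ε : Rˣ), 1 ≤ m ∧ ζ - 1 = π ^ m * u₀ ∧ (p : R) = ε * π ^ (m * (p - 1)) := by
  have hζ1 : ζ - 1 ≠ 0 := sub_ne_zero.mpr (hζ.ne_one hp.one_lt)
  obtain ⟨m, u₀, e⟩ := IsDiscreteValuationRing.eq_unit_mul_pow_irreducible hζ1 hπ
  obtain ⟨ε', hε'⟩ := Fermat.Agent.S36.associated_sub_one_pow_natCast_of_prime hp hζ
  have hpe : (p : R) = ((u₀ ^ (p - 1) * ε' : Rˣ) : R) * π ^ (m * (p - 1)) := by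
    rw [← hε', e]
    push_cast
    ring
  refine ⟨m, u₀, u₀ ^ (p - 1) * ε', ?_, by rw [e, mul_comm], hpe⟩
  rcases Nat.eq_zero_or_pos m with h0 | h0
  · exfalso
    rw [h0, zero_mul, pow_zero, mul_one] at hpe
    have hu : IsUnit (p : R) := hpe ▸ Units.isUnit _
    have hπu : IsUnit π := by
      obtain ⟨z, hz⟩ := Ideal.mem_span_singleton.mp hpπ
      rw [hz] at hu
      exact isUnit_of_mul_isUnit_left hu
    exact hπ.not_isUnit hπu
  · exact h0

end Cyc

section Core

variable {R : Type*} [CommRing R] [IsDomain R] [IsDiscreteValuationRing R] [CharZero R]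
  {K₁ : Type*} [Field K₁] [Algebra R K₁] [IsFractionRing R K₁]
  {KM : Type*} [Field KM] [Algebra K₁ KM] [Algebra R KM] [IsScalarTower R K₁ KM]
  {EM : Type*} [Field EM] [Algebra KM EM] [Algebra K₁ EM] [IsScalarTower K₁ KM EM] [Algebra R EM]
  [IsScalarTower R KM EM]
  {KN : Type*} [Field KN] [Algebra K₁ KN] [Algebra R KN] [IsScalarTower R K₁ KN]
  {EN : Type*} [Field EN] [Algebra KN EN] [Algebra K₁ EN] [IsScalarTower K₁ KN EN] [Algebra R EN]
  [IsScalarTower R KN EN] [FiniteDimensional KN EN]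
  {π : R} {p n : ℕ} {S : Finset R} {t : KM} {jM : EM} {j : KN} {A B : EM →+* EN}
  {VM : ValuationSubring EM} {Winf W0 : ValuationSubring EN}
  [IsAlgClosed (IsLocalRing.ResidueField R)]

/-- **climbing with (C1)** from depth `j p + 1` to depth `(j + 1) p`, below the top. -/
theorem SSModel.valDepth_climb (h : SSModel K₁ π p n S t jM j A B VM Winf W0)
    {e₁ : ℕ} (he₁ : 0 < e₁) {ε : Rˣ} (hpe : (p : R) = ε * π ^ e₁)
    {g : EM} (hg : g ≠ 0) (hord : ∀ P : Place K₁ EM, (p : ℤ) ∣ P.ord g) {j' : ℕ}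
    (hj : (j' + 1) * p * (p - 1) ≤ e₁ * p)
    (hd : ∃ c : K₁, c ≠ 0 ∧ ValDepth π p VM (j' * p + 1) g c) :
    ∃ c : K₁, c ≠ 0 ∧ ValDepth π p VM ((j' + 1) * p) g c := by
  have hp := h.q_prime
  haveI : FiniteDimensional KM EM := h.geo.finite
  have climb : ∀ i : ℕ, j' * p + 1 ≤ i → i ≤ (j' + 1) * p →
      ∃ c : K₁, c ≠ 0 ∧ ValDepth π p VM i g c := by
    intro i hi
    induction i, hi using Nat.le_induction with
    | base => intro _; exact hd
    | succ i hi ih =>
      intro hip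
      have hlt : i < (j' + 1) * p := by omega
      refine GeoHyps.valDepth_succ_p_of_ne_zero hp he₁ hpe h.geo VM h.gauss_M g hg hord
        (fun hdvd => ?_) ?_ (ih (by omega))
      · obtain ⟨k, rfl⟩ := hdvd
        rw [mul_comm p k] at hi hlt
        have h1 : j' < k := by
          by_contra hle
          have := Nat.mul_le_mul_right p (not_lt.mp hle)
          omega
        have h2 : k < j' + 1 := Nat.lt_of_mul_lt_mul_right hlt
        omega
      · exact le_trans (Nat.mul_le_mul_right _ hlt.le) hj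
  exact climb _ (by
    have := hp.two_le
    nlinarith) le_rfl

/-- **OLD-BASE, core.** -/
theorem SSModel.oldBase_core (h : SSModel K₁ π p n S t jM j A B VM Winf W0) {m : ℕ} (hm : 1 ≤ m)
    {ε : Rˣ} (hpe : (p : R) = ε * π ^ (m * (p - 1))) {NA NB : EN →* EM}
    (D : SSNormData p A B VM Winf W0 NA NB)
    {ζ : R} {u₀ : Rˣ} (hlam : ζ - 1 = π ^ m * u₀) (hζ : IsPrimitiveRoot ζ p)
    (σ : EM →+* EM)
    (hσK : ∀ c : K₁, ∃ c' : K₁, σ (algebraMap K₁ EM c) = algebraMap K₁ EM c')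
    (hσW : ∀ y ∈ VM, VM.valuation (σ y - y) < 1) {a : ℕ}
    (hσζ : σ (algebraMap R EM ζ) = algebraMap R EM ζ ^ a)
    (hσord : ∀ g : EM, (∀ P : Place K₁ EM, (p : ℤ) ∣ P.ord g) →
      ∀ P : Place K₁ EM, (p : ℤ) ∣ P.ord (σ g))
    {f : EM} (hf : f ≠ 0)
    (hord : ∀ j' : ℕ, j' ≤ m - 1 → ∀ P : Place K₁ EM,
      (p : ℤ) ∣ P.ord ((fun g => NA (B g))^[j'] f))
    (hsat : ∃ c : K₁, c ≠ 0 ∧ ValDepth π p VM 1 f c) :
    ∃ (c : K₁) (u : EM), c ≠ 0 ∧
      σ ((fun g => NA (B g))^[m - 1] f) / ((fun g => NA (B g))^[m - 1] f) ^ a =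
        algebraMap K₁ EM c * u ^ p := by
  have hp := h.q_prime
  have hp1 : 0 < p - 1 := Nat.sub_pos_of_lt hp.one_lt
  have he₁ : 0 < m * (p - 1) := Nat.mul_pos hm hp1
  haveI : FiniteDimensional KM EM := h.geo.finite
  set T := SSModel.twoLevel h he₁ hpe D with hTdef
  set Tp : EM → EM := fun g => NA (B g) with hTp
  have hTne : ∀ g : EM, g ≠ 0 → Tp g ≠ 0 := fun g hg => T.NA_ne_zero ((map_ne_zero B).mpr hg)
  have hne : ∀ j' : ℕ, Tp^[j'] f ≠ 0 := by
    intro j'
    induction j' with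
    | zero => exact hf
    | succ j' ih => rw [Function.iterate_succ_apply']; exact hTne _ ih
  -- depth `(j + 1) p` of `T ^ j f`
  have key : ∀ j' : ℕ, j' ≤ m - 1 →
      ∃ c : K₁, c ≠ 0 ∧ ValDepth π p VM ((j' + 1) * p) (Tp^[j'] f) c := by
    intro j'
    induction j' with
    | zero =>
      intro _
      refine SSModel.valDepth_climb h he₁ hpe hf (hord 0 (Nat.zero_le _)) (j' := 0) ?_ ?_
      · rw [zero_add, one_mul, mul_comm m, mul_assoc, mul_comm m p]
        calc p * (p - 1) = p * (p - 1) * 1 := (mul_one _).symm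
          _ ≤ p * (p - 1) * m := Nat.mul_le_mul_left _ hm
          _ = (p - 1) * (p * m) := by ring
      · rw [zero_mul, zero_add]; exact hsat
    | succ j' ih =>
      intro hj
      have hprev := ih (by omega)
      have hlt : (j' + 1) * p * (p - 1) < m * (p - 1) * p := by
        have h1 : j' + 1 < m := by omega
        calc (j' + 1) * p * (p - 1) = (j' + 1) * (p * (p - 1)) := by ring
          _ < m * (p * (p - 1)) := Nat.mul_lt_mul_of_pos_right h1 (Nat.mul_pos hp.pos hp1)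
          _ = m * (p - 1) * p := by ring
      have hC2 := SSModel.valDepth_hecke_succ h he₁ hpe D (i := (j' + 1) * p)
        (Nat.mul_pos (Nat.succ_pos _) hp.pos) (Dvd.intro_left _ rfl) hlt hprev
      rw [Function.iterate_succ_apply']
      refine SSModel.valDepth_climb h he₁ hpe (hTne _ (hne j')) ?_ (j' := j' + 1) ?_ hC2
      · have := hord (j' + 1) hj
        rwa [Function.iterate_succ_apply'] at this
      · have h1 : j' + 1 + 1 ≤ m := by omega
        calc (j' + 1 + 1) * p * (p - 1) = (j' + 1 + 1) * (p * (p - 1)) := by ring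
          _ ≤ m * (p * (p - 1)) := Nat.mul_le_mul_right _ h1
          _ = m * (p - 1) * p := by ring
  have htop := key (m - 1) le_rfl
  rw [Nat.sub_add_cancel hm] at htop
  set g := Tp^[m - 1] f with hg
  have hg0 : g ≠ 0 := hne _
  -- (Δ3)
  have hΔ3 := SSModel.valDepth_sigma_top h he₁ hpe D σ hσK hσW hσζ hm hlam htop
  -- (Δ6)
  have hF0 : σ g / g ^ a ≠ 0 := div_ne_zero ((map_ne_zero σ).mpr hg0) (pow_ne_zero a hg0)
  have hgord : ∀ P : Place K₁ EM, (p : ℤ) ∣ P.ord g := hord (m - 1) le_rfl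
  have hFord : ∀ P : Place K₁ EM, (p : ℤ) ∣ P.ord (σ g / g ^ a) := by
    intro P
    rw [div_eq_mul_inv, P.ord_mul ((map_ne_zero σ).mpr hg0) (inv_ne_zero (pow_ne_zero a hg0)),
      P.ord_inv, ← zpow_natCast, P.ord_zpow]
    exact dvd_add (hσord g hgord P) ((dvd_neg).mpr (Dvd.dvd.mul_left (hgord P) _))
  have hN : m * (p - 1) * p < (m * p + 1) * (p - 1) := by
    calc m * (p - 1) * p = m * p * (p - 1) := by ring
      _ < m * p * (p - 1) + (p - 1) := Nat.lt_add_of_pos_right hp1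
      _ = (m * p + 1) * (p - 1) := by ring
  exact GeoHyps.kummer_one_sheet_of_ne_zero hp he₁ hpe h.geo VM h.gauss_M ζ hζ _ hF0 hFord hN hΔ3

end Core

end Fermat.Agent.NP
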