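import Mathlib
import Fermat.Agent.NP.OLDBASE_helper7_Core
import Fermat.Agent.NP.HOSTP_helper7_LegNorm
import Fermat.Agent.NP.BASEP_helper2_Iface
import Fermat.Agent.SS.MODELS_helper7_AtBases
import Fermat.Agent.SS.AUT_helper1_Host

/-!
# NP33 — helper7 — OLD-BASE: `LegOldBaseP` from the saturation statement
-/

set_option autoImplicit false
set_option linter.unusedSectionVars false
set_option linter.unusedVariables false
set_option linter.style.haveILetI false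

open HahnSeries IntermediateField AlgebraicCurve ModularCurve IsLocalRing

namespace Fermat.Agent.NP

open Fermat.Agent.JA Fermat.Agent.FF Fermat.Agent.SS Fermat.Agent.S35 Fermat.Agent.Igusa

open scoped Fermat.Agent.JA.Host

/-- `Ω = AlgebraicClosure ℚ`. -/
local notation "Ω" => AlgebraicClosure ℚ

/-- **the saturation statement at the Galois bases** (level `M`): an inertia-split function has
depth `≥ 1` along the Gauss valuation. -/
def LegSatBaseP : Prop :=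
  ∀ (M : ℕ) [NeZero M] (p : ℕ) [NeZero p] [NeZero (M * p)], p.Prime → p ≠ 2 → ¬ p ∣ M →
  ∀ (A : ValuationSubring Ω), A.LiesOverPrime p →
  ∀ (K₁ : IntermediateField ℚ Ω) [Normal ℚ ↥K₁], IsGalBase p K₁ →
  ∀ [IsDiscreteValuationRing ↥(baseRing A K₁)] (ϖ : ↥(baseRing A K₁)), Irreducible ϖ →
  ∀ (h2 : IsUnit (2 : ↥(baseRing A K₁))) (f : ↥(legE ↥K₁ M)), f ≠ 0 →
    IsInertiaSplit A K₁ M p f →
    ∃ c : ↥K₁, c ≠ 0 ∧ ValDepth ϖ p (legWinf ↥(baseRing A K₁) ↥K₁ h2 M) 1 f c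

set_option maxHeartbeats 1600000 in
/-- **OLD-BASE** from the saturation statement. -/
theorem legOldBaseP_of_sat (Hsat : LegSatBaseP) : LegOldBaseP := by
  intro M _ p _ _ hp hp2 hpM A hA K₁ _ hK₁ hζex
  obtain ⟨ζ₀, hζ₀⟩ := hζex
  classical
  haveI : Fact p.Prime := ⟨hp⟩
  haveI : IsDiscreteValuationRing ↥(baseRing A K₁) := hK₁.isBase.isDiscreteValuationRing hA
  haveI : CharZero ↥(baseRing A K₁) := charZero_valuationSubring_of_algebraRat _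
  obtain ⟨ϖ, hϖ⟩ := IsDiscreteValuationRing.exists_irreducible ↥(baseRing A K₁)
  have h2 : IsUnit (2 : ↥(baseRing A K₁)) := isUnit_ofNat_baseRing hA K₁ Nat.prime_two hp2
  obtain ⟨x, y, hbez⟩ := exists_bezout_of_prime_of_not_dvd hp hpM
  letI := baseToComplex K₁
  haveI : IsAlgClosed (ResidueField ↥(baseRing A K₁)) := hK₁.isBase.isAlgClosed_residueField hA
  have hpϖ := natCast_mem_span_uniformizer_baseRing hA K₁ hϖ
  have hmodel : SSModelLeg ↥(baseRing A K₁) ↥K₁ ϖ h2 hbez hp hp2 :=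
    ssModelLeg ↥(baseRing A K₁) ↥K₁ hϖ h2 hbez hp hp2 hpϖ
      (geoHyps_legE_baseRing hA M hpM hK₁.isBase hp2 hϖ)
  haveI : FiniteDimensional ↥(↥K₁)⟮jqNModC ↥K₁ 2⟯ ↥(legE ↥K₁ (M * p)) :=
    finite_legE_adjoin_j ↥K₁ (M * p)
  have h' := SSModelLeg.ssModel ↥(baseRing A K₁) ↥K₁ hmodel
  have D := legSSNormData ↥(baseRing A K₁) ↥K₁ hϖ hmodel
  -- `ζ` in the base ring
  have hmem : ζ₀ ∈ baseRing A K₁ := by
    rw [mem_baseRing_iff]
    have h1 : (A.valuation (ζ₀ : Ω)) ^ p = 1 := by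
      rw [← map_pow]
      have : ((ζ₀ : Ω)) ^ p = 1 := by
        have := congrArg (fun z : ↥K₁ => (z : Ω)) hζ₀.pow_eq_one
        exact this
      rw [this, map_one]
    exact le_of_eq (eq_one_of_pow_eq_one' hp.ne_zero h1)
  set ζ : ↥(baseRing A K₁) := ⟨ζ₀, hmem⟩ with hζdef
  have hζ : IsPrimitiveRoot ζ p :=
    IsPrimitiveRoot.of_map_of_injective (f := (baseRing A K₁).subtype) hζ₀ Subtype.val_injective
  obtain ⟨m, u₀, ε, hm, hlam, hpe⟩ := exists_zeta_sub_one_eq_pow_mul hϖ hp hpϖ hζ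
  refine ⟨m - 1, ?_⟩
  intro f hf hord hsplit σ hσ a ha
  have hsat := Hsat M p hp hp2 hpM A hA K₁ hK₁ ϖ hϖ h2 f hf hsplit
  -- the automorphism
  set σ' : ↥(legE ↥K₁ M) →+* ↥(legE ↥K₁ M) :=
    ((coeffRingAut (coeffStable_legE ↥K₁ M) (resGal K₁ σ) : ↥(legE ↥K₁ M) ≃+* ↥(legE ↥K₁ M)) :
      ↥(legE ↥K₁ M) →+* ↥(legE ↥K₁ M)) with hσdef
  have hσK : ∀ c : ↥K₁, ∃ c' : ↥K₁, σ' (algebraMap ↥K₁ ↥(legE ↥K₁ M) c) =
      algebraMap ↥K₁ ↥(legE ↥K₁ M) c' :=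
    fun c => ⟨resGal K₁ σ c, coeffRingAut_algebraMap (coeffStable_legE ↥K₁ M) (resGal K₁ σ) c⟩
  have hσW : ∀ y ∈ legWinf ↥(baseRing A K₁) ↥K₁ h2 M,
      (legWinf ↥(baseRing A K₁) ↥K₁ h2 M).valuation (σ' y - y) < 1 := by
    intro y hy
    exact valuation_coeffRingAut_sub_lt_one
      (hM := legE_le_gaussField ↥(baseRing A K₁) ↥K₁ h2 M) (coeffStable_legE ↥K₁ M) hσ hy
  have hσζ : σ' (algebraMap ↥(baseRing A K₁) ↥(legE ↥K₁ M) ζ) =
      algebraMap ↥(baseRing A K₁) ↥(legE ↥K₁ M) ζ ^ a := by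
    haveI : IsScalarTower ↥(baseRing A K₁) ↥K₁ ↥(legE ↥K₁ M) :=
      isScalarTower_base_const ↥(baseRing A K₁) ↥K₁ ↥(↥K₁)⟮legT ↥K₁⟯ ↥(legE ↥K₁ M)
    have e1 : algebraMap ↥(baseRing A K₁) ↥(legE ↥K₁ M) ζ = algebraMap ↥K₁ ↥(legE ↥K₁ M) ζ₀ :=
      IsScalarTower.algebraMap_apply ↥(baseRing A K₁) ↥K₁ ↥(legE ↥K₁ M) ζ
    rw [e1, hσdef]
    show coeffRingAut (coeffStable_legE ↥K₁ M) (resGal K₁ σ) (algebraMap ↥K₁ ↥(legE ↥K₁ M) ζ₀) = _
    rw [coeffRingAut_algebraMap, ← map_pow]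
    congr 1
    apply Subtype.ext
    rw [coe_resGal]
    have : ((ζ₀ : Ω)) ^ p = 1 := by
      have := congrArg (fun z : ↥K₁ => (z : Ω)) hζ₀.pow_eq_one
      exact this
    rw [ha _ this]
    rfl
  have hσord : ∀ g : ↥(legE ↥K₁ M), (∀ P : Place ↥K₁ ↥(legE ↥K₁ M), (p : ℤ) ∣ P.ord g) →
      ∀ P : Place ↥K₁ ↥(legE ↥K₁ M), (p : ℤ) ∣ P.ord (σ' g) := by
    intro g hg P
    have e1 : σ' g = legGalois ↥K₁ M (resGal K₁ σ) • g := rfl
    rw [e1, place_ord_smul_eq]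
    exact hg _
  exact SSModel.oldBase_core h' hm hpe D hlam hζ σ' hσK hσW hσζ hσord hf hord hsat

end Fermat.Agent.NP
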