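import Mathlib
import Fermat.Agent.NP.SAT_helper7_Sheet
import Fermat.Agent.NP.OLDBASE_helper7_Main

/-!
# NP33 — helper7 — the saturation statement at the Galois bases (level `M`) and `LegOldBaseP`
-/

set_option autoImplicit false
set_option linter.unusedSectionVars false
set_option linter.unusedVariables false
set_option linter.style.haveILetI false

open HahnSeries IntermediateField AlgebraicCurve ModularCurve IsLocalRing

namespace Fermat.Agent.NP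

open Fermat.Agent.JA Fermat.Agent.FF Fermat.Agent.SS Fermat.Agent.S35 Fermat.Agent.Igusa

open scoped Fermat.Agent.JA.Host

/-- `Ω = AlgebraicClosure ℚ`. -/
local notation "Ω" => AlgebraicClosure ℚ

section Core

variable {R : Type*} [CommRing R] [IsDomain R] [IsDiscreteValuationRing R] [CharZero R]
  {K₁ : Type*} [Field K₁] [Algebra R K₁] [IsFractionRing R K₁]
  {KM : Type*} [Field KM] [Algebra K₁ KM] [Algebra R KM] [IsScalarTower R K₁ KM]
  {EM : Type*} [Field EM] [Algebra KM EM] [Algebra K₁ EM] [IsScalarTower K₁ KM EM] [Algebra R EM]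
  [IsScalarTower R KM EM]
  {KN : Type*} [Field KN] [Algebra K₁ KN] [Algebra R KN] [IsScalarTower R K₁ KN]
  {EN : Type*} [Field EN] [Algebra KN EN] [Algebra K₁ EN] [IsScalarTower K₁ KN EN] [Algebra R EN]
  [IsScalarTower R KN EN] [FiniteDimensional KN EN]
  {π : R} {p n : ℕ} {S : Finset R} {t : KM} {jM : EM} {j : KN} {A B : EM →+* EN}
  {VM : ValuationSubring EM} {Winf W0 : ValuationSubring EN}
  [IsAlgClosed (IsLocalRing.ResidueField R)]

/-- **the saturation lemma at the level of good reduction of an `SSModel`** (`ValDepth`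
language). -/
theorem SSModel.valDepth_one_of_split (h : SSModel K₁ π p n S t jM j A B VM Winf W0)
    {e₁ : ℕ} (he₁ : 0 < e₁) {ε : Rˣ} (hpe : (p : R) = ε * π ^ e₁) {NA NB : EN →* EM}
    (D : SSNormData p A B VM Winf W0 NA NB) (G : Set (EM →+* EM))
    (hG : ∀ σ ∈ G, (∀ c : K₁, ∃ c' : K₁, σ (algebraMap K₁ EM c) = algebraMap K₁ EM c') ∧
      ∀ y ∈ VM, VM.valuation (σ y - y) < 1)
    {f : EM} {k : ℕ} {c : K₁} (hc : c ≠ 0) {u : EMˣ}
    (hu : u ∈ Subgroup.closure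
      {u : EMˣ | ∃ (g : EMˣ) (σ : EM →+* EM), σ ∈ G ∧ (u : EM) = σ (g : EM) / (g : EM)})
    (e : f ^ p ^ k = algebraMap K₁ EM c * u) :
    ∃ c : K₁, c ≠ 0 ∧ ValDepth π p VM 1 f c := by
  set T := SSModel.twoLevel h he₁ hpe D with hTdef
  have hp := h.q_prime
  haveI := SSModel.isDiscreteValuationRing_VM h
  have hG' : ∀ σ ∈ G, (∀ c ∈ T.BM.K₁, σ c ∈ T.BM.K₁) ∧
      ∀ y ∈ T.SM.W, PiDvd T.BM.π T.SM.W 1 (σ y - y) := by
    intro σ hσ
    obtain ⟨hσK, hσW⟩ := hG σ hσ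
    refine ⟨?_, ?_⟩
    · rintro c ⟨c', rfl⟩
      obtain ⟨c'', e⟩ := hσK c'
      exact ⟨c'', e.symm⟩
    · intro y hy
      have hy' : y ∈ VM := hy
      refine ⟨(σ y - y) * (algebraMap R EM π)⁻¹, SSModel_div_pi_mem h (hσW y hy'), ?_⟩
      have := SSModel_piM_ne_zero h
      show σ y - y = algebraMap R EM π ^ 1 * ((σ y - y) * (algebraMap R EM π)⁻¹)
      field_simp
  have hU := T.SM.isConstRes_of_mem_closure G hG' hu
  exact (SSModel.twoLevel_depthGE_iff h he₁ hpe D).mp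
    (Sheet.depthGE_one_of_split hp.ne_zero (S := T.SM) (c := algebraMap K₁ EM c) ⟨c, rfl⟩
      ((map_ne_zero _).mpr hc) hU e)

end Core

set_option maxHeartbeats 1600000 in
/-- **the saturation statement at the Galois bases.** -/
theorem legSatBaseP : LegSatBaseP := by
  intro M _ p _ _ hp hp2 hpM A hA K₁ _ hK₁ _ ϖ hϖ h2 f hf hsplit
  classical
  haveI : Fact p.Prime := ⟨hp⟩
  haveI : CharZero ↥(baseRing A K₁) := charZero_valuationSubring_of_algebraRat _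
  obtain ⟨x, y, hbez⟩ := exists_bezout_of_prime_of_not_dvd hp hpM
  letI := baseToComplex K₁
  haveI : IsAlgClosed (ResidueField ↥(baseRing A K₁)) := hK₁.isBase.isAlgClosed_residueField hA
  have hpϖ := natCast_mem_span_uniformizer_baseRing hA K₁ hϖ
  have hmodel : SSModelLeg ↥(baseRing A K₁) ↥K₁ ϖ h2 hbez hp hp2 :=
    ssModelLeg ↥(baseRing A K₁) ↥K₁ hϖ h2 hbez hp hp2 hpϖ
      (geoHyps_legE_baseRing hA M hpM hK₁.isBase hp2 hϖ)
  haveI : FiniteDimensional ↥(↥K₁)⟮jqNModC ↥K₁ 2⟯ ↥(legE ↥K₁ (M * p)) :=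
    finite_legE_adjoin_j ↥K₁ (M * p)
  have h' := SSModelLeg.ssModel ↥(baseRing A K₁) ↥K₁ hmodel
  have D := legSSNormData ↥(baseRing A K₁) ↥K₁ hϖ hmodel
  -- `p = ε ϖ ^ e₁`
  have hp0 : ((p : ℕ) : ↥(baseRing A K₁)) ≠ 0 := Nat.cast_ne_zero.mpr hp.ne_zero
  obtain ⟨e₁, ε, hpe'⟩ := IsDiscreteValuationRing.eq_unit_mul_pow_irreducible hp0 hϖ
  have he₁ : 0 < e₁ := by
    rcases Nat.eq_zero_or_pos e₁ with h0 | h0
    · exfalso
      rw [h0, pow_zero, mul_one] at hpe'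
      have hu : IsUnit ((p : ℕ) : ↥(baseRing A K₁)) := hpe' ▸ Units.isUnit _
      obtain ⟨z, hz⟩ := Ideal.mem_span_singleton.mp hpϖ
      rw [hz] at hu
      exact hϖ.not_isUnit (isUnit_of_mul_isUnit_left hu)
    · exact h0
  obtain ⟨k, c, u, hc, hu, e⟩ := hsplit
  -- the inertia automorphisms
  let G : Set (↥(legE ↥K₁ M) →+* ↥(legE ↥K₁ M)) :=
    {σ' | ∃ τ ∈ A.inertiaSubgroupIn ℚ, σ' =
      ((coeffRingAut (coeffStable_legE ↥K₁ M) (resGal K₁ τ) : ↥(legE ↥K₁ M) ≃+* ↥(legE ↥K₁ M)) :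
        ↥(legE ↥K₁ M) →+* ↥(legE ↥K₁ M))}
  have hG : ∀ σ' ∈ G, (∀ c : ↥K₁, ∃ c' : ↥K₁, σ' (algebraMap ↥K₁ ↥(legE ↥K₁ M) c) =
      algebraMap ↥K₁ ↥(legE ↥K₁ M) c') ∧ ∀ y ∈ legWinf ↥(baseRing A K₁) ↥K₁ h2 M,
        (legWinf ↥(baseRing A K₁) ↥K₁ h2 M).valuation (σ' y - y) < 1 := by
    rintro σ' ⟨τ, hτ, rfl⟩
    refine ⟨fun c => ⟨resGal K₁ τ c,
      coeffRingAut_algebraMap (coeffStable_legE ↥K₁ M) (resGal K₁ τ) c⟩, ?_⟩
    intro y hy
    exact valuation_coeffRingAut_sub_lt_one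
      (hM := legE_le_gaussField ↥(baseRing A K₁) ↥K₁ h2 M) (coeffStable_legE ↥K₁ M) hτ hy
  have hu' : u ∈ Subgroup.closure
      {u : (↥(legE ↥K₁ M))ˣ | ∃ (g : (↥(legE ↥K₁ M))ˣ) (σ' : ↥(legE ↥K₁ M) →+* ↥(legE ↥K₁ M)),
        σ' ∈ G ∧ (u : ↥(legE ↥K₁ M)) = σ' (g : ↥(legE ↥K₁ M)) / (g : ↥(legE ↥K₁ M))} := by
    refine Subgroup.closure_mono ?_ hu
    rintro v ⟨g, τ, hτ, ev⟩
    exact ⟨g, _, ⟨τ, hτ, rfl⟩, ev⟩
  exact SSModel.valDepth_one_of_split h' he₁ hpe' D G hG hc hu' e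

/-- **OLD-BASE.** -/
theorem legOldBaseP : LegOldBaseP := legOldBaseP_of_sat legSatBaseP

end Fermat.Agent.NP
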