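/-
NP33 (S33) — helper2 — **(KEY-OLD) is proved**: `keyOldStatement : KeyOldStatement`, from helper7's
base statements `legOldBaseP`, `legOldTopBaseP` and the two [BASEP] descents.
-/
import Mathlib
import Fermat.Agent.NP.BASEP_helper2_OldTopDesc
import Fermat.Agent.NP.SAT_helper7_Main
import Fermat.Agent.NP.OLDTOP_helper7_Main

set_option autoImplicit false

namespace Fermat.Agent.NP

/-- **(KEY-OLD), all levels.** -/
theorem keyOldStatement : KeyOldStatement :=
  keyOldStatement_of_bases legOldBaseP legOldTopBaseP

end Fermat.Agent.NP
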