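/-
NP33 (S33) — helper2 — **[EPS33], part 1: the determinant contradiction.**

If `det ρ' = ε` (`DetIsCyclotomic`) and `ρ'(σ) ≡ a` modulo `p` as an endomorphism (for a `σ` acting
on `μ_p` by `ζ ↦ ζ ^ a`), then `a ^ 2 ≡ a` modulo `𝔪_B`; this is impossible when `a ≢ 0, 1 mod p`.
-/
import Mathlib
import Fermat.Prelude.Def_GaloisRep_LocalConditions

set_option autoImplicit false
set_option linter.unusedSectionVars false
set_option linter.unusedVariables false
set_option linter.style.haveILetI false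

namespace Fermat.Agent.NP

open IsLocalRing

local notation "Ω" => AlgebraicClosure ℚ
local notation "GQ" => (AlgebraicClosure ℚ ≃ₐ[ℚ] AlgebraicClosure ℚ)

section Det

variable {B : Type} [CommRing B] [IsLocalRing B] (ρ' : GaloisRepAdic B)

/-- the determinant of an endomorphism of a free module of rank two which is `≡ a` modulo `c`. -/
theorem det_sub_sq_mem_of_scalar_mod {f : Module.End B ρ'.V} {a c : B}
    (h : ∀ w : ρ'.V, ∃ w' : ρ'.V, f w - a • w = c • w') :
    LinearMap.det f - a ^ 2 ∈ Ideal.span {c} := by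
  let b : Module.Basis (Fin 2) B ρ'.V := Module.finBasisOfFinrankEq B ρ'.V ρ'.finrank_eq
  choose w' hw' using fun k => h (b k)
  let H : Module.End B ρ'.V := b.constr B w'
  have hf : f = a • (1 : Module.End B ρ'.V) + c • H := by
    apply b.ext
    intro k
    rw [LinearMap.add_apply, LinearMap.smul_apply, LinearMap.smul_apply, Module.End.one_apply,
      Module.Basis.constr_basis, ← hw' k]
    abel
  rw [← LinearMap.det_toMatrix b, hf, map_add, map_smul, map_smul, LinearMap.toMatrix_one,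
    Matrix.det_fin_two]
  rw [Ideal.mem_span_singleton']
  set X := LinearMap.toMatrix b b H with hX
  refine ⟨a * X 0 0 + a * X 1 1 + c * X 0 0 * X 1 1 - c * X 0 1 * X 1 0, ?_⟩
  simp only [Matrix.add_apply, Matrix.smul_apply, Matrix.one_apply_eq, Matrix.one_apply_ne,
    ne_eq, Fin.zero_eq_one_iff, Fin.one_eq_zero_iff, Nat.succ_ne_self, not_false_eq_true,
    smul_eq_mul, mul_one, mul_zero, zero_add]
  ring

/-- **the determinant contradiction.** -/
theorem sq_sub_self_mem_of_scalar_mod {p : ℕ} (hdet : ρ'.DetIsCyclotomic p) {σ : GQ} {a : ℕ}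
    (ha : ∀ ζ : Ω, ζ ^ p = 1 → σ ζ = ζ ^ a)
    (h : ∀ w : ρ'.V, ∃ w' : ρ'.V, ρ'.ρ σ w - (a : B) • w = (p : B) • w') :
    ((a : B) ^ 2 - (a : B)) ∈ maximalIdeal B := by
  have h1 := det_sub_sq_mem_of_scalar_mod ρ' h
  have h2 := hdet.2 1 σ a (by
    intro μ hμ
    rw [pow_one] at hμ
    exact ha μ hμ)
  rw [pow_one] at h2
  have h3 : ((a : B) ^ 2 - (a : B)) =
      (LinearMap.det (ρ'.ρ σ) - (a : B)) - (LinearMap.det (ρ'.ρ σ) - (a : B) ^ 2) := by ring
  have hle : Ideal.span {(p : B)} ≤ maximalIdeal B := by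
    rw [Ideal.span_singleton_le_iff_mem]
    exact hdet.1
  rw [h3]
  exact Ideal.sub_mem _ (hle h2) (hle h1)

/-- a natural number prime to `p` is a unit in a local ring with `p ∈ 𝔪`. -/
theorem natCast_not_mem_maximalIdeal {p : ℕ} (hp : p.Prime) (hpB : (p : B) ∈ maximalIdeal B)
    {n : ℕ} (hn : ¬ p ∣ n) : (n : B) ∉ maximalIdeal B := by
  intro h
  have hcop : Nat.Coprime p n := (Nat.Prime.coprime_iff_not_dvd hp).2 hn
  have hbez := Nat.gcd_eq_gcd_ab p n
  rw [hcop.gcd_eq_one] at hbez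
  have h1 : (1 : B) = (p : B) * ((p.gcdA n : ℤ) : B) + (n : B) * ((p.gcdB n : ℤ) : B) := by
    have := congrArg (fun z : ℤ => (z : B)) hbez
    simpa using this
  have : (1 : B) ∈ maximalIdeal B := by
    rw [h1]
    exact Ideal.add_mem _ (Ideal.mul_mem_right _ _ hpB) (Ideal.mul_mem_right _ _ h)
  exact (maximalIdeal.isMaximal B).ne_top ((Ideal.eq_top_iff_one _).2 this)

/-- **no `σ` with `ε̄(σ) ≠ 0, 1` acts as the scalar `ε̄(σ)` modulo `p`.** -/
theorem false_of_scalar_mod {p : ℕ} (hp : p.Prime) (hdet : ρ'.DetIsCyclotomic p) {σ : GQ} {a : ℕ}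
    (ha : ∀ ζ : Ω, ζ ^ p = 1 → σ ζ = ζ ^ a) (ha0 : ¬ p ∣ a) (ha1 : ¬ (a ≡ 1 [MOD p]))
    (h : ∀ w : ρ'.V, ∃ w' : ρ'.V, ρ'.ρ σ w - (a : B) • w = (p : B) • w') : False := by
  have h1 := sq_sub_self_mem_of_scalar_mod ρ' hdet ha h
  have hapos : 1 ≤ a := by
    rcases Nat.eq_zero_or_pos a with h0 | h0
    · exact absurd (h0 ▸ dvd_zero p) ha0
    · exact h0
  have h2 : ((a : B) ^ 2 - (a : B)) = (a : B) * ((a - 1 : ℕ) : B) := by
    rw [Nat.cast_sub hapos]
    push_cast
    ring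
  rw [h2] at h1
  rcases (maximalIdeal.isMaximal B).isPrime.mem_or_mem h1 with h3 | h3
  · exact natCast_not_mem_maximalIdeal hp hdet.1 ha0 h3
  · refine natCast_not_mem_maximalIdeal hp hdet.1 ?_ h3
    intro hd
    apply ha1
    exact ((Nat.modEq_iff_dvd' hapos).2 hd).symm

end Det

end Fermat.Agent.NP
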