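/-
NP33 (S33) — helper2 — **[OLDB], part 1: the ordinary vector of a residually ordinary representation
with cyclotomic determinant.**

`ρ : GaloisRepAdic T` with `det ρ = ε` and `ρ̄` ordinary at `p`, `P ∣ p`: there is `l ∈ V`,
`l ∉ 𝔪 V`, with `ρ(σ) l ≡ a l` modulo `𝔪 V` for every `σ ∈ I_P` acting on `μ_p` by `ζ ↦ ζ ^ a`.
Also: a `σ ∈ I_P` with `ε̄(σ) ≠ 1` acts non-trivially on `ρ̄`.
-/
import Mathlib
import Fermat.Agent.NP.ALG33_helper2_Main
import Fermat.Agent.NP.EPS33_helper2_Det

set_option autoImplicit false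
set_option linter.unusedSectionVars false
set_option linter.unusedVariables false
set_option linter.style.haveILetI false

namespace Fermat.Agent.NP

open IsLocalRing TensorProduct

local notation "Ω" => AlgebraicClosure ℚ
local notation "GQ" => (AlgebraicClosure ℚ ≃ₐ[ℚ] AlgebraicClosure ℚ)

section Line

variable {T : Type} [CommRing T] [IsLocalRing T] (ρ : GaloisRepAdic T)

/-- the kernel of `V → κ ⊗ V` is `𝔪 V`. -/
theorem one_tmul_eq_zero_iff (v : ρ.V) :
    (1 : ResidueField T) ⊗ₜ[T] v = 0 ↔ v ∈ maximalIdeal T • (⊤ : Submodule T ρ.V) := by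
  let b : Module.Basis (Fin 2) T ρ.V := Module.finBasisOfFinrankEq T ρ.V ρ.finrank_eq
  let β : Module.Basis (Fin 2) (ResidueField T) (ResidueField T ⊗[T] ρ.V) :=
    Algebra.TensorProduct.basis (ResidueField T) b
  have hβ : ∀ k, β k = (1 : ResidueField T) ⊗ₜ[T] b k := fun k =>
    Algebra.TensorProduct.basis_apply b k
  have hexp : (1 : ResidueField T) ⊗ₜ[T] v = ∑ k, residue T (b.repr v k) • β k := by
    conv_lhs => rw [← b.sum_repr v]
    rw [TensorProduct.tmul_sum]
    refine Finset.sum_congr rfl fun k _ => ?_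
    rw [hβ, TensorProduct.tmul_smul, TensorProduct.smul_tmul', TensorProduct.smul_tmul',
      smul_eq_mul, mul_one, Algebra.smul_def, mul_one]
    rfl
  constructor
  · intro h
    rw [hexp] at h
    have h1 : ∀ k, residue T (b.repr v k) = 0 :=
      fun k => Fintype.linearIndependent_iff.1 β.linearIndependent _ h k
    rw [← b.sum_repr v]
    refine Submodule.sum_mem _ fun k _ => ?_
    refine Submodule.smul_mem_smul ?_ Submodule.mem_top
    exact (residue_eq_zero_iff _).1 (h1 k)
  · intro h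
    refine Submodule.smul_induction_on (p := fun v => (1 : ResidueField T) ⊗ₜ[T] v = 0) h ?_ ?_
    · intro r hr w _
      rw [TensorProduct.tmul_smul, TensorProduct.smul_tmul', Algebra.smul_def, mul_one]
      have : algebraMap T (ResidueField T) r = 0 := (residue_eq_zero_iff r).2 hr
      rw [this, TensorProduct.zero_tmul]
    · intro x y hx hy
      rw [TensorProduct.tmul_add, hx, hy, add_zero]

/-- the determinant of an endomorphism of a plane which is unipotent modulo the first basis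
vector. -/
theorem det_of_sub_mem_span {k : Type*} [Field k] {W : Type*} [AddCommGroup W] [Module k W]
    (bb : Module.Basis (Fin 2) k W) (f : Module.End k W) {c₀ c₁ : k}
    (h0 : f (bb 0) - bb 0 = c₀ • bb 0) (h1 : f (bb 1) - bb 1 = c₁ • bb 0) :
    LinearMap.det f = 1 + c₀ := by
  have e0 : f (bb 0) = (1 + c₀) • bb 0 := by
    rw [add_smul, one_smul, ← h0]; abel
  have e1 : f (bb 1) = c₁ • bb 0 + bb 1 := by
    rw [← h1]; abel
  rw [← LinearMap.det_toMatrix bb, Matrix.det_fin_two]
  simp only [LinearMap.toMatrix_apply, e0, e1, map_add, map_smul, Module.Basis.repr_self,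
    Finsupp.smul_apply, Finsupp.add_apply, Finsupp.single_apply, smul_eq_mul]
  simp

/-- **the ordinary vector.** -/
theorem exists_ordinary_vector (p : ℕ) (hdet : ρ.DetIsCyclotomic p)
    (hres : (GaloisRepAdic.ofResidualGaloisRep ρ.residual).IsOrdinaryAt p)
    (P : ValuationSubring Ω) (hP : P.LiesOverPrime p) :
    ∃ l : ρ.V, l ∉ maximalIdeal T • (⊤ : Submodule T ρ.V) ∧
      ∀ σ ∈ P.inertiaSubgroupIn ℚ, ∀ a : ℕ, (∀ ζ : Ω, ζ ^ p = 1 → σ ζ = ζ ^ a) →
        ρ.ρ σ l - (a : T) • l ∈ maximalIdeal T • (⊤ : Submodule T ρ.V) := by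
  obtain ⟨Lb, bb, hLb, hIb⟩ := residual_ordinary_unfold ρ p hres P hP
  obtain ⟨l, hl⟩ := exists_one_tmul_eq ρ (bb 0)
  refine ⟨l, ?_, ?_⟩
  · rw [← one_tmul_eq_zero_iff, hl]
    exact bb.ne_zero 0
  · intro σ hσ a ha
    rw [← one_tmul_eq_zero_iff]
    set f : Module.End (ResidueField T) (ResidueField T ⊗[T] ρ.V) :=
      (ρ.ρ σ).baseChange (ResidueField T) with hf
    have h0 := hIb σ hσ (bb 0)
    have h1 := hIb σ hσ (bb 1)
    rw [hLb, Submodule.mem_span_singleton] at h0 h1
    obtain ⟨c₀, hc₀⟩ := h0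
    obtain ⟨c₁, hc₁⟩ := h1
    have hd := det_of_sub_mem_span bb f hc₀.symm hc₁.symm
    have hd2 : LinearMap.det f = algebraMap T (ResidueField T) (LinearMap.det (ρ.ρ σ)) := by
      rw [hf, LinearMap.det_baseChange]
    have hd3 := hdet.2 1 σ a (by
      intro μ hμ
      rw [pow_one] at hμ
      exact ha μ hμ)
    rw [pow_one] at hd3
    have hle : Ideal.span {(p : T)} ≤ maximalIdeal T := by
      rw [Ideal.span_singleton_le_iff_mem]
      exact hdet.1
    have hd4 : residue T (LinearMap.det (ρ.ρ σ)) = residue T (a : T) := by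
      rw [← sub_eq_zero, ← map_sub, residue_eq_zero_iff]
      exact hle hd3
    have hd5 : (1 : ResidueField T) + c₀ = residue T (a : T) := by
      rw [← hd, hd2, ← hd4]
      rfl
    have h2 : f (bb 0) = residue T (a : T) • bb 0 := by
      rw [← hd5, add_smul, one_smul, hc₀]
      abel
    rw [TensorProduct.tmul_sub, ← LinearMap.baseChange_tmul, hl, ← hf, h2,
      TensorProduct.tmul_smul, hl, sub_eq_zero]
    rw [← algebraMap_smul (ResidueField T) (a : T) (bb 0)]
    rfl

/-- an element of inertia with `ε̄(σ) ≠ 1` acts non-trivially on the residual representation. -/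
theorem residual_ne_one_of_cycAct {p : ℕ} (hp : p.Prime) (hdet : ρ.DetIsCyclotomic p) {σ : GQ}
    {a : ℕ} (ha : ∀ ζ : Ω, ζ ^ p = 1 → σ ζ = ζ ^ a) (ha0 : ¬ p ∣ a) (ha1 : ¬ (a ≡ 1 [MOD p])) :
    ρ.residual.ρ σ ≠ 1 := by
  intro h
  have h1 : (ρ.ρ σ).baseChange (ResidueField T) = 1 := h
  have h2 : LinearMap.det ((ρ.ρ σ).baseChange (ResidueField T)) = 1 := by
    rw [h1, map_one]
  rw [LinearMap.det_baseChange] at h2
  have hd3 := hdet.2 1 σ a (by
    intro μ hμ
    rw [pow_one] at hμ
    exact ha μ hμ)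
  rw [pow_one] at hd3
  have hle : Ideal.span {(p : T)} ≤ maximalIdeal T := by
    rw [Ideal.span_singleton_le_iff_mem]
    exact hdet.1
  have h3 : LinearMap.det (ρ.ρ σ) - 1 ∈ maximalIdeal T := by
    rw [← residue_eq_zero_iff, map_sub, map_one, sub_eq_zero]
    exact h2
  have hapos : 1 ≤ a := by
    rcases Nat.eq_zero_or_pos a with h0 | h0
    · exact absurd (h0 ▸ dvd_zero p) ha0
    · exact h0
  have h4 : ((a - 1 : ℕ) : T) ∈ maximalIdeal T := by
    have : ((a - 1 : ℕ) : T) = (LinearMap.det (ρ.ρ σ) - 1) - (LinearMap.det (ρ.ρ σ) - (a : T)) := by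
      rw [Nat.cast_sub hapos]
      push_cast
      ring
    rw [this]
    exact Ideal.sub_mem _ h3 (hle hd3)
  refine natCast_not_mem_maximalIdeal hp hdet.1 ?_ h4
  intro hd
  apply ha1
  exact ((Nat.modEq_iff_dvd' hapos).2 hd).symm

end Line

end Fermat.Agent.NP
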