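/-
NP33 (S33) — helper2 — **[LAT33], part 1 (pure algebra):** a saturated submodule `K` of a finitely
generated module `P` over a PID is the kernel of an endomorphism `Y` of `P` with `x - Y x ∈ K`
(`1 - Y` is a projector onto `K`).
-/
import Mathlib

set_option autoImplicit false
set_option linter.unusedSectionVars false
set_option linter.unusedVariables false
set_option linter.style.haveILetI false

namespace Fermat.Agent.NP

section Sat

variable {R : Type*} [CommRing R] [IsDomain R] [IsPrincipalIdealRing R]
  {P : Type*} [AddCommGroup P] [Module R P] [Module.Finite R P]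

/-- **a saturated submodule is the kernel of a "complementary projector".** -/
theorem exists_end_ker_eq (K : Submodule R P)
    (hsat : ∀ (r : R) (x : P), r ≠ 0 → r • x ∈ K → x ∈ K) :
    ∃ Y : Module.End R P, (∀ x, Y x = 0 ↔ x ∈ K) ∧ ∀ x, x - Y x ∈ K := by
  haveI : Module.IsTorsionFree R (P ⧸ K) := by
    apply Module.IsTorsionFree.of_smul_eq_zero
    intro r m h
    obtain ⟨x, rfl⟩ := K.mkQ_surjective m
    by_cases hr : r = 0
    · exact Or.inl hr
    · right
      rw [← map_smul, Submodule.mkQ_apply, Submodule.Quotient.mk_eq_zero] at h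
      rw [Submodule.mkQ_apply, Submodule.Quotient.mk_eq_zero]
      exact hsat r x hr h
  haveI : Module.Free R (P ⧸ K) := Module.free_of_finite_type_torsion_free'
  obtain ⟨s, hs⟩ := Module.projective_lifting_property K.mkQ LinearMap.id K.mkQ_surjective
  have hs' : ∀ q, K.mkQ (s q) = q := fun q => LinearMap.congr_fun hs q
  refine ⟨s ∘ₗ K.mkQ, fun x => ?_, fun x => ?_⟩
  · rw [LinearMap.comp_apply]
    constructor
    · intro h
      have h1 := hs' (K.mkQ x)
      rw [h, map_zero] at h1
      rw [← Submodule.Quotient.mk_eq_zero, ← Submodule.mkQ_apply]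
      exact h1.symm
    · intro h
      have : K.mkQ x = 0 := by
        rw [Submodule.mkQ_apply, Submodule.Quotient.mk_eq_zero]
        exact h
      rw [this, map_zero]
  · rw [LinearMap.comp_apply, ← Submodule.Quotient.mk_eq_zero, ← Submodule.mkQ_apply, map_sub,
      hs', sub_self]

end Sat

end Fermat.Agent.NP
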