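/-
NP33 (S33) — helper2 — **[LAT33], part 2: extensions of saturated submodules of `P_R` to `P_{R'}`**
(`R` a PID, `R'` flat over `R`), phrased through annihilating endomorphisms.

`InExt E v` (`E ≤ P_R`, `v ∈ P_{R'}`): every endomorphism `Y` of `P_R` killing `E` has an extension
`parExt Y` killing `v` (for saturated `E` this says `v ∈ R' ⊗ E`).
* `InExt.inf`: `R' ⊗ (E₁ ⊓ E₂) = (R' ⊗ E₁) ⊓ (R' ⊗ E₂)` for saturated `E₁`, `E₂` (flatness);
* `inExt_ker`: the common kernel of two extended transfers is the extension of the common kernel;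
* `InExt.exists_eq_smul`: an endomorphism `g₀` of `P_R` mapping `E` into `r P_R` has an extension
  mapping the extension of `E` into `r P_{R'}`.
-/
import Mathlib
import Fermat.Agent.NP.LAT33_helper2_Sat
import Fermat.Agent.S35.P1_lead_Flat

set_option autoImplicit false
set_option linter.unusedSectionVars false
set_option linter.unusedVariables false
set_option linter.style.haveILetI false

namespace Fermat.Agent.NP

open TensorProduct ModularCurve.Period Fermat.Agent.GR Fermat.Agent.S35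

open scoped MatrixGroups

section Ext

variable {R R' : Type*} [CommRing R] [CommRing R'] [Algebra R R'] [IsAddTorsionFree R]
  [IsAddTorsionFree R'] [Module.Flat R R'] [IsDomain R] [IsPrincipalIdealRing R]
  {Γ' Γ : Subgroup SL(2, ℤ)} [Group.FG Γ'] [Group.FG Γ]

/-- `v` lies in the extension `R' ⊗ E` of the submodule `E` of `P_R`. -/
def InExt (E : Submodule R ↥(parabolicHoms R Γ' R)) (v : ↥(parabolicHoms R' Γ' R')) : Prop :=
  ∀ Y : Module.End R ↥(parabolicHoms R Γ' R), (∀ ψ ∈ E, Y ψ = 0) → parExt R R' Γ' Y v = 0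

/-- a submodule is saturated. -/
def IsSat (E : Submodule R ↥(parabolicHoms R Γ' R)) : Prop :=
  ∀ (r : R) (ψ : ↥(parabolicHoms R Γ' R)), r ≠ 0 → r • ψ ∈ E → ψ ∈ E

theorem IsSat.inf {E₁ E₂ : Submodule R ↥(parabolicHoms R Γ' R)} (h₁ : IsSat E₁) (h₂ : IsSat E₂) :
    IsSat (E₁ ⊓ E₂) :=
  fun r ψ hr h => ⟨h₁ r ψ hr h.1, h₂ r ψ hr h.2⟩

/-- the kernel of a linear map into a torsion-free module is saturated. -/
theorem isSat_ker (X : ↥(parabolicHoms R Γ' R) →ₗ[R] ↥(parabolicHoms R Γ R)) :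
    IsSat (LinearMap.ker X) := by
  intro r ψ hr h
  rw [LinearMap.mem_ker, map_smul] at h
  rw [LinearMap.mem_ker]
  rcases smul_eq_zero.mp h with h1 | h1
  · exact absurd h1 hr
  · exact h1

/-- **flatness: intersections.** -/
theorem InExt.inf {E₁ E₂ : Submodule R ↥(parabolicHoms R Γ' R)} (hs₁ : IsSat E₁) (hs₂ : IsSat E₂)
    {v : ↥(parabolicHoms R' Γ' R')} (h₁ : InExt E₁ v) (h₂ : InExt E₂ v) : InExt (E₁ ⊓ E₂) v := by
  obtain ⟨Y₁, hY₁, -⟩ := exists_end_ker_eq E₁ hs₁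
  obtain ⟨Y₂, hY₂, -⟩ := exists_end_ker_eq E₂ hs₂
  intro Y hY
  refine parExt_apply_eq_zero_of_ker Y₁ Y₂ (parExt R R' Γ' Y₁) (parExt R R' Γ' Y₂)
    (fun ψ => parExt_parMapAlg R R' Γ' Y₁ ψ) (fun ψ => parExt_parMapAlg R R' Γ' Y₂ ψ) Y ?_ v
    (h₁ Y₁ fun ψ hψ => (hY₁ ψ).2 hψ) (h₂ Y₂ fun ψ hψ => (hY₂ ψ).2 hψ)
  intro ψ h1 h2
  exact hY ψ ⟨(hY₁ ψ).1 h1, (hY₂ ψ).1 h2⟩

/-- **flatness: common kernels of two transfers.** -/
theorem inExt_ker (X₁ X₂ : ↥(parabolicHoms R Γ' R) →ₗ[R] ↥(parabolicHoms R Γ R))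
    (X₁' X₂' : ↥(parabolicHoms R' Γ' R') →ₗ[R'] ↥(parabolicHoms R' Γ R'))
    (h₁ : ∀ ψ, X₁' (parMapAlg R R' Γ' ψ) = parMapAlg R R' Γ (X₁ ψ))
    (h₂ : ∀ ψ, X₂' (parMapAlg R R' Γ' ψ) = parMapAlg R R' Γ (X₂ ψ))
    {v : ↥(parabolicHoms R' Γ' R')} (hv₁ : X₁' v = 0) (hv₂ : X₂' v = 0) :
    InExt (LinearMap.ker X₁ ⊓ LinearMap.ker X₂) v := by
  intro Y hY
  refine parExt_apply_eq_zero_of_ker X₁ X₂ X₁' X₂' h₁ h₂ Y ?_ v hv₁ hv₂
  intro ψ h1 h2
  exact hY ψ ⟨h1, h2⟩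

/-- an endomorphism with image in `r P_R` has an extension with image in `r P_{R'}`. -/
theorem parExt_exists_eq_smul (g : Module.End R ↥(parabolicHoms R Γ' R)) (r : R)
    (hg : ∀ ψ, ∃ ψ', g ψ = r • ψ') (v : ↥(parabolicHoms R' Γ' R')) :
    ∃ v' : ↥(parabolicHoms R' Γ' R'), parExt R R' Γ' g v = algebraMap R R' r • v' := by
  obtain ⟨x, rfl⟩ := (parBC R R' Γ').surjective v
  induction x using TensorProduct.induction_on with
  | zero =>
    refine ⟨0, ?_⟩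
    rw [LinearEquiv.map_zero (parBC R R' Γ'), map_zero, smul_zero]
  | add x y hx hy =>
    obtain ⟨m1, h1⟩ := hx
    obtain ⟨m2, h2⟩ := hy
    refine ⟨m1 + m2, ?_⟩
    rw [LinearEquiv.map_add (parBC R R' Γ'), map_add, smul_add, ← h1, ← h2]
  | tmul c ψ =>
    obtain ⟨ψ', hψ'⟩ := hg ψ
    refine ⟨c • parMapAlg R R' Γ' ψ', ?_⟩
    rw [parBC_tmul, parExt_smul_parMapAlg, hψ', map_smul, smul_comm c, algebraMap_smul]

/-- **divisibility on the extension of a saturated submodule.** -/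
theorem InExt.exists_eq_smul {E : Submodule R ↥(parabolicHoms R Γ' R)} (hs : IsSat E)
    {v : ↥(parabolicHoms R' Γ' R')} (h : InExt E v)
    (g₀ : Module.End R ↥(parabolicHoms R Γ' R)) (r : R)
    (hg : ∀ ψ ∈ E, ∃ ψ', g₀ ψ = r • ψ') :
    ∃ v' : ↥(parabolicHoms R' Γ' R'), parExt R R' Γ' g₀ v = algebraMap R R' r • v' := by
  obtain ⟨Y, hY, hY'⟩ := exists_end_ker_eq E hs
  obtain ⟨v', hv'⟩ := parExt_exists_eq_smul (R' := R') (g₀ * (1 - Y)) r (fun ψ => by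
    obtain ⟨ψ', hψ'⟩ := hg (ψ - Y ψ) (hY' ψ)
    exact ⟨ψ', by rw [Module.End.mul_apply, LinearMap.sub_apply, Module.End.one_apply, hψ']⟩) v
  refine ⟨v', ?_⟩
  have h0 : parExt R R' Γ' (1 - Y) = 1 - parExt R R' Γ' Y := by
    have := map_sub (parExt R R' Γ') 1 Y
    rw [this, map_one]
  have h1 : parExt R R' Γ' (1 - Y) v = v := by
    rw [h0, LinearMap.sub_apply, Module.End.one_apply,
      h Y (fun ψ hψ => (hY ψ).2 hψ), sub_zero]
  rw [← hv', map_mul, Module.End.mul_apply, h1]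

end Ext

end Fermat.Agent.NP
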