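/-
NP33 (S33) — helper2 — **[LAT33], part 4: the new case on `Hom_par(Γ₀(M p), B)`.**

From (KEY-NEW) at a place `A ∣ p`: an element `v ∈ Hom_par(Γ₀(M p), B)` killed by the two transfers
and by the extensions of all endomorphisms `Z` of `P` with `Z (ρ(τ) - 1) = 0` (`τ ∈ I_A`)
satisfies `ρ_B(σ) v - a v ∈ p · Hom_par(Γ₀(M p), B)` for `σ ∈ I_A` acting on `μ_p` by `ζ ↦ ζ ^ a`.
-/
import Mathlib
import Fermat.Agent.NP.LAT33_helper2_Ext
import Fermat.Agent.NP.LAT33_helper2_Tate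
import Fermat.Agent.NP.KEY_helper2_Iface
import Fermat.Agent.S35.T2_lead_Core

set_option autoImplicit false
set_option linter.unusedSectionVars false
set_option linter.unusedVariables false
set_option linter.style.haveILetI false

open CongruenceSubgroup ModularCurve ModularCurve.Period

open scoped MatrixGroups

namespace Fermat.Agent.NP

open Fermat.Agent.GR Fermat.Agent.X0N Fermat.Agent.JA Fermat.Agent.S35

local notation "Ω" => AlgebraicClosure ℚ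
local notation "GQ" => (AlgebraicClosure ℚ ≃ₐ[ℚ] AlgebraicClosure ℚ)

section General

variable {J : Type*} [AddCommGroup J] [DistribMulAction GQ J] {Γ : Subgroup SL(2, ℤ)}
  {p : ℕ} [hp : Fact p.Prime] (D : KapData J Γ p)

/-- `ρ(σ) - n` is the transport of `σ - n`. -/
theorem rho_sub_natCast (σ : GQ) (n : ℕ) :
    (D.rho σ - (n : Module.End ℤ_[p] ↥(parabolicHoms ℤ_[p] Γ ℤ_[p]))) =
      D.transport (DistribMulAction.toAddMonoidEnd GQ J σ - (n : AddMonoid.End J)) := by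
  have h1 := map_sub D.transport (DistribMulAction.toAddMonoidEnd GQ J σ) (n : AddMonoid.End J)
  rw [h1, map_natCast]
  rfl

theorem sub_natCast_apply (σ : GQ) (n : ℕ) (x : J) :
    (DistribMulAction.toAddMonoidEnd GQ J σ - (n : AddMonoid.End J)) x = σ • x - n • x := by
  show (DistribMulAction.toAddMonoidEnd GQ J σ) x - (n : AddMonoid.End J) x = _
  rw [AddMonoid.End.natCast_apply]
  rfl

/-- the endomorphisms `Z` with `Z (ρ(τ) - 1) = 0` kill `tateSub D S` when `(τ - 1) J[p^∞] ⊆ S`: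
conversely, if all such `Z` have extensions killing `v` then `v` lies in the extension of
`tateSub D S`. -/
theorem inExt_tateSub_of_forall {B : Type*} [CommRing B] [Algebra ℤ_[p] B] [IsAddTorsionFree B]
    [Module.Flat ℤ_[p] B] [Group.FG Γ]
    (S : AddSubgroup J) (I : Subgroup GQ)
    (hS : ∀ (y : J) (n : ℕ), p ^ n • y = 0 → ∀ τ ∈ I, τ • y - y ∈ S)
    (v : ↥(parabolicHoms B Γ B))
    (hv0 : ∀ Z : Module.End ℤ_[p] ↥(parabolicHoms ℤ_[p] Γ ℤ_[p]),
      (∀ τ ∈ I, Z * (D.rho τ - 1) = 0) → parExt ℤ_[p] B Γ Z v = 0) :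
    InExt (tateSub D S) v := by
  intro Y hY
  apply hv0
  intro τ hτ
  apply LinearMap.ext
  intro ψ
  rw [Module.End.mul_apply, LinearMap.zero_apply]
  apply hY
  have h1 := rho_sub_natCast D τ 1
  rw [Nat.cast_one] at h1
  rw [h1]
  apply transport_mem_tateSub
  intro y n hy
  rw [sub_natCast_apply, one_smul]
  exact hS y n hy τ hτ

end General

section NewB

variable {M₀ p : ℕ} [NeZero M₀] [NeZero p] [NeZero (M₀ * p)] [hp : Fact p.Prime]
  (D' : KapData (JZero (M₀ * p)) (Gamma0 (M₀ * p)) p) (D₀ : KapData (JZero M₀) (Gamma0 M₀) p)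
  {ι : Type*} [Fintype ι]
  (Xα Xβ : TransferDatum ↥(Gamma0 (M₀ * p)) ↥(Gamma0 M₀) (GL (Fin 2) ℝ) ι)
  (B : Type) [CommRing B] [IsDomain B] [CharZero B] [Algebra ℤ_[p] B] [Module.Flat ℤ_[p] B]

/-- **the new case on `Hom_par(Γ₀(M₀ p), B)`**. -/
theorem new_exists_eq_smul
    (hkα : ∀ (k : ℕ) (x : ↥(torsionNat (JZero (M₀ * p)) (p ^ k))),
      D₀.kap k (torsionNatMap₂ (p ^ k) (degPushAlpha M₀ p) x) =
        Xα.transferGrp (ZMod (p ^ k)) (D'.kap k x))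
    (hkβ : ∀ (k : ℕ) (x : ↥(torsionNat (JZero (M₀ * p)) (p ^ k))),
      D₀.kap k (torsionNatMap₂ (p ^ k) (degPushBeta M₀ p) x) =
        Xβ.transferGrp (ZMod (p ^ k)) (D'.kap k x))
    (hparα : ∀ (R : Type) [CommRing R], ∀ ψ ∈ parabolicHoms R (Gamma0 (M₀ * p)) R,
      Xα.transferGrp R ψ ∈ parabolicHoms R (Gamma0 M₀) R)
    (hparβ : ∀ (R : Type) [CommRing R], ∀ ψ ∈ parabolicHoms R (Gamma0 (M₀ * p)) R,
      Xβ.transferGrp R ψ ∈ parabolicHoms R (Gamma0 M₀) R)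
    {A : ValuationSubring Ω} (hkey : KeyNewAt M₀ p A)
    (v : ↥(parabolicHoms B (Gamma0 (M₀ * p)) B)) (hvα : Xα.transferGrp B v.1 = 0)
    (hvβ : Xβ.transferGrp B v.1 = 0)
    (hv0 : ∀ Z : Module.End ℤ_[p] ↥(parabolicHoms ℤ_[p] (Gamma0 (M₀ * p)) ℤ_[p]),
      (∀ τ ∈ A.inertiaSubgroupIn ℚ, Z * (D'.rho τ - 1) = 0) →
        parExt ℤ_[p] B (Gamma0 (M₀ * p)) Z v = 0)
    {σ : GQ} (hσ : σ ∈ A.inertiaSubgroupIn ℚ) {a : ℕ} (ha : CycAct p σ a) :
    ∃ v' : ↥(parabolicHoms B (Gamma0 (M₀ * p)) B),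
      parExt ℤ_[p] B (Gamma0 (M₀ * p)) (D'.rho σ) v - (a : B) • v = (p : B) • v' := by
  obtain ⟨S, hSa, hSc⟩ := hkey
  have hE₁ : InExt (tateSub D' S) v :=
    inExt_tateSub_of_forall D' S (A.inertiaSubgroupIn ℚ) hSa v hv0
  have hK : InExt (LinearMap.ker (xferPar Xα ℤ_[p] (hparα ℤ_[p])) ⊓
      LinearMap.ker (xferPar Xβ ℤ_[p] (hparβ ℤ_[p]))) v :=
    inExt_ker (xferPar Xα ℤ_[p] (hparα ℤ_[p])) (xferPar Xβ ℤ_[p] (hparβ ℤ_[p]))
      (xferPar Xα B (hparα B)) (xferPar Xβ B (hparβ B))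
      (xferPar_parMapAlg Xα ℤ_[p] B _ _) (xferPar_parMapAlg Xβ ℤ_[p] B _ _)
      (Subtype.ext hvα) (Subtype.ext hvβ)
  have hsK : IsSat (LinearMap.ker (xferPar Xα ℤ_[p] (hparα ℤ_[p])) ⊓
      LinearMap.ker (xferPar Xβ ℤ_[p] (hparβ ℤ_[p]))) :=
    (isSat_ker _).inf (isSat_ker _)
  have hs₁ : IsSat (tateSub D' S) := fun r ψ hr h => tateSub_sat D' S r ψ hr h
  have hE := hK.inf hsK hs₁ hE₁
  obtain ⟨v', hv'⟩ := hE.exists_eq_smul (hsK.inf hs₁)
    (D'.rho σ - (a : Module.End ℤ_[p] ↥(parabolicHoms ℤ_[p] (Gamma0 (M₀ * p)) ℤ_[p])))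
    (p : ℤ_[p]) (by
      rintro ψ ⟨⟨hψα, hψβ⟩, hψS⟩
      rw [rho_sub_natCast]
      apply transport_eq_smul_of_redTors_one
      rw [sub_natCast_apply, sub_eq_zero]
      have hx1 := hψS 1
      have hx2 : p • ((D'.redTors 1 ψ : ↥(torsionNat (JZero (M₀ * p)) (p ^ 1))) :
          JZero (M₀ * p)) = 0 := by
        have := redTors_torsion D' 1 ψ
        simpa only [pow_one] using this
      obtain ⟨x', hx'⟩ := D'.phi_surjective ψ
      have hcoe : ((D'.redTors 1 ψ : ↥(torsionNat (JZero (M₀ * p)) (p ^ 1))) :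
          JZero (M₀ * p)) = x'.1 1 := by
        rw [← hx', KapData.redTors_phi]
        rfl
      have h3 := (kapTransferOf D' D₀ Xα _ hkα).map_comp_eq_zero x' (by
        rw [hx']
        exact congrArg Subtype.val hψα) 1
      have h4 := (kapTransferOf D' D₀ Xβ _ hkβ).map_comp_eq_zero x' (by
        rw [hx']
        exact congrArg Subtype.val hψβ) 1
      rw [← hcoe] at h3 h4
      exact hSc _ hx1 hx2 h3 h4 σ hσ a ha)
  refine ⟨v', ?_⟩
  rw [← map_natCast (algebraMap ℤ_[p] B) p, ← hv']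
  have h5 := map_sub (parExt ℤ_[p] B (Gamma0 (M₀ * p))) (D'.rho σ)
    (a : Module.End ℤ_[p] ↥(parabolicHoms ℤ_[p] (Gamma0 (M₀ * p)) ℤ_[p]))
  rw [h5, map_natCast, LinearMap.sub_apply, Module.End.natCast_apply, Nat.cast_smul_eq_nsmul]

end NewB

end Fermat.Agent.NP
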