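/-
NP33 (S33) — helper2 — **[S33TOP], part 1: invariant functionals on the eigenlattice.**

`Λ = eigenLattice N B a ⊆ Hom_par(Γ₀(N), B)` with the representation `rhoLattice` (= the `ρ` of
`StageIData.rep`).
* `parExt_eq_zero_of_noFunctional`: if `Λ` has no non-zero functional invariant under a subgroup
  `I`, then the extension of every endomorphism `Z` of `P` with `Z (ρ(τ) - 1) = 0` (`τ ∈ I`)
  kills `Λ`;
* `lattice_scalar_of_smul`: divisibility in `Hom_par` gives divisibility in the (saturated) `Λ`.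
-/
import Mathlib
import Fermat.Agent.GR.TOP_lead_Rep
import Fermat.Agent.GR.BETTI_lead_BaseChange

set_option autoImplicit false
set_option linter.unusedSectionVars false
set_option linter.unusedVariables false
set_option linter.style.haveILetI false

open CongruenceSubgroup ModularCurve ModularCurve.Period IsLocalRing

open scoped MatrixGroups

namespace Fermat.Agent.NP

open Fermat.Agent.GR

local notation "Ω" => AlgebraicClosure ℚ
local notation "GQ" => (AlgebraicClosure ℚ ≃ₐ[ℚ] AlgebraicClosure ℚ)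

section Eval

variable {R : Type*} [CommRing R] {Γ : Subgroup SL(2, ℤ)}

/-- evaluation at `γ` on the parabolic homomorphisms. -/
def parEval (γ : Additive ↥Γ) : ↥(parabolicHoms R Γ R) →ₗ[R] R where
  toFun ψ := ψ.1 γ
  map_add' _ _ := rfl
  map_smul' _ _ := rfl

@[simp] theorem parEval_apply (γ : Additive ↥Γ) (ψ : ↥(parabolicHoms R Γ R)) :
    parEval γ ψ = ψ.1 γ := rfl

end Eval

section Lat

variable {N p : ℕ} [NeZero N] [hp : Fact p.Prime]
  (B : Type) [CommRing B] [IsDomain B] [IsDiscreteValuationRing B] [CharZero B]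
  [Algebra ℤ_[p] B] (a : Nat.Primes → B)
  (ρP : GQ →* Module.End ℤ_[p] ↥(parabolicHoms ℤ_[p] (Gamma0 N) ℤ_[p]))
  (hcomm : ∀ (σ : GQ) (ℓ : Nat.Primes),
    ρP σ * heckeParP N ℓ ℤ_[p] ℤ_[p] = heckeParP N ℓ ℤ_[p] ℤ_[p] * ρP σ)

/-- **no invariant functional ⇒ the annihilators of `∑ (τ - 1) P` kill the eigenlattice.** -/
theorem parExt_eq_zero_of_noFunctional (Isub : Subgroup GQ)
    (hH0 : ∀ Φ : ↥(eigenLattice N B a) →ₗ[B] B,
      (∀ τ ∈ Isub, ∀ w, Φ (rhoLattice N p B a ρP hcomm τ w) = Φ w) → Φ = 0)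
    (v : ↥(eigenLattice N B a))
    (Z : Module.End ℤ_[p] ↥(parabolicHoms ℤ_[p] (Gamma0 N) ℤ_[p]))
    (hZ : ∀ τ ∈ Isub, Z * (ρP τ - 1) = 0) :
    parExt ℤ_[p] B (Gamma0 N) Z v.1 = 0 := by
  apply Subtype.ext
  refine AddMonoidHom.ext fun γ => ?_
  let Φ : ↥(eigenLattice N B a) →ₗ[B] B :=
    (parEval γ) ∘ₗ (parExt ℤ_[p] B (Gamma0 N) Z) ∘ₗ (eigenLattice N B a).subtype
  have hΦ : ∀ τ ∈ Isub, ∀ w, Φ (rhoLattice N p B a ρP hcomm τ w) = Φ w := by
    intro τ hτ w
    show (parExt ℤ_[p] B (Gamma0 N) Z (rhoM N p B ρP τ w.1)).1 γ =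
      (parExt ℤ_[p] B (Gamma0 N) Z w.1).1 γ
    have h1 : Z * ρP τ = Z := by
      have := hZ τ hτ
      rw [mul_sub, mul_one, sub_eq_zero] at this
      exact this
    have h2 : parExt ℤ_[p] B (Gamma0 N) Z (rhoM N p B ρP τ w.1) =
        parExt ℤ_[p] B (Gamma0 N) (Z * ρP τ) w.1 := by
      have := map_mul (parExt ℤ_[p] B (Gamma0 N)) Z (ρP τ)
      rw [this]
      rfl
    rw [h2, h1]
  have h0 := hH0 Φ hΦ
  have := LinearMap.congr_fun h0 v
  exact this

/-- divisibility in `Hom_par(Γ₀(N), B)` gives divisibility in the eigenlattice. -/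
theorem lattice_scalar_of_smul (σ : GQ) (c r : B) (hr : r ≠ 0) (v : ↥(eigenLattice N B a))
    (h : ∃ v' : ↥(parabolicHoms B (Gamma0 N) B),
      parExt ℤ_[p] B (Gamma0 N) (ρP σ) v.1 - c • v.1 = r • v') :
    ∃ w' : ↥(eigenLattice N B a), rhoLattice N p B a ρP hcomm σ v - c • v = r • w' := by
  obtain ⟨v', hv'⟩ := h
  have hmem : r • v' ∈ eigenLattice N B a := by
    rw [← hv']
    exact (eigenLattice N B a).sub_mem (rhoM_mem N p B a ρP hcomm σ v.2)
      ((eigenLattice N B a).smul_mem c v.2)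
  have hv'mem : v' ∈ eigenLattice N B a := mem_eigenLattice_of_smul_mem N B a hr hmem
  refine ⟨⟨v', hv'mem⟩, ?_⟩
  apply Subtype.ext
  exact hv'

/-- the Hecke operators act on the eigenlattice through the eigenvalues. -/
theorem heckeParP_pow_apply_of_mem (ℓ : Nat.Primes) (k : ℕ) (v : ↥(eigenLattice N B a)) :
    (heckeParP N ℓ B B ^ k) v.1 = (a ℓ) ^ k • v.1 := by
  induction k with
  | zero => rw [pow_zero, pow_zero, one_smul]; rfl
  | succ k ih =>
    rw [pow_succ', Module.End.mul_apply, ih, map_smul, (mem_eigenLattice.1 v.2) ℓ, smul_smul,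
      ← pow_succ]

end Lat

end Fermat.Agent.NP
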