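/-
NP33 (S33) — helper2 — **[S33TOP], part 2: the new case.**  A system of eigenvalues of level
`M₀ p` (`p ∤ M₀`) which does not occur at level `M₀`: the representation on its eigenlattice has a
non-zero functional invariant under the inertia group at `p` (from (KEY-NEW)).
-/
import Mathlib
import Fermat.Agent.NP.S33TOP_helper2_Lat
import Fermat.Agent.NP.LAT33_helper2_New
import Fermat.Agent.NP.EPS33_helper2_Det
import Fermat.Agent.NP.EPS33_helper2_Cyc
import Fermat.Agent.S35.T2_lead_Concrete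

set_option autoImplicit false
set_option linter.unusedSectionVars false
set_option linter.unusedVariables false
set_option linter.style.haveILetI false

open CongruenceSubgroup ModularCurve ModularCurve.Period IsLocalRing

open scoped MatrixGroups

namespace Fermat.Agent.NP

open Fermat.Agent.GR Fermat.Agent.X0N Fermat.Agent.JA Fermat.Agent.S35

local notation "Ω" => AlgebraicClosure ℚ
local notation "GQ" => (AlgebraicClosure ℚ ≃ₐ[ℚ] AlgebraicClosure ℚ)

section New

variable {M₀ p : ℕ} [NeZero M₀] [NeZero p] [NeZero (M₀ * p)] [hp : Fact p.Prime]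
  {x y : ℤ} (h : (p : ℤ) * x + M₀ * y = 1)
  (B : Type) [CommRing B] [IsDomain B] [IsDiscreteValuationRing B] [CharZero B]
  [Algebra ℤ_[p] B] [Module.Flat ℤ_[p] B] (hpB : (p : B) ∈ maximalIdeal B)
  (a : Nat.Primes → B)
  (L : Type) [Field L] [Algebra B L] [IsFractionRing B L]
  (hrank : Module.finrank L ↥(eigenPar (M₀ * p) L (mapSys B L a)) = 2)

include h in
/-- **the new case**: a non-zero inertia-invariant functional on the eigenlattice. -/
theorem new_exists_functional (hp2 : p ≠ 2)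
    (hplus : ∃ e : Additive (Gamma0 (M₀ * p)) →+ L, e ∈ eigenPar (M₀ * p) L (mapSys B L a) ∧
      e ≠ 0 ∧ charInvolution (M₀ * p) L L e = e)
    (hminus : ∃ e : Additive (Gamma0 (M₀ * p)) →+ L, e ∈ eigenPar (M₀ * p) L (mapSys B L a) ∧
      e ≠ 0 ∧ charInvolution (M₀ * p) L L e = -e)
    (hnew : eigenParOn M₀ L (primesNotDvd (M₀ * p)) (mapSys B L a) = ⊥)
    {A : ValuationSubring Ω} (hA : A.LiesOverPrime p) (hkey : KeyNewAt M₀ p A) :
    ∃ Φ : ((stageIData (M₀ * p) p).rep B hpB a L hrank).V →ₗ[B] B,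
      (∀ τ ∈ A.inertiaSubgroupIn ℚ, ∀ w,
        Φ (((stageIData (M₀ * p) p).rep B hpB a L hrank).ρ τ w) = Φ w) ∧ Φ ≠ 0 := by
  by_contra hcon
  push Not at hcon
  have hq : p.Prime := hp.out
  have hinj : Function.Injective (algebraMap B L) := IsFractionRing.injective B L
  obtain ⟨σ₁, hσ₁, a₁, ha₁, ha₁0, ha₁1⟩ := exists_cycAct_ne_one hp.out hp2 hA
  refine false_of_scalar_mod ((stageIData (M₀ * p) p).rep B hpB a L hrank) hp.out
    ((stageIData (M₀ * p) p).rep_detIsCyclotomic B hpB a L hrank hplus hminus) ha₁ ha₁0 ha₁1 ?_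
  intro w
  have hw' : (w : ↥(eigenLattice (M₀ * p) B a)).1.1 ∈ eigenPar (M₀ * p) B a := w.2
  have hv0 := parExt_eq_zero_of_noFunctional B a (stageIData (M₀ * p) p).rhoP
    (stageIData (M₀ * p) p).rhoP_comm (A.inertiaSubgroupIn ℚ) hcon w
  have hmain := new_exists_eq_smul (stageIData (M₀ * p) p).D (stageIData M₀ p).D
    (xferAlphaT M₀ p h hq) (xferBeta M₀ p h hq) B
    (stageIData_kap_degPushAlpha h hq) (stageIData_kap_degPushBeta h hq)
    (fun R _ ψ hψ => xferAlphaT_mem_parabolicHoms M₀ p h hq R hψ)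
    (fun R _ ψ hψ => xferBeta_mem_parabolicHoms M₀ p h hq R hψ)
    hkey (w : ↥(eigenLattice (M₀ * p) B a)).1
    (transferGrp_eq_zero_of_new (xferAlphaT M₀ p h hq) B L hinj
      (fun ℓ hℓ ψ => xferAlphaT_transferGrp_heckeGrpP M₀ p h hq ℓ hℓ B ψ)
      (fun ψ hψ => xferAlphaT_mem_parabolicHoms M₀ p h hq B hψ) a hnew hw')
    (transferGrp_eq_zero_of_new (xferBeta M₀ p h hq) B L hinj
      (fun ℓ hℓ ψ => xferBeta_transferGrp_heckeGrpP M₀ p h hq ℓ hℓ B ψ)
      (fun ψ hψ => xferBeta_mem_parabolicHoms M₀ p h hq B hψ) a hnew hw')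
    hv0 hσ₁ ha₁
  have hp0 : (p : B) ≠ 0 := Nat.cast_ne_zero.2 hp.out.ne_zero
  exact lattice_scalar_of_smul B a (stageIData (M₀ * p) p).rhoP
    (stageIData (M₀ * p) p).rhoP_comm σ₁ (a₁ : B) (p : B) hp0 w hmain

end New

end Fermat.Agent.NP
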