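/-
NP33 (S33) — helper2 — **[LAT33], part 5: the old case on `Hom_par(Γ₀(M), B)`, `p ∤ M`.**

From (KEY-OLD) at a place `A ∣ p`: an element `v ∈ Hom_par(Γ₀(M), B)` killed by the extensions of
all endomorphisms `Z` of `P` with `Z (ρ(τ) - 1) = 0` (`τ ∈ I_A`) satisfies
`(ρ_B(σ) - a) T_p ^ k v ∈ p · Hom_par(Γ₀(M), B)` for some `k` and every `σ ∈ I_A` acting on `μ_p` by
`ζ ↦ ζ ^ a`.
-/
import Mathlib
import Fermat.Agent.NP.LAT33_helper2_New
import Fermat.Agent.GR.TOP_lead_Rep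

set_option autoImplicit false
set_option linter.unusedSectionVars false
set_option linter.unusedVariables false
set_option linter.style.haveILetI false

open CongruenceSubgroup ModularCurve ModularCurve.Period

open scoped MatrixGroups

namespace Fermat.Agent.NP

open Fermat.Agent.GR Fermat.Agent.X0N Fermat.Agent.JA Fermat.Agent.S35

local notation "Ω" => AlgebraicClosure ℚ
local notation "GQ" => (AlgebraicClosure ℚ ≃ₐ[ℚ] AlgebraicClosure ℚ)

section OldB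

variable {M p : ℕ} [NeZero M] [hp : Fact p.Prime] (I : StageIData M p)
  (B : Type) [CommRing B] [IsDomain B] [CharZero B] [Algebra ℤ_[p] B] [Module.Flat ℤ_[p] B]

theorem addEnd_mul_apply {J : Type*} [AddCommGroup J] (f g : AddMonoid.End J) (x : J) :
    (f * g) x = f (g x) := rfl

/-- `T_p` as an endomorphism of `J₀(M)`. -/
noncomputable def tpEnd : AddMonoid.End (JZero M) := I.T' (⟨p, hp.out⟩ : Nat.Primes)

theorem tpEnd_apply (hpM : ¬ p ∣ M) (x : JZero M) :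
    tpEnd I x = heckeOperatorBar M (⟨p, hp.out⟩ : Nat.Primes) x :=
  I.hT' (⟨p, hp.out⟩ : Nat.Primes) hpM x

theorem transport_tpEnd :
    I.D.transport (tpEnd I) = heckeParP M (⟨p, hp.out⟩ : Nat.Primes) ℤ_[p] ℤ_[p] :=
  I.transport_T' (⟨p, hp.out⟩ : Nat.Primes)

/-- bookkeeping for `parExt` of `(X - a) Y ^ k`. -/
theorem parExt_sub_mul_pow_apply {Γ : Subgroup SL(2, ℤ)} [Group.FG Γ]
    (X Y : Module.End ℤ_[p] ↥(parabolicHoms ℤ_[p] Γ ℤ_[p]))
    (TB : Module.End B ↥(parabolicHoms B Γ B)) (hY : parExt ℤ_[p] B Γ Y = TB) (a k : ℕ)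
    (v : ↥(parabolicHoms B Γ B)) :
    parExt ℤ_[p] B Γ ((X - (a : Module.End ℤ_[p] ↥(parabolicHoms ℤ_[p] Γ ℤ_[p]))) * Y ^ k) v =
      parExt ℤ_[p] B Γ X ((TB ^ k) v) - (a : B) • (TB ^ k) v := by
  have h5 := map_sub (parExt ℤ_[p] B Γ) X
    (a : Module.End ℤ_[p] ↥(parabolicHoms ℤ_[p] Γ ℤ_[p]))
  have h6 := map_mul (parExt ℤ_[p] B Γ)
    (X - (a : Module.End ℤ_[p] ↥(parabolicHoms ℤ_[p] Γ ℤ_[p]))) (Y ^ k)
  have h7 := map_pow (parExt ℤ_[p] B Γ) Y k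
  have h8 := map_natCast (parExt ℤ_[p] B Γ) a
  rw [h6, h7, h5, h8, hY, Module.End.mul_apply, LinearMap.sub_apply, Module.End.natCast_apply,
    Nat.cast_smul_eq_nsmul]

/-- iterates of `T_p` along the depth filtration. -/
theorem pow_mem_of_keyOld (hpM : ¬ p ∣ M) {S : AddSubgroup (JZero M)} {e : ℕ}
    {Dd : ℕ → AddSubgroup (JZero M)}
    (hd1 : ∀ x ∈ S, p • x = 0 → x ∈ Dd 1)
    (hd2 : ∀ i : ℕ, 1 ≤ i → i < e → ∀ x ∈ Dd i, heckeOperatorBar M ⟨p, hp.out⟩ x ∈ Dd (i + 1))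
    {x : JZero M} (hxS : x ∈ S) (hx : p • x = 0) (i : ℕ) (hi : i < e) :
    (tpEnd I ^ i) x ∈ Dd (i + 1) := by
  induction i with
  | zero =>
    rw [pow_zero]
    exact hd1 x hxS hx
  | succ i ih =>
    have h1 := ih (Nat.lt_of_succ_lt hi)
    have h2 := hd2 (i + 1) (Nat.le_add_left 1 i) hi _ h1
    rw [pow_succ', addEnd_mul_apply]
    have h3 := tpEnd_apply I hpM ((tpEnd I ^ i) x)
    rw [h3]
    exact h2

/-- **the old case on `Hom_par(Γ₀(M), B)`**. -/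
theorem old_exists_eq_smul (hpM : ¬ p ∣ M)
    {A : ValuationSubring Ω} (hkey : KeyOldAt M p hp.out A)
    (v : ↥(parabolicHoms B (Gamma0 M) B))
    (hv0 : ∀ Z : Module.End ℤ_[p] ↥(parabolicHoms ℤ_[p] (Gamma0 M) ℤ_[p]),
      (∀ τ ∈ A.inertiaSubgroupIn ℚ, Z * (I.D.rho τ - 1) = 0) →
        parExt ℤ_[p] B (Gamma0 M) Z v = 0) :
    ∃ k : ℕ, ∀ σ ∈ A.inertiaSubgroupIn ℚ, ∀ a : ℕ, CycAct p σ a →
      ∃ v' : ↥(parabolicHoms B (Gamma0 M) B),
        parExt ℤ_[p] B (Gamma0 M) (I.D.rho σ) ((heckeParP M ⟨p, hp.out⟩ B B ^ k) v) -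
          (a : B) • (heckeParP M ⟨p, hp.out⟩ B B ^ k) v = (p : B) • v' := by
  obtain ⟨S, e, Dd, he, hSa, hd1, hd2, hd3, hd4⟩ := hkey
  refine ⟨e - 1, fun σ hσ a ha => ?_⟩
  have hE₁ : InExt (tateSub I.D S) v :=
    inExt_tateSub_of_forall I.D S (A.inertiaSubgroupIn ℚ) hSa v hv0
  have hs₁ : IsSat (tateSub I.D S) := fun r ψ hr h => tateSub_sat I.D S r ψ hr h
  have hg₀ : (I.D.rho σ - (a : Module.End ℤ_[p] ↥(parabolicHoms ℤ_[p] (Gamma0 M) ℤ_[p]))) *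
      (I.D.transport (tpEnd I)) ^ (e - 1) =
      I.D.transport ((DistribMulAction.toAddMonoidEnd GQ (JZero M) σ -
        (a : AddMonoid.End (JZero M))) * tpEnd I ^ (e - 1)) := by
    have h1 := map_mul I.D.transport (DistribMulAction.toAddMonoidEnd GQ (JZero M) σ -
        (a : AddMonoid.End (JZero M))) (tpEnd I ^ (e - 1))
    have h2 := map_pow I.D.transport (tpEnd I) (e - 1)
    rw [h1, h2, rho_sub_natCast]
  obtain ⟨v', hv'⟩ := hE₁.exists_eq_smul hs₁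
    ((I.D.rho σ - (a : Module.End ℤ_[p] ↥(parabolicHoms ℤ_[p] (Gamma0 M) ℤ_[p]))) *
      (I.D.transport (tpEnd I)) ^ (e - 1))
    (p : ℤ_[p]) (by
      intro ψ hψS
      rw [hg₀]
      apply transport_eq_smul_of_redTors_one
      rw [addEnd_mul_apply, sub_natCast_apply, sub_eq_zero]
      have hx1 := hψS 1
      have hx2 : p • ((I.D.redTors 1 ψ : ↥(torsionNat (JZero M) (p ^ 1))) : JZero M) = 0 := by
        have := redTors_torsion I.D 1 ψ
        simpa only [pow_one] using this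
      have h3 := pow_mem_of_keyOld I hpM hd1 hd2 hx1 hx2 (e - 1) (by omega)
      rw [Nat.sub_add_cancel he] at h3
      exact hd3 _ h3 σ hσ a ha)
  refine ⟨v', ?_⟩
  rw [← map_natCast (algebraMap ℤ_[p] B) p, ← hv']
  have hTT : parExt ℤ_[p] B (Gamma0 M) (I.D.transport (tpEnd I)) =
      heckeParP M (⟨p, hp.out⟩ : Nat.Primes) B B :=
    (congrArg (parExt ℤ_[p] B (Gamma0 M)) (transport_tpEnd I)).trans
      (parExt_heckeParP M ℤ_[p] B (⟨p, hp.out⟩ : Nat.Primes))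
  exact (parExt_sub_mul_pow_apply B (I.D.rho σ) (I.D.transport (tpEnd I)) _ hTT a (e - 1) v).symm

end OldB

end Fermat.Agent.NP
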