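/-
NP33 (S33) — helper2 — **[LAT33], part 3: the sublattice of `T_p J` attached to a subgroup of
`J`.**

`D : KapData J Γ p` (`P = parabolicHoms ℤ_[p] Γ ℤ_[p] ≃ T_p J`), `S ≤ J` any subgroup.
`tateSub D S ≤ P`: the `ψ` all of whose components `redTors m ψ ∈ J[p^m]` lie in `S`.  It is a
`ℤ_p`-submodule, automatically SATURATED (`p • x_{m+1} = x_m`), it contains `transport f ψ` for
every endomorphism `f` of `J` mapping the `p`-power torsion into `S`, and an endomorphism `f`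
killing the first components of the elements of a submodule `E` has a transport mapping `E`
into `p P`.
-/
import Mathlib
import Fermat.Agent.S32.Tate_helper6

set_option autoImplicit false
set_option linter.unusedSectionVars false
set_option linter.unusedVariables false
set_option linter.style.haveILetI false

namespace Fermat.Agent.NP

open ModularCurve.Period Fermat.Agent.GR

open scoped MatrixGroups

section TateSub

variable {J : Type*} [AddCommGroup J] {Γ : Subgroup SL(2, ℤ)} {p : ℕ} [hp : Fact p.Prime]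
  (D : KapData J Γ p) (S : AddSubgroup J)

/-- compatibility of the components. -/
theorem redTors_succ (m : ℕ) (ψ : ↥(parabolicHoms ℤ_[p] Γ ℤ_[p])) :
    p • ((D.redTors (m + 1) ψ : ↥(torsionNat J (p ^ (m + 1)))) : J) =
      ((D.redTors m ψ : ↥(torsionNat J (p ^ m))) : J) := by
  obtain ⟨x, rfl⟩ := D.phi_surjective ψ
  rw [KapData.redTors_phi, KapData.redTors_phi]
  exact TateSeq.smul_succ x m

/-- components of a natural multiple. -/
theorem redTors_nsmul (m n : ℕ) (ψ : ↥(parabolicHoms ℤ_[p] Γ ℤ_[p])) :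
    ((D.redTors m (n • ψ) : ↥(torsionNat J (p ^ m))) : J) =
      n • ((D.redTors m ψ : ↥(torsionNat J (p ^ m))) : J) := by
  rw [map_nsmul]
  rfl

/-- components of a `ℤ_p`-multiple. -/
theorem redTors_smul (m : ℕ) (z : ℤ_[p]) (ψ : ↥(parabolicHoms ℤ_[p] Γ ℤ_[p])) :
    ((D.redTors m (z • ψ) : ↥(torsionNat J (p ^ m))) : J) =
      (z.appr m) • ((D.redTors m ψ : ↥(torsionNat J (p ^ m))) : J) := by
  have h := PadicInt.appr_spec m z
  rw [Ideal.mem_span_singleton'] at h
  obtain ⟨w, hw⟩ := h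
  have hz : z = (p : ℤ_[p]) ^ m * w + (z.appr m : ℤ_[p]) := by
    rw [mul_comm, hw]; ring
  have h1 : z • ψ = (p : ℤ_[p]) ^ m • (w • ψ) + (z.appr m) • ψ := by
    conv_lhs => rw [hz]
    rw [add_smul, mul_smul, Nat.cast_smul_eq_nsmul]
  have h2 : D.redTors m ((p : ℤ_[p]) ^ m • (w • ψ)) = 0 :=
    (D.redTors_eq_zero_iff m _).2 ⟨w • ψ, rfl⟩
  rw [h1, map_add, h2, zero_add]
  exact redTors_nsmul D m _ ψ

/-- **the sublattice of `P` of the Tate sequences with components in `S`.** -/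
def tateSub : Submodule ℤ_[p] ↥(parabolicHoms ℤ_[p] Γ ℤ_[p]) where
  carrier := {ψ | ∀ m : ℕ, ((D.redTors m ψ : ↥(torsionNat J (p ^ m))) : J) ∈ S}
  zero_mem' := by
    intro m
    rw [map_zero]
    exact S.zero_mem
  add_mem' := by
    intro ψ ψ' h h' m
    rw [map_add]
    exact S.add_mem (h m) (h' m)
  smul_mem' := by
    intro z ψ h m
    rw [redTors_smul]
    exact S.nsmul_mem (h m) _

variable {D S} in
theorem mem_tateSub {ψ : ↥(parabolicHoms ℤ_[p] Γ ℤ_[p])} :
    ψ ∈ tateSub D S ↔ ∀ m : ℕ, ((D.redTors m ψ : ↥(torsionNat J (p ^ m))) : J) ∈ S := Iff.rfl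

/-- `tateSub D S` is `p`-saturated. -/
theorem tateSub_sat_p {ψ : ↥(parabolicHoms ℤ_[p] Γ ℤ_[p])}
    (h : (p : ℤ_[p]) • ψ ∈ tateSub D S) : ψ ∈ tateSub D S := by
  intro m
  have h1 := h (m + 1)
  rw [Nat.cast_smul_eq_nsmul, redTors_nsmul, redTors_succ] at h1
  exact h1

/-- **`tateSub D S` is saturated.** -/
theorem tateSub_sat (r : ℤ_[p]) (ψ : ↥(parabolicHoms ℤ_[p] Γ ℤ_[p])) (hr : r ≠ 0)
    (h : r • ψ ∈ tateSub D S) : ψ ∈ tateSub D S := by
  have hspec := PadicInt.unitCoeff_spec hr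
  obtain ⟨u, n, hun⟩ : ∃ (u : ℤ_[p]ˣ) (n : ℕ), r = (u : ℤ_[p]) * (p : ℤ_[p]) ^ n :=
    ⟨_, _, hspec⟩
  have h1 : (p : ℤ_[p]) ^ n • ψ ∈ tateSub D S := by
    have h2 : (p : ℤ_[p]) ^ n • ψ = ((u⁻¹ : ℤ_[p]ˣ) : ℤ_[p]) • (r • ψ) := by
      rw [hun, smul_smul, ← mul_assoc, Units.inv_mul, one_mul]
    rw [h2]
    exact (tateSub D S).smul_mem _ h
  clear hun hspec
  induction n with
  | zero => rwa [pow_zero, one_smul] at h1
  | succ n ih =>
    apply ih
    apply tateSub_sat_p D S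
    rwa [smul_smul, ← pow_succ']

/-- components of a transported endomorphism. -/
theorem redTors_transport (f : AddMonoid.End J) (m : ℕ)
    (ψ : ↥(parabolicHoms ℤ_[p] Γ ℤ_[p])) :
    ((D.redTors m (D.transport f ψ) : ↥(torsionNat J (p ^ m))) : J) =
      f ((D.redTors m ψ : ↥(torsionNat J (p ^ m))) : J) := by
  obtain ⟨x, rfl⟩ := D.phi_surjective ψ
  rw [KapData.transport_phi, KapData.redTors_phi, KapData.redTors_phi]
  rfl

/-- the components are `p`-power torsion. -/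
theorem redTors_torsion (m : ℕ) (ψ : ↥(parabolicHoms ℤ_[p] Γ ℤ_[p])) :
    p ^ m • ((D.redTors m ψ : ↥(torsionNat J (p ^ m))) : J) = 0 :=
  (D.redTors m ψ).2

/-- an endomorphism of `J` mapping the `p`-power torsion into `S` has a transport with values in
`tateSub D S`. -/
theorem transport_mem_tateSub (f : AddMonoid.End J)
    (hf : ∀ (y : J) (n : ℕ), p ^ n • y = 0 → f y ∈ S) (ψ : ↥(parabolicHoms ℤ_[p] Γ ℤ_[p])) :
    D.transport f ψ ∈ tateSub D S := by
  intro m
  rw [redTors_transport]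
  exact hf _ m (redTors_torsion D m ψ)

/-- an endomorphism of `J` killing the first component of `ψ` has a transport mapping `ψ` into
`p P`. -/
theorem transport_eq_smul_of_redTors_one (f : AddMonoid.End J)
    (ψ : ↥(parabolicHoms ℤ_[p] Γ ℤ_[p]))
    (hf : f ((D.redTors 1 ψ : ↥(torsionNat J (p ^ 1))) : J) = 0) :
    ∃ ψ' : ↥(parabolicHoms ℤ_[p] Γ ℤ_[p]), D.transport f ψ = (p : ℤ_[p]) • ψ' := by
  have h1 : D.redTors 1 (D.transport f ψ) = 0 := by
    apply Subtype.ext
    rw [redTors_transport, hf]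
    rfl
  obtain ⟨ψ', hψ'⟩ := (D.redTors_eq_zero_iff 1 _).1 h1
  exact ⟨ψ', by rw [hψ', pow_one]⟩

end TateSub

end Fermat.Agent.NP
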