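/-
NP33 (S33) — helper2 — **[OLDB], part 2: from `B`-valued parabolic homomorphisms to `p`-torsion
points.**

`D : KapData J Γ p`, `B` a torsion-free `ℤ_p`-algebra, `t : B →+ ℤ/p` any additive map.  For
`v ∈ Hom_par(Γ, B)` the composite `t ∘ v : Γ → ℤ/p` is `D.kap 1 x` for a (unique) `x ∈ J[p]`
(`exists_kap_eq_comp`), and `x ↦ f x` corresponds to `v ↦ parExt (transport f) v`
(`kap_map_eq_comp_parExt`).
-/
import Mathlib
import Fermat.Agent.NP.LAT33_helper2_Tate
import Fermat.Agent.GR.BETTI_lead_BaseChange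

set_option autoImplicit false
set_option linter.unusedSectionVars false
set_option linter.unusedVariables false
set_option linter.style.haveILetI false

namespace Fermat.Agent.NP

open ModularCurve.Period Fermat.Agent.GR TensorProduct

open scoped MatrixGroups

section Comp

variable {J : Type*} [AddCommGroup J] {Γ : Subgroup SL(2, ℤ)} [Group.FG Γ] {p : ℕ}
  [hp : Fact p.Prime] (D : KapData J Γ p)
  {B : Type*} [CommRing B] [Algebra ℤ_[p] B] [IsAddTorsionFree B] (t : B →+ ZMod (p ^ 1))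

theorem natCast_self_zmod_pow_one : ((p : ℕ) : ZMod (p ^ 1)) = 0 := by
  have h := ZMod.natCast_self (p ^ 1)
  rw [Nat.cast_pow] at h
  exact (pow_one _).symm.trans h

omit hp [Group.FG Γ] [IsAddTorsionFree B] [Algebra ℤ_[p] B] in
theorem tcomp_zero :
    t.comp ((0 : ↥(parabolicHoms B Γ B)) : Additive Γ →+ B) = 0 := by
  rw [Submodule.coe_zero, AddMonoidHom.comp_zero]

omit hp [Group.FG Γ] [IsAddTorsionFree B] [Algebra ℤ_[p] B] in
theorem tcomp_add (v w : ↥(parabolicHoms B Γ B)) :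
    t.comp ((v + w : ↥(parabolicHoms B Γ B)) : Additive Γ →+ B) =
      t.comp (v : Additive Γ →+ B) + t.comp (w : Additive Γ →+ B) := by
  rw [Submodule.coe_add, AddMonoidHom.comp_add]

/-- an additive map `B → ℤ/p` is `ℤ_p`-semilinear. -/
theorem addMap_mul_algebraMap (c : B) (z : ℤ_[p]) :
    t (c * algebraMap ℤ_[p] B z) = t c * PadicInt.toZModPow 1 z := by
  have h := PadicInt.appr_spec 1 z
  rw [Ideal.mem_span_singleton'] at h
  obtain ⟨w, hw⟩ := h
  have hz : z = (p : ℤ_[p]) * w + (z.appr 1 : ℤ_[p]) := by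
    rw [pow_one] at hw
    rw [mul_comm, hw]; ring
  have h1 : c * algebraMap ℤ_[p] B z = p • (c * algebraMap ℤ_[p] B w) + (z.appr 1) • c := by
    conv_lhs => rw [hz]
    rw [map_add, map_mul, map_natCast, map_natCast, nsmul_eq_mul, nsmul_eq_mul]
    ring
  have h2 : PadicInt.toZModPow 1 z = ((z.appr 1 : ℕ) : ZMod (p ^ 1)) := by
    conv_lhs => rw [hz]
    rw [map_add, map_mul, map_natCast, map_natCast, natCast_self_zmod_pow_one, zero_mul, zero_add]
  rw [h1, map_add, map_nsmul, map_nsmul, h2, nsmul_eq_mul, natCast_self_zmod_pow_one, zero_mul,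
    zero_add, nsmul_eq_mul, mul_comm]

/-- `t ∘ (c • ψ)`. -/
theorem comp_smul_parMapAlg (c : B) (ψ : ↥(parabolicHoms ℤ_[p] Γ ℤ_[p])) :
    t.comp (c • parMapAlg ℤ_[p] B Γ ψ).1 =
      (t c).val • (PadicInt.toZModPow 1).toAddMonoidHom.comp ψ.1 := by
  haveI : NeZero (p ^ 1) := ⟨pow_ne_zero _ hp.out.ne_zero⟩
  refine AddMonoidHom.ext fun γ => ?_
  show t (c * algebraMap ℤ_[p] B (ψ.1 γ)) = (t c).val • PadicInt.toZModPow 1 (ψ.1 γ)
  rw [addMap_mul_algebraMap, nsmul_eq_mul, ZMod.natCast_zmod_val]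

/-- **every `t ∘ v` comes from a `p`-torsion point.** -/
theorem exists_kap_eq_comp (v : ↥(parabolicHoms B Γ B)) :
    ∃ x : ↥(torsionNat J (p ^ 1)), D.kap 1 x = t.comp v.1 := by
  obtain ⟨z, rfl⟩ := (parBC ℤ_[p] B Γ).surjective v
  induction z using TensorProduct.induction_on with
  | zero =>
    refine ⟨0, ?_⟩
    rw [map_zero, LinearEquiv.map_zero (parBC ℤ_[p] B Γ), tcomp_zero]
  | add z z' hz hz' =>
    obtain ⟨x, hx⟩ := hz
    obtain ⟨x', hx'⟩ := hz'
    refine ⟨x + x', ?_⟩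
    rw [map_add, hx, hx', LinearEquiv.map_add (parBC ℤ_[p] B Γ), tcomp_add]
  | tmul c ψ =>
    refine ⟨(t c).val • D.redTors 1 ψ, ?_⟩
    rw [map_nsmul, D.kap_redTors, parBC_tmul, comp_smul_parMapAlg]

/-- **`x ↦ f x` on `J[p]` corresponds to `v ↦ parExt (transport f) v`.** -/
theorem kap_map_eq_comp_parExt (f : AddMonoid.End J) (v : ↥(parabolicHoms B Γ B)) :
    ∀ x : ↥(torsionNat J (p ^ 1)), D.kap 1 x = t.comp v.1 →
      D.kap 1 (torsionNat.map (p ^ 1) f x) =
        t.comp (parExt ℤ_[p] B Γ (D.transport f) v).1 := by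
  obtain ⟨z, rfl⟩ := (parBC ℤ_[p] B Γ).surjective v
  induction z using TensorProduct.induction_on with
  | zero =>
    intro x hx
    rw [LinearEquiv.map_zero (parBC ℤ_[p] B Γ)] at hx ⊢
    have hx0 : x = 0 := by
      apply D.inj 1
      rw [hx, map_zero, tcomp_zero]
    rw [hx0, map_zero, map_zero, map_zero, tcomp_zero]
  | add z z' hz hz' =>
    intro x hx
    obtain ⟨x₁, hx₁⟩ := exists_kap_eq_comp D t (parBC ℤ_[p] B Γ z)
    obtain ⟨x₂, hx₂⟩ := exists_kap_eq_comp D t (parBC ℤ_[p] B Γ z')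
    have hxx : x = x₁ + x₂ := by
      apply D.inj 1
      rw [hx, LinearEquiv.map_add (parBC ℤ_[p] B Γ), tcomp_add, ← hx₁, ← hx₂, map_add]
    rw [hxx, LinearEquiv.map_add (parBC ℤ_[p] B Γ),
      map_add (parExt ℤ_[p] B Γ (D.transport f)), tcomp_add, ← hz x₁ hx₁, ← hz' x₂ hx₂,
      map_add, map_add]
  | tmul c ψ =>
    intro x hx
    have hxx : x = (t c).val • D.redTors 1 ψ := by
      apply D.inj 1
      rw [hx, map_nsmul, D.kap_redTors, parBC_tmul, comp_smul_parMapAlg]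
    have h1 : torsionNat.map (p ^ 1) f (D.redTors 1 ψ) = D.redTors 1 (D.transport f ψ) := by
      apply Subtype.ext
      rw [redTors_transport]
      rfl
    rw [hxx, map_nsmul, map_nsmul, h1, D.kap_redTors, parBC_tmul, parExt_smul_parMapAlg,
      comp_smul_parMapAlg]

end Comp

end Fermat.Agent.NP
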