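/-
NP33 (S33) — helper2 — **[OLDB], part 3: the case `a_p` non-unit is impossible.**

`p ∤ M`, (KEY-OLD) at `A ∣ p`.  There is no `w ∈ Hom_par(Γ₀(M), B)`, `w ∉ ϖ Hom_par`, with
`ρ_B(σ) w ≡ a w` (`σ ∈ I_A` acting on `μ_p` by `ζ ↦ ζ ^ a`) and `T_p w ≡ 0` modulo `ϖ`
(`ϖ` any non-unit of the local ring `B`): reducing `w` through an additive map `B → ℤ/p` one gets
a non-zero `x ∈ J₀(M)[p]` on which `I_A` acts through `ε̄` and which is killed by `T_p`,
contradicting (d4).
-/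
import Mathlib
import Fermat.Agent.NP.OLDB_helper2_Comp
import Fermat.Agent.NP.LAT33_helper2_Old

set_option autoImplicit false
set_option linter.unusedSectionVars false
set_option linter.unusedVariables false
set_option linter.style.haveILetI false

open CongruenceSubgroup ModularCurve ModularCurve.Period IsLocalRing

open scoped MatrixGroups

namespace Fermat.Agent.NP

open Fermat.Agent.GR Fermat.Agent.X0N Fermat.Agent.JA Fermat.Agent.S35

local notation "Ω" => AlgebraicClosure ℚ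
local notation "GQ" => (AlgebraicClosure ℚ ≃ₐ[ℚ] AlgebraicClosure ℚ)

section Functional

theorem exists_addHom_ne_zero_aux {n : ℕ} [Fact n.Prime] {G : Type*} [AddCommGroup G]
    [Module (ZMod n) G] {c : G} (hc : c ≠ 0) : ∃ t : G →+ ZMod n, t c ≠ 0 := by
  haveI : Module.Free (ZMod n) G := Module.Free.of_divisionRing (ZMod n) G
  obtain ⟨⟨ι, bk⟩⟩ := Module.Free.exists_basis (R := ZMod n) (M := G)
  obtain ⟨i, hi⟩ : ∃ i, bk.repr c i ≠ 0 := by
    by_contra hcon
    push Not at hcon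
    apply hc
    apply bk.repr.injective
    rw [map_zero]
    exact Finsupp.ext hcon
  exact ⟨(bk.coord i).toAddMonoidHom, hi⟩

/-- a non-zero element of an abelian group killed by a prime `n` is detected by an additive map
to `ℤ/n`. -/
theorem exists_addHom_ne_zero {n : ℕ} [Fact n.Prime] {G : Type*} [AddCommGroup G]
    (h : ∀ x : G, n • x = 0) {c : G} (hc : c ≠ 0) : ∃ t : G →+ ZMod n, t c ≠ 0 := by
  letI : Module (ZMod n) G := AddCommGroup.zmodModule h
  exact exists_addHom_ne_zero_aux hc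

variable {p : ℕ} [hp : Fact p.Prime] {B : Type*} [CommRing B] [IsLocalRing B]

/-- an additive map `B → ℤ/p` killing the maximal ideal and not killing a given unit-class. -/
theorem exists_addMap_ne_zero (hpB : (p : B) ∈ maximalIdeal B) {c : B}
    (hc : c ∉ maximalIdeal B) :
    ∃ t : B →+ ZMod (p ^ 1), (∀ b ∈ maximalIdeal B, t b = 0) ∧ t c ≠ 0 := by
  haveI : Fact (p ^ 1).Prime := ⟨by rw [pow_one]; exact hp.out⟩
  have hk : ∀ x : ResidueField B, (p ^ 1) • x = 0 := by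
    intro x
    rw [pow_one, nsmul_eq_mul]
    have : ((p : ℕ) : ResidueField B) = 0 := by
      have h1 : residue B (p : B) = 0 := (residue_eq_zero_iff _).2 hpB
      rwa [map_natCast] at h1
    rw [this, zero_mul]
  have hc0 : residue B c ≠ 0 := fun h => hc ((residue_eq_zero_iff _).1 h)
  obtain ⟨f, hf⟩ := exists_addHom_ne_zero hk hc0
  refine ⟨f.comp (residue B : B →+ ResidueField B), ?_, hf⟩
  intro b hb
  show f (residue B b) = 0
  rw [(residue_eq_zero_iff _).2 hb, map_zero]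

end Functional

section OldNonunit

variable {M p : ℕ} [NeZero M] [hp : Fact p.Prime] (I : StageIData M p)
  (B : Type) [CommRing B] [IsDomain B] [IsLocalRing B] [CharZero B] [Algebra ℤ_[p] B]

/-- bookkeeping for `parExt` of `X - a`. -/
theorem parExt_sub_natCast_apply {Γ : Subgroup SL(2, ℤ)} [Group.FG Γ]
    (X : Module.End ℤ_[p] ↥(parabolicHoms ℤ_[p] Γ ℤ_[p])) (a : ℕ) (v : ↥(parabolicHoms B Γ B)) :
    parExt ℤ_[p] B Γ (X - (a : Module.End ℤ_[p] ↥(parabolicHoms ℤ_[p] Γ ℤ_[p]))) v =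
      parExt ℤ_[p] B Γ X v - (a : B) • v := by
  have h5 := map_sub (parExt ℤ_[p] B Γ) X
    (a : Module.End ℤ_[p] ↥(parabolicHoms ℤ_[p] Γ ℤ_[p]))
  have h8 := map_natCast (parExt ℤ_[p] B Γ) a
  rw [h5, h8, LinearMap.sub_apply, Module.End.natCast_apply, Nat.cast_smul_eq_nsmul]

/-- **the case `a_p` non-unit is impossible.** -/
theorem false_of_keyOld_of_mod (hpM : ¬ p ∣ M) (hpB : (p : B) ∈ maximalIdeal B)
    {A : ValuationSubring Ω} (hkey : KeyOldAt M p hp.out A)
    (hσ₁ : ∃ σ ∈ A.inertiaSubgroupIn ℚ, ∃ a : ℕ, CycAct p σ a ∧ ¬ p ∣ a ∧ ¬ (a ≡ 1 [MOD p]))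
    (ϖ : B) (hϖ : ϖ ∈ maximalIdeal B) (hϖ0 : ϖ ≠ 0)
    (hϖ' : ∀ b ∈ maximalIdeal B, ∃ b', b = ϖ * b')
    (w : ↥(parabolicHoms B (Gamma0 M) B))
    (hw : ¬ ∃ w' : ↥(parabolicHoms B (Gamma0 M) B), w = ϖ • w')
    (hσ : ∀ σ ∈ A.inertiaSubgroupIn ℚ, ∀ a : ℕ, CycAct p σ a →
      ∃ w' : ↥(parabolicHoms B (Gamma0 M) B),
        parExt ℤ_[p] B (Gamma0 M) (I.D.rho σ) w - (a : B) • w = ϖ • w')
    (hT : ∃ w' : ↥(parabolicHoms B (Gamma0 M) B),
      heckeParP M (⟨p, hp.out⟩ : Nat.Primes) B B w = ϖ • w') : False := by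
  obtain ⟨S, e, Dd, he, hSa, hd1, hd2, hd3, hd4⟩ := hkey
  -- a value of `w` which is a unit
  have hγ : ∃ γ₀ : Additive ↥(Gamma0 M), w.1 γ₀ ∉ maximalIdeal B := by
    by_contra hcon
    push Not at hcon
    apply hw
    refine exists_eq_smul_of_forall_exists B (Gamma0 M) B ϖ ?_ w ?_
    · intro x y hxy
      exact mul_left_cancel₀ hϖ0 hxy
    · intro γ
      obtain ⟨b', hb'⟩ := hϖ' _ (hcon γ)
      exact ⟨b', hb'⟩
  obtain ⟨γ₀, hγ₀⟩ := hγ
  obtain ⟨t, ht, htc⟩ := exists_addMap_ne_zero (p := p) hpB hγ₀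
  have htϖ : ∀ w' : ↥(parabolicHoms B (Gamma0 M) B), t.comp (ϖ • w').1 = 0 := by
    intro w'
    refine AddMonoidHom.ext fun γ => ?_
    show t (ϖ * w'.1 γ) = 0
    exact ht _ (Ideal.mul_mem_right _ _ hϖ)
  obtain ⟨x, hx⟩ := exists_kap_eq_comp I.D t w
  have hx0 : (x : JZero M) ≠ 0 := by
    intro h0
    have hx00 : x = 0 := Subtype.ext h0
    rw [hx00, map_zero] at hx
    apply htc
    have := DFunLike.congr_fun hx γ₀
    exact this.symm
  have hpx : p • (x : JZero M) = 0 := by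
    have := x.2
    rw [mem_torsionNat] at this
    simpa only [pow_one] using this
  -- the action of inertia
  have hact : ∀ σ ∈ A.inertiaSubgroupIn ℚ, ∀ a : ℕ, CycAct p σ a →
      σ • (x : JZero M) = a • (x : JZero M) := by
    intro σ hσA a ha
    obtain ⟨w', hw'⟩ := hσ σ hσA a ha
    have h1 := kap_map_eq_comp_parExt I.D t
      (DistribMulAction.toAddMonoidEnd GQ (JZero M) σ - (a : AddMonoid.End (JZero M))) w x hx
    have h6 : parExt ℤ_[p] B (Gamma0 M) (I.D.transport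
        (DistribMulAction.toAddMonoidEnd GQ (JZero M) σ - (a : AddMonoid.End (JZero M)))) w =
        ϖ • w' :=
      (congrArg (fun Z => parExt ℤ_[p] B (Gamma0 M) Z w) (rho_sub_natCast I.D σ a).symm).trans
        ((parExt_sub_natCast_apply B (I.D.rho σ) a w).trans hw')
    have h7 : I.D.kap 1 (torsionNat.map (p ^ 1)
        (DistribMulAction.toAddMonoidEnd GQ (JZero M) σ - (a : AddMonoid.End (JZero M))) x) = 0 :=
      h1.trans ((congrArg (fun u : ↥(parabolicHoms B (Gamma0 M) B) => t.comp u.1) h6).trans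
        (htϖ w'))
    have h2 := I.D.inj 1 (h7.trans (map_zero _).symm)
    have h3 : (DistribMulAction.toAddMonoidEnd GQ (JZero M) σ - (a : AddMonoid.End (JZero M)))
        (x : JZero M) = 0 := congrArg Subtype.val h2
    rw [sub_natCast_apply] at h3
    exact sub_eq_zero.mp h3
  -- the action of `T_p`
  have hTx : heckeOperatorBar M (⟨p, hp.out⟩ : Nat.Primes) (x : JZero M) = 0 := by
    obtain ⟨w', hw'⟩ := hT
    have h1 := kap_map_eq_comp_parExt I.D t (tpEnd I) w x hx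
    have hTT : parExt ℤ_[p] B (Gamma0 M) (I.D.transport (tpEnd I)) =
        heckeParP M (⟨p, hp.out⟩ : Nat.Primes) B B :=
      (congrArg (parExt ℤ_[p] B (Gamma0 M)) (transport_tpEnd I)).trans
        (parExt_heckeParP M ℤ_[p] B (⟨p, hp.out⟩ : Nat.Primes))
    have h6 : parExt ℤ_[p] B (Gamma0 M) (I.D.transport (tpEnd I)) w = ϖ • w' :=
      (congrArg (fun Z : Module.End B ↥(parabolicHoms B (Gamma0 M) B) => Z w) hTT).trans hw'
    have h7 : I.D.kap 1 (torsionNat.map (p ^ 1) (tpEnd I) x) = 0 :=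
      h1.trans ((congrArg (fun u : ↥(parabolicHoms B (Gamma0 M) B) => t.comp u.1) h6).trans
        (htϖ w'))
    have h2 := I.D.inj 1 (h7.trans (map_zero _).symm)
    have h3 : tpEnd I (x : JZero M) = 0 := congrArg Subtype.val h2
    rw [← tpEnd_apply I hpM]
    exact h3
  -- `x ∈ S`
  obtain ⟨σ₁, hσ₁A, a₁, ha₁, ha₁0, ha₁1⟩ := hσ₁
  have hxS : (x : JZero M) ∈ S := by
    have hapos : 1 ≤ a₁ := by
      rcases Nat.eq_zero_or_pos a₁ with h0 | h0
      · exact absurd (h0 ▸ dvd_zero p) ha₁0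
      · exact h0
    have hnd : ¬ p ∣ a₁ - 1 := by
      intro hd
      exact ha₁1 ((Nat.modEq_iff_dvd' hapos).2 hd).symm
    have hcop : Nat.Coprime (a₁ - 1) p :=
      ((Nat.Prime.coprime_iff_not_dvd hp.out).2 hnd).symm
    obtain ⟨b, -, hb⟩ := Nat.exists_mul_mod_eq_one_of_coprime hcop hp.out.one_lt
    have hpx1 : p ^ 1 • (x : JZero M) = 0 := x.2
    have h1 : σ₁ • (x : JZero M) - (x : JZero M) ∈ S := hSa _ 1 hpx1 σ₁ hσ₁A
    rw [hact σ₁ hσ₁A a₁ ha₁] at h1
    have h2 : (a₁ - 1) • (x : JZero M) = a₁ • (x : JZero M) - (x : JZero M) := by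
      conv_rhs => rw [← Nat.sub_add_cancel hapos, succ_nsmul]
      abel
    have h3 : ((a₁ - 1) * b) • (x : JZero M) = (x : JZero M) := by
      have h4 := Nat.div_add_mod ((a₁ - 1) * b) p
      rw [hb] at h4
      rw [← h4, add_nsmul, mul_comm p, mul_nsmul', hpx, nsmul_zero, zero_add, one_nsmul]
    rw [← h3, mul_comm, mul_nsmul', h2]
    exact S.nsmul_mem h1 b
  exact hx0 (hd4 _ hxS hpx hact hTx)

end OldNonunit

end Fermat.Agent.NP
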