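/-
NP33 (S33) — helper2 — **[S33TOP], part 3: the old case.**  A system of eigenvalues `a` of level
`M` (`p ∤ M`) whose representation `ρ''` on the eigenlattice has an *ordinary vector* modulo the
maximal ideal (a vector `w₀ ∉ 𝔪 Λ` on which the inertia group at `p` acts through the cyclotomic
character modulo `𝔪`): from (KEY-OLD),
* `a_p` is a unit (`isUnit_ap_of_keyOld`), and
* `ρ''` has a non-zero functional invariant under the inertia group at `p`
  (`old_exists_functional`).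
-/
import Mathlib
import Fermat.Agent.NP.S33TOP_helper2_Lat
import Fermat.Agent.NP.LAT33_helper2_Old
import Fermat.Agent.NP.OLDB_helper2_Main
import Fermat.Agent.NP.EPS33_helper2_Det
import Fermat.Agent.NP.EPS33_helper2_Cyc
import Fermat.Agent.GR.ASM_helper8_Done

set_option autoImplicit false
set_option linter.unusedSectionVars false
set_option linter.unusedVariables false
set_option linter.style.haveILetI false

open CongruenceSubgroup ModularCurve ModularCurve.Period IsLocalRing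

open scoped MatrixGroups

namespace Fermat.Agent.NP

open Fermat.Agent.GR Fermat.Agent.X0N Fermat.Agent.JA Fermat.Agent.S35

local notation "Ω" => AlgebraicClosure ℚ
local notation "GQ" => (AlgebraicClosure ℚ ≃ₐ[ℚ] AlgebraicClosure ℚ)

section Old

variable {M p : ℕ} [NeZero M] [hp : Fact p.Prime]
  (B : Type) [CommRing B] [IsDomain B] [IsDiscreteValuationRing B] [CharZero B]
  [Algebra ℤ_[p] B] [Module.Flat ℤ_[p] B] (hpB : (p : B) ∈ maximalIdeal B)
  (a : Nat.Primes → B)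
  (L : Type) [Field L] [Algebra B L] [IsFractionRing B L]
  (hrank : Module.finrank L ↥(eigenPar M L (mapSys B L a)) = 2)

/-- **`a_p` is a unit** when the eigenlattice has an ordinary vector. -/
theorem isUnit_ap_of_keyOld (hp2 : p ≠ 2) (hpM : ¬ p ∣ M)
    {A : ValuationSubring Ω} (hA : A.LiesOverPrime p) (hkey : KeyOldAt M p hp.out A)
    (hord : ∃ w₀ : ((stageIData M p).rep B hpB a L hrank).V,
      w₀ ∉ maximalIdeal B • (⊤ : Submodule B ((stageIData M p).rep B hpB a L hrank).V) ∧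
      ∀ σ ∈ A.inertiaSubgroupIn ℚ, ∀ c : ℕ, CycAct p σ c →
        ((stageIData M p).rep B hpB a L hrank).ρ σ w₀ - (c : B) • w₀ ∈
          maximalIdeal B • (⊤ : Submodule B ((stageIData M p).rep B hpB a L hrank).V)) :
    IsUnit (a (⟨p, hp.out⟩ : Nat.Primes)) := by
  by_contra hnu
  have hap : a (⟨p, hp.out⟩ : Nat.Primes) ∈ maximalIdeal B := (mem_maximalIdeal _).2 hnu
  obtain ⟨ϖ, hϖirr⟩ := IsDiscreteValuationRing.exists_irreducible B
  have hmax : maximalIdeal B = Ideal.span {ϖ} := hϖirr.maximalIdeal_eq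
  have hϖ : ϖ ∈ maximalIdeal B := by
    rw [hmax]; exact Ideal.mem_span_singleton_self ϖ
  have hϖ0 : ϖ ≠ 0 := hϖirr.ne_zero
  have hϖ' : ∀ b ∈ maximalIdeal B, ∃ b', b = ϖ * b' := by
    intro b hb
    rw [hmax, Ideal.mem_span_singleton'] at hb
    obtain ⟨b', hb'⟩ := hb
    exact ⟨b', by rw [← hb', mul_comm]⟩
  have hsm : ∀ x : ↥(eigenLattice M B a),
      x ∈ maximalIdeal B • (⊤ : Submodule B ↥(eigenLattice M B a)) →
        ∃ y : ↥(eigenLattice M B a), x = ϖ • y := by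
    intro x hx
    rw [hmax, Submodule.ideal_span_singleton_smul] at hx
    obtain ⟨y, -, hy⟩ := hx
    exact ⟨y, hy.symm⟩
  obtain ⟨w₀, hw₀, hσw₀⟩ := hord
  obtain ⟨σ₁, hσ₁, a₁, ha₁, ha₁0, ha₁1⟩ := exists_cycAct_ne_one hp.out hp2 hA
  refine false_of_keyOld_of_mod (stageIData M p) B hpM hpB hkey
    ⟨σ₁, hσ₁, a₁, ha₁, ha₁0, ha₁1⟩ ϖ hϖ hϖ0 hϖ'
    (w₀ : ↥(eigenLattice M B a)).1 ?_ ?_ ?_
  · rintro ⟨w', hw'⟩
    apply hw₀
    have hmem : ϖ • w' ∈ eigenLattice M B a := by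
      rw [← hw']
      exact (w₀ : ↥(eigenLattice M B a)).2
    have hw'mem : w' ∈ eigenLattice M B a := mem_eigenLattice_of_smul_mem M B a hϖ0 hmem
    have : w₀ = ϖ • (⟨w', hw'mem⟩ : ↥(eigenLattice M B a)) := Subtype.ext hw'
    rw [this]
    exact Submodule.smul_mem_smul hϖ Submodule.mem_top
  · intro σ hσ c hc
    obtain ⟨y, hy⟩ := hsm _ (hσw₀ σ hσ c hc)
    exact ⟨y.1, congrArg Subtype.val hy⟩
  · obtain ⟨b', hb'⟩ := hϖ' _ hap
    refine ⟨b' • (w₀ : ↥(eigenLattice M B a)).1, ?_⟩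
    rw [(mem_eigenLattice.1 (w₀ : ↥(eigenLattice M B a)).2) (⟨p, hp.out⟩ : Nat.Primes), hb',
      mul_smul]

/-- **the old case**: a non-zero inertia-invariant functional on the eigenlattice. -/
theorem old_exists_functional (hp2 : p ≠ 2) (hpM : ¬ p ∣ M)
    (hplus : ∃ e : Additive (Gamma0 M) →+ L, e ∈ eigenPar M L (mapSys B L a) ∧
      e ≠ 0 ∧ charInvolution M L L e = e)
    (hminus : ∃ e : Additive (Gamma0 M) →+ L, e ∈ eigenPar M L (mapSys B L a) ∧
      e ≠ 0 ∧ charInvolution M L L e = -e)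
    {A : ValuationSubring Ω} (hA : A.LiesOverPrime p) (hkey : KeyOldAt M p hp.out A)
    (hord : ∃ w₀ : ((stageIData M p).rep B hpB a L hrank).V,
      w₀ ∉ maximalIdeal B • (⊤ : Submodule B ((stageIData M p).rep B hpB a L hrank).V) ∧
      ∀ σ ∈ A.inertiaSubgroupIn ℚ, ∀ c : ℕ, CycAct p σ c →
        ((stageIData M p).rep B hpB a L hrank).ρ σ w₀ - (c : B) • w₀ ∈
          maximalIdeal B • (⊤ : Submodule B ((stageIData M p).rep B hpB a L hrank).V)) :
    ∃ Φ : ((stageIData M p).rep B hpB a L hrank).V →ₗ[B] B,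
      (∀ τ ∈ A.inertiaSubgroupIn ℚ, ∀ w,
        Φ (((stageIData M p).rep B hpB a L hrank).ρ τ w) = Φ w) ∧ Φ ≠ 0 := by
  have hunit := isUnit_ap_of_keyOld B hpB a L hrank hp2 hpM hA hkey hord
  by_contra hcon
  push Not at hcon
  obtain ⟨σ₁, hσ₁, a₁, ha₁, ha₁0, ha₁1⟩ := exists_cycAct_ne_one hp.out hp2 hA
  refine false_of_scalar_mod ((stageIData M p).rep B hpB a L hrank) hp.out
    ((stageIData M p).rep_detIsCyclotomic B hpB a L hrank hplus hminus) ha₁ ha₁0 ha₁1 ?_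
  intro w
  have hv0 := parExt_eq_zero_of_noFunctional B a (stageIData M p).rhoP
    (stageIData M p).rhoP_comm (A.inertiaSubgroupIn ℚ) hcon w
  obtain ⟨k, hk⟩ := old_exists_eq_smul (stageIData M p) B hpM hkey
    (w : ↥(eigenLattice M B a)).1 hv0
  obtain ⟨v', hv'⟩ := hk σ₁ hσ₁ a₁ ha₁
  rw [heckeParP_pow_apply_of_mem B a (⟨p, hp.out⟩ : Nat.Primes) k w] at hv'
  obtain ⟨u, hu⟩ := (hunit.pow k)
  have hp0 : (p : B) ≠ 0 := Nat.cast_ne_zero.2 hp.out.ne_zero
  refine lattice_scalar_of_smul B a (stageIData M p).rhoP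
    (stageIData M p).rhoP_comm σ₁ (a₁ : B) (p : B) hp0 w ⟨(↑u⁻¹ : B) • v', ?_⟩
  have h1 : (a (⟨p, hp.out⟩ : Nat.Primes) ^ k) •
      (parExt ℤ_[p] B (Gamma0 M) ((stageIData M p).rhoP σ₁) (w : ↥(eigenLattice M B a)).1 -
        (a₁ : B) • (w : ↥(eigenLattice M B a)).1) = (p : B) • v' := by
    rw [← hv', smul_sub, map_smul, smul_comm]
    rfl
  have h2 : (↑u⁻¹ : B) • ((a (⟨p, hp.out⟩ : Nat.Primes) ^ k) •
      (parExt ℤ_[p] B (Gamma0 M) ((stageIData M p).rhoP σ₁) (w : ↥(eigenLattice M B a)).1 -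
        (a₁ : B) • (w : ↥(eigenLattice M B a)).1)) = (↑u⁻¹ : B) • ((p : B) • v') := by
    rw [h1]
  rw [smul_smul, ← hu, Units.inv_mul, one_smul, smul_comm] at h2
  exact h2

end Old

end Fermat.Agent.NP
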