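/-
NP33 (S33) — helper2 — **[S33TOP], part 6: S33 from the two geometric KEY statements.**

`s33_of_keys : KeyNewStatement → KeyOldStatement → <frozen S33>`: the Hecke representation `H.ρ` of
level `N = M p`, `p ∤ M`, is ordinary at `p` as soon as its residual representation is.
Proof: [ALG33] reduces to the existence, at every point `ψ : T → B` of the Hecke ring, of a
non-zero `ψ`-semilinear functional on `H.ρ.V` invariant under inertia at `p`; the point comes with a
system of eigenvalues `a` of level `M p`.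
* NEW (`a` does not occur at level `M`): (KEY-NEW) on the eigenlattice of level `M p`;
* OLD (`a` occurs at level `M` away from `M p`): a full system `a'` of level `M` over a finite
  extension `B'`, (KEY-OLD) on its eigenlattice, the ordinary vector being transported from the
  residual representation of `H.ρ`.
The functional is transported back to `H.ρ.V` by [EMB33].
-/
import Mathlib
import Fermat.Agent.NP.S33TOP_helper2_New
import Fermat.Agent.NP.S33TOP_helper2_Old
import Fermat.Agent.NP.S33TOP_helper2_Sys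
import Fermat.Agent.NP.S33TOP_helper2_DetH
import Fermat.Agent.NP.ALG33_helper2_Main
import Fermat.Agent.NP.EMB33_helper2_Main
import Fermat.Agent.NP.OLDB_helper2_Line
import Fermat.Agent.S32.Real_helper6
import Fermat.Agent.S35.T2_lead_Top

set_option autoImplicit false
set_option linter.unusedSectionVars false
set_option linter.unusedVariables false
set_option linter.style.haveILetI false

open CongruenceSubgroup ModularCurve ModularCurve.Period Polynomial IsLocalRing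

open scoped MatrixGroups

namespace Fermat.Agent.NP

open Fermat.Agent.GR Fermat.Agent.X0N Fermat.Agent.JA Fermat.Agent.S35 Fermat.Agent.S32

local notation "Ω" => AlgebraicClosure ℚ
local notation "GQ" => (AlgebraicClosure ℚ ≃ₐ[ℚ] AlgebraicClosure ℚ)

/-- `2` is a unit in a local ring of odd residue characteristic. -/
theorem isUnit_two_of_odd_prime {B : Type*} [CommRing B] [IsLocalRing B] {p : ℕ} (hp : p.Prime)
    (hp2 : p ≠ 2) (hpB : (p : B) ∈ maximalIdeal B) : IsUnit (2 : B) := by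
  by_contra h
  have h2m : (2 : B) ∈ maximalIdeal B := (mem_maximalIdeal _).2 h
  obtain ⟨k, hk⟩ := hp.odd_of_ne_two hp2
  have h1 : (1 : B) = (p : B) - 2 * (k : B) := by
    rw [hk]; push_cast; ring
  have : (1 : B) ∈ maximalIdeal B := by
    rw [h1]
    exact Ideal.sub_mem _ hpB (Ideal.mul_mem_right _ _ h2m)
  exact (maximalIdeal.isMaximal B).ne_top ((Ideal.eq_top_iff_one _).2 this)

/-- the primes dividing a non-zero integer are finitely many. -/
theorem primesNotDvd_compl_finite {n : ℕ} (hn : n ≠ 0) : ((primesNotDvd n)ᶜ).Finite := by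
  refine Set.Finite.of_finite_image (f := fun ℓ : Nat.Primes => (ℓ : ℕ)) ?_
    (fun x _ y _ hxy => Subtype.ext hxy)
  refine (n.divisors.finite_toSet).subset ?_
  rintro _ ⟨ℓ, hℓ, rfl⟩
  have hℓ' : (ℓ : ℕ) ∣ n := by
    by_contra hcon
    exact hℓ hcon
  exact Finset.mem_coe.2 (Nat.mem_divisors.2 ⟨hℓ', hn⟩)

section Top

variable {p : ℕ} {N : ℕ} [NeZero N] {S : Finset ℕ}
  {𝒪 : Type} [CommRing 𝒪] [IsDomain 𝒪] [IsDiscreteValuationRing 𝒪]
  [IsAdicComplete (IsLocalRing.maximalIdeal 𝒪) 𝒪]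
  {θ : CuspForm.heckeAlgebra N 2 (↑S : Set ℕ) →+* IsLocalRing.ResidueField 𝒪}
  {T : Type} [CommRing T] [IsLocalRing T] [IsNoetherianRing T]
  [IsAdicComplete (IsLocalRing.maximalIdeal T) T] [Algebra 𝒪 T] [IsLocalHom (algebraMap 𝒪 T)]
  [Module.Finite 𝒪 T] [Module.Free 𝒪 T]

/-- **the functional at one point of the Hecke ring** (level `M p`, `p ∤ M`). -/
theorem exists_point_functional {M : ℕ} [NeZero M] [hpf : Fact p.Prime] [NeZero (M * p)]
    {θ : CuspForm.heckeAlgebra (M * p) 2 (↑S : Set ℕ) →+* IsLocalRing.ResidueField 𝒪}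
    (hKN : KeyNewStatement) (hKO : KeyOldStatement)
    (hp2 : p ≠ 2) (hpM : ¬ p ∣ M) (hpT : (p : T) ∈ maximalIdeal T)
    (hNS : ∀ q : ℕ, q.Prime → q ∣ M * p → q ∈ S)
    (H : CuspForm.HeckeGaloisRepDatum (M * p) (↑S : Set ℕ) 𝒪 θ T)
    (hdetH : H.ρ.DetIsCyclotomic p)
    (hres : (GaloisRepAdic.ofResidualGaloisRep H.ρ.residual).IsOrdinaryAt p)
    {P : ValuationSubring Ω} (hP : P.LiesOverPrime p)
    (B : Type) [CommRing B] [IsDomain B] [IsDiscreteValuationRing B]
    [IsAdicComplete (maximalIdeal B) B] [Finite (ResidueField B)] [CharZero B]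
    (ψ : T →+* B) [IsLocalHom ψ]
    (L : Type) [Field L] [Algebra B L] [IsFractionRing B L] (a : Nat.Primes → B)
    (hocc : eigenPar (M * p) L (mapSys B L a) ≠ ⊥)
    (ha : ∀ (ℓ : ℕ) (hℓ : ℓ.Prime) (hℓN : ¬ ℓ ∣ M * p) (hℓS : ℓ ∉ (↑S : Set ℕ)),
      a ⟨ℓ, hℓ⟩ = ψ (H.π (CuspForm.heckeAlgebra.T hℓ hℓN hℓS))) :
    ∃ (B' : Type) (_ : CommRing B') (_ : IsDomain B') (ψ' : T →+* B') (φ : H.ρ.V →+ B'),
      (∀ t : T, ψ t ≠ 0 → ψ' t ≠ 0) ∧ (∀ (s : T) (v : H.ρ.V), φ (s • v) = ψ' s * φ v) ∧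
      (∀ σ ∈ P.inertiaSubgroupIn ℚ, ∀ v : H.ρ.V, φ (H.ρ.ρ σ v) = φ v) ∧ ∃ v : H.ρ.V, φ v ≠ 0 := by
  have hp : p.Prime := hpf.out
  haveI : NeZero p := ⟨hp.ne_zero⟩
  have hpS : p ∈ S := hNS p hp (Dvd.intro_left M rfl)
  have hpB : (p : B) ∈ maximalIdeal B := by
    have := map_nonunit ψ _ hpT
    rwa [map_natCast] at this
  letI : Algebra ℤ_[p] B := (padicToComplete p (maximalIdeal B) hpB).toAlgebra
  haveI : Module.Flat ℤ_[p] B := flat_padic_of_charZero B
  haveI : CharZero L := charZero_of_injective_algebraMap (IsFractionRing.injective B L)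
  obtain ⟨_, _, hrank⟩ := mult1_field hocc
  obtain ⟨hplus, hminus⟩ := exists_plus_minus_of_occ L (mapSys B L a) hocc
  have h2 : IsUnit (2 : B) := isUnit_two_of_odd_prime hp hp2 hpB
  by_cases hnew : eigenParOn M L (primesNotDvd (M * p)) (mapSys B L a) = ⊥
  · -- the new case
    have hfrob : ∀ ℓ : ℕ, ℓ.Prime → ℓ ∉ S → ∀ P : ValuationSubring Ω, P.LiesOverPrime ℓ →
        ∀ φ : GQ, P.IsFrobeniusAt φ ℓ →
          (LinearMap.charpoly (H.ρ.ρ φ)).map ψ =
            LinearMap.charpoly (((stageIData (M * p) p).rep B hpB a L hrank).ρ φ) := by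
      intro ℓ hℓ hℓS P hP φ hφ
      have hℓN : ¬ ℓ ∣ M * p := fun h => hℓS (hNS ℓ hℓ h)
      have hℓS' : ℓ ∉ (↑S : Set ℕ) := by simpa using hℓS
      have hℓp : ℓ ≠ p := fun h => hℓS (by rw [h]; exact hpS)
      have hℓNp : ¬ ℓ ∣ M * p * p := by
        intro h
        rcases (Nat.Prime.dvd_mul hℓ).1 h with h | h
        · exact hℓN h
        · exact hℓp ((Nat.prime_dvd_prime_iff_eq hℓ hp).1 h)
      rw [H.charpoly_frob ℓ hℓ hℓN hℓS' P hP φ hφ,
        (stageIData (M * p) p).rep_charpoly_frobenius B hpB a L hrank hplus hminus hℓ hℓNp hP hφ,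
        ha ℓ hℓ hℓN hℓS']
      simp only [Polynomial.map_add, Polynomial.map_sub, Polynomial.map_mul, Polynomial.map_pow,
        Polynomial.map_X, Polynomial.map_C, map_natCast, Polynomial.map_natCast]
    obtain ⟨x, y, hxy⟩ := exists_bezout_of_coprime M p
      ((Nat.Prime.coprime_iff_not_dvd hp).mpr hpM)
    obtain ⟨Φ, hΦ, hne⟩ := new_exists_functional hxy B hpB a L hrank hp2 hplus hminus hnew hP
      (hKN M p hp hp2 hpM P hP)
    obtain ⟨φ, h1, h2', h3⟩ := exists_functional_of_frob H.ρ ψ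
      ((stageIData (M * p) p).rep B hpB a L hrank) H.residual_absIrr h2 S hfrob
      (P.inertiaSubgroupIn ℚ) Φ hΦ hne
    exact ⟨B, inferInstance, inferInstance, ψ, φ, fun t ht => ht, h1, h2', h3⟩
  · -- the old case
    have hMp : M * p ≠ 0 := NeZero.ne (M * p)
    obtain ⟨B', i1, i2, i3, i4, i5, i6, i7, i8, i9, hinj, L', j1, j2, j3, a', hocc', ha'⟩ :=
      exists_system_of_eigenParOn (M := M) (primesNotDvd (M * p))
        (primesNotDvd_compl_finite hMp) B L a hnew
    let ψ' : T →+* B' := (algebraMap B B').comp ψ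
    haveI : IsLocalHom ψ' := RingHom.isLocalHom_comp (algebraMap B B') ψ
    have hpB' : (p : B') ∈ maximalIdeal B' := by
      have := map_nonunit ψ' _ hpT
      rwa [map_natCast] at this
    letI : Algebra ℤ_[p] B' := (padicToComplete p (maximalIdeal B') hpB').toAlgebra
    haveI : Module.Flat ℤ_[p] B' := flat_padic_of_charZero B'
    haveI : CharZero L' := charZero_of_injective_algebraMap (IsFractionRing.injective B' L')
    obtain ⟨_, _, hrank'⟩ := mult1_field hocc'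
    obtain ⟨hplus', hminus'⟩ := exists_plus_minus_of_occ L' (mapSys B' L' a') hocc'
    have h2' : IsUnit (2 : B') := isUnit_two_of_odd_prime hp hp2 hpB'
    have hfrob : ∀ ℓ : ℕ, ℓ.Prime → ℓ ∉ S → ∀ P : ValuationSubring Ω, P.LiesOverPrime ℓ →
        ∀ φ : GQ, P.IsFrobeniusAt φ ℓ →
          (LinearMap.charpoly (H.ρ.ρ φ)).map ψ' =
            LinearMap.charpoly (((stageIData M p).rep B' hpB' a' L' hrank').ρ φ) := by
      intro ℓ hℓ hℓS P hP φ hφ
      have hℓN : ¬ ℓ ∣ M * p := fun h => hℓS (hNS ℓ hℓ h)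
      have hℓS' : ℓ ∉ (↑S : Set ℕ) := by simpa using hℓS
      have haℓ : a' ⟨ℓ, hℓ⟩ = ψ' (H.π (CuspForm.heckeAlgebra.T hℓ hℓN hℓS')) := by
        rw [ha' ⟨ℓ, hℓ⟩ hℓN, ha ℓ hℓ hℓN hℓS']
        rfl
      rw [H.charpoly_frob ℓ hℓ hℓN hℓS' P hP φ hφ,
        (stageIData M p).rep_charpoly_frobenius B' hpB' a' L' hrank' hplus' hminus' hℓ hℓN hP hφ,
        haℓ]
      simp only [Polynomial.map_add, Polynomial.map_sub, Polynomial.map_mul, Polynomial.map_pow,
        Polynomial.map_X, Polynomial.map_C, map_natCast, Polynomial.map_natCast]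
    -- the ordinary vector
    obtain ⟨l, hl, hlσ⟩ := exists_ordinary_vector H.ρ p hdetH hres P hP
    obtain ⟨F, hFσ, hFt, -, hF4, hF5⟩ := exists_semilinear_of_frob H.ρ ψ'
      ((stageIData M p).rep B' hpB' a' L' hrank') H.residual_absIrr h2' S hfrob
    have hord : ∃ w₀ : ((stageIData M p).rep B' hpB' a' L' hrank').V,
        w₀ ∉ maximalIdeal B' • (⊤ : Submodule B' ((stageIData M p).rep B' hpB' a' L' hrank').V) ∧
        ∀ σ ∈ P.inertiaSubgroupIn ℚ, ∀ c : ℕ, CycAct p σ c →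
          ((stageIData M p).rep B' hpB' a' L' hrank').ρ σ w₀ - (c : B') • w₀ ∈
            maximalIdeal B' •
              (⊤ : Submodule B' ((stageIData M p).rep B' hpB' a' L' hrank').V) := by
      refine ⟨F l, fun h => hl (hF5 l h), ?_⟩
      intro σ hσ c hc
      have h1 : ((stageIData M p).rep B' hpB' a' L' hrank').ρ σ (F l) - (c : B') • F l =
          F (H.ρ.ρ σ l - (c : T) • l) := by
        rw [map_sub, hFσ, hFt, map_natCast]
      rw [h1]
      exact hF4 _ (hlσ σ hσ c hc)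
    obtain ⟨Φ, hΦ, hne⟩ := old_exists_functional B' hpB' a' L' hrank' hp2 hpM hplus' hminus' hP
      (hKO M p hp hp2 hpM P hP) hord
    obtain ⟨φ, h1, h2'', h3⟩ := exists_functional_of_frob H.ρ ψ'
      ((stageIData M p).rep B' hpB' a' L' hrank') H.residual_absIrr h2' S hfrob
      (P.inertiaSubgroupIn ℚ) Φ hΦ hne
    refine ⟨B', inferInstance, inferInstance, ψ', φ, ?_, h1, h2'', h3⟩
    intro t ht h0
    apply ht
    apply hinj
    rw [map_zero]
    exact h0

/-- **S33 from (KEY-NEW) and (KEY-OLD).** -/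
theorem s33_of_keys (hKN : KeyNewStatement) (hKO : KeyOldStatement)
    [Finite (IsLocalRing.ResidueField 𝒪)] [CharZero 𝒪]
    (hp : p.Prime) (hp2 : p ≠ 2) (hp𝒪 : (p : 𝒪) ∈ IsLocalRing.maximalIdeal 𝒪)
    (hN : p ∣ N ∧ ¬ p ^ 2 ∣ N)
    (hNS : ∀ q : ℕ, q.Prime → q ∣ N → q ∈ S)
    (H : CuspForm.HeckeGaloisRepDatum N (↑S : Set ℕ) 𝒪 θ T)
    (hres : (GaloisRepAdic.ofResidualGaloisRep H.ρ.residual).IsOrdinaryAt p) :
    H.ρ.IsOrdinaryAt p := by
  haveI hpf : Fact p.Prime := ⟨hp⟩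
  have hdetH : H.ρ.DetIsCyclotomic p := heckeDatum_detIsCyclotomic hp hp𝒪 hNS H
  have hpT : (p : T) ∈ maximalIdeal T := natCast_mem_maximalIdeal_of_algebra hp𝒪
  obtain ⟨M, hM⟩ : ∃ M, N = M * p := by
    obtain ⟨M, hM⟩ := hN.1
    exact ⟨M, by rw [hM, mul_comm]⟩
  have hpM : ¬ p ∣ M := by
    rintro ⟨m, rfl⟩
    apply hN.2
    rw [hM]
    exact ⟨m, by ring⟩
  haveI : NeZero M := ⟨by
    rintro rfl
    exact NeZero.ne N (by rw [hM, zero_mul])⟩
  subst hM
  refine isOrdinaryAt_of_functionals H.ρ p hres ?_ ?_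
  · intro P hP
    obtain ⟨σ, hσ, c, hc, hc0, hc1⟩ := exists_cycAct_ne_one hp hp2 hP
    exact ⟨σ, hσ, residual_ne_one_of_cycAct H.ρ hp hdetH hc hc0 hc1⟩
  · intro P hP t ht
    obtain ⟨ι, iF, B, i1, i2, i3, i4, i5, i6, ψ, i7, hfin, hinj, hsys⟩ :=
      exists_point_systems hNS H
    obtain ⟨i, hi⟩ : ∃ i, ψ i t ≠ 0 := by
      by_contra hcon
      push Not at hcon
      exact ht (hinj t hcon)
    obtain ⟨L, j1, j2, j3, a, hocc, ha⟩ := hsys i
    obtain ⟨B', k1, k2, ψ', φ, hψ', h1, h2, h3⟩ :=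
      exists_point_functional hKN hKO hp2 hpM hpT hNS H hdetH hres hP (B i) (ψ i) L a hocc ha
    exact ⟨B', k1, k2, ψ', φ, hψ' t hi, h1, h2, h3⟩

end Top

end Fermat.Agent.NP
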