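/-
NP33 (S33) — helper2 — **S33 modulo the B-side norm compatibility of the Legendre hosts**:
`s33_of_normB : LegNormBCompat → <frozen S33>`.  (KEY-OLD) is proved (`keyOldStatement`), (KEY-NEW)
follows from `LegNewBaseP` (`keyNewStatement_of_base`), which helper7 proved modulo
`LegNormBCompat` (`legNewBaseP_of_normB`).
-/
import Mathlib
import Fermat.Agent.NP.S33TOP_helper2_Main
import Fermat.Agent.NP.BASEP_helper2_KeyOld
import Fermat.Agent.NP.BASEP_helper2_NewDesc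
import Fermat.Agent.NP.NEWBASE_helper7_Main

set_option autoImplicit false

namespace Fermat.Agent.NP

/-- **(KEY-NEW), all levels**, modulo the B-side norm compatibility. -/
theorem keyNewStatement_of_normB (HB : LegNormBCompat) : KeyNewStatement :=
  keyNewStatement_of_base (legNewBaseP_of_normB HB)

variable {p : ℕ} {N : ℕ} [NeZero N] {S : Finset ℕ}
  {𝒪 : Type} [CommRing 𝒪] [IsDomain 𝒪] [IsDiscreteValuationRing 𝒪]
  [IsAdicComplete (IsLocalRing.maximalIdeal 𝒪) 𝒪]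
  {θ : CuspForm.heckeAlgebra N 2 (↑S : Set ℕ) →+* IsLocalRing.ResidueField 𝒪}
  {T : Type} [CommRing T] [IsLocalRing T] [IsNoetherianRing T]
  [IsAdicComplete (IsLocalRing.maximalIdeal T) T] [Algebra 𝒪 T] [IsLocalHom (algebraMap 𝒪 T)]
  [Module.Finite 𝒪 T] [Module.Free 𝒪 T]

/-- **S33 modulo the B-side norm compatibility.** -/
theorem s33_of_normB (HB : LegNormBCompat)
    [Finite (IsLocalRing.ResidueField 𝒪)] [CharZero 𝒪]
    (hp : p.Prime) (hp2 : p ≠ 2) (hp𝒪 : (p : 𝒪) ∈ IsLocalRing.maximalIdeal 𝒪)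
    (hN : p ∣ N ∧ ¬ p ^ 2 ∣ N)
    (hNS : ∀ q : ℕ, q.Prime → q ∣ N → q ∈ S)
    (H : CuspForm.HeckeGaloisRepDatum N (↑S : Set ℕ) 𝒪 θ T)
    (hres : (GaloisRepAdic.ofResidualGaloisRep H.ρ.residual).IsOrdinaryAt p) :
    H.ρ.IsOrdinaryAt p :=
  s33_of_keys (keyNewStatement_of_normB HB) keyOldStatement hp hp2 hp𝒪 hN hNS H hres

end Fermat.Agent.NP
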