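/-
NP33 (S33) — helper2 — **[S33TOP], part 4: a full system of eigenvalues from a partial one.**
A system of eigenvalues `a : Nat.Primes → B` (`B` a complete DVR with finite residue field) which
occurs at the primes of a cofinite set `σ` in `Hom_par(Γ₀(M), Frac B)` extends, over a finite
extension `B'` of `B`, to a system of eigenvalues of all the Hecke operators occurring in
`Hom_par(Γ₀(M), Frac B')` (same proof as `S32.exists_system_of_character`).
-/
import Mathlib
import Fermat.Agent.S32.System_helper6
import Fermat.Agent.S35.T2_lead_Top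

set_option autoImplicit false
set_option linter.unusedSectionVars false
set_option linter.unusedVariables false
set_option linter.style.haveILetI false

namespace Fermat.Agent.NP

open CongruenceSubgroup ModularCurve ModularCurve.Period Polynomial IsLocalRing Fermat.Agent.GR
  Fermat.Agent.S32 Fermat.Agent.S35

open scoped MatrixGroups

variable {M : ℕ} [NeZero M]

/-- **a partial system of eigenvalues extends to a full one over a finite extension.** -/
theorem exists_system_of_eigenParOn (σ : Set Nat.Primes) (hσ : (σᶜ).Finite)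
    (B : Type) [CommRing B] [IsDomain B] [IsDiscreteValuationRing B]
    [IsAdicComplete (maximalIdeal B) B] [Finite (ResidueField B)] [CharZero B]
    (L : Type) [Field L] [Algebra B L] [IsFractionRing B L]
    (a : Nat.Primes → B) (h : eigenParOn M L σ (mapSys B L a) ≠ ⊥) :
    ∃ (B' : Type) (_ : CommRing B') (_ : IsDomain B') (_ : IsDiscreteValuationRing B')
      (_ : IsAdicComplete (maximalIdeal B') B') (_ : Finite (ResidueField B')) (_ : CharZero B')
      (_ : Algebra B B') (_ : Module.Finite B B') (_ : IsLocalHom (algebraMap B B')),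
      Function.Injective (algebraMap B B') ∧
      ∃ (L' : Type) (_ : Field L') (_ : Algebra B' L') (_ : IsFractionRing B' L')
        (a' : Nat.Primes → B'), eigenPar M L' (mapSys B' L' a') ≠ ⊥ ∧
        ∀ ℓ ∈ σ, a' ℓ = algebraMap B B' (a ℓ) := by
  haveI : CharZero L := charZero_of_injective_algebraMap (IsFractionRing.injective B L)
  -- the system over an algebraic closure
  have h1 := eigenParOn_ne_bot_map' (N := M) L (AlgebraicClosure L) σ (mapSys B L a) h
  obtain ⟨aF, hoccF, haF⟩ := exists_eigenPar_of_eigenParOn h1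
  have hintB : ∀ ℓ, IsIntegral B (aF ℓ) := fun ℓ =>
    isIntegral_of_isIntegral_int (isIntegral_of_eigenPar_ne_bot hoccF ℓ)
  have hintK : ∀ ℓ, IsIntegral L (aF ℓ) := fun ℓ =>
    isIntegral_of_isIntegral_int (isIntegral_of_eigenPar_ne_bot hoccF ℓ)
  haveI : Finite ↑(aF '' σᶜ) := (hσ.image aF).to_subtype
  haveI hfd : FiniteDimensional L ↥(IntermediateField.adjoin L (aF '' σᶜ)) :=
    IntermediateField.finiteDimensional_adjoin (by
      rintro _ ⟨ℓ, _, rfl⟩
      exact hintK ℓ)
  haveI : IsScalarTower B L ↥(IntermediateField.adjoin L (aF '' σᶜ)) :=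
    IsScalarTower.of_algebraMap_eq fun x => Subtype.ext (by
      show algebraMap B (AlgebraicClosure L) x = _
      rw [IsScalarTower.algebraMap_apply B L (AlgebraicClosure L)]
      rfl)
  have hmem : ∀ ℓ : Nat.Primes, aF ℓ ∈ IntermediateField.adjoin L (aF '' σᶜ) := by
    intro ℓ
    by_cases hℓ : ℓ ∈ σ
    · rw [haF ℓ hℓ]
      exact IntermediateField.algebraMap_mem _ _
    · exact IntermediateField.subset_adjoin _ _ ⟨ℓ, hℓ, rfl⟩
  let aL : Nat.Primes → ↥(IntermediateField.adjoin L (aF '' σᶜ)) := fun ℓ => ⟨aF ℓ, hmem ℓ⟩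
  haveI : IsScalarTower B ↥(IntermediateField.adjoin L (aF '' σᶜ)) (AlgebraicClosure L) :=
    IsScalarTower.of_algebraMap_eq fun x => rfl
  have hintL : ∀ ℓ, IsIntegral B (aL ℓ) := by
    intro ℓ
    have h := hintB ℓ
    have h2 : aF ℓ = algebraMap ↥(IntermediateField.adjoin L (aF '' σᶜ))
      (AlgebraicClosure L) (aL ℓ) := rfl
    rw [h2] at h
    exact (isIntegral_algebraMap_iff (RingHom.injective _)).1 h
  have hoccL : eigenPar M ↥(IntermediateField.adjoin L (aF '' σᶜ)) aL ≠ ⊥ := by
    rw [← eigenPar_ne_bot_map_iff _ (AlgebraicClosure L)]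
    exact hoccF
  obtain ⟨B', i1, i2, i3, i4, i5, i6, i7, i8, i9, hinj, j1, j2, a', hocc, ha'⟩ :=
    exists_ext_system_of_finite (N := M) B L ↥(IntermediateField.adjoin L (aF '' σᶜ))
      aL hintL hoccL
  refine ⟨B', i1, i2, i3, i4, i5, i6, i7, i8, i9, hinj, _, inferInstance, j1, j2, a', hocc, ?_⟩
  intro ℓ hℓ
  refine ha' ℓ (a ℓ) ?_
  apply Subtype.ext
  show algebraMap B (AlgebraicClosure L) (a ℓ) = aF ℓ
  rw [haF ℓ hℓ, IsScalarTower.algebraMap_apply B L (AlgebraicClosure L)]
  rfl

end Fermat.Agent.NP
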