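/-
NP33 (S33) — helper2 (architect) — **[BASEP], interface v2 of the top-depth base statement**:
`LegOldTopBaseF` = `LegOldTopBaseP` with two more HYPOTHESES (so it is weaker, i.e. easier for the
host side), which [DESCP] can supply because the base `K'` it constructs is stable under the whole
decomposition group `D_A` (`K' = K^♭ ⊔ F`, `F` the compositum of the `D_A`-conjugates of a number
field inside `Ω^{I'}`, `I' = I_A ∩ G_{ℚ(ζ_p)}` normal in `D_A`):
* `hstab` : `K'` is stable under `D_A`;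
* `φK` : a Frobenius lift on `K'` (restriction of a Frobenius element of `D_A`): it preserves
  `R' = A ∩ K'` and is `r ↦ r ^ p` modulo the maximal ideal.
-/
import Mathlib
import Fermat.Agent.NP.BASEP_helper2_Iface

set_option autoImplicit false
set_option linter.unusedSectionVars false
set_option linter.unusedVariables false
set_option linter.style.haveILetI false

open HahnSeries IntermediateField AlgebraicCurve ModularCurve IsLocalRing

namespace Fermat.Agent.NP

open Fermat.Agent.JA Fermat.Agent.FF Fermat.Agent.SS Fermat.Agent.S35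

/-- `Ω = AlgebraicClosure ℚ`. -/
local notation "Ω" => AlgebraicClosure ℚ

/-- the absolute Galois group. -/
local notation "GQ" => (AlgebraicClosure ℚ ≃ₐ[ℚ] AlgebraicClosure ℚ)

/-- **the base statement of the old case, top depth, with a Frobenius lift on the base**
(level `M`, a base `K'` stable under the decomposition group, with uniformizer `ζ_p - 1`; `s` an
automorphism of `K'` of inertia type, `φK` an automorphism of `K'` of Frobenius type). -/
def LegOldTopBaseF : Prop :=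
  ∀ (M : ℕ) [NeZero M] (p : ℕ) [NeZero p] [NeZero (M * p)] (hp : p.Prime) (hp2 : p ≠ 2), ¬ p ∣ M →
  ∀ (A : ValuationSubring Ω), A.LiesOverPrime p →
  ∀ (K' : IntermediateField ℚ Ω), IsBase p K' →
  (∀ τ : GQ, τ ∈ A.decompositionSubgroup ℚ → ∀ x : Ω, x ∈ K' → τ x ∈ K') →
  ∀ (ζ : ↥(baseRing A K')), IsPrimitiveRoot ζ p → Irreducible (ζ - 1) →
  ∀ (φK : ↥K' ≃ₐ[ℚ] ↥K'),
    (∀ r : ↥(baseRing A K'), ∃ r' : ↥(baseRing A K'), φK (r : ↥K') = (r' : ↥K') ∧
      r' - r ^ p ∈ maximalIdeal ↥(baseRing A K')) →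
  ∀ (s : ↥K' ≃ₐ[ℚ] ↥K') (a₁ : ℕ),
    (∀ r : ↥(baseRing A K'), ∃ r' : ↥(baseRing A K'), s (r : ↥K') = (r' : ↥K') ∧
      r' - r ∈ maximalIdeal ↥(baseRing A K')) →
    s ((ζ : ↥(baseRing A K')) : ↥K') = ((ζ : ↥(baseRing A K')) : ↥K') ^ a₁ →
    ¬ (a₁ ≡ 1 [MOD p]) →
  ∀ f : ↥(legE ↥K' M), f ≠ 0 →
    (∀ P : Place ↥K' ↥(legE ↥K' M), (p : ℤ) ∣ P.ord f) →
    IsConstMulPow (K := ↥K') p (legGalois ↥K' M s • f / f ^ a₁) →
    IsConstMulPow (K := ↥K') p (legHeckeP ↥K' M p hp hp2 f) →
    IsConstMulPow (K := ↥K') p f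

/-- the v1 statement implies the v2 statement. -/
theorem legOldTopBaseF_of_P (h : LegOldTopBaseP) : LegOldTopBaseF := by
  intro M _ p _ _ hp hp2 hpM A hA K' hK' _ ζ hζ hirr _ _ s a₁ hs hsζ ha₁ f hf hord h1 h2
  exact h M p hp hp2 hpM A hA K' hK' ζ hζ hirr s a₁ hs hsζ ha₁ f hf hord h1 h2

end Fermat.Agent.NP
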