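/-
NP33 (S33) — helper5 — package **[BRIDGE]**, part 3: **the `Sheet` of a component of the special
fibre of a chart.**

`B : Subalgebra R F` a noetherian chart with fraction field `F`, `𝔭` a prime of `B` containing `π`
which is locally generated by `π` (`𝔭 B_𝔭 = π B_𝔭`: the special fibre is reduced along `𝔭`):
`chartSheet : Sheet (chartDepthBase …)` with `W = locSub B 𝔭`.
-/
import Fermat.Agent.NP.BRIDGE_helper5_Base
import Fermat.Agent.SS.NODEALG_helper5_Order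

set_option autoImplicit false
set_option linter.unusedSectionVars false

namespace Fermat.Agent.NP

open Polynomial Fermat.Agent.SS

section Prime

variable {R : Type*} [CommRing R] {F : Type*} [Field F] [Algebra R F]
  {B : Subalgebra R F} {𝔭 : Ideal ↥B} [h𝔭 : 𝔭.IsPrime]

/-- `x = a / s ∈ π B_𝔭 ↔ a ∈ 𝔭` when `𝔭` is locally generated by `π`. -/
theorem piDvd_one_locSub_iff {π : R} (hπ𝔭 : algebraMap R ↥B π ∈ 𝔭)
    (hloc : ∀ z ∈ 𝔭, ∃ s : ↥B, s ∉ 𝔭 ∧ algebraMap R ↥B π ∣ s * z)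
    {x : F} {a s : ↥B} (hs : s ∉ 𝔭) (hx : x * (s : F) = (a : F)) :
    PiDvd (algebraMap R F π) (locSub B 𝔭) 1 x ↔ a ∈ 𝔭 := by
  rw [piDvd_locSub_iff]
  constructor
  · rintro ⟨a', s', hs', hx'⟩
    have h1 : a * s' = algebraMap R ↥B π * a' * s := by
      apply Subtype.ext
      push_cast
      rw [← hx]
      rw [pow_one] at hx'
      linear_combination (s : F) * hx'
    have h2 : a * s' ∈ 𝔭 := by
      rw [h1]
      exact 𝔭.mul_mem_right _ (𝔭.mul_mem_right _ hπ𝔭)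
    exact (h𝔭.mem_or_mem h2).resolve_right hs'
  · intro ha
    obtain ⟨σ, hσ, c, hc⟩ := hloc a ha
    refine ⟨c, s * σ, fun h => (h𝔭.mem_or_mem h).elim hs hσ, ?_⟩
    have hc' : (σ : F) * (a : F) = algebraMap R F π * (c : F) := by
      have := congrArg (fun w : ↥B => (w : F)) hc
      simpa using this
    push_cast
    rw [pow_one, ← hc', ← hx]
    ring

/-- `π B_𝔭` is a prime ideal of `B_𝔭`. -/
theorem piDvd_or_of_mul_locSub {π : R} (hπ𝔭 : algebraMap R ↥B π ∈ 𝔭)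
    (hloc : ∀ z ∈ 𝔭, ∃ s : ↥B, s ∉ 𝔭 ∧ algebraMap R ↥B π ∣ s * z)
    {x y : F} (hx : x ∈ locSub B 𝔭) (hy : y ∈ locSub B 𝔭)
    (h : PiDvd (algebraMap R F π) (locSub B 𝔭) 1 (x * y)) :
    PiDvd (algebraMap R F π) (locSub B 𝔭) 1 x ∨ PiDvd (algebraMap R F π) (locSub B 𝔭) 1 y := by
  obtain ⟨a, s, hs, hxa⟩ := hx
  obtain ⟨a', s', hs', hya⟩ := hy
  have hxy : (x * y) * ((s * s' : ↥B) : F) = ((a * a' : ↥B) : F) := by
    push_cast
    rw [← hxa, ← hya]
    ring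
  have hmem := (piDvd_one_locSub_iff hπ𝔭 hloc
    (fun h => (h𝔭.mem_or_mem h).elim hs hs') hxy).1 h
  rcases h𝔭.mem_or_mem hmem with h1 | h1
  · exact Or.inl ((piDvd_one_locSub_iff hπ𝔭 hloc hs hxa).2 h1)
  · exact Or.inr ((piDvd_one_locSub_iff hπ𝔭 hloc hs' hya).2 h1)

end Prime

section SheetLemmas

variable {R : Type*} [CommRing R] [IsDomain R] [IsDiscreteValuationRing R]
  {K₁ : Type*} [Field K₁] [Algebra R K₁] [IsFractionRing R K₁]
  {F : Type*} [Field F] [Algebra K₁ F] [Algebra R F] [IsScalarTower R K₁ F]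
  {B : Subalgebra R F} {𝔭 : Ideal ↥B} [h𝔭 : 𝔭.IsPrime] {π : R}

include K₁ in
theorem pi_inv_notMem_locSub (hπ : Irreducible π) (hπ𝔭 : algebraMap R ↥B π ∈ 𝔭) :
    (algebraMap R F π)⁻¹ ∉ locSub B 𝔭 := by
  rintro ⟨a, s, hs, hx⟩
  apply hs
  have hπF : algebraMap R F π ≠ 0 :=
    (map_ne_zero_iff _ (algebraMap_injective_base K₁ F)).2 hπ.ne_zero
  have : s = algebraMap R ↥B π * a := by
    apply Subtype.ext
    push_cast
    rw [← hx]
    field_simp
  rw [this]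
  exact 𝔭.mul_mem_right _ hπ𝔭

/-- `K₁ ∩ B_𝔭 = R`. -/
theorem const_mem_locSub (hπ : Irreducible π) (hπ𝔭 : algebraMap R ↥B π ∈ 𝔭) (x : K₁)
    (hx : algebraMap K₁ F x ∈ locSub B 𝔭) : algebraMap K₁ F x ∈ (algebraMap R F).range := by
  by_cases hx0 : x = 0
  · subst hx0
    exact ⟨0, by simp⟩
  obtain ⟨n, u, hu⟩ := exists_zpow_mul_unit_base K₁ hπ hx0
  have hπF : algebraMap R F π ≠ 0 :=
    (map_ne_zero_iff _ (algebraMap_injective_base K₁ F)).2 hπ.ne_zero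
  have hxF : algebraMap K₁ F x = algebraMap R F π ^ n * algebraMap R F u := by
    rw [hu, map_mul, map_zpow₀, ← IsScalarTower.algebraMap_apply,
      ← IsScalarTower.algebraMap_apply]
  rcases le_or_gt 0 n with hn | hn
  · obtain ⟨k, rfl⟩ := Int.eq_ofNat_of_zero_le hn
    refine ⟨π ^ k * u, ?_⟩
    rw [hxF, zpow_natCast, map_mul, map_pow]
  · exfalso
    obtain ⟨k, hk⟩ := Int.exists_eq_neg_ofNat hn.le
    have hk1 : 1 ≤ k := by omega
    obtain ⟨a, s, hs, hxs⟩ := hx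
    -- `u s = π ^ k a`
    have h1 : algebraMap R ↥B u * s = algebraMap R ↥B π ^ k * a := by
      apply Subtype.ext
      push_cast
      rw [← hxs, hxF, hk, zpow_neg, zpow_natCast]
      have := pow_ne_zero k hπF
      field_simp
    have h2 : algebraMap R ↥B u * s ∈ 𝔭 := by
      rw [h1]
      obtain ⟨k', rfl⟩ := Nat.exists_eq_add_of_le hk1
      rw [pow_add, pow_one, mul_assoc]
      exact 𝔭.mul_mem_right _ hπ𝔭
    rcases h𝔭.mem_or_mem h2 with h3 | h3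
    · exact h𝔭.ne_top (Ideal.eq_top_of_isUnit_mem _ h3 (u.isUnit.map _))
    · exact hs h3

theorem unif_locSub [IsNoetherianRing ↥B] [IsFractionRing ↥B F]
    (hπ𝔭 : algebraMap R ↥B π ∈ 𝔭)
    (hloc : ∀ z ∈ 𝔭, ∃ s : ↥B, s ∉ 𝔭 ∧ algebraMap R ↥B π ∣ s * z) {x : F} (hx : x ≠ 0) :
    ∃ (n : ℤ) (u : F), u ∈ locSub B 𝔭 ∧ u⁻¹ ∈ locSub B 𝔭 ∧ x = algebraMap R F π ^ n * u := by
  obtain ⟨e, r, s, hr, hs, hrs⟩ := exists_zpow_isUnitAtPrime (K := F) 𝔭 hπ𝔭 hloc hx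
  have hu : IsUnitIn (locSub B 𝔭) (x * (algebraMap R F π ^ e)⁻¹) :=
    isUnitIn_locSub_iff.2 ⟨r, s, hr, hs, hrs⟩
  refine ⟨e, x * (algebraMap R F π ^ e)⁻¹, hu.1, hu.2.1, ?_⟩
  have h0 : algebraMap R F π ^ e ≠ 0 := by
    intro h0
    apply hu.2.2
    rw [h0, inv_zero, mul_zero]
  field_simp

/-- the evaluation of a polynomial over `R` at an element of a subring containing `R`. -/
theorem aeval_mem_subring_of_mem (W : Subring F) (hW : ∀ r : R, algebraMap R F r ∈ W) {y : F}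
    (hy : y ∈ W) (Q : R[X]) : aeval y Q ∈ W := by
  rw [aeval_eq_sum_range]
  refine W.sum_mem (fun i _ => ?_)
  rw [Algebra.smul_def]
  exact W.mul_mem (hW _) (W.pow_mem hy i)

theorem algclosed_locSub {p : ℕ} (hp : p.Prime) (hAC : ResAlgClosed π)
    (hπ𝔭 : algebraMap R ↥B π ∈ 𝔭)
    (hloc : ∀ z ∈ 𝔭, ∃ s : ↥B, s ∉ 𝔭 ∧ algebraMap R ↥B π ∣ s * z)
    {y : F} (hy : y ∈ locSub B 𝔭) (a θ : R)
    (h : PiDvd (algebraMap R F π) (locSub B 𝔭) 1
      (y ^ p + algebraMap R F θ * y - algebraMap R F a)) :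
    ∃ a' : R, PiDvd (algebraMap R F π) (locSub B 𝔭) 1 (y - algebraMap R F a') := by
  have hm : (X ^ p + C θ * X - C a : R[X]).Monic := by
    have h1 : (X ^ p + C θ * X - C a : R[X]) = X ^ p + (C θ * X - C a) := by ring
    rw [h1]
    apply Polynomial.monic_X_pow_add
    refine lt_of_le_of_lt (degree_sub_le _ _) ?_
    refine max_lt (lt_of_le_of_lt (degree_C_mul_X_le θ) ?_) (lt_of_le_of_lt degree_C_le ?_)
    · exact_mod_cast hp.one_lt
    · exact_mod_cast hp.pos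
  obtain ⟨b, Q, hQ⟩ := hAC.exists_prod _ _ hm rfl
  have hev := congrArg (aeval y) hQ
  simp only [map_sub, map_add, map_pow, map_mul, aeval_X, aeval_C, map_prod] at hev
  have hQW : aeval y Q ∈ locSub B 𝔭 := aeval_mem_subring_of_mem _ (fun r => algebraMap_mem_locSub r) hy Q
  have hprod : PiDvd (algebraMap R F π) (locSub B 𝔭) 1 (∏ i, (y - algebraMap R F (b i))) := by
    have : ∏ i, (y - algebraMap R F (b i)) =
        (y ^ p + algebraMap R F θ * y - algebraMap R F a) - algebraMap R F π * aeval y Q := by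
      rw [hev]; ring
    rw [this]
    exact h.sub ⟨aeval y Q, hQW, by rw [pow_one]⟩
  -- a factor is divisible
  have key : ∀ (S : Finset (Fin (X ^ p + C θ * X - C a : R[X]).natDegree)),
      PiDvd (algebraMap R F π) (locSub B 𝔭) 1 (∏ i ∈ S, (y - algebraMap R F (b i))) →
      ∃ i, PiDvd (algebraMap R F π) (locSub B 𝔭) 1 (y - algebraMap R F (b i)) := by
    classical
    intro S
    induction S using Finset.induction_on with
    | empty =>
      intro h1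
      exfalso
      rw [Finset.prod_empty] at h1
      obtain ⟨t, ⟨a', s', hs', ht⟩, h1⟩ := h1
      apply hs'
      have : s' = algebraMap R ↥B π * a' := by
        apply Subtype.ext
        push_cast
        rw [← ht]
        rw [pow_one] at h1
        linear_combination (s' : F) * h1
      rw [this]
      exact 𝔭.mul_mem_right _ hπ𝔭
    | insert i S hi ih =>
      intro h1
      rw [Finset.prod_insert hi] at h1
      have hyi : ∀ j, y - algebraMap R F (b j) ∈ locSub B 𝔭 := fun j =>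
        (locSub B 𝔭).sub_mem hy (algebraMap_mem_locSub _)
      rcases piDvd_or_of_mul_locSub hπ𝔭 hloc (hyi i)
        ((locSub B 𝔭).prod_mem (fun j _ => hyi j)) h1 with h2 | h2
      · exact ⟨i, h2⟩
      · exact ih h2
  obtain ⟨i, hi⟩ := key Finset.univ hprod
  exact ⟨b i, hi⟩

end SheetLemmas

section SheetDef

variable {R : Type*} [CommRing R] [IsDomain R] [IsDiscreteValuationRing R]
  {K₁ : Type*} [Field K₁] [Algebra R K₁] [IsFractionRing R K₁]
  {F : Type*} [Field F] [Algebra K₁ F] [Algebra R F] [IsScalarTower R K₁ F]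
  {B : Subalgebra R F} [IsNoetherianRing ↥B] [IsFractionRing ↥B F]
  {π : R} (hπ : Irreducible π) {p : ℕ} (hp : p.Prime) {e₁ : ℕ} (he₁ : 0 < e₁) {ε : Rˣ}
  (hpe : (p : R) = ε * π ^ e₁) (hAC : ResAlgClosed π)

/-- **the `Sheet` of a component `𝔭` of the special fibre of the chart `B`** (`𝔭 B_𝔭 = π B_𝔭`). -/
noncomputable def chartSheet (𝔭 : Ideal ↥B) [h𝔭 : 𝔭.IsPrime] (hπ𝔭 : algebraMap R ↥B π ∈ 𝔭)
    (hloc : ∀ z ∈ 𝔭, ∃ s : ↥B, s ∉ 𝔭 ∧ algebraMap R ↥B π ∣ s * z) :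
    Sheet (chartDepthBase (K₁ := K₁) (F := F) hπ hp he₁ hpe hAC) where
  W := locSub B 𝔭
  R₁_le := by
    rintro _ ⟨r, rfl⟩
    exact algebraMap_mem_locSub r
  const_mem := by
    rintro _ ⟨x, rfl⟩ hx
    exact const_mem_locSub hπ hπ𝔭 x hx
  π_inv_notMem := pi_inv_notMem_locSub (K₁ := K₁) hπ hπ𝔭
  unif := fun x hx => unif_locSub hπ𝔭 hloc hx
  algclosed := by
    rintro y hy _ ⟨a, rfl⟩ _ ⟨θ, rfl⟩ h
    obtain ⟨a', ha'⟩ := algclosed_locSub hp hAC hπ𝔭 hloc hy a θ h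
    exact ⟨algebraMap R F a', ⟨a', rfl⟩, ha'⟩

@[simp] theorem chartSheet_W (𝔭 : Ideal ↥B) [h𝔭 : 𝔭.IsPrime] (hπ𝔭 : algebraMap R ↥B π ∈ 𝔭)
    (hloc : ∀ z ∈ 𝔭, ∃ s : ↥B, s ∉ 𝔭 ∧ algebraMap R ↥B π ∣ s * z) :
    (chartSheet (K₁ := K₁) hπ hp he₁ hpe hAC 𝔭 hπ𝔭 hloc).W = locSub B 𝔭 := rfl

end SheetDef

end Fermat.Agent.NP
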