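/-
NP33 (S33) — helper5 — package **[BRIDGE]**, part 4: **the local ring of a chart at a closed point**:
its maximal ideal `locM B 𝔪 = 𝔪 B_𝔪 ⊂ F`, and normality of a branch:

* `exists_branch_decomposition` : if `z` is a branch uniformizer of the component `𝔭` at `𝔪`
  (`𝔪 (B/𝔭)_𝔪 = (z)`), every `s ∉ 𝔭` is `≡ u z ^ n` modulo `𝔭`, up to units at `𝔪`;
* `norm_locSub` : **(NORM)**: an element `h ∈ B_𝔭` with `h ^ p + t h − s ∈ π B_𝔭` (`s, t ∈ B_𝔪`) is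
  congruent modulo `π B_𝔭` to an element of `B_𝔪` (the branch `(B/𝔭)_𝔪` is a discrete valuation
  ring, hence integrally closed).
-/
import Fermat.Agent.NP.BRIDGE_helper5_Sheet
import Fermat.Agent.SS.MODLOC_helper5_Core

set_option autoImplicit false
set_option linter.unusedSectionVars false

namespace Fermat.Agent.NP

open Polynomial Fermat.Agent.SS

section Max

variable {R : Type*} [CommRing R] {F : Type*} [Field F] [Algebra R F]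
  {B : Subalgebra R F} {𝔪 : Ideal ↥B} [h𝔪 : 𝔪.IsPrime]

/-- the maximal ideal `𝔪 B_𝔪` of the local ring, inside `F`. -/
def locM (B : Subalgebra R F) (𝔪 : Ideal ↥B) : Set F :=
  {x | ∃ a s : ↥B, a ∈ 𝔪 ∧ s ∉ 𝔪 ∧ x * (s : F) = (a : F)}

theorem locM_sub_locSub {x : F} (hx : x ∈ locM B 𝔪) : x ∈ locSub B 𝔪 := by
  obtain ⟨a, s, -, hs, hxs⟩ := hx
  exact ⟨a, s, hs, hxs⟩

theorem mem_locM_iff {x : F} :
    x ∈ locM B 𝔪 ↔ x ∈ locSub B 𝔪 ∧ (x = 0 ∨ x⁻¹ ∉ locSub B 𝔪) :=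
  nonunit_locSub_iff.symm

theorem coe_mem_locM {a : ↥B} (ha : a ∈ 𝔪) : (a : F) ∈ locM B 𝔪 :=
  ⟨a, 1, ha, fun h => h𝔪.ne_top ((Ideal.eq_top_iff_one _).2 h), by simp⟩

theorem zero_mem_locM : (0 : F) ∈ locM B 𝔪 := by
  have := coe_mem_locM (F := F) (𝔪 := 𝔪) 𝔪.zero_mem
  simpa using this

theorem add_mem_locM {x y : F} (hx : x ∈ locM B 𝔪) (hy : y ∈ locM B 𝔪) :
    x + y ∈ locM B 𝔪 := by
  obtain ⟨a, s, ha, hs, hxs⟩ := hx
  obtain ⟨a', s', ha', hs', hys⟩ := hy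
  refine ⟨a * s' + a' * s, s * s', 𝔪.add_mem (𝔪.mul_mem_right _ ha) (𝔪.mul_mem_right _ ha'),
    fun h => (h𝔪.mem_or_mem h).elim hs hs', ?_⟩
  push_cast
  rw [← hxs, ← hys]
  ring

theorem neg_mem_locM {x : F} (hx : x ∈ locM B 𝔪) : -x ∈ locM B 𝔪 := by
  obtain ⟨a, s, ha, hs, hxs⟩ := hx
  refine ⟨-a, s, 𝔪.neg_mem ha, hs, ?_⟩
  push_cast
  rw [← hxs]
  ring

theorem sub_mem_locM {x y : F} (hx : x ∈ locM B 𝔪) (hy : y ∈ locM B 𝔪) :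
    x - y ∈ locM B 𝔪 := by
  rw [sub_eq_add_neg]
  exact add_mem_locM hx (neg_mem_locM hy)

theorem mul_mem_locM {x y : F} (hx : x ∈ locM B 𝔪) (hy : y ∈ locSub B 𝔪) :
    x * y ∈ locM B 𝔪 := by
  obtain ⟨a, s, ha, hs, hxs⟩ := hx
  obtain ⟨a', s', hs', hys⟩ := hy
  refine ⟨a * a', s * s', 𝔪.mul_mem_right _ ha, fun h => (h𝔪.mem_or_mem h).elim hs hs', ?_⟩
  push_cast
  rw [← hxs, ← hys]
  ring

theorem mul_mem_locM' {x y : F} (hx : x ∈ locSub B 𝔪) (hy : y ∈ locM B 𝔪) :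
    x * y ∈ locM B 𝔪 := by
  rw [mul_comm]
  exact mul_mem_locM hy hx

theorem not_mem_locM_of_isUnitIn {x : F} (hx : IsUnitIn (locSub B 𝔪) x) : x ∉ locM B 𝔪 := by
  intro h
  rcases (mem_locM_iff.1 h).2 with h0 | h0
  · exact hx.2.2 h0
  · exact h0 hx.2.1

theorem isUnitIn_of_not_mem_locM {x : F} (hx : x ∈ locSub B 𝔪) (h : x ∉ locM B 𝔪) :
    IsUnitIn (locSub B 𝔪) x := by
  have h1 : ¬ (x = 0 ∨ x⁻¹ ∉ locSub B 𝔪) := fun h2 => h (mem_locM_iff.2 ⟨hx, h2⟩)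
  push Not at h1
  exact ⟨hx, h1.2, h1.1⟩

/-- an element of `B_𝔪` which is divisible by `π` on a component through `𝔪` is a non-unit. -/
theorem mem_locM_of_piDvd {𝔭 : Ideal ↥B} [h𝔭 : 𝔭.IsPrime] (hle : 𝔭 ≤ 𝔪) {π : R}
    (hπ𝔭 : algebraMap R ↥B π ∈ 𝔭)
    (hloc : ∀ z ∈ 𝔭, ∃ s : ↥B, s ∉ 𝔭 ∧ algebraMap R ↥B π ∣ s * z) {x : F}
    (hx : x ∈ locSub B 𝔪) (h : PiDvd (algebraMap R F π) (locSub B 𝔭) 1 x) : x ∈ locM B 𝔪 := by
  obtain ⟨a, s, hs, hxs⟩ := hx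
  have ha : a ∈ 𝔭 := (piDvd_one_locSub_iff hπ𝔭 hloc (fun h' => hs (hle h')) hxs).1 h
  exact ⟨a, s, hle ha, hs, hxs⟩

/-- an element of `𝔭 B_𝔪` is divisible by `π` in `B_𝔭`. -/
theorem piDvd_of_mem_prime {𝔭 : Ideal ↥B} [h𝔭 : 𝔭.IsPrime] {π : R}
    (hπ𝔭 : algebraMap R ↥B π ∈ 𝔭)
    (hloc : ∀ z ∈ 𝔭, ∃ s : ↥B, s ∉ 𝔭 ∧ algebraMap R ↥B π ∣ s * z) {a : ↥B} (ha : a ∈ 𝔭) :
    PiDvd (algebraMap R F π) (locSub B 𝔭) 1 (a : F) :=
  (piDvd_one_locSub_iff hπ𝔭 hloc (s := 1)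
    (fun h => h𝔭.ne_top ((Ideal.eq_top_iff_one _).2 h)) (by simp)).2 ha

end Max

section Branch

variable {R : Type*} [CommRing R] {F : Type*} [Field F] [Algebra R F]
  {B : Subalgebra R F} [IsNoetherianRing ↥B]
  {𝔭 𝔪 : Ideal ↥B} [h𝔭 : 𝔭.IsPrime] [h𝔪 : 𝔪.IsPrime]

/-- **branch decomposition**: modulo `𝔭`, every `s ∉ 𝔭` is a power of the branch uniformizer times
a unit at `𝔪`. -/
theorem exists_branch_decomposition (hle : 𝔭 ≤ 𝔪) {z : ↥B} (hz : IsBranchUniformizer 𝔭 𝔪 z)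
    {s : ↥B} (hs : s ∉ 𝔭) :
    ∃ (n : ℕ) (u σ : ↥B), u ∉ 𝔪 ∧ σ ∉ 𝔪 ∧ σ * s - u * z ^ n ∈ 𝔭 := by
  set mk := Ideal.Quotient.mk 𝔭 with hmk
  have hsurj : Function.Surjective mk := Ideal.Quotient.mk_surjective
  have hker : RingHom.ker mk ≤ 𝔪 := by rw [hmk, Ideal.mk_ker]; exact hle
  haveI h𝔪₀ : (𝔪.map mk).IsPrime := Ideal.map_isPrime_of_surjective hsurj hker
  have hmem : ∀ x : ↥B, mk x ∈ 𝔪.map mk ↔ x ∈ 𝔪 := fun x => Ideal.mem_quotient_iff_mem hle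
  have hz₀ : mk z ∈ 𝔪.map mk := (hmem z).2 hz.mem
  have hloc : ∀ w ∈ 𝔪.map mk, ∃ s' : ↥B ⧸ 𝔭, s' ∉ 𝔪.map mk ∧ mk z ∣ s' * w := by
    intro w hw
    obtain ⟨w', rfl⟩ := hsurj w
    obtain ⟨a, s', hs', hrel⟩ := hz.gen w' ((hmem w').1 hw)
    refine ⟨mk s', fun h => hs' ((hmem s').1 h), mk a, ?_⟩
    have : mk (s' * w' - a * z) = 0 := Ideal.Quotient.eq_zero_iff_mem.2 hrel
    rw [map_sub, map_mul, map_mul, sub_eq_zero] at this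
    rw [this, mul_comm]
  have hs₀ : mk s ≠ 0 := fun h => hs (Ideal.Quotient.eq_zero_iff_mem.1 h)
  obtain ⟨c, r, σ, hr, hσ, hrel⟩ := exists_pow_mul_eq_of_locally_principal (𝔪.map mk) hz₀ hloc hs₀
  obtain ⟨r', rfl⟩ := hsurj r
  obtain ⟨σ', rfl⟩ := hsurj σ
  refine ⟨c, r', σ', fun h => hr ((hmem r').2 h), fun h => hσ ((hmem σ').2 h), ?_⟩
  apply Ideal.Quotient.eq_zero_iff_mem.1
  rw [map_sub, map_mul, map_mul, map_pow, sub_eq_zero, mul_comm, hrel, mul_comm]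

end Branch

section Norm

variable {R : Type*} [CommRing R] {F : Type*} [Field F] [Algebra R F]
  {B : Subalgebra R F} [IsNoetherianRing ↥B]
  {𝔭 𝔪 : Ideal ↥B} [h𝔭 : 𝔭.IsPrime] [h𝔪 : 𝔪.IsPrime]

/-- **(NORM)** the branch `(B/𝔭)_𝔪` is integrally closed (for the equations `T ^ p + t T = s`). -/
theorem norm_locSub (hle : 𝔭 ≤ 𝔪) {z : ↥B} (hz : IsBranchUniformizer 𝔭 𝔪 z) {π : R}
    (hπ𝔭 : algebraMap R ↥B π ∈ 𝔭)
    (hloc : ∀ z ∈ 𝔭, ∃ s : ↥B, s ∉ 𝔭 ∧ algebraMap R ↥B π ∣ s * z) {p : ℕ} (hp : p.Prime)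
    {h s t : F} (hh : h ∈ locSub B 𝔭) (hs : s ∈ locSub B 𝔪) (ht : t ∈ locSub B 𝔪)
    (heq : PiDvd (algebraMap R F π) (locSub B 𝔭) 1 (h ^ p + t * h - s)) :
    ∃ h' ∈ locSub B 𝔪, PiDvd (algebraMap R F π) (locSub B 𝔭) 1 (h - h') := by
  have hRW : locSub B 𝔪 ≤ locSub B 𝔭 := locSub_mono hle
  have hπW : algebraMap R F π ∈ locSub B 𝔭 := algebraMap_mem_locSub π
  obtain ⟨a, sh, hsh, hxa⟩ := hh
  have hhW : h ∈ locSub B 𝔭 := ⟨a, sh, hsh, hxa⟩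
  by_cases ha : a ∈ 𝔭
  · refine ⟨0, (locSub B 𝔪).zero_mem, ?_⟩
    rw [sub_zero]
    exact (piDvd_one_locSub_iff hπ𝔭 hloc hsh hxa).2 ha
  obtain ⟨n₁, u₁, σ₁, hu₁, hσ₁, hd₁⟩ := exists_branch_decomposition hle hz ha
  obtain ⟨n₂, u₂, σ₂, hu₂, hσ₂, hd₂⟩ := exists_branch_decomposition hle hz hsh
  have hE1 := piDvd_of_mem_prime (F := F) hπ𝔭 hloc hd₁
  have hE2 := piDvd_of_mem_prime (F := F) hπ𝔭 hloc hd₂
  push_cast at hE1 hE2
  -- the key congruence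
  have key : PiDvd (algebraMap R F π) (locSub B 𝔭) 1
      (h * ((u₂ : F) * (z : F) ^ n₂) * (σ₁ : F) - (u₁ : F) * (z : F) ^ n₁ * (σ₂ : F)) := by
    have e : h * ((u₂ : F) * (z : F) ^ n₂) * (σ₁ : F) - (u₁ : F) * (z : F) ^ n₁ * (σ₂ : F) =
        ((σ₁ : F) * (a : F) - (u₁ : F) * (z : F) ^ n₁) * (σ₂ : F) -
          h * (σ₁ : F) * ((σ₂ : F) * (sh : F) - (u₂ : F) * (z : F) ^ n₂) := by
      rw [← hxa]; ring
    rw [e]
    exact (hE1.mul_right (coe_mem_locSub σ₂)).sub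
      (hE2.mul_left ((locSub B 𝔭).mul_mem hhW (coe_mem_locSub σ₁)))
  have hz𝔭 : z ∉ 𝔭 := hz.notMem
  have hu₂𝔭 : u₂ ∉ 𝔭 := fun h' => hu₂ (hle h')
  have hσ₁𝔭 : σ₁ ∉ 𝔭 := fun h' => hσ₁ (hle h')
  have hzU : ∀ n : ℕ, IsUnitIn (locSub B 𝔭) ((z : F) ^ n) := fun n =>
    (isUnitIn_coe_of_notMem hz𝔭).pow n
  have hV𝔪 : u₂ * σ₁ ∉ 𝔪 := fun h' => (h𝔪.mem_or_mem h').elim hu₂ hσ₁
  have hN𝔪 : u₁ * σ₂ ∉ 𝔪 := fun h' => (h𝔪.mem_or_mem h').elim hu₁ hσ₂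
  have hVU : IsUnitIn (locSub B 𝔪) ((u₂ : F) * (σ₁ : F)) := by
    have := isUnitIn_coe_of_notMem (F := F) hV𝔪
    push_cast at this
    exact this
  have hV0 : (u₂ : F) * (σ₁ : F) ≠ 0 := hVU.2.2
  rcases le_or_gt n₂ n₁ with hn | hn
  · -- no pole
    obtain ⟨k, rfl⟩ := Nat.exists_eq_add_of_le hn
    refine ⟨(u₁ : F) * (z : F) ^ k * (σ₂ : F) * ((u₂ : F) * (σ₁ : F))⁻¹,
      (locSub B 𝔪).mul_mem ((locSub B 𝔪).mul_mem ((locSub B 𝔪).mul_mem (coe_mem_locSub u₁)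
        ((locSub B 𝔪).pow_mem (coe_mem_locSub z) k)) (coe_mem_locSub σ₂)) hVU.2.1, ?_⟩
    have hU : IsUnitIn (locSub B 𝔭) ((u₂ : F) * (z : F) ^ n₂ * (σ₁ : F)) :=
      ((isUnitIn_coe_of_notMem hu₂𝔭).mul (hzU n₂)).mul (isUnitIn_coe_of_notMem hσ₁𝔭)
    have e : h - (u₁ : F) * (z : F) ^ k * (σ₂ : F) * ((u₂ : F) * (σ₁ : F))⁻¹ =
        (h * ((u₂ : F) * (z : F) ^ n₂) * (σ₁ : F) - (u₁ : F) * (z : F) ^ (n₂ + k) * (σ₂ : F)) *
          ((u₂ : F) * (z : F) ^ n₂ * (σ₁ : F))⁻¹ := by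
      have hz0 : (z : F) ^ n₂ ≠ 0 := (hzU n₂).2.2
      have hu0 : (u₂ : F) ≠ 0 := left_ne_zero_of_mul hV0
      have hσ0 : (σ₁ : F) ≠ 0 := right_ne_zero_of_mul hV0
      rw [pow_add]
      field_simp
    rw [e]
    exact key.mul_right hU.2.1
  · -- a pole: impossible
    exfalso
    obtain ⟨k, hk⟩ := Nat.exists_eq_add_of_lt hn
    have hk1 : 1 ≤ k + 1 := Nat.succ_pos k
    set V : F := (u₂ : F) * (σ₁ : F) with hV
    set N : F := (u₁ : F) * (σ₂ : F) with hN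
    set H : F := h * (z : F) ^ (k + 1) with hH
    have hVW : V ∈ locSub B 𝔭 := hRW hVU.1
    have hNR : N ∈ locSub B 𝔪 := (locSub B 𝔪).mul_mem (coe_mem_locSub u₁) (coe_mem_locSub σ₂)
    have hNW : N ∈ locSub B 𝔭 := hRW hNR
    have hzR : (z : F) ∈ locSub B 𝔪 := coe_mem_locSub z
    have hzW : (z : F) ∈ locSub B 𝔭 := coe_mem_locSub z
    have hHW : H ∈ locSub B 𝔭 := (locSub B 𝔭).mul_mem hhW ((locSub B 𝔭).pow_mem hzW _)
    -- `H V ≡ N`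
    have hHV : PiDvd (algebraMap R F π) (locSub B 𝔭) 1 (H * V - N) := by
      have e : H * V - N = (h * ((u₂ : F) * (z : F) ^ n₂) * (σ₁ : F) -
          (u₁ : F) * (z : F) ^ n₁ * (σ₂ : F)) * ((z : F) ^ n₁)⁻¹ := by
        have hz0 : (z : F) ^ n₁ ≠ 0 := (hzU n₁).2.2
        rw [hH, hV, hN, hk]
        have : (z : F) ^ (n₁ + k + 1) = (z : F) ^ n₁ * (z : F) ^ (k + 1) := by
          rw [add_assoc, pow_add]
        rw [this]
        field_simp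
      rw [e]
      exact key.mul_right (hzU n₁).2.1
    -- `(H V) ^ p ≡ N ^ p`
    have hpow : PiDvd (algebraMap R F π) (locSub B 𝔭) 1 ((H * V) ^ p - N ^ p) := by
      rw [← geom_sum₂_mul]
      exact hHV.mul_left ((locSub B 𝔭).sum_mem (fun i _ => (locSub B 𝔭).mul_mem
        ((locSub B 𝔭).pow_mem ((locSub B 𝔭).mul_mem hHW hVW) _) ((locSub B 𝔭).pow_mem hNW _)))
    have htW : t ∈ locSub B 𝔭 := hRW ht
    have hsW : s ∈ locSub B 𝔭 := hRW hs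
    -- the equation multiplied by `z ^ (k p) V ^ p`
    obtain ⟨p', hp'⟩ := Nat.exists_eq_add_of_le hp.one_le
    have heq2 : PiDvd (algebraMap R F π) (locSub B 𝔭) 1
        ((H * V) ^ p + t * ((z : F) ^ (k + 1)) ^ p' * V ^ p' * (H * V) -
          s * ((z : F) ^ (k + 1)) ^ p * V ^ p) := by
      have e : (H * V) ^ p + t * ((z : F) ^ (k + 1)) ^ p' * V ^ p' * (H * V) -
          s * ((z : F) ^ (k + 1)) ^ p * V ^ p =
          (h ^ p + t * h - s) * (((z : F) ^ (k + 1)) ^ p * V ^ p) := by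
        rw [hH, hp']
        ring
      rw [e]
      exact heq.mul_right ((locSub B 𝔭).mul_mem ((locSub B 𝔭).pow_mem
        ((locSub B 𝔭).pow_mem hzW _) _) ((locSub B 𝔭).pow_mem hVW _))
    set E : F := N ^ p + t * ((z : F) ^ (k + 1)) ^ p' * V ^ p' * N -
      s * ((z : F) ^ (k + 1)) ^ p * V ^ p with hE
    have hEP : PiDvd (algebraMap R F π) (locSub B 𝔭) 1 E := by
      have e : E = ((H * V) ^ p + t * ((z : F) ^ (k + 1)) ^ p' * V ^ p' * (H * V) -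
          s * ((z : F) ^ (k + 1)) ^ p * V ^ p) - ((H * V) ^ p - N ^ p) -
          t * ((z : F) ^ (k + 1)) ^ p' * V ^ p' * (H * V - N) := by
        rw [hE]; ring
      rw [e]
      exact (heq2.sub hpow).sub (hHV.mul_left ((locSub B 𝔭).mul_mem ((locSub B 𝔭).mul_mem htW
        ((locSub B 𝔭).pow_mem ((locSub B 𝔭).pow_mem hzW _) _)) ((locSub B 𝔭).pow_mem hVW _)))
    have hVR : V ∈ locSub B 𝔪 := hVU.1
    have hER : E ∈ locSub B 𝔪 := by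
      rw [hE]
      exact (locSub B 𝔪).sub_mem ((locSub B 𝔪).add_mem ((locSub B 𝔪).pow_mem hNR _)
        ((locSub B 𝔪).mul_mem ((locSub B 𝔪).mul_mem ((locSub B 𝔪).mul_mem ht
          ((locSub B 𝔪).pow_mem ((locSub B 𝔪).pow_mem hzR _) _)) ((locSub B 𝔪).pow_mem hVR _)) hNR))
        ((locSub B 𝔪).mul_mem ((locSub B 𝔪).mul_mem hs
          ((locSub B 𝔪).pow_mem ((locSub B 𝔪).pow_mem hzR _) _)) ((locSub B 𝔪).pow_mem hVR _))
    have hEmax : E ∈ locM B 𝔪 := mem_locM_of_piDvd hle hπ𝔭 hloc hER hEP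
    have hzmax : (z : F) ∈ locM B 𝔪 := coe_mem_locM hz.mem
    -- the two other terms are divisible by `z`
    have hp'1 : 1 ≤ p' := by
      have := hp.two_le
      omega
    obtain ⟨p'', hp''⟩ := Nat.exists_eq_add_of_le hp'1
    have hT1 : t * ((z : F) ^ (k + 1)) ^ p' * V ^ p' * N ∈ locM B 𝔪 := by
      have e : t * ((z : F) ^ (k + 1)) ^ p' * V ^ p' * N =
          (z : F) * (t * (z : F) ^ k * ((z : F) ^ (k + 1)) ^ p'' * V ^ p' * N) := by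
        rw [hp'']
        ring
      rw [e]
      exact mul_mem_locM hzmax ((locSub B 𝔪).mul_mem ((locSub B 𝔪).mul_mem
        ((locSub B 𝔪).mul_mem ((locSub B 𝔪).mul_mem ht ((locSub B 𝔪).pow_mem hzR _))
          ((locSub B 𝔪).pow_mem ((locSub B 𝔪).pow_mem hzR _) _))
        ((locSub B 𝔪).pow_mem hVR _)) hNR)
    have hT2 : s * ((z : F) ^ (k + 1)) ^ p * V ^ p ∈ locM B 𝔪 := by
      have e : s * ((z : F) ^ (k + 1)) ^ p * V ^ p =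
          (z : F) * (s * (z : F) ^ k * ((z : F) ^ (k + 1)) ^ p' * V ^ p) := by
        rw [hp']
        ring
      rw [e]
      exact mul_mem_locM hzmax ((locSub B 𝔪).mul_mem ((locSub B 𝔪).mul_mem
        ((locSub B 𝔪).mul_mem hs ((locSub B 𝔪).pow_mem hzR _))
          ((locSub B 𝔪).pow_mem ((locSub B 𝔪).pow_mem hzR _) _))
        ((locSub B 𝔪).pow_mem hVR _))
    have hNp : N ^ p ∈ locM B 𝔪 := by
      have e : N ^ p = E - t * ((z : F) ^ (k + 1)) ^ p' * V ^ p' * N +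
          s * ((z : F) ^ (k + 1)) ^ p * V ^ p := by
        rw [hE]; ring
      rw [e]
      exact add_mem_locM (sub_mem_locM hEmax hT1) hT2
    have hNU : IsUnitIn (locSub B 𝔪) N := by
      have := isUnitIn_coe_of_notMem (F := F) hN𝔪
      push_cast at this
      exact this
    exact not_mem_locM_of_isUnitIn (hNU.pow p) hNp

end Norm

end Fermat.Agent.NP
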