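/-
NP33 (S33) — helper5 — package **[IDEM]**, part 2: **extraction of roots of unity on a sheet**.

`W` a sheet (discrete valuation ring with uniformizer `π`), `ζ ∈ R₁` a primitive `p`-th root of unity,
`lam = ζ - 1`.  If `μ ^ p = 1 + lam ^ p π ^ k z` (`k ≥ 1`, `z ∈ W`) then
`μ = ζ ^ j (1 + lam π ^ k z')` for some `j < p`, `z' ∈ W` (`Sheet.exists_zeta_pow_of_pow_eq`).
Consequently two `p`-th roots `γ, γ'` of the same function modulo `1 + lam ^ p π W` differ by a root of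
unity modulo `1 + lam π W` (`Sheet.exists_zeta_pow_of_roots`): this root of unity is the
**node cocycle** of finding 399 (Δ4).
-/
import Fermat.Agent.NP.IDEM_helper5_Core
import Fermat.Agent.NP.EXT_helper5_LT

set_option autoImplicit false
set_option linter.unusedSectionVars false

namespace Fermat.Agent.NP

open Finset

section Sheet

variable {F : Type*} [Field F] {p : ℕ} {B : DepthBase F p} (S : Sheet B)

theorem isUnitIn_prod {T : Subring F} {ι : Type*} (s : Finset ι) (f : ι → F)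
    (h : ∀ i ∈ s, IsUnitIn T (f i)) : IsUnitIn T (∏ i ∈ s, f i) := by
  classical
  induction s using Finset.induction_on with
  | empty => simpa using isUnitIn_one
  | insert a s ha ih =>
    rw [prod_insert ha]
    exact (h a (mem_insert_self a s)).mul (ih fun i hi => h i (mem_insert_of_mem hi))

/-- `κ` is a domain, for finite products. -/
theorem Sheet.exists_piDvd_of_prod {ι : Type*} (s : Finset ι) (f : ι → F) (hf : ∀ i ∈ s, f i ∈ S.W)
    (h : PiDvd B.π S.W 1 (∏ i ∈ s, f i)) : ∃ i ∈ s, PiDvd B.π S.W 1 (f i) := by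
  classical
  induction s using Finset.induction_on with
  | empty =>
    rw [prod_empty] at h
    exact absurd h S.not_piDvd_one
  | insert a s ha ih =>
    rw [prod_insert ha] at h
    rcases S.piDvd_or_of_mul (hf a (mem_insert_self a s))
      (S.W.prod_mem fun i hi => hf i (mem_insert_of_mem hi)) h with h1 | h1
    · exact ⟨a, mem_insert_self a s, h1⟩
    · obtain ⟨i, hi, h2⟩ := ih (fun i hi => hf i (mem_insert_of_mem hi)) h1
      exact ⟨i, mem_insert_of_mem hi, h2⟩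

/-- an element of `F ∖ W` has inverse in `π W`. -/
theorem Sheet.piDvd_inv_of_notMem {x : F} (hx : x ∉ S.W) : PiDvd B.π S.W 1 x⁻¹ := by
  have hx0 : x ≠ 0 := by
    rintro rfl
    exact hx S.W.zero_mem
  obtain ⟨n, u, hu, hu', rfl⟩ := S.unif x hx0
  have hn : n < 0 := by
    by_contra hn
    exact hx (S.W.mul_mem (S.zpow_π_mem (not_lt.1 hn)) hu)
  refine ⟨B.π ^ (-n - 1) * u⁻¹, S.W.mul_mem (S.zpow_π_mem (by omega)) hu', ?_⟩
  rw [pow_one, mul_inv, ← zpow_neg, ← mul_assoc, ← zpow_one_add₀ B.π_ne_zero]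
  congr 2
  ring

/-- `W` is integrally closed, for the equations `∏ i < n, (X - v i) = ρ`. -/
theorem Sheet.mem_of_prod_sub_mem {n : ℕ} (hn : 0 < n) {η : F} (v : ℕ → F) (hv : ∀ i, v i ∈ S.W)
    (h : ∏ i ∈ range n, (η - v i) ∈ S.W) : η ∈ S.W := by
  by_contra hη
  have hη0 : η ≠ 0 := by
    rintro rfl
    exact hη S.W.zero_mem
  have hinv := S.piDvd_inv_of_notMem hη
  -- `∏ (1 - v i η⁻¹) ≡ 1`
  have h1 : ∀ m : ℕ, PiDvd B.π S.W 1 (∏ i ∈ range m, (1 - v i * η⁻¹) - 1) := by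
    intro m
    induction m with
    | zero => simpa using piDvd_zero
    | succ m ih =>
      rw [prod_range_succ]
      have : (∏ i ∈ range m, (1 - v i * η⁻¹)) * (1 - v m * η⁻¹) - 1 =
          (∏ i ∈ range m, (1 - v i * η⁻¹) - 1) * (1 - v m * η⁻¹) - v m * η⁻¹ := by ring
      rw [this]
      refine (ih.mul_right ?_).sub (hinv.mul_left (hv m))
      exact S.W.sub_mem S.W.one_mem (S.W.mul_mem (hv m) (hinv.mem S.π_mem))
  have h2 : ∏ i ∈ range n, (1 - v i * η⁻¹) = (η⁻¹) ^ n * ∏ i ∈ range n, (η - v i) := by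
    have : (η⁻¹) ^ n = ∏ _i ∈ range n, η⁻¹ := by rw [prod_const, card_range]
    rw [this, ← prod_mul_distrib]
    refine prod_congr rfl fun i _ => ?_
    field_simp
  have h3 : PiDvd B.π S.W 1 (∏ i ∈ range n, (1 - v i * η⁻¹)) := by
    rw [h2]
    have h4 : PiDvd B.π S.W (1 * n) ((η⁻¹) ^ n) := hinv.pow n
    exact (h4.mono S.π_mem (by rw [one_mul]; exact hn)).mul_right h
  apply S.not_piDvd_one
  have : (1 : F) = ∏ i ∈ range n, (1 - v i * η⁻¹) - (∏ i ∈ range n, (1 - v i * η⁻¹) - 1) := by ring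
  rw [this]
  exact h3.sub (h1 n)

theorem qInt_mem (T : Subring F) {ζ : F} (hζ : ζ ∈ T) (i : ℕ) : qInt ζ i ∈ T :=
  T.sum_mem fun k _ => T.pow_mem hζ k

/-- the differences of the nodes are units of `R₁`. -/
theorem DepthBase.isUnitIn_qInt_sub_qInt (B : DepthBase F p) (hp : p.Prime) {ζ : F}
    (hζ : IsPrimitiveRoot ζ p) (hζm : ζ ∈ B.R₁) {i j : ℕ} (hi : i < p) (hj : j < p) (hij : i ≠ j) :
    IsUnitIn B.R₁ (qInt ζ j - qInt ζ i) := by
  set ζ' : ↥B.R₁ := ⟨ζ, hζm⟩ with hζ'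
  have hprim : IsPrimitiveRoot ζ' p :=
    IsPrimitiveRoot.of_map_of_injective (f := B.R₁.subtype)
      (show IsPrimitiveRoot (B.R₁.subtype ζ') p from hζ) Subtype.coe_injective
  obtain ⟨u, hu⟩ := isUnit_qInt_sub_qInt hprim hp hi hj hij
  have hcoe : ((qInt ζ' j - qInt ζ' i : ↥B.R₁) : F) = qInt ζ j - qInt ζ i := by
    have h1 := map_qInt B.R₁.subtype ζ' j
    have h2 := map_qInt B.R₁.subtype ζ' i
    simp only [Subring.subtype_apply] at h1 h2
    rw [AddSubgroupClass.coe_sub, h1, h2]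
  have hmul : (qInt ζ j - qInt ζ i) * ((u⁻¹ : (↥B.R₁)ˣ) : ↥B.R₁) = 1 := by
    rw [← hcoe, ← hu, ← Subring.coe_mul, Units.mul_inv, Subring.coe_one]
  have hne : qInt ζ j - qInt ζ i ≠ 0 := left_ne_zero_of_mul_eq_one hmul
  refine ⟨?_, ?_, hne⟩
  · rw [← hcoe]
    exact (qInt ζ' j - qInt ζ' i).2
  · rw [inv_eq_of_mul_eq_one_right hmul]
    exact ((u⁻¹ : (↥B.R₁)ˣ) : ↥B.R₁).2

/-- **root of unity extraction on a sheet.** -/
theorem Sheet.exists_zeta_pow_of_pow_eq (hp : p.Prime) {ζ : F} (hζ : IsPrimitiveRoot ζ p)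
    (hζm : ζ ∈ B.R₁) {μ z : F} {k : ℕ} (hk : 1 ≤ k) (hz : z ∈ S.W)
    (h : μ ^ p = 1 + (ζ - 1) ^ p * (B.π ^ k * z)) :
    ∃ j < p, ∃ z' ∈ S.W, μ = ζ ^ j * (1 + (ζ - 1) * (B.π ^ k * z')) := by
  have hlam : ζ - 1 ≠ 0 := sub_ne_zero.2 (hζ.ne_one hp.one_lt)
  have hζW : ζ ∈ S.W := S.R₁_le hζm
  set η : F := (μ - 1) / (ζ - 1) with hη
  have hμ : μ = 1 + (ζ - 1) * η := by rw [hη]; field_simp; ring
  have hprod : ∏ i ∈ range p, (η - qInt ζ i) = B.π ^ k * z := by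
    have h1 := prod_sub_qInt_one hζ hp.pos η
    rw [← hμ, h, add_sub_cancel_left] at h1
    exact (mul_left_cancel₀ (pow_ne_zero p hlam) h1).symm
  have hηW : η ∈ S.W := by
    refine S.mem_of_prod_sub_mem hp.pos (fun i => qInt ζ i) (fun i => qInt_mem S.W hζW i) ?_
    rw [hprod]
    exact S.W.mul_mem (S.W.pow_mem S.π_mem k) hz
  have hfac : ∀ i, η - qInt ζ i ∈ S.W := fun i => S.W.sub_mem hηW (qInt_mem S.W hζW i)
  have hpi : PiDvd B.π S.W 1 (∏ i ∈ range p, (η - qInt ζ i)) := by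
    rw [hprod]
    exact (piDvd_pow_mul hz).mono S.π_mem hk
  obtain ⟨j, hj, hjdvd⟩ := S.exists_piDvd_of_prod (range p) _ (fun i _ => hfac i) hpi
  have hjp : j < p := mem_range.1 hj
  -- the other factors are units
  have hunit : ∀ i ∈ (range p).erase j, IsUnitIn S.W (η - qInt ζ i) := by
    intro i hi
    obtain ⟨hij, hi'⟩ := mem_erase.1 hi
    have hu := (B.isUnitIn_qInt_sub_qInt hp hζ hζm (mem_range.1 hi') hjp hij).of_le S.R₁_le
    have : η - qInt ζ i = (qInt ζ j - qInt ζ i) * (1 + (qInt ζ j - qInt ζ i)⁻¹ * (η - qInt ζ j)) := by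
      have := hu.2.2
      field_simp
      ring
    rw [this]
    exact hu.mul (S.isUnitIn_one_add (hjdvd.mul_left hu.2.1))
  have hP := isUnitIn_prod ((range p).erase j) _ hunit
  set P : F := ∏ i ∈ (range p).erase j, (η - qInt ζ i) with hPdef
  have hjP : (η - qInt ζ j) * P = B.π ^ k * z := by
    rw [hPdef, mul_prod_erase (range p) (fun i => η - qInt ζ i) hj, hprod]
  have hj' : η - qInt ζ j = B.π ^ k * (z * P⁻¹) := by
    have := hP.2.2
    field_simp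
    linear_combination hjP
  have hζj : ζ ^ j * ζ ^ (p - j) = 1 := by
    rw [← pow_add, Nat.add_sub_cancel' hjp.le, hζ.pow_eq_one]
  refine ⟨j, hjp, ζ ^ (p - j) * (z * P⁻¹), S.W.mul_mem (S.W.pow_mem hζW _) (S.W.mul_mem hz hP.2.1), ?_⟩
  have hq := qInt_mul_sub_one ζ j
  have h5 : η = qInt ζ j + B.π ^ k * (z * P⁻¹) := by linear_combination hj'
  rw [hμ, h5]
  linear_combination hq - ((ζ - 1) * (B.π ^ k * (z * P⁻¹))) * hζj

/-- **the node cocycle**: two `p`-th roots of the same function modulo `1 + lam ^ p π W` differ by a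
root of unity modulo `1 + lam π W`. -/
theorem Sheet.exists_zeta_pow_of_roots (hp : p.Prime) {ζ : F} (hζ : IsPrimitiveRoot ζ p)
    (hζm : ζ ∈ B.R₁) {γ γ' z z' : F} {k : ℕ} (hk : 1 ≤ k) (hγ' : γ' ≠ 0) (hz : z ∈ S.W)
    (hz' : z' ∈ S.W)
    (h : γ ^ p * (1 + (ζ - 1) ^ p * (B.π ^ k * z)) = γ' ^ p * (1 + (ζ - 1) ^ p * (B.π ^ k * z'))) :
    ∃ j < p, ∃ w ∈ S.W, γ = ζ ^ j * γ' * (1 + (ζ - 1) * (B.π ^ k * w)) := by
  have hζW : ζ ∈ S.W := S.R₁_le hζm
  have hlamW : (ζ - 1) ^ p ∈ S.W := S.W.pow_mem (S.W.sub_mem hζW S.W.one_mem) p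
  have hdvd : PiDvd B.π S.W 1 ((ζ - 1) ^ p * (B.π ^ k * z)) :=
    ((piDvd_pow_mul hz).mono S.π_mem hk).mul_left hlamW
  have hu := S.isUnitIn_one_add hdvd
  set D : F := 1 + (ζ - 1) ^ p * (B.π ^ k * z) with hD
  have hD0 : D ≠ 0 := hu.2.2
  have key : (γ / γ') ^ p = 1 + (ζ - 1) ^ p * (B.π ^ k * ((z' - z) * D⁻¹)) := by
    rw [div_pow, div_eq_iff (pow_ne_zero p hγ')]
    have h1 : γ ^ p = γ' ^ p * (1 + (ζ - 1) ^ p * (B.π ^ k * z')) * D⁻¹ := by
      rw [← h]; field_simp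
    rw [h1]
    field_simp
    rw [hD]
    ring
  obtain ⟨j, hj, w, hw, hjw⟩ := S.exists_zeta_pow_of_pow_eq hp hζ hζm hk
    (S.W.mul_mem (S.W.sub_mem hz' hz) hu.2.1) key
  refine ⟨j, hj, w, hw, ?_⟩
  rw [div_eq_iff hγ'] at hjw
  rw [hjw]; ring

end Sheet

end Fermat.Agent.NP
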